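import Mathlib
import Fermat.Agent.S05.Inertia

/-!
# S15 / CNT / TORIC, piece T-tame (V): the value group of `ℚ̄` at a place is locally cyclic

* `tame_cyc_step` : in a torsion-free commutative group, `a ^ n = g ^ c` (`n > 0`) implies that
  `g` and `a` are powers of one element `g ^ s * a ^ t`.
* `tame_V` : `L / K` algebraic, `A` a valuation subring of `L`, `ϖ ∈ Lˣ` such that the valuation of
  every nonzero element of `K` is a power of that of `ϖ`.  Then for every finite set `S ⊂ Lˣ`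
  there is `y ∈ Lˣ` such that the valuation of every `x ∈ S` is a power of the valuation of `y`.
* `tame_V_rat` : the case `K = ℚ`, `A` over the prime `N`, `ϖ = N`.
-/

set_option autoImplicit false

namespace Fermat.Agent.S15

open Fermat.Agent.S05

/-- the step of the induction -/
theorem tame_cyc_step {G : Type*} [CommGroup G]
    (htf : ∀ (e : G) (d : ℕ), 0 < d → e ^ d = 1 → e = 1) (g a : G) (n : ℕ) (hn : 0 < n)
    (c : ℤ) (h : a ^ n = g ^ c) :
    ∃ (s t n' c' : ℤ), (g ^ s * a ^ t) ^ n' = g ∧ (g ^ s * a ^ t) ^ c' = a := by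
  set d : ℕ := Int.gcd (n : ℤ) c with hd
  have hd0 : 0 < d := Int.gcd_pos_of_ne_zero_left _ (by exact_mod_cast hn.ne')
  obtain ⟨n', hn'⟩ : (d : ℤ) ∣ (n : ℤ) := Int.gcd_dvd_left _ _
  obtain ⟨c', hc'⟩ : (d : ℤ) ∣ c := Int.gcd_dvd_right _ _
  have hbez := Int.gcd_eq_gcd_ab (n : ℤ) c
  rw [← hd] at hbez
  set s : ℤ := Int.gcdA (n : ℤ) c
  set t : ℤ := Int.gcdB (n : ℤ) c
  have hd' : (d : ℤ) ≠ 0 := by exact_mod_cast hd0.ne'
  -- `n' s + c' t = 1`
  have hone : n' * s + c' * t = 1 := by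
    have h1 : (d : ℤ) * (n' * s + c' * t) = (d : ℤ) * 1 := by
      rw [mul_one, mul_add, ← mul_assoc, ← mul_assoc, ← hn', ← hc']
      exact hbez.symm
    exact mul_left_cancel₀ hd' h1
  -- `a ^ n' = g ^ c'`
  have hkey : a ^ n' = g ^ c' := by
    have h2 : (a ^ n' * (g ^ c')⁻¹) ^ d = 1 := by
      rw [mul_pow, inv_pow, ← zpow_natCast (a ^ n'), ← zpow_natCast (g ^ c'), ← zpow_mul,
        ← zpow_mul, mul_comm n', mul_comm c', ← hn', ← hc', zpow_natCast, h, mul_inv_cancel]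
    have h3 := htf _ d hd0 h2
    exact mul_inv_eq_one.1 h3
  refine ⟨s, t, n', c', ?_, ?_⟩
  · rw [mul_zpow, ← zpow_mul, ← zpow_mul, mul_comm t n', zpow_mul a n' t, hkey, ← zpow_mul,
      ← zpow_add, mul_comm s n', hone, zpow_one]
  · rw [mul_zpow, ← zpow_mul, ← zpow_mul, mul_comm s c', zpow_mul g c' s, ← hkey, ← zpow_mul,
      ← zpow_add, mul_comm t c', hone, zpow_one]

section General

variable {K L : Type*} [Field K] [Field L] [Algebra K L] [Algebra.IsAlgebraic K L]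

/-- the valuation on units -/
noncomputable def tameW (A : ValuationSubring L) : Lˣ →* A.ValueGroupˣ :=
  Units.map (A.valuation : L →* A.ValueGroup)

theorem tameW_val (A : ValuationSubring L) (x : Lˣ) :
    ((tameW A x : A.ValueGroupˣ) : A.ValueGroup) = A.valuation (x : L) := rfl

theorem tameW_torsionFree (A : ValuationSubring L) (e : A.ValueGroupˣ) (d : ℕ) (hd : 0 < d)
    (h : e ^ d = 1) : e = 1 := by
  apply Units.ext
  have h1 : ((e : A.ValueGroup)) ^ d = 1 := by
    have := congrArg (fun u : A.ValueGroupˣ => (u : A.ValueGroup)) h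
    simpa using this
  rcases (pow_eq_one_iff (M := A.ValueGroup)).1 h1 with h2 | h2
  · exact h2
  · omega

/-- **(V)**: the value group is locally cyclic. -/
theorem tame_V (A : ValuationSubring L) (ϖ : Lˣ)
    (hK : ∀ c : K, c ≠ 0 → ∃ b : ℤ, A.valuation (algebraMap K L c) = A.valuation (ϖ : L) ^ b)
    (S : Finset Lˣ) :
    ∃ y : Lˣ, ∀ x ∈ S, ∃ m : ℤ, tameW A x = tameW A y ^ m := by
  classical
  suffices H : ∃ y : Lˣ, (∃ m₀ : ℤ, tameW A ϖ = tameW A y ^ m₀) ∧
      ∀ x ∈ S, ∃ m : ℤ, tameW A x = tameW A y ^ m from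
    let ⟨y, _, hy⟩ := H; ⟨y, hy⟩
  induction S using Finset.induction_on with
  | empty => exact ⟨ϖ, ⟨1, (zpow_one _).symm⟩, fun x hx => absurd hx (Finset.notMem_empty x)⟩
  | insert x S _ ih =>
    obtain ⟨y, ⟨m₀, hm₀⟩, hy⟩ := ih
    -- `v x ^ n = v ϖ ^ b`
    obtain ⟨n, hn, c, hc, hval⟩ :=
      exists_pow_valuation_eq_algebraMap (K := K) A x.ne_zero (Algebra.IsAlgebraic.isAlgebraic _)
    obtain ⟨b, hb⟩ := hK c hc
    have h1 : tameW A x ^ n = tameW A y ^ (m₀ * b) := by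
      apply Units.ext
      rw [Units.val_pow_eq_pow_val, tameW_val, ← map_pow, hval, hb, zpow_mul, ← hm₀,
        Units.val_zpow_eq_zpow_val, tameW_val]
    obtain ⟨s, t, n', c', h2, h3⟩ :=
      tame_cyc_step (tameW_torsionFree A) (tameW A y) (tameW A x) n hn (m₀ * b) h1
    have hy' : tameW A (y ^ s * x ^ t) = tameW A y ^ s * tameW A x ^ t := by
      rw [map_mul, map_zpow, map_zpow]
    refine ⟨y ^ s * x ^ t, ⟨n' * m₀, ?_⟩, ?_⟩
    · rw [hy', zpow_mul, h2, hm₀]
    · intro z hz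
      rcases Finset.mem_insert.1 hz with rfl | hz
      · exact ⟨c', by rw [hy', h3]⟩
      · obtain ⟨m, hm⟩ := hy z hz
        exact ⟨n' * m, by rw [hy', zpow_mul, h2, hm]⟩

end General

end Fermat.Agent.S15
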