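import Mathlib
import Fermat.Agent.S05.Inertia
import Fermat.Agent.S15.ToricTameV

/-!
# S15 / CNT / TORIC, piece T-tame (A): valuations of rationals, the symbols `σ x / x`, and (N)

`A` a valuation subring of `L ⊇ ℚ` (algebraic) over the prime `N`, `σ` in the inertia group.

* `tame_val_int`, `tame_val_nat_pow`, `tame_val_rat` : the valuation of a nonzero rational is a
  power of the valuation of `N`.
* `tameTr A σ x` : `σ x / x - 1 ∈ 𝔪_A` ("`θ_x(σ) = 1`"); it is multiplicative in `x` and in `σ`.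
* `tame_N` : **(N)** if `π ^ n` fixes `x₀`, `N ∤ n` and `π x₀ ≠ x₀`, then
  `θ_z(π) ≠ 1` for `z = π x₀ - x₀`.
-/

set_option autoImplicit false
set_option linter.unusedSectionVars false
set_option linter.unusedVariables false

namespace Fermat.Agent.S15

open Fermat.Agent.S05

section Rat

variable {L : Type*} [Field L]

theorem tame_val_int (A : ValuationSubring L) {N : ℕ} (hN : N.Prime)
    (hA : A.LiesOverPrime N) (m : ℤ) (hm : ¬ (N : ℤ) ∣ m) : A.valuation (m : L) = 1 := by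
  have hmA : (m : L) ∈ A := intCast_mem A m
  have hle : A.valuation (m : L) ≤ 1 := (A.valuation_le_one_iff _).2 hmA
  by_contra hne
  have hlt : A.valuation (m : L) < 1 := lt_of_le_of_ne hle hne
  have hNlt : A.valuation ((N : ℕ) : L) < 1 := (ValuationSubring.mem_nonunits_iff A).1 hA
  have hcop : IsCoprime m (N : ℤ) := by
    rw [Int.isCoprime_iff_gcd_eq_one, Int.gcd_comm]
    have hp : Prime (N : ℤ) := Nat.prime_iff_prime_int.1 hN
    exact Int.isCoprime_iff_gcd_eq_one.1 ((Prime.coprime_iff_not_dvd hp).2 hm)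
  obtain ⟨a, b, hab⟩ := hcop
  have h1 : (a : L) * (m : L) + (b : L) * ((N : ℕ) : L) = 1 := by
    have := congrArg (fun t : ℤ => (t : L)) hab
    push_cast at this
    exact this
  have ha : A.valuation (a : L) ≤ 1 := (A.valuation_le_one_iff _).2 (intCast_mem A a)
  have hb : A.valuation (b : L) ≤ 1 := (A.valuation_le_one_iff _).2 (intCast_mem A b)
  have h2 : A.valuation ((a : L) * (m : L)) < 1 := by
    rw [map_mul]
    exact mul_lt_one_of_nonneg_of_lt_one_right ha zero_le hlt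
  have h3 : A.valuation ((b : L) * ((N : ℕ) : L)) < 1 := by
    rw [map_mul]
    exact mul_lt_one_of_nonneg_of_lt_one_right hb zero_le hNlt
  have h4 := Valuation.map_add_lt A.valuation h2 h3
  rw [h1, map_one] at h4
  exact lt_irrefl _ h4

theorem tame_val_nat_pow (A : ValuationSubring L) {N : ℕ} (hN : N.Prime)
    (hA : A.LiesOverPrime N) (m : ℕ) (hm : m ≠ 0) :
    ∃ e : ℕ, A.valuation ((m : ℕ) : L) = A.valuation ((N : ℕ) : L) ^ e := by
  obtain ⟨e, m', hm', rfl⟩ := Nat.exists_eq_pow_mul_and_not_dvd hm N hN.one_lt.ne'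
  refine ⟨e, ?_⟩
  have h1 : A.valuation ((m' : ℕ) : L) = 1 := by
    have := tame_val_int A hN hA (m' : ℤ) (by exact_mod_cast hm')
    simpa using this
  push_cast
  rw [map_mul, map_pow, h1, mul_one]

theorem tame_val_rat [Algebra ℚ L] (A : ValuationSubring L) {N : ℕ} (hN : N.Prime)
    (hA : A.LiesOverPrime N) (hN0 : ((N : ℕ) : L) ≠ 0) (c : ℚ) (hc : c ≠ 0) :
    ∃ b : ℤ, A.valuation (algebraMap ℚ L c) = A.valuation ((N : ℕ) : L) ^ b := by
  have hnum : c.num.natAbs ≠ 0 := Int.natAbs_ne_zero.2 (Rat.num_ne_zero.2 hc)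
  obtain ⟨e₁, h₁⟩ := tame_val_nat_pow A hN hA c.num.natAbs hnum
  obtain ⟨e₂, h₂⟩ := tame_val_nat_pow A hN hA c.den c.den_ne_zero
  have hv : A.valuation ((N : ℕ) : L) ≠ 0 := (Valuation.ne_zero_iff _).2 hN0
  have hnum' : A.valuation ((c.num : ℤ) : L) = A.valuation ((c.num.natAbs : ℕ) : L) := by
    rcases Int.natAbs_eq c.num with h | h
    · conv_lhs => rw [h]
      simp
    · conv_lhs => rw [h]
      simp
  have hcast : algebraMap ℚ L c = ((c.num : ℤ) : L) / ((c.den : ℕ) : L) := by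
    have h0 : (algebraMap ℚ L c) * algebraMap ℚ L (c.den : ℚ) = algebraMap ℚ L (c.num : ℚ) := by
      rw [← map_mul, Rat.mul_den_eq_num]
    have hden : algebraMap ℚ L (c.den : ℚ) ≠ 0 := by
      rw [Ne, map_eq_zero]
      exact_mod_cast c.den_ne_zero
    rw [map_natCast] at h0 hden
    rw [map_intCast] at h0
    rw [eq_div_iff hden, h0]
  refine ⟨(e₁ : ℤ) - e₂, ?_⟩
  rw [hcast, map_div₀, hnum', h₁, h₂, zpow_sub₀ hv, zpow_natCast, zpow_natCast]

end Rat

section Tr

variable {L : Type*} [Field L] [Algebra ℚ L] [Algebra.IsAlgebraic ℚ L]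

/-- `θ_x(σ) = 1` -/
def tameTr (A : ValuationSubring L) (σ : L ≃ₐ[ℚ] L) (x : L) : Prop := σ x / x - 1 ∈ A.nonunits

theorem tameTr_iff (A : ValuationSubring L) (σ : L ≃ₐ[ℚ] L) {x : L} (hx : x ≠ 0) :
    tameTr A σ x ↔ A.valuation (σ x - x) < A.valuation x := by
  have hv : A.valuation x ≠ 0 := (Valuation.ne_zero_iff _).2 hx
  have h1 : σ x / x - 1 = (σ x - x) / x := by field_simp
  rw [tameTr, ValuationSubring.mem_nonunits_iff, h1, map_div₀, div_lt_one₀ (zero_lt_iff.2 hv)]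

/-- the subgroup of `x ∈ Lˣ` with `θ_x(σ) = 1` -/
def tameTrSub (A : ValuationSubring L) {σ : L ≃ₐ[ℚ] L} (hσ : σ ∈ A.inertiaSubgroupIn ℚ) :
    Subgroup Lˣ where
  carrier := {x | tameTr A σ (x : L)}
  one_mem' := by
    show tameTr A σ ((1 : Lˣ) : L)
    rw [Units.val_one, tameTr_iff A σ (one_ne_zero), map_one, sub_self, map_zero, map_one]
    exact zero_lt_one
  mul_mem' := by
    intro x y hx hy
    have hx' := (tameTr_iff A σ x.ne_zero).1 hx
    have hy' := (tameTr_iff A σ y.ne_zero).1 hy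
    show tameTr A σ ((x * y : Lˣ) : L)
    rw [tameTr_iff A σ (x * y).ne_zero, Units.val_mul, map_mul]
    have h1 : σ (x : L) * σ (y : L) - (x : L) * y
        = σ (x : L) * (σ (y : L) - y) + (σ (x : L) - x) * y := by ring
    rw [h1, map_mul]
    have hvx : A.valuation (σ (x : L)) = A.valuation (x : L) := inertia_valuation_apply hσ _
    have hvx0 : A.valuation (x : L) ≠ 0 := (Valuation.ne_zero_iff _).2 x.ne_zero
    have hvy0 : A.valuation (y : L) ≠ 0 := (Valuation.ne_zero_iff _).2 y.ne_zero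
    refine Valuation.map_add_lt _ ?_ ?_
    · rw [map_mul, hvx]
      exact mul_lt_mul_of_pos_left hy' (zero_lt_iff.2 hvx0)
    · rw [map_mul]
      exact mul_lt_mul_of_pos_right hx' (zero_lt_iff.2 hvy0)
  inv_mem' := by
    intro x hx
    have hx' := (tameTr_iff A σ x.ne_zero).1 hx
    show tameTr A σ ((x⁻¹ : Lˣ) : L)
    rw [tameTr_iff A σ (x⁻¹).ne_zero, Units.val_inv_eq_inv_val, map_inv₀]
    have hvx : A.valuation (σ (x : L)) = A.valuation (x : L) := inertia_valuation_apply hσ _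
    have hvx0 : A.valuation (x : L) ≠ 0 := (Valuation.ne_zero_iff _).2 x.ne_zero
    have hσx0 : σ (x : L) ≠ 0 := by
      rw [Ne, map_eq_zero]
      exact x.ne_zero
    have h1 : (σ (x : L))⁻¹ - (x : L)⁻¹ = -((σ (x : L) - x) / (σ (x : L) * x)) := by
      field_simp
      ring
    rw [h1, Valuation.map_neg, map_div₀, map_mul, hvx, map_inv₀]
    rw [div_lt_iff₀ (mul_pos (zero_lt_iff.2 hvx0) (zero_lt_iff.2 hvx0))]
    rw [← mul_assoc, inv_mul_cancel₀ hvx0, one_mul]
    exact hx'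

theorem mem_tameTrSub (A : ValuationSubring L) {σ : L ≃ₐ[ℚ] L}
    (hσ : σ ∈ A.inertiaSubgroupIn ℚ) (x : Lˣ) : x ∈ tameTrSub A hσ ↔ tameTr A σ (x : L) := Iff.rfl

/-- units of `A` have trivial symbol -/
theorem tameTr_of_val_one (A : ValuationSubring L) {σ : L ≃ₐ[ℚ] L}
    (hσ : σ ∈ A.inertiaSubgroupIn ℚ) {u : L} (hu : A.valuation u = 1) : tameTr A σ u :=
  inertia_apply_div_sub_one_mem_nonunits hσ hu

/-- the symbol depends only on the valuation class generated by `y` -/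
theorem tameTr_of_val_zpow (A : ValuationSubring L) {σ : L ≃ₐ[ℚ] L}
    (hσ : σ ∈ A.inertiaSubgroupIn ℚ) (x y : Lˣ) (m : ℤ)
    (h : tameW A x = tameW A y ^ m) (hy : tameTr A σ (y : L)) : tameTr A σ (x : L) := by
  have h1 : y ^ m ∈ tameTrSub A hσ := Subgroup.zpow_mem _ hy m
  have h2 : A.valuation (((x * (y ^ m)⁻¹ : Lˣ)) : L) = 1 := by
    have h3 : tameW A (x * (y ^ m)⁻¹) = 1 := by
      rw [map_mul, map_inv, map_zpow, h, mul_inv_cancel]
    have := congrArg (fun u : A.ValueGroupˣ => (u : A.ValueGroup)) h3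
    simpa [tameW_val] using this
  have h4 : x * (y ^ m)⁻¹ ∈ tameTrSub A hσ := tameTr_of_val_one A hσ h2
  have h5 : x = (x * (y ^ m)⁻¹) * y ^ m := by rw [inv_mul_cancel_right]
  rw [h5]
  exact Subgroup.mul_mem _ h4 h1

/-- multiplicativity in `σ` -/
theorem tameTr_mul (A : ValuationSubring L) {σ τ : L ≃ₐ[ℚ] L}
    (hσ : σ ∈ A.inertiaSubgroupIn ℚ) (hτ : τ ∈ A.inertiaSubgroupIn ℚ) {x : L} (hx : x ≠ 0)
    (h1 : tameTr A σ x) (h2 : tameTr A τ x) : tameTr A (σ * τ) x := by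
  rw [tameTr_iff A _ hx] at h1 h2 ⊢
  have h3 : (σ * τ) x - x = σ (τ x - x) + (σ x - x) := by
    rw [AlgEquiv.mul_apply, map_sub]
    ring
  rw [h3]
  refine Valuation.map_add_lt _ ?_ h1
  rw [inertia_valuation_apply hσ]
  exact h2

theorem tameTr_one (A : ValuationSubring L) {x : L} (hx : x ≠ 0) :
    tameTr A (1 : L ≃ₐ[ℚ] L) x := by
  rw [tameTr_iff A _ hx, AlgEquiv.one_apply, sub_self, map_zero]
  exact zero_lt_iff.2 ((Valuation.ne_zero_iff _).2 hx)

theorem tameTr_pow (A : ValuationSubring L) {σ : L ≃ₐ[ℚ] L}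
    (hσ : σ ∈ A.inertiaSubgroupIn ℚ) {x : L} (hx : x ≠ 0) (h : tameTr A σ x) (n : ℕ) :
    tameTr A (σ ^ n) x := by
  induction n with
  | zero => rw [pow_zero]; exact tameTr_one A hx
  | succ n ih =>
    rw [pow_succ]
    exact tameTr_mul A (Subgroup.pow_mem _ hσ n) hσ hx ih h

/-- **(N)**: a tame element moving `x₀` has a nontrivial symbol at `π x₀ - x₀`. -/
theorem tame_N (A : ValuationSubring L) {N : ℕ} (hN : N.Prime) (hA : A.LiesOverPrime N)
    {π : L ≃ₐ[ℚ] L} (hπ : π ∈ A.inertiaSubgroupIn ℚ) (x₀ : L) (n : ℕ) (hn : ¬ N ∣ n)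
    (hpow : (π ^ n) x₀ = x₀) (hne : π x₀ ≠ x₀) : ¬ tameTr A π (π x₀ - x₀) := by
  intro hT
  set z : L := π x₀ - x₀ with hz
  have hz0 : z ≠ 0 := sub_ne_zero.2 hne
  have hvz : A.valuation z ≠ 0 := (Valuation.ne_zero_iff _).2 hz0
  -- telescoping
  have htel : ∑ i ∈ Finset.range n, (π ^ i) z = 0 := by
    have h1 : ∀ i : ℕ, (π ^ i) z = (π ^ (i + 1)) x₀ - (π ^ i) x₀ := by
      intro i
      rw [hz, map_sub, pow_succ, AlgEquiv.mul_apply]
    simp only [h1]
    rw [Finset.sum_range_sub (fun i => (π ^ i) x₀), hpow, pow_zero, AlgEquiv.one_apply, sub_self]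
  -- each term is `z + (small)`
  have hsum : ∑ i ∈ Finset.range n, ((π ^ i) z - z) = -((n : ℕ) : L) * z := by
    rw [Finset.sum_sub_distrib, htel, Finset.sum_const, Finset.card_range, nsmul_eq_mul]
    ring
  have hlt : A.valuation (∑ i ∈ Finset.range n, ((π ^ i) z - z)) < A.valuation z := by
    refine Valuation.map_sum_lt _ hvz fun i _ => ?_
    exact (tameTr_iff A _ hz0).1 (tameTr_pow A hπ hz0 hT i)
  rw [hsum, map_mul, Valuation.map_neg] at hlt
  have hvn : A.valuation ((n : ℕ) : L) = 1 := by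
    have := tame_val_int A hN hA (n : ℤ) (by exact_mod_cast hn)
    simpa using this
  rw [hvn, one_mul] at hlt
  exact lt_irrefl _ hlt

end Tr

end Fermat.Agent.S15
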