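import Fermat.Agent.RED.Kernel
import Fermat.Agent.S05.Kernel

/-!
# S15 / block N3, piece N3-SUB (helper8): the kernel of reduction over a valuation ring

`K` a field, `A` a valuation subring (any rank, any residue characteristic), `W` a Weierstrass
curve over `K` with `a₁, …, a₆ ∈ A` (`N3Int A W`), `v = A.valuation`.

* `n3subKer A W hW : AddSubgroup W.toAffine.Point` : `E₁ = {O} ∪ {P : x(P) ∉ A}`
  (`n3sub_mem_ker_some : (x, y) ∈ E₁ ↔ x ∉ A`, `n3sub_zero_mem`); closed under addition by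
  `RED.inKer_add`.
* on `E₁ ∖ O`: `n3sub_val_lt : v x < v y`, `n3sub_val_sq : v y ^ 2 = v x ^ 3`
  ("`v(y) = (3/2) v(x)`"), `n3sub_val_eta : v (2y + a₁x + a₃) = v y` if `v 2 = 1`.
* outside `E₁`: `n3sub_y_mem : x ∈ A → y ∈ A`, `n3sub_eta_mem`.
* `n3sub_mem_of_nsmul_mem` : if `N • Q = 0`, `N` prime, `N ∤ k` and `k • Q ∈ E₁` then `Q ∈ E₁`
  (so all multiples of `Q` lie in `E₁`: `n3sub_nsmul_mem`).
-/

set_option autoImplicit false
set_option linter.unusedSectionVars false
set_option linter.unusedVariables false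

namespace Fermat.Agent.S15

open WeierstrassCurve WeierstrassCurve.Affine

variable {K : Type*} [Field K] [DecidableEq K] (A : ValuationSubring K) (W : WeierstrassCurve K)

/-- the coefficients of `W` lie in `A` -/
structure N3Int : Prop where
  h₁ : W.a₁ ∈ A
  h₂ : W.a₂ ∈ A
  h₃ : W.a₃ ∈ A
  h₄ : W.a₄ ∈ A
  h₆ : W.a₆ ∈ A

variable {A W}

/-- the model over `A` -/
def N3Int.model (hW : N3Int A W) : WeierstrassCurve A :=
  ⟨⟨W.a₁, hW.h₁⟩, ⟨W.a₂, hW.h₂⟩, ⟨W.a₃, hW.h₃⟩, ⟨W.a₄, hW.h₄⟩, ⟨W.a₆, hW.h₆⟩⟩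

theorem N3Int.curveK_model (hW : N3Int A W) : Fermat.Agent.RED.curveK A hW.model = W := rfl

/-- the kernel predicate: `P = O` or `x(P) ∉ A` -/
def n3subInKer (A : ValuationSubring K) {W : WeierstrassCurve K} : W.toAffine.Point → Prop
  | .zero => True
  | .some x _ _ => x ∉ A

theorem n3sub_inKer_zero : n3subInKer A (0 : W.toAffine.Point) := trivial

theorem n3sub_inKer_some {x y : K} (h : W.toAffine.Nonsingular x y) :
    n3subInKer A (Point.some x y h) ↔ x ∉ A := Iff.rfl

theorem n3sub_inKer_iff_red (hW : N3Int A W) (Q : W.toAffine.Point) :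
    n3subInKer A Q ↔ Fermat.Agent.RED.InKer (A := A) (W₀ := hW.model) Q := by
  cases Q with
  | zero => exact Iff.rfl
  | some x y h => exact Iff.rfl

theorem n3sub_inKer_neg {Q : W.toAffine.Point} (hQ : n3subInKer A Q) : n3subInKer A (-Q) := by
  cases Q with
  | zero => exact hQ
  | some x y h => exact hQ

theorem n3sub_inKer_add (hW : N3Int A W) {P Q : W.toAffine.Point} (hP : n3subInKer A P)
    (hQ : n3subInKer A Q) : n3subInKer A (P + Q) := by
  rw [n3sub_inKer_iff_red hW] at hP hQ ⊢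
  exact Fermat.Agent.RED.inKer_add hP hQ

/-- **the kernel of reduction** `E₁ = {O} ∪ {P : x(P) ∉ A}` -/
def n3subKer (A : ValuationSubring K) (W : WeierstrassCurve K) (hW : N3Int A W) :
    AddSubgroup W.toAffine.Point where
  carrier := {P : W.toAffine.Point | n3subInKer A P}
  zero_mem' := n3sub_inKer_zero (A := A) (W := W)
  add_mem' := fun {P Q} hP hQ => n3sub_inKer_add (A := A) (W := W) hW hP hQ
  neg_mem' := fun {P} hP => n3sub_inKer_neg (A := A) (W := W) hP

theorem n3sub_mem_ker_iff (hW : N3Int A W) (P : W.toAffine.Point) :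
    P ∈ n3subKer A W hW ↔ n3subInKer A P := Iff.rfl

theorem n3sub_zero_mem (hW : N3Int A W) : (0 : W.toAffine.Point) ∈ n3subKer A W hW :=
  (n3subKer A W hW).zero_mem

theorem n3sub_mem_ker_some (hW : N3Int A W) {x y : K} (h : W.toAffine.Nonsingular x y) :
    Point.some x y h ∈ n3subKer A W hW ↔ x ∉ A := Iff.rfl

theorem n3sub_nsmul_mem (hW : N3Int A W) {Q : W.toAffine.Point} (hQ : Q ∈ n3subKer A W hW)
    (k : ℕ) : k • Q ∈ n3subKer A W hW := (n3subKer A W hW).nsmul_mem hQ k

/-- if one multiple `k • Q`, `N ∤ k`, of a point of prime order `N` lies in `E₁`, so does `Q` -/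
theorem n3sub_mem_of_nsmul_mem (hW : N3Int A W) {N : ℕ} (hN : N.Prime) {Q : W.toAffine.Point}
    (hQ : N • Q = 0) {k : ℕ} (hk : ¬ N ∣ k) (h : k • Q ∈ n3subKer A W hW) :
    Q ∈ n3subKer A W hW := by
  have hcop : Nat.Coprime k N := ((Nat.Prime.coprime_iff_not_dvd hN).2 hk).symm
  -- `a k ≡ 1 mod N`
  obtain ⟨a, -, ha⟩ := Nat.exists_mul_mod_eq_one_of_coprime hcop hN.one_lt
  have h1 : (k * a) • Q = Q := by
    have h2 : k * a = N * (k * a / N) + 1 := by
      have := Nat.div_add_mod (k * a) N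
      rw [ha] at this
      exact this.symm
    rw [h2, add_smul, one_smul, mul_comm, mul_smul, hQ, smul_zero, zero_add]
  rw [← h1, mul_comm, mul_smul]
  exact n3sub_nsmul_mem hW h a

/-! ### Valuations of the coordinates -/

section Val

variable {x y : K}

/-- `x ∈ A ⇒ y ∈ A` -/
theorem n3sub_y_mem (hW : N3Int A W) (h : W.toAffine.Equation x y) (hx : x ∈ A) : y ∈ A :=
  Fermat.Agent.RED.y_mem_of_x_mem A hW.model (x := x) (y := y) h hx

/-- `x ∈ A ⇒ η = 2y + a₁x + a₃ ∈ A` -/
theorem n3sub_eta_mem (hW : N3Int A W) (h : W.toAffine.Equation x y) (hx : x ∈ A) :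
    2 * y + W.a₁ * x + W.a₃ ∈ A := by
  have hy := n3sub_y_mem hW h hx
  have h2 : (2 : K) ∈ A := by
    have : (2 : K) = 1 + 1 := by norm_num
    rw [this]
    exact add_mem A.one_mem A.one_mem
  exact add_mem (add_mem (mul_mem h2 hy) (mul_mem hW.h₁ hx)) hW.h₃

/-- the cubic `x³ + a₂x² + a₄x + a₆` has the valuation of `x³` if `x ∉ A` -/
theorem n3sub_val_cubic (hW : N3Int A W) (hx : x ∉ A) :
    A.valuation (x ^ 3 + W.a₂ * x ^ 2 + W.a₄ * x + W.a₆) = A.valuation x ^ 3 := by
  have hv : 1 < A.valuation x := by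
    rw [← not_le, A.valuation_le_one_iff]
    exact hx
  have h0 : (0 : A.ValueGroup) < 1 := zero_lt_one
  have hpos : 0 < A.valuation x := h0.trans hv
  have hv2 : A.valuation x < A.valuation x ^ 2 := by
    calc A.valuation x = A.valuation x * 1 := (mul_one _).symm
      _ < A.valuation x * A.valuation x := by
        exact mul_lt_mul_of_pos_left hv hpos
      _ = A.valuation x ^ 2 := (sq _).symm
  have hv3 : A.valuation x ^ 2 < A.valuation x ^ 3 := by
    have hpos2 : 0 < A.valuation x ^ 2 := pow_pos hpos 2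
    calc A.valuation x ^ 2 = A.valuation x ^ 2 * 1 := (mul_one _).symm
      _ < A.valuation x ^ 2 * A.valuation x := mul_lt_mul_of_pos_left hv hpos2
      _ = A.valuation x ^ 3 := (pow_succ _ 2).symm
  have ha₂ : A.valuation W.a₂ ≤ 1 := (A.valuation_le_one_iff _).2 hW.h₂
  have ha₄ : A.valuation W.a₄ ≤ 1 := (A.valuation_le_one_iff _).2 hW.h₄
  have ha₆ : A.valuation W.a₆ ≤ 1 := (A.valuation_le_one_iff _).2 hW.h₆
  have e2 : A.valuation (W.a₂ * x ^ 2) < A.valuation x ^ 3 := by
    rw [map_mul, map_pow]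
    exact lt_of_le_of_lt (mul_le_of_le_one_left' ha₂) hv3
  have e4 : A.valuation (W.a₄ * x) < A.valuation x ^ 3 := by
    rw [map_mul]
    exact lt_of_le_of_lt (mul_le_of_le_one_left' ha₄) (hv2.trans hv3)
  have e6 : A.valuation W.a₆ < A.valuation x ^ 3 :=
    lt_of_le_of_lt ha₆ (hv.trans (hv2.trans hv3))
  have e3 : A.valuation (x ^ 3) = A.valuation x ^ 3 := map_pow _ _ _
  have s1 : A.valuation (x ^ 3 + W.a₂ * x ^ 2) = A.valuation x ^ 3 := by
    rw [Valuation.map_add_eq_of_lt_left _ (by rw [e3]; exact e2), e3]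
  have s2 : A.valuation (x ^ 3 + W.a₂ * x ^ 2 + W.a₄ * x) = A.valuation x ^ 3 := by
    rw [Valuation.map_add_eq_of_lt_left _ (by rw [s1]; exact e4), s1]
  rw [Valuation.map_add_eq_of_lt_left _ (by rw [s2]; exact e6), s2]

/-- on `E₁ ∖ O`: `v x < v y` -/
theorem n3sub_val_lt (hW : N3Int A W) (h : W.toAffine.Equation x y) (hx : x ∉ A) :
    A.valuation x < A.valuation y := by
  have hv : 1 < A.valuation x := by
    rw [← not_le, A.valuation_le_one_iff]
    exact hx
  have h0 : (0 : A.ValueGroup) < 1 := zero_lt_one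
  have hpos : 0 < A.valuation x := h0.trans hv
  by_contra hle
  rw [not_lt] at hle
  have heq := (Affine.equation_iff _ _).1 h
  have hcub := n3sub_val_cubic hW hx
  rw [← heq] at hcub
  have ha₁ : A.valuation W.a₁ ≤ 1 := (A.valuation_le_one_iff _).2 hW.h₁
  have ha₃ : A.valuation W.a₃ ≤ 1 := (A.valuation_le_one_iff _).2 hW.h₃
  have hxx : A.valuation x * A.valuation x = A.valuation x ^ 2 := (sq _).symm
  have b1 : A.valuation (y ^ 2) ≤ A.valuation x ^ 2 := by
    rw [map_pow]
    exact pow_le_pow_left₀ zero_le hle 2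
  have b2 : A.valuation (W.a₁ * x * y) ≤ A.valuation x ^ 2 := by
    rw [map_mul, map_mul, ← hxx]
    calc A.valuation W.a₁ * A.valuation x * A.valuation y
        ≤ 1 * A.valuation x * A.valuation x := by
          gcongr
      _ = A.valuation x * A.valuation x := by rw [one_mul]
  have b3 : A.valuation (W.a₃ * y) ≤ A.valuation x ^ 2 := by
    rw [map_mul, ← hxx]
    calc A.valuation W.a₃ * A.valuation y ≤ 1 * A.valuation x := by gcongr
      _ = A.valuation x := one_mul _
      _ ≤ A.valuation x * A.valuation x := by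
        calc A.valuation x = A.valuation x * 1 := (mul_one _).symm
          _ ≤ A.valuation x * A.valuation x := by gcongr
  have b : A.valuation (y ^ 2 + W.a₁ * x * y + W.a₃ * y) ≤ A.valuation x ^ 2 :=
    (A.valuation.map_add_le (A.valuation.map_add_le b1 b2) b3)
  rw [hcub] at b
  have hv3 : A.valuation x ^ 2 < A.valuation x ^ 3 := by
    have hpos2 : 0 < A.valuation x ^ 2 := pow_pos hpos 2
    calc A.valuation x ^ 2 = A.valuation x ^ 2 * 1 := (mul_one _).symm
      _ < A.valuation x ^ 2 * A.valuation x := mul_lt_mul_of_pos_left hv hpos2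
      _ = A.valuation x ^ 3 := (pow_succ _ 2).symm
  exact absurd b (not_le.2 hv3)

/-- on `E₁ ∖ O`: `v(y + a₁x + a₃) = v y` -/
theorem n3sub_val_negY (hW : N3Int A W) (h : W.toAffine.Equation x y) (hx : x ∉ A) :
    A.valuation (y + W.a₁ * x + W.a₃) = A.valuation y := by
  have hlt := n3sub_val_lt hW h hx
  have hv : 1 < A.valuation x := by
    rw [← not_le, A.valuation_le_one_iff]
    exact hx
  have ha₁ : A.valuation W.a₁ ≤ 1 := (A.valuation_le_one_iff _).2 hW.h₁
  have ha₃ : A.valuation W.a₃ ≤ 1 := (A.valuation_le_one_iff _).2 hW.h₃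
  have e1 : A.valuation (W.a₁ * x) < A.valuation y := by
    rw [map_mul]
    exact lt_of_le_of_lt (mul_le_of_le_one_left' ha₁) hlt
  have e3 : A.valuation W.a₃ < A.valuation y := lt_of_le_of_lt ha₃ (hv.trans hlt)
  have s1 : A.valuation (y + W.a₁ * x) = A.valuation y :=
    Valuation.map_add_eq_of_lt_left _ e1
  rw [Valuation.map_add_eq_of_lt_left _ (by rw [s1]; exact e3), s1]

/-- on `E₁ ∖ O`: `v(y)² = v(x)³` -/
theorem n3sub_val_sq (hW : N3Int A W) (h : W.toAffine.Equation x y) (hx : x ∉ A) :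
    A.valuation y ^ 2 = A.valuation x ^ 3 := by
  have heq := (Affine.equation_iff _ _).1 h
  have hcub := n3sub_val_cubic hW hx
  rw [← heq] at hcub
  have e : y ^ 2 + W.a₁ * x * y + W.a₃ * y = y * (y + W.a₁ * x + W.a₃) := by ring
  rw [e, map_mul, n3sub_val_negY hW h hx] at hcub
  rw [sq]
  exact hcub

/-- on `E₁ ∖ O`: `v(η) = v(y)` for `η = 2y + a₁x + a₃`, if `2` is a unit of `A` -/
theorem n3sub_val_eta (hW : N3Int A W) (h2 : A.valuation (2 : K) = 1)
    (h : W.toAffine.Equation x y) (hx : x ∉ A) :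
    A.valuation (2 * y + W.a₁ * x + W.a₃) = A.valuation y := by
  have hlt := n3sub_val_lt hW h hx
  have hv : 1 < A.valuation x := by
    rw [← not_le, A.valuation_le_one_iff]
    exact hx
  have ha₁ : A.valuation W.a₁ ≤ 1 := (A.valuation_le_one_iff _).2 hW.h₁
  have ha₃ : A.valuation W.a₃ ≤ 1 := (A.valuation_le_one_iff _).2 hW.h₃
  have e0 : A.valuation (2 * y) = A.valuation y := by rw [map_mul, h2, one_mul]
  have e1 : A.valuation (W.a₁ * x) < A.valuation (2 * y) := by
    rw [map_mul, e0]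
    exact lt_of_le_of_lt (mul_le_of_le_one_left' ha₁) hlt
  have e3 : A.valuation W.a₃ < A.valuation y := lt_of_le_of_lt ha₃ (hv.trans hlt)
  have s1 : A.valuation (2 * y + W.a₁ * x) = A.valuation y := by
    rw [Valuation.map_add_eq_of_lt_left _ e1, e0]
  rw [Valuation.map_add_eq_of_lt_left _ (by rw [s1]; exact e3), s1]

/-- on `E₁ ∖ O`: `y ∉ A` -/
theorem n3sub_y_not_mem (hW : N3Int A W) (h : W.toAffine.Equation x y) (hx : x ∉ A) : y ∉ A := by
  intro hy
  have hlt := n3sub_val_lt hW h hx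
  have hv : 1 < A.valuation x := by
    rw [← not_le, A.valuation_le_one_iff]
    exact hx
  have : A.valuation y ≤ 1 := (A.valuation_le_one_iff _).2 hy
  exact absurd (hv.trans hlt) (not_lt.2 this)

end Val

end Fermat.Agent.S15
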