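import Fermat.Agent.S15.PkgRedF

/-!
# S15 / LN-PKG, piece PKG-val (3): the basic fields of the package (`PkgIsVal`)

API (use these, not the definitions):
* `pkg_coe_red₁` : `((pkgRed₁ N A hB x : FFk A) : k((q))) = deuInstRedFun N A x`;
* `pkg_red₁_of_gaussRed` : `GaussRed N A x w → ∃ hx, (pkgRed₁ N A hB ⟨x, hx⟩ : k((q))) = w`;
* `pkg_red₂_of_gaussRed` : `GaussRed N A (w_N x) w → ∃ hx, (pkgRed₂ N A hB ⟨x, hx⟩ : k((q))) = w`;
* `pkg_gaussRed_int` : an element of `F_N` whose `q`-expansion is `coeffMap _ T`, `T ∈ ℤ((q))`,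
  has Gauss reduction `coeffMap _ T`;
* `pkg_mem_nonunits_iff₁/₂`;
* `pkg_isVal : PkgIsVal N A hB`, `stmtPkgVal : StmtPkgVal`.
-/

set_option autoImplicit false

noncomputable section

open ModularCurve HahnSeries Polynomial

namespace Fermat.Agent.S15.LN

open Fermat.Agent.UNIP Fermat.Agent.S28.UB Fermat.Agent.S24 Fermat.Agent.ES Fermat.Agent.ES.M
  Fermat.Agent.DEU Fermat.Agent.INJ Fermat.Agent.S15 Fermat.Agent.S28

variable (N : ℕ) [NeZero N] (A : ValuationSubring Kb)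

/-! ## The reductions as Laurent series -/

theorem pkg_coe_red₁ (hB : PkgBase N A) (x : pkgO₁ N A) :
    ((pkgRed₁ N A hB x : FFk A) : LaurentSeries (kA A)) = deuInstRedFun N A x := rfl

theorem pkg_coe_red₂ (hB : PkgBase N A) (x : pkgO₂ N A) :
    ((pkgRed₂ N A hB x : FFk A) : LaurentSeries (kA A)) =
      deuInstRedFun N A (pkgSwap N A x) := rfl

theorem pkg_gaussRed_red₁ (hB : PkgBase N A) (x : pkgO₁ N A) :
    GaussRed N A (x : FF N) ((pkgRed₁ N A hB x : FFk A) : LaurentSeries (kA A)) :=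
  deuInstRedFun_spec N A x

theorem pkg_gaussRed_red₂ (hB : PkgBase N A) (x : pkgO₂ N A) :
    GaussRed N A (frickeAut N (x : FF N))
      ((pkgRed₂ N A hB x : FFk A) : LaurentSeries (kA A)) :=
  deuInstRedFun_spec N A (pkgSwap N A x)

theorem pkg_red₁_of_gaussRed (hB : PkgBase N A) {x : FF N} {w : LaurentSeries (kA A)}
    (h : GaussRed N A x w) :
    ∃ hx : x ∈ pkgO₁ N A, ((pkgRed₁ N A hB ⟨x, hx⟩ : FFk A) : LaurentSeries (kA A)) = w :=
  ⟨⟨w, h⟩, deuInstRedFun_eq N A (x := ⟨x, ⟨w, h⟩⟩) h⟩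

theorem pkg_red₂_of_gaussRed (hB : PkgBase N A) {x : FF N} {w : LaurentSeries (kA A)}
    (h : GaussRed N A (frickeAut N x) w) :
    ∃ hx : x ∈ pkgO₂ N A, ((pkgRed₂ N A hB ⟨x, hx⟩ : FFk A) : LaurentSeries (kA A)) = w :=
  ⟨⟨w, h⟩, deuInstRedFun_eq N A (x := ⟨frickeAut N x, ⟨w, h⟩⟩) h⟩

theorem pkg_red₁_eq (hB : PkgBase N A) {x : FF N} (hx : x ∈ pkgO₁ N A)
    {w : LaurentSeries (kA A)} (h : GaussRed N A x w) :
    ((pkgRed₁ N A hB ⟨x, hx⟩ : FFk A) : LaurentSeries (kA A)) = w :=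
  deuInstRedFun_eq N A (x := ⟨x, hx⟩) h

theorem pkg_red₂_eq (hB : PkgBase N A) {x : FF N} (hx : x ∈ pkgO₂ N A)
    {w : LaurentSeries (kA A)} (h : GaussRed N A (frickeAut N x) w) :
    ((pkgRed₂ N A hB ⟨x, hx⟩ : FFk A) : LaurentSeries (kA A)) = w :=
  deuInstRedFun_eq N A (x := ⟨frickeAut N x, hx⟩) h

/-- an element of `F_N` with `q`-expansion in `ℤ((q))` -/
theorem pkg_gaussRed_int (T : LaurentSeries ℤ) (x : FF N)
    (hx : (x : LaurentSeries Kb) = coeffMap (Int.castRingHom Kb) T) :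
    GaussRed N A x (coeffMap (Int.castRingHom (kA A)) T) := by
  refine ⟨coeffMap (Int.castRingHom A) T, 1, ?_, ?_, ?_, ?_, ?_⟩
  · rw [pkg_kronIncl_int, ← hx]; exact x.2
  · rw [map_one]; exact one_mem _
  · rw [map_one]; exact one_ne_zero
  · rw [map_one, mul_one, pkg_kronIncl_int, hx]
  · rw [map_one, mul_one, pkg_kronRed_int]

/-! ## Nonunits -/

theorem pkg_mem_nonunits₂_iff (x : FF N) :
    x ∈ (pkgO₂ N A).nonunits ↔ frickeAut N x ∈ (pkgO₁ N A).nonunits := by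
  rw [ValuationSubring.mem_nonunits_iff_or, ValuationSubring.mem_nonunits_iff_or, mem_pkgO₂,
    map_inv₀, map_eq_zero_iff _ (frickeAut N).injective]

/-! ## The basic fields -/

section IsVal

variable (hB : PkgBase N A)

theorem pkg_red₁_apply (x : pkgO₁ N A) :
    pkgRed₁ N A hB x = (IntermediateField.equivOfEq hB.fieldEq :
      ↥(modularFunctionFieldFullC (kA A) N) ≃ₐ[kA A] ↥(modularFunctionFieldFullC (kA A) 1))
        (deuValRed N A hB.redF x) := rfl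

theorem pkg_red₁_eq_zero_iff (x : pkgO₁ N A) :
    pkgRed₁ N A hB x = 0 ↔ (x : FF N) ∈ (pkgO₁ N A).nonunits := by
  rw [pkg_red₁_apply, map_eq_zero_iff _ (AlgEquiv.injective _)]
  exact deuVal_red_eq_zero_iff' N A hB.redF x

theorem pkg_red₂_eq_zero_iff (x : pkgO₂ N A) :
    pkgRed₂ N A hB x = 0 ↔ (x : FF N) ∈ (pkgO₂ N A).nonunits := by
  rw [pkg_mem_nonunits₂_iff]
  exact pkg_red₁_eq_zero_iff N A hB (pkgSwap N A x)

theorem pkg_red₁_surjective : Function.Surjective (pkgRed₁ N A hB) := by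
  intro y
  obtain ⟨x, hx⟩ := deuVal_red_surjective N A hB.redF
    ((IntermediateField.equivOfEq hB.fieldEq :
      ↥(modularFunctionFieldFullC (kA A) N) ≃ₐ[kA A]
        ↥(modularFunctionFieldFullC (kA A) 1)).symm y)
  refine ⟨x, ?_⟩
  rw [pkg_red₁_apply, hx, AlgEquiv.apply_symm_apply]

theorem pkg_swap_surjective : Function.Surjective (pkgSwap N A) := by
  intro y
  have h : frickeAut N (y : FF N) ∈ pkgO₂ N A := by
    rw [mem_pkgO₂, frickeAut_frickeAut]; exact y.2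
  exact ⟨⟨frickeAut N (y : FF N), h⟩, Subtype.ext (frickeAut_frickeAut N _)⟩

theorem pkg_red₂_surjective : Function.Surjective (pkgRed₂ N A hB) :=
  (pkg_red₁_surjective N A hB).comp (pkg_swap_surjective N A)

include hB in
theorem pkg_algebraMap_mem_iff₁ (a : Kb) : algebraMap Kb (FF N) a ∈ pkgO₁ N A ↔ a ∈ A :=
  deuVal_algebraMap_mem_iff' N A hB.redF a

include hB in
theorem pkg_algebraMap_mem_iff₂ (a : Kb) : algebraMap Kb (FF N) a ∈ pkgO₂ N A ↔ a ∈ A := by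
  rw [mem_pkgO₂, AlgEquiv.commutes]
  exact pkg_algebraMap_mem_iff₁ N A hB a

theorem pkg_red₁_algebraMap (a : A) (h : algebraMap Kb (FF N) (a : Kb) ∈ pkgO₁ N A) :
    pkgRed₁ N A hB ⟨algebraMap Kb (FF N) (a : Kb), h⟩ =
      algebraMap (kA A) (FFk A) (IsLocalRing.residue A a) := by
  rw [pkg_red₁_apply]
  have h1 := deuVal_red_algebraMap N A hB.redF a h
  rw [h1, AlgEquiv.commutes]

theorem pkg_red₂_algebraMap (a : A) (h : algebraMap Kb (FF N) (a : Kb) ∈ pkgO₂ N A) :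
    pkgRed₂ N A hB ⟨algebraMap Kb (FF N) (a : Kb), h⟩ =
      algebraMap (kA A) (FFk A) (IsLocalRing.residue A a) := by
  have h1 : algebraMap Kb (FF N) (a : Kb) ∈ pkgO₁ N A := (pkg_algebraMap_mem_iff₁ N A hB _).mpr a.2
  have h2 : pkgSwap N A ⟨algebraMap Kb (FF N) (a : Kb), h⟩ = ⟨algebraMap Kb (FF N) (a : Kb), h1⟩ :=
    Subtype.ext ((coe_pkgSwap N A _).trans ((frickeAut N).commutes (a : Kb)))
  show pkgRed₁ N A hB (pkgSwap N A ⟨algebraMap Kb (FF N) (a : Kb), h⟩) = _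
  rw [h2]
  exact pkg_red₁_algebraMap N A hB a h1

theorem pkg_prim₁ (f : FF N) (hf : f ≠ 0) :
    ∃ a : Kb, a ≠ 0 ∧ ∃ h : algebraMap Kb (FF N) a * f ∈ pkgO₁ N A,
      pkgRed₁ N A hB ⟨algebraMap Kb (FF N) a * f, h⟩ ≠ 0 := by
  obtain ⟨a, ha, h, hred⟩ := deuVal_prim N A hB.redF f hf
  refine ⟨a, ha, h, fun h0 => hred ?_⟩
  rw [pkg_red₁_apply, map_eq_zero_iff _ (AlgEquiv.injective _)] at h0
  exact h0

theorem pkg_prim₂ (f : FF N) (hf : f ≠ 0) :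
    ∃ a : Kb, a ≠ 0 ∧ ∃ h : algebraMap Kb (FF N) a * f ∈ pkgO₂ N A,
      pkgRed₂ N A hB ⟨algebraMap Kb (FF N) a * f, h⟩ ≠ 0 := by
  have hwf : frickeAut N f ≠ 0 := fun h => hf ((map_eq_zero_iff _ (frickeAut N).injective).mp h)
  obtain ⟨a, ha, h, hred⟩ := pkg_prim₁ N A hB (frickeAut N f) hwf
  have h1 : frickeAut N (algebraMap Kb (FF N) a * f) = algebraMap Kb (FF N) a * frickeAut N f := by
    rw [map_mul, AlgEquiv.commutes]
  have h2 : algebraMap Kb (FF N) a * f ∈ pkgO₂ N A := by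
    rw [mem_pkgO₂, h1]; exact h
  refine ⟨a, ha, h2, ?_⟩
  have h3 : pkgSwap N A ⟨algebraMap Kb (FF N) a * f, h2⟩ =
      ⟨algebraMap Kb (FF N) a * frickeAut N f, h⟩ :=
    Subtype.ext ((coe_pkgSwap N A _).trans h1)
  show pkgRed₁ N A hB (pkgSwap N A ⟨algebraMap Kb (FF N) a * f, h2⟩) ≠ 0
  rw [h3]
  exact hred

/-! ### `j`, `j_N`, `h` -/

theorem pkg_coe_Jbar : ((pkgJbar A : FFk A) : LaurentSeries (kA A)) = jqModC (kA A) := rfl

theorem pkg_gaussRed_j : GaussRed N A (jF N) (jqModC (kA A)) := by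
  have h := pkg_gaussRed_int N A (jqModC ℤ) (jF N) (by rw [pkg_coe_jF, coeffMap_jqModC])
  rwa [coeffMap_jqModC] at h

theorem pkg_gaussRed_jN : GaussRed N A (jdF N N dvd_rfl) (qExpand (kA A) N (jqModC (kA A))) := by
  have h := pkg_gaussRed_int N A (qExpand ℤ N (jqModC ℤ)) (jdF N N dvd_rfl)
    (by rw [pkg_coe_jNF, coeffMap_qExpand, coeffMap_jqModC])
  rwa [coeffMap_qExpand, coeffMap_jqModC] at h

theorem pkg_red₁_j : ∃ h : jF N ∈ pkgO₁ N A, pkgRed₁ N A hB ⟨_, h⟩ = pkgJbar A := by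
  obtain ⟨h, he⟩ := pkg_red₁_of_gaussRed N A hB (pkg_gaussRed_j N A)
  exact ⟨h, Subtype.ext he⟩

theorem pkg_red₁_jN (hN : N.Prime) (hA : A.LiesOverPrime N) :
    ∃ h : jdF N N dvd_rfl ∈ pkgO₁ N A, pkgRed₁ N A hB ⟨_, h⟩ = pkgJbar A ^ N := by
  haveI : CharP (kA A) N := kron_charP_residueField hN hA
  obtain ⟨h, he⟩ := pkg_red₁_of_gaussRed N A hB (pkg_gaussRed_jN N A)
  refine ⟨h, Subtype.ext ?_⟩
  rw [he, pkg_jN_eq_pow N (kA A) hN]
  push_cast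
  rw [pkg_coe_Jbar]

/-- the Gauss reduction of the modular unit `Δ(q^N)/Δ(q)` -/
theorem pkg_gaussRed_oggU : GaussRed N A (oggU N) (uS (kA A) N) :=
  pkg_gaussRed_int N A (uZ N) (oggU N) rfl

/-- the Gauss reduction of `h = Δ(q)/Δ(q^N)` -/
theorem pkg_gaussRed_h : GaussRed N A (oggU N)⁻¹ (uS (kA A) N)⁻¹ :=
  deuInst_gaussRed_inv N A (pkg_gaussRed_oggU N A) (uS_ne_zero N (kA A))

theorem pkg_h_mem₁ : (oggU N)⁻¹ ∈ pkgO₁ N A := ⟨_, pkg_gaussRed_h N A⟩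

/-- `h̄₁ = Δ̄(q)/Δ̄(q^N)` -/
theorem pkg_coe_Hbar : ((pkgHbar N A hB : FFk A) : LaurentSeries (kA A)) = (uS (kA A) N)⁻¹ := by
  rw [pkgHbar, dif_pos (pkg_h_mem₁ N A)]
  exact pkg_red₁_eq N A hB _ (pkg_gaussRed_h N A)

theorem pkg_Hbar_ne_zero : pkgHbar N A hB ≠ 0 := by
  intro h
  have h1 := congrArg (fun z : FFk A => (z : LaurentSeries (kA A))) h
  simp only [pkg_coe_Hbar] at h1
  exact inv_ne_zero (uS_ne_zero N (kA A)) h1

include hB in
theorem pkg_h_unit₁ : (oggU N)⁻¹ ∉ (pkgO₁ N A).nonunits := by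
  intro h
  have h1 := (pkg_red₁_eq_zero_iff N A hB ⟨_, pkg_h_mem₁ N A⟩).mpr h
  have h2 := congrArg (fun z : FFk A => (z : LaurentSeries (kA A))) h1
  simp only [pkg_red₁_eq N A hB _ (pkg_gaussRed_h N A)] at h2
  exact inv_ne_zero (uS_ne_zero N (kA A)) h2

theorem pkg_natCast_mem (hA : A.LiesOverPrime N) : (N : Kb) ∈ A :=
  A.nonunits_subset hA

include hB in
theorem pkg_h_mem₂ (hA : A.LiesOverPrime N) : (oggU N)⁻¹ ∈ (pkgO₂ N A).nonunits := by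
  rw [pkg_mem_nonunits₂_iff, map_inv₀]
  have hfr := ogg_fricke N
  have hu0 : oggU N ≠ 0 := oggU_ne_zero N
  have hN0 : ((N : Kb) ^ 12) ≠ 0 := pow_ne_zero _ (Nat.cast_ne_zero.mpr (NeZero.ne N))
  have h1 : (frickeAut N (oggU N))⁻¹ = algebraMap Kb (FF N) ((N : Kb) ^ 12) * oggU N := by
    rw [inv_eq_iff_eq_inv, mul_inv, ← map_inv₀, ← hfr, mul_inv_cancel_right₀ hu0]
  rw [h1]
  have hmem : (N : Kb) ^ 12 ∈ A := pow_mem (pkg_natCast_mem N A hA) 12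
  have hres : IsLocalRing.residue A ⟨(N : Kb) ^ 12, hmem⟩ = 0 := by
    rw [IsLocalRing.residue_eq_zero_iff, ← ValuationSubring.coe_mem_nonunits_iff]
    show (N : Kb) ^ 12 ∈ A.nonunits
    rw [ValuationSubring.mem_nonunits_iff, map_pow]
    exact pow_lt_one₀ zero_le' ((ValuationSubring.mem_nonunits_iff A).mp hA) (by norm_num)
  have h2 := deuInst_gaussRed_mul N A (deuInst_gaussRed_const N A ⟨(N : Kb) ^ 12, hmem⟩)
    (pkg_gaussRed_oggU N A)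
  rw [hres, map_zero, zero_mul] at h2
  obtain ⟨hx, he⟩ := pkg_red₁_of_gaussRed N A hB h2
  exact (pkg_red₁_eq_zero_iff N A hB ⟨_, hx⟩).mp (Subtype.ext he)

theorem pkg_arch (hN : N.Prime) (hA : A.LiesOverPrime N) (c : Kb) (hc : c ≠ 0) :
    ∃ n : ℕ, (N : Kb) ^ n * c ∈ A := by
  obtain ⟨M, hM⟩ := Fermat.Agent.ES.LR.arch_Qbar A hN hA (N : Kb) c⁻¹ hA (inv_ne_zero hc)
  exact ⟨M, by rwa [div_inv_eq_mul] at hM⟩

/-- **PKG-val (b)** -/
theorem pkg_isVal (hN : N.Prime) (hA : A.LiesOverPrime N) : PkgIsVal N A hB where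
  algebraMap_mem_iff₁ := pkg_algebraMap_mem_iff₁ N A hB
  algebraMap_mem_iff₂ := pkg_algebraMap_mem_iff₂ N A hB
  red₁_surjective := pkg_red₁_surjective N A hB
  red₂_surjective := pkg_red₂_surjective N A hB
  red₁_eq_zero_iff := pkg_red₁_eq_zero_iff N A hB
  red₂_eq_zero_iff := pkg_red₂_eq_zero_iff N A hB
  red₁_algebraMap := pkg_red₁_algebraMap N A hB
  red₂_algebraMap := pkg_red₂_algebraMap N A hB
  prim₁ := pkg_prim₁ N A hB
  prim₂ := pkg_prim₂ N A hB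
  red₁_j := pkg_red₁_j N A hB
  red₁_jN := pkg_red₁_jN N A hB hN hA
  h_mem₁ := pkg_h_mem₁ N A
  h_unit₁ := pkg_h_unit₁ N A hB
  h_mem₂ := pkg_h_mem₂ N A hB hA
  arch := pkg_arch N A hN hA

end IsVal

/-- **PKG-val (b)** -/
theorem stmtPkgVal : StmtPkgVal := fun N _ hN A hA hB => pkg_isVal N A hB hN hA

end Fermat.Agent.S15.LN
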