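import Fermat.Agent.S15.RedSp
import Fermat.Agent.DEU.ModPRFinal
import Fermat.Agent.ES.I2aux.Glue
import Fermat.Agent.ES.G2.GenInt
import Fermat.Agent.S18.OfStmtINJ
import Fermat.Agent.INJ.InjAll

/-!
# S15 block RED — the reduction package of `X₀(N)` with its specialization map (S18-J1)

`ModPRG N A hℓ hA hRedF r sp Pinf Qinf` : the package `W1.ModPR` for
`R = DEU.modPRData N A hRedF r` together with

* the specialization map `sp : J₀(N) →+ Pic⁰(F̄)`, `sp [D] = [r_* D]`, with kernel `R.J1`;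
* equivariance: `r (σ P) = σ̄ (r P)`, `sp (σ x) = σ̄ (sp x)` for `σ` in the decomposition group,
  `sp (φ x) = Fr (sp x)` for a Frobenius element, `sp (σ x) = sp x` on inertia;
* **S18-J1**: `m • x = 0`, `sp x = 0`, `ℓ ∤ m` ⇒ `x = 0`;
* the cusp `∞`: `r Pinf = Qinf`, `Qinf.ord = order of the q-expansion`.

`s15red_exists_pkg` : the package exists for `ℓ ∤ N`, `5 ≤ ℓ ∨ (5 - ℓ) ∣ N`.
-/

set_option autoImplicit false
set_option linter.unusedSectionVars false
set_option linter.style.haveILetI false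
set_option synthInstance.maxHeartbeats 400000
set_option maxHeartbeats 1600000

open ModularCurve AlgebraicCurve HahnSeries Module

namespace Fermat.Agent.S15

open Fermat.Agent.ES Fermat.Agent.S24 Fermat.Agent.ES.M Fermat.Agent.W1 Fermat.Agent.PR
  Fermat.Agent.DEU Fermat.Agent.ES.R

/-- **the reduction package of `X₀(N)` at `A ∣ ℓ` with its specialization map** -/
structure ModPRG (N : ℕ) [NeZero N] (A : ValuationSubring Kb) {ℓ : ℕ} (hℓ : ℓ.Prime)
    (hA : A.LiesOverPrime ℓ) (hRedF : StmtRedF N A)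
    (r : Place Kb (FF N) → Place (kA A) ↥(modularFunctionFieldFullC (kA A) N))
    (sp : JZero N →+ JZeroC (kA A) N)
    (Pinf : Place Kb (FF N)) (Qinf : Place (kA A) ↥(modularFunctionFieldFullC (kA A) N)) :
    Prop where
  modPR : ModPR N A (gN N) (modPRData N A hRedF r) (jF N)
  sp_mk : ∀ (D : Divisor.degZero (K := Kb) (F := FF N))
    (h : Finsupp.mapDomain r (D : Divisor Kb (FF N)) ∈
      Divisor.degZero (K := kA A) (F := ↥(modularFunctionFieldFullC (kA A) N))),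
    sp (Pic0.mk D) = Pic0.mk ⟨Finsupp.mapDomain r (D : Divisor Kb (FF N)), h⟩
  sp_eq_zero_iff : ∀ x : JZero N, sp x = 0 ↔ x ∈ (modPRData N A hRedF r).J1
  r_decomp : ∀ (σ : Kb ≃ₐ[ℚ] Kb) (hσ : σ ∈ A.decompositionSubgroup ℚ) (P : Place Kb (FF N)),
    r (arithmeticGalois (modularFunctionFieldFull N) σ • P) = prSemilinear N (prResAut σ hσ) • r P
  r_inertia : ∀ σ ∈ A.inertiaSubgroupIn ℚ, ∀ P : Place Kb (FF N),
    r (arithmeticGalois (modularFunctionFieldFull N) σ • P) = r P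
  r_frob : ∀ φ : Kb ≃ₐ[ℚ] Kb, A.IsFrobeniusAt φ ℓ → ∀ P : Place Kb (FF N),
    r (arithmeticGalois (modularFunctionFieldFull N) φ • P) = prFrobA N A hℓ hA • r P
  sp_decomp : ∀ (σ : Kb ≃ₐ[ℚ] Kb) (hσ : σ ∈ A.decompositionSubgroup ℚ) (x : JZero N),
    sp (σ • x) = prSemilinear N (prResAut σ hσ) • sp x
  sp_inertia : ∀ σ ∈ A.inertiaSubgroupIn ℚ, ∀ x : JZero N, sp (σ • x) = sp x
  sp_frob : ∀ φ : Kb ≃ₐ[ℚ] Kb, A.IsFrobeniusAt φ ℓ → ∀ x : JZero N,
    sp (φ • x) = prFrobA N A hℓ hA • sp x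
  s18 : ∀ m : ℕ, ¬ ℓ ∣ m → ∀ x : JZero N, m • x = 0 → sp x = 0 → x = 0
  J1_stable : ∀ σ ∈ A.decompositionSubgroup ℚ, ∀ x ∈ (modPRData N A hRedF r).J1,
    σ • x ∈ (modPRData N A hRedF r).J1
  cusp : IsCuspInfty N Pinf
  ord_Qinf : ∀ x : ↥(modularFunctionFieldFullC (kA A) N), x ≠ 0 →
    Qinf.ord x = (x : LaurentSeries (kA A)).order
  r_cusp : r Pinf = Qinf

section Pieces

variable {N : ℕ} [NeZero N] {A : ValuationSubring Kb} {hRedF : StmtRedF N A}
variable {Pinf : Place Kb (FF N)} {Qinf : Place (kA A) ↥(modularFunctionFieldFullC (kA A) N)}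
  {n₀ : ℕ}

/-- the reduction of places of the Deuring package is a place reduction in the prelude's sense -/
theorem s15red_isPlaceReduction (H : Hyp (deuInst_redData N A hRedF) Pinf Qinf (gN N) n₀) :
    IsPlaceReductionAlong A (IsLocalRing.residue A) N H.r := by
  refine ⟨fun P => ?_, ?_⟩
  · rw [place_deg_eq_one _ (H.hresk _), place_deg_eq_one _ (H.hresF _)]
  · intro y hy hyk hne D hD Q
    have hG : GaussRed N A ⟨coeffMap A.subtype y, hy⟩ (coeffMap (IsLocalRing.residue A) y) := by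
      refine ⟨y, 1, hy, ?_, ?_, ?_, ?_⟩
      · rw [map_one]; exact one_mem _
      · rw [map_one]; exact one_ne_zero
      · rw [map_one, mul_one]
      · rw [map_one, mul_one]
    obtain ⟨hx, hred⟩ := (deuValRed_iff N A hRedF _ _).mp hG
    have hu : deuValRed N A hRedF ⟨⟨coeffMap A.subtype y, hy⟩, hx⟩ =
        ⟨coeffMap (IsLocalRing.residue A) y, hyk⟩ := Subtype.ext hred
    have h1 := (modPR_isPR H).r_div ⟨⟨coeffMap A.subtype y, hy⟩, hx⟩
      (by
        show deuValRed N A hRedF ⟨⟨coeffMap A.subtype y, hy⟩, hx⟩ ≠ 0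
        rw [hu]
        exact fun h0 => hne (congrArg Subtype.val h0)) D hD Q
    refine h1.trans ?_
    show Q.ord (deuValRed N A hRedF ⟨⟨coeffMap A.subtype y, hy⟩, hx⟩) = _
    rw [hu]

/-- **S18-J1, prime exponent**, for divisors -/
theorem s15red_principal_of_prime {ℓ : ℕ} (hℓ : ℓ.Prime) (hℓN : ¬ ℓ ∣ N)
    (hA : A.LiesOverPrime ℓ)
    (H : Hyp (deuInst_redData N A hRedF) Pinf Qinf (gN N) n₀)
    (p : ℕ) (hp : p.Prime) (hpl : p ≠ ℓ) (D : Divisor Kb (FF N))
    (h1 : p • D ∈ Divisor.principal (K := Kb) (F := FF N))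
    (h3 : Finsupp.mapDomain H.r D ∈
      Divisor.principal (K := kA A) (F := ↥(modularFunctionFieldFullC (kA A) N))) :
    D ∈ Divisor.principal (K := Kb) (F := FF N) := by
  have hinj : Fermat.Agent.S18.InjStatement N A p :=
    Fermat.Agent.S18.injStatement_of_stmtINJ A hA
      (Fermat.Agent.INJ.injAll_stmtINJAll N ℓ p (NeZero.ne N) hℓ hp hℓN (fun e => hpl e.symm))
  exact Fermat.Agent.S18.isPrincipal_of_inj (Fermat.Agent.ES.H.hasPrincipalDivisors_FF N)
    IsLocalRing.residue_surjective (s15red_isPlaceReduction H)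
    (Fermat.Agent.ES.G2.pr3_gen N ℓ hℓ hℓN A hA) p hp.ne_zero
    (fun Y₁ Y₂ hY₁ hY₂ hdiv =>
      hinj Y₁.1 Y₂.1 Y₁.2.1 Y₂.2.1 Y₁.2.2 (fun h0 => hY₁ (Subtype.ext h0))
        (congrArg Subtype.val hY₂) hdiv)
    D h1 h3

/-- **S18-J1**: the kernel of reduction has no torsion prime to `ℓ` -/
theorem s15red_s18 {ℓ : ℕ} (hℓ : ℓ.Prime) (hℓN : ¬ ℓ ∣ N) (hA : A.LiesOverPrime ℓ)
    (H : Hyp (deuInst_redData N A hRedF) Pinf Qinf (gN N) n₀)
    (m : ℕ) (hm : ¬ ℓ ∣ m) (x : JZero N) (hmx : m • x = 0)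
    (hx : x ∈ (modPRData N A hRedF H.r).J1) : x = 0 := by
  induction m using Nat.strong_induction_on generalizing x with
  | _ m ih =>
    rcases Nat.eq_zero_or_pos m with h0 | hpos
    · exact absurd (h0 ▸ dvd_zero ℓ) hm
    rcases eq_or_ne m 1 with h1 | h1
    · rw [h1, one_nsmul] at hmx
      exact hmx
    have hp := Nat.minFac_prime h1
    obtain ⟨m', hm'⟩ := Nat.minFac_dvd m
    have hpl : m.minFac ≠ ℓ := fun h => hm (h ▸ Nat.minFac_dvd m)
    have hm'pos : 0 < m' := by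
      rcases Nat.eq_zero_or_pos m' with h0 | h0
      · rw [h0, mul_zero] at hm'; omega
      · exact h0
    have hlt : m' < m := by
      have := hp.two_le
      nlinarith
    have hlm' : ¬ ℓ ∣ m' := fun hd => hm (hm' ▸ Dvd.dvd.mul_left hd _)
    have hz' : m' • x = 0 := by
      have hx' : m' • x ∈ (modPRData N A hRedF H.r).J1 := AddSubgroup.nsmul_mem _ hx m'
      have hpx' : m.minFac • (m' • x) = 0 := by
        rw [← mul_nsmul', ← hm']
        exact hmx
      obtain ⟨D, hD, hDr⟩ := hx'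
      have h2 : Pic0.mk (m.minFac • D) = 0 := by
        have : Pic0.mk (m.minFac • D) = m.minFac • Pic0.mk D := rfl
        rw [this, hD]
        exact hpx'
      rw [s15red_mk_eq_zero_iff, AddSubgroup.coe_nsmul] at h2
      have h5 := s15red_principal_of_prime hℓ hℓN hA H m.minFac hp hpl D h2 hDr
      rw [← hD, s15red_mk_eq_zero_iff]
      exact h5
    exact ih m' hlt hlm' x hz' hx

/-- the cusp `∞` reduces to the place `Qinf` -/
theorem s15red_r_cusp (H : Hyp (deuInst_redData N A hRedF) Pinf Qinf (gN N) n₀) :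
    H.r Pinf = Qinf := by
  classical
  set m : ℕ := n₀ + 2 * gN N + 1 with hm
  have hdeg : ((n₀ : ℤ) + 2 * gN N) ≤ Divisor.degree (mulPlace Pinf (m : ℤ)) := by
    rw [degree_mulPlace H.hresF, hm]
    push_cast
    omega
  have hleast := H.isLeast_mapDomain_r (mulPlace Pinf (m : ℤ)) hdeg
  have hmem : mulPlace Qinf (m : ℤ) ∈
      bounds ((deuInst_redData N A hRedF).redSpace (riemannRochSpace (mulPlace Pinf (m : ℤ)))) :=
    H.anchor m
  have hle := hleast.2 hmem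
  rw [mulPlace, Finsupp.mapDomain_single] at hle
  by_contra hne
  have h1 := Finsupp.le_def.mp hle (H.r Pinf)
  rw [Finsupp.single_eq_same, mulPlace, Finsupp.single_eq_of_ne hne] at h1
  rw [hm] at h1
  push_cast at h1
  omega

/-- the package, from the hypotheses of Deuring's count -/
theorem s15red_pkg_of_hyp {ℓ : ℕ} (hℓ : ℓ.Prime) (hℓN : ¬ ℓ ∣ N) (hA : A.LiesOverPrime ℓ)
    (H : Hyp (deuInst_redData N A hRedF) Pinf Qinf (gN N) n₀)
    (hcusp : IsCuspInfty N Pinf)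
    (hQ : ∀ x : ↥(modularFunctionFieldFullC (kA A) N), x ≠ 0 →
      Qinf.ord x = (x : LaurentSeries (kA A)).order)
    (hmod : ModPR N A (gN N) (modPRData N A hRedF H.r) (jF N)) :
    ModPRG N A hℓ hA hRedF H.r
      (s15red_sp (modPRData N A hRedF H.r) (modPR_isPR H) H.hresF H.hresk) Pinf Qinf := by
  have hleast : ∀ D : Divisor Kb (FF N), (n₀ : ℤ) + 2 * gN N ≤ Divisor.degree D →
      IsLeast (bounds ((deuInst_redData N A hRedF).redSpace (riemannRochSpace D)))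
        (Finsupp.mapDomain H.r D) := fun D hD => H.isLeast_mapDomain_r D hD
  have hdec : ∀ (σ : Kb ≃ₐ[ℚ] Kb) (hσ : σ ∈ A.decompositionSubgroup ℚ) (P : Place Kb (FF N)),
      H.r (arithmeticGalois (modularFunctionFieldFull N) σ • P)
        = prSemilinear N (prResAut σ hσ) • H.r P := fun σ hσ P =>
    deuEqMod_r_decomposition N A hRedF H.hresF ((n₀ : ℤ) + 2 * gN N) H.r hleast σ hσ P
  have hin : ∀ σ ∈ A.inertiaSubgroupIn ℚ, ∀ P : Place Kb (FF N),
      H.r (arithmeticGalois (modularFunctionFieldFull N) σ • P) = H.r P := fun σ hσ P =>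
    deuEqMod_r_inertia N A hRedF H.hresF ((n₀ : ℤ) + 2 * gN N) H.r hleast σ hσ P
  have hfr : ∀ φ : Kb ≃ₐ[ℚ] Kb, A.IsFrobeniusAt φ ℓ → ∀ P : Place Kb (FF N),
      H.r (arithmeticGalois (modularFunctionFieldFull N) φ • P) = prFrobA N A hℓ hA • H.r P :=
    fun φ hφ P =>
      deuEqMod_r_frobenius N A hRedF H.hresF ((n₀ : ℤ) + 2 * gN N) H.r hleast hℓ hA φ hφ P
  have hspdec : ∀ (σ : Kb ≃ₐ[ℚ] Kb) (hσ : σ ∈ A.decompositionSubgroup ℚ) (x : JZero N),
      s15red_sp (modPRData N A hRedF H.r) (modPR_isPR H) H.hresF H.hresk (σ • x)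
        = prSemilinear N (prResAut σ hσ) •
          s15red_sp (modPRData N A hRedF H.r) (modPR_isPR H) H.hresF H.hresk x := by
    intro σ hσ x
    rw [galois_smul_pic0_def]
    exact s15red_sp_smul (modPRData N A hRedF H.r) (modPR_isPR H) H.hresF H.hresk
      (arithmeticGalois (modularFunctionFieldFull N) σ) (prSemilinear N (prResAut σ hσ))
      (hdec σ hσ) x
  refine
    { modPR := hmod
      sp_mk := fun D h => rfl
      sp_eq_zero_iff := s15red_sp_eq_zero_iff _ _ _ _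
      r_decomp := hdec
      r_inertia := hin
      r_frob := hfr
      sp_decomp := hspdec
      sp_inertia := ?_
      sp_frob := ?_
      s18 := fun m hm x hmx hsp =>
        s15red_s18 hℓ hℓN hA H m hm x hmx ((s15red_sp_eq_zero_iff _ _ _ _ x).mp hsp)
      J1_stable := ?_
      cusp := hcusp
      ord_Qinf := hQ
      r_cusp := s15red_r_cusp H }
  · intro σ hσ x
    rw [galois_smul_pic0_def]
    have h := s15red_sp_smul (modPRData N A hRedF H.r) (modPR_isPR H) H.hresF H.hresk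
      (arithmeticGalois (modularFunctionFieldFull N) σ)
      (1 : SemilinearAut (kA A) ↥(modularFunctionFieldFullC (kA A) N))
      (fun P => by rw [one_smul]; exact hin σ hσ P) x
    rwa [one_smul] at h
  · intro φ hφ x
    rw [galois_smul_pic0_def]
    exact s15red_sp_smul (modPRData N A hRedF H.r) (modPR_isPR H) H.hresF H.hresk
      (arithmeticGalois (modularFunctionFieldFull N) φ) (prFrobA N A hℓ hA) (hfr φ hφ) x
  · intro σ hσ x hx
    rw [← s15red_sp_eq_zero_iff (modPRData N A hRedF H.r) (modPR_isPR H) H.hresF H.hresk] at hx ⊢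
    rw [hspdec σ hσ x, hx]
    exact smul_zero (A := Pic0 (kA A) ↥(modularFunctionFieldFullC (kA A) N))
      (prSemilinear N (prResAut σ hσ))

end Pieces

/-- **the package exists**, from the genus bound (I2) in characteristic `ℓ` -/
theorem s15red_exists_pkg_of_stmtI2 (N : ℕ) [NeZero N] (ℓ : ℕ) (hℓ : ℓ.Prime) (hℓN : ¬ ℓ ∣ N)
    (A : ValuationSubring Kb) (hA : A.LiesOverPrime ℓ) (hI2 : StmtI2 N A) :
    ∃ (r : Place Kb (FF N) → Place (kA A) ↥(modularFunctionFieldFullC (kA A) N))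
      (sp : JZero N →+ JZeroC (kA A) N) (Pinf : Place Kb (FF N))
      (Qinf : Place (kA A) ↥(modularFunctionFieldFullC (kA A) N)),
      ModPRG N A hℓ hA (stmtRedF N A ℓ hℓ hℓN hA) r sp Pinf Qinf := by
  obtain ⟨Pinf, Qinf, n₀, hcusp, hQ, H⟩ := deuAnchor_hyp N A (stmtRedF N A ℓ hℓ hℓN hA)
    (Fermat.Agent.ES.LR.stmtLRa N ℓ hℓ A hA) hI2 (Fermat.Agent.ES.R.stmtR N)
    (modHyp_hresk N A) (modHyp_hpdk N A hℓ hA)
  refine ⟨H.r, _, Pinf, Qinf, s15red_pkg_of_hyp hℓ hℓN hA H hcusp hQ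
    (modPR_of_hyp H hQ ?_ ?_)⟩
  · exact deuGood_good N A ℓ hℓ hℓN hA (stmtRedF N A ℓ hℓ hℓN hA) H.r
      (fun u hu D hD Q => H.mapDomain_r_principal u hu D hD Q)
  · intro ht
    exact deuRamInst_finite N A ℓ hℓ hA (stmtRedF N A ℓ hℓ hℓN hA) ht

/-- **the package exists** for `ℓ ∤ N`, `5 ≤ ℓ` or `(5 - ℓ) ∣ N` -/
theorem s15red_exists_pkg (N : ℕ) [NeZero N] (ℓ : ℕ) (hℓ : ℓ.Prime) (hℓN : ¬ ℓ ∣ N)
    (h : 5 ≤ ℓ ∨ (5 - ℓ) ∣ N) (A : ValuationSubring Kb) (hA : A.LiesOverPrime ℓ) :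
    ∃ (r : Place Kb (FF N) → Place (kA A) ↥(modularFunctionFieldFullC (kA A) N))
      (sp : JZero N →+ JZeroC (kA A) N) (Pinf : Place Kb (FF N))
      (Qinf : Place (kA A) ↥(modularFunctionFieldFullC (kA A) N)),
      ModPRG N A hℓ hA (stmtRedF N A ℓ hℓ hℓN hA) r sp Pinf Qinf := by
  rcases le_or_gt 5 ℓ with h5 | h5
  · exact s15red_exists_pkg_of_stmtI2 N ℓ hℓ hℓN A hA
      (Fermat.Agent.ES.I2.stmtI2All N ℓ hℓ h5 hℓN A hA)
  · exact s15red_exists_pkg_of_stmtI2 N ℓ hℓ hℓN A hA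
      (Fermat.Agent.ES.I2aux.stmtI2AuxAll N ℓ hℓ h5 hℓN (h.resolve_left (not_le.mpr h5)) A hA)

/-- Riemann's inequality for the reduction (for the finiteness of the Frobenius-fixed classes) -/
theorem ModPRG.lower {N : ℕ} [NeZero N] {A : ValuationSubring Kb} {ℓ : ℕ} {hℓ : ℓ.Prime}
    {hA : A.LiesOverPrime ℓ} {hRedF : StmtRedF N A}
    {r : Place Kb (FF N) → Place (kA A) ↥(modularFunctionFieldFullC (kA A) N)}
    {sp : JZero N →+ JZeroC (kA A) N} {Pinf : Place Kb (FF N)}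
    {Qinf : Place (kA A) ↥(modularFunctionFieldFullC (kA A) N)}
    (h : ModPRG N A hℓ hA hRedF r sp Pinf Qinf) :
    GPRiemannLower (kA A) ↥(modularFunctionFieldFullC (kA A) N) (gN N) :=
  h.modPR.nice_k.lower

end Fermat.Agent.S15
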