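import Fermat.Agent.S15.Div1Plan

/-!
# S15 / DIV¹, piece DIV1-H (helper24): Hensel's lemma in several variables for the valuation ring
of an algebraically closed field

`stmtHenselMv : StmtHenselMv` (interface `S15/Div1Plan.lean`).  No completeness, no rank
hypothesis: the solution is found algebraically.

* `div1h_etale` : for a square system `f : ι → R[X_σ]` (`e : ι ≃ σ`), `Δ = det (∂_{e i} f_j)`, the
  algebra `C = R[X_σ, Y] / (f, Y Δ - 1)` is étale over `R` (Mathlib's submersive presentations: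
  the Jacobian of the naive presentation is block triangular with determinant `Δ²`).
* `div1h_section` (**henselian property**): `A` a valuation ring of an algebraically closed field
  `K`, `C` an étale `A`-algebra, `𝔫` a prime of `C` above `𝔪_A`: there is an `A`-algebra
  homomorphism `ψ : C → A` with `ψ(𝔫) ⊆ 𝔪_A`.
  Proof: `C` is flat, so going-down gives a prime `𝔮 ⊆ 𝔫` above `(0)`; `Frac(C/𝔮)` is a formally
  unramified, essentially finitely generated field extension of `K`, hence separable algebraic,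
  hence equal to `K`; the image of `C/𝔮` in `K` lies in `A` because an element `b ∉ A` has
  `b⁻¹ ∈ 𝔪_A ⊆ 𝔫`, which cannot become a unit of `C/𝔮`.
* `div1h_det_isUnit` : the hypothesis on the Jacobian matrix makes `Δ(a)` a unit of `A`.
* `div1h_main`, `stmtHenselMv` : the assembly, `b_j = ψ(X_j)`.
-/

set_option autoImplicit false
set_option linter.unusedSectionVars false
set_option linter.style.haveILetI false

namespace Fermat.Agent.S15

open MvPolynomial

section Etale

variable {R : Type} [CommRing R] {σ ι : Type} [Fintype σ] [Fintype ι] [DecidableEq ι]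
  [DecidableEq σ] (e : ι ≃ σ) (f : ι → MvPolynomial σ R)

/-- the Jacobian matrix `∂_{e i} f_j` -/
noncomputable def div1hJac : Matrix ι ι (MvPolynomial σ R) := fun i j => pderiv (e i) (f j)

/-- the Jacobian determinant -/
noncomputable def div1hDet : MvPolynomial σ R := (div1hJac e f).det

/-- the relations `f_i`, `Y Δ - 1` in `R[X_σ, Y]` -/
noncomputable def div1hRel : ι ⊕ Unit → MvPolynomial (σ ⊕ Unit) R :=
  Sum.elim (fun i => rename Sum.inl (f i))
    (fun _ => X (Sum.inr ()) * rename Sum.inl (div1hDet e f) - 1)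

/-- the algebra `R[X_σ, Y] / (f, Y Δ - 1)` -/
abbrev div1hC : Type := MvPolynomial (σ ⊕ Unit) R ⧸ Ideal.span (Set.range (div1hRel e f))

/-- the naive presentation -/
noncomputable def div1hPre :
    Algebra.PreSubmersivePresentation R (div1hC e f) (σ ⊕ Unit) (ι ⊕ Unit) :=
  Algebra.PreSubmersivePresentation.naive (v := div1hRel e f) (Sum.map e id)
    (Sum.map_injective.mpr ⟨e.injective, Function.injective_id⟩)

theorem div1h_jacobiMatrix :
    (div1hPre e f).jacobiMatrix =
      Matrix.fromBlocks ((rename Sum.inl).mapMatrix (div1hJac e f))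
        (Matrix.of fun i (_ : Unit) => pderiv (Sum.inl (e i)) (div1hRel e f (Sum.inr ())))
        0 (Matrix.of fun (_ _ : Unit) => rename Sum.inl (div1hDet e f)) := by
  refine Matrix.ext fun i j => ?_
  rw [div1hPre, Algebra.PreSubmersivePresentation.jacobiMatrix_naive]
  rcases i with i | i <;> rcases j with j | j
  · rw [Matrix.fromBlocks_apply₁₁]
    simp only [Sum.map_inl, div1hRel, Sum.elim_inl,
      AlgHom.mapMatrix_apply, Matrix.map_apply, div1hJac]
    exact pderiv_rename Sum.inl_injective _ _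
  · rw [Matrix.fromBlocks_apply₁₂]
    rfl
  · rw [Matrix.fromBlocks_apply₂₁]
    simp only [Sum.map_inr, id_eq, div1hRel, Sum.elim_inl, Matrix.zero_apply]
    refine pderiv_eq_zero_of_notMem_vars ?_
    intro h
    have := (vars_rename Sum.inl (f j)) h
    simp at this
  · rw [Matrix.fromBlocks_apply₂₂]
    simp only [Sum.map_inr, id_eq, div1hRel, Sum.elim_inr]
    rw [map_sub, Derivation.leibniz, pderiv_X_self, pderiv_one, sub_zero]
    have h0 : pderiv (Sum.inr i)
        (rename Sum.inl (div1hDet e f) : MvPolynomial (σ ⊕ Unit) R) = 0 := by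
      refine pderiv_eq_zero_of_notMem_vars ?_
      intro h
      have := (vars_rename Sum.inl (div1hDet e f)) h
      simp at this
    rw [h0]
    simp

theorem div1h_algebraMap (p : MvPolynomial (σ ⊕ Unit) R) :
    algebraMap (div1hPre e f).Ring (div1hC e f) p =
      Ideal.Quotient.mk (Ideal.span (Set.range (div1hRel e f))) p := by
  rw [Algebra.Generators.algebraMap_apply]
  have h : ∀ i, (div1hPre e f).val i =
      Ideal.Quotient.mk (Ideal.span (Set.range (div1hRel e f))) (X i) := fun i => rfl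
  induction p using MvPolynomial.induction_on with
  | C a => simp; rfl
  | add p q hp hq => rw [map_add, map_add, hp, hq]
  | mul_X p i hp => rw [map_mul, map_mul, hp, aeval_X, h]

theorem div1h_rel_eq_zero (i : ι ⊕ Unit) :
    Ideal.Quotient.mk (Ideal.span (Set.range (div1hRel e f))) (div1hRel e f i) = 0 :=
  Ideal.Quotient.eq_zero_iff_mem.mpr (Ideal.subset_span ⟨i, rfl⟩)

theorem div1h_jacobian_isUnit : IsUnit (div1hPre e f).jacobian := by
  have h1 : ((rename Sum.inl).mapMatrix (div1hJac e f)).det =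
      rename (Sum.inl : σ → σ ⊕ Unit) (div1hDet e f) := by
    rw [div1hDet, AlgHom.map_det]
  have h2 : (Matrix.of fun (_ _ : Unit) =>
      rename (Sum.inl : σ → σ ⊕ Unit) (div1hDet e f)).det =
      rename (Sum.inl : σ → σ ⊕ Unit) (div1hDet e f) := by
    rw [Matrix.det_unique]
    rfl
  rw [Algebra.PreSubmersivePresentation.jacobian_eq_jacobiMatrix_det, div1h_jacobiMatrix,
    Matrix.det_fromBlocks_zero₂₁, h1, h2, div1h_algebraMap, map_mul]
  have h : Ideal.Quotient.mk (Ideal.span (Set.range (div1hRel e f)))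
      (X (Sum.inr ()) * rename Sum.inl (div1hDet e f) - 1) = 0 :=
    div1h_rel_eq_zero e f (Sum.inr ())
  rw [map_sub, map_mul, map_one, sub_eq_zero] at h
  have hu : IsUnit (Ideal.Quotient.mk (Ideal.span (Set.range (div1hRel e f)))
      (rename Sum.inl (div1hDet e f))) :=
    IsUnit.of_mul_eq_one _ (by rw [mul_comm]; exact h)
  exact hu.mul hu

/-- the submersive presentation -/
noncomputable def div1hSub :
    Algebra.SubmersivePresentation R (div1hC e f) (σ ⊕ Unit) (ι ⊕ Unit) where
  __ := div1hPre e f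
  jacobian_isUnit := div1h_jacobian_isUnit e f

theorem div1h_etale : Algebra.Etale R (div1hC e f) := by
  have h : Algebra.IsStandardSmoothOfRelativeDimension 0 R (div1hC e f) := by
    refine (div1hSub e f).isStandardSmoothOfRelativeDimension ?_
    rw [Algebra.Presentation.dimension]
    simp [Nat.card_eq_fintype_card, Fintype.card_congr e]
  infer_instance

end Etale

section Unit

variable {K : Type} [Field K] (A : ValuationSubring K)
  {σ ι : Type} [Fintype σ] [Fintype ι] [DecidableEq σ] [DecidableEq ι] (e : ι ≃ σ)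
  (f : ι → MvPolynomial σ A) (a : σ → A)

/-- the Jacobian determinant at `a` is a unit if the Jacobian matrix is injective modulo `𝔪`. -/
theorem div1h_det_isUnit
    (hJ : ∀ v : σ → A,
      (∀ i, ((∑ j, MvPolynomial.eval a (MvPolynomial.pderiv j (f i)) * v j : A) : K)
        ∈ A.nonunits) →
      ∀ j, ((v j : A) : K) ∈ A.nonunits) :
    IsUnit (eval a (div1hDet e f)) := by
  rw [← IsLocalRing.notMem_maximalIdeal]
  intro hmem
  -- the matrix `N i i' = ∂_{e i'} f_i (a)`
  set N : Matrix ι ι A := fun i i' => eval a (pderiv (e i') (f i)) with hN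
  have hdet : N.det = eval a (div1hDet e f) := by
    rw [div1hDet, RingHom.map_det, ← Matrix.det_transpose]
    rfl
  have h0 : ((IsLocalRing.residue A).mapMatrix N).det = 0 := by
    rw [← RingHom.map_det, hdet, IsLocalRing.residue_eq_zero_iff]
    exact hmem
  obtain ⟨w, hw0, hw⟩ := Matrix.exists_mulVec_eq_zero_iff.mpr h0
  have hsurj := IsLocalRing.residue_surjective (R := A)
  choose w' hw' using fun i => hsurj (w i)
  have key := hJ (fun j => w' (e.symm j)) ?_
  · apply hw0
    funext i
    have h1 := key (e i)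
    rw [ValuationSubring.coe_mem_nonunits_iff, ← IsLocalRing.residue_eq_zero_iff,
      Equiv.symm_apply_apply, hw'] at h1
    exact h1
  · intro i
    rw [ValuationSubring.coe_mem_nonunits_iff, ← IsLocalRing.residue_eq_zero_iff]
    have h2 := congrFun hw i
    rw [Matrix.mulVec, dotProduct] at h2
    rw [map_sum, ← Equiv.sum_comp e]
    rw [Pi.zero_apply] at h2
    rw [← h2]
    refine Finset.sum_congr rfl fun i' _ => ?_
    rw [map_mul, Equiv.symm_apply_apply, hw']
    rfl

end Unit

section Section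

/-- **Henselian property for étale algebras** over the valuation ring of an algebraically closed
field: a prime of an étale `A`-algebra above the maximal ideal carries an `A`-section. -/
theorem div1h_section {K : Type} [Field K] [IsAlgClosed K] (A : ValuationSubring K)
    (C : Type) [CommRing C] [Algebra A C] [Algebra.Etale A C]
    (𝔫 : Ideal C) [𝔫.IsPrime] [𝔫.LiesOver (IsLocalRing.maximalIdeal A)] :
    ∃ ψ : C →ₐ[A] A, ∀ c ∈ 𝔫, ψ c ∈ IsLocalRing.maximalIdeal A := by
  obtain ⟨𝔮, h𝔮𝔫, h𝔮p, h𝔮o⟩ := Ideal.exists_ideal_le_liesOver_of_le (p := (⊥ : Ideal A))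
    (q := IsLocalRing.maximalIdeal A) 𝔫 bot_le
  have h1𝔫 : (1 : C) ∉ 𝔫 := fun h => (Ideal.IsPrime.ne_top inferInstance)
    ((Ideal.eq_top_iff_one 𝔫).mpr h)
  have hinjAD : Function.Injective (algebraMap A (C ⧸ 𝔮)) := by
    rw [injective_iff_map_eq_zero]
    intro x hx
    have h2 : algebraMap A C x ∈ 𝔮 := Ideal.Quotient.eq_zero_iff_mem.mp hx
    have h3 : x ∈ 𝔮.under A := h2
    rw [← h𝔮o.over] at h3
    exact h3
  have hinjAL : Function.Injective (algebraMap A (FractionRing (C ⧸ 𝔮))) := by
    rw [IsScalarTower.algebraMap_eq A (C ⧸ 𝔮) (FractionRing (C ⧸ 𝔮))]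
    exact (IsFractionRing.injective (C ⧸ 𝔮) (FractionRing (C ⧸ 𝔮))).comp hinjAD
  letI : Algebra K (FractionRing (C ⧸ 𝔮)) := (IsFractionRing.lift hinjAL).toAlgebra
  haveI : IsScalarTower A K (FractionRing (C ⧸ 𝔮)) :=
    IsScalarTower.of_algebraMap_eq fun x => (IsFractionRing.lift_algebraMap hinjAL x).symm
  haveI : Algebra.FormallyUnramified K (FractionRing (C ⧸ 𝔮)) :=
    Algebra.FormallyUnramified.of_restrictScalars A K (FractionRing (C ⧸ 𝔮))
  haveI : Algebra.EssFiniteType K (FractionRing (C ⧸ 𝔮)) :=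
    Algebra.EssFiniteType.of_comp A K (FractionRing (C ⧸ 𝔮))
  haveI : Algebra.IsSeparable K (FractionRing (C ⧸ 𝔮)) :=
    Algebra.FormallyUnramified.isSeparable K (FractionRing (C ⧸ 𝔮))
  have hbij : Function.Bijective (algebraMap K (FractionRing (C ⧸ 𝔮))) :=
    IsAlgClosed.algebraMap_bijective_of_isIntegral
  have hinjDL := IsFractionRing.injective (C ⧸ 𝔮) (FractionRing (C ⧸ 𝔮))
  have hAKL : ∀ x : A, algebraMap K (FractionRing (C ⧸ 𝔮)) (x : K) =
      algebraMap (C ⧸ 𝔮) (FractionRing (C ⧸ 𝔮)) (algebraMap A (C ⧸ 𝔮) x) := fun x => by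
    rw [← IsScalarTower.algebraMap_apply A (C ⧸ 𝔮) (FractionRing (C ⧸ 𝔮)),
      IsScalarTower.algebraMap_apply A K (FractionRing (C ⧸ 𝔮))]
    rfl
  have hmk : ∀ x : A, algebraMap A (C ⧸ 𝔮) x = Ideal.Quotient.mk 𝔮 (algebraMap A C x) :=
    fun x => rfl
  -- a unit of `C ⧸ 𝔮` coming from `𝔫` gives a contradiction
  have hcontra : ∀ c ∈ 𝔫, ∀ d : C, Ideal.Quotient.mk 𝔮 c * Ideal.Quotient.mk 𝔮 d = 1 → False := by
    intro c hc d hcd
    rw [← map_mul, ← map_one (Ideal.Quotient.mk 𝔮), Ideal.Quotient.eq] at hcd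
    have h2 : c * d - 1 ∈ 𝔫 := h𝔮𝔫 hcd
    have h3 : c * d ∈ 𝔫 := Ideal.mul_mem_right d 𝔫 hc
    exact h1𝔫 (by simpa using sub_mem h3 h2)
  have hm𝔫 : ∀ y : A, y ∈ IsLocalRing.maximalIdeal A → algebraMap A C y ∈ 𝔫 := by
    intro y hy
    have : y ∈ 𝔫.under A := by
      rw [← Ideal.over_def 𝔫 (IsLocalRing.maximalIdeal A)]
      exact hy
    exact this
  have key : ∀ c : C, ∃ x : A, algebraMap A (C ⧸ 𝔮) x = Ideal.Quotient.mk 𝔮 c := by
    intro c
    obtain ⟨b, hb⟩ := hbij.2 (algebraMap (C ⧸ 𝔮) (FractionRing (C ⧸ 𝔮)) (Ideal.Quotient.mk 𝔮 c))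
    by_cases hbA : b ∈ A
    · refine ⟨⟨b, hbA⟩, hinjDL ?_⟩
      rw [← hAKL, ← hb]
    · exfalso
      have hbI : b⁻¹ ∈ A := (A.mem_or_inv_mem b).resolve_left hbA
      have hb0 : b ≠ 0 := fun h => hbA (h ▸ A.zero_mem)
      have hy : (⟨b⁻¹, hbI⟩ : A) ∈ IsLocalRing.maximalIdeal A := by
        rw [ValuationSubring.valuation_lt_one_iff]
        have h1 : ¬ A.valuation b ≤ 1 := fun h => hbA ((A.valuation_le_one_iff b).mp h)
        have h2 : 0 < A.valuation b := lt_of_le_of_lt zero_le_one (not_le.mp h1)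
        change A.valuation b⁻¹ < 1
        rw [map_inv₀, inv_lt_one₀ h2]
        exact not_le.mp h1
      refine hcontra _ (hm𝔫 _ hy) c (hinjDL ?_)
      rw [map_mul, map_one, ← hmk, ← hAKL, ← hb, ← map_mul]
      change algebraMap K (FractionRing (C ⧸ 𝔮)) (b⁻¹ * b) = 1
      rw [inv_mul_cancel₀ hb0, map_one]
  choose ψ hψ using key
  have hψu : ∀ (c : C) (x : A), algebraMap A (C ⧸ 𝔮) x = Ideal.Quotient.mk 𝔮 c → ψ c = x :=
    fun c x hx => hinjAD ((hψ c).trans hx.symm)
  refine ⟨{ toFun := ψ
            map_one' := hψu 1 1 (by rw [map_one, map_one])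
            map_mul' := fun c d => hψu _ _ (by rw [map_mul, map_mul, hψ, hψ])
            map_zero' := hψu 0 0 (by rw [map_zero, map_zero])
            map_add' := fun c d => hψu _ _ (by rw [map_add, map_add, hψ, hψ])
            commutes' := fun x => hψu _ _ (hmk x) }, ?_⟩
  intro c hc
  by_contra hcm
  rw [IsLocalRing.notMem_maximalIdeal] at hcm
  obtain ⟨y, hy⟩ := hcm.exists_right_inv
  replace hy : ψ c * y = 1 := hy
  refine hcontra c hc (algebraMap A C y) ?_
  rw [← hmk, ← hψ c, ← map_mul]
  change algebraMap A (C ⧸ 𝔮) (ψ c * y) = 1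
  rw [hy, map_one]

end Section

section Main

variable {K : Type} [Field K] [IsAlgClosed K] (A : ValuationSubring K)
  {σ ι : Type} [Fintype σ] [Fintype ι] [DecidableEq σ] [DecidableEq ι]
  (f : ι → MvPolynomial σ A) (a : σ → A)

/-- evaluation at the residue of the point `(a, u)` -/
noncomputable def div1hEval (u : A) :
    MvPolynomial (σ ⊕ Unit) A →+* IsLocalRing.ResidueField A :=
  eval₂Hom (IsLocalRing.residue A)
    (Sum.elim (fun j => IsLocalRing.residue A (a j)) (fun _ => IsLocalRing.residue A u))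

theorem div1hEval_rename (u : A) (p : MvPolynomial σ A) :
    div1hEval A a u (rename Sum.inl p) = IsLocalRing.residue A (eval a p) := by
  rw [div1hEval, coe_eval₂Hom, eval₂_rename]
  have h := eval₂_comp_left (IsLocalRing.residue A) (RingHom.id A) a p
  rw [RingHom.comp_id] at h
  exact h.symm

theorem div1hEval_X (u : A) (i : σ ⊕ Unit) :
    div1hEval A a u (X i) =
      Sum.elim (fun j => IsLocalRing.residue A (a j)) (fun _ => IsLocalRing.residue A u) i := by
  rw [div1hEval, coe_eval₂Hom, eval₂_X]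

theorem div1hEval_C (u : A) (r : A) :
    div1hEval A a u (C r) = IsLocalRing.residue A r := by
  rw [div1hEval, coe_eval₂Hom, eval₂_C]

theorem div1hEval_rel (e : ι ≃ σ) (u : A) (hu : eval a (div1hDet e f) * u = 1)
    (hfa : ∀ i, ((eval a (f i) : A) : K) ∈ A.nonunits) :
    ∀ r ∈ Ideal.span (Set.range (div1hRel e f)), div1hEval A a u r = 0 := by
  intro r hr
  have hle : Ideal.span (Set.range (div1hRel e f)) ≤ RingHom.ker (div1hEval A a u) := by
    rw [Ideal.span_le]
    rintro _ ⟨i, rfl⟩
    rw [SetLike.mem_coe, RingHom.mem_ker]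
    rcases i with i | i
    · change div1hEval A a u (rename Sum.inl (f i)) = 0
      rw [div1hEval_rename, IsLocalRing.residue_eq_zero_iff,
        ← ValuationSubring.coe_mem_nonunits_iff]
      exact hfa i
    · change div1hEval A a u (X (Sum.inr ()) * rename Sum.inl (div1hDet e f) - 1) = 0
      rw [map_sub, map_mul, map_one, div1hEval_rename, div1hEval_X, Sum.elim_inr, ← map_mul,
        mul_comm, hu, map_one, sub_self]
  exact hle hr

theorem div1h_main (e : ι ≃ σ) (hfa : ∀ i, ((eval a (f i) : A) : K) ∈ A.nonunits)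
    (hJ : ∀ v : σ → A,
      (∀ i, ((∑ j, MvPolynomial.eval a (MvPolynomial.pderiv j (f i)) * v j : A) : K)
        ∈ A.nonunits) →
      ∀ j, ((v j : A) : K) ∈ A.nonunits) :
    ∃ b : σ → A, (∀ j, ((b j - a j : A) : K) ∈ A.nonunits) ∧ ∀ i, eval b (f i) = 0 := by
  obtain ⟨u, hu⟩ := (div1h_det_isUnit A e f a hJ).exists_right_inv
  have hφI := div1hEval_rel A f a e u hu hfa
  haveI : Algebra.Etale A (div1hC e f) := div1h_etale e f
  obtain ⟨β, hβ⟩ : ∃ β : div1hC e f →+* IsLocalRing.ResidueField A,
      ∀ p, β (Ideal.Quotient.mk _ p) = div1hEval A a u p :=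
    ⟨Ideal.Quotient.lift _ (div1hEval A a u) hφI, fun p => Ideal.Quotient.lift_mk _ _ _⟩
  haveI : (RingHom.ker β).IsPrime := RingHom.ker_isPrime β
  haveI : (RingHom.ker β).LiesOver (IsLocalRing.maximalIdeal A) := by
    refine ⟨?_⟩
    ext x
    rw [Ideal.mem_comap, RingHom.mem_ker, ← IsLocalRing.residue_eq_zero_iff]
    have : algebraMap A (div1hC e f) x = Ideal.Quotient.mk _ (C x) := rfl
    rw [this, hβ, div1hEval_C]
  obtain ⟨ψ, hψ⟩ := div1h_section A (div1hC e f) (RingHom.ker β)
  refine ⟨fun j => ψ (Ideal.Quotient.mk _ (X (Sum.inl j))), fun j => ?_, fun i => ?_⟩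
  · rw [ValuationSubring.coe_mem_nonunits_iff]
    have h1 : ψ (Ideal.Quotient.mk _ (X (Sum.inl j))) - a j =
        ψ (Ideal.Quotient.mk _ (X (Sum.inl j) - C (a j))) := by
      rw [map_sub, map_sub]
      congr 1
      exact (ψ.commutes (a j)).symm
    rw [h1]
    refine hψ _ ?_
    rw [RingHom.mem_ker, hβ, map_sub, div1hEval_X, div1hEval_C, Sum.elim_inl, sub_self]
  · have h2 : ∀ p : MvPolynomial σ A,
        eval (fun j => ψ (Ideal.Quotient.mk _ (X (Sum.inl j)))) p =
        ψ (Ideal.Quotient.mk _ (rename Sum.inl p)) := by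
      intro p
      induction p using MvPolynomial.induction_on with
      | C r =>
        rw [eval_C, rename_C]
        exact (ψ.commutes r).symm
      | add p q hp hq => rw [map_add, map_add, map_add, map_add, hp, hq]
      | mul_X p j hp => rw [map_mul, map_mul, map_mul, map_mul, hp, eval_X, rename_X]
    have h3 : Ideal.Quotient.mk (Ideal.span (Set.range (div1hRel e f)))
        (rename Sum.inl (f i)) = 0 := div1h_rel_eq_zero e f (Sum.inl i)
    rw [h2, h3, map_zero]

/-- **DIV1-H**: Hensel's lemma in several variables for the valuation ring of an algebraically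
closed field. -/
theorem stmtHenselMv : StmtHenselMv := by
  intro K _ _ A σ ι _ _ hcard f a hfa hJ
  classical
  exact div1h_main A f a (Fintype.equivOfCardEq hcard) hfa hJ

end Main

end Fermat.Agent.S15
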