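import Fermat.Agent.S15.Div1
import Fermat.Agent.S15.Div1Hensel

/-!
# S15/DIV¹, final: the kernel of reduction is divisible by every unit `m` of `A`

`stmtDiv1 : StmtDiv1` (unconditional): `K` algebraically closed, `A ⊂ K` a valuation ring,
`R : PRData K F k Fk A` a reduction package (`IsPR`, `Orth`, nice curves of the same genus);
for `m : ℕ` with `(m : K) ∉ A.nonunits` every class `x ∈ R.J1` is `m • y` with `y ∈ R.J1`.

Geometry: helper94 (`Div1.lean`); multi-variable Hensel: helper24 (`Div1Hensel.lean`).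
-/

set_option autoImplicit false

namespace Fermat.Agent.S15

theorem stmtDiv1 : StmtDiv1 := Div1.stmtDiv1_of stmtHenselMv

open Fermat.Agent.W1 AlgebraicCurve in
/-- divisibility by a power: `p ^ n` is a unit as soon as `p` is. -/
theorem div1_pow {K F k Fk : Type} [Field K] [Field F] [Algebra K F] [Field k] [Field Fk]
    [Algebra k Fk] [IsAlgClosed K] {A : ValuationSubring K} {R : PRData K F k Fk A} {g : ℕ}
    (hR : R.IsPR) (hF : IsNiceCurve K F g) (hFk : IsNiceCurve k Fk g) (hO : R.Orth)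
    {p : ℕ} (hp : (p : K) ∉ A.nonunits) (n : ℕ) {x : Pic0 K F} (hx : x ∈ R.J1) :
    ∃ y : Pic0 K F, y ∈ R.J1 ∧ (p ^ n) • y = x := by
  refine stmtDiv1 K F k Fk A R g hR hF hFk hO (p ^ n) ?_ x hx
  rw [A.mem_nonunits_iff, not_lt] at hp ⊢
  rw [Nat.cast_pow, map_pow]
  exact one_le_pow₀ hp

end Fermat.Agent.S15
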