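/-
Item 15 (Mazur chain), piece `EC-loc`, part 1 (helper8): reduction on the identity component.

`A` a valuation subring of a field `K`, `W₀` a Weierstrass curve with coefficients in `A`
(ANY reduction type).  `E⁰ = {P | InE0 P}`: the points which reduce to a nonsingular point of the
reduced curve (or to `0`).  `E⁰` is a subgroup and the reduction `E⁰ → W̄_ns(k)` is a homomorphism
with kernel `{x(P) ∉ A}`.  (Adapted from the brick `RED`, which treats good reduction.)
-/
import Mathlib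
import Fermat.Agent.RED.Hom

set_option autoImplicit false
set_option linter.unusedSectionVars false

namespace Fermat.Agent.S15.ECL

open WeierstrassCurve Fermat.Agent.RED Fermat.Agent.S05

variable {K : Type*} [Field K] [DecidableEq K] {A : ValuationSubring K}
  [DecidableEq (IsLocalRing.ResidueField A)] (W₀ : WeierstrassCurve A)

/-- the reduction of the integral pair `(a, b)` is a nonsingular point of the reduced curve -/
abbrev NsRes (a b : A) : Prop :=
  (curveRes A W₀).toAffine.Nonsingular (IsLocalRing.residue A a) (IsLocalRing.residue A b)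

variable {W₀}

/-- `P` lies in the identity component: `P = 0`, or `x(P) ∉ A`, or `P` is integral with
nonsingular reduction. -/
def InE0 (P : (curveK A W₀).toAffine.Point) : Prop :=
  match P with
  | .zero => True
  | .some x y _ => x ∉ A ∨ ∃ (hx : x ∈ A) (hy : y ∈ A), NsRes W₀ ⟨x, hx⟩ ⟨y, hy⟩

theorem inE0_zero : InE0 (0 : (curveK A W₀).toAffine.Point) := trivial

theorem inE0_some_iff {x y : K} (h : (curveK A W₀).toAffine.Nonsingular x y) :
    InE0 (Affine.Point.some x y h) ↔
      (x ∉ A ∨ ∃ (hx : x ∈ A) (hy : y ∈ A), NsRes W₀ ⟨x, hx⟩ ⟨y, hy⟩) := Iff.rfl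

theorem inE0_coe_iff {a b : A} (h : (curveK A W₀).toAffine.Nonsingular (a : K) (b : K)) :
    InE0 (Affine.Point.some (a : K) (b : K) h) ↔ NsRes W₀ a b := by
  rw [inE0_some_iff]
  constructor
  · rintro (h1 | ⟨hx, hy, hns⟩)
    · exact absurd a.2 h1
    · exact hns
  · intro hns
    exact Or.inr ⟨a.2, b.2, hns⟩

theorem inE0_of_inKer {P : (curveK A W₀).toAffine.Point} (hP : InKer P) : InE0 P := by
  rcases P with _ | ⟨x, y, h⟩
  · trivial
  · exact Or.inl hP

open Classical in
/-- the reduction map (value `0` outside of the integral points with nonsingular reduction) -/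
noncomputable def redPt0 : (curveK A W₀).toAffine.Point → (curveRes A W₀).toAffine.Point
  | .zero => 0
  | .some x y _ =>
    if hh : ∃ (hx : x ∈ A) (hy : y ∈ A), NsRes W₀ ⟨x, hx⟩ ⟨y, hy⟩ then
      Affine.Point.some (IsLocalRing.residue A ⟨x, hh.choose⟩)
        (IsLocalRing.residue A ⟨y, hh.choose_spec.choose⟩) hh.choose_spec.choose_spec
    else 0

@[simp] theorem redPt0_zero : redPt0 (0 : (curveK A W₀).toAffine.Point) = 0 := rfl

theorem redPt0_coe {a b : A} (h : (curveK A W₀).toAffine.Nonsingular (a : K) (b : K))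
    (hns : NsRes W₀ a b) :
    redPt0 (Affine.Point.some (a : K) (b : K) h) =
      Affine.Point.some (IsLocalRing.residue A a) (IsLocalRing.residue A b) hns := by
  have hh : ∃ (hx : (a : K) ∈ A) (hy : (b : K) ∈ A), NsRes W₀ ⟨a, hx⟩ ⟨b, hy⟩ :=
    ⟨a.2, b.2, hns⟩
  simp only [redPt0, dif_pos hh]

theorem redPt0_of_not_mem {x y : K} (h : (curveK A W₀).toAffine.Nonsingular x y) (hx : x ∉ A) :
    redPt0 (Affine.Point.some x y h) = 0 := by
  have hh : ¬ ∃ (hx : x ∈ A) (hy : y ∈ A), NsRes W₀ ⟨x, hx⟩ ⟨y, hy⟩ := fun ⟨h1, _⟩ => hx h1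
  simp only [redPt0, dif_neg hh]

theorem redPt0_of_inKer {P : (curveK A W₀).toAffine.Point} (hP : InKer P) : redPt0 P = 0 := by
  rcases P with _ | ⟨x, y, h⟩
  · rfl
  · exact redPt0_of_not_mem h hP

/-- on the identity component, the kernel of the reduction is `{x ∉ A}` -/
theorem inKer_of_redPt0_eq_zero {P : (curveK A W₀).toAffine.Point} (hP : InE0 P)
    (h0 : redPt0 P = 0) : InKer P := by
  rcases P with _ | ⟨x, y, h⟩
  · trivial
  · rcases hP with h1 | ⟨hx, hy, hns⟩
    · exact h1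
    · exfalso
      have := redPt0_coe (a := ⟨x, hx⟩) (b := ⟨y, hy⟩) h hns
      rw [this] at h0
      exact Affine.Point.some_ne_zero _ h0

/-! ### Negation -/

theorem nsRes_negY {a b : A} (hns : NsRes W₀ a b) : NsRes W₀ a (W₀.toAffine.negY a b) := by
  show (curveRes A W₀).toAffine.Nonsingular _ _
  rw [residue_negY]
  exact (Affine.nonsingular_neg ..).mpr hns

theorem inE0_neg {P : (curveK A W₀).toAffine.Point} (hP : InE0 P) : InE0 (-P) := by
  rcases P with _ | ⟨x, y, h⟩
  · exact hP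
  · rcases hP with h1 | ⟨hx, hy, hns⟩
    · exact Or.inl h1
    · obtain ⟨h', hneg⟩ := neg_some_coe (a := ⟨x, hx⟩) (b := ⟨y, hy⟩) h
      rw [hneg, inE0_coe_iff]
      exact nsRes_negY hns

theorem redPt0_neg {P : (curveK A W₀).toAffine.Point} (hP : InE0 P) :
    redPt0 (-P) = -redPt0 P := by
  rcases P with _ | ⟨x, y, h⟩
  · rfl
  · rcases hP with h1 | ⟨hx, hy, hns⟩
    · rw [redPt0_of_not_mem h h1, Affine.Point.neg_some, redPt0_of_not_mem _ h1]
      exact Affine.Point.neg_zero.symm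
    · obtain ⟨h', hneg⟩ := neg_some_coe (a := ⟨x, hx⟩) (b := ⟨y, hy⟩) h
      rw [hneg, redPt0_coe h' (nsRes_negY hns), redPt0_coe (a := ⟨x, hx⟩) (b := ⟨y, hy⟩) h hns,
        Affine.Point.neg_some]
      exact some_congr _ _ rfl (residue_negY _ _)

/-! ### Addition -/

/-- **F1.**  Two integral points with nonsingular, non-opposite reductions: the sum is integral
with nonsingular reduction, equal to the sum of the reductions. -/
theorem add_of_ne {a₁ b₁ a₂ b₂ : A}
    (h₁ : (curveK A W₀).toAffine.Nonsingular (a₁ : K) (b₁ : K))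
    (h₂ : (curveK A W₀).toAffine.Nonsingular (a₂ : K) (b₂ : K))
    (n₁ : NsRes W₀ a₁ b₁) (n₂ : NsRes W₀ a₂ b₂)
    (hne : ¬(IsLocalRing.residue A a₁ = IsLocalRing.residue A a₂ ∧
      IsLocalRing.residue A b₁ = (curveRes A W₀).toAffine.negY (IsLocalRing.residue A a₂)
        (IsLocalRing.residue A b₂))) :
    ∃ (c d : A) (h : (curveK A W₀).toAffine.Nonsingular (c : K) (d : K)) (n : NsRes W₀ c d),
      Affine.Point.some _ _ h₁ + Affine.Point.some _ _ h₂ = Affine.Point.some _ _ h ∧
      Affine.Point.some _ _ n = Affine.Point.some _ _ n₁ + Affine.Point.some _ _ n₂ := by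
  have e₁ := equation_of_coe A W₀ h₁.1
  have e₂ := equation_of_coe A W₀ h₂.1
  obtain ⟨l, hlK, hlk⟩ := exists_slope (K := K) e₁ e₂ hne
  have hneK : ¬((a₁ : K) = (a₂ : K) ∧ (b₁ : K) = (curveK A W₀).toAffine.negY (a₂ : K) (b₂ : K)) := by
    rintro ⟨hx, hy⟩
    apply hne
    have hx' : a₁ = a₂ := Subtype.ext hx
    have hy' : b₁ = W₀.toAffine.negY a₂ b₂ := by
      apply Subtype.ext
      rw [hy]
      simp only [Affine.negY]
      push_cast
      rfl
    refine ⟨by rw [hx'], ?_⟩
    rw [hy', Affine.map_negY]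
  have hX : (curveK A W₀).toAffine.addX (a₁ : K) (a₂ : K)
      ((curveK A W₀).toAffine.slope (a₁ : K) (a₂ : K) (b₁ : K) (b₂ : K))
      = ((W₀.toAffine.addX a₁ a₂ l : A) : K) := by
    rw [← hlK]
    exact Affine.map_addX (W' := W₀) A.subtype a₁ a₂ l
  have hY : (curveK A W₀).toAffine.addY (a₁ : K) (a₂ : K) (b₁ : K)
      ((curveK A W₀).toAffine.slope (a₁ : K) (a₂ : K) (b₁ : K) (b₂ : K))
      = ((W₀.toAffine.addY a₁ a₂ b₁ l : A) : K) := by
    rw [← hlK]
    exact Affine.map_addY (W' := W₀) A.subtype a₁ b₁ a₂ l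
  have hXk : (curveRes A W₀).toAffine.addX (IsLocalRing.residue A a₁) (IsLocalRing.residue A a₂)
      ((curveRes A W₀).toAffine.slope (IsLocalRing.residue A a₁) (IsLocalRing.residue A a₂)
        (IsLocalRing.residue A b₁) (IsLocalRing.residue A b₂))
      = IsLocalRing.residue A (W₀.toAffine.addX a₁ a₂ l) := by
    rw [← hlk]
    exact Affine.map_addX (W' := W₀) (IsLocalRing.residue A) a₁ a₂ l
  have hYk : (curveRes A W₀).toAffine.addY (IsLocalRing.residue A a₁) (IsLocalRing.residue A a₂)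
      (IsLocalRing.residue A b₁)
      ((curveRes A W₀).toAffine.slope (IsLocalRing.residue A a₁) (IsLocalRing.residue A a₂)
        (IsLocalRing.residue A b₁) (IsLocalRing.residue A b₂))
      = IsLocalRing.residue A (W₀.toAffine.addY a₁ a₂ b₁ l) := by
    rw [← hlk]
    exact Affine.map_addY (W' := W₀) (IsLocalRing.residue A) a₁ b₁ a₂ l
  have hsumK := Affine.nonsingular_add h₁ h₂ hneK
  have hsumk := Affine.nonsingular_add n₁ n₂ hne
  rw [hX, hY] at hsumK
  rw [hXk, hYk] at hsumk
  refine ⟨W₀.toAffine.addX a₁ a₂ l, W₀.toAffine.addY a₁ a₂ b₁ l, hsumK, hsumk, ?_, ?_⟩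
  · rw [Affine.Point.add_some hneK]
    exact some_congr _ _ hX hY
  · rw [Affine.Point.add_some hne]
    exact some_congr _ _ hXk.symm hYk.symm

/-- **F2.**  Two integral points with the same reduction, nonsingular, differ by a point
of the kernel of reduction. -/
theorem sub_inKer_of_res_eq' {a₁ b₁ a₂ b₂ : A}
    (h₁ : (curveK A W₀).toAffine.Nonsingular (a₁ : K) (b₁ : K))
    (h₂ : (curveK A W₀).toAffine.Nonsingular (a₂ : K) (b₂ : K))
    (n₂ : NsRes W₀ a₂ b₂)
    (hx : IsLocalRing.residue A a₁ = IsLocalRing.residue A a₂)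
    (hy : IsLocalRing.residue A b₁ = IsLocalRing.residue A b₂) :
    InKer (Affine.Point.some _ _ h₁ - Affine.Point.some _ _ h₂) := by
  by_cases hne : Affine.Point.some _ _ h₁ = Affine.Point.some _ _ h₂
  · rw [hne, sub_self]; exact inKer_zero
  · have hns : (curveRes A W₀).toAffine.Nonsingular (IsLocalRing.residue A a₂)
        (IsLocalRing.residue A b₂) := n₂
    rw [Affine.nonsingular_iff'] at hns
    have hns' : A.valuation (Fermat.Agent.S13.polyY (curveK A W₀) (a₂ : K) (b₂ : K)) = 1 ∨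
        A.valuation (Fermat.Agent.S13.polyX (curveK A W₀) (a₂ : K) (b₂ : K)) = 1 := by
      rcases hns.2 with h | h
      · right
        have e : Fermat.Agent.S13.polyX (curveK A W₀) (a₂ : K) (b₂ : K) =
            ((3 * a₂ ^ 2 + 2 * W₀.a₂ * a₂ + W₀.a₄ - W₀.a₁ * b₂ : A) : K) := by
          simp only [Fermat.Agent.S13.polyX]; push_cast; rfl
        rw [e, ← residue_ne_zero_iff_val_eq_one]
        intro h0
        apply h
        have : (curveRes A W₀).a₁ * IsLocalRing.residue A b₂
            - (3 * IsLocalRing.residue A a₂ ^ 2 + 2 * (curveRes A W₀).a₂ * IsLocalRing.residue A a₂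
              + (curveRes A W₀).a₄)
            = -IsLocalRing.residue A (3 * a₂ ^ 2 + 2 * W₀.a₂ * a₂ + W₀.a₄ - W₀.a₁ * b₂) := by
          simp only [map_sub, map_add, map_mul, map_pow, map_ofNat]
          have e₂ : (curveRes A W₀).a₂ = IsLocalRing.residue A W₀.a₂ := rfl
          have e₄ : (curveRes A W₀).a₄ = IsLocalRing.residue A W₀.a₄ := rfl
          have e₁ : (curveRes A W₀).a₁ = IsLocalRing.residue A W₀.a₁ := rfl
          rw [e₁, e₂, e₄]
          ring
        rw [this, h0, neg_zero]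
      · left
        have e : Fermat.Agent.S13.polyY (curveK A W₀) (a₂ : K) (b₂ : K) =
            ((2 * b₂ + W₀.a₁ * a₂ + W₀.a₃ : A) : K) := by
          simp only [Fermat.Agent.S13.polyY]; push_cast; rfl
        rw [e, ← residue_ne_zero_iff_val_eq_one]
        intro h0
        apply h
        have : 2 * IsLocalRing.residue A b₂ + (curveRes A W₀).a₁ * IsLocalRing.residue A a₂
            + (curveRes A W₀).a₃ = IsLocalRing.residue A (2 * b₂ + W₀.a₁ * a₂ + W₀.a₃) := by
          simp only [map_add, map_mul, map_ofNat]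
          rfl
        rw [this, h0]
    obtain ⟨x'', y'', h'', hsub, hlt⟩ :=
      Fermat.Agent.S13.key_nonsing_any A.valuation
        (val_le_one_of_mem (curveK_a₁_mem A W₀)) (val_le_one_of_mem (curveK_a₂_mem A W₀))
        (val_le_one_of_mem (curveK_a₃_mem A W₀)) h₂ h₁
        (val_le_one_of_mem a₂.2) (val_le_one_of_mem b₂.2)
        (A.mem_nonunits_iff.1 (residue_eq_iff_sub_mem_nonunits.1 hx))
        (A.mem_nonunits_iff.1 (residue_eq_iff_sub_mem_nonunits.1 hy)) hne hns'
    rw [hsub, inKer_some_iff]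
    intro hmem
    exact absurd (val_le_one_of_mem hmem) (not_le.2 hlt)

/-- Two integral points with nonsingular reductions. -/
theorem add_int_int {a₁ b₁ a₂ b₂ : A}
    (h₁ : (curveK A W₀).toAffine.Nonsingular (a₁ : K) (b₁ : K))
    (h₂ : (curveK A W₀).toAffine.Nonsingular (a₂ : K) (b₂ : K))
    (n₁ : NsRes W₀ a₁ b₁) (n₂ : NsRes W₀ a₂ b₂) :
    InE0 (Affine.Point.some _ _ h₁ + Affine.Point.some _ _ h₂) ∧
      redPt0 (Affine.Point.some _ _ h₁ + Affine.Point.some _ _ h₂) =
        redPt0 (Affine.Point.some _ _ h₁) + redPt0 (Affine.Point.some _ _ h₂) := by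
  by_cases hne : IsLocalRing.residue A a₁ = IsLocalRing.residue A a₂ ∧
      IsLocalRing.residue A b₁ = (curveRes A W₀).toAffine.negY (IsLocalRing.residue A a₂)
        (IsLocalRing.residue A b₂)
  · obtain ⟨hx, hy⟩ := hne
    obtain ⟨h₂', hneg⟩ := neg_some_coe h₂
    have hker := sub_inKer_of_res_eq' h₁ h₂' (nsRes_negY n₂) hx (by rw [hy, residue_negY])
    rw [← hneg, sub_neg_eq_add] at hker
    refine ⟨inE0_of_inKer hker, ?_⟩
    rw [redPt0_of_inKer hker, redPt0_coe h₁ n₁, redPt0_coe h₂ n₂,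
      Affine.Point.add_of_Y_eq hx hy]
  · obtain ⟨c, d, h, n, hsum, hres⟩ := add_of_ne h₁ h₂ n₁ n₂ hne
    rw [hsum]
    exact ⟨(inE0_coe_iff h).2 n, by
      rw [redPt0_coe h n, redPt0_coe h₁ n₁, redPt0_coe h₂ n₂, hres]⟩

/-- An integral point with nonsingular reduction plus a nonzero point of the kernel. -/
theorem add_int_ker {a b : A} {x₂ y₂ : K}
    (h₁ : (curveK A W₀).toAffine.Nonsingular (a : K) (b : K)) (n₁ : NsRes W₀ a b)
    (h₂ : (curveK A W₀).toAffine.Nonsingular x₂ y₂) (hx₂ : x₂ ∉ A) :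
    InE0 (Affine.Point.some _ _ h₁ + Affine.Point.some _ _ h₂) ∧
      redPt0 (Affine.Point.some _ _ h₁ + Affine.Point.some _ _ h₂) =
        redPt0 (Affine.Point.some _ _ h₁) + redPt0 (Affine.Point.some _ _ h₂) := by
  obtain ⟨X, Y, h, hadd, hXA, hXx⟩ := add_ker_x h₁ h₂ a.2 hx₂
  rw [redPt0_of_not_mem h₂ hx₂, add_zero, hadd]
  have hYA : Y ∈ A := y_mem_of_x_mem A W₀ h.1 hXA
  obtain ⟨c, hc⟩ : ∃ c : A, (c : K) = X := ⟨⟨X, hXA⟩, rfl⟩
  obtain ⟨d, hd⟩ : ∃ d : A, (d : K) = Y := ⟨⟨Y, hYA⟩, rfl⟩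
  subst hc; subst hd
  have hca : IsLocalRing.residue A c = IsLocalRing.residue A a :=
    residue_eq_iff_sub_mem_nonunits.2 hXx
  have ec : (curveRes A W₀).toAffine.Equation (IsLocalRing.residue A c)
      (IsLocalRing.residue A d) := (equation_of_coe A W₀ h.1).map (IsLocalRing.residue A)
  have hcases : IsLocalRing.residue A d = IsLocalRing.residue A b ∨
      IsLocalRing.residue A d = (curveRes A W₀).toAffine.negY (IsLocalRing.residue A a)
        (IsLocalRing.residue A b) := Affine.Y_eq_of_X_eq ec n₁.1 hca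
  by_cases hdb : IsLocalRing.residue A d = IsLocalRing.residue A b
  · have n : NsRes W₀ c d := by
      show (curveRes A W₀).toAffine.Nonsingular _ _
      rw [hca, hdb]
      exact n₁
    exact ⟨(inE0_coe_iff h).2 n, by
      rw [redPt0_coe h n, redPt0_coe h₁ n₁]
      exact some_congr _ _ hca hdb⟩
  · exfalso
    have hd' := hcases.resolve_left hdb
    have n : NsRes W₀ c d := by
      show (curveRes A W₀).toAffine.Nonsingular _ _
      rw [hca, hd']
      exact (Affine.nonsingular_neg ..).mpr n₁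
    obtain ⟨h₁', hneg⟩ := neg_some_coe h₁
    have hne : ¬(IsLocalRing.residue A c = IsLocalRing.residue A a ∧
        IsLocalRing.residue A d = (curveRes A W₀).toAffine.negY (IsLocalRing.residue A a)
          (IsLocalRing.residue A (W₀.toAffine.negY a b))) := by
      rintro ⟨-, hy⟩
      rw [residue_negY, Affine.negY_negY] at hy
      exact hdb hy
    obtain ⟨c', d', h', -, hsum, -⟩ := add_of_ne h h₁' n (nsRes_negY n₁) hne
    have hQ : Affine.Point.some _ _ h + Affine.Point.some _ _ h₁' = Affine.Point.some _ _ h₂ := by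
      rw [← hneg, ← hadd]
      abel
    rw [hQ] at hsum
    have hxe : x₂ = (c' : K) := by
      injection hsum
    exact hx₂ (hxe ▸ c'.2)

/-- **The identity component is closed under addition, and the reduction is additive on it.** -/
theorem inE0_add_and {P Q : (curveK A W₀).toAffine.Point} (hP : InE0 P) (hQ : InE0 Q) :
    InE0 (P + Q) ∧ redPt0 (P + Q) = redPt0 P + redPt0 Q := by
  rcases P with _ | ⟨x₁, y₁, h₁⟩
  · have : (Affine.Point.zero : (curveK A W₀).toAffine.Point) = 0 := rfl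
    rw [this, zero_add, redPt0_zero, zero_add]
    exact ⟨hQ, rfl⟩
  rcases Q with _ | ⟨x₂, y₂, h₂⟩
  · have : (Affine.Point.zero : (curveK A W₀).toAffine.Point) = 0 := rfl
    rw [this, add_zero, redPt0_zero, add_zero]
    exact ⟨hP, rfl⟩
  rcases hP with hx₁ | ⟨hx₁, hy₁, n₁⟩
  · rcases hQ with hx₂ | ⟨hx₂, hy₂, n₂⟩
    · have hker := inKer_add (P := Affine.Point.some _ _ h₁) (Q := Affine.Point.some _ _ h₂)
        hx₁ hx₂
      exact ⟨inE0_of_inKer hker, by
        rw [redPt0_of_inKer hker, redPt0_of_not_mem h₁ hx₁, redPt0_of_not_mem h₂ hx₂, add_zero]⟩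
    · rw [add_comm, add_comm (redPt0 _)]
      exact add_int_ker (a := ⟨x₂, hx₂⟩) (b := ⟨y₂, hy₂⟩) h₂ n₂ h₁ hx₁
  · rcases hQ with hx₂ | ⟨hx₂, hy₂, n₂⟩
    · exact add_int_ker (a := ⟨x₁, hx₁⟩) (b := ⟨y₁, hy₁⟩) h₁ n₁ h₂ hx₂
    · exact add_int_int (a₁ := ⟨x₁, hx₁⟩) (b₁ := ⟨y₁, hy₁⟩) (a₂ := ⟨x₂, hx₂⟩)
        (b₂ := ⟨y₂, hy₂⟩) h₁ h₂ n₁ n₂

/-! ### The subgroup and the homomorphism -/

variable (A W₀)

/-- **The identity component** `E⁰`: the points with nonsingular reduction. -/
def E0 : AddSubgroup (curveK A W₀).toAffine.Point where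
  carrier := {P | InE0 (A := A) (W₀ := W₀) P}
  zero_mem' := inE0_zero (A := A) (W₀ := W₀)
  add_mem' := fun {P Q} hP hQ => (inE0_add_and (A := A) (W₀ := W₀) (P := P) (Q := Q) hP hQ).1
  neg_mem' := fun {P} hP => inE0_neg (A := A) (W₀ := W₀) (P := P) hP

variable {A W₀}

theorem mem_E0_iff {P : (curveK A W₀).toAffine.Point} : P ∈ E0 A W₀ ↔ InE0 P := Iff.rfl

/-- **The reduction homomorphism** on the identity component. -/
noncomputable def red0 : E0 A W₀ →+ (curveRes A W₀).toAffine.Point where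
  toFun P := redPt0 P.1
  map_zero' := rfl
  map_add' P Q := (inE0_add_and P.2 Q.2).2

@[simp] theorem red0_apply (P : E0 A W₀) : red0 P = redPt0 P.1 := rfl

theorem red0_eq_zero_iff (P : E0 A W₀) : red0 P = 0 ↔ InKer P.1 :=
  ⟨fun h => inKer_of_redPt0_eq_zero P.2 h, fun h => redPt0_of_inKer h⟩

/-- The kernel of reduction has no `n`-torsion for `n` a unit of `A`. -/
theorem eq_zero_of_red0_eq_zero_of_nsmul {n : ℕ} (hn : (n : K) ∉ A.nonunits)
    {P : E0 A W₀} (hP : n • P = 0) (hred : red0 P = 0) : P = 0 := by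
  rw [red0_eq_zero_iff] at hred
  have hP' : n • (P : (curveK A W₀).toAffine.Point) = 0 := by
    have := congrArg Subtype.val hP
    simpa using this
  apply Subtype.ext
  show (P : (curveK A W₀).toAffine.Point) = 0
  rcases hP1 : (P : (curveK A W₀).toAffine.Point) with _ | ⟨x, y, h⟩
  · rfl
  · rw [hP1] at hred hP'
    exact absurd (Fermat.Agent.S05.no_torsion_of_not_mem A (curveK A W₀) (curveK_a₁_mem A W₀)
      (curveK_a₂_mem A W₀) (curveK_a₃_mem A W₀) (curveK_a₄_mem A W₀) (curveK_a₆_mem A W₀)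
      n hn h hP') hred

/-- **Order of the reduction**: a point of `E⁰` of prime order `p`, `p` a unit of `A`, reduces to
a point of order `p`. -/
theorem addOrderOf_redPt0 {p : ℕ} (hp : p.Prime) (hpA : (p : K) ∉ A.nonunits)
    {P : (curveK A W₀).toAffine.Point} (hP : InE0 P) (hord : addOrderOf P = p) :
    addOrderOf (redPt0 P) = p := by
  have h1 : p • (⟨P, hP⟩ : E0 A W₀) = 0 := by
    apply Subtype.ext
    show p • P = 0
    rw [← hord]
    exact addOrderOf_nsmul_eq_zero P
  have h2 : p • red0 (⟨P, hP⟩ : E0 A W₀) = 0 := by rw [← map_nsmul, h1, map_zero]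
  have h3 : red0 (⟨P, hP⟩ : E0 A W₀) ≠ 0 := by
    intro h0
    have h4 := eq_zero_of_red0_eq_zero_of_nsmul hpA h1 h0
    have h5 : P = 0 := congrArg Subtype.val h4
    rw [h5, addOrderOf_zero] at hord
    exact hp.one_lt.ne hord
  have : Fact p.Prime := ⟨hp⟩
  exact addOrderOf_eq_prime h2 h3

end Fermat.Agent.S15.ECL
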