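/-
Item 15 (Mazur chain), piece `EC-loc`, part 2 (helper8): the number of nonsingular points of a
nodal Weierstrass cubic over a finite field of odd characteristic.

`W` over a field `k`, `2 ≠ 0`, `Δ = 0`, `c₄ ≠ 0`.  The node is `(x₀, ·)` with
`x₀ = (18 b₆ - b₂ b₄) / c₄`; with `η = 2y + a₁x + a₃` the curve is
`η² = (x - x₀)² (4x + b₂ + 8x₀)`, and `t = η / (x - x₀)` is a bijection from the nonsingular affine
points onto `{t | t² ≠ γ}`, `γ = 12 x₀ + b₂`, `γ² = c₄`.  Hence `#W_ns(k) = q + 1 - #{t² = γ}`,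
which is `q - 1` or `q + 1`.
-/
import Mathlib

set_option autoImplicit false

namespace Fermat.Agent.S15.ECL

open WeierstrassCurve

variable {k : Type*} [Field k] (W : WeierstrassCurve k)

/-- the `x`-coordinate of the node -/
noncomputable def nodeX : k := (18 * W.b₆ - W.b₂ * W.b₄) / W.c₄

/-- `γ = 12 x₀ + b₂`, a square root of `c₄` -/
noncomputable def nodeG : k := 12 * nodeX W + W.b₂

variable {W}

theorem node_rel1 (hΔ : W.Δ = 0) (hc : W.c₄ ≠ 0) :
    12 * nodeX W ^ 2 + 2 * W.b₂ * nodeX W + 2 * W.b₄ = 0 := by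
  have h1 : W.c₄ ^ 2 * (12 * nodeX W ^ 2 + 2 * W.b₂ * nodeX W + 2 * W.b₄) = -144 * W.Δ := by
    unfold nodeX
    field_simp
    simp only [WeierstrassCurve.Δ, WeierstrassCurve.c₄, WeierstrassCurve.b₂, WeierstrassCurve.b₄,
      WeierstrassCurve.b₆, WeierstrassCurve.b₈]
    ring
  rw [hΔ, mul_zero] at h1
  exact (mul_eq_zero.mp h1).resolve_left (pow_ne_zero 2 hc)

theorem node_rel2 (hΔ : W.Δ = 0) (hc : W.c₄ ≠ 0) :
    W.b₂ * nodeX W ^ 2 + 8 * nodeX W ^ 3 - W.b₆ = 0 := by
  have h1 : W.c₄ ^ 3 * (W.b₂ * nodeX W ^ 2 + 8 * nodeX W ^ 3 - W.b₆) =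
      (W.b₂ ^ 3 - 432 * W.b₆) * (4 * W.Δ) := by
    unfold nodeX
    field_simp
    simp only [WeierstrassCurve.Δ, WeierstrassCurve.c₄, WeierstrassCurve.b₂, WeierstrassCurve.b₄,
      WeierstrassCurve.b₆, WeierstrassCurve.b₈]
    ring
  rw [hΔ, mul_zero, mul_zero] at h1
  exact (mul_eq_zero.mp h1).resolve_left (pow_ne_zero 3 hc)

theorem nodeG_sq (hΔ : W.Δ = 0) (hc : W.c₄ ≠ 0) : nodeG W ^ 2 = W.c₄ := by
  have h1 := node_rel1 hΔ hc
  unfold nodeG
  rw [WeierstrassCurve.c₄]
  linear_combination 12 * h1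

theorem nodeG_ne_zero (hΔ : W.Δ = 0) (hc : W.c₄ ≠ 0) : nodeG W ≠ 0 := by
  intro h0
  apply hc
  rw [← nodeG_sq hΔ hc, h0]
  ring

/-- the curve in the form `η² = (x - x₀)² (4x + b₂ + 8x₀)` -/
theorem node_equation_iff (h2 : (2 : k) ≠ 0) (hΔ : W.Δ = 0) (hc : W.c₄ ≠ 0) (x y : k) :
    W.toAffine.Equation x y ↔
      (2 * y + W.a₁ * x + W.a₃) ^ 2 = (x - nodeX W) ^ 2 * (4 * x + W.b₂ + 8 * nodeX W) := by
  have h1 := node_rel1 hΔ hc
  have h3 := node_rel2 hΔ hc
  have h4 : (4 : k) ≠ 0 := by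
    have : (4 : k) = 2 * 2 := by norm_num
    rw [this]
    exact mul_ne_zero h2 h2
  have hf : (x - nodeX W) ^ 2 * (4 * x + W.b₂ + 8 * nodeX W) =
      4 * x ^ 3 + W.b₂ * x ^ 2 + 2 * W.b₄ * x + W.b₆ := by
    linear_combination (-x) * h1 + h3
  rw [hf, Affine.equation_iff]
  simp only [WeierstrassCurve.b₂, WeierstrassCurve.b₄, WeierstrassCurve.b₆]
  constructor
  · intro h
    linear_combination 4 * h
  · intro h
    apply mul_left_cancel₀ h4
    linear_combination h

/-- on the curve, the nonsingular points are those with `x ≠ x₀` -/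
theorem node_nonsingular_iff (h2 : (2 : k) ≠ 0) (hΔ : W.Δ = 0) (hc : W.c₄ ≠ 0) (x y : k) :
    W.toAffine.Nonsingular x y ↔ W.toAffine.Equation x y ∧ x ≠ nodeX W := by
  have h1 := node_rel1 hΔ hc
  have hG := nodeG_ne_zero hΔ hc
  have h4 : (4 : k) ≠ 0 := by
    have : (4 : k) = 2 * 2 := by norm_num
    rw [this]
    exact mul_ne_zero h2 h2
  rw [Affine.nonsingular_iff']
  refine and_congr_right fun heq => ?_
  have he := (node_equation_iff h2 hΔ hc x y).mp heq
  -- `4 F_x = 2 a₁ η - f'(x)`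
  have hFx : 4 * (W.a₁ * y - (3 * x ^ 2 + 2 * W.a₂ * x + W.a₄)) =
      2 * W.a₁ * (2 * y + W.a₁ * x + W.a₃) -
        (x - nodeX W) * (12 * (x + nodeX W) + 2 * W.b₂) := by
    have h1' := h1
    simp only [WeierstrassCurve.b₂, WeierstrassCurve.b₄] at h1' ⊢
    linear_combination -h1'
  constructor
  · rintro hns rfl
    rw [sub_self] at he hFx
    have hη : 2 * y + W.a₁ * nodeX W + W.a₃ = 0 := by
      have : (2 * y + W.a₁ * nodeX W + W.a₃) ^ 2 = 0 := by rw [he]; ring
      exact pow_eq_zero_iff (two_ne_zero) |>.mp this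
    rw [hη, mul_zero, zero_mul, sub_zero] at hFx
    rcases hns with h | h
    · exact h ((mul_eq_zero.mp hFx).resolve_left h4)
    · exact h hη
  · intro hx
    by_contra hcon
    push Not at hcon
    obtain ⟨hFx0, hη⟩ := hcon
    have hxx : x - nodeX W ≠ 0 := sub_ne_zero.mpr hx
    rw [hη] at he
    rw [hFx0, hη, mul_zero, mul_zero] at hFx
    have e1 : 4 * x + W.b₂ + 8 * nodeX W = 0 := by
      have : (x - nodeX W) ^ 2 * (4 * x + W.b₂ + 8 * nodeX W) = 0 := by rw [← he]; ring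
      exact (mul_eq_zero.mp this).resolve_left (pow_ne_zero 2 hxx)
    have e2 : 12 * (x + nodeX W) + 2 * W.b₂ = 0 := by
      have : (x - nodeX W) * (12 * (x + nodeX W) + 2 * W.b₂) = 0 := by
        linear_combination hFx
      exact (mul_eq_zero.mp this).resolve_left hxx
    apply hG
    unfold nodeG
    linear_combination 3 * e1 - e2

/-! ### The parametrisation -/

/-- the parameter `t = η / (x - x₀)` of an affine point -/
noncomputable def nodeT (W : WeierstrassCurve k) (x y : k) : k :=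
  (2 * y + W.a₁ * x + W.a₃) / (x - nodeX W)

/-- the point with parameter `t`: `x`-coordinate -/
noncomputable def nodePX (W : WeierstrassCurve k) (t : k) : k :=
  (t ^ 2 - W.b₂ - 8 * nodeX W) / 4

/-- the point with parameter `t`: `y`-coordinate -/
noncomputable def nodePY (W : WeierstrassCurve k) (t : k) : k :=
  (t * (t ^ 2 - nodeG W) / 4 - W.a₁ * nodePX W t - W.a₃) / 2

theorem node_four_ne_zero (h2 : (2 : k) ≠ 0) : (4 : k) ≠ 0 := by
  have : (4 : k) = 2 * 2 := by norm_num
  rw [this]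
  exact mul_ne_zero h2 h2

theorem nodeT_sq (h2 : (2 : k) ≠ 0) (hΔ : W.Δ = 0) (hc : W.c₄ ≠ 0) {x y : k}
    (h : W.toAffine.Nonsingular x y) : nodeT W x y ^ 2 = 4 * x + W.b₂ + 8 * nodeX W := by
  obtain ⟨heq, hx⟩ := (node_nonsingular_iff h2 hΔ hc x y).mp h
  have he := (node_equation_iff h2 hΔ hc x y).mp heq
  have hxx : x - nodeX W ≠ 0 := sub_ne_zero.mpr hx
  unfold nodeT
  rw [div_pow, he]
  field_simp

theorem nodeT_sq_ne (h2 : (2 : k) ≠ 0) (hΔ : W.Δ = 0) (hc : W.c₄ ≠ 0) {x y : k}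
    (h : W.toAffine.Nonsingular x y) : nodeT W x y ^ 2 ≠ nodeG W := by
  obtain ⟨-, hx⟩ := (node_nonsingular_iff h2 hΔ hc x y).mp h
  rw [nodeT_sq h2 hΔ hc h]
  intro h0
  apply sub_ne_zero.mpr hx
  apply mul_left_cancel₀ (node_four_ne_zero h2)
  unfold nodeG at h0
  linear_combination h0

theorem nodePX_sub (h2 : (2 : k) ≠ 0) (t : k) :
    nodePX W t - nodeX W = (t ^ 2 - nodeG W) / 4 := by
  have h4 := node_four_ne_zero h2
  unfold nodePX nodeG
  field_simp
  ring

theorem nodePY_eta (h2 : (2 : k) ≠ 0) (t : k) :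
    2 * nodePY W t + W.a₁ * nodePX W t + W.a₃ = t * (nodePX W t - nodeX W) := by
  rw [nodePX_sub h2]
  unfold nodePY
  field_simp
  ring

theorem nodeP_nonsingular (h2 : (2 : k) ≠ 0) (hΔ : W.Δ = 0) (hc : W.c₄ ≠ 0) {t : k}
    (ht : t ^ 2 ≠ nodeG W) : W.toAffine.Nonsingular (nodePX W t) (nodePY W t) := by
  have h4 := node_four_ne_zero h2
  rw [node_nonsingular_iff h2 hΔ hc]
  constructor
  · rw [node_equation_iff h2 hΔ hc, nodePY_eta h2]
    have e : 4 * nodePX W t + W.b₂ + 8 * nodeX W = t ^ 2 := by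
      unfold nodePX
      field_simp
      ring
    rw [e]
    ring
  · intro h0
    have e := nodePX_sub (W := W) h2 t
    rw [h0, sub_self] at e
    have : t ^ 2 - nodeG W = 0 := by
      have := e.symm
      rw [div_eq_zero_iff] at this
      exact this.resolve_right h4
    exact ht (sub_eq_zero.mp this)

theorem nodeT_nodeP (h2 : (2 : k) ≠ 0) {t : k} (ht : t ^ 2 ≠ nodeG W) :
    nodeT W (nodePX W t) (nodePY W t) = t := by
  have h4 := node_four_ne_zero h2
  have hne : nodePX W t - nodeX W ≠ 0 := by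
    rw [nodePX_sub h2]
    exact div_ne_zero (sub_ne_zero.mpr ht) h4
  unfold nodeT
  rw [nodePY_eta h2, mul_div_assoc, div_self hne, mul_one]

theorem nodePX_nodeT (h2 : (2 : k) ≠ 0) (hΔ : W.Δ = 0) (hc : W.c₄ ≠ 0) {x y : k}
    (h : W.toAffine.Nonsingular x y) : nodePX W (nodeT W x y) = x := by
  have h4 := node_four_ne_zero h2
  unfold nodePX
  rw [nodeT_sq h2 hΔ hc h]
  field_simp
  ring

theorem nodePY_nodeT (h2 : (2 : k) ≠ 0) (hΔ : W.Δ = 0) (hc : W.c₄ ≠ 0) {x y : k}
    (h : W.toAffine.Nonsingular x y) : nodePY W (nodeT W x y) = y := by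
  have hx := nodePX_nodeT h2 hΔ hc h
  have h1 := nodePY_eta (W := W) h2 (nodeT W x y)
  rw [hx] at h1
  obtain ⟨-, hxx⟩ := (node_nonsingular_iff h2 hΔ hc x y).mp h
  have h3 : nodeT W x y * (x - nodeX W) = 2 * y + W.a₁ * x + W.a₃ := by
    unfold nodeT
    exact div_mul_cancel₀ _ (sub_ne_zero.mpr hxx)
  rw [h3] at h1
  apply mul_left_cancel₀ h2
  linear_combination h1

theorem node_some_congr {x y x' y' : k} (h : W.toAffine.Nonsingular x y)
    (h' : W.toAffine.Nonsingular x' y') (hx : x = x') (hy : y = y') :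
    Affine.Point.some x y h = Affine.Point.some x' y' h' := by
  subst hx; subst hy; rfl

/-- **The parametrisation** of the nonsingular points of a nodal cubic. -/
noncomputable def nodalEquiv (h2 : (2 : k) ≠ 0) (hΔ : W.Δ = 0) (hc : W.c₄ ≠ 0) :
    W.toAffine.Point ≃ Option {t : k // t ^ 2 ≠ nodeG W} where
  toFun P :=
    match P with
    | .zero => none
    | .some x y h => some ⟨nodeT W x y, nodeT_sq_ne h2 hΔ hc h⟩
  invFun o :=
    match o with
    | none => .zero
    | some t => .some (nodePX W t.1) (nodePY W t.1) (nodeP_nonsingular h2 hΔ hc t.2)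
  left_inv P := by
    rcases P with _ | ⟨x, y, h⟩
    · rfl
    · exact node_some_congr _ _ (nodePX_nodeT h2 hΔ hc h) (nodePY_nodeT h2 hΔ hc h)
  right_inv o := by
    rcases o with _ | ⟨t, ht⟩
    · rfl
    · show some (⟨nodeT W (nodePX W t) (nodePY W t), _⟩ : {t : k // t ^ 2 ≠ nodeG W}) = _
      congr 1
      exact Subtype.ext (nodeT_nodeP h2 ht)

/-! ### The count -/

open Classical in
theorem node_card_sq (h2 : (2 : k) ≠ 0) [Finite k] {γ : k} (hγ : γ ≠ 0) :
    Nat.card {t : k // t ^ 2 = γ} = 0 ∨ Nat.card {t : k // t ^ 2 = γ} = 2 := by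
  have := Fintype.ofFinite k
  rw [Nat.card_eq_fintype_card]
  by_cases hex : ∃ t₀ : k, t₀ ^ 2 = γ
  · right
    obtain ⟨t₀, ht₀⟩ := hex
    have ht0 : t₀ ≠ 0 := by
      rintro rfl
      apply hγ
      rw [← ht₀]
      ring
    have hne : t₀ ≠ -t₀ := by
      intro h
      have : 2 * t₀ = 0 := by linear_combination h
      rcases mul_eq_zero.mp this with h | h
      · exact h2 h
      · exact ht0 h
    rw [Fintype.card_subtype]
    have hset : (Finset.univ.filter fun t : k => t ^ 2 = γ) = {t₀, -t₀} := by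
      ext t
      simp only [Finset.mem_filter, Finset.mem_univ, true_and, Finset.mem_insert,
        Finset.mem_singleton]
      constructor
      · intro ht
        have : (t - t₀) * (t + t₀) = 0 := by linear_combination ht - ht₀
        rcases mul_eq_zero.mp this with h | h
        · left; exact sub_eq_zero.mp h
        · right; exact eq_neg_of_add_eq_zero_left h
      · rintro (rfl | rfl)
        · exact ht₀
        · rw [neg_sq]; exact ht₀
    rw [hset, Finset.card_pair hne]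
  · left
    rw [Fintype.card_eq_zero_iff]
    exact ⟨fun t => hex ⟨t.1, t.2⟩⟩

open Classical in
theorem node_card_compl [Finite k] (γ : k) :
    Nat.card {t : k // t ^ 2 ≠ γ} + Nat.card {t : k // t ^ 2 = γ} = Nat.card k := by
  have := Fintype.ofFinite k
  rw [Nat.card_eq_fintype_card, Nat.card_eq_fintype_card, Nat.card_eq_fintype_card,
    Fintype.card_subtype_compl]
  have hle : Fintype.card {t : k // t ^ 2 = γ} ≤ Fintype.card k := Fintype.card_subtype_le _
  omega

/-- **The number of nonsingular points of a nodal cubic** over a finite field of odd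
characteristic is `q - 1` or `q + 1`. -/
theorem nodal_card [Finite k] (h2 : (2 : k) ≠ 0) (hΔ : W.Δ = 0)
    (hc : W.c₄ ≠ 0) :
    Nat.card W.toAffine.Point + 1 = Nat.card k ∨
      Nat.card W.toAffine.Point = Nat.card k + 1 := by
  have h1 : Nat.card W.toAffine.Point = Nat.card (Option {t : k // t ^ 2 ≠ nodeG W}) :=
    Nat.card_congr (nodalEquiv h2 hΔ hc)
  rw [h1, Finite.card_option]
  have h3 := node_card_compl (nodeG W)
  rcases node_card_sq h2 (nodeG_ne_zero hΔ hc) with h | h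
  · right
    omega
  · left
    omega

end Fermat.Agent.S15.ECL
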