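/-
Item 15 (Mazur chain), piece `EC-loc` (helper8).

`W : WeierstrassCurve ℤ`, `Q` a `G_ℚ`-fixed point of `W(ℚ̄)` of prime order `p`, `ℓ ≠ p` an odd
prime of multiplicative reduction (`ℓ ∣ Δ`, `ℓ ∤ c₄`), `A` a valuation subring of `ℚ̄` over `ℓ`:

* `ecloc_dvd` : if `Q` lies in the identity component at `A` then `p ∣ ℓ - 1` or `p ∣ ℓ + 1`;
* `ecloc_inZero_iff_rat`, `ecloc_indep` : for a rational `Q`, `InZeroComponentAt A Q` does not
  depend on the choice of `A` over `ℓ` (any `ℓ`).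
-/
import Fermat.Agent.S15.ECLocRed
import Fermat.Agent.S15.NodalCount
import Fermat.Agent.RED.Link
import Fermat.Agent.S51.GaloisFixed
import Fermat.Prelude.Def_EllipticCurve_ZeroComponentAt
import Fermat.Prelude.Def_FLTPrelim_Ramification

set_option autoImplicit false
set_option linter.unusedSectionVars false

namespace Fermat.Agent.S15

open WeierstrassCurve WeierstrassCurve.Affine Fermat.Agent.RED Fermat.Agent.S05
  Fermat.Agent.S15.ECL

/-- `ℚ̄` -/
local notation "Qb" => AlgebraicClosure ℚ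

section Rat

variable {ℓ : ℕ} [Fact ℓ.Prime] (A : ValuationSubring Qb)

/-- the residue class mod `ℓ` of a rational number (junk value if `ℓ` divides the denominator) -/
noncomputable def eclocRatRes (ℓ : ℕ) (r : ℚ) : ZMod ℓ := (r.num : ZMod ℓ) * ((r.den : ZMod ℓ))⁻¹

/-- a rational number lies in `A` iff `ℓ` does not divide its denominator -/
theorem ecloc_rat_mem_iff (hA : A.LiesOverPrime ℓ) (r : ℚ) :
    algebraMap ℚ Qb r ∈ A ↔ ¬ ℓ ∣ r.den := by
  have hℓ : ℓ.Prime := Fact.out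
  have hr : algebraMap ℚ Qb r * (r.den : Qb) = (r.num : Qb) := by
    have h1 : r * (r.den : ℚ) = (r.num : ℚ) := Rat.mul_den_eq_num r
    have h2 := congrArg (algebraMap ℚ Qb) h1
    rw [map_mul, map_natCast, map_intCast] at h2
    exact h2
  constructor
  · intro hmem hdvd
    have hden : (r.den : Qb) ∈ A.nonunits := (natCast_mem_nonunits_iff A hℓ hA r.den).2 hdvd
    have hnum : (r.num : Qb) ∈ A.nonunits := by
      rw [← hr]
      exact vs_mul_mem_nonunits A hmem hden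
    have h3 : (ℓ : ℤ) ∣ r.num := (intCast_mem_nonunits_iff A hℓ hA r.num).1 hnum
    have h4 : ℓ ∣ r.num.natAbs := Int.natCast_dvd.mp h3
    have h5 : ℓ ∣ Nat.gcd r.num.natAbs r.den := Nat.dvd_gcd h4 hdvd
    rw [Nat.Coprime.gcd_eq_one r.reduced] at h5
    exact hℓ.one_lt.ne' (Nat.dvd_one.mp h5)
  · intro hnd
    have hden : A.valuation ((r.den : ℕ) : Qb) = 1 :=
      (valuation_natCast_eq_one_iff A hℓ hA r.den).2 hnd
    have hnum : A.valuation ((r.num : ℤ) : Qb) ≤ 1 :=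
      (A.valuation_le_one_iff _).2 (intCast_mem A r.num)
    rw [← A.valuation_le_one_iff]
    have h1 := congrArg A.valuation hr
    rw [map_mul, hden, mul_one] at h1
    rw [h1]
    exact hnum

/-- the residue of a rational element of `A` is the image of its residue class mod `ℓ` -/
theorem ecloc_residue_rat (ι : ZMod ℓ →+* IsLocalRing.ResidueField A) (hA : A.LiesOverPrime ℓ)
    (r : ℚ) (hr : algebraMap ℚ Qb r ∈ A) :
    IsLocalRing.residue A ⟨algebraMap ℚ Qb r, hr⟩ = ι (eclocRatRes ℓ r) := by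
  have hℓ : ℓ.Prime := Fact.out
  have hnd : ¬ ℓ ∣ r.den := (ecloc_rat_mem_iff A hA r).1 hr
  have hdz : ((r.den : ℕ) : ZMod ℓ) ≠ 0 := by
    intro h0
    exact hnd ((ZMod.natCast_eq_zero_iff r.den ℓ).1 h0)
  have hdk : ((r.den : ℕ) : IsLocalRing.ResidueField A) ≠ 0 := by
    rw [← map_natCast ι]
    exact (map_ne_zero ι).mpr hdz
  have h1 : (⟨algebraMap ℚ Qb r, hr⟩ : A) * ((r.den : ℕ) : A) = ((r.num : ℤ) : A) := by
    apply Subtype.ext
    have h1 : r * (r.den : ℚ) = (r.num : ℚ) := Rat.mul_den_eq_num r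
    have h2 := congrArg (algebraMap ℚ Qb) h1
    rw [map_mul, map_natCast, map_intCast] at h2
    push_cast
    exact h2
  have h2 := congrArg (IsLocalRing.residue A) h1
  rw [map_mul, map_natCast, map_intCast] at h2
  unfold eclocRatRes
  rw [map_mul, map_inv₀, map_intCast, map_natCast, ← h2]
  field_simp

end Rat

section Transport

variable (W : WeierstrassCurve ℤ) (A : ValuationSubring Qb)

/-- the reduced curve of the brick `RED` is the reduced curve of `InZeroComponentAt` -/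
theorem ecloc_curveRes_eq :
    curveRes A (modelA W A) = W.map (Int.castRingHom (IsLocalRing.ResidueField A)) := by
  show (W.map (Int.castRingHom A)).map (IsLocalRing.residue A) = _
  rw [WeierstrassCurve.map_map]
  congr 1

variable {W A} [DecidableEq (IsLocalRing.ResidueField A)]

theorem ecloc_nsRes_iff {x y : Qb} (hx : x ∈ A) (hy : y ∈ A) :
    NsRes (modelA W A) ⟨x, hx⟩ ⟨y, hy⟩ ↔
      (W.map (Int.castRingHom (IsLocalRing.ResidueField A))).toAffine.Nonsingular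
        (IsLocalRing.residue A ⟨x, hx⟩) (IsLocalRing.residue A ⟨y, hy⟩) := by
  show (curveRes A (modelA W A)).toAffine.Nonsingular _ _ ↔ _
  rw [ecloc_curveRes_eq]

/-- `InZeroComponentAt` in terms of the brick `RED` -/
theorem ecloc_inE0_iff (Q : ((W.map (Int.castRingHom ℚ))⁄Qb).Point) :
    InE0 (pointCongr (baseChange_eq_curveK W A) Q) ↔ W.InZeroComponentAt A Q := by
  rcases Q with _ | ⟨x, y, h⟩
  · have h0 : (Point.zero : ((W.map (Int.castRingHom ℚ))⁄Qb).Point) = 0 := rfl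
    rw [h0, pointCongr_zero]
    exact ⟨fun _ => Or.inl rfl, fun _ => inE0_zero⟩
  · rw [pointCongr_some, inE0_some_iff]
    constructor
    · rintro (hx | ⟨hx, hy, hns⟩)
      · exact Or.inr ⟨x, y, h, rfl, Or.inl hx⟩
      · exact Or.inr ⟨x, y, h, rfl, Or.inr ⟨hx, hy, (ecloc_nsRes_iff hx hy).1 hns⟩⟩
    · rintro (h0 | ⟨x', y', h', he, hh⟩)
      · exact absurd h0 (Point.some_ne_zero _)
      · obtain ⟨rfl, rfl⟩ : x = x' ∧ y = y' := by
          have := Point.some.inj he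
          exact ⟨this.1, this.2⟩
        rcases hh with hx | ⟨hx, hy, hns⟩
        · exact Or.inl hx
        · exact Or.inr ⟨hx, hy, (ecloc_nsRes_iff hx hy).2 hns⟩

end Transport

section Main

variable (W : WeierstrassCurve ℤ) {ℓ : ℕ}

/-- the number of nonsingular points mod `ℓ` at an odd prime of multiplicative reduction -/
theorem ecloc_card [Fact ℓ.Prime] (hℓ2 : ℓ ≠ 2) (hℓΔ : (ℓ : ℤ) ∣ W.Δ)
    (hℓc₄ : ¬ (ℓ : ℤ) ∣ W.c₄) :
    Nat.card (W⁄(ZMod ℓ)).Point + 1 = ℓ ∨ Nat.card (W⁄(ZMod ℓ)).Point = ℓ + 1 := by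
  have hℓ : ℓ.Prime := Fact.out
  have h2 : (2 : ZMod ℓ) ≠ 0 := by
    intro h0
    have h1 : ((2 : ℕ) : ZMod ℓ) = 0 := by exact_mod_cast h0
    rw [ZMod.natCast_eq_zero_iff] at h1
    exact hℓ2 ((Nat.prime_dvd_prime_iff_eq hℓ Nat.prime_two).1 h1)
  have hΔ : (W⁄(ZMod ℓ)).Δ = 0 := by
    show (W.map (Int.castRingHom (ZMod ℓ))).Δ = 0
    rw [WeierstrassCurve.map_Δ]
    exact (ZMod.intCast_zmod_eq_zero_iff_dvd W.Δ ℓ).2 hℓΔ
  have hc : (W⁄(ZMod ℓ)).c₄ ≠ 0 := by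
    show (W.map (Int.castRingHom (ZMod ℓ))).c₄ ≠ 0
    rw [WeierstrassCurve.map_c₄]
    intro h0
    exact hℓc₄ ((ZMod.intCast_zmod_eq_zero_iff_dvd W.c₄ ℓ).1 h0)
  have := nodal_card (W := (W⁄(ZMod ℓ))) h2 hΔ hc
  rw [Nat.card_zmod] at this
  exact this

/-- a `G_ℚ`-fixed affine point has rational coordinates -/
theorem ecloc_rat_of_fixed {x y : Qb} (h : ((W.map (Int.castRingHom ℚ))⁄Qb).Nonsingular x y)
    (hfix : ∀ σ : Qb ≃ₐ[ℚ] Qb, σ • (Point.some x y h : ((W.map (Int.castRingHom ℚ))⁄Qb).Point) =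
      Point.some x y h) :
    ∃ rx ry : ℚ, algebraMap ℚ Qb rx = x ∧ algebraMap ℚ Qb ry = y := by
  have hx : ∀ σ : Qb ≃ₐ[ℚ] Qb, σ x = x ∧ σ y = y := by
    intro σ
    have h1 := hfix σ
    rw [galois_smul_some] at h1
    have h2 := Point.some.inj h1
    exact ⟨h2.1, h2.2⟩
  obtain ⟨rx, hrx⟩ := Fermat.Agent.S51.galois_fixed_rat x fun σ => (hx σ).1
  obtain ⟨ry, hry⟩ := Fermat.Agent.S51.galois_fixed_rat y fun σ => (hx σ).2
  exact ⟨rx, ry, hrx, hry⟩

/-- **EC-loc.**  A rational point of prime order `p` which lies in the identity component at an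
odd prime `ℓ ≠ p` of multiplicative reduction: `p ∣ ℓ - 1` or `p ∣ ℓ + 1`. -/
theorem ecloc_dvd {p : ℕ} (hp : p.Prime) (hℓ : ℓ.Prime) (hℓ2 : ℓ ≠ 2) (hℓp : ℓ ≠ p)
    (hℓΔ : (ℓ : ℤ) ∣ W.Δ) (hℓc₄ : ¬ (ℓ : ℤ) ∣ W.c₄)
    (Q : ((W.map (Int.castRingHom ℚ))⁄Qb).Point)
    (hQfix : ∀ σ : Qb ≃ₐ[ℚ] Qb, σ • Q = Q) (hQord : addOrderOf Q = p)
    (A : ValuationSubring Qb) (hA : A.LiesOverPrime ℓ) (h0 : W.InZeroComponentAt A Q) :
    p ∣ ℓ - 1 ∨ p ∣ ℓ + 1 := by
  have : Fact ℓ.Prime := ⟨hℓ⟩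
  let _ : DecidableEq (IsLocalRing.ResidueField A) := Classical.decEq _
  have hchar : CharP (IsLocalRing.ResidueField A) ℓ := charP_residueField A hℓ hA
  let ι : ZMod ℓ →+* IsLocalRing.ResidueField A := ZMod.castHom (dvd_refl ℓ) _
  let f : ZMod ℓ →ₐ[ℤ] IsLocalRing.ResidueField A := ι.toIntAlgHom
  have hfι : ∀ z, f z = ι z := fun z => rfl
  -- the point in the setting of the brick `RED`
  have hE0 : InE0 (pointCongr (baseChange_eq_curveK W A) Q) := (ecloc_inE0_iff Q).2 h0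
  have hord' : addOrderOf (pointCongr (baseChange_eq_curveK W A) Q) = p := by
    rw [AddEquiv.addOrderOf_eq, hQord]
  have hpA : ((p : ℕ) : Qb) ∉ A.nonunits := fun h =>
    hℓp ((Nat.prime_dvd_prime_iff_eq hℓ hp).1 ((natCast_mem_nonunits_iff A hℓ hA p).1 h))
  have hred := addOrderOf_redPt0 hp hpA hE0 hord'
  -- coordinates
  rcases Q with _ | ⟨x, y, h⟩
  · exfalso
    have h1 : (Point.zero : ((W.map (Int.castRingHom ℚ))⁄Qb).Point) = 0 := rfl
    rw [h1, addOrderOf_zero] at hQord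
    exact hp.one_lt.ne hQord
  obtain ⟨rx, ry, rfl, rfl⟩ := ecloc_rat_of_fixed W h hQfix
  rw [pointCongr_some] at hE0 hred
  rcases hE0 with hx | ⟨hx, hy, hns⟩
  · exfalso
    rw [redPt0_of_not_mem _ hx, addOrderOf_zero] at hred
    exact hp.one_lt.ne hred
  rw [redPt0_coe (a := ⟨_, hx⟩) (b := ⟨_, hy⟩) _ hns] at hred
  -- the point over `𝔽_ℓ`
  have ex := ecloc_residue_rat A ι hA rx hx
  have ey := ecloc_residue_rat A ι hA ry hy
  have hk : (W⁄(IsLocalRing.ResidueField A)).Nonsingular (f (eclocRatRes ℓ rx)) (f (eclocRatRes ℓ ry)) := by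
    rw [hfι, hfι, ← ex, ← ey]
    exact (ecloc_nsRes_iff hx hy).1 hns
  have h₀ : (W⁄(ZMod ℓ)).Nonsingular (eclocRatRes ℓ rx) (eclocRatRes ℓ ry) :=
    (WeierstrassCurve.Affine.baseChange_nonsingular W (f := f) f.injective _ _).1 hk
  have hmap : Point.map (W' := W) f (Point.some _ _ h₀) =
      pointCongr (ecloc_curveRes_eq W A) (Point.some _ _ hns) := by
    rw [Point.map_some, pointCongr_some]
    exact some_congr _ _ (by rw [hfι, ← ex]) (by rw [hfι, ← ey])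
  have hord₀ : addOrderOf (Point.some _ _ h₀ : (W⁄(ZMod ℓ)).Point) = p := by
    have e1 := addOrderOf_injective (Point.map (W' := W) f) (Point.map_injective f)
      (Point.some _ _ h₀)
    have e2 := AddEquiv.addOrderOf_eq (pointCongr (ecloc_curveRes_eq W A)) (Point.some _ _ hns)
    have e3 := congrArg addOrderOf hmap
    exact e1.symm.trans (e3.trans (e2.trans hred))
  have hdvd : p ∣ Nat.card (W⁄(ZMod ℓ)).Point := by
    rw [← hord₀]
    exact addOrderOf_dvd_natCard _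
  rcases ecloc_card W hℓ2 hℓΔ hℓc₄ with hc | hc
  · left
    have : Nat.card (W⁄(ZMod ℓ)).Point = ℓ - 1 := by omega
    rw [← this]
    exact hdvd
  · right
    rw [← hc]
    exact hdvd

/-- `A`-free description of "`(rx, ry)` lies in the identity component at `ℓ`" -/
def EclocRatInE0 (ℓ : ℕ) (rx ry : ℚ) : Prop :=
  ℓ ∣ rx.den ∨
    (¬ ℓ ∣ rx.den ∧ ¬ ℓ ∣ ry.den ∧ (W⁄(ZMod ℓ)).Nonsingular (eclocRatRes ℓ rx) (eclocRatRes ℓ ry))

/-- for a rational point, `InZeroComponentAt A` has a description which does not involve `A` -/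
theorem ecloc_inZero_iff_rat (hℓ : ℓ.Prime) (A : ValuationSubring Qb) (hA : A.LiesOverPrime ℓ)
    (rx ry : ℚ)
    (h : ((W.map (Int.castRingHom ℚ))⁄Qb).Nonsingular (algebraMap ℚ Qb rx) (algebraMap ℚ Qb ry)) :
    W.InZeroComponentAt A (Point.some _ _ h) ↔ EclocRatInE0 W ℓ rx ry := by
  have : Fact ℓ.Prime := ⟨hℓ⟩
  have hchar : CharP (IsLocalRing.ResidueField A) ℓ := charP_residueField A hℓ hA
  let ι : ZMod ℓ →+* IsLocalRing.ResidueField A := ZMod.castHom (dvd_refl ℓ) _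
  let f : ZMod ℓ →ₐ[ℤ] IsLocalRing.ResidueField A := ι.toIntAlgHom
  have hfι : ∀ z, f z = ι z := fun z => rfl
  have key : ∀ (hx : algebraMap ℚ Qb rx ∈ A) (hy : algebraMap ℚ Qb ry ∈ A),
      (W.map (Int.castRingHom (IsLocalRing.ResidueField A))).toAffine.Nonsingular
          (IsLocalRing.residue A ⟨_, hx⟩) (IsLocalRing.residue A ⟨_, hy⟩) ↔
        (W⁄(ZMod ℓ)).Nonsingular (eclocRatRes ℓ rx) (eclocRatRes ℓ ry) := by
    intro hx hy
    rw [ecloc_residue_rat A ι hA rx hx, ecloc_residue_rat A ι hA ry hy, ← hfι, ← hfι]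
    exact WeierstrassCurve.Affine.baseChange_nonsingular W (f := f) f.injective _ _
  constructor
  · rintro (h0 | ⟨x', y', h', he, hh⟩)
    · exact absurd h0 (Point.some_ne_zero _)
    · obtain ⟨hx', hy'⟩ : algebraMap ℚ Qb rx = x' ∧ algebraMap ℚ Qb ry = y' := by
        have := Point.some.inj he
        exact ⟨this.1, this.2⟩
      subst hx' hy'
      rcases hh with hx | ⟨hx, hy, hns⟩
      · left
        by_contra hnd
        exact hx ((ecloc_rat_mem_iff A hA rx).2 hnd)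
      · right
        exact ⟨(ecloc_rat_mem_iff A hA rx).1 hx, (ecloc_rat_mem_iff A hA ry).1 hy,
          (key hx hy).1 hns⟩
  · rintro (hd | ⟨hdx, hdy, hns⟩)
    · exact Or.inr ⟨_, _, h, rfl, Or.inl fun hx => (ecloc_rat_mem_iff A hA rx).1 hx hd⟩
    · have hx := (ecloc_rat_mem_iff A hA rx).2 hdx
      have hy := (ecloc_rat_mem_iff A hA ry).2 hdy
      exact Or.inr ⟨_, _, h, rfl, Or.inr ⟨hx, hy, (key hx hy).2 hns⟩⟩

/-- **independence of the place.**  For a `G_ℚ`-fixed point, `InZeroComponentAt A` only depends on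
the prime `ℓ` below `A`. -/
theorem ecloc_indep (hℓ : ℓ.Prime) (Q : ((W.map (Int.castRingHom ℚ))⁄Qb).Point)
    (hQfix : ∀ σ : Qb ≃ₐ[ℚ] Qb, σ • Q = Q)
    (A A' : ValuationSubring Qb) (hA : A.LiesOverPrime ℓ) (hA' : A'.LiesOverPrime ℓ) :
    W.InZeroComponentAt A Q ↔ W.InZeroComponentAt A' Q := by
  rcases Q with _ | ⟨x, y, h⟩
  · exact ⟨fun _ => Or.inl rfl, fun _ => Or.inl rfl⟩
  obtain ⟨rx, ry, rfl, rfl⟩ := ecloc_rat_of_fixed W h hQfix
  exact (ecloc_inZero_iff_rat W hℓ A hA rx ry h).trans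
    (ecloc_inZero_iff_rat W hℓ A' hA' rx ry h).symm

/-- `ecloc_dvd` in the form used by the glue: the conclusion of `S15` at `ℓ` holds as soon as
`p ∤ ℓ ± 1`. -/
theorem ecloc_not_inZero {p : ℕ} (hp : p.Prime) (hℓ : ℓ.Prime) (hℓ2 : ℓ ≠ 2) (hℓp : ℓ ≠ p)
    (hℓΔ : (ℓ : ℤ) ∣ W.Δ) (hℓc₄ : ¬ (ℓ : ℤ) ∣ W.c₄)
    (Q : ((W.map (Int.castRingHom ℚ))⁄Qb).Point)
    (hQfix : ∀ σ : Qb ≃ₐ[ℚ] Qb, σ • Q = Q) (hQord : addOrderOf Q = p)
    (hnd : ¬ p ∣ ℓ - 1) (hnd' : ¬ p ∣ ℓ + 1)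
    (A : ValuationSubring Qb) (hA : A.LiesOverPrime ℓ) : ¬ W.InZeroComponentAt A Q := fun h0 =>
  (ecloc_dvd W hp hℓ hℓ2 hℓp hℓΔ hℓc₄ Q hQfix hQord A hA h0).elim hnd hnd'

/-- to prove the conclusion of `S15` at every place over `ℓ` it suffices to refute
`InZeroComponentAt` at one place over `ℓ` -/
theorem ecloc_not_inZero_of_exists (hℓ : ℓ.Prime) (Q : ((W.map (Int.castRingHom ℚ))⁄Qb).Point)
    (hQfix : ∀ σ : Qb ≃ₐ[ℚ] Qb, σ • Q = Q)
    (A₀ : ValuationSubring Qb) (hA₀ : A₀.LiesOverPrime ℓ) (h₀ : ¬ W.InZeroComponentAt A₀ Q)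
    (A : ValuationSubring Qb) (hA : A.LiesOverPrime ℓ) : ¬ W.InZeroComponentAt A Q := fun h =>
  h₀ ((ecloc_indep W hℓ Q hQfix A A₀ hA hA₀).1 h)

end Main

end Fermat.Agent.S15
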