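import Mathlib

/-!
# S15 / MOD — shared definitions (Mathlib only; sub-captain helper51)

The Fricke-product route for the piece MOD of the Mazur chain (`NOTES/S15-MOD.md`).

* `modXi W x = (c₄ x + b₂ b₄ - 18 b₆) / c₆` : the normalised `x`-coordinate `ξ°` of a point of a
  Weierstrass curve, `ξ° = (c₄ / c₆) (x - x_node)`.  It is invariant under changes of variables,
  and at a prime of multiplicative reduction it is a unit exactly at the points that do not reduce
  to the node.
* `modLat τ` : the period pair `(τ, 1)`; `modCurve L` : the curve `y² = x³ - (g₂/4) x - g₃/4`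
  of a lattice, parametrised by `z ↦ (℘ z, ℘' z / 2)`.
* `modXiAn τ z = g₂ / (18 g₃) ℘(z) + 1/12` : the analytic `ξ°`.
* `modPiAn N t τ = ∏_{k = 1}^{N - 1} (t - ξ°(k / N; τ))` : the Fricke product, a modular function
  for `Γ₀(N)`.
-/

set_option autoImplicit false

noncomputable section

namespace Fermat.Agent.S15

open UpperHalfPlane PeriodPair

/-- The normalised `x`-coordinate `ξ° = (c₄ x + b₂ b₄ - 18 b₆) / c₆`. -/
def modXi {R : Type*} [Field R] (W : WeierstrassCurve R) (x : R) : R :=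
  (W.c₄ * x + W.b₂ * W.b₄ - 18 * W.b₆) / W.c₆

/-- The period pair `(τ, 1)`. -/
def modLat (τ : ℍ) : PeriodPair where
  ω₁ := τ
  ω₂ := 1
  indep := by
    rw [LinearIndependent.pair_iff]
    intro a b hab
    have h2 : (a : ℂ) * τ + b = 0 := by
      simpa [Complex.real_smul] using hab
    have h3 := congrArg Complex.im h2
    simp only [Complex.add_im, Complex.mul_im, Complex.ofReal_re, Complex.ofReal_im, zero_mul,
      add_zero, Complex.zero_im, UpperHalfPlane.coe_im] at h3
    have ha : a = 0 := by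
      rcases mul_eq_zero.mp h3 with h | h
      · exact h
      · exact absurd h τ.im_pos.ne'
    subst ha
    have h4 := congrArg Complex.re h2
    simp at h4
    exact ⟨rfl, h4⟩

@[simp] theorem modLat_ω₁ (τ : ℍ) : (modLat τ).ω₁ = τ := rfl
@[simp] theorem modLat_ω₂ (τ : ℍ) : (modLat τ).ω₂ = 1 := rfl

/-- The Weierstrass curve `y² = x³ - (g₂/4) x - g₃/4` of a lattice; the point attached to
`z ∉ Λ` is `(℘ z, ℘' z / 2)`. -/
def modCurve (L : PeriodPair) : WeierstrassCurve ℂ := ⟨0, 0, 0, -L.g₂ / 4, -L.g₃ / 4⟩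

/-- The analytic `ξ°(z; τ) = g₂ / (18 g₃) · ℘(z) + 1/12` (junk if `g₃ τ = 0`). -/
def modXiAn (τ : ℍ) (z : ℂ) : ℂ :=
  (modLat τ).g₂ / (18 * (modLat τ).g₃) * ℘[modLat τ] z + 1 / 12

/-- The Fricke product `Π_t(τ) = ∏_{k = 1}^{N - 1} (t - ξ°(k / N; τ))`. -/
def modPiAn (N : ℕ) (t : ℂ) (τ : ℍ) : ℂ :=
  ∏ k ∈ Finset.Ico 1 N, (t - modXiAn τ ((k : ℂ) / (N : ℂ)))

end Fermat.Agent.S15
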