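/-
Item 15 (Mazur chain), piece `MOD-XI` (helper13): the `ξ°`-criterion on the `E`-side.

`W : WeierstrassCurve ℤ`, `ℓ` a prime of multiplicative reduction (`ℓ ∣ Δ`, `ℓ ∤ c₄`; EVERY `ℓ`, also
`2` and `3`), `A` a valuation subring of `ℚ̄` over `ℓ`.  For a point `P = (x, y)` with integral
coordinates, `ξ°(P) = (c₄ x + b₂ b₄ - 18 b₆) / c₆ ∈ A`, and

  `P` lies in the identity component at `A`  ↔  `ξ°(P)` is a unit of `A`.

Consequently, for a point `Q` of prime order `p ≠ ℓ`, the algebraic Fricke product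
`modPiAlg W Q p 0 = ∏_{k=1}^{p-1} (0 - ξ°(k • Q))` is a unit of `A` iff `Q` lies in the identity
component at `A`.
-/
import Fermat.Agent.S15.ModXiField
import Fermat.Agent.S15.ModDefs
import Fermat.Agent.S15.ECLoc

set_option autoImplicit false
set_option linter.unusedSectionVars false

namespace Fermat.Agent.S15

open WeierstrassCurve WeierstrassCurve.Affine Fermat.Agent.RED Fermat.Agent.S05
  Fermat.Agent.S15.ECL

/-- `ℚ̄` -/
local notation "Qb" => AlgebraicClosure ℚ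

/-! ### Generic definitions -/

/-- the `x`-coordinate of a point (junk value `0` at the origin) -/
def modPtX {R : Type*} [CommRing R] {W : WeierstrassCurve.Affine R} : W.Point → R
  | .zero => 0
  | .some x _ _ => x

@[simp] theorem modPtX_zero {R : Type*} [CommRing R] {W : WeierstrassCurve.Affine R} :
    modPtX (0 : W.Point) = 0 := rfl

@[simp] theorem modPtX_some {R : Type*} [CommRing R] {W : WeierstrassCurve.Affine R} {x y : R}
    (h : W.Nonsingular x y) : modPtX (Point.some x y h) = x := rfl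

/-- **The algebraic Fricke product** `Π_t(W, Q) = ∏_{k=1}^{N-1} (t - ξ°(k • Q))`. -/
noncomputable def modPiAlg {R : Type*} [Field R] [DecidableEq R] (W : WeierstrassCurve R)
    (Q : W.toAffine.Point) (N : ℕ) (t : R) : R :=
  ∏ k ∈ Finset.Ico 1 N, (t - modXi W (modPtX (k • Q)))

theorem modXi_eq_num {R : Type*} [Field R] (W : WeierstrassCurve R) (x : R) :
    modXi W x = modXiNum W x / W.c₆ := rfl

/-- `ξ°` determines `x` (if `c₄ ≠ 0`, `c₆ ≠ 0`) -/
theorem modXi_inj {R : Type*} [Field R] {W : WeierstrassCurve R} (h4 : W.c₄ ≠ 0) (h6 : W.c₆ ≠ 0)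
    {x x' : R} (h : modXi W x = modXi W x') : x = x' := by
  unfold modXi at h
  rw [div_left_inj' h6] at h
  apply mul_left_cancel₀ h4
  linear_combination h

/-! ### The criterion at a multiplicative prime -/

section Local

variable (W : WeierstrassCurve ℤ) {ℓ : ℕ} (A : ValuationSubring Qb)

/-- the numerator of `ξ°` over `ℚ̄`, in terms of the integral invariants -/
theorem modxi_num_Qb (x : Qb) :
    modXiNum ((W.map (Int.castRingHom ℚ)).baseChange Qb) x =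
      ((W.c₄ : ℤ) : Qb) * x + ((W.b₂ : ℤ) : Qb) * ((W.b₄ : ℤ) : Qb) - 18 * ((W.b₆ : ℤ) : Qb) := by
  simp only [modXiNum, WeierstrassCurve.baseChange, WeierstrassCurve.map_c₄,
    WeierstrassCurve.map_b₂, WeierstrassCurve.map_b₄, WeierstrassCurve.map_b₆, eq_intCast,
    map_intCast]

theorem modxi_c₆_Qb :
    ((W.map (Int.castRingHom ℚ)).baseChange Qb).c₆ = ((W.c₆ : ℤ) : Qb) := by
  simp only [WeierstrassCurve.baseChange, WeierstrassCurve.map_c₆, eq_intCast, map_intCast]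

theorem modxi_c₄_Qb :
    ((W.map (Int.castRingHom ℚ)).baseChange Qb).c₄ = ((W.c₄ : ℤ) : Qb) := by
  simp only [WeierstrassCurve.baseChange, WeierstrassCurve.map_c₄, eq_intCast, map_intCast]

/-- at a prime of multiplicative reduction, `ℓ ∤ c₆` -/
theorem modxi_not_dvd_c₆ (hℓ : ℓ.Prime) (hℓΔ : (ℓ : ℤ) ∣ W.Δ) (hℓc₄ : ¬ (ℓ : ℤ) ∣ W.c₄) :
    ¬ (ℓ : ℤ) ∣ W.c₆ := by
  intro h6
  have hp : Prime (ℓ : ℤ) := Nat.prime_iff_prime_int.mp hℓ
  have hrel := W.c_relation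
  have h3 : (ℓ : ℤ) ∣ W.c₄ ^ 3 := by
    have : W.c₄ ^ 3 = 1728 * W.Δ + W.c₆ ^ 2 := by linear_combination -hrel
    rw [this]
    exact dvd_add (Dvd.dvd.mul_left hℓΔ _) (Dvd.dvd.pow h6 two_ne_zero)
  exact hℓc₄ (hp.dvd_of_dvd_pow h3)

variable {W A}

/-- the residue of an element of `A` vanishes iff the element is a nonunit -/
theorem modxi_residue_eq_zero_iff (a : A) :
    IsLocalRing.residue A a = 0 ↔ (a : Qb) ∈ A.nonunits := by
  rw [IsLocalRing.residue_eq_zero_iff, ValuationSubring.coe_mem_nonunits_iff]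

/-- an integer vanishes in the residue field iff `ℓ` divides it -/
theorem modxi_res_int (hℓ : ℓ.Prime) (hA : A.LiesOverPrime ℓ) (n : ℤ) :
    ((n : ℤ) : IsLocalRing.ResidueField A) = 0 ↔ (ℓ : ℤ) ∣ n := by
  have h1 : ((n : ℤ) : IsLocalRing.ResidueField A) = IsLocalRing.residue A (n : A) := by
    rw [map_intCast]
  rw [h1, modxi_residue_eq_zero_iff, ← intCast_mem_nonunits_iff A hℓ hA n]
  simp

/-- the reduced curve is singular -/
theorem modxi_res_Δ (hℓ : ℓ.Prime) (hA : A.LiesOverPrime ℓ) (hℓΔ : (ℓ : ℤ) ∣ W.Δ) :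
    (W.map (Int.castRingHom (IsLocalRing.ResidueField A))).Δ = 0 := by
  rw [WeierstrassCurve.map_Δ, eq_intCast]
  exact (modxi_res_int hℓ hA _).2 hℓΔ

/-- the reduced curve has `c₄ ≠ 0` -/
theorem modxi_res_c₄ (hℓ : ℓ.Prime) (hA : A.LiesOverPrime ℓ) (hℓc₄ : ¬ (ℓ : ℤ) ∣ W.c₄) :
    (W.map (Int.castRingHom (IsLocalRing.ResidueField A))).c₄ ≠ 0 := by
  rw [WeierstrassCurve.map_c₄, eq_intCast]
  exact fun h => hℓc₄ ((modxi_res_int hℓ hA _).1 h)

/-- the numerator of `ξ°` as an element of `A` -/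
noncomputable def modXiNumA (W : WeierstrassCurve ℤ) (A : ValuationSubring Qb) (a : A) : A :=
  modXiNum (modelA W A) a

theorem modXiNumA_coe (a : A) :
    ((modXiNumA W A a : A) : Qb) =
      modXiNum ((W.map (Int.castRingHom ℚ)).baseChange Qb) (a : Qb) := by
  rw [modxi_num_Qb]
  simp only [modXiNumA, modXiNum, WeierstrassCurve.map_c₄, WeierstrassCurve.map_b₂,
    WeierstrassCurve.map_b₄, WeierstrassCurve.map_b₆, eq_intCast]
  push_cast
  rfl

theorem modXiNumA_res (a : A) :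
    IsLocalRing.residue A (modXiNumA W A a) =
      modXiNum (W.map (Int.castRingHom (IsLocalRing.ResidueField A)))
        (IsLocalRing.residue A a) := by
  have h := modXiNum_map (modelA W A) (IsLocalRing.residue A) a
  rw [← ecloc_curveRes_eq]
  exact h.symm

theorem modxi_num_val_le {x : Qb} (hx : x ∈ A) :
    A.valuation (modXiNum ((W.map (Int.castRingHom ℚ)).baseChange Qb) x) ≤ 1 := by
  have h := modXiNumA_coe (W := W) (A := A) ⟨x, hx⟩
  rw [A.valuation_le_one_iff]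
  have h2 : modXiNum ((W.map (Int.castRingHom ℚ)).baseChange Qb) x =
      ((modXiNumA W A ⟨x, hx⟩ : A) : Qb) := h.symm
  rw [h2]
  exact (modXiNumA W A ⟨x, hx⟩).2

/-- **MOD-XI, numerator form.**  At a prime of multiplicative reduction, an integral point lies in
the identity component iff `c₄ x + b₂ b₄ - 18 b₆` is a unit. -/
theorem modxi_inZero_iff_num (hℓ : ℓ.Prime) (hA : A.LiesOverPrime ℓ) (hℓΔ : (ℓ : ℤ) ∣ W.Δ)
    (hℓc₄ : ¬ (ℓ : ℤ) ∣ W.c₄) {x y : Qb}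
    (h : ((W.map (Int.castRingHom ℚ))⁄Qb).Nonsingular x y) (hx : x ∈ A) :
    W.InZeroComponentAt A (Point.some x y h) ↔
      A.valuation (modXiNum ((W.map (Int.castRingHom ℚ)).baseChange Qb) x) = 1 := by
  have h' : (curveK A (modelA W A)).toAffine.Nonsingular x y := (baseChange_eq_curveK W A) ▸ h
  have hy : y ∈ A := y_mem_of_x_mem A (modelA W A) h'.1 hx
  have heq : (W.map (Int.castRingHom (IsLocalRing.ResidueField A))).toAffine.Equation
      (IsLocalRing.residue A ⟨x, hx⟩) (IsLocalRing.residue A ⟨y, hy⟩) := by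
    have h1 := (equation_of_coe A (modelA W A) (a := ⟨x, hx⟩) (b := ⟨y, hy⟩) h'.1).map
      (IsLocalRing.residue A)
    rw [← ecloc_curveRes_eq]
    exact h1
  have key := modxi_nonsingular_iff (modxi_res_Δ hℓ hA hℓΔ) (modxi_res_c₄ hℓ hA hℓc₄) heq
  have hval : A.valuation (modXiNum ((W.map (Int.castRingHom ℚ)).baseChange Qb) x) = 1 ↔
      modXiNum (W.map (Int.castRingHom (IsLocalRing.ResidueField A)))
        (IsLocalRing.residue A ⟨x, hx⟩) ≠ 0 := by
    rw [← modXiNumA_res, Ne, modxi_residue_eq_zero_iff, modXiNumA_coe,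
      ValuationSubring.mem_nonunits_iff, not_lt]
    exact ⟨fun h => h.ge, fun h => le_antisymm (modxi_num_val_le hx) h⟩
  rw [hval, ← key]
  constructor
  · rintro (h0 | ⟨x', y', h'', he, hh⟩)
    · exact absurd h0 (Point.some_ne_zero _)
    · obtain ⟨rfl, rfl⟩ : x = x' ∧ y = y' := by
        have := Point.some.inj he
        exact ⟨this.1, this.2⟩
      rcases hh with hx' | ⟨_, _, hns⟩
      · exact absurd hx hx'
      · exact hns
  · intro hns
    exact Or.inr ⟨x, y, h, rfl, Or.inr ⟨hx, hy, hns⟩⟩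

/-- `c₆` is a unit at a prime of multiplicative reduction -/
theorem modxi_val_c₆ (hℓ : ℓ.Prime) (hA : A.LiesOverPrime ℓ) (hℓΔ : (ℓ : ℤ) ∣ W.Δ)
    (hℓc₄ : ¬ (ℓ : ℤ) ∣ W.c₄) :
    A.valuation ((W.map (Int.castRingHom ℚ)).baseChange Qb).c₆ = 1 := by
  rw [modxi_c₆_Qb]
  exact (valuation_intCast_eq_one_iff A hℓ hA _).2 (modxi_not_dvd_c₆ W hℓ hℓΔ hℓc₄)

/-- the valuation of `ξ°` is the valuation of its numerator -/
theorem modxi_val_eq (hℓ : ℓ.Prime) (hA : A.LiesOverPrime ℓ) (hℓΔ : (ℓ : ℤ) ∣ W.Δ)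
    (hℓc₄ : ¬ (ℓ : ℤ) ∣ W.c₄) (x : Qb) :
    A.valuation (modXi ((W.map (Int.castRingHom ℚ)).baseChange Qb) x) =
      A.valuation (modXiNum ((W.map (Int.castRingHom ℚ)).baseChange Qb) x) := by
  rw [modXi_eq_num, map_div₀, modxi_val_c₆ hℓ hA hℓΔ hℓc₄, div_one]

/-- `ξ°` of an integral point is integral -/
theorem modxi_val_le (hℓ : ℓ.Prime) (hA : A.LiesOverPrime ℓ) (hℓΔ : (ℓ : ℤ) ∣ W.Δ)
    (hℓc₄ : ¬ (ℓ : ℤ) ∣ W.c₄) {x : Qb} (hx : x ∈ A) :
    A.valuation (modXi ((W.map (Int.castRingHom ℚ)).baseChange Qb) x) ≤ 1 := by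
  rw [modxi_val_eq hℓ hA hℓΔ hℓc₄]
  exact modxi_num_val_le hx

/-- **MOD-XI.**  At a prime `ℓ` of multiplicative reduction (every `ℓ`, also `2` and `3`), an
integral point `P = (x, y)` lies in the identity component at `A ∣ ℓ` iff `ξ°(P)` is a unit of
`A`. -/
theorem modxi_inZero_iff (hℓ : ℓ.Prime) (hA : A.LiesOverPrime ℓ) (hℓΔ : (ℓ : ℤ) ∣ W.Δ)
    (hℓc₄ : ¬ (ℓ : ℤ) ∣ W.c₄) {x y : Qb}
    (h : ((W.map (Int.castRingHom ℚ))⁄Qb).Nonsingular x y) (hx : x ∈ A) :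
    W.InZeroComponentAt A (Point.some x y h) ↔
      A.valuation (modXi ((W.map (Int.castRingHom ℚ)).baseChange Qb) x) = 1 := by
  rw [modxi_val_eq hℓ hA hℓΔ hℓc₄]
  exact modxi_inZero_iff_num hℓ hA hℓΔ hℓc₄ h hx

/-- a torsion point of order prime to `ℓ` has an integral `x`-coordinate (any integral model) -/
theorem modxi_mem_of_torsion (hℓ : ℓ.Prime) (hA : A.LiesOverPrime ℓ) {n : ℕ} (hn : ¬ ℓ ∣ n)
    {x y : Qb} (h : ((W.map (Int.castRingHom ℚ))⁄Qb).Nonsingular x y)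
    (htors : n • (Point.some x y h : ((W.map (Int.castRingHom ℚ))⁄Qb).Point) = 0) : x ∈ A := by
  have h' : (curveK A (modelA W A)).toAffine.Nonsingular x y := (baseChange_eq_curveK W A) ▸ h
  have hnA : (n : Qb) ∉ A.nonunits := fun hmem => hn ((natCast_mem_nonunits_iff A hℓ hA n).1 hmem)
  have h2 : n • (Point.some x y h' : (curveK A (modelA W A)).toAffine.Point) = 0 := by
    have h3 := congrArg (pointCongr (baseChange_eq_curveK W A)) htors
    rw [map_nsmul, pointCongr_some, map_zero] at h3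
    exact h3
  exact no_torsion_of_not_mem A (curveK A (modelA W A)) (curveK_a₁_mem A _) (curveK_a₂_mem A _)
    (curveK_a₃_mem A _) (curveK_a₄_mem A _) (curveK_a₆_mem A _) n hnA h' h2

end Local

/-! ### The algebraic Fricke product -/

section Product

variable {W : WeierstrassCurve ℤ} {ℓ p : ℕ} {A : ValuationSubring Qb}

/-- for `Q` of prime order `p` and `1 ≤ k < p`, `k • Q` is an affine point killed by `p` -/
theorem modpi_exists_some (Q : ((W.map (Int.castRingHom ℚ))⁄Qb).Point)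
    (hQ : addOrderOf Q = p) {k : ℕ} (hk : k ∈ Finset.Ico 1 p) :
    ∃ (x y : Qb) (h : ((W.map (Int.castRingHom ℚ))⁄Qb).Nonsingular x y),
      k • Q = Point.some x y h ∧
        p • (Point.some x y h : ((W.map (Int.castRingHom ℚ))⁄Qb).Point) = 0 := by
  rw [Finset.mem_Ico] at hk
  have hne : k • Q ≠ 0 := by
    intro h0
    have h1 := addOrderOf_dvd_of_nsmul_eq_zero h0
    rw [hQ] at h1
    exact absurd (Nat.le_of_dvd (by omega) h1) (by omega)
  have hpk : p • (k • Q) = 0 := by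
    rw [smul_comm, ← hQ, addOrderOf_nsmul_eq_zero, smul_zero]
  rcases hkQ : k • Q with _ | ⟨x, y, h⟩
  · exact absurd hkQ hne
  · refine ⟨x, y, h, rfl, ?_⟩
    rw [← hkQ]
    exact hpk

/-- the identity component is stable under multiples -/
theorem modpi_inZero_nsmul {Q : ((W.map (Int.castRingHom ℚ))⁄Qb).Point}
    (hQ0 : W.InZeroComponentAt A Q) (k : ℕ) : W.InZeroComponentAt A (k • Q) := by
  classical
  rw [← ecloc_inE0_iff] at hQ0 ⊢
  rw [map_nsmul]
  exact (E0 A (modelA W A)).nsmul_mem hQ0 k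

/-- each factor of the Fricke product is integral -/
theorem modpi_factor_val_le (hp : p.Prime) (hℓ : ℓ.Prime) (hℓp : ℓ ≠ p) (hA : A.LiesOverPrime ℓ)
    (hℓΔ : (ℓ : ℤ) ∣ W.Δ) (hℓc₄ : ¬ (ℓ : ℤ) ∣ W.c₄)
    (Q : ((W.map (Int.castRingHom ℚ))⁄Qb).Point) (hQ : addOrderOf Q = p) {k : ℕ}
    (hk : k ∈ Finset.Ico 1 p) :
    A.valuation (modXi ((W.map (Int.castRingHom ℚ)).baseChange Qb) (modPtX (k • Q))) ≤ 1 := by
  obtain ⟨x, y, h, hkQ, htors⟩ := modpi_exists_some Q hQ hk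
  have hnd : ¬ ℓ ∣ p := fun hd => hℓp ((Nat.prime_dvd_prime_iff_eq hℓ hp).1 hd)
  have hx : x ∈ A := modxi_mem_of_torsion hℓ hA hnd h htors
  rw [hkQ, modPtX_some]
  exact modxi_val_le hℓ hA hℓΔ hℓc₄ hx

/-- a factor of the Fricke product is a unit iff the point lies in the identity component -/
theorem modpi_factor_val_eq_one_iff (hp : p.Prime) (hℓ : ℓ.Prime) (hℓp : ℓ ≠ p)
    (hA : A.LiesOverPrime ℓ) (hℓΔ : (ℓ : ℤ) ∣ W.Δ) (hℓc₄ : ¬ (ℓ : ℤ) ∣ W.c₄)
    (Q : ((W.map (Int.castRingHom ℚ))⁄Qb).Point) (hQ : addOrderOf Q = p) {k : ℕ}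
    (hk : k ∈ Finset.Ico 1 p) :
    A.valuation (modXi ((W.map (Int.castRingHom ℚ)).baseChange Qb) (modPtX (k • Q))) = 1 ↔
      W.InZeroComponentAt A (k • Q) := by
  obtain ⟨x, y, h, hkQ, htors⟩ := modpi_exists_some Q hQ hk
  have hnd : ¬ ℓ ∣ p := fun hd => hℓp ((Nat.prime_dvd_prime_iff_eq hℓ hp).1 hd)
  have hx : x ∈ A := modxi_mem_of_torsion hℓ hA hnd h htors
  rw [hkQ, modPtX_some]
  exact (modxi_inZero_iff hℓ hA hℓΔ hℓc₄ h hx).symm

/-- the Fricke product at an integral `t` is integral -/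
theorem modpi_val_le (hp : p.Prime) (hℓ : ℓ.Prime) (hℓp : ℓ ≠ p) (hA : A.LiesOverPrime ℓ)
    (hℓΔ : (ℓ : ℤ) ∣ W.Δ) (hℓc₄ : ¬ (ℓ : ℤ) ∣ W.c₄)
    (Q : ((W.map (Int.castRingHom ℚ))⁄Qb).Point) (hQ : addOrderOf Q = p) {t : Qb} (ht : t ∈ A) :
    A.valuation (modPiAlg ((W.map (Int.castRingHom ℚ)).baseChange Qb) Q p t) ≤ 1 := by
  unfold modPiAlg
  rw [map_prod]
  refine Finset.prod_le_one' fun k hk => ?_
  exact A.valuation.map_sub_le ((A.valuation_le_one_iff _).2 ht)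
    (modpi_factor_val_le hp hℓ hℓp hA hℓΔ hℓc₄ Q hQ hk)

/-- **MOD-XI for the Fricke product.**  `Π₀(W, Q)` is a unit at `A ∣ ℓ` iff `Q` lies in the identity
component at `A`. -/
theorem modpi_val_eq_one_iff (hp : p.Prime) (hℓ : ℓ.Prime) (hℓp : ℓ ≠ p) (hA : A.LiesOverPrime ℓ)
    (hℓΔ : (ℓ : ℤ) ∣ W.Δ) (hℓc₄ : ¬ (ℓ : ℤ) ∣ W.c₄)
    (Q : ((W.map (Int.castRingHom ℚ))⁄Qb).Point) (hQ : addOrderOf Q = p) :
    A.valuation (modPiAlg ((W.map (Int.castRingHom ℚ)).baseChange Qb) Q p 0) = 1 ↔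
      W.InZeroComponentAt A Q := by
  have hval : A.valuation (modPiAlg ((W.map (Int.castRingHom ℚ)).baseChange Qb) Q p 0) =
      ∏ k ∈ Finset.Ico 1 p,
        A.valuation (modXi ((W.map (Int.castRingHom ℚ)).baseChange Qb) (modPtX (k • Q))) := by
    unfold modPiAlg
    rw [map_prod]
    refine Finset.prod_congr rfl fun k _ => ?_
    rw [zero_sub, Valuation.map_neg]
  rw [hval]
  have h1 : 1 ∈ Finset.Ico 1 p := Finset.mem_Ico.2 ⟨le_rfl, hp.one_lt⟩
  constructor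
  · intro hprod
    by_contra hQ0
    have hlt : A.valuation (modXi ((W.map (Int.castRingHom ℚ)).baseChange Qb)
        (modPtX ((1 : ℕ) • Q))) < 1 := by
      refine lt_of_le_of_ne (modpi_factor_val_le hp hℓ hℓp hA hℓΔ hℓc₄ Q hQ h1) ?_
      intro h2
      have h3 := (modpi_factor_val_eq_one_iff hp hℓ hℓp hA hℓΔ hℓc₄ Q hQ h1).1 h2
      rw [one_nsmul] at h3
      exact hQ0 h3
    have h4 : ∏ k ∈ Finset.Ico 1 p,
        A.valuation (modXi ((W.map (Int.castRingHom ℚ)).baseChange Qb) (modPtX (k • Q))) < 1 := by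
      rw [← Finset.mul_prod_erase _ _ h1]
      calc _ ≤ A.valuation (modXi ((W.map (Int.castRingHom ℚ)).baseChange Qb)
            (modPtX ((1 : ℕ) • Q))) * 1 := by
            refine mul_le_mul' le_rfl (Finset.prod_le_one' fun k hk => ?_)
            exact modpi_factor_val_le hp hℓ hℓp hA hℓΔ hℓc₄ Q hQ (Finset.mem_of_mem_erase hk)
        _ < 1 := by rw [mul_one]; exact hlt
    rw [hprod] at h4
    exact lt_irrefl _ h4
  · intro hQ0
    refine Finset.prod_eq_one fun k hk => ?_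
    exact (modpi_factor_val_eq_one_iff hp hℓ hℓp hA hℓΔ hℓc₄ Q hQ hk).2
      (modpi_inZero_nsmul hQ0 k)

/-- `Π₀(W, Q)` is a nonunit at `A ∣ ℓ` iff `Q` does not lie in the identity component at `A` -/
theorem modpi_val_lt_one_iff (hp : p.Prime) (hℓ : ℓ.Prime) (hℓp : ℓ ≠ p) (hA : A.LiesOverPrime ℓ)
    (hℓΔ : (ℓ : ℤ) ∣ W.Δ) (hℓc₄ : ¬ (ℓ : ℤ) ∣ W.c₄)
    (Q : ((W.map (Int.castRingHom ℚ))⁄Qb).Point) (hQ : addOrderOf Q = p) :
    A.valuation (modPiAlg ((W.map (Int.castRingHom ℚ)).baseChange Qb) Q p 0) < 1 ↔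
      ¬ W.InZeroComponentAt A Q := by
  rw [← modpi_val_eq_one_iff hp hℓ hℓp hA hℓΔ hℓc₄ Q hQ]
  have hle := modpi_val_le hp hℓ hℓp hA hℓΔ hℓc₄ Q hQ (t := 0) (zero_mem _)
  exact ⟨fun h => h.ne, fun h => lt_of_le_of_ne hle h⟩

/-- `ξ°` of a rational number is rational -/
theorem modxi_rat (W : WeierstrassCurve ℤ) (r : ℚ) :
    modXi ((W.map (Int.castRingHom ℚ)).baseChange Qb) (algebraMap ℚ Qb r) ∈
      (algebraMap ℚ Qb).fieldRange := by
  rw [modXi_eq_num, modxi_num_Qb, modxi_c₆_Qb]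
  refine div_mem (sub_mem (add_mem (mul_mem (intCast_mem _ _) ⟨r, rfl⟩)
    (mul_mem (intCast_mem _ _) (intCast_mem _ _))) (mul_mem ?_ (intCast_mem _ _)))
    (intCast_mem _ _)
  exact ofNat_mem _ 18

/-- the `x`-coordinates of the multiples of a `G_ℚ`-fixed point are rational -/
theorem modpi_ptX_rat (Q : ((W.map (Int.castRingHom ℚ))⁄Qb).Point)
    (hQfix : ∀ σ : Qb ≃ₐ[ℚ] Qb, σ • Q = Q) (k : ℕ) :
    ∃ r : ℚ, algebraMap ℚ Qb r = modPtX (k • Q) := by
  rcases hkQ : k • Q with _ | ⟨x, y, h⟩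
  · exact ⟨0, by simp [modPtX]⟩
  · have hfix : ∀ σ : Qb ≃ₐ[ℚ] Qb,
        σ • (Point.some x y h : ((W.map (Int.castRingHom ℚ))⁄Qb).Point) = Point.some x y h := by
      intro σ
      have h1 : σ • (k • Q) = k • (σ • Q) :=
        map_nsmul (DistribSMul.toAddMonoidHom
          ((W.map (Int.castRingHom ℚ))⁄Qb).Point σ) k Q
      rw [← hkQ, h1, hQfix σ]
    obtain ⟨rx, ry, hrx, -⟩ := ecloc_rat_of_fixed W h hfix
    exact ⟨rx, hrx⟩

/-- **Rationality of the Fricke product**: for a `G_ℚ`-fixed point `Q` and rational `t`,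
`Π_t(W, Q) ∈ ℚ`. -/
theorem modpi_rat (Q : ((W.map (Int.castRingHom ℚ))⁄Qb).Point)
    (hQfix : ∀ σ : Qb ≃ₐ[ℚ] Qb, σ • Q = Q) (N : ℕ) (t : ℚ) :
    ∃ r : ℚ, algebraMap ℚ Qb r =
      modPiAlg ((W.map (Int.castRingHom ℚ)).baseChange Qb) Q N (algebraMap ℚ Qb t) := by
  have hmem : modPiAlg ((W.map (Int.castRingHom ℚ)).baseChange Qb) Q N (algebraMap ℚ Qb t) ∈
      (algebraMap ℚ Qb).fieldRange := by
    unfold modPiAlg
    refine prod_mem fun k _ => sub_mem ⟨t, rfl⟩ ?_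
    obtain ⟨r, hr⟩ := modpi_ptX_rat Q hQfix k
    rw [← hr]
    exact modxi_rat W r
  exact hmem

end Product

end Fermat.Agent.S15
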