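/-
Item 15 (Mazur chain), piece `MOD-UNIF`, part 3 (helper13): lattices.

* homogeneity of `G_n`, `℘`, `℘'` under homotheties of lattices (`modunif_G_scale`,
  `modunif_wp_scale`);
* the invariants of `ℤ τ + ℤ`: `g₂ = (4π⁴/3) E₄`, `g₃ = (8π⁶/27) E₆`,
  `g₂³ - 27 g₃² = (2π)¹² Δ ≠ 0`, `J · (g₂³ - 27 g₃²) = 1728 g₂³`.
-/
import Fermat.Agent.S15.ModDefs
import Fermat.Agent.ES.RC.JInj

set_option autoImplicit false

noncomputable section

namespace Fermat.Agent.S15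

open Complex PeriodPair UpperHalfPlane ModularForm EisensteinSeries
open Fermat.Agent.S24 Fermat.Agent.ES.RC

section Scale

variable (L L' : PeriodPair) (c : ℂ)

/-- the bijection `l' ↦ c l'` between homothetic lattices -/
def modunifLatEquiv (hc : c ≠ 0) (h : ∀ z, z ∈ L'.lattice ↔ c * z ∈ L.lattice) :
    L'.lattice ≃ L.lattice where
  toFun l := ⟨c * l, (h l).1 l.2⟩
  invFun l := ⟨c⁻¹ * l, (h _).2 (by rw [mul_inv_cancel_left₀ hc]; exact l.2)⟩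
  left_inv l := by
    apply Subtype.ext
    simp [inv_mul_cancel_left₀ hc]
  right_inv l := by
    apply Subtype.ext
    simp [mul_inv_cancel_left₀ hc]

variable {L L' c}

/-- homogeneity of the Eisenstein sums -/
theorem modunif_G_scale (hc : c ≠ 0) (h : ∀ z, z ∈ L'.lattice ↔ c * z ∈ L.lattice) (n : ℕ) :
    L'.G n = c ^ n * L.G n := by
  rw [PeriodPair.G, PeriodPair.G, ← (modunifLatEquiv L L' c hc h).tsum_eq, ← tsum_mul_left]
  refine tsum_congr fun l => ?_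
  show ((l : ℂ) ^ n)⁻¹ = c ^ n * ((c * (l : ℂ)) ^ n)⁻¹
  rw [mul_pow, mul_inv, ← mul_assoc, mul_inv_cancel₀ (pow_ne_zero n hc), one_mul]

theorem modunif_g₂_scale (hc : c ≠ 0) (h : ∀ z, z ∈ L'.lattice ↔ c * z ∈ L.lattice) :
    L'.g₂ = c ^ 4 * L.g₂ := by
  rw [PeriodPair.g₂, PeriodPair.g₂, modunif_G_scale hc h]
  ring

theorem modunif_g₃_scale (hc : c ≠ 0) (h : ∀ z, z ∈ L'.lattice ↔ c * z ∈ L.lattice) :
    L'.g₃ = c ^ 6 * L.g₃ := by
  rw [PeriodPair.g₃, PeriodPair.g₃, modunif_G_scale hc h]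
  ring

/-- homogeneity of `℘` -/
theorem modunif_wp_scale (hc : c ≠ 0) (h : ∀ z, z ∈ L'.lattice ↔ c * z ∈ L.lattice) (z : ℂ) :
    ℘[L'] z = c ^ 2 * ℘[L] (c * z) := by
  rw [PeriodPair.weierstrassP, PeriodPair.weierstrassP,
    ← (modunifLatEquiv L L' c hc h).tsum_eq, ← tsum_mul_left]
  refine tsum_congr fun l => ?_
  show 1 / (z - (l : ℂ)) ^ 2 - 1 / (l : ℂ) ^ 2 =
    c ^ 2 * (1 / (c * z - c * (l : ℂ)) ^ 2 - 1 / (c * (l : ℂ)) ^ 2)
  have h1 : c * z - c * (l : ℂ) = c * (z - l) := by ring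
  rw [h1, mul_pow, mul_pow, mul_sub, one_div, one_div, one_div, one_div, mul_inv, mul_inv,
    ← mul_assoc, ← mul_assoc, mul_inv_cancel₀ (pow_ne_zero 2 hc), one_mul, one_mul]

end Scale

section Tau

/-- `ζ(6) = π⁶ / 945` -/
theorem modunif_zeta_six : riemannZeta 6 = (Real.pi : ℂ) ^ 6 / 945 := by
  have h := riemannZeta_two_mul_nat (k := 3) (by norm_num)
  have hb : bernoulli 6 = 1 / 42 := by
    rw [bernoulli_eq_bernoulli'_of_ne_one (by norm_num)]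
    have h1 : Nat.choose 6 2 = 15 := by decide
    have h2 : Nat.choose 6 3 = 20 := by decide
    have h3 : Nat.choose 6 4 = 15 := by decide
    have h4 : Nat.choose 6 5 = 6 := by decide
    have h5 : bernoulli' 5 = 0 := bernoulli'_eq_zero_of_odd (by decide) (by norm_num)
    rw [bernoulli'_def]
    norm_num [Finset.sum_range_succ, Finset.sum_range_zero, h1, h2, h3, h4, h5]
  have h6 : ((2 * (3 : ℕ) : ℕ) : ℂ) = 6 := by norm_num
  have hfact : ((2 * 3).factorial : ℂ) = 720 := by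
    norm_num [Nat.factorial]
  have h2k : (2 : ℂ) * ((3 : ℕ) : ℂ) = 6 := by norm_num
  rw [h2k] at h
  rw [h, hb]
  norm_num [Nat.factorial]
  ring

variable (τ : ℍ)

theorem modunif_lattice_iff (z : ℂ) :
    z ∈ (modLat τ).lattice ↔ (1 : ℂ) * z ∈ (jinjPair τ 1 one_ne_zero).lattice := by
  rw [one_mul, mem_lattice, mem_lattice]
  simp only [modLat_ω₁, modLat_ω₂, jinjPair_ω₁, jinjPair_ω₂, one_mul]

/-- the Eisenstein sums of `ℤ τ + ℤ` -/
theorem modunif_G_tau {n : ℕ} (hn : 3 ≤ n) :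
    (modLat τ).G n = 2 * riemannZeta n * E hn τ := by
  rw [modunif_G_scale one_ne_zero (modunif_lattice_iff τ), jinj_G_pair, jinjSum_eq τ hn]
  simp

/-- `g₂(ℤτ + ℤ) = (4π⁴/3) E₄(τ)` -/
theorem modunif_g₂_tau : (modLat τ).g₂ = 4 * (Real.pi : ℂ) ^ 4 / 3 * E₄ τ := by
  rw [PeriodPair.g₂, modunif_G_tau τ (by norm_num : 3 ≤ 4)]
  have h4 : ((4 : ℕ) : ℂ) = 4 := by norm_num
  rw [h4, riemannZeta_four]
  ring

/-- `g₃(ℤτ + ℤ) = (8π⁶/27) E₆(τ)` -/
theorem modunif_g₃_tau : (modLat τ).g₃ = 8 * (Real.pi : ℂ) ^ 6 / 27 * E₆ τ := by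
  rw [PeriodPair.g₃, modunif_G_tau τ (by norm_num : 3 ≤ 6)]
  have h6 : ((6 : ℕ) : ℂ) = 6 := by norm_num
  rw [h6, modunif_zeta_six]
  ring

/-- `g₂³ - 27 g₃² = (2π)¹² Δ` -/
theorem modunif_disc_tau :
    (modLat τ).g₂ ^ 3 - 27 * (modLat τ).g₃ ^ 2 =
      (2 * (Real.pi : ℂ)) ^ 12 * ModularForm.discriminant τ := by
  rw [modunif_g₂_tau, modunif_g₃_tau, discriminant_eq_E₄_cube_sub_E₆_sq]
  ring

theorem modunif_disc_ne_zero : (modLat τ).g₂ ^ 3 - 27 * (modLat τ).g₃ ^ 2 ≠ 0 := by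
  rw [modunif_disc_tau]
  refine mul_ne_zero (pow_ne_zero 12 (mul_ne_zero two_ne_zero ?_)) (discriminant_ne_zero τ)
  exact_mod_cast Real.pi_ne_zero

/-- `J(τ) (g₂³ - 27 g₃²) = 1728 g₂³` -/
theorem modunif_Jfun_tau :
    Jfun τ * ((modLat τ).g₂ ^ 3 - 27 * (modLat τ).g₃ ^ 2) = 1728 * (modLat τ).g₂ ^ 3 := by
  rw [modunif_disc_tau, modunif_g₂_tau, Jfun]
  have hΔ := discriminant_ne_zero τ
  field_simp
  ring

end Tau

end Fermat.Agent.S15
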