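import Fermat.Agent.S15.ModDefs

/-!
# S15 / MOD-ADD — the uniformisation `ℂ / Λ ≅ E_Λ(ℂ)` (helper51)

Mathlib only.  `z ↦ (℘ z, ℘' z / 2)` is a surjective group homomorphism from `ℂ` onto the points of
`modCurve L : y² = x³ - (g₂/4) x - g₃/4`, with kernel the lattice (`modadd_main`).

* `modadd_collinear` : `P_z`, `P_v`, `-P_{z+v}` are collinear (Liouville);
* `modaddTheta_add_generic` : the addition theorem when `℘ z`, `℘ v`, `℘ (z+v)` are distinct;
* `modaddTheta_add` : the general case, by perturbation (`θ(z+v) = θ(z+t) + θ(v-t)`, `t` small);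
* `modadd_exists_P_eq` : `℘` takes every value (Liouville);
* `modadd_P_inj` : `℘ z₁ = ℘ z₂` only if `z₁ ≡ ± z₂` modulo the lattice.
-/

set_option autoImplicit false

noncomputable section

namespace Fermat.Agent.S15

open PeriodPair Filter Topology

variable (L : PeriodPair)

theorem modadd_countable_lattice : (L.lattice : Set ℂ).Countable := by
  have : Countable L.lattice := L.latticeEquivProd.toEquiv.countable_iff.mpr inferInstance
  exact Set.countable_coe_iff.mp this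

/-- `℘ = ℘[L - 0] + 1/z²`. -/
theorem modadd_P_eq (z : ℂ) : ℘[L] z = ℘[L - (0:ℂ)] z + 1 / z ^ 2 := by
  have := L.weierstrassPExcept_def (0 : L.lattice) z
  simp only [ZeroMemClass.coe_zero, sub_zero] at this
  rw [this]
  simp

/-- `℘' = ℘'[L - 0] - 2/z³`. -/
theorem modadd_P'_eq (z : ℂ) : ℘'[L] z = ℘'[L - (0:ℂ)] z - 2 / z ^ 3 := by
  have := L.derivWeierstrassPExcept_def (0 : L.lattice) z
  simp only [ZeroMemClass.coe_zero, sub_zero] at this
  rw [this]
  ring

/-- The collinearity determinant of `P_z`, `P_v`, `-P_{z+v}`. -/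
def modaddF (v z : ℂ) : ℂ :=
  ℘'[L] (z + v) * (℘[L] z - ℘[L] v) + ℘'[L] v * (℘[L] z - ℘[L] (z + v)) +
    ℘'[L] z * (℘[L] (z + v) - ℘[L] v)

/-- The analytic extension of `modaddF` at `0`. -/
def modaddFext (v z : ℂ) : ℂ :=
  deriv (fun w ↦ ℘[L] (w + v)) z * (℘[L - (0:ℂ)] z - ℘[L] v) +
    ℘'[L] v * (℘[L - (0:ℂ)] z - ℘[L] (z + v)) +
    ℘'[L - (0:ℂ)] z * (℘[L] (z + v) - ℘[L] v) +
    deriv (dslope (dslope (fun w ↦ ℘[L] (w + v)) 0) 0) z

theorem modadd_analyticAt_shift {v : ℂ} (hv : v ∉ L.lattice) :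
    AnalyticAt ℂ (fun w ↦ ℘[L] (w + v)) 0 := by
  have h1 : AnalyticAt ℂ ℘[L] ((0:ℂ) + v) := by
    rw [zero_add]; exact L.analyticOnNhd_weierstrassP v hv
  exact h1.comp_of_eq (by fun_prop) rfl

theorem modadd_analyticAt_dslope {f : ℂ → ℂ} {a : ℂ} (hf : AnalyticAt ℂ f a) :
    AnalyticAt ℂ (dslope f a) a := by
  obtain ⟨p, hp⟩ := hf
  exact ⟨_, hp.has_fpower_series_dslope_fslope⟩

theorem modadd_Fext_analyticAt {v : ℂ} (hv : v ∉ L.lattice) :
    AnalyticAt ℂ (modaddFext L v) 0 := by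
  have h0 := modadd_analyticAt_shift L hv
  have h1 := h0.deriv
  have h2 := (modadd_analyticAt_dslope (modadd_analyticAt_dslope h0)).deriv
  have h3 : AnalyticAt ℂ ℘[L - (0:ℂ)] 0 := L.analyticAt_weierstrassPExcept 0
  have h4 : AnalyticAt ℂ ℘'[L - (0:ℂ)] 0 := L.analyticAt_derivWeierstrassPExcept 0
  unfold modaddFext
  fun_prop

theorem modadd_F_eq_Fext {v : ℂ} (hv : v ∉ L.lattice) :
    ∀ᶠ z in 𝓝[≠] (0:ℂ), modaddF L v z = modaddFext L v z := by
  have h0 := modadd_analyticAt_shift L hv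
  have hd2 := modadd_analyticAt_dslope (modadd_analyticAt_dslope h0)
  have hU : ∀ᶠ z in 𝓝 (0:ℂ), z + v ∉ L.lattice := by
    have : Tendsto (fun z : ℂ ↦ z + v) (𝓝 0) (𝓝 v) := by
      have : Continuous (fun z : ℂ ↦ z + v) := by fun_prop
      simpa using this.tendsto 0
    exact this.eventually (L.isClosed_lattice.isOpen_compl.mem_nhds hv)
  have hform : ∀ z : ℂ, ℘[L] (z + v) = ℘[L] v + ℘'[L] v * z +
      z ^ 2 * dslope (dslope (fun w ↦ ℘[L] (w + v)) 0) 0 z := by
    intro z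
    have e1 := sub_smul_dslope (fun w ↦ ℘[L] (w + v)) 0 z
    have e2 := sub_smul_dslope (dslope (fun w ↦ ℘[L] (w + v)) 0) 0 z
    have e3 : dslope (fun w ↦ ℘[L] (w + v)) 0 0 = ℘'[L] v := by
      rw [dslope_same]
      have : deriv (fun w ↦ ℘[L] (w + v)) 0 = deriv ℘[L] (0 + v) := deriv_comp_add_const _ _ _
      rw [this, L.deriv_weierstrassP, zero_add]
    simp only [sub_zero, smul_eq_mul, zero_add] at e1 e2
    rw [e3] at e2
    linear_combination (-1 : ℂ) * e1 - z * e2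
  have hderiv : ∀ z : ℂ, deriv (fun w ↦ ℘[L] (w + v)) z = ℘'[L] (z + v) := by
    intro z
    have : deriv (fun w ↦ ℘[L] (w + v)) z = deriv ℘[L] (z + v) := deriv_comp_add_const _ _ _
    rw [this, L.deriv_weierstrassP]
  have hderiv2 : ∀ᶠ z in 𝓝 (0:ℂ), ℘'[L] (z + v) = ℘'[L] v +
      2 * z * dslope (dslope (fun w ↦ ℘[L] (w + v)) 0) 0 z +
      z ^ 2 * deriv (dslope (dslope (fun w ↦ ℘[L] (w + v)) 0) 0) z := by
    filter_upwards [hd2.eventually_analyticAt] with z hz
    rw [← hderiv z]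
    have hfun : (fun w ↦ ℘[L] (w + v)) = fun z ↦ ℘[L] v + ℘'[L] v * z +
      z ^ 2 * dslope (dslope (fun w ↦ ℘[L] (w + v)) 0) 0 z := funext hform
    have hD := hz.differentiableAt.hasDerivAt
    have : HasDerivAt (fun z ↦ ℘[L] v + ℘'[L] v * z +
      z ^ 2 * dslope (dslope (fun w ↦ ℘[L] (w + v)) 0) 0 z)
      (℘'[L] v + 2 * z * dslope (dslope (fun w ↦ ℘[L] (w + v)) 0) 0 z +
      z ^ 2 * deriv (dslope (dslope (fun w ↦ ℘[L] (w + v)) 0) 0) z) z := by
      have a1 : HasDerivAt (fun z : ℂ ↦ ℘[L] v + ℘'[L] v * z) (℘'[L] v) z := by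
        simpa using ((hasDerivAt_id z).const_mul (℘'[L] v)).const_add (℘[L] v)
      have a2 : HasDerivAt (fun z : ℂ ↦ z ^ 2) (2 * z) z := by
        simpa using hasDerivAt_pow 2 z
      have a3 := a1.add (a2.mul hD)
      exact a3.congr_deriv (by ring)
    exact (congrArg (fun f ↦ deriv f z) hfun).trans this.deriv
  filter_upwards [mem_nhdsWithin_of_mem_nhds hU, mem_nhdsWithin_of_mem_nhds hderiv2,
    self_mem_nhdsWithin] with z hz1 hz2 hz3
  have hz0 : z ≠ 0 := hz3
  unfold modaddF modaddFext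
  rw [hderiv z, modadd_P_eq L z, modadd_P'_eq L z, hz2, hform z]
  field_simp
  ring


/-- The entire extension of `modaddF`. -/
def modaddR (v : ℂ) (z : ℂ) : ℂ :=
  letI := Classical.propDecidable
  if z ∈ L.lattice then modaddFext L v 0
  else if z + v ∈ L.lattice then - modaddFext L v 0
  else modaddF L v z

theorem modadd_mem_add_coe_iff (z : ℂ) (l : L.lattice) : z + l ∈ L.lattice ↔ z ∈ L.lattice := by
  simpa using (L.lattice.toAddSubgroup.add_mem_cancel_right (y := z) l.2)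

theorem modadd_F_add_coe (v z : ℂ) (l : L.lattice) : modaddF L v (z + l) = modaddF L v z := by
  unfold modaddF
  have e : z + (l : ℂ) + v = (z + v) + l := by ring
  rw [e]
  simp only [L.weierstrassP_add_coe, L.derivWeierstrassP_add_coe]

theorem modadd_R_add_coe (v z : ℂ) (l : L.lattice) : modaddR L v (z + l) = modaddR L v z := by
  unfold modaddR
  have e : z + (l : ℂ) + v = (z + v) + l := by ring
  rw [e, modadd_mem_add_coe_iff L z l, modadd_mem_add_coe_iff L (z + v) l, modadd_F_add_coe]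

theorem modadd_F_neg (v z : ℂ) : modaddF L v (-z - v) = - modaddF L v z := by
  unfold modaddF
  have e1 : -z - v + v = -z := by ring
  have e2 : -z - v = -(z + v) := by ring
  rw [e1, e2]
  simp only [L.weierstrassP_neg, L.derivWeierstrassP_neg]
  ring

theorem modadd_R_neg {v : ℂ} (hv : v ∉ L.lattice) (z : ℂ) :
    modaddR L v (-z - v) = - modaddR L v z := by
  classical
  have e1 : -z - v + v = -z := by ring
  have e2 : -z - v = -(z + v) := by ring
  have h1 : (-z - v ∈ L.lattice) ↔ z + v ∈ L.lattice := by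
    rw [e2]; exact neg_mem_iff
  have h2 : (-z - v + v ∈ L.lattice) ↔ z ∈ L.lattice := by
    rw [e1]; exact neg_mem_iff
  by_cases hz : z ∈ L.lattice
  · have hzv : z + v ∉ L.lattice := fun h ↦ hv (by
      have := sub_mem h hz
      simpa using this)
    simp [modaddR, h1, hz, hzv]
  · by_cases hzv : z + v ∈ L.lattice
    · simp [modaddR, h1, hz, hzv]
    · simp [modaddR, h1, hz, hzv, modadd_F_neg]

theorem modadd_R_eventuallyEq {v : ℂ} (hv : v ∉ L.lattice) :
    modaddR L v =ᶠ[𝓝 0] modaddFext L v := by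
  have hU : ∀ᶠ z in 𝓝 (0:ℂ), z + v ∉ L.lattice := by
    have : Tendsto (fun z : ℂ ↦ z + v) (𝓝 0) (𝓝 v) := by
      have : Continuous (fun z : ℂ ↦ z + v) := by fun_prop
      simpa using this.tendsto 0
    exact this.eventually (L.isClosed_lattice.isOpen_compl.mem_nhds hv)
  have h1 := modadd_F_eq_Fext L hv
  rw [eventually_nhdsWithin_iff] at h1
  filter_upwards [hU, h1, L.compl_lattice_sdiff_singleton_mem_nhds 0] with z hz1 hz2 hz3
  by_cases hz0 : z = 0
  · subst hz0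
    simp [modaddR]
  · have hz : z ∉ L.lattice := by
      intro h
      exact hz3 ⟨h, hz0⟩
    have := hz2 hz0
    simp [modaddR, hz, hz1, this]

theorem modadd_F_analyticAt (v : ℂ) {z : ℂ} (hz : z ∉ L.lattice) (hzv : z + v ∉ L.lattice) :
    AnalyticAt ℂ (modaddF L v) z := by
  have a1 : AnalyticAt ℂ ℘[L] z := L.analyticOnNhd_weierstrassP z hz
  have a2 : AnalyticAt ℂ ℘'[L] z := L.analyticOnNhd_derivWeierstrassP z hz
  have a3 : AnalyticAt ℂ (fun w ↦ ℘[L] (w + v)) z :=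
    (L.analyticOnNhd_weierstrassP (z + v) hzv).comp_of_eq (by fun_prop) rfl
  have a4 : AnalyticAt ℂ (fun w ↦ ℘'[L] (w + v)) z :=
    (L.analyticOnNhd_derivWeierstrassP (z + v) hzv).comp_of_eq (by fun_prop) rfl
  unfold modaddF
  fun_prop

theorem modadd_R_analyticAt_zero {v : ℂ} (hv : v ∉ L.lattice) :
    AnalyticAt ℂ (modaddR L v) 0 :=
  (modadd_Fext_analyticAt L hv).congr (modadd_R_eventuallyEq L hv).symm

theorem modadd_R_analyticAt_coe {v : ℂ} (hv : v ∉ L.lattice) (l : L.lattice) :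
    AnalyticAt ℂ (modaddR L v) l := by
  have h0 := modadd_R_analyticAt_zero L hv
  have h1 : AnalyticAt ℂ (fun z : ℂ ↦ z - l) (l : ℂ) := by fun_prop
  have h3 := h0.comp_of_eq h1 (by simp)
  refine h3.congr (Eventually.of_forall fun z ↦ ?_)
  simp only [Function.comp_apply]
  have := modadd_R_add_coe L v (z - l) l
  rw [sub_add_cancel] at this
  exact this.symm

theorem modadd_R_analyticAt {v : ℂ} (hv : v ∉ L.lattice) (z : ℂ) :
    AnalyticAt ℂ (modaddR L v) z := by
  by_cases hz : z ∈ L.lattice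
  · exact modadd_R_analyticAt_coe L hv ⟨z, hz⟩
  by_cases hzv : z + v ∈ L.lattice
  · -- use the antisymmetry
    have h0 := modadd_R_analyticAt_coe L hv (-⟨z + v, hzv⟩)
    have h1 : AnalyticAt ℂ (fun w : ℂ ↦ -w - v) z := by fun_prop
    have e : (fun w : ℂ ↦ -w - v) z = ((-⟨z + v, hzv⟩ : L.lattice) : ℂ) := by
      simp; ring
    have h3 := (h0.comp_of_eq h1 e).neg
    refine h3.congr (Eventually.of_forall fun w ↦ ?_)
    simp only [Function.comp_apply, Pi.neg_apply]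
    rw [modadd_R_neg L hv w, neg_neg]
  · have hF := modadd_F_analyticAt L v hz hzv
    refine hF.congr ?_
    have hU : ∀ᶠ w in 𝓝 z, w + v ∉ L.lattice := by
      have : Tendsto (fun w : ℂ ↦ w + v) (𝓝 z) (𝓝 (z + v)) := by
        have : Continuous (fun w : ℂ ↦ w + v) := by fun_prop
        exact this.tendsto z
      exact this.eventually (L.isClosed_lattice.isOpen_compl.mem_nhds hzv)
    filter_upwards [hU, L.isClosed_lattice.isOpen_compl.mem_nhds hz] with w hw1 hw2
    have hw2' : w ∉ L.lattice := hw2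
    simp [modaddR, hw1, hw2']

theorem modadd_R_eq_zero {v : ℂ} (hv : v ∉ L.lattice) (z : ℂ) : modaddR L v z = 0 := by
  have hd : Differentiable ℂ (modaddR L v) := fun x ↦ (modadd_R_analyticAt L hv x).differentiableAt
  have hb := (IsZLattice.isCompact_range_of_periodic L.lattice _
    hd.continuous fun z w hw ↦ by
      lift w to L.lattice using hw
      exact modadd_R_add_coe L v z w).isBounded
  have h1 := hd.apply_eq_apply_of_bounded hb 0 (-0 - v)
  rw [modadd_R_neg L hv 0] at h1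
  have h0 : modaddR L v 0 = 0 := by
    have : (2 : ℂ) * modaddR L v 0 = 0 := by linear_combination h1
    simpa using this
  rw [hd.apply_eq_apply_of_bounded hb z 0, h0]

/-- **Collinearity** of `P_z`, `P_v`, `-P_{z+v}`. -/
theorem modadd_collinear {z v : ℂ} (hz : z ∉ L.lattice) (hv : v ∉ L.lattice)
    (hzv : z + v ∉ L.lattice) :
    ℘'[L] (z + v) * (℘[L] z - ℘[L] v) + ℘'[L] v * (℘[L] z - ℘[L] (z + v)) +
      ℘'[L] z * (℘[L] (z + v) - ℘[L] v) = 0 := by
  have := modadd_R_eq_zero L hv z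
  simpa [modaddR, hz, hzv, modaddF] using this


/-! ## The points `(℘ z, ℘' z / 2)` -/

theorem modadd_equation {z : ℂ} (hz : z ∉ L.lattice) :
    (modCurve L).toAffine.Equation (℘[L] z) (℘'[L] z / 2) := by
  rw [WeierstrassCurve.Affine.equation_iff]
  have := L.derivWeierstrassP_sq z hz
  simp only [modCurve]
  linear_combination (1 / 4 : ℂ) * this

theorem modadd_nonsingular_of_equation (hΔ : L.g₂ ^ 3 - 27 * L.g₃ ^ 2 ≠ 0) {x y : ℂ}
    (h : (modCurve L).toAffine.Equation x y) : (modCurve L).toAffine.Nonsingular x y := by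
  rw [WeierstrassCurve.Affine.nonsingular_iff]
  refine ⟨h, ?_⟩
  rw [WeierstrassCurve.Affine.equation_iff] at h
  simp only [modCurve] at h ⊢
  by_contra hcon
  push Not at hcon
  obtain ⟨h1, h2⟩ := hcon
  have hy : y = 0 := by
    have : (2 : ℂ) * y = 0 := by linear_combination h2
    simpa using this
  subst hy
  apply hΔ
  have e1 : L.g₂ = 12 * x ^ 2 := by linear_combination (4 : ℂ) * h1
  have e2 : L.g₃ = -8 * x ^ 3 := by
    have : L.g₃ = 4 * x ^ 3 - L.g₂ * x := by linear_combination (4 : ℂ) * h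
    rw [this, e1]; ring
  rw [e1, e2]; ring

theorem modadd_nonsingular (hΔ : L.g₂ ^ 3 - 27 * L.g₃ ^ 2 ≠ 0) {z : ℂ} (hz : z ∉ L.lattice) :
    (modCurve L).toAffine.Nonsingular (℘[L] z) (℘'[L] z / 2) :=
  modadd_nonsingular_of_equation L hΔ (modadd_equation L hz)

/-- The uniformisation `z ↦ (℘ z, ℘' z / 2)`. -/
def modaddTheta (hΔ : L.g₂ ^ 3 - 27 * L.g₃ ^ 2 ≠ 0) (z : ℂ) : (modCurve L).toAffine.Point :=
  letI := Classical.propDecidable
  if hz : z ∈ L.lattice then 0 else .some _ _ (modadd_nonsingular L hΔ hz)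

variable {L} (hΔ : L.g₂ ^ 3 - 27 * L.g₃ ^ 2 ≠ 0)

theorem modaddTheta_of_mem {z : ℂ} (hz : z ∈ L.lattice) : modaddTheta L hΔ z = 0 := by
  simp [modaddTheta, hz]

theorem modaddTheta_of_notMem {z : ℂ} (hz : z ∉ L.lattice) :
    modaddTheta L hΔ z = .some _ _ (modadd_nonsingular L hΔ hz) := by
  simp [modaddTheta, hz]

theorem modaddTheta_eq_zero_iff (z : ℂ) : modaddTheta L hΔ z = 0 ↔ z ∈ L.lattice := by
  constructor
  · intro h
    by_contra hz
    rw [modaddTheta_of_notMem hΔ hz] at h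
    exact WeierstrassCurve.Affine.Point.some_ne_zero _ h
  · exact modaddTheta_of_mem hΔ

theorem modadd_some_congr {W : WeierstrassCurve.Affine ℂ} {x y x' y' : ℂ}
    (h : W.Nonsingular x y) (h' : W.Nonsingular x' y') (hx : x = x') (hy : y = y') :
    WeierstrassCurve.Affine.Point.some x y h = WeierstrassCurve.Affine.Point.some x' y' h' := by
  subst hx hy; rfl

theorem modaddTheta_add_coe (z : ℂ) (l : L.lattice) :
    modaddTheta L hΔ (z + l) = modaddTheta L hΔ z := by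
  by_cases hz : z ∈ L.lattice
  · rw [modaddTheta_of_mem hΔ hz, modaddTheta_of_mem hΔ ((modadd_mem_add_coe_iff L z l).2 hz)]
  · have hz' : z + l ∉ L.lattice := fun h ↦ hz ((modadd_mem_add_coe_iff L z l).1 h)
    rw [modaddTheta_of_notMem hΔ hz, modaddTheta_of_notMem hΔ hz']
    exact modadd_some_congr _ _ (L.weierstrassP_add_coe z l)
      (by rw [L.derivWeierstrassP_add_coe z l])

theorem modaddTheta_neg (z : ℂ) : modaddTheta L hΔ (-z) = - modaddTheta L hΔ z := by
  by_cases hz : z ∈ L.lattice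
  · rw [modaddTheta_of_mem hΔ hz, modaddTheta_of_mem hΔ (neg_mem hz), neg_zero]
  · have hz' : -z ∉ L.lattice := fun h ↦ hz (neg_mem_iff.1 h)
    rw [modaddTheta_of_notMem hΔ hz, modaddTheta_of_notMem hΔ hz',
      WeierstrassCurve.Affine.Point.neg_some]
    refine modadd_some_congr _ _ (L.weierstrassP_neg z) ?_
    rw [L.derivWeierstrassP_neg z]
    simp [WeierstrassCurve.Affine.negY, modCurve]
    ring

/-- The algebra behind the generic case: three distinct collinear points of the cubic. -/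
theorem modadd_alg {g₂ g₃ x₁ x₂ x₃ p₁ p₂ p₃ : ℂ} (e1 : p₁ ^ 2 = 4 * x₁ ^ 3 - g₂ * x₁ - g₃)
    (e2 : p₂ ^ 2 = 4 * x₂ ^ 3 - g₂ * x₂ - g₃) (e3 : p₃ ^ 2 = 4 * x₃ ^ 3 - g₂ * x₃ - g₃)
    (hcol : p₃ * (x₁ - x₂) + p₂ * (x₁ - x₃) + p₁ * (x₃ - x₂) = 0)
    (h12 : x₁ ≠ x₂) (h31 : x₃ ≠ x₁) (h32 : x₃ ≠ x₂) :
    x₃ = ((p₁ / 2 - p₂ / 2) / (x₁ - x₂)) ^ 2 - x₁ - x₂ ∧
      p₃ / 2 = -(((p₁ / 2 - p₂ / 2) / (x₁ - x₂)) * (x₃ - x₁) + p₁ / 2) := by
  have hd : x₁ - x₂ ≠ 0 := sub_ne_zero.2 h12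
  have hd31 : x₃ - x₁ ≠ 0 := sub_ne_zero.2 h31
  have hd32 : x₃ - x₂ ≠ 0 := sub_ne_zero.2 h32
  obtain ⟨ℓ, hℓ⟩ : ∃ ℓ : ℂ, ℓ = (p₁ / 2 - p₂ / 2) / (x₁ - x₂) := ⟨_, rfl⟩
  rw [← hℓ]
  have hℓ' : ℓ * (x₁ - x₂) = p₁ / 2 - p₂ / 2 := by
    rw [hℓ]; field_simp
  -- collinearity: `-p₃/2 = ℓ (x₃ - x₁) + p₁/2`
  have hy3 : -(p₃ / 2) = ℓ * (x₃ - x₁) + p₁ / 2 := by
    apply mul_left_cancel₀ hd
    linear_combination (-1 / 2 : ℂ) * hcol - (x₃ - x₁) * hℓ'
  have hp2 : p₂ / 2 = ℓ * (x₂ - x₁) + p₁ / 2 := by linear_combination hℓ'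
  have hx3 : x₃ = ℓ ^ 2 - x₁ - x₂ := by
    have h1' : x₁ ^ 3 - g₂ / 4 * x₁ - g₃ / 4 - (p₁ / 2) ^ 2 = 0 := by
      linear_combination (-1 / 4 : ℂ) * e1
    have h2' : x₂ ^ 3 - g₂ / 4 * x₂ - g₃ / 4 - (ℓ * (x₂ - x₁) + p₁ / 2) ^ 2 = 0 := by
      rw [← hp2]; linear_combination (-1 / 4 : ℂ) * e2
    have h3' : x₃ ^ 3 - g₂ / 4 * x₃ - g₃ / 4 - (ℓ * (x₃ - x₁) + p₁ / 2) ^ 2 = 0 := by
      rw [← hy3]; linear_combination (-1 / 4 : ℂ) * e3
    have key : (x₁ - x₂) * ((x₃ - x₁) * ((x₃ - x₂) * (x₃ - (ℓ ^ 2 - x₁ - x₂)))) = 0 := by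
      linear_combination (x₂ - x₃) * h1' - (x₁ - x₃) * h2' + (x₁ - x₂) * h3'
    have := (mul_eq_zero.1 key).resolve_left hd
    have := (mul_eq_zero.1 this).resolve_left hd31
    have := (mul_eq_zero.1 this).resolve_left hd32
    exact sub_eq_zero.1 this
  exact ⟨hx3, by linear_combination (-1 : ℂ) * hy3⟩

/-- The generic case of the addition theorem. -/
theorem modaddTheta_add_generic {z v : ℂ} (hz : z ∉ L.lattice) (hv : v ∉ L.lattice)
    (hzv : z + v ∉ L.lattice) (h12 : ℘[L] z ≠ ℘[L] v) (h31 : ℘[L] (z + v) ≠ ℘[L] z)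
    (h32 : ℘[L] (z + v) ≠ ℘[L] v) :
    modaddTheta L hΔ (z + v) = modaddTheta L hΔ z + modaddTheta L hΔ v := by
  rw [modaddTheta_of_notMem hΔ hz, modaddTheta_of_notMem hΔ hv, modaddTheta_of_notMem hΔ hzv,
    WeierstrassCurve.Affine.Point.add_of_X_ne h12]
  have hcol := modadd_collinear L hz hv hzv
  have e1 := L.derivWeierstrassP_sq z hz
  have e2 := L.derivWeierstrassP_sq v hv
  have e3 := L.derivWeierstrassP_sq (z + v) hzv
  have hcol' : ℘'[L] (z + v) * (℘[L] z - ℘[L] v) + ℘'[L] v * (℘[L] z - ℘[L] (z + v)) +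
      ℘'[L] z * (℘[L] (z + v) - ℘[L] v) = 0 := hcol
  obtain ⟨hx, hy⟩ := modadd_alg e1 e2 e3 hcol' h12 h31 h32
  refine modadd_some_congr _ _ ?_ ?_
  · rw [WeierstrassCurve.Affine.slope_of_X_ne h12]
    simp only [WeierstrassCurve.Affine.addX, modCurve]
    rw [hx]; ring
  · rw [WeierstrassCurve.Affine.slope_of_X_ne h12]
    simp only [WeierstrassCurve.Affine.addY, WeierstrassCurve.Affine.negY,
      WeierstrassCurve.Affine.negAddY, WeierstrassCurve.Affine.addX, modCurve]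
    rw [hy]
    have : ((℘'[L] z / 2 - ℘'[L] v / 2) / (℘[L] z - ℘[L] v)) ^ 2 = ℘[L] (z + v) + ℘[L] z + ℘[L] v := by
      rw [hx]; ring
    linear_combination ((℘'[L] z / 2 - ℘'[L] v / 2) / (℘[L] z - ℘[L] v)) * this


variable (L)

/-! ## Genericity -/

theorem modadd_preconnected_compl {S : Set ℂ} (hS : S.Countable) : IsPreconnected Sᶜ := by
  have h : 1 < Module.rank ℝ ℂ := by
    rw [Complex.rank_real_complex]
    exact Nat.one_lt_ofNat
  exact (hS.isConnected_compl_of_one_lt_rank h).isPreconnected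

theorem modadd_ev_notMem : ∀ᶠ t in 𝓝[≠] (0:ℂ), t ∉ L.lattice := by
  rw [eventually_nhdsWithin_iff]
  filter_upwards [L.compl_lattice_sdiff_singleton_mem_nhds 0] with t ht ht0 hmem
  exact ht ⟨hmem, ht0⟩

theorem modadd_ev_add_notMem {a : ℂ} (ha : a ∉ L.lattice) :
    ∀ᶠ t in 𝓝 (0:ℂ), a + t ∉ L.lattice := by
  have : Tendsto (fun t : ℂ ↦ a + t) (𝓝 0) (𝓝 a) := by
    have : Continuous (fun t : ℂ ↦ a + t) := by fun_prop
    simpa using this.tendsto 0
  exact this.eventually (L.isClosed_lattice.isOpen_compl.mem_nhds ha)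

theorem modadd_ev_sub_notMem {a : ℂ} (ha : a ∉ L.lattice) :
    ∀ᶠ t in 𝓝 (0:ℂ), a - t ∉ L.lattice := by
  have : Tendsto (fun t : ℂ ↦ a - t) (𝓝 0) (𝓝 a) := by
    have : Continuous (fun t : ℂ ↦ a - t) := by fun_prop
    simpa using this.tendsto 0
  exact this.eventually (L.isClosed_lattice.isOpen_compl.mem_nhds ha)

/-- `℘` is eventually different from any function continuous at `0`. -/
theorem modadd_ev_P_ne {b : ℂ → ℂ} (hb : ContinuousAt b 0) :
    ∀ᶠ t in 𝓝[≠] (0:ℂ), ℘[L] t ≠ b t := by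
  have hE : ContinuousAt ℘[L - (0:ℂ)] 0 := (L.analyticAt_weierstrassPExcept 0).continuousAt
  have hc : ContinuousAt (fun t : ℂ ↦ t ^ 2 * ℘[L - (0:ℂ)] t + 1 - t ^ 2 * b t) 0 := by
    fun_prop
  have h1 : (fun t : ℂ ↦ t ^ 2 * ℘[L - (0:ℂ)] t + 1 - t ^ 2 * b t) 0 ≠ 0 := by simp
  have h2 := hc.eventually_ne h1
  rw [eventually_nhdsWithin_iff]
  filter_upwards [h2] with t ht ht0 heq
  have ht0' : t ≠ 0 := ht0
  apply ht
  rw [← heq, modadd_P_eq L t]
  field_simp
  ring

theorem modadd_analyticAt_add {a : ℂ} (ha : a ∉ L.lattice) :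
    AnalyticAt ℂ (fun t ↦ ℘[L] (a + t)) 0 := by
  have h1 : AnalyticAt ℂ ℘[L] (a + 0) := by
    rw [add_zero]; exact L.analyticOnNhd_weierstrassP a ha
  exact h1.comp_of_eq (by fun_prop) rfl

theorem modadd_analyticAt_sub {a : ℂ} (ha : a ∉ L.lattice) :
    AnalyticAt ℂ (fun t ↦ ℘[L] (a - t)) 0 := by
  have h1 : AnalyticAt ℂ ℘[L] (a - 0) := by
    rw [sub_zero]; exact L.analyticOnNhd_weierstrassP a ha
  exact h1.comp_of_eq (by fun_prop) rfl

/-- `℘` is not locally constant. -/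
theorem modadd_ev_ne_const {a : ℂ} (ha : a ∉ L.lattice) (c : ℂ) :
    ∀ᶠ t in 𝓝[≠] (0:ℂ), ℘[L] (a + t) ≠ c := by
  rcases (modadd_analyticAt_add L ha).eventually_eq_or_eventually_ne
    (analyticAt_const (v := c)) with h | h
  · exfalso
    -- `℘ = c` near `a`, hence on the complement of the lattice
    have h1 : ℘[L] =ᶠ[𝓝 a] fun _ ↦ c := by
      have ht : Tendsto (fun w : ℂ ↦ w - a) (𝓝 a) (𝓝 0) := by
        have : Continuous (fun w : ℂ ↦ w - a) := by fun_prop
        simpa using this.tendsto a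
      filter_upwards [ht.eventually h] with w hw
      simpa using hw
    have h2 : Set.EqOn ℘[L] (fun _ ↦ c) (L.lattice : Set ℂ)ᶜ :=
      L.analyticOnNhd_weierstrassP.eqOn_of_preconnected_of_eventuallyEq analyticOnNhd_const
        (modadd_preconnected_compl (modadd_countable_lattice L)) ha h1
    have h3 := (modadd_ev_P_ne L (b := fun _ ↦ c) continuousAt_const).and (modadd_ev_notMem L)
    obtain ⟨t, ht1, ht2⟩ := h3.exists
    exact ht1 (h2 ht2)
  · exact h

/-- `t ↦ ℘(a + t)` and `t ↦ ℘(b - t)` differ near `0` if `a + b` is not a period. -/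
theorem modadd_ev_ne_pair {a b : ℂ} (ha : a ∉ L.lattice) (hb : b ∉ L.lattice)
    (hab : a + b ∉ L.lattice) :
    ∀ᶠ t in 𝓝[≠] (0:ℂ), ℘[L] (a + t) ≠ ℘[L] (b - t) := by
  rcases (modadd_analyticAt_add L ha).eventually_eq_or_eventually_ne
    (modadd_analyticAt_sub L hb) with h | h
  · exfalso
    -- the domain
    set S : Set ℂ := ((fun l : ℂ ↦ l - a) '' (L.lattice : Set ℂ)) ∪
      ((fun l : ℂ ↦ b - l) '' (L.lattice : Set ℂ)) with hS
    have hSc : S.Countable :=
      ((modadd_countable_lattice L).image _).union ((modadd_countable_lattice L).image _)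
    have hmem : ∀ t : ℂ, t ∈ Sᶜ → a + t ∉ L.lattice ∧ b - t ∉ L.lattice := by
      intro t ht
      constructor
      · intro h1
        exact ht (Or.inl ⟨a + t, h1, by ring⟩)
      · intro h1
        exact ht (Or.inr ⟨b - t, h1, by ring⟩)
    have hf : AnalyticOnNhd ℂ (fun t ↦ ℘[L] (a + t)) Sᶜ := by
      intro t ht
      exact (L.analyticOnNhd_weierstrassP (a + t) (hmem t ht).1).comp_of_eq (by fun_prop) rfl
    have hg : AnalyticOnNhd ℂ (fun t ↦ ℘[L] (b - t)) Sᶜ := by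
      intro t ht
      exact (L.analyticOnNhd_weierstrassP (b - t) (hmem t ht).2).comp_of_eq (by fun_prop) rfl
    have h0 : (0:ℂ) ∈ Sᶜ := by
      rintro (⟨l, hl, hl'⟩ | ⟨l, hl, hl'⟩)
      · apply ha
        have : a = l := by
          simp only at hl'
          linear_combination (-1 : ℂ) * hl'
        rw [this]; exact hl
      · apply hb
        have : b = l := by
          simp only at hl'
          linear_combination hl'
        rw [this]; exact hl
    have h2 := hf.eqOn_of_preconnected_of_eventuallyEq hg (modadd_preconnected_compl hSc) h0 h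
    -- near `t = -a`
    have hcont : ContinuousAt (fun s : ℂ ↦ ℘[L] (a + b - s)) 0 :=
      (modadd_analyticAt_sub L hab).continuousAt
    have h3 := ((modadd_ev_P_ne L hcont).and (modadd_ev_notMem L)).and
      (mem_nhdsWithin_of_mem_nhds (modadd_ev_sub_notMem L hab))
    obtain ⟨s, ⟨hs1, hs2⟩, hs3⟩ := h3.exists
    have hs3' : a + b - s ∉ L.lattice := hs3
    have hin : (-a + s) ∈ Sᶜ := by
      rintro (⟨l, hl, hl'⟩ | ⟨l, hl, hl'⟩)
      · apply hs2
        have : s = l := by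
          simp only at hl'
          linear_combination (-1 : ℂ) * hl'
        rw [this]; exact hl
      · apply hs3'
        have : a + b - s = l := by
          simp only at hl'
          linear_combination hl'
        rw [this]; exact hl
    have h4 := h2 hin
    simp only at h4
    have e1 : a + (-a + s) = s := by ring
    have e2 : b - (-a + s) = a + b - s := by ring
    rw [e1, e2] at h4
    exact hs1 h4
  · exact h



/-! ## The addition theorem -/

theorem modadd_tendsto_neg : Tendsto (fun t : ℂ ↦ -t) (𝓝[≠] (0:ℂ)) (𝓝[≠] (0:ℂ)) := by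
  refine tendsto_nhdsWithin_of_tendsto_nhds_of_eventually_within _ ?_ ?_
  · have : Tendsto (fun t : ℂ ↦ -t) (𝓝 (0:ℂ)) (𝓝 (0:ℂ)) := by
      have : Continuous (fun t : ℂ ↦ -t) := by fun_prop
      simpa using this.tendsto 0
    exact this.mono_left nhdsWithin_le_nhds
  · filter_upwards [self_mem_nhdsWithin] with t ht
    have ht0 : t ≠ 0 := ht
    simpa using ht0

variable {L}

theorem modaddTheta_add_small {z : ℂ} (hz : z ∉ L.lattice) :
    ∀ᶠ t in 𝓝[≠] (0:ℂ),
      modaddTheta L hΔ (z + t) = modaddTheta L hΔ z + modaddTheta L hΔ t := by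
  have h1 := modadd_ev_notMem L
  have h2 : ∀ᶠ t in 𝓝[≠] (0:ℂ), z + t ∉ L.lattice :=
    (modadd_ev_add_notMem L hz).filter_mono nhdsWithin_le_nhds
  have h3 := modadd_ev_P_ne L (b := fun _ ↦ ℘[L] z) continuousAt_const
  have h4 := modadd_ev_ne_const L hz (℘[L] z)
  have h5 := modadd_ev_P_ne L (b := fun t ↦ ℘[L] (z + t)) (modadd_analyticAt_add L hz).continuousAt
  filter_upwards [h1, h2, h3, h4, h5] with t ht1 ht2 ht3 ht4 ht5
  exact modaddTheta_add_generic hΔ hz ht1 ht2 (Ne.symm ht3) ht4 (Ne.symm ht5)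

/-- **The addition theorem.** -/
theorem modaddTheta_add (z v : ℂ) :
    modaddTheta L hΔ (z + v) = modaddTheta L hΔ z + modaddTheta L hΔ v := by
  by_cases hz : z ∈ L.lattice
  · rw [modaddTheta_of_mem hΔ hz, zero_add, add_comm]
    exact modaddTheta_add_coe hΔ v ⟨z, hz⟩
  by_cases hv : v ∈ L.lattice
  · rw [modaddTheta_of_mem hΔ hv, add_zero]
    exact modaddTheta_add_coe hΔ z ⟨v, hv⟩
  by_cases hzv : z + v ∈ L.lattice
  · rw [modaddTheta_of_mem hΔ hzv]
    have h1 : modaddTheta L hΔ (-z + (z + v)) = modaddTheta L hΔ (-z) :=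
      modaddTheta_add_coe hΔ (-z) ⟨z + v, hzv⟩
    have e : -z + (z + v) = v := by ring
    rw [e] at h1
    rw [h1, modaddTheta_neg, add_neg_cancel]
  -- the generic perturbation
  have a1 := modaddTheta_add_small hΔ hz
  have a2 := modadd_tendsto_neg.eventually (modaddTheta_add_small hΔ hv)
  have b1 : ∀ᶠ t in 𝓝[≠] (0:ℂ), z + t ∉ L.lattice :=
    (modadd_ev_add_notMem L hz).filter_mono nhdsWithin_le_nhds
  have b2 : ∀ᶠ t in 𝓝[≠] (0:ℂ), v - t ∉ L.lattice :=
    (modadd_ev_sub_notMem L hv).filter_mono nhdsWithin_le_nhds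
  have b3 := modadd_ev_ne_pair L hz hv hzv
  have b4 := modadd_ev_ne_const L hz (℘[L] (z + v))
  have b5 := modadd_tendsto_neg.eventually (modadd_ev_ne_const L hv (℘[L] (z + v)))
  obtain ⟨t, ⟨⟨⟨⟨⟨⟨ha1, ha2⟩, hb1⟩, hb2⟩, hb3⟩, hb4⟩, hb5⟩⟩ :=
    ((((((a1.and a2).and b1).and b2).and b3).and b4).and b5).exists
  have e : z + t + (v - t) = z + v := by ring
  have e' : v + -t = v - t := by ring
  rw [e'] at ha2 hb5
  have hgen := modaddTheta_add_generic hΔ (z := z + t) (v := v - t) hb1 hb2 (by rw [e]; exact hzv)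
    hb3 (by rw [e]; exact Ne.symm hb4) (by rw [e]; exact Ne.symm hb5)
  rw [e] at hgen
  rw [hgen, ha1, ha2, modaddTheta_neg]
  abel

/-! ## Surjectivity -/

variable (L)

/-- `1 / (℘ - x₀)`, extended by `0` to the lattice. -/
def modaddInv (x₀ : ℂ) (z : ℂ) : ℂ :=
  letI := Classical.propDecidable
  if z ∈ L.lattice then 0 else (℘[L] z - x₀)⁻¹

theorem modaddInv_add_coe (x₀ z : ℂ) (l : L.lattice) :
    modaddInv L x₀ (z + l) = modaddInv L x₀ z := by
  unfold modaddInv
  rw [modadd_mem_add_coe_iff L z l, L.weierstrassP_add_coe]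

/-- `℘` takes every value. -/
theorem modadd_exists_P_eq (x₀ : ℂ) : ∃ z, z ∉ L.lattice ∧ ℘[L] z = x₀ := by
  by_contra hcon
  push Not at hcon
  have h0 : AnalyticAt ℂ (modaddInv L x₀) 0 := by
    have hE : AnalyticAt ℂ ℘[L - (0:ℂ)] 0 := L.analyticAt_weierstrassPExcept 0
    have hA : AnalyticAt ℂ (fun t : ℂ ↦ t ^ 2 / (t ^ 2 * (℘[L - (0:ℂ)] t - x₀) + 1)) 0 := by
      apply AnalyticAt.div (by fun_prop) (by fun_prop)
      simp
    refine hA.congr ?_
    filter_upwards [L.compl_lattice_sdiff_singleton_mem_nhds 0] with t ht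
    by_cases ht0 : t = 0
    · subst ht0
      simp [modaddInv]
    · have htL : t ∉ L.lattice := fun h ↦ ht ⟨h, ht0⟩
      have hne := sub_ne_zero.2 (hcon t htL)
      rw [modadd_P_eq L t] at hne
      have hne' : t ^ 2 * (℘[L - (0:ℂ)] t - x₀) + 1 ≠ 0 := by
        intro h
        apply hne
        field_simp
        linear_combination h
      simp only [modaddInv, htL, if_false]
      rw [modadd_P_eq L t]
      have e : ℘[L - (0:ℂ)] t + 1 / t ^ 2 - x₀ =
          (t ^ 2 * (℘[L - (0:ℂ)] t - x₀) + 1) / t ^ 2 := by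
        field_simp
        ring
      rw [e, inv_div]
  have hall : ∀ z, AnalyticAt ℂ (modaddInv L x₀) z := by
    intro z
    by_cases hz : z ∈ L.lattice
    · have h1 : AnalyticAt ℂ (fun w : ℂ ↦ w - z) z := by fun_prop
      have h3 := h0.comp_of_eq h1 (by simp)
      refine h3.congr (Eventually.of_forall fun w ↦ ?_)
      simp only [Function.comp_apply]
      have := modaddInv_add_coe L x₀ (w - z) ⟨z, hz⟩
      simp only [sub_add_cancel] at this
      exact this.symm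
    · have h1 : AnalyticAt ℂ (fun w ↦ (℘[L] w - x₀)⁻¹) z := by
        have := L.analyticOnNhd_weierstrassP z hz
        exact (this.sub analyticAt_const).inv (sub_ne_zero.2 (hcon z hz))
      refine h1.congr ?_
      filter_upwards [L.isClosed_lattice.isOpen_compl.mem_nhds hz] with w hw
      have hw' : w ∉ L.lattice := hw
      simp [modaddInv, hw']
  have hd : Differentiable ℂ (modaddInv L x₀) := fun x ↦ (hall x).differentiableAt
  have hb := (IsZLattice.isCompact_range_of_periodic L.lattice _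
    hd.continuous fun z w hw ↦ by
      lift w to L.lattice using hw
      exact modaddInv_add_coe L x₀ z w).isBounded
  have h1 := hd.apply_eq_apply_of_bounded hb (L.ω₁ / 2) 0
  have hω := L.ω₁_div_two_notMem_lattice
  simp only [modaddInv, hω, if_false, zero_mem, if_true, inv_eq_zero] at h1
  exact hcon _ hω (sub_eq_zero.1 h1)

variable {L}

theorem modaddTheta_surjective : Function.Surjective (modaddTheta L hΔ) := by
  intro P
  rcases P with _ | ⟨x, y, h⟩
  · exact ⟨0, modaddTheta_of_mem hΔ (zero_mem _)⟩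
  · obtain ⟨z, hz, hzx⟩ := modadd_exists_P_eq L x
    have heq := h.1
    rw [WeierstrassCurve.Affine.equation_iff] at heq
    simp only [modCurve] at heq
    have hsq := L.derivWeierstrassP_sq z hz
    rw [hzx] at hsq
    have hy : (y - ℘'[L] z / 2) * (y + ℘'[L] z / 2) = 0 := by
      linear_combination heq - (1 / 4 : ℂ) * hsq
    rcases mul_eq_zero.1 hy with h1 | h1
    · refine ⟨z, ?_⟩
      rw [modaddTheta_of_notMem hΔ hz]
      exact modadd_some_congr _ _ hzx (by linear_combination (-1 : ℂ) * h1)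
    · refine ⟨-z, ?_⟩
      have hz' : -z ∉ L.lattice := fun h ↦ hz (neg_mem_iff.1 h)
      rw [modaddTheta_of_notMem hΔ hz']
      refine modadd_some_congr _ _ ?_ ?_
      · rw [L.weierstrassP_neg, hzx]
      · rw [L.derivWeierstrassP_neg]
        linear_combination (-1 : ℂ) * h1

/-! ## The main theorem -/

/-- The uniformisation as a homomorphism. -/
def modaddHom : ℂ →+ (modCurve L).toAffine.Point :=
  AddMonoidHom.mk' (modaddTheta L hΔ) (modaddTheta_add hΔ)

@[simp] theorem modaddHom_apply (z : ℂ) : modaddHom hΔ z = modaddTheta L hΔ z := rfl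

/-- **MOD-ADD.** `z ↦ (℘ z, ℘' z / 2)` is a surjective homomorphism `ℂ → E_Λ(ℂ)` with kernel
`Λ`. -/
theorem modadd_main (L : PeriodPair) (hΔ : L.g₂ ^ 3 - 27 * L.g₃ ^ 2 ≠ 0) :
    ∃ θ : ℂ →+ (modCurve L).toAffine.Point,
      (∀ z, θ z = 0 ↔ z ∈ L.lattice) ∧ Function.Surjective θ ∧
        ∀ z, z ∉ L.lattice →
          ∃ h : (modCurve L).toAffine.Nonsingular (℘[L] z) (℘'[L] z / 2),
            θ z = .some (℘[L] z) (℘'[L] z / 2) h :=
  ⟨modaddHom hΔ, fun z ↦ modaddTheta_eq_zero_iff hΔ z, modaddTheta_surjective hΔ,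
    fun _ hz ↦ ⟨modadd_nonsingular L hΔ hz, modaddTheta_of_notMem hΔ hz⟩⟩

/-- `℘` is injective modulo `±` and the lattice. -/
theorem modadd_P_inj (L : PeriodPair) (hΔ : L.g₂ ^ 3 - 27 * L.g₃ ^ 2 ≠ 0) {z₁ z₂ : ℂ}
    (h1 : z₁ ∉ L.lattice) (h2 : z₂ ∉ L.lattice) (h : ℘[L] z₁ = ℘[L] z₂) :
    z₁ - z₂ ∈ L.lattice ∨ z₁ + z₂ ∈ L.lattice := by
  have e1 := L.derivWeierstrassP_sq z₁ h1
  have e2 := L.derivWeierstrassP_sq z₂ h2
  rw [h] at e1
  have hy : (℘'[L] z₁ - ℘'[L] z₂) * (℘'[L] z₁ + ℘'[L] z₂) = 0 := by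
    linear_combination e1 - e2
  rcases mul_eq_zero.1 hy with h3 | h3
  · left
    rw [← modaddTheta_eq_zero_iff hΔ, sub_eq_add_neg, modaddTheta_add, modaddTheta_neg,
      modaddTheta_of_notMem hΔ h1, modaddTheta_of_notMem hΔ h2]
    rw [add_neg_eq_zero]
    exact modadd_some_congr _ _ h (by linear_combination (1 / 2 : ℂ) * h3)
  · right
    rw [← modaddTheta_eq_zero_iff hΔ, modaddTheta_add, add_eq_zero_iff_eq_neg,
      ← modaddTheta_neg]
    have h2' : -z₂ ∉ L.lattice := fun h ↦ h2 (neg_mem_iff.1 h)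
    rw [modaddTheta_of_notMem hΔ h1, modaddTheta_of_notMem hΔ h2']
    refine modadd_some_congr _ _ ?_ ?_
    · rw [L.weierstrassP_neg, h]
    · rw [L.derivWeierstrassP_neg]
      linear_combination (1 / 2 : ℂ) * h3

end Fermat.Agent.S15
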