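import Fermat.Agent.S15.ModPlan
import Fermat.Agent.S15.ModAddCore

/-!
# S15 / MOD-ADD — `stmtModAdd : StmtModAdd` (helper51)

The proof is in `ModAddCore.lean` (Mathlib only).
-/

set_option autoImplicit false

noncomputable section

namespace Fermat.Agent.S15

/-- **MOD-ADD.** `z ↦ (℘ z, ℘' z / 2)` is a group isomorphism `ℂ / Λ ≅ E_Λ(ℂ)`. -/
theorem stmtModAdd : StmtModAdd := fun L hΔ ↦ modadd_main L hΔ

end Fermat.Agent.S15
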