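import Fermat.Agent.ES.M.FrickePlaces
import Fermat.Agent.ES.DescentInj

/-!
# S15 (Mazur chain), shared definitions: the two cusps of `X₀(N)` and the cuspidal class

`F_N = FF N = ℚ̄(j(q^d) : d ∣ N) ⊂ ℚ̄((q))`, `J = JZero N = Pic⁰(F_N)`.

* `cuspInf N`  : the cusp `∞` (the place whose order function is the `q`-order);
* `cuspZero N` : the cusp `0 = w_N(∞)` (`w_N = frickeAut N` the Fricke involution);
* `cuspDiv N`  : the divisor `(0) − (∞)` (of degree `0`), `cuspClass N : JZero N` its class `c`.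

Basic facts: both cusps have degree `1`; `ord_∞ f = ord_q f`, `ord_0 f = ord_q (w_N f)`;
`ord_∞ j = -1`, `ord_0 j = -N`, `ord_∞ j(q^N) = -N`, `ord_0 j(q^N) = -1`; `0 ≠ ∞` for `N ≥ 2`.

Galois: `galAct N σ` is the coefficientwise action of `σ ∈ G_ℚ` on `F_N`; it commutes with `w_N`
(`fricke_galAct`), fixes both cusps and the cuspidal class (`galois_smul_cuspClass`).
-/

set_option autoImplicit false
set_option linter.unusedSectionVars false
set_option linter.style.haveILetI false

noncomputable section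

namespace Fermat.Agent.S15

open ModularCurve AlgebraicCurve
open Fermat.Agent.S24 Fermat.Agent.ES.M

variable (N : ℕ) [NeZero N]

/-- The cusp `∞` of `F_N`. -/
def cuspInf : Place Kb (FF N) := (exists_isCuspInfty N).choose

theorem cuspInf_isCuspInfty : IsCuspInfty N (cuspInf N) := (exists_isCuspInfty N).choose_spec.1

theorem cuspInf_deg : (cuspInf N).deg = 1 := (exists_isCuspInfty N).choose_spec.2

variable {N} in
theorem cuspInf_ord {f : FF N} (hf : f ≠ 0) :
    (cuspInf N).ord f = (f : LaurentSeries Kb).order := cuspInf_isCuspInfty N f hf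

/-- The cusp `0 = w_N(∞)` of `F_N`. -/
def cuspZero : Place Kb (FF N) := frickeAut N • cuspInf N

variable {N} in
theorem cuspZero_ord (f : FF N) : (cuspZero N).ord f = (cuspInf N).ord (frickeAut N f) :=
  fr_ord_frickeAut (cuspInf N) f

theorem cuspZero_deg : (cuspZero N).deg = 1 := by
  rw [cuspZero, Place.deg_smul, cuspInf_deg]

theorem fricke_smul_cuspZero : frickeAut N • cuspZero N = cuspInf N := by
  apply Place.ext
  ext f
  rcases eq_or_ne f 0 with rfl | hf
  · simp
  · have h1 : (frickeAut N • cuspZero N).ord f = (cuspInf N).ord f := by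
      rw [fr_ord_frickeAut, cuspZero_ord, frickeAut_frickeAut]
    rw [← PlaceAux.ord_nonneg_iff _ hf, ← PlaceAux.ord_nonneg_iff _ hf, h1]

theorem cuspInf_ord_jF : (cuspInf N).ord (jF N) = -1 := (cuspInf_isCuspInfty N).ord_jF

theorem cuspInf_ord_jdF (d : ℕ) (hd : d ∣ N) : (cuspInf N).ord (jdF N d hd) = -(d : ℤ) := by
  rw [cuspInf_ord (fr_jdF_ne_zero d hd), fr_order_jdF]

theorem cuspZero_ord_jF : (cuspZero N).ord (jF N) = -(N : ℤ) := by
  rw [cuspZero_ord, frickeAut_jF, cuspInf_ord_jdF]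

theorem cuspZero_ord_jdF (d : ℕ) (hd : d ∣ N) :
    (cuspZero N).ord (jdF N d hd) = -((N / d : ℕ) : ℤ) := by
  rw [cuspZero_ord, frickeAut_jdF, cuspInf_ord_jdF]

theorem cuspZero_ne_cuspInf (hN : 2 ≤ N) : cuspZero N ≠ cuspInf N := by
  intro h
  have h1 := cuspZero_ord_jF N
  rw [h, cuspInf_ord_jF] at h1
  omega

/-- The cuspidal divisor `(0) − (∞)`. -/
def cuspDiv : Divisor.degZero (K := Kb) (F := FF N) :=
  ⟨Finsupp.single (cuspZero N) 1 - Finsupp.single (cuspInf N) 1, by
    rw [Divisor.mem_degZero, map_sub, Divisor.degree_single, Divisor.degree_single,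
      cuspZero_deg, cuspInf_deg]
    simp⟩

theorem coe_cuspDiv : ((cuspDiv N : Divisor.degZero (K := Kb) (F := FF N)) : Divisor Kb (FF N)) =
    Finsupp.single (cuspZero N) 1 - Finsupp.single (cuspInf N) 1 := rfl

/-- The cuspidal class `c = [(0) − (∞)] ∈ J₀(N)`. -/
def cuspClass : JZero N := Pic0.mk (cuspDiv N)

/-! ### The Galois action -/

/-- The coefficientwise action of `σ ∈ G_ℚ` on `F_N`. -/
abbrev galAct (σ : Kb ≃ₐ[ℚ] Kb) : SemilinearAut Kb (FF N) :=
  arithmeticGalois (modularFunctionFieldFull N) σ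

variable {N}

theorem coe_galAct_smul (σ : Kb ≃ₐ[ℚ] Kb) (f : FF N) :
    ((galAct N σ • f : FF N) : LaurentSeries Kb) =
      coeffMap (σ : Kb →+* Kb) (f : LaurentSeries Kb) := rfl

theorem galAct_algebraMap (σ : Kb ≃ₐ[ℚ] Kb) (a : Kb) :
    galAct N σ • algebraMap Kb (FF N) a = algebraMap Kb (FF N) (σ a) :=
  arithmeticRingAut_algebraMap (modularFunctionFieldFull N) σ a

theorem galAct_jdF (σ : Kb ≃ₐ[ℚ] Kb) (d : ℕ) (hd : d ∣ N) :
    galAct N σ • jdF N d hd = jdF N d hd := by
  have hd0 : d ≠ 0 := fun h => NeZero.ne N (by subst h; simpa using hd)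
  haveI : NeZero d := ⟨hd0⟩
  apply Subtype.ext
  rw [coe_galAct_smul, jdF_coe, coeffEmb, coeffMap_coeffMap]
  exact coeffMap_congr (RingHom.ext fun r => by simp) _

/-- The Fricke involution commutes with the Galois action. -/
theorem fricke_galAct (σ : Kb ≃ₐ[ℚ] Kb) (f : FF N) :
    frickeAut N (galAct N σ • f) = galAct N σ • frickeAut N f := by
  induction f using FF_induction with
  | gen d hd => rw [galAct_jdF, frickeAut_jdF, galAct_jdF]
  | const a => rw [galAct_algebraMap, AlgEquiv.commutes, AlgEquiv.commutes, galAct_algebraMap]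
  | add x y hx hy => rw [smul_add, map_add, map_add, smul_add, hx, hy]
  | mul x y hx hy => rw [smul_mul', map_mul, map_mul, smul_mul', hx, hy]
  | inv x hx => rw [smul_inv'', map_inv₀, map_inv₀, smul_inv'', hx]

theorem galAct_smul_ne_zero (σ : Kb ≃ₐ[ℚ] Kb) {f : FF N} (hf : f ≠ 0) : galAct N σ • f ≠ 0 := by
  intro h
  apply hf
  have := congrArg (fun x => (galAct N σ)⁻¹ • x) h
  simpa using this

theorem order_galAct_smul (σ : Kb ≃ₐ[ℚ] Kb) (f : FF N) :
    ((galAct N σ • f : FF N) : LaurentSeries Kb).order = (f : LaurentSeries Kb).order := by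
  rw [coe_galAct_smul, Fermat.Agent.ES.DescentInj.order_coeffMap]

/-- A place is determined by its order function. -/
theorem place_ext_ord {P Q : Place Kb (FF N)} (h : ∀ f : FF N, f ≠ 0 → P.ord f = Q.ord f) :
    P = Q := by
  apply Place.ext
  ext f
  rcases eq_or_ne f 0 with rfl | hf
  · simp
  · rw [← PlaceAux.ord_nonneg_iff P hf, ← PlaceAux.ord_nonneg_iff Q hf, h f hf]

theorem galAct_ord_smul (σ : Kb ≃ₐ[ℚ] Kb) (P : Place Kb (FF N)) (f : FF N) :
    (galAct N σ • P).ord f = P.ord ((galAct N σ)⁻¹ • f) := by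
  have h := SemilinearAut.ord_smul (galAct N σ) P ((galAct N σ)⁻¹ • f)
  rwa [smul_inv_smul] at h

theorem galAct_inv (σ : Kb ≃ₐ[ℚ] Kb) : (galAct N σ)⁻¹ = galAct N σ⁻¹ :=
  (map_inv (arithmeticGalois (modularFunctionFieldFull N)) σ).symm

/-- `G_ℚ` fixes the cusp `∞`. -/
theorem galAct_smul_cuspInf (σ : Kb ≃ₐ[ℚ] Kb) : galAct N σ • cuspInf N = cuspInf N := by
  apply place_ext_ord
  intro f hf
  rw [galAct_ord_smul, galAct_inv, cuspInf_ord (galAct_smul_ne_zero _ hf), cuspInf_ord hf,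
    order_galAct_smul]

/-- `G_ℚ` fixes the cusp `0`. -/
theorem galAct_smul_cuspZero (σ : Kb ≃ₐ[ℚ] Kb) : galAct N σ • cuspZero N = cuspZero N := by
  apply place_ext_ord
  intro f hf
  have hwf : frickeAut N f ≠ 0 := (map_ne_zero (frickeAut N)).mpr hf
  rw [galAct_ord_smul, galAct_inv, cuspZero_ord, cuspZero_ord, fricke_galAct,
    cuspInf_ord (galAct_smul_ne_zero _ hwf), cuspInf_ord hwf, order_galAct_smul]

/-- The cuspidal class is `G_ℚ`-invariant. -/
theorem galois_smul_cuspClass (σ : Kb ≃ₐ[ℚ] Kb) : σ • cuspClass N = cuspClass N := by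
  rw [galois_smul_pic0_def, cuspClass, SemilinearAut.pic0_smul_mk]
  congr 1
  apply Subtype.ext
  rw [SemilinearAut.coe_degZeroSMulHom, coe_cuspDiv, smul_sub, SemilinearAut.smul_single,
    SemilinearAut.smul_single]
  change Finsupp.single (galAct N σ • cuspZero N) 1 - Finsupp.single (galAct N σ • cuspInf N) 1 = _
  rw [galAct_smul_cuspZero, galAct_smul_cuspInf]

end Fermat.Agent.S15
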