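import Fermat.Agent.S15.ModDefs
import Fermat.Agent.S15.Cusp
import Fermat.Agent.W1.PlanGeo4
import Fermat.Agent.ES.RC.FracField
import Fermat.Prelude.Def_EllipticCurve_ZeroComponentAt
import Fermat.Prelude.Def_FLTPrelim_Ramification

/-!
# S15 / MOD — interface of the Fricke-product route (sub-captain helper51)

Design: `NOTES/S15-MOD.md`.  `(E, Q)`: `W` an integral Weierstrass model, `Q` a rational point of
prime order `N`.  The place `x` of `F_N` attached to `(E, ⟨Q⟩)` is the place "at `τ₀`" where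
`(ℂ/(ℤτ₀+ℤ), 1/N) ≅ (E, Q)`; it is `G_ℚ`-fixed because the Fricke products
`Π_t = ∏_{k=1}^{N-1} (t - ξ°(k•Q))`, `t ∈ ℤ`, are rational functions with rational values at `x`
which separate the `N + 1` places over `j = j(E)`; its reduction at a prime `ℓ ≠ N` of
multiplicative reduction is read off from `Π₀(x) = ∏ ξ°(k•Q)`: a unit iff `Q ∈ E⁰`.

| piece | statement | file | owner |
|---|---|---|---|
| MOD-XI | `StmtModXi` | `S15/ModXi.lean` | helper13 |
| MOD-ADD | `StmtModAdd` | `S15/ModAdd*.lean` | helper51 |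
| MOD-UNIF | `StmtModAdd → StmtModUnif` | `S15/ModUnif.lean` | OPEN |
| MOD-TATE | `StmtModTate` | `S15/ModTate*.lean` | OPEN |
| MOD-FRICKE | `StmtModTate → StmtModFricke` | `S15/ModFricke*.lean` | OPEN |
| MOD-PLACE | `StmtModPlace` | `S15/ModPlace*.lean` | helper8 |
| MOD-RED | `StmtModRed` | `S15/ModRed.lean` | OPEN |
| MOD-ASM | `StmtModMain` from all of them | `S15/ModMain.lean` | helper51 |
-/

set_option autoImplicit false
set_option linter.unusedSectionVars false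
set_option synthInstance.maxHeartbeats 400000

noncomputable section

namespace Fermat.Agent.S15

open UpperHalfPlane AlgebraicCurve ModularCurve PeriodPair
open Fermat.Agent.S24 Fermat.Agent.S28 Fermat.Agent.W1 Fermat.Agent.ES.M
open scoped MatrixGroups WeierstrassCurve.Affine

/-- `ℚ̄` -/
local notation "Qb" => AlgebraicClosure ℚ

/-! ## MOD-XI : the `E`-side -/

/-- **MOD-XI.** At a prime `ℓ` of multiplicative reduction of the integral model `W`, a nonzero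
torsion point `P` of order prime to `ℓ` has integral coordinates, `ξ°(P)` is integral, and `P`
lies in the identity component iff `ξ°(P)` is a unit. -/
def StmtModXi : Prop :=
  ∀ (W : WeierstrassCurve ℤ) (ℓ : ℕ), ℓ.Prime → (ℓ : ℤ) ∣ W.Δ → ¬ (ℓ : ℤ) ∣ W.c₄ →
    ∀ A : ValuationSubring Qb, A.LiesOverPrime ℓ →
      ∀ (P : ((W.map (Int.castRingHom ℚ))⁄Qb).Point) (n : ℕ), ¬ ℓ ∣ n → n • P = 0 → P ≠ 0 →
        ∃ (x y : Qb) (h : ((W.map (Int.castRingHom ℚ))⁄Qb).toAffine.Nonsingular x y),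
          P = .some x y h ∧ x ∈ A ∧ modXi ((W.map (Int.castRingHom ℚ))⁄Qb) x ∈ A ∧
            (W.InZeroComponentAt A P ↔
              modXi ((W.map (Int.castRingHom ℚ))⁄Qb) x ∉ A.nonunits)

/-! ## MOD-ADD, MOD-UNIF : uniformisation -/

/-- **MOD-ADD.** `z ↦ (℘ z, ℘' z / 2)` is a group isomorphism `ℂ / Λ ≅ E_Λ(ℂ)`. -/
def StmtModAdd : Prop :=
  ∀ L : PeriodPair, L.g₂ ^ 3 - 27 * L.g₃ ^ 2 ≠ 0 →
    ∃ θ : ℂ →+ (modCurve L).toAffine.Point,
      (∀ z, θ z = 0 ↔ z ∈ L.lattice) ∧ Function.Surjective θ ∧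
        ∀ z, z ∉ L.lattice →
          ∃ h : (modCurve L).toAffine.Nonsingular (℘[L] z) (℘'[L] z / 2),
            θ z = .some (℘[L] z) (℘'[L] z / 2) h

/-- **MOD-UNIF.** Every complex Weierstrass curve with `c₄ c₆ Δ ≠ 0` and a point `Q` of exact
order `N` is uniformised by some `τ` in such a way that `Q` corresponds to `1 / N`; the
uniformisation respects `ξ°`. -/
def StmtModUnif : Prop :=
  ∀ W : WeierstrassCurve ℂ, W.Δ ≠ 0 → W.c₄ ≠ 0 → W.c₆ ≠ 0 →
    ∀ N : ℕ, 2 ≤ N → ∀ Q : W.toAffine.Point, addOrderOf Q = N →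
      ∃ (τ : ℍ) (θ : ℂ →+ W.toAffine.Point),
        Jfun τ * W.Δ = W.c₄ ^ 3 ∧ (modLat τ).g₃ ≠ 0 ∧
          (∀ z, θ z = 0 ↔ z ∈ (modLat τ).lattice) ∧ Function.Surjective θ ∧
            θ ((N : ℂ)⁻¹) = Q ∧
              ∀ z, z ∉ (modLat τ).lattice →
                ∃ (x y : ℂ) (h : W.toAffine.Nonsingular x y),
                  θ z = .some x y h ∧ modXi W x = modXiAn τ z

/-! ## MOD-TATE : the `q`-expansion of `℘` -/

/-- the general term of Tate's series -/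
def modTateTerm (q u : ℂ) (n : ℕ) : ℂ :=
  q ^ (n + 1) * u / (1 - q ^ (n + 1) * u) ^ 2 + q ^ (n + 1) * u⁻¹ / (1 - q ^ (n + 1) * u⁻¹) ^ 2
    - 2 * q ^ (n + 1) / (1 - q ^ (n + 1)) ^ 2

/-- **MOD-TATE.** For `|Im z| < Im τ`, `z ∉ ℤτ + ℤ`, with `q = e^{2πiτ}`, `u = e^{2πiz}`:
`℘(z) = (2πi)² (1/12 + u/(1-u)² + ∑_{n ≥ 1} (qⁿu/(1-qⁿu)² + qⁿu⁻¹/(1-qⁿu⁻¹)² - 2qⁿ/(1-qⁿ)²))`. -/
def StmtModTate : Prop :=
  ∀ (τ : ℍ) (z : ℂ), z ∉ (modLat τ).lattice → |z.im| < τ.im →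
    Summable (modTateTerm (Complex.exp (2 * Real.pi * Complex.I * τ))
      (Complex.exp (2 * Real.pi * Complex.I * z))) ∧
    ℘[modLat τ] z = (2 * Real.pi * Complex.I) ^ 2 *
      (1 / 12 + Complex.exp (2 * Real.pi * Complex.I * z) /
          (1 - Complex.exp (2 * Real.pi * Complex.I * z)) ^ 2 +
        ∑' n : ℕ, modTateTerm (Complex.exp (2 * Real.pi * Complex.I * τ))
          (Complex.exp (2 * Real.pi * Complex.I * z)) n)

/-! ## MOD-FRICKE : the Fricke products as elements of `F_N` -/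

/-- `f ∈ F_N` is, analytically, the function `φ` on the set where `g₃ ≠ 0`: `f = a / b` with
`a, b` holomorphic modular functions of level `N`, `b` without zeros where `g₃ ≠ 0`. -/
def IsAnalyticOn (N : ℕ) [NeZero N] (f : FF N) (φ : ℍ → ℂ) : Prop :=
  ∃ a b : modFunAlg N,
    ModularCurve.coeffMap embC (f : LaurentSeries Kb) * laurentOf (b : ℍ → ℂ)
      = laurentOf (a : ℍ → ℂ) ∧
    ∀ τ : ℍ, (modLat τ).g₃ ≠ 0 → (b : ℍ → ℂ) τ ≠ 0 ∧ (a : ℍ → ℂ) τ = φ τ * (b : ℍ → ℂ) τ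

/-- `f` is the Fricke product `Π_t` of level `N`. -/
def IsFrickeProd (N : ℕ) [NeZero N] (t : ℤ) (f : FF N) : Prop :=
  IsAnalyticOn N f (modPiAn N (t : ℂ))

/-- **MOD-FRICKE (a).** The Fricke products exist in `F_N` and are rational. -/
def StmtModFricke : Prop :=
  ∀ (N : ℕ) [NeZero N], N.Prime → ∀ t : ℤ, ∃ f : FF N, IsFrickeProd N t f ∧
    ∀ σ : Kb ≃ₐ[ℚ] Kb, galAct N σ • f = f

/-- **MOD-FRICKE (b).** `Π₀` has a `q`-expansion in `ℤ[1/N][[q]]` with constant term `± N⁻²`, its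
poles lie over `j = 1728`, and it vanishes at the cusp `0`. -/
def StmtModFricke0 : Prop :=
  ∀ (N : ℕ) [NeZero N], N.Prime → ∀ f : FF N, IsFrickeProd N 0 f →
    (∃ Y : PowerSeries ℚ, (f : LaurentSeries Kb) = coeffEmb Kb (HahnSeries.ofPowerSeries ℤ ℚ Y) ∧
      (∀ n, ∃ (k : ℕ) (m : ℤ), PowerSeries.coeff n Y * (N : ℚ) ^ k = m) ∧
      (PowerSeries.coeff 0 Y * (N : ℚ) ^ 2) ^ 2 = 1) ∧
    (∀ P : Place Kb (FF N), P.ord f < 0 → HasValueAt P (jF N) 1728) ∧
    0 < (cuspZero N).ord f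

/-! ## MOD-PLACE : the place at a point of `ℍ` -/

/-- `x` is the place of `F_N` at the point `τ`: the value at `x` of `f = a / b` (`a, b` holomorphic
modular functions, `b τ ≠ 0`) is `a τ / b τ`. -/
def IsPlaceAt (N : ℕ) [NeZero N] (τ : ℍ) (x : Place Kb (FF N)) : Prop :=
  ∀ (f : FF N) (a b : modFunAlg N),
    ModularCurve.coeffMap embC (f : LaurentSeries Kb) * laurentOf (b : ℍ → ℂ)
      = laurentOf (a : ℍ → ℂ) →
    (b : ℍ → ℂ) τ ≠ 0 → ∀ c : Kb, embC c * (b : ℍ → ℂ) τ = (a : ℍ → ℂ) τ → HasValueAt x f c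

/-- **MOD-PLACE.** For `τ` with algebraic `j`-invariant `j₀`: the place at `τ` exists and is
unique, and every place over `j = j₀` is the place at some `γ • τ`. -/
def StmtModPlace : Prop :=
  ∀ (N : ℕ) [NeZero N] (τ : ℍ) (j₀ : Kb), Jfun τ = embC j₀ →
    (∃ x : Place Kb (FF N), IsPlaceAt N τ x) ∧
    (∀ x x' : Place Kb (FF N), IsPlaceAt N τ x → IsPlaceAt N τ x' → x = x') ∧
    ∀ y : Place Kb (FF N), HasValueAt y (jF N) j₀ → ∃ γ : SL(2, ℤ), IsPlaceAt N (γ • τ) y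

/-! ## MOD-RED : the reduction criterion -/

/-- **MOD-RED.** Abstract reduction criterion.  `R` a reduction package of `F_N` at `A` with good
function `j` and without cancellation (`1 / (j - a)` is good for `a ∈ A`); `f ∈ R.O` a function
with poles only over `j = 1728`, a unit value at the cusp `∞` and a zero at the cusp `0`.  A place
`x` with `j(x) ∉ A` reduces to `r(∞)` if `f(x)` is a unit and to `r(0)` if not. -/
def StmtModRed : Prop :=
  ∀ (N : ℕ) [NeZero N], N.Prime → ∀ (A : ValuationSubring Kb) (g : ℕ)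
    (R : PRData Kb (FF N) (IsLocalRing.ResidueField A)
      ↥(modularFunctionFieldFullC (IsLocalRing.ResidueField A) N) A),
    ModPR N A g R (jF N) →
    (∀ a : A, R.GoodFn ((jF N - algebraMap Kb (FF N) (a : Kb))⁻¹)) →
    (∀ P : Place Kb (FF N), P.ord (jF N) < 0 → P = cuspInf N ∨ P = cuspZero N) →
    ∀ f : FF N, f ∈ R.O →
      (∀ P : Place Kb (FF N), P.ord f < 0 → HasValueAt P (jF N) 1728) →
      (∃ c₀ : Kb, HasValueAt (cuspInf N) f c₀ ∧ c₀ ∈ A ∧ c₀ ∉ A.nonunits) →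
      0 < (cuspZero N).ord f →
      ∀ (x : Place Kb (FF N)) (j₀ c : Kb), HasValueAt x (jF N) j₀ → j₀ ∉ A → HasValueAt x f c →
        c ∈ A ∧ (c ∉ A.nonunits → R.r x = R.r (cuspInf N)) ∧
          (c ∈ A.nonunits → R.r x = R.r (cuspZero N))

/-! ## MOD-ASM : the output -/

/-- **MOD, level `N`.** The place of `F_N` attached to `(E, ⟨Q⟩)`: it is `G_ℚ`-fixed, and at a
prime `ℓ ≠ N` of multiplicative reduction it reduces to the cusp `∞` if `Q ∈ E⁰` and to the cusp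
`0` if `Q ∉ E⁰`, for every reduction package `R` of `F_N` at `A ∣ ℓ` whose valuation ring
contains the functions with `A`-integral `q`-expansion. -/
def StmtModMain : Prop :=
  ∀ (N : ℕ) [NeZero N], N.Prime → 5 ≤ N → ∀ (W : WeierstrassCurve ℤ), W.Δ ≠ 0 →
    (∃ ℓ : ℕ, ℓ.Prime ∧ (ℓ : ℤ) ∣ W.Δ ∧ ¬ (ℓ : ℤ) ∣ W.c₄) →
    ∀ Q : ((W.map (Int.castRingHom ℚ))⁄Qb).Point,
      (∀ σ : Qb ≃ₐ[ℚ] Qb, σ • Q = Q) → addOrderOf Q = N →
      ∃ x : Place Kb (FF N), (∀ σ : Kb ≃ₐ[ℚ] Kb, galAct N σ • x = x) ∧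
        ∀ ℓ : ℕ, ℓ.Prime → ℓ ≠ N → (ℓ : ℤ) ∣ W.Δ → ¬ (ℓ : ℤ) ∣ W.c₄ →
          ∀ A : ValuationSubring Kb, A.LiesOverPrime ℓ → ∀ (g : ℕ)
            (R : PRData Kb (FF N) (IsLocalRing.ResidueField A)
              ↥(modularFunctionFieldFullC (IsLocalRing.ResidueField A) N) A),
            ModPR N A g R (jF N) →
            (∀ a : A, R.GoodFn ((jF N - algebraMap Kb (FF N) (a : Kb))⁻¹)) →
            (∀ f : FF N, GaussInt N A f → f ∈ R.O) →
              (W.InZeroComponentAt A Q → R.r x = R.r (cuspInf N)) ∧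
                (¬ W.InZeroComponentAt A Q → R.r x = R.r (cuspZero N))

end Fermat.Agent.S15
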