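/-
Item 15 (Mazur chain), piece `MOD-UNIF`, part 2 (helper13): algebra.

* `modXi_variableChange` : `ξ°` is invariant under changes of variables;
* `modunif_exists_vc` : a complex Weierstrass curve with `c₄ c₆ ≠ 0` whose `j`-invariant is the
  `j`-invariant of `(g₂, g₃)` is, after a change of variables, the curve
  `y² = x³ - (g₂/4) x - g₃/4` of a homothetic pair `(v⁻⁴ g₂, v⁻⁶ g₃)`.
-/
import Fermat.Agent.S15.ModDefs
import Fermat.Agent.EC.VarChange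

set_option autoImplicit false

namespace Fermat.Agent.S15

open WeierstrassCurve Fermat.Agent.EC

section Inv

variable {R : Type*} [Field R] (W : WeierstrassCurve R) (C : VariableChange R)

/-- **`ξ°` is invariant under changes of variables.** -/
theorem modXi_variableChange (hc₆ : W.c₆ ≠ 0) (x : R) :
    modXi (C • W) x = modXi W (vcX C x) := by
  have hu : (C.u : R) ≠ 0 := C.u.ne_zero
  unfold modXi vcX
  rw [variableChange_c₄, variableChange_c₆, variableChange_b₂, variableChange_b₄,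
    variableChange_b₆]
  simp only [Units.val_inv_eq_inv_val]
  have hc₄ : W.c₄ = W.b₂ ^ 2 - 24 * W.b₄ := rfl
  rw [hc₄]
  field_simp
  ring

/-- `ξ°` on a short Weierstrass curve `y² = x³ - (g₂/4) x - g₃/4` -/
theorem modXi_short (g₂ g₃ : R) (h2 : (2 : R) ≠ 0) (h3 : (3 : R) ≠ 0) (hg₃ : g₃ ≠ 0) (x : R) :
    modXi (⟨0, 0, 0, -g₂ / 4, -g₃ / 4⟩ : WeierstrassCurve R) x = g₂ / (18 * g₃) * x + 1 / 12 := by
  unfold modXi
  simp only [WeierstrassCurve.c₄, WeierstrassCurve.c₆, WeierstrassCurve.b₂, WeierstrassCurve.b₄,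
    WeierstrassCurve.b₆]
  have h4 : (4 : R) ≠ 0 := by
    have : (4 : R) = 2 * 2 := by norm_num
    rw [this]; exact mul_ne_zero h2 h2
  have h12 : (12 : R) ≠ 0 := by
    have : (12 : R) = 4 * 3 := by norm_num
    rw [this]; exact mul_ne_zero h4 h3
  have h18 : (18 : R) ≠ 0 := by
    have : (18 : R) = 2 * (3 * 3) := by norm_num
    rw [this]; exact mul_ne_zero h2 (mul_ne_zero h3 h3)
  have h216 : (216 : R) ≠ 0 := by
    have : (216 : R) = 12 * 18 := by norm_num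
    rw [this]; exact mul_ne_zero h12 h18
  field_simp
  ring

/-- the change of variables to the short Weierstrass form with scaling `v = u⁻¹` -/
theorem modunif_vc_short (h2 : (2 : R) ≠ 0) (h3 : (3 : R) ≠ 0) (v : R) (hv : v ≠ 0) (g₂ g₃ : R)
    (h4 : v ^ 4 * W.c₄ = 12 * g₂) (h6 : v ^ 6 * W.c₆ = 216 * g₃) :
    ∃ C : VariableChange R, C • W = (⟨0, 0, 0, -g₂ / 4, -g₃ / 4⟩ : WeierstrassCurve R) ∧
      (C.u : R) = v⁻¹ := by
  have h4' : (4 : R) ≠ 0 := by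
    have : (4 : R) = 2 * 2 := by norm_num
    rw [this]; exact mul_ne_zero h2 h2
  have h12 : (12 : R) ≠ 0 := by
    have : (12 : R) = 4 * 3 := by norm_num
    rw [this]; exact mul_ne_zero h4' h3
  have h216 : (216 : R) ≠ 0 := by
    have : (216 : R) = 12 * (2 * (3 * 3)) := by norm_num
    rw [this]; exact mul_ne_zero h12 (mul_ne_zero h2 (mul_ne_zero h3 h3))
  have hg₂ : g₂ = v ^ 4 * W.c₄ / 12 := by
    field_simp
    linear_combination -h4
  have hg₃ : g₃ = v ^ 6 * W.c₆ / 216 := by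
    field_simp
    linear_combination -h6
  refine ⟨⟨Units.mk0 v⁻¹ (inv_ne_zero hv), -W.b₂ / 12, -W.a₁ / 2,
    -(W.a₃ + (-W.b₂ / 12) * W.a₁) / 2⟩, ?_, rfl⟩
  rw [hg₂, hg₃]
  ext
  · rw [variableChange_a₁]
    simp only [Units.val_inv_eq_inv_val, Units.val_mk0, inv_inv]
    field_simp
    ring
  · rw [variableChange_a₂]
    simp only [Units.val_inv_eq_inv_val, Units.val_mk0, inv_inv, WeierstrassCurve.b₂]
    field_simp
    ring
  · rw [variableChange_a₃]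
    simp only [Units.val_inv_eq_inv_val, Units.val_mk0, inv_inv, WeierstrassCurve.b₂]
    field_simp
    ring
  · rw [variableChange_a₄]
    simp only [Units.val_inv_eq_inv_val, Units.val_mk0, inv_inv, WeierstrassCurve.c₄,
      WeierstrassCurve.b₂, WeierstrassCurve.b₄]
    field_simp
    ring
  · rw [variableChange_a₆]
    simp only [Units.val_inv_eq_inv_val, Units.val_mk0, inv_inv, WeierstrassCurve.c₆,
      WeierstrassCurve.b₂, WeierstrassCurve.b₄, WeierstrassCurve.b₆]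
    field_simp
    ring

end Inv

/-- **Scaling.**  A complex curve with `c₄ c₆ Δ ≠ 0` and a pair `(g₂, g₃)` with the same
`j`-invariant `J`: there is `v ≠ 0` with `v⁴ c₄ = 12 g₂`, `v⁶ c₆ = 216 g₃`. -/
theorem modunif_exists_scale (W : WeierstrassCurve ℂ) (hc₄ : W.c₄ ≠ 0)
    (hc₆ : W.c₆ ≠ 0) (g₂ g₃ J : ℂ) (hD : g₂ ^ 3 - 27 * g₃ ^ 2 ≠ 0)
    (hJ : J * (g₂ ^ 3 - 27 * g₃ ^ 2) = 1728 * g₂ ^ 3) (hJW : J * W.Δ = W.c₄ ^ 3) :
    g₂ ≠ 0 ∧ g₃ ≠ 0 ∧ ∃ v : ℂ, v ≠ 0 ∧ v ^ 4 * W.c₄ = 12 * g₂ ∧ v ^ 6 * W.c₆ = 216 * g₃ := by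
  have hrel := W.c_relation
  have hJ0 : J ≠ 0 := by
    rintro rfl
    rw [zero_mul] at hJW
    exact pow_ne_zero 3 hc₄ hJW.symm
  have hg₂ : g₂ ≠ 0 := by
    rintro rfl
    have : J * (0 ^ 3 - 27 * g₃ ^ 2) = 0 := by rw [hJ]; ring
    rcases mul_eq_zero.mp this with h | h
    · exact hJ0 h
    · exact hD h
  have hJ1728 : J ≠ 1728 := by
    rintro rfl
    apply hc₆
    have : W.c₆ ^ 2 = 0 := by linear_combination hrel - hJW
    exact pow_eq_zero_iff (two_ne_zero) |>.mp this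
  have hg₃ : g₃ ≠ 0 := by
    rintro rfl
    apply hJ1728
    have h1 : (J - 1728) * g₂ ^ 3 = 0 := by linear_combination hJ
    rcases mul_eq_zero.mp h1 with h | h
    · linear_combination h
    · exact absurd h (pow_ne_zero 3 hg₂)
  refine ⟨hg₂, hg₃, ?_⟩
  -- `A = 12 g₂ / c₄`, `B = 216 g₃ / c₆`, `A³ = B²`
  have hAB : (12 * g₂) ^ 3 * W.c₆ ^ 2 = (216 * g₃) ^ 2 * W.c₄ ^ 3 := by
    linear_combination (1728 * g₂ ^ 3) * hrel + (1728 * W.Δ) * hJ -
      (1728 * (g₂ ^ 3 - 27 * g₃ ^ 2)) * hJW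
  obtain ⟨v, hv⟩ := IsAlgClosed.exists_pow_nat_eq ((216 * g₃ / W.c₆) / (12 * g₂ / W.c₄))
    (n := 2) (by norm_num)
  have hA0 : 12 * g₂ / W.c₄ ≠ 0 := div_ne_zero (mul_ne_zero (by norm_num) hg₂) hc₄
  have hB0 : 216 * g₃ / W.c₆ ≠ 0 := div_ne_zero (mul_ne_zero (by norm_num) hg₃) hc₆
  have hv0 : v ≠ 0 := by
    rintro rfl
    rw [zero_pow two_ne_zero] at hv
    exact div_ne_zero hB0 hA0 hv.symm
  have hAB' : (12 * g₂ / W.c₄) ^ 3 = (216 * g₃ / W.c₆) ^ 2 := by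
    rw [div_pow, div_pow, div_eq_div_iff (pow_ne_zero 3 hc₄) (pow_ne_zero 2 hc₆)]
    exact hAB
  have hv2 : v ^ 2 * (12 * g₂ / W.c₄) = 216 * g₃ / W.c₆ := by
    rw [hv, div_mul_cancel₀ _ hA0]
  have hv4 : v ^ 4 = 12 * g₂ / W.c₄ := by
    apply mul_right_cancel₀ (pow_ne_zero 2 hA0)
    calc v ^ 4 * (12 * g₂ / W.c₄) ^ 2 = (v ^ 2 * (12 * g₂ / W.c₄)) ^ 2 := by ring
      _ = (216 * g₃ / W.c₆) ^ 2 := by rw [hv2]
      _ = (12 * g₂ / W.c₄) ^ 3 := hAB'.symm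
      _ = 12 * g₂ / W.c₄ * (12 * g₂ / W.c₄) ^ 2 := by ring
  have hv6 : v ^ 6 = 216 * g₃ / W.c₆ := by
    calc v ^ 6 = v ^ 2 * v ^ 4 := by ring
      _ = v ^ 2 * (12 * g₂ / W.c₄) := by rw [hv4]
      _ = 216 * g₃ / W.c₆ := hv2
  refine ⟨v, hv0, ?_, ?_⟩
  · rw [hv4, div_mul_cancel₀ _ hc₄]
  · rw [hv6, div_mul_cancel₀ _ hc₆]

end Fermat.Agent.S15
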