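/-
Item 15 (Mazur chain), piece `MOD-UNIF`, part 1 (helper13): arithmetic.

A vector `(a, b)` with `gcd(a, b, N) = 1` is congruent modulo `N` to a primitive vector, which is the
bottom row of a matrix of `SL(2, ℤ)`.
-/
import Mathlib

set_option autoImplicit false

namespace Fermat.Agent.S15

/-- If `gcd(a, b, N) = 1` and `b ≠ 0` there is `t` with `gcd(a + t N, b) = 1`. -/
theorem modunif_exists_coprime_add {a b N : ℤ} (hb : b ≠ 0)
    (h : ∀ q : ℤ, Prime q → q ∣ a → q ∣ b → ¬ q ∣ N) :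
    ∃ t : ℤ, IsCoprime (a + t * N) b := by
  classical
  -- `t` = the product of the primes dividing `b` and not `a`
  set S : Finset ℕ := b.natAbs.primeFactors.filter (fun q => ¬ (q : ℤ) ∣ a) with hS
  refine ⟨∏ q ∈ S, (q : ℤ), ?_⟩
  rw [Int.isCoprime_iff_gcd_eq_one]
  by_contra hg
  obtain ⟨q, hq, hqd⟩ := Nat.exists_prime_and_dvd hg
  have hq' : Prime (q : ℤ) := Nat.prime_iff_prime_int.mp hq
  have hqa : (q : ℤ) ∣ a + (∏ q ∈ S, (q : ℤ)) * N :=
    (Int.natCast_dvd_natCast.2 hqd).trans (Int.gcd_dvd_left _ _)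
  have hqb : (q : ℤ) ∣ b := (Int.natCast_dvd_natCast.2 hqd).trans (Int.gcd_dvd_right _ _)
  have hqb' : q ∈ b.natAbs.primeFactors := by
    rw [Nat.mem_primeFactors]
    exact ⟨hq, Int.natCast_dvd.mp hqb, Int.natAbs_ne_zero.mpr hb⟩
  by_cases hqa0 : (q : ℤ) ∣ a
  · -- then `q ∤ N` and `q ∤ t`
    have hqN : ¬ (q : ℤ) ∣ N := h q hq' hqa0 hqb
    have hqt : (q : ℤ) ∣ (∏ q ∈ S, (q : ℤ)) * N := (dvd_add_right hqa0).mp hqa
    rcases hq'.dvd_or_dvd hqt with h1 | h1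
    · obtain ⟨r, hr, hqr⟩ := (Prime.dvd_finsetProd_iff hq' _).1 h1
      rw [hS, Finset.mem_filter, Nat.mem_primeFactors] at hr
      have hqr' : q ∣ r := Int.natCast_dvd_natCast.mp hqr
      have : q = r := (Nat.prime_dvd_prime_iff_eq hq hr.1.1).1 hqr'
      subst this
      exact hr.2 hqa0
    · exact hqN h1
  · -- then `q ∣ t`
    have hqS : q ∈ S := by
      rw [hS, Finset.mem_filter]
      exact ⟨hqb', hqa0⟩
    have hqt : (q : ℤ) ∣ (∏ q ∈ S, (q : ℤ)) * N :=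
      Dvd.dvd.mul_right (Finset.dvd_prod_of_mem _ hqS) _
    exact hqa0 ((dvd_add_left hqt).mp hqa)

/-- **Primitive lift.**  If no prime divides `a`, `b` and `N`, and `N ≠ 0`, then `(a, b)` is
congruent modulo `N` to a pair of coprime integers. -/
theorem modunif_exists_coprime {a b N : ℤ} (hN : N ≠ 0)
    (h : ∀ q : ℤ, Prime q → q ∣ a → q ∣ b → ¬ q ∣ N) :
    ∃ a' b' : ℤ, IsCoprime a' b' ∧ N ∣ a' - a ∧ N ∣ b' - b := by
  by_cases hb : b = 0
  · -- replace `b` by `N`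
    subst hb
    have h' : ∀ q : ℤ, Prime q → q ∣ a → q ∣ N → ¬ q ∣ N := fun q hq ha hqN =>
      h q hq ha (dvd_zero q)
    obtain ⟨t, ht⟩ := modunif_exists_coprime_add (a := a) (b := N) (N := N) hN h'
    exact ⟨a + t * N, N, ht, ⟨t, by ring⟩, ⟨1, by ring⟩⟩
  · obtain ⟨t, ht⟩ := modunif_exists_coprime_add hb h
    exact ⟨a + t * N, b, ht, ⟨t, by ring⟩, ⟨0, by ring⟩⟩

end Fermat.Agent.S15
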