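/-
Item 15 (Mazur chain), piece `MOD-UNIF`, part 4 (helper13): moving a point of exact order `N` of
`ℂ / (ℤτ₁ + ℤ)` to `1 / N` by an element of `SL(2, ℤ)`.
-/
import Fermat.Agent.S15.ModDefs
import Fermat.Agent.S15.ModUnifArith

set_option autoImplicit false

noncomputable section

namespace Fermat.Agent.S15

open Complex PeriodPair UpperHalfPlane
open scoped MatrixGroups

/-- membership in `ℤτ + ℤ` -/
theorem modunif_mem_modLat (τ : ℍ) (z : ℂ) :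
    z ∈ (modLat τ).lattice ↔ ∃ m n : ℤ, (m : ℂ) * τ + n = z := by
  rw [mem_lattice]
  simp only [modLat_ω₁, modLat_ω₂, mul_one]

/-- **The row.**  A point `Q` of exact order `N` of a group uniformised by `ℂ / (ℤτ₁ + ℤ)` is the
image of `(a τ₁ + b) / N` for a primitive vector `(a, b)`. -/
theorem modunif_exists_row (τ₁ : ℍ) {G : Type*} [AddCommGroup G] (θ₁ : ℂ →+ G)
    (hker : ∀ z, θ₁ z = 0 ↔ z ∈ (modLat τ₁).lattice) (hsurj : Function.Surjective θ₁)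
    (N : ℕ) (hN : 2 ≤ N) (Q : G) (hQ : addOrderOf Q = N) :
    ∃ a b : ℤ, IsCoprime a b ∧ θ₁ (((a : ℂ) * τ₁ + b) / N) = Q := by
  have hN0 : (N : ℂ) ≠ 0 := by
    have : N ≠ 0 := by omega
    exact_mod_cast this
  have hNz : (N : ℤ) ≠ 0 := by
    have : N ≠ 0 := by omega
    exact_mod_cast this
  obtain ⟨z, hz⟩ := hsurj Q
  have hNQ : θ₁ ((N : ℂ) * z) = 0 := by
    have h1 : (N : ℂ) * z = N • z := by rw [nsmul_eq_mul]
    rw [h1, map_nsmul, hz, ← hQ, addOrderOf_nsmul_eq_zero]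
  obtain ⟨a, b, hab⟩ := (modunif_mem_modLat τ₁ _).1 ((hker _).1 hNQ)
  -- no prime divides `a`, `b` and `N`
  have hprim : ∀ q : ℤ, Prime q → q ∣ a → q ∣ b → ¬ q ∣ (N : ℤ) := by
    rintro q hq ⟨a₁, rfl⟩ ⟨b₁, rfl⟩ ⟨N₁, hN₁⟩
    have hq0 : (q : ℂ) ≠ 0 := by exact_mod_cast hq.ne_zero
    have hN₁z : (N₁ : ℂ) * z = (a₁ : ℂ) * τ₁ + b₁ := by
      apply mul_left_cancel₀ hq0
      have h2 : ((N : ℤ) : ℂ) = (q : ℂ) * N₁ := by exact_mod_cast congrArg (Int.cast : ℤ → ℂ) hN₁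
      have h3 : ((N : ℤ) : ℂ) = (N : ℂ) := by norm_cast
      push_cast at hab
      linear_combination -hab + (h3 - h2) * z
    have h4 : θ₁ ((N₁ : ℂ) * z) = 0 := (hker _).2 ((modunif_mem_modLat τ₁ _).2 ⟨a₁, b₁, hN₁z.symm⟩)
    have h5 : N₁ • Q = 0 := by
      have h1 : (N₁ : ℂ) * z = N₁ • z := by rw [zsmul_eq_mul]
      rw [h1, map_zsmul, hz] at h4
      exact h4
    have h6 : (addOrderOf Q : ℤ) ∣ N₁ := (addOrderOf_dvd_iff_zsmul_eq_zero).2 h5
    rw [hQ] at h6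
    obtain ⟨m, hm⟩ := h6
    have hN₁0 : N₁ ≠ 0 := by
      rintro rfl
      rw [mul_zero] at hN₁
      exact hNz hN₁
    have h7 : q * m = 1 := by
      apply mul_left_cancel₀ hN₁0
      rw [hN₁] at hm
      linear_combination -hm
    exact hq.not_isUnit (IsUnit.of_mul_eq_one _ h7)
  obtain ⟨a', b', hcop, ⟨k₁, hk₁⟩, ⟨k₂, hk₂⟩⟩ := modunif_exists_coprime hNz hprim
  refine ⟨a', b', hcop, ?_⟩
  have hsplit : ((a' : ℂ) * τ₁ + b') / N = z + ((k₁ : ℂ) * τ₁ + k₂) := by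
    have h1 : (a' : ℂ) = a + N * k₁ := by
      have := congrArg (Int.cast : ℤ → ℂ) hk₁
      push_cast at this
      linear_combination this
    have h2 : (b' : ℂ) = b + N * k₂ := by
      have := congrArg (Int.cast : ℤ → ℂ) hk₂
      push_cast at this
      linear_combination this
    rw [div_eq_iff hN0, h1, h2]
    linear_combination hab
  rw [hsplit, map_add, hz,
    (hker _).2 ((modunif_mem_modLat τ₁ _).2 ⟨k₁, k₂, rfl⟩), add_zero]

/-- a primitive vector `(a, b)` gives `a τ₁ + b ≠ 0` -/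
theorem modunif_row_ne_zero (τ₁ : ℍ) {a b : ℤ} (h : IsCoprime a b) :
    (a : ℂ) * τ₁ + b ≠ 0 := by
  intro h0
  have him := congrArg Complex.im h0
  simp only [Complex.add_im, Complex.mul_im, Complex.intCast_re, Complex.intCast_im, zero_mul,
    add_zero, Complex.zero_im, UpperHalfPlane.coe_im] at him
  have ha : a = 0 := by
    rcases mul_eq_zero.mp him with h1 | h1
    · exact_mod_cast h1
    · exact absurd h1 τ₁.im_pos.ne'
  subst ha
  have hb : b = 0 := by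
    have : (b : ℂ) = 0 := by simpa using h0
    exact_mod_cast this
  subst hb
  obtain ⟨x, y, hxy⟩ := h
  simp at hxy

/-- **The change of basis.**  For a primitive vector `(a, b)` there is `τ ∈ SL(2, ℤ) τ₁` with
`ℤτ + ℤ = (a τ₁ + b)⁻¹ (ℤτ₁ + ℤ)`. -/
theorem modunif_exists_tau (τ₁ : ℍ) {a b : ℤ} (h : IsCoprime a b) :
    ∃ τ : ℍ, ∀ z, z ∈ (modLat τ).lattice ↔ ((a : ℂ) * τ₁ + b) * z ∈ (modLat τ₁).lattice := by
  have hω := modunif_row_ne_zero τ₁ h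
  obtain ⟨x, y, hxy⟩ := h
  have hdet : (!![y, -x; a, b] : Matrix (Fin 2) (Fin 2) ℤ).det = 1 := by
    rw [Matrix.det_fin_two_of]
    linear_combination hxy
  let γ : SL(2, ℤ) := ⟨!![y, -x; a, b], hdet⟩
  have hτ : ((γ • τ₁ : ℍ) : ℂ) * ((a : ℂ) * τ₁ + b) = (y : ℂ) * τ₁ - x := by
    rw [UpperHalfPlane.coe_specialLinearGroup_apply]
    have h1 : (((algebraMap ℤ ℝ (γ 1 0) : ℝ) : ℂ) * τ₁ + ((algebraMap ℤ ℝ (γ 1 1) : ℝ) : ℂ)) =
        (a : ℂ) * τ₁ + b := by simp [γ]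
    have h2 : (((algebraMap ℤ ℝ (γ 0 0) : ℝ) : ℂ) * τ₁ + ((algebraMap ℤ ℝ (γ 0 1) : ℝ) : ℂ)) =
        (y : ℂ) * τ₁ - x := by
      simp [γ]
      ring
    rw [h1, h2, div_mul_cancel₀ _ hω]
  have hxyC : (x : ℂ) * a + y * b = 1 := by exact_mod_cast congrArg (Int.cast : ℤ → ℂ) hxy
  refine ⟨γ • τ₁, fun z => ?_⟩
  rw [modunif_mem_modLat, modunif_mem_modLat]
  constructor
  · rintro ⟨m, n, rfl⟩
    refine ⟨m * y + n * a, -(m * x) + n * b, ?_⟩
    push_cast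
    linear_combination (-(m : ℂ)) * hτ
  · rintro ⟨m', n', hmn⟩
    refine ⟨m' * b - n' * a, m' * x + n' * y, ?_⟩
    apply mul_left_cancel₀ hω
    rw [← hmn]
    push_cast
    linear_combination ((m' : ℂ) * b - n' * a) * hτ + ((m' : ℂ) * τ₁ + n') * hxyC

end Fermat.Agent.S15
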