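/-
Item 15 (Mazur chain), piece `MOD-UNIF` (helper13): `StmtModAdd → StmtModUnif`.

Every complex Weierstrass curve `W` with `c₄ c₆ Δ ≠ 0` and a point `Q` of exact order `N` is
uniformised by some `τ ∈ ℍ`, `θ : ℂ / (ℤτ + ℤ) ≅ W(ℂ)`, with `θ(1/N) = Q` and
`ξ°_W(θ z) = ξ°(z; τ)`.

Proof: `J` is surjective (S24), so `J(τ₁) = j(W)`; the curve of `ℤτ₁ + ℤ` is `W` after a change of
variables (scaling by `v`, `v⁴ c₄ = 12 g₂`, `v⁶ c₆ = 216 g₃`); `ξ°` is invariant under changes of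
variables; `Q = θ₁((aτ₁ + b)/N)` with `(a, b)` primitive, and `(a, b)` is the bottom row of some
`γ ∈ SL(2, ℤ)`: take `τ = γ τ₁`, `θ(z) = θ₁((aτ₁ + b) z)`.
-/
import Fermat.Agent.S15.ModPlan
import Fermat.Agent.S15.ModUnifAlg
import Fermat.Agent.S15.ModUnifLat
import Fermat.Agent.S15.ModUnifRow
import Fermat.Agent.S24.LevelOneA

set_option autoImplicit false

noncomputable section

namespace Fermat.Agent.S15

open Complex PeriodPair UpperHalfPlane WeierstrassCurve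
open Fermat.Agent.S24 Fermat.Agent.EC

/-- **First uniformisation**: some `τ₁` with `J(τ₁) = j(W)` and `θ₁ : ℂ / (ℤτ₁ + ℤ) ≅ W(ℂ)`
respecting `ξ°`. -/
theorem modunif_first (hAdd : StmtModAdd) (W : WeierstrassCurve ℂ) (hΔ : W.Δ ≠ 0)
    (hc₄ : W.c₄ ≠ 0) (hc₆ : W.c₆ ≠ 0) :
    ∃ (τ₁ : ℍ) (θ₁ : ℂ →+ W.toAffine.Point),
      Jfun τ₁ * W.Δ = W.c₄ ^ 3 ∧ (modLat τ₁).g₃ ≠ 0 ∧
      (∀ z, θ₁ z = 0 ↔ z ∈ (modLat τ₁).lattice) ∧ Function.Surjective θ₁ ∧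
      ∀ z, z ∉ (modLat τ₁).lattice → ∃ (x y : ℂ) (h : W.toAffine.Nonsingular x y),
        θ₁ z = .some x y h ∧ modXi W x = modXiAn τ₁ z := by
  obtain ⟨τ₁, hτ₁⟩ := Jfun_surjective (W.c₄ ^ 3 / W.Δ)
  have hJW : Jfun τ₁ * W.Δ = W.c₄ ^ 3 := by rw [hτ₁, div_mul_cancel₀ _ hΔ]
  have hD := modunif_disc_ne_zero τ₁
  have hJ := modunif_Jfun_tau τ₁
  obtain ⟨-, hg₃, v, hv, h4, h6⟩ :=
    modunif_exists_scale W hc₄ hc₆ (modLat τ₁).g₂ (modLat τ₁).g₃ (Jfun τ₁) hD hJ hJW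
  obtain ⟨C, hC, -⟩ := modunif_vc_short W two_ne_zero three_ne_zero v hv
    (modLat τ₁).g₂ (modLat τ₁).g₃ h4 h6
  have hC' : modCurve (modLat τ₁) = C • W := hC.symm
  obtain ⟨θL, hkerL, hsurjL, hvalL⟩ := hAdd (modLat τ₁) hD
  let e₁ : (modCurve (modLat τ₁)).toAffine.Point ≃+ (C • W).toAffine.Point := vcCast hC'
  let e₂ : (C • W).toAffine.Point ≃+ W.toAffine.Point := vcEquiv W C
  let θ₁ : ℂ →+ W.toAffine.Point := e₂.toAddMonoidHom.comp (e₁.toAddMonoidHom.comp θL)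
  have hθ₁ : ∀ z, θ₁ z = e₂ (e₁ (θL z)) := fun z => rfl
  refine ⟨τ₁, θ₁, hJW, hg₃, ?_, ?_, ?_⟩
  · intro z
    rw [hθ₁, AddEquiv.map_eq_zero_iff, AddEquiv.map_eq_zero_iff]
    exact hkerL z
  · exact e₂.surjective.comp (e₁.surjective.comp hsurjL)
  · intro z hz
    obtain ⟨h, hθ⟩ := hvalL z hz
    have h1 : θ₁ z = vcFun W C (Affine.Point.some (℘[modLat τ₁] z) (℘'[modLat τ₁] z / 2)
        (hC' ▸ h)) := by
      rw [hθ₁, hθ]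
      show vcEquiv W C (vcCast hC' _) = _
      rw [vcCast_some, vcEquiv_apply]
    rw [vcFun_some] at h1
    refine ⟨_, _, _, h1, ?_⟩
    rw [← modXi_variableChange W C hc₆, hC, modXi_short _ _ two_ne_zero three_ne_zero hg₃]
    rfl

/-- **MOD-UNIF.** -/
theorem stmtModUnif_of_add (hAdd : StmtModAdd) : StmtModUnif := by
  intro W hΔ hc₄ hc₆ N hN Q hQ
  obtain ⟨τ₁, θ₁, hJW, hg₃, hker, hsurj, hval⟩ := modunif_first hAdd W hΔ hc₄ hc₆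
  obtain ⟨a, b, hcop, hab⟩ := modunif_exists_row τ₁ θ₁ hker hsurj N hN Q hQ
  obtain ⟨τ, hτ⟩ := modunif_exists_tau τ₁ hcop
  have hω := modunif_row_ne_zero τ₁ hcop
  let θ : ℂ →+ W.toAffine.Point := θ₁.comp (AddMonoidHom.mulLeft ((a : ℂ) * τ₁ + b))
  have hθ : ∀ z, θ z = θ₁ (((a : ℂ) * τ₁ + b) * z) := fun z => rfl
  have hg₂s := modunif_g₂_scale hω hτ
  have hg₃s := modunif_g₃_scale hω hτ
  have hwp := modunif_wp_scale hω hτ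
  refine ⟨τ, θ, ?_, ?_, ?_, ?_, ?_, ?_⟩
  · have h1 := modunif_Jfun_tau τ
    have h2 := modunif_Jfun_tau τ₁
    have hD₁ := modunif_disc_ne_zero τ₁
    rw [hg₂s, hg₃s] at h1
    have h3 : Jfun τ = Jfun τ₁ := by
      apply mul_right_cancel₀ hD₁
      apply mul_left_cancel₀ (pow_ne_zero 12 hω)
      linear_combination h1 - ((a : ℂ) * τ₁ + b) ^ 12 * h2
    rw [h3]
    exact hJW
  · rw [hg₃s]
    exact mul_ne_zero (pow_ne_zero 6 hω) hg₃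
  · intro z
    rw [hθ, hker, hτ]
  · intro P
    obtain ⟨z₁, hz₁⟩ := hsurj P
    refine ⟨((a : ℂ) * τ₁ + b)⁻¹ * z₁, ?_⟩
    rw [hθ, mul_inv_cancel_left₀ hω, hz₁]
  · rw [hθ, ← div_eq_mul_inv]
    exact hab
  · intro z hz
    have hz₁ : ((a : ℂ) * τ₁ + b) * z ∉ (modLat τ₁).lattice := fun h => hz ((hτ z).2 h)
    obtain ⟨x, y, h, hxy, hxi⟩ := hval _ hz₁
    refine ⟨x, y, h, hxy, ?_⟩
    rw [hxi]
    unfold modXiAn
    rw [hg₂s, hg₃s, hwp z]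
    field_simp

end Fermat.Agent.S15
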