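/-
S15 (Mazur chain, captain helper17; NOTES/S15-route.md) — piece **ADM**, abstract core (helper72).

`adm_simple`: let `W ≠ 0` be a finite simple `𝔽_r[G]`-module and `χ : G → 𝔽_rˣ` a character such that
every `g ∈ G` acts on `W` like a power `τ ^ j` of some `τ ∈ G` with `χ g = χ τ ^ j` and
`((ρ τ - 1)(ρ τ - χ τ)) ^ m = 0` (Eichler–Shimura on the Eisenstein part + weak Chebotarev).
Then `W` is one-dimensional and `G` acts on it trivially or through `χ`.

Mathlib only.
-/
import Mathlib

set_option autoImplicit false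
set_option linter.style.haveILetI false

namespace Fermat.Agent.S15

section ring

variable {R : Type*} [Ring R]

/-- If `(a - 1)(a - c)` is nilpotent and `c` is central, then so is `(a ^ j - 1)(a ^ j - c ^ j)`. -/
lemma adm_pow_nilpotent (a c : R) (hc : ∀ x : R, Commute c x) (j m : ℕ)
    (h : ((a - 1) * (a - c)) ^ m = 0) :
    ((a ^ j - 1) * (a ^ j - c ^ j)) ^ m = 0 := by
  have hac : Commute a c := (hc a).symm
  set s : R := ∑ i ∈ Finset.range j, a ^ i with hs
  set s' : R := ∑ i ∈ Finset.range j, a ^ i * c ^ (j - 1 - i) with hs'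
  have h1 : a ^ j - 1 = (a - 1) * s := (mul_geom_sum a j).symm
  have h2 : a ^ j - c ^ j = (a - c) * s' := (hac.mul_geom_sum₂ j).symm
  have cas : Commute a s := by
    rw [hs]
    exact Commute.sum_right _ _ _ (fun i _ => (Commute.refl a).pow_right i)
  have cas' : Commute a s' := by
    rw [hs']
    exact Commute.sum_right _ _ _
      (fun i _ => ((Commute.refl a).pow_right i).mul_right (hac.pow_right _))
  have ccs : Commute c s := hc s
  have hcomm1 : Commute s (a - c) := (cas.symm.sub_right ccs.symm)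
  have e : (a ^ j - 1) * (a ^ j - c ^ j) = ((a - 1) * (a - c)) * (s * s') := by
    rw [h1, h2]
    calc (a - 1) * s * ((a - c) * s') = (a - 1) * (s * (a - c)) * s' := by noncomm_ring
      _ = (a - 1) * ((a - c) * s) * s' := by rw [hcomm1.eq]
      _ = (a - 1) * (a - c) * (s * s') := by noncomm_ring
  have hcomm2 : Commute ((a - 1) * (a - c)) (s * s') := by
    have c1 : Commute (a - 1) (s * s') :=
      ((cas.mul_right cas').sub_left (Commute.one_left _))
    have c2 : Commute (a - c) (s * s') :=
      ((cas.mul_right cas').sub_left (hc _))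
    exact c1.mul_left c2
  rw [e, hcomm2.mul_pow, h, zero_mul]

end ring

section rep

variable {r : ℕ} [hr : Fact r.Prime] {G : Type*} [Group G] {W : Type*} [AddCommGroup W]
  [Module (ZMod r) W] [Module.Finite (ZMod r) W] [Nontrivial W]

/-- A group acting on `W ≠ 0` (finite `𝔽_r`-vector space) through unipotent operators fixes a
nonzero vector. -/
lemma adm_exists_fixed (ρ : Representation (ZMod r) G W) (H : Subgroup G)
    (hH : ∀ h ∈ H, ∃ n : ℕ, (ρ h - 1) ^ n = 0) :
    ∃ b : W, b ≠ 0 ∧ ∀ h ∈ H, ρ h b = b := by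
  classical
  haveI : Finite W := Module.finite_of_finite (ZMod r)
  haveI : CharP (Module.End (ZMod r) W) r :=
    charP_of_injective_algebraMap (algebraMap (ZMod r) (Module.End (ZMod r) W)).injective r
  set ρu : G →* (Module.End (ZMod r) W)ˣ := MonoidHom.toHomUnits ρ with hρu
  have hρu_coe : ∀ g : G, ((ρu g : (Module.End (ZMod r) W)ˣ) : Module.End (ZMod r) W) = ρ g :=
    fun g => rfl
  set P : Subgroup (Module.End (ZMod r) W)ˣ := H.map ρu with hP
  have hPp : IsPGroup r P := by
    rintro ⟨u, hu⟩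
    obtain ⟨h, hh, rfl⟩ := hu
    obtain ⟨n, hn⟩ := hH h hh
    refine ⟨n, ?_⟩
    apply Subtype.ext
    apply Units.ext
    show ((ρu h : (Module.End (ZMod r) W)ˣ) : Module.End (ZMod r) W) ^ r ^ n = 1
    rw [hρu_coe]
    have h1 : (ρ h - 1) ^ r ^ n = ρ h ^ r ^ n - 1 ^ r ^ n :=
      sub_pow_char_pow_of_commute r n (Commute.one_right _)
    have hle : n ≤ r ^ n := (Nat.lt_pow_self hr.out.one_lt).le
    have h2 : (ρ h - 1) ^ r ^ n = 0 := pow_eq_zero_of_le hle hn
    rw [h2, one_pow] at h1
    exact (sub_eq_zero.1 h1.symm)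
  have hcard : r ∣ Nat.card W := by
    have h1 : Nat.card W = Nat.card (ZMod r) ^ Module.finrank (ZMod r) W :=
      Module.natCard_eq_pow_finrank
    rw [h1, Nat.card_zmod]
    exact dvd_pow_self r (Module.finrank_pos (R := ZMod r) (M := W)).ne'
  have h0 : (0 : W) ∈ MulAction.fixedPoints P W := by
    rintro ⟨u, hu⟩
    show (u : Module.End (ZMod r) W) (0 : W) = 0
    exact map_zero _
  obtain ⟨b, hb, hb0⟩ := hPp.exists_fixed_point_of_prime_dvd_card_of_fixed_point W hcard h0
  refine ⟨b, fun h => hb0 h.symm, fun h hh => ?_⟩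
  have := hb ⟨ρu h, Subgroup.mem_map_of_mem ρu hh⟩
  exact this

/-- **ADM, abstract core.** -/
theorem adm_simple (ρ : Representation (ZMod r) G W) (χ : G →* (ZMod r)ˣ)
    (hsimple : ∀ U : Submodule (ZMod r) W, (∀ g : G, ∀ w ∈ U, ρ g w ∈ U) → U = ⊥ ∨ U = ⊤)
    (hfrob : ∀ g : G, ∃ (τ : G) (j m : ℕ), ρ g = ρ τ ^ j ∧ χ g = χ τ ^ j ∧
      ((ρ τ - 1) * (ρ τ - algebraMap (ZMod r) (Module.End (ZMod r) W) (χ τ : ZMod r))) ^ m = 0) :
    Module.finrank (ZMod r) W = 1 ∧
      ((∀ g : G, ∀ w : W, ρ g w = w) ∨ (∀ g : G, ∀ w : W, ρ g w = (χ g : ZMod r) • w)) := by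
  classical
  -- (a) every `g` satisfies `((ρ g - 1)(ρ g - χ g)) ^ m = 0`
  have ha : ∀ g : G, ∃ m : ℕ,
      ((ρ g - 1) * (ρ g - algebraMap (ZMod r) (Module.End (ZMod r) W) (χ g : ZMod r))) ^ m
        = 0 := by
    intro g
    obtain ⟨τ, j, m, h1, h2, h3⟩ := hfrob g
    refine ⟨m, ?_⟩
    have := adm_pow_nilpotent (ρ τ) (algebraMap (ZMod r) (Module.End (ZMod r) W) (χ τ : ZMod r))
      (fun x => Algebra.commutes _ x) j m h3
    rw [h1, h2]
    rw [← map_pow] at this
    simpa using this
  -- (b) the kernel of `χ` acts unipotently, hence trivially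
  have hker : ∀ h ∈ χ.ker, ∃ n : ℕ, (ρ h - 1) ^ n = 0 := by
    intro h hh
    obtain ⟨m, hm⟩ := ha h
    have h1 : χ h = 1 := hh
    refine ⟨2 * m, ?_⟩
    rw [h1] at hm
    simp only [Units.val_one, map_one] at hm
    rw [pow_mul, pow_two]
    exact hm
  obtain ⟨b, hb0, hb⟩ := adm_exists_fixed ρ χ.ker hker
  let U : Submodule (ZMod r) W :=
    { carrier := {w | ∀ h ∈ χ.ker, ρ h w = w}
      add_mem' := fun {x y} hx hy h hh => by rw [map_add, hx h hh, hy h hh]
      zero_mem' := fun h _ => map_zero _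
      smul_mem' := fun c x hx h hh => by rw [map_smul, hx h hh] }
  have hUst : ∀ g : G, ∀ w ∈ U, ρ g w ∈ U := by
    intro g w hw h hh
    have hn : g⁻¹ * h * g ∈ χ.ker := by
      have : (χ.ker).Normal := inferInstance
      have := this.conj_mem h hh g⁻¹
      simpa using this
    have h1 := hw _ hn
    have h2 : ρ h (ρ g w) = ρ g (ρ (g⁻¹ * h * g) w) := by
      rw [← Module.End.mul_apply, ← Module.End.mul_apply, ← map_mul, ← map_mul]
      congr 2
      group
    rw [h2, h1]
  have hUtop : U = ⊤ := by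
    rcases hsimple U hUst with h | h
    · exfalso
      have : b ∈ U := hb
      rw [h] at this
      exact hb0 ((Submodule.mem_bot _).1 this)
    · exact h
  have htriv : ∀ h ∈ χ.ker, ρ h = 1 := by
    intro h hh
    apply LinearMap.ext
    intro w
    have : w ∈ U := by rw [hUtop]; trivial
    exact this h hh
  -- (e) the image of `ρ` is commutative
  have hcomm : ∀ g g' : G, ρ g * ρ g' = ρ g' * ρ g := by
    intro g g'
    have hc : (g' * g)⁻¹ * (g * g') ∈ χ.ker := by
      rw [MonoidHom.mem_ker, map_mul, map_inv, map_mul, map_mul, mul_comm (χ g') (χ g),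
        inv_mul_cancel]
    have h1 := htriv _ hc
    have h2 : g * g' = (g' * g) * ((g' * g)⁻¹ * (g * g')) := by group
    calc ρ g * ρ g' = ρ (g * g') := (map_mul ρ g g').symm
      _ = ρ ((g' * g) * ((g' * g)⁻¹ * (g * g'))) := congrArg ρ h2
      _ = ρ (g' * g) * ρ ((g' * g)⁻¹ * (g * g')) := map_mul ρ _ _
      _ = ρ (g' * g) := by rw [h1, mul_one]
      _ = ρ g' * ρ g := map_mul ρ g' g
  -- (f) every `g` acts as `1` or as `χ g`
  have hscal : ∀ g : G, ρ g = 1 ∨
      ρ g = algebraMap (ZMod r) (Module.End (ZMod r) W) (χ g : ZMod r) := by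
    intro g
    obtain ⟨m, hm⟩ := ha g
    set c : Module.End (ZMod r) W := algebraMap (ZMod r) (Module.End (ZMod r) W) (χ g : ZMod r)
      with hcdef
    have hst : ∀ (T : Module.End (ZMod r) W), (∀ g' : G, ρ g' * T = T * ρ g') →
        LinearMap.ker T = ⊥ ∨ LinearMap.ker T = ⊤ := by
      intro T hT
      apply hsimple
      intro g' w hw
      rw [LinearMap.mem_ker] at hw ⊢
      have := congrArg (fun f : Module.End (ZMod r) W => f w) (hT g')
      simp only [Module.End.mul_apply] at this
      rw [← this, hw, map_zero]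
    have hT1 : ∀ g' : G, ρ g' * (ρ g - 1) = (ρ g - 1) * ρ g' := by
      intro g'
      rw [mul_sub, sub_mul, hcomm g' g, mul_one, one_mul]
    have hT2 : ∀ g' : G, ρ g' * (ρ g - c) = (ρ g - c) * ρ g' := by
      intro g'
      rw [mul_sub, sub_mul, hcomm g' g, hcdef, ← Algebra.commutes]
    rcases hst _ hT1 with h1 | h1
    · rcases hst _ hT2 with h2 | h2
      · exfalso
        have hinj : ∀ w : W, ((ρ g - 1) * (ρ g - c)) w = 0 → w = 0 := by
          intro w hw
          rw [Module.End.mul_apply] at hw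
          have h3 := (LinearMap.ker_eq_bot'.1 h1) _ hw
          exact (LinearMap.ker_eq_bot'.1 h2) _ h3
        have hinjm : ∀ (n : ℕ) (w : W), (((ρ g - 1) * (ρ g - c)) ^ n) w = 0 → w = 0 := by
          intro n
          induction n with
          | zero => intro w hw; simpa using hw
          | succ n ih =>
            intro w hw
            rw [pow_succ, Module.End.mul_apply] at hw
            exact hinj w (ih _ hw)
        obtain ⟨w, hw⟩ := exists_ne (0 : W)
        exact hw (hinjm m w (by rw [hm]; rfl))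
      · right
        have : ρ g - c = 0 := LinearMap.ker_eq_top.1 h2
        exact sub_eq_zero.1 this
    · left
      have : ρ g - 1 = 0 := LinearMap.ker_eq_top.1 h1
      exact sub_eq_zero.1 this
  -- (h) dimension one
  have hdim : Module.finrank (ZMod r) W = 1 := by
    obtain ⟨w, hw⟩ := exists_ne (0 : W)
    have hstable : ∀ g : G, ∀ x ∈ Submodule.span (ZMod r) {w}, ρ g x ∈ Submodule.span (ZMod r) {w} := by
      intro g x hx
      rcases hscal g with h | h
      · rw [h]; exact hx
      · rw [h]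
        exact Submodule.smul_mem _ _ hx
    rcases hsimple _ hstable with h | h
    · exfalso
      exact hw ((Submodule.span_singleton_eq_bot).1 h)
    · have h1 := finrank_span_singleton (K := ZMod r) hw
      rw [h] at h1
      rw [← h1]
      exact (finrank_top (ZMod r) W).symm
  refine ⟨hdim, ?_⟩
  -- (g) a group is not the union of two proper subgroups
  by_contra hcon
  rw [not_or] at hcon
  obtain ⟨hA, hB⟩ := hcon
  have hA' : ∃ a : G, ρ a ≠ 1 := by
    by_contra h
    rw [not_exists] at h
    exact hA (fun g w => by rw [not_not.1 (h g)]; rfl)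
  have hB' : ∃ b : G, ρ b ≠ algebraMap (ZMod r) (Module.End (ZMod r) W) (χ b : ZMod r) := by
    by_contra h
    rw [not_exists] at h
    exact hB (fun g w => by rw [not_not.1 (h g)]; rfl)
  obtain ⟨a, ha1⟩ := hA'
  obtain ⟨b', hb1⟩ := hB'
  have haχ := (hscal a).resolve_left ha1
  have hb1' := (hscal b').resolve_right hb1
  have hab : ρ (a * b') = algebraMap (ZMod r) (Module.End (ZMod r) W) (χ a : ZMod r) := by
    rw [map_mul, hb1', mul_one, haχ]
  rcases hscal (a * b') with h | h
  · rw [hab] at h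
    exact ha1 (haχ.trans h)
  · rw [hab, map_mul, Units.val_mul, map_mul] at h
    have hu : IsUnit (algebraMap (ZMod r) (Module.End (ZMod r) W) (χ a : ZMod r)) :=
      (χ a).isUnit.map _
    have h3 : (1 : Module.End (ZMod r) W) =
        algebraMap (ZMod r) (Module.End (ZMod r) W) (χ b' : ZMod r) := by
      apply hu.mul_left_cancel
      rw [mul_one]
      exact h
    exact hb1 (hb1'.trans h3)

end rep

end Fermat.Agent.S15
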