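/-
S15 (Mazur chain, captain helper17; NOTES/S15-route.md, NOTES/S15-FIN.md) — piece **ADM**, chain
form (helper72).

`J` an abelian group with an action of `G`, `V ≤ J` a finite `G`-stable subgroup killed by `r ^ k`,
`χ : G → 𝔽_rˣ` a character.  Assume every `g ∈ G` acts on `V` like a power `τ ^ j` of some `τ ∈ G`
with `χ g = χ τ ^ j`, `χ τ = q mod r`, and `((τ - 1)(τ - q)) ^ m = 0` on `V`
(Eichler–Shimura on the Eisenstein part + weak Chebotarev).  Then `V` has a composition series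
`⊥ = W 0 ≤ W 1 ≤ … ≤ W L = V` of `G`-stable subgroups with steps of index `r`, and on every step
`W (i+1) / W i` the group `G` acts trivially or through `χ`   (`adm_chain`).
-/
import Fermat.Agent.S15.Adm

set_option autoImplicit false
set_option linter.style.haveILetI false

namespace Fermat.Agent.S15

/-! ### `adm_simple` for a finite abelian group killed by `r` -/

section addGroup

variable {r : ℕ} [hr : Fact r.Prime] {G : Type*} [Group G] {Q : Type*} [AddCommGroup Q]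

/-- additive endomorphisms of a group killed by `r` are `𝔽_r`-linear (ring homomorphism) -/
noncomputable def admLin [Module (ZMod r) Q] : AddMonoid.End Q →+* Module.End (ZMod r) Q where
  toFun f := AddMonoidHom.toZModLinearMap r f
  map_one' := rfl
  map_mul' _ _ := rfl
  map_zero' := rfl
  map_add' _ _ := rfl

@[simp] theorem admLin_apply [Module (ZMod r) Q] (f : AddMonoid.End Q) (x : Q) :
    admLin (r := r) f x = f x := rfl

/-- auxiliary form of `adm_simple_addGroup`, with the `𝔽_r`-module structure as an instance -/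
theorem adm_simple_addGroup_aux [Module (ZMod r) Q] [Finite Q] [Nontrivial Q]
    (ρ₀ : G →* AddMonoid.End Q) (χ : G →* (ZMod r)ˣ)
    (hsimple : ∀ U : AddSubgroup Q, (∀ g : G, ∀ x ∈ U, ρ₀ g x ∈ U) → U = ⊥ ∨ U = ⊤)
    (hfrob : ∀ g : G, ∃ (τ : G) (j m q : ℕ), ρ₀ g = ρ₀ τ ^ j ∧ χ g = χ τ ^ j ∧
      (q : ZMod r) = (χ τ : ZMod r) ∧
      ((ρ₀ τ - 1) * (ρ₀ τ - (q : AddMonoid.End Q))) ^ m = 0) :
    Nat.card Q = r ∧
      ((∀ g : G, ∀ x : Q, ρ₀ g x = x) ∨
        (∀ g : G, ∀ x : Q, ρ₀ g x = ((χ g : ZMod r).val) • x)) := by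
  haveI : Module.Finite (ZMod r) Q := Module.Finite.of_finite
  let ρ : Representation (ZMod r) G Q := (admLin (r := r) (Q := Q)).toMonoidHom.comp ρ₀
  have hρ : ∀ g x, ρ g x = ρ₀ g x := fun g x => rfl
  have h := adm_simple ρ χ
    (fun U hU => by
      have h1 := hsimple ((AddSubgroup.toZModSubmodule r).symm U) (fun g x hx => hU g x hx)
      rcases h1 with h1 | h1
      · left
        rw [← (AddSubgroup.toZModSubmodule r).apply_symm_apply U, h1]
        exact map_bot _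
      · right
        rw [← (AddSubgroup.toZModSubmodule r).apply_symm_apply U, h1]
        exact map_top _)
    (fun g => by
      obtain ⟨τ, j, m, q, h1, h2, h3, h4⟩ := hfrob g
      refine ⟨τ, j, m, ?_, h2, ?_⟩
      · show admLin (ρ₀ g) = (admLin (ρ₀ τ)) ^ j
        rw [h1, map_pow]
      · have h5 := congrArg (admLin (r := r) (Q := Q)) h4
        rw [map_pow, map_mul, map_sub, map_sub, map_one, map_natCast, map_zero] at h5
        have h6 : algebraMap (ZMod r) (Module.End (ZMod r) Q) (χ τ : ZMod r) =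
            ((q : ℕ) : Module.End (ZMod r) Q) := by
          rw [← h3, map_natCast]
        show ((admLin (ρ₀ τ) - 1) * (admLin (ρ₀ τ) - algebraMap (ZMod r) _ (χ τ : ZMod r))) ^ m = 0
        rw [h6]
        exact h5)
  obtain ⟨h1, h2⟩ := h
  refine ⟨?_, ?_⟩
  · have := Module.natCard_eq_pow_finrank (K := ZMod r) (V := Q)
    rw [this, h1, pow_one, Nat.card_zmod]
  · rcases h2 with h2 | h2
    · left
      intro g x
      rw [← hρ, h2]
    · right
      intro g x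
      rw [← hρ, h2, ← Nat.cast_smul_eq_nsmul (ZMod r), ZMod.natCast_zmod_val]

/-- **ADM, abstract core**, for an action on a finite abelian group killed by `r`. -/
theorem adm_simple_addGroup [Finite Q] [Nontrivial Q] (hQ : ∀ x : Q, r • x = 0)
    (ρ₀ : G →* AddMonoid.End Q) (χ : G →* (ZMod r)ˣ)
    (hsimple : ∀ U : AddSubgroup Q, (∀ g : G, ∀ x ∈ U, ρ₀ g x ∈ U) → U = ⊥ ∨ U = ⊤)
    (hfrob : ∀ g : G, ∃ (τ : G) (j m q : ℕ), ρ₀ g = ρ₀ τ ^ j ∧ χ g = χ τ ^ j ∧
      (q : ZMod r) = (χ τ : ZMod r) ∧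
      ((ρ₀ τ - 1) * (ρ₀ τ - (q : AddMonoid.End Q))) ^ m = 0) :
    Nat.card Q = r ∧
      ((∀ g : G, ∀ x : Q, ρ₀ g x = x) ∨
        (∀ g : G, ∀ x : Q, ρ₀ g x = ((χ g : ZMod r).val) • x)) := by
  letI : Module (ZMod r) Q := AddCommGroup.zmodModule hQ
  exact adm_simple_addGroup_aux ρ₀ χ hsimple hfrob

end addGroup

/-! ### One step of the composition series -/

section step

variable {G : Type*} [Group G] {J : Type*} [AddCommGroup J] [DistribMulAction G J]

theorem admEnd_mul_apply {Q : Type*} [AddCommGroup Q] (f g : AddMonoid.End Q) (x : Q) :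
    (f * g) x = f (g x) := rfl

theorem admEnd_sub_apply {Q : Type*} [AddCommGroup Q] (f g : AddMonoid.End Q) (x : Q) :
    (f - g) x = f x - g x := rfl

theorem admEnd_one_apply {Q : Type*} [AddCommGroup Q] (x : Q) :
    (1 : AddMonoid.End Q) x = x := rfl

theorem admEnd_zero_apply {Q : Type*} [AddCommGroup Q] (x : Q) :
    (0 : AddMonoid.End Q) x = 0 := rfl

/-- the operator `(τ - 1)(τ - q)` on `J` -/
def admE (τ : G) (q : ℕ) (x : J) : J := τ • τ • x - (1 + q) • τ • x + q • x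

/-- restriction of the action to a stable subgroup -/
def admAct (W₁ : AddSubgroup J) (h₁ : ∀ σ : G, ∀ w ∈ W₁, σ • w ∈ W₁) (g : G) : ↥W₁ →+ ↥W₁ where
  toFun w := ⟨g • (w : J), h₁ g w w.2⟩
  map_zero' := Subtype.ext (smul_zero g)
  map_add' a b := Subtype.ext (smul_add g (a : J) b)

@[simp] theorem admAct_coe (W₁ : AddSubgroup J) (h₁ : ∀ σ : G, ∀ w ∈ W₁, σ • w ∈ W₁) (g : G)
    (w : ↥W₁) : ((admAct W₁ h₁ g w : ↥W₁) : J) = g • (w : J) := rfl

/-- the induced endomorphism of the quotient `W₁ / W₀` -/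
def admQuotFun (W₀ W₁ : AddSubgroup J) (h₀ : ∀ σ : G, ∀ w ∈ W₀, σ • w ∈ W₀)
    (h₁ : ∀ σ : G, ∀ w ∈ W₁, σ • w ∈ W₁) (g : G) :
    AddMonoid.End (↥W₁ ⧸ W₀.addSubgroupOf W₁) :=
  QuotientAddGroup.map _ _ (admAct W₁ h₁ g) (fun w hw => by
    rw [AddSubgroup.mem_comap, AddSubgroup.mem_addSubgroupOf, admAct_coe]
    exact h₀ g _ (AddSubgroup.mem_addSubgroupOf.1 hw))

theorem admQuotFun_mk (W₀ W₁ : AddSubgroup J) (h₀ : ∀ σ : G, ∀ w ∈ W₀, σ • w ∈ W₀)
    (h₁ : ∀ σ : G, ∀ w ∈ W₁, σ • w ∈ W₁) (g : G) (w : ↥W₁) :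
    admQuotFun W₀ W₁ h₀ h₁ g (QuotientAddGroup.mk w) = QuotientAddGroup.mk (admAct W₁ h₁ g w) :=
  rfl

/-- the induced action on the quotient `W₁ / W₀` -/
def admQuot (W₀ W₁ : AddSubgroup J) (h₀ : ∀ σ : G, ∀ w ∈ W₀, σ • w ∈ W₀)
    (h₁ : ∀ σ : G, ∀ w ∈ W₁, σ • w ∈ W₁) :
    G →* AddMonoid.End (↥W₁ ⧸ W₀.addSubgroupOf W₁) where
  toFun g := admQuotFun W₀ W₁ h₀ h₁ g
  map_one' := by
    ext x
    induction x using QuotientAddGroup.induction_on with
    | H w =>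
      rw [admEnd_one_apply, admQuotFun_mk]
      congr 1
      exact Subtype.ext (one_smul G (w : J))
  map_mul' g h := by
    ext x
    induction x using QuotientAddGroup.induction_on with
    | H w =>
      rw [admEnd_mul_apply, admQuotFun_mk, admQuotFun_mk, admQuotFun_mk]
      congr 1
      exact Subtype.ext (mul_smul g h (w : J))

theorem admQuot_mk (W₀ W₁ : AddSubgroup J) (h₀ : ∀ σ : G, ∀ w ∈ W₀, σ • w ∈ W₀)
    (h₁ : ∀ σ : G, ∀ w ∈ W₁, σ • w ∈ W₁) (g : G) (w : ↥W₁) :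
    admQuot W₀ W₁ h₀ h₁ g (QuotientAddGroup.mk w) = QuotientAddGroup.mk (admAct W₁ h₁ g w) :=
  rfl

theorem admE_mem (W₁ : AddSubgroup J) (h₁ : ∀ σ : G, ∀ w ∈ W₁, σ • w ∈ W₁) (τ : G) (q : ℕ)
    {w : J} (hw : w ∈ W₁) : admE τ q w ∈ W₁ :=
  W₁.add_mem (W₁.sub_mem (h₁ τ _ (h₁ τ w hw)) (W₁.nsmul_mem (h₁ τ w hw) _)) (W₁.nsmul_mem hw _)

theorem admE_iterate_mem (W₁ : AddSubgroup J) (h₁ : ∀ σ : G, ∀ w ∈ W₁, σ • w ∈ W₁) (τ : G)
    (q m : ℕ) {w : J} (hw : w ∈ W₁) : (admE τ q)^[m] w ∈ W₁ := by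
  induction m with
  | zero => exact hw
  | succ m ih =>
    rw [Function.iterate_succ_apply']
    exact admE_mem W₁ h₁ τ q ih

/-- `(ρ τ - 1)(ρ τ - q)` on the quotient is induced by `admE`. -/
theorem admQuot_E_mk (W₀ W₁ : AddSubgroup J) (h₀ : ∀ σ : G, ∀ w ∈ W₀, σ • w ∈ W₀)
    (h₁ : ∀ σ : G, ∀ w ∈ W₁, σ • w ∈ W₁) (τ : G) (q : ℕ) (y : ↥W₁) :
    ((admQuot W₀ W₁ h₀ h₁ τ - 1) *
      (admQuot W₀ W₁ h₀ h₁ τ - (q : AddMonoid.End (↥W₁ ⧸ W₀.addSubgroupOf W₁))))
        (QuotientAddGroup.mk y) =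
      QuotientAddGroup.mk (⟨admE τ q (y : J), admE_mem W₁ h₁ τ q y.2⟩ : ↥W₁) := by
  simp only [admEnd_mul_apply, admEnd_sub_apply, admEnd_one_apply, AddMonoid.End.natCast_apply,
    admQuot_mk]
  rw [← QuotientAddGroup.mk_nsmul, ← QuotientAddGroup.mk_sub, admQuot_mk,
    ← QuotientAddGroup.mk_sub]
  congr 1
  apply Subtype.ext
  simp only [AddSubgroup.coe_sub, admAct_coe, AddSubgroup.coe_nsmul, smul_sub, admE, add_smul,
    one_smul]
  rw [smul_comm τ q (y : J)]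
  abel

/-- `((ρ τ - 1)(ρ τ - q)) ^ m` on the quotient is induced by the `m`-th iterate of `admE`. -/
theorem admQuot_pow_mk (W₀ W₁ : AddSubgroup J) (h₀ : ∀ σ : G, ∀ w ∈ W₀, σ • w ∈ W₀)
    (h₁ : ∀ σ : G, ∀ w ∈ W₁, σ • w ∈ W₁) (τ : G) (q m : ℕ) (w : ↥W₁) :
    (((admQuot W₀ W₁ h₀ h₁ τ - 1) *
      (admQuot W₀ W₁ h₀ h₁ τ - (q : AddMonoid.End (↥W₁ ⧸ W₀.addSubgroupOf W₁)))) ^ m)
        (QuotientAddGroup.mk w) =
      QuotientAddGroup.mk (⟨(admE τ q)^[m] (w : J), admE_iterate_mem W₁ h₁ τ q m w.2⟩ : ↥W₁) := by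
  induction m with
  | zero => rfl
  | succ m ih =>
    rw [pow_succ', admEnd_mul_apply, ih, admQuot_E_mk]
    congr 1
    apply Subtype.ext
    show admE τ q ((admE τ q)^[m] (w : J)) = (admE τ q)^[m + 1] (w : J)
    rw [Function.iterate_succ_apply']

variable {r : ℕ} [hr : Fact r.Prime]

/-- **ADM, one step**: a minimal step `W₀ < W₁` of `G`-stable subgroups with `r • W₁ ≤ W₀` has index
`r`, and `G` acts on `W₁ / W₀` trivially or through `χ`. -/
theorem adm_step (χ : G →* (ZMod r)ˣ) (W₀ W₁ : AddSubgroup J) [Finite ↥W₁] (h01 : W₀ ≤ W₁)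
    (hne : W₀ ≠ W₁) (h₀ : ∀ σ : G, ∀ w ∈ W₀, σ • w ∈ W₀) (h₁ : ∀ σ : G, ∀ w ∈ W₁, σ • w ∈ W₁)
    (hrW : ∀ w ∈ W₁, r • w ∈ W₀)
    (hsimple : ∀ U : AddSubgroup J, W₀ ≤ U → U ≤ W₁ → (∀ σ : G, ∀ u ∈ U, σ • u ∈ U) →
      U = W₀ ∨ U = W₁)
    (hfrob : ∀ g : G, ∃ (τ : G) (j m q : ℕ), (∀ w ∈ W₁, g • w = τ ^ j • w) ∧ χ g = χ τ ^ j ∧
      (q : ZMod r) = (χ τ : ZMod r) ∧ ∀ w ∈ W₁, (admE τ q)^[m] w = 0) :
    W₀.relIndex W₁ = r ∧
      ((∀ σ : G, ∀ w ∈ W₁, σ • w - w ∈ W₀) ∨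
        (∀ σ : G, ∀ w ∈ W₁, σ • w - ((χ σ : ZMod r).val) • w ∈ W₀)) := by
  classical
  set N : AddSubgroup ↥W₁ := W₀.addSubgroupOf W₁ with hN
  have hmk0 : ∀ w : ↥W₁, (QuotientAddGroup.mk w : ↥W₁ ⧸ N) = 0 ↔ (w : J) ∈ W₀ := by
    intro w
    rw [QuotientAddGroup.eq_zero_iff]
    exact AddSubgroup.mem_addSubgroupOf
  haveI : Nontrivial (↥W₁ ⧸ N) := by
    obtain ⟨w, hw1, hw0⟩ : ∃ w ∈ W₁, w ∉ W₀ := by
      by_contra hcon
      apply hne
      refine le_antisymm h01 (fun w hw => ?_)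
      by_contra hw0
      exact hcon ⟨w, hw, hw0⟩
    refine ⟨⟨QuotientAddGroup.mk ⟨w, hw1⟩, 0, ?_⟩⟩
    rw [Ne, hmk0]
    exact hw0
  have hQ : ∀ x : ↥W₁ ⧸ N, r • x = 0 := by
    intro x
    induction x using QuotientAddGroup.induction_on with
    | H w =>
      rw [← QuotientAddGroup.mk_nsmul, hmk0, AddSubgroup.coe_nsmul]
      exact hrW w w.2
  have hres := adm_simple_addGroup hQ (admQuot W₀ W₁ h₀ h₁) χ
    (fun U hU => by
      have hU' := hsimple ((U.comap (QuotientAddGroup.mk' N)).map W₁.subtype)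
        (fun w hw => by
          refine ⟨⟨w, h01 hw⟩, ?_, rfl⟩
          show QuotientAddGroup.mk' N ⟨w, h01 hw⟩ ∈ U
          have : QuotientAddGroup.mk' N ⟨w, h01 hw⟩ = 0 := (hmk0 _).2 hw
          rw [this]
          exact U.zero_mem)
        (by
          rintro _ ⟨w, -, rfl⟩
          exact w.2)
        (by
          rintro σ _ ⟨w, hw, rfl⟩
          refine ⟨admAct W₁ h₁ σ w, ?_, rfl⟩
          show QuotientAddGroup.mk' N (admAct W₁ h₁ σ w) ∈ U
          exact hU σ _ hw)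
      rcases hU' with hU' | hU'
      · left
        rw [eq_bot_iff]
        intro x hx
        induction x using QuotientAddGroup.induction_on with
        | H w =>
          rw [AddSubgroup.mem_bot, hmk0, ← hU']
          exact ⟨w, hx, rfl⟩
      · right
        rw [eq_top_iff]
        intro x _
        induction x using QuotientAddGroup.induction_on with
        | H w =>
          have hw : (w : J) ∈ (U.comap (QuotientAddGroup.mk' N)).map W₁.subtype := by
            rw [hU']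
            exact w.2
          obtain ⟨w', hw', e⟩ := hw
          have : w' = w := Subtype.ext e
          rw [← this]
          exact hw')
    (fun g => by
      obtain ⟨τ, j, m, q, h1, h2, h3, h4⟩ := hfrob g
      refine ⟨τ, j, m, q, ?_, h2, h3, ?_⟩
      · ext x
        induction x using QuotientAddGroup.induction_on with
        | H w =>
          rw [← map_pow, admQuot_mk, admQuot_mk]
          congr 1
          exact Subtype.ext (h1 w w.2)
      · ext x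
        induction x using QuotientAddGroup.induction_on with
        | H w =>
          rw [admQuot_pow_mk, admEnd_zero_apply, hmk0]
          show (admE τ q)^[m] (w : J) ∈ W₀
          rw [h4 w w.2]
          exact W₀.zero_mem)
  obtain ⟨hcard, hact⟩ := hres
  refine ⟨?_, ?_⟩
  · rw [AddSubgroup.relIndex, AddSubgroup.index_eq_card]
    exact hcard
  · rcases hact with hact | hact
    · left
      intro σ w hw
      have := hact σ (QuotientAddGroup.mk ⟨w, hw⟩)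
      rw [admQuot_mk, ← sub_eq_zero, ← QuotientAddGroup.mk_sub, hmk0] at this
      exact this
    · right
      intro σ w hw
      have := hact σ (QuotientAddGroup.mk ⟨w, hw⟩)
      rw [admQuot_mk, ← QuotientAddGroup.mk_nsmul, ← sub_eq_zero, ← QuotientAddGroup.mk_sub,
        hmk0] at this
      exact this

end step

/-! ### The composition series -/

section chain

variable {G : Type*} [Group G] {J : Type*} [AddCommGroup J] [DistribMulAction G J]

/-- a minimal `G`-stable subgroup strictly above `W₀` inside the finite `V` -/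
theorem adm_exists_minimal (V W₀ : AddSubgroup J) [Finite ↥V] (h0V : W₀ ≤ V) (hne : W₀ ≠ V)
    (hV : ∀ σ : G, ∀ v ∈ V, σ • v ∈ V) :
    ∃ W₁ : AddSubgroup J, W₀ ≤ W₁ ∧ W₀ ≠ W₁ ∧ W₁ ≤ V ∧ (∀ σ : G, ∀ w ∈ W₁, σ • w ∈ W₁) ∧
      ∀ U : AddSubgroup J, W₀ ≤ U → U ≤ W₁ → (∀ σ : G, ∀ u ∈ U, σ • u ∈ U) →
        U = W₀ ∨ U = W₁ := by
  classical
  have hex : ∃ n : ℕ, ∃ U : AddSubgroup J, W₀ ≤ U ∧ W₀ ≠ U ∧ U ≤ V ∧
      (∀ σ : G, ∀ u ∈ U, σ • u ∈ U) ∧ Nat.card ↥U = n :=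
    ⟨_, V, h0V, hne, le_rfl, hV, rfl⟩
  obtain ⟨W₁, h1, h2, h3, h4, h5⟩ := Nat.find_spec hex
  refine ⟨W₁, h1, h2, h3, h4, fun U hU0 hU1 hUG => ?_⟩
  by_cases hUW : U = W₀
  · exact Or.inl hUW
  · right
    haveI : Finite ↥W₁ := Finite.of_injective _ (AddSubgroup.inclusion_injective h3)
    have hmin := Nat.find_min' hex
      ⟨U, hU0, fun h => hUW h.symm, hU1.trans h3, hUG, rfl⟩
    rw [← h5] at hmin
    exact AddSubgroup.eq_of_le_of_card_ge hU1 hmin

/-- a minimal step is killed by `r` -/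
theorem adm_nsmul_mem_of_minimal {r k : ℕ} (W₀ W₁ : AddSubgroup J) (h01 : W₀ ≤ W₁)
    (hne : W₀ ≠ W₁) (h₀ : ∀ σ : G, ∀ w ∈ W₀, σ • w ∈ W₀) (h₁ : ∀ σ : G, ∀ w ∈ W₁, σ • w ∈ W₁)
    (hk : ∀ w ∈ W₁, r ^ k • w = 0)
    (hsimple : ∀ U : AddSubgroup J, W₀ ≤ U → U ≤ W₁ → (∀ σ : G, ∀ u ∈ U, σ • u ∈ U) →
      U = W₀ ∨ U = W₁) :
    ∀ w ∈ W₁, r • w ∈ W₀ := by
  set U : AddSubgroup J := W₀ ⊔ W₁.map (nsmulAddMonoidHom r) with hU
  have hmemU : ∀ w ∈ W₁, r • w ∈ U := fun w hw =>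
    (le_sup_right : W₁.map (nsmulAddMonoidHom r) ≤ U) ⟨w, hw, rfl⟩
  have hU1 : U ≤ W₁ := by
    refine sup_le h01 ?_
    rintro _ ⟨w, hw, rfl⟩
    exact W₁.nsmul_mem hw r
  have hUG : ∀ σ : G, ∀ u ∈ U, σ • u ∈ U := by
    intro σ u hu
    obtain ⟨a, ha, b, hb, rfl⟩ := AddSubgroup.mem_sup.1 hu
    obtain ⟨w, hw, rfl⟩ := hb
    rw [smul_add]
    refine U.add_mem ((le_sup_left : W₀ ≤ U) (h₀ σ a ha)) ?_
    have : σ • (nsmulAddMonoidHom r) w = r • (σ • w) := by
      show σ • (r • w) = r • (σ • w)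
      rw [smul_comm]
    rw [this]
    exact hmemU _ (h₁ σ w hw)
  rcases hsimple U le_sup_left hU1 hUG with h | h
  · intro w hw
    rw [← h]
    exact hmemU w hw
  · exfalso
    apply hne
    refine le_antisymm h01 ?_
    have key : ∀ n : ℕ, ∀ w ∈ W₁, ∃ a ∈ W₀, ∃ b ∈ W₁, w = a + r ^ n • b := by
      intro n
      induction n with
      | zero =>
        intro w hw
        exact ⟨0, W₀.zero_mem, w, hw, by simp⟩
      | succ n ih =>
        intro w hw
        obtain ⟨a, ha, b, hb, rfl⟩ := ih w hw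
        have hbU : b ∈ U := by rw [h]; exact hb
        obtain ⟨a', ha', c, hc, rfl⟩ := AddSubgroup.mem_sup.1 hbU
        obtain ⟨b', hb', rfl⟩ := hc
        refine ⟨a + r ^ n • a', W₀.add_mem ha (W₀.nsmul_mem ha' _), b', hb', ?_⟩
        show a + r ^ n • (a' + r • b') = a + r ^ n • a' + r ^ (n + 1) • b'
        rw [smul_add, pow_succ, mul_smul, add_assoc]
    intro w hw
    obtain ⟨a, ha, b, hb, rfl⟩ := key k w hw
    rw [hk b hb, add_zero]
    exact ha

variable {r : ℕ} [hr : Fact r.Prime]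

/-- the induction behind `adm_chain` -/
theorem adm_chain_aux (χ : G →* (ZMod r)ˣ) (V : AddSubgroup J) [Finite ↥V]
    (hV : ∀ σ : G, ∀ v ∈ V, σ • v ∈ V) (k : ℕ) (hVr : ∀ v ∈ V, r ^ k • v = 0)
    (hfrob : ∀ g : G, ∃ (τ : G) (j m q : ℕ), (∀ v ∈ V, g • v = τ ^ j • v) ∧ χ g = χ τ ^ j ∧
      (q : ZMod r) = (χ τ : ZMod r) ∧ ∀ v ∈ V, (admE τ q)^[m] v = 0) :
    ∀ n : ℕ, ∀ W₀ : AddSubgroup J, W₀ ≤ V → (∀ σ : G, ∀ w ∈ W₀, σ • w ∈ W₀) →
      Nat.card ↥V - Nat.card ↥W₀ ≤ n →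
      ∃ (L : ℕ) (W : ℕ → AddSubgroup J), W 0 = W₀ ∧ W L = V ∧ (∀ i < L, W i ≤ W (i + 1)) ∧
        (∀ i ≤ L, W i ≤ V) ∧ (∀ i ≤ L, ∀ σ : G, ∀ w ∈ W i, σ • w ∈ W i) ∧
        (∀ i < L, (W i).relIndex (W (i + 1)) = r) ∧
        (∀ i < L, (∀ σ : G, ∀ w ∈ W (i + 1), σ • w - w ∈ W i) ∨
          (∀ σ : G, ∀ w ∈ W (i + 1), σ • w - ((χ σ : ZMod r).val) • w ∈ W i)) := by
  intro n
  induction n with
  | zero =>
    intro W₀ h0V h₀ hcard
    have hWV : W₀ = V :=
      AddSubgroup.eq_of_le_of_card_ge h0V (Nat.sub_eq_zero_iff_le.1 (Nat.le_zero.1 hcard))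
    refine ⟨0, fun _ => V, hWV.symm, rfl, fun i hi => absurd hi (Nat.not_lt_zero i),
      fun _ _ => le_rfl, fun _ _ => hV, fun i hi => absurd hi (Nat.not_lt_zero i),
      fun i hi => absurd hi (Nat.not_lt_zero i)⟩
  | succ n ih =>
    intro W₀ h0V h₀ hcard
    by_cases hWV : W₀ = V
    · refine ⟨0, fun _ => V, hWV.symm, rfl, fun i hi => absurd hi (Nat.not_lt_zero i),
        fun _ _ => le_rfl, fun _ _ => hV, fun i hi => absurd hi (Nat.not_lt_zero i),
        fun i hi => absurd hi (Nat.not_lt_zero i)⟩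
    · obtain ⟨W₁, h01, hne, h1V, h₁, hsimple⟩ := adm_exists_minimal V W₀ h0V hWV hV
      haveI : Finite ↥W₁ := Finite.of_injective _ (AddSubgroup.inclusion_injective h1V)
      have hrW := adm_nsmul_mem_of_minimal (r := r) (k := k) W₀ W₁ h01 hne h₀ h₁
        (fun w hw => hVr w (h1V hw)) hsimple
      have hstep := adm_step χ W₀ W₁ h01 hne h₀ h₁ hrW hsimple (fun g => by
        obtain ⟨τ, j, m, q, e1, e2, e3, e4⟩ := hfrob g
        exact ⟨τ, j, m, q, fun w hw => e1 w (h1V hw), e2, e3, fun w hw => e4 w (h1V hw)⟩)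
      have hlt : Nat.card ↥W₀ < Nat.card ↥W₁ := by
        refine lt_of_le_of_ne (AddSubgroup.card_le_of_le h01) (fun h => hne ?_)
        exact AddSubgroup.eq_of_le_of_card_ge h01 h.ge
      have hle : Nat.card ↥W₁ ≤ Nat.card ↥V := AddSubgroup.card_le_of_le h1V
      obtain ⟨L', W', hW'0, hW'L, hW'mono, hW'V, hW'G, hW'idx, hW'act⟩ :=
        ih W₁ h1V h₁ (by omega)
      refine ⟨L' + 1, fun i => if i = 0 then W₀ else W' (i - 1), ?_, ?_, ?_, ?_, ?_, ?_, ?_⟩
      · simp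
      · simp [hW'L]
      · intro i hi
        rcases Nat.eq_zero_or_pos i with rfl | hipos
        · simp only [if_true, zero_add, Nat.one_ne_zero, if_false, Nat.sub_self, hW'0]
          exact h01
        · have e1 : i - 1 + 1 = i := Nat.sub_add_cancel hipos
          simp only [hipos.ne', if_false, Nat.add_sub_cancel, Nat.succ_ne_zero]
          have := hW'mono (i - 1) (by omega)
          rwa [e1] at this
      · intro i hi
        rcases Nat.eq_zero_or_pos i with rfl | hipos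
        · simp only [if_true]
          exact h0V
        · simp only [hipos.ne', if_false]
          exact hW'V (i - 1) (by omega)
      · intro i hi
        rcases Nat.eq_zero_or_pos i with rfl | hipos
        · simp only [if_true]
          exact h₀
        · simp only [hipos.ne', if_false]
          exact hW'G (i - 1) (by omega)
      · intro i hi
        rcases Nat.eq_zero_or_pos i with rfl | hipos
        · simp only [if_true, zero_add, Nat.one_ne_zero, if_false, Nat.sub_self, hW'0]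
          exact hstep.1
        · have e1 : i - 1 + 1 = i := Nat.sub_add_cancel hipos
          simp only [hipos.ne', if_false, Nat.add_sub_cancel, Nat.succ_ne_zero]
          have := hW'idx (i - 1) (by omega)
          rwa [e1] at this
      · intro i hi
        rcases Nat.eq_zero_or_pos i with rfl | hipos
        · simp only [if_true, zero_add, Nat.one_ne_zero, if_false, Nat.sub_self, hW'0]
          exact hstep.2
        · have e1 : i - 1 + 1 = i := Nat.sub_add_cancel hipos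
          simp only [hipos.ne', if_false, Nat.add_sub_cancel, Nat.succ_ne_zero]
          have := hW'act (i - 1) (by omega)
          rwa [e1] at this

/-- **ADM, chain form.**  A finite `G`-stable subgroup `V ≤ J` killed by `r ^ k` on which every
`g ∈ G` acts like a power of some `τ` with `((τ - 1)(τ - q)) ^ m = 0`, `q ≡ χ τ`, has a composition
series of `G`-stable subgroups with steps of index `r` on which `G` acts trivially or through
`χ`. -/
theorem adm_chain (χ : G →* (ZMod r)ˣ) (V : AddSubgroup J) [Finite ↥V]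
    (hV : ∀ σ : G, ∀ v ∈ V, σ • v ∈ V) (k : ℕ) (hVr : ∀ v ∈ V, r ^ k • v = 0)
    (hfrob : ∀ g : G, ∃ (τ : G) (j m q : ℕ), (∀ v ∈ V, g • v = τ ^ j • v) ∧ χ g = χ τ ^ j ∧
      (q : ZMod r) = (χ τ : ZMod r) ∧ ∀ v ∈ V, (admE τ q)^[m] v = 0) :
    ∃ (L : ℕ) (W : ℕ → AddSubgroup J), W 0 = ⊥ ∧ W L = V ∧ (∀ i < L, W i ≤ W (i + 1)) ∧
      (∀ i ≤ L, W i ≤ V) ∧ (∀ i ≤ L, ∀ σ : G, ∀ w ∈ W i, σ • w ∈ W i) ∧
      (∀ i < L, (W i).relIndex (W (i + 1)) = r) ∧
      (∀ i < L, (∀ σ : G, ∀ w ∈ W (i + 1), σ • w - w ∈ W i) ∨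
        (∀ σ : G, ∀ w ∈ W (i + 1), σ • w - ((χ σ : ZMod r).val) • w ∈ W i)) :=
  adm_chain_aux χ V hV k hVr hfrob (Nat.card ↥V) ⊥ bot_le
    (fun σ w hw => by
      rw [AddSubgroup.mem_bot] at hw ⊢
      rw [hw, smul_zero])
    (Nat.sub_le _ _)

end chain

end Fermat.Agent.S15
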