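import Mathlib

/-!
# S15 / SEL-CNT / REAL: the pure-algebra piece REAL-ALG, exact statement (helper6)

`H` a free `ℤ`-module of finite rank, `T x` (`x : X`) commuting endomorphisms, `ι` an involution
commuting with them, such that `tr (t * ι) = 0` for every polynomial `t` in the `T x`.
For a prime `r` and `n : ℕ`:

* `realPowSub H r n`     : `r ^ n • H`;
* `realEisSub T r n`     : the `φ ∈ H` such that for every `x` some power of `T x` maps `φ` into
  `r ^ n • H` (the lifts of the common generalised kernel of the `T x` on `H / r ^ n H`);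
* `realEisFix T ι r n`   : the `φ` therein with `ι φ = φ`.

`StmtRealAlg` : `[realEisSub : r ^ n H] ≤ r ^ a * [realEisFix + r ^ n H : r ^ n H] ^ 2`, with `a`
independent of `n`.

Proof (sketch).  On the finite group `H / r ^ n H` a product `e = ∏ (1 - (T x) ^ N)` over finitely
many `x` is an idempotent with image the common generalised kernel (Fitting); `e` is a polynomial
in the `T x`.  `H⁺ := ker (ι - 1)` is saturated, so `H⁺ / r ^ n H⁺ ↪ H / r ^ n H`, and `e` is an
idempotent of the free `ℤ / r ^ n`-modules `H / r ^ n` and `H⁺ / r ^ n`; the image of an idempotent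
of a free module over the local ring `ℤ / r ^ n` is free of rank `ρ` with `(ρ : ℤ / r ^ n) = tr e`
(`LinearMap.IsProj.trace`).  Over `ℤ`: `tr (e | H) = tr (e | H⁺) + tr (e | H / H⁺)` and
`0 = tr (e ι | H) = tr (e | H⁺) - tr (e | H / H⁺)` (`ι = -1` on `H / H⁺`), so
`tr (e | H) = 2 tr (e | H⁺)`, hence `ρ ≡ 2 ρ⁺ mod r ^ n`, and `ρ = 2 ρ⁺` as soon as
`r ^ n > 2 rank H`.  For the finitely many smaller `n` the index is at most `(2 rank H) ^ rank H`.
-/

set_option autoImplicit false

namespace Fermat.Agent.S15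

/-- `r ^ n • H` -/
def realPowSub (H : Type*) [AddCommGroup H] (r n : ℕ) : AddSubgroup H :=
  (nsmulAddMonoidHom (α := H) (r ^ n)).range

theorem mem_realPowSub {H : Type*} [AddCommGroup H] {r n : ℕ} {φ : H} :
    φ ∈ realPowSub H r n ↔ ∃ ψ : H, r ^ n • ψ = φ := Iff.rfl

theorem realPowSub_apply_mem {H : Type*} [AddCommGroup H] {r n : ℕ} (t : Module.End ℤ H)
    {φ : H} (hφ : φ ∈ realPowSub H r n) : t φ ∈ realPowSub H r n := by
  obtain ⟨ψ, rfl⟩ := hφ
  exact ⟨t ψ, (map_nsmul t (r ^ n) ψ).symm⟩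

/-- the lifts to `H` of the common generalised kernel of the `T x` on `H / r ^ n H` -/
def realEisSub {H : Type*} [AddCommGroup H] {X : Type*} (T : X → Module.End ℤ H) (r n : ℕ) :
    AddSubgroup H where
  carrier := {φ | ∀ x : X, ∃ m : ℕ, (T x ^ m) φ ∈ realPowSub H r n}
  zero_mem' := fun _ => ⟨0, by simp only [map_zero]; exact (realPowSub H r n).zero_mem⟩
  add_mem' := by
    intro a b ha hb x
    obtain ⟨m, hm⟩ := ha x
    obtain ⟨m', hm'⟩ := hb x
    refine ⟨m + m', ?_⟩
    rw [map_add]
    refine (realPowSub H r n).add_mem ?_ ?_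
    · rw [add_comm, pow_add, Module.End.mul_apply]
      exact realPowSub_apply_mem _ hm
    · rw [pow_add, Module.End.mul_apply]
      exact realPowSub_apply_mem _ hm'
  neg_mem' := by
    intro a ha x
    obtain ⟨m, hm⟩ := ha x
    exact ⟨m, by rw [map_neg]; exact (realPowSub H r n).neg_mem hm⟩

theorem mem_realEisSub {H : Type*} [AddCommGroup H] {X : Type*} {T : X → Module.End ℤ H}
    {r n : ℕ} {φ : H} :
    φ ∈ realEisSub T r n ↔ ∀ x : X, ∃ m : ℕ, (T x ^ m) φ ∈ realPowSub H r n := Iff.rfl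

theorem realPowSub_le_realEisSub {H : Type*} [AddCommGroup H] {X : Type*}
    (T : X → Module.End ℤ H) (r n : ℕ) : realPowSub H r n ≤ realEisSub T r n :=
  fun _ hφ _ => ⟨0, by simpa using hφ⟩

/-- the elements of `realEisSub` fixed by `ι` -/
def realEisFix {H : Type*} [AddCommGroup H] {X : Type*} (T : X → Module.End ℤ H)
    (ι : Module.End ℤ H) (r n : ℕ) : AddSubgroup H :=
  realEisSub T r n ⊓ (ι - 1 : Module.End ℤ H).toAddMonoidHom.ker

theorem mem_realEisFix {H : Type*} [AddCommGroup H] {X : Type*} {T : X → Module.End ℤ H}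
    {ι : Module.End ℤ H} {r n : ℕ} {φ : H} :
    φ ∈ realEisFix T ι r n ↔ φ ∈ realEisSub T r n ∧ ι φ = φ := by
  rw [realEisFix, AddSubgroup.mem_inf, AddMonoidHom.mem_ker]
  refine and_congr Iff.rfl ?_
  show (ι - 1 : Module.End ℤ H) φ = 0 ↔ ι φ = φ
  rw [LinearMap.sub_apply, Module.End.one_apply, sub_eq_zero]

/-- **REAL-ALG** (pure algebra): if `tr (t ι) = 0` for every polynomial `t` in the commuting
operators `T x`, then up to a bounded factor the `ι`-fixed part is at least the "square root" of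
the common generalised kernel of the `T x` on `H / r ^ n H`. -/
def StmtRealAlg : Prop :=
  ∀ (H : Type) [AddCommGroup H] [Module.Free ℤ H] [Module.Finite ℤ H]
    (X : Type) (T : X → Module.End ℤ H) (ι : Module.End ℤ H),
    (∀ x y : X, Commute (T x) (T y)) → (∀ x : X, Commute (T x) ι) → ι * ι = 1 →
    (∀ t ∈ Algebra.adjoin ℤ (Set.range T), LinearMap.trace ℤ H (t * ι) = 0) →
    ∀ r : ℕ, r.Prime → ∃ a : ℕ, ∀ n : ℕ,
      (realPowSub H r n).relIndex (realEisSub T r n) ≤
        r ^ a * ((realPowSub H r n).relIndex (realEisFix T ι r n ⊔ realPowSub H r n)) ^ 2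

end Fermat.Agent.S15
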