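import Mathlib

/-!
# S15 / CNT / TORIC, piece T-cnt: the unipotent count (pure algebra)

* `toric_card_le_sq` : an additive endomorphism `g` of a finite abelian group with `g ∘ g = 0`
  has `#G ≤ #(ker g) ^ 2`.
* `toric_card_le_fixed_sq` : a group `M` acts on `J`, `G ≤ J` finite, `S ≤ M`, `σ₀ ∈ S` with
  `G` stable under `σ₀`, `(σ₀ - 1)² = 0` on `G` and `G^{σ₀} ⊂ G^S`: then `#G ≤ #(G ⊓ F) ^ 2` for
  every additive subgroup `F` containing the `S`-fixed points of `G`.
-/

set_option autoImplicit false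

namespace Fermat.Agent.S15

/-- **T-cnt**: `g ∘ g = 0` on a finite abelian group ⇒ `#G ≤ #(ker g)²`. -/
theorem toric_card_le_sq {G : Type*} [AddCommGroup G] [Finite G] (g : G →+ G)
    (h : ∀ x, g (g x) = 0) : Nat.card G ≤ Nat.card g.ker ^ 2 := by
  have h1 : Nat.card G = Nat.card (G ⧸ g.ker) * Nat.card g.ker :=
    AddSubgroup.card_eq_card_quotient_mul_card_addSubgroup g.ker
  have h2 : Nat.card (G ⧸ g.ker) = Nat.card g.range :=
    Nat.card_congr (QuotientAddGroup.quotientKerEquivRange g).toEquiv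
  have h3 : g.range ≤ g.ker := by
    rintro _ ⟨x, rfl⟩
    exact (AddMonoidHom.mem_ker).2 (h x)
  have h4 : Nat.card g.range ≤ Nat.card g.ker := AddSubgroup.card_le_of_le h3
  rw [h1, h2, sq]
  exact Nat.mul_le_mul_right _ h4

/-- **T-cnt**, form for a subgroup of a module with a group action. -/
theorem toric_card_le_fixed_sq {M J : Type*} [Group M] [AddCommGroup J] [DistribMulAction M J]
    (G F : AddSubgroup J) [Finite G] (σ₀ : M)
    (hstab : ∀ x ∈ G, σ₀ • x ∈ G)
    (hunip : ∀ x ∈ G, σ₀ • σ₀ • x - 2 • (σ₀ • x) + x = 0)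
    (hfix : ∀ x ∈ G, σ₀ • x = x → x ∈ F) :
    Nat.card G ≤ Nat.card ↥(G ⊓ F) ^ 2 := by
  classical
  -- the endomorphism `σ₀ - 1` of `G`
  let g : G →+ G :=
    { toFun := fun x => ⟨σ₀ • (x : J) - x, G.sub_mem (hstab x x.2) x.2⟩
      map_zero' := by
        apply Subtype.ext
        simp
      map_add' := fun x y => by
        apply Subtype.ext
        simp only [AddSubgroup.coe_add, smul_add]
        abel }
  have hg : ∀ x : G, ((g x : G) : J) = σ₀ • (x : J) - x := fun _ => rfl
  have hgg : ∀ x, g (g x) = 0 := by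
    intro x
    apply Subtype.ext
    rw [hg, hg, AddSubgroup.coe_zero, smul_sub]
    have := hunip x x.2
    rw [two_smul] at this
    rw [← this]
    abel
  have h1 := toric_card_le_sq g hgg
  -- `ker g` injects into `G ⊓ F`
  haveI : Finite ↥(G ⊓ F) :=
    Finite.of_injective (fun z : ↥(G ⊓ F) => (⟨(z : J), z.2.1⟩ : G)) (fun a b hab => by
      apply Subtype.ext
      exact congrArg (fun z : G => (z : J)) hab)
  have hker : ∀ x : g.ker, σ₀ • (((x : G) : J)) = ((x : G) : J) := by
    intro x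
    have hx : g (x : G) = 0 := (AddMonoidHom.mem_ker).1 x.2
    have hx' : ((g (x : G) : G) : J) = 0 := by rw [hx]; rfl
    rw [hg] at hx'
    exact sub_eq_zero.1 hx'
  have h2 : Nat.card g.ker ≤ Nat.card ↥(G ⊓ F) := by
    refine Nat.card_le_card_of_injective
      (fun x : g.ker => (⟨((x : G) : J), ⟨(x : G).2, hfix _ (x : G).2 (hker x)⟩⟩ : ↥(G ⊓ F))) ?_
    · intro x y hxy
      apply Subtype.ext
      apply Subtype.ext
      exact congrArg (fun z : ↥(G ⊓ F) => (z : J)) hxy
  calc Nat.card G ≤ Nat.card g.ker ^ 2 := h1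
    _ ≤ Nat.card ↥(G ⊓ F) ^ 2 := Nat.pow_le_pow_left h2 2

end Fermat.Agent.S15
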