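import Fermat.Agent.S15.SelPlan
import Fermat.Agent.S15.ToricCnt
import Fermat.Agent.S15.ToricTameA
import Fermat.Agent.S34.Plan

/-!
# S15 / SEL-CNT / TORIC: plan (exact statements)

Sub-captain helper73.  Design: `NOTES/S15-CNT.md`.

`(CNT*)  ∃ a ∀ k, #G_k ≤ r^a · #(G_k ∩ J^{I_N}) · #(G_k ∩ J^c)  =  TORIC × REAL`  (helper6).

* `StmtToricTame` (T-tame): the tame inertia is cyclic.  For a finite normal `E / ℚ` there is
  `σ₀ ∈ I` such that every `σ ∈ I` is, on `E`, a power of `σ₀` up to an element of `N`-power order.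
* `StmtSelToric` (TORIC): for every finite `I_N`-stable group `G` of `r`-power torsion points of
  `J₀(N)`, `r ≠ N`:  `#G ≤ #(G ∩ J^{I_N})²`.
* pieces: `toric_card_le_fixed_sq` (T-cnt, `ToricCnt.lean`), `tame_V` (`ToricTameV.lean`),
  `tame_N`, `tameTr*` (`ToricTameA.lean`), `toricpre_*` (T-pre, helper14, `ToricPre.lean`),
  T-tame main (`ToricTame.lean`), T-glue (`ToricGlue.lean`):
  `StmtToricTame → (∀ N r, S34.ESUnip N r (JZero N)) → StmtSelToric`.
-/

set_option autoImplicit false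

noncomputable section

namespace Fermat.Agent.S15

open ModularCurve AlgebraicCurve
open Fermat.Agent.S24 Fermat.Agent.W1

/-- **T-tame**: the image of the inertia group at `N` in `Gal(E/ℚ)` is cyclic modulo its
`N`-part. -/
def StmtToricTame : Prop :=
  ∀ (N : ℕ), N.Prime → ∀ A : ValuationSubring Kb, A.LiesOverPrime N →
    ∀ E : IntermediateField ℚ Kb, FiniteDimensional ℚ E → Normal ℚ E →
      ∃ σ₀ ∈ A.inertiaSubgroupIn ℚ, ∀ σ ∈ A.inertiaSubgroupIn ℚ, ∃ (n : ℤ) (e : ℕ),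
        ∀ a ∈ E, ((σ * σ₀ ^ (-n)) ^ (N ^ e)) a = a

/-- **TORIC**: the points fixed by the inertia at `N` are at least "half" of every finite
inertia-stable group of `r`-power torsion points, `r ≠ N`. -/
def StmtSelToric : Prop :=
  ∀ (N : ℕ) [NeZero N] (r : ℕ), N.Prime → r.Prime → r ≠ N →
    ∀ AN : ValuationSubring Kb, AN.LiesOverPrime N →
    ∀ G : AddSubgroup (JZero N), Finite G → (∀ x ∈ G, ∃ k : ℕ, r ^ k • x = 0) →
      (∀ σ ∈ AN.inertiaSubgroupIn ℚ, ∀ x ∈ G, σ • x ∈ G) →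
      Nat.card G ≤ Nat.card ↥(G ⊓ selIF N AN) ^ 2

/-- the unipotency input (UNIP, `S34/Plan.lean`) for all prime levels -/
def StmtToricUnip : Prop :=
  ∀ (N : ℕ) [NeZero N] (r : ℕ), N.Prime → r.Prime → r ≠ N →
    Fermat.Agent.S34.ESUnip N r (JZero N)

end Fermat.Agent.S15
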