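import Fermat.Agent.S15.SelPlan
import Fermat.Agent.S15.RealAlgPlan
import Fermat.Agent.S15.ToricPlan
import Fermat.Agent.ES.Mu
import Fermat.Prelude.Def_GaloisRep_ComplexConjugation

/-!
# S15 / SEL-CNT / REAL: exact statements (helper6)

`(CNT*)`  `#G_k ≤ r ^ a * #(G_k ∩ J^{I_N}) * #(G_k ∩ J^c)`  `=`  TORIC `×` REAL, where `G_k` is the
Eisenstein part of `J₀(N)[r ^ k]` and `c` the complex conjugation.

* `selFixC N`       : the points of `J₀(N)(ℚ̄)` fixed by the complex conjugation;
* `StmtSelReal`     : REAL, `#G_k ≤ r ^ a * #(G_k ∩ J^c) ^ 2`;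
* `StmtSelCntStar`  : `(CNT*)`;
* REAL-TR (`tr (w ι) = 0` on the integral parabolic homomorphisms) is `S15/RealTr.lean`
  (helper82), REAL-ALG is `StmtRealAlg` of `S15/RealAlgPlan.lean`, REAL-IDX is `S15/RealIdx.lean`;
* `realConjChar N`  : `χ ↦ conj ∘ χ ∘ j` on the characters of `Γ₀(N)`;
* `StmtRealConj`    : REAL-CONJ, the multiplier of `c • x` is `realConjChar N` of that of `x`.
-/

set_option autoImplicit false

noncomputable section

namespace Fermat.Agent.S15

open ModularCurve AlgebraicCurve CongruenceSubgroup ModularCurve.Period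
open Fermat.Agent.S24 Fermat.Agent.W1 Fermat.Agent.ES

/-! ## The count -/

/-- the points of `J₀(N)` fixed by the complex conjugation -/
def selFixC (N : ℕ) [NeZero N] : AddSubgroup (JZero N) where
  carrier := {x | (complexConjugation : GalQ) • x = x}
  zero_mem' := smul_zero (A := JZero N) (complexConjugation : GalQ)
  add_mem' := fun {a b} ha hb => by
    show (complexConjugation : GalQ) • (a + b) = a + b
    rw [smul_add, ha, hb]
  neg_mem' := fun {a} ha => by
    show (complexConjugation : GalQ) • (-a) = -a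
    rw [smul_neg, ha]

theorem mem_selFixC {N : ℕ} [NeZero N] {x : JZero N} :
    x ∈ selFixC N ↔ (complexConjugation : GalQ) • x = x := Iff.rfl

/-- **REAL**: up to a bounded factor the real points are at least the "square root" of the
Eisenstein part. -/
def StmtSelReal : Prop :=
  ∀ (N : ℕ) [NeZero N] (r : ℕ), N.Prime → r.Prime → r ≠ N →
    ∃ a : ℕ, ∀ k : ℕ,
      Nat.card ↥(selEisPart N r k) ≤ r ^ a * Nat.card ↥(selEisPart N r k ⊓ selFixC N) ^ 2

/-- **(CNT\*)**: the uniform count. -/
def StmtSelCntStar : Prop :=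
  ∀ (N : ℕ) [NeZero N] (r : ℕ), N.Prime → r.Prime → r ≠ N →
    ∀ AN : ValuationSubring Kb, AN.LiesOverPrime N →
    ∃ a : ℕ, ∀ k : ℕ,
      Nat.card ↥(selEisPart N r k) ≤ r ^ a *
        (Nat.card ↥(selEisPart N r k ⊓ selIF N AN) * Nat.card ↥(selEisPart N r k ⊓ selFixC N))

/-! ## The complex conjugation and the multiplier -/

/-- the complex conjugation on `ℂˣ` -/
def realConjUnits : ℂˣ →* ℂˣ := Units.map (starRingEnd ℂ : ℂ →+* ℂ).toMonoidHom

/-- `χ ↦ conj ∘ χ ∘ j` -/
def realConjChar (N : ℕ) : CharGrp N →+ CharGrp N where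
  toFun χ := ((MonoidHom.toAdditive realConjUnits).comp χ).comp
    (MonoidHom.toAdditive (jConjGamma0 N))
  map_zero' := by
    refine AddMonoidHom.ext fun γ => ?_
    exact map_zero (MonoidHom.toAdditive realConjUnits)
  map_add' χ ψ := by
    refine AddMonoidHom.ext fun γ => ?_
    exact map_add (MonoidHom.toAdditive realConjUnits) _ _

theorem realConjChar_apply (N : ℕ) (χ : CharGrp N) (γ : Additive (Gamma0 N)) :
    realConjChar N χ γ = MonoidHom.toAdditive realConjUnits
      (χ (Additive.ofMul (jConjGamma0 N (Additive.toMul γ)))) := rfl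

/-- **REAL-CONJ** (MuConj): the Kummer function of `c • x` is `τ ↦ conj (u (-τ̄))`, so the
multiplier of `c • x` is `conj ∘ χ ∘ j`. -/
def StmtRealConj : Prop :=
  ∀ (N : ℕ) [NeZero N] (n : ℕ), 0 < n → ∀ (x : JZero N) (χ : CharGrp N),
    MuRel N n x χ → MuRel N n ((complexConjugation : GalQ) • x) (realConjChar N χ)

end Fermat.Agent.S15
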