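import Fermat.Agent.S15.CntOddCore
import Fermat.Agent.S15.RealPlan

/-!
# S15 / SEL-CNT, glue `G-odd` (helper47)

`stmtSelCntOddCr_of : StmtSelCntStar → StmtSelArTrivEt → StmtSelEis → StmtSelCntOddCr`.

Chain `D.W` of `StmtSelEis`; no step jumps for both `V1` and `Q := selFixC N`: a trivial step is
étale (`AR-3`), a step of type `μ_r` has no point fixed by the complex conjugation outside `W`
(`ψ w = c (ψ w) = (ψ w)⁻¹`, `(ψ w) ^ r = 1`, `r` odd).  So `#(G ∩ V1) · #(G ∩ Q) ≤ #G ≤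
r ^ a · #(G ∩ P) · #(G ∩ Q)`.
-/

set_option autoImplicit false

noncomputable section

namespace Fermat.Agent.S15

open ModularCurve AlgebraicCurve

/-- **G-odd.** -/
theorem stmtSelCntOddCr_of (hStar : StmtSelCntStar) (hTE : StmtSelArTrivEt)
    (hEis : StmtSelEis) : StmtSelCntOddCr := by
  intro N _ r hN hr hrN hr2 cr hcr0 hrcr hcrc AN Ar hAN hAr V1 hV1
  obtain ⟨a, ha⟩ := hStar N r hN hr hrN AN hAN
  refine ⟨a, fun k => ?_⟩
  obtain ⟨D, hD⟩ := hEis N r hN hr hrN cr hcr0 hrcr hcrc k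
  exact cntodd_core hr hr2 k cr D hD V1 (selIF N AN) (selFixC N) (fun x hx => mem_selFixC.1 hx)
    (fun W W' hst ht => hTE N r k hN hr hrN hr2 Ar hAr V1 hV1 W W' hst ht) a (ha k)

end Fermat.Agent.S15
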