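import Fermat.Agent.S15.SelTwo

/-!
# S15 / SEL-CNT, glue `G-odd`, the abstract count (helper47; Mathlib only)

Along a chain `W 0 = ⊥ ≤ … ≤ W L` with steps of prime index `r`: if no step jumps for both `S₁`
and `S₂`, then `#(W L ∩ S₁) · #(W L ∩ S₂) ≤ #(W L)`; so `#(W L) ≤ r ^ a · #(W L ∩ P) · #(W L ∩ S₂)`
gives `#(W L ∩ S₁) ≤ r ^ a · #(W L ∩ P)`.
-/

set_option autoImplicit false

namespace Fermat.Agent.S15

open AddSubgroup

variable {J : Type*} [AddCommGroup J]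

/-- if no step jumps for both `S₁` and `S₂`, the two sets of jumps are disjoint -/
theorem cntodd_jumps_add_le (W : ℕ → AddSubgroup J) (S₁ S₂ : AddSubgroup J) (L : ℕ)
    (hno : ∀ i < L, W (i + 1) ⊓ S₁ ≤ W i ∨ W (i + 1) ⊓ S₂ ≤ W i) :
    (selstJumps W S₁ L).card + (selstJumps W S₂ L).card ≤ L := by
  classical
  have hdisj : Disjoint (selstJumps W S₁ L) (selstJumps W S₂ L) := by
    rw [Finset.disjoint_left]
    intro i h1 h2
    obtain ⟨hi, hj1⟩ := mem_selstJumps.1 h1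
    obtain ⟨-, hj2⟩ := mem_selstJumps.1 h2
    rcases hno i hi with h | h
    · exact hj1 h
    · exact hj2 h
  have hsub : selstJumps W S₁ L ∪ selstJumps W S₂ L ⊆ Finset.range L := by
    intro i hi
    rw [Finset.mem_range]
    rcases Finset.mem_union.1 hi with h | h
    · exact (mem_selstJumps.1 h).1
    · exact (mem_selstJumps.1 h).1
  have := Finset.card_le_card hsub
  rwa [Finset.card_union_of_disjoint hdisj, Finset.card_range] at this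

/-- `#(W L ∩ S₁) · #(W L ∩ S₂) ≤ #(W L)` if no step jumps for both -/
theorem cntodd_card_mul_le {r : ℕ} (hr : r.Prime) (W : ℕ → AddSubgroup J)
    (S₁ S₂ : AddSubgroup J) (L : ℕ) (hW0 : W 0 = ⊥) (hW : ∀ i < L, W i ≤ W (i + 1))
    (hidx : ∀ i < L, (W i).relIndex (W (i + 1)) = r)
    (hno : ∀ i < L, W (i + 1) ⊓ S₁ ≤ W i ∨ W (i + 1) ⊓ S₂ ≤ W i) :
    Nat.card ↥(W L ⊓ S₁) * Nat.card ↥(W L ⊓ S₂) ≤ Nat.card ↥(W L) := by
  rw [selst_card_jumps hr W S₁ L hW0 hW hidx, selst_card_jumps hr W S₂ L hW0 hW hidx,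
    seltwo_card_top hr W L hW0 hW hidx, ← pow_add]
  exact Nat.pow_le_pow_right hr.pos (cntodd_jumps_add_le W S₁ S₂ L hno)

/-- **the abstract count of `G-odd`** -/
theorem cntodd_abs {r : ℕ} (hr : r.Prime) (W : ℕ → AddSubgroup J)
    (S₁ S₂ P : AddSubgroup J) (L : ℕ) (hW0 : W 0 = ⊥) (hW : ∀ i < L, W i ≤ W (i + 1))
    (hidx : ∀ i < L, (W i).relIndex (W (i + 1)) = r)
    (hno : ∀ i < L, W (i + 1) ⊓ S₁ ≤ W i ∨ W (i + 1) ⊓ S₂ ≤ W i) (a : ℕ)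
    (hcnt : Nat.card ↥(W L) ≤
      r ^ a * (Nat.card ↥(W L ⊓ P) * Nat.card ↥(W L ⊓ S₂))) :
    Nat.card ↥(W L ⊓ S₁) ≤ r ^ a * Nat.card ↥(W L ⊓ P) := by
  have h1 := cntodd_card_mul_le hr W S₁ S₂ L hW0 hW hidx hno
  have h2 : 0 < Nat.card ↥(W L ⊓ S₂) := by
    rw [selst_card_jumps hr W S₂ L hW0 hW hidx]
    exact pow_pos hr.pos _
  have h3 : Nat.card ↥(W L ⊓ S₁) * Nat.card ↥(W L ⊓ S₂) ≤
      r ^ a * Nat.card ↥(W L ⊓ P) * Nat.card ↥(W L ⊓ S₂) := by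
    rw [mul_assoc]
    exact h1.trans hcnt
  exact Nat.le_of_mul_le_mul_right h3 h2

end Fermat.Agent.S15
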