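import Fermat.Agent.W1.PlanAlg

/-!
# S15 / SELMER, piece SEL-JJ (part 1): the group `𝕁_y = (J ⊕ ℤ) / ℤ·(y, -n)`

`J` a `G_ℚ`-module, `y ∈ J` fixed by `G_ℚ`, `n > 0`.  In `𝕁_y` the class `e = [(0, 1)]` is an
`n`-th root of (the image of) `y`; `𝕁_y[n]` is the extension of `ℤ/n` by `J[n]` whose class is
the Kummer class of `y`:  `[(R, m)] ∈ 𝕁_y[n] ↔ n • R + m • y = 0`.

* `SeljjJ J y n` : the group, `seljjMk : J × ℤ →+ 𝕁_y`, `seljjIota : J →+ 𝕁_y` (injective);
* the Galois action (`[Fact (∀ σ, σ • y = y)]`): `σ • [(R, m)] = [(σ • R, m)]`;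
* `seljj_kernelChart` : a kernel chart `(J1, g, z)` of `J` with FULL lift gives a kernel chart
  of `𝕁_y` (with FULL lift again);
* `seljj_finite_torsion`, `seljj_isContAction` : finiteness and continuity on `𝕁_y[n]`.
-/

set_option autoImplicit false
set_option linter.unusedSectionVars false
set_option linter.style.haveILetI false

noncomputable section

namespace Fermat.Agent.S15

open Fermat.Agent.W1

/-- the relation subgroup `ℤ · (y, -n)` -/
def seljjRel (J : Type) [AddCommGroup J] (y : J) (n : ℕ) : AddSubgroup (J × ℤ) :=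
  AddSubgroup.zmultiples ((y, -(n : ℤ)) : J × ℤ)

/-- `𝕁_y = (J ⊕ ℤ) / ℤ·(y, -n)` -/
def SeljjJ (J : Type) [AddCommGroup J] (y : J) (n : ℕ) : Type := (J × ℤ) ⧸ seljjRel J y n

section group

variable (J : Type) [AddCommGroup J] (y : J) (n : ℕ)

instance seljjAddCommGroup : AddCommGroup (SeljjJ J y n) :=
  inferInstanceAs (AddCommGroup ((J × ℤ) ⧸ seljjRel J y n))

/-- the class of `(R, m)` -/
def seljjMk : J × ℤ →+ SeljjJ J y n := QuotientAddGroup.mk' (seljjRel J y n)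

theorem seljjMk_surjective : Function.Surjective (seljjMk J y n) :=
  QuotientAddGroup.mk'_surjective _

theorem mem_seljjRel_iff (x : J × ℤ) :
    x ∈ seljjRel J y n ↔ ∃ a : ℤ, x.1 = a • y ∧ x.2 = -(a * n) := by
  unfold seljjRel
  rw [AddSubgroup.mem_zmultiples_iff]
  constructor
  · rintro ⟨a, rfl⟩
    refine ⟨a, ?_, ?_⟩
    · simp
    · simp
  · rintro ⟨a, h1, h2⟩
    refine ⟨a, ?_⟩
    apply Prod.ext
    · simp [h1]
    · simp [h2]

theorem seljjMk_eq_zero_iff (x : J × ℤ) :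
    seljjMk J y n x = 0 ↔ ∃ a : ℤ, x.1 = a • y ∧ x.2 = -(a * n) := by
  rw [← mem_seljjRel_iff]
  exact QuotientAddGroup.eq_zero_iff x

theorem seljjMk_eq_iff (x x' : J × ℤ) :
    seljjMk J y n x = seljjMk J y n x' ↔ ∃ a : ℤ, x.1 - x'.1 = a • y ∧ x.2 - x'.2 = -(a * n) := by
  rw [← sub_eq_zero, ← map_sub, seljjMk_eq_zero_iff]
  rfl

/-- `J → 𝕁_y` -/
def seljjIota : J →+ SeljjJ J y n := (seljjMk J y n).comp (AddMonoidHom.inl J ℤ)

@[simp] theorem seljjIota_apply (R : J) : seljjIota J y n R = seljjMk J y n (R, 0) := rfl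

theorem seljjIota_injective (hn : 0 < n) : Function.Injective (seljjIota J y n) := by
  rw [injective_iff_map_eq_zero]
  intro R hR
  rw [seljjIota_apply, seljjMk_eq_zero_iff] at hR
  obtain ⟨a, h1, h2⟩ := hR
  have hn' : (n : ℤ) ≠ 0 := by exact_mod_cast hn.ne'
  have ha : a = 0 := by
    have h3 : a * (n : ℤ) = 0 := by
      have : (0 : ℤ) = -(a * n) := h2
      linarith
    rcases mul_eq_zero.1 h3 with h | h
    · exact h
    · exact absurd h hn'
  have h4 : R = a • y := h1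
  rw [h4, ha, zero_smul]

/-- the `n`-th root `e = [(0, 1)]` of `y` -/
theorem seljj_root : (n : ℤ) • seljjMk J y n (0, 1) = seljjIota J y n y := by
  rw [seljjIota_apply, ← map_zsmul, seljjMk_eq_iff]
  refine ⟨-1, ?_, ?_⟩
  · simp
  · simp

/-- membership in `𝕁_y[n]` -/
theorem seljj_zsmul_mk_eq_zero_iff (hn : 0 < n) (R : J) (m : ℤ) :
    (n : ℤ) • seljjMk J y n (R, m) = 0 ↔ (n : ℤ) • R + m • y = 0 := by
  have hn' : (n : ℤ) ≠ 0 := by exact_mod_cast hn.ne'
  rw [← map_zsmul, seljjMk_eq_zero_iff]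
  constructor
  · rintro ⟨a, h1, h2⟩
    have h3 : m = -a := by
      have h4 : (n : ℤ) * m = -(a * n) := by simpa using h2
      have h5 : (n : ℤ) * (m + a) = 0 := by linarith
      rcases mul_eq_zero.1 h5 with h | h
      · exact absurd h hn'
      · linarith
    have h6 : (n : ℤ) • R = a • y := by simpa using h1
    rw [h6, h3, neg_smul, add_neg_cancel]
  · intro h
    refine ⟨-m, ?_, ?_⟩
    · have : (n : ℤ) • R = -(m • y) := eq_neg_of_add_eq_zero_left h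
      simp [this]
    · simp [mul_comm]

end group

/-! ### The Galois action -/

section action

variable (J : Type) [AddCommGroup J]
  [DistribMulAction (AlgebraicClosure ℚ ≃ₐ[ℚ] AlgebraicClosure ℚ) J] (y : J) (n : ℕ)

/-- `(R, m) ↦ (σ • R, m)` -/
def seljjPreAct (σ : AlgebraicClosure ℚ ≃ₐ[ℚ] AlgebraicClosure ℚ) : J × ℤ →+ J × ℤ :=
  AddMonoidHom.prodMap (DistribSMul.toAddMonoidHom J σ) (AddMonoidHom.id ℤ)

@[simp] theorem seljjPreAct_apply (σ : AlgebraicClosure ℚ ≃ₐ[ℚ] AlgebraicClosure ℚ) (x : J × ℤ) :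
    seljjPreAct J σ x = (σ • x.1, x.2) := rfl

variable [hy : Fact (∀ σ : AlgebraicClosure ℚ ≃ₐ[ℚ] AlgebraicClosure ℚ, σ • y = y)]

theorem seljjRel_le_comap (σ : AlgebraicClosure ℚ ≃ₐ[ℚ] AlgebraicClosure ℚ) :
    seljjRel J y n ≤ (seljjRel J y n).comap (seljjPreAct J σ) := by
  intro x hx
  rw [AddSubgroup.mem_comap, mem_seljjRel_iff]
  rw [mem_seljjRel_iff] at hx
  obtain ⟨a, h1, h2⟩ := hx
  refine ⟨a, ?_, h2⟩
  rw [seljjPreAct_apply]
  show σ • x.1 = a • y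
  rw [h1, smul_comm, hy.out σ]

/-- the action of `σ` on `𝕁_y` -/
def seljjAct (σ : AlgebraicClosure ℚ ≃ₐ[ℚ] AlgebraicClosure ℚ) : SeljjJ J y n →+ SeljjJ J y n :=
  QuotientAddGroup.map (seljjRel J y n) (seljjRel J y n) (seljjPreAct J σ)
    (seljjRel_le_comap J y n σ)

theorem seljjAct_mk (σ : AlgebraicClosure ℚ ≃ₐ[ℚ] AlgebraicClosure ℚ) (x : J × ℤ) :
    seljjAct J y n σ (seljjMk J y n x) = seljjMk J y n (σ • x.1, x.2) := rfl

instance seljjDistribMulAction :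
    DistribMulAction (AlgebraicClosure ℚ ≃ₐ[ℚ] AlgebraicClosure ℚ) (SeljjJ J y n) where
  smul σ x := seljjAct J y n σ x
  one_smul x := by
    obtain ⟨x, rfl⟩ := seljjMk_surjective J y n x
    show seljjAct J y n 1 (seljjMk J y n x) = _
    rw [seljjAct_mk, one_smul]
  mul_smul σ τ x := by
    obtain ⟨x, rfl⟩ := seljjMk_surjective J y n x
    show seljjAct J y n (σ * τ) (seljjMk J y n x) =
      seljjAct J y n σ (seljjAct J y n τ (seljjMk J y n x))
    rw [seljjAct_mk, seljjAct_mk, seljjAct_mk, mul_smul]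
  smul_zero σ := map_zero (seljjAct J y n σ)
  smul_add σ x x' := map_add (seljjAct J y n σ) x x'

@[simp] theorem seljj_smul_mk (σ : AlgebraicClosure ℚ ≃ₐ[ℚ] AlgebraicClosure ℚ) (x : J × ℤ) :
    σ • seljjMk J y n x = seljjMk J y n (σ • x.1, x.2) := rfl

theorem seljj_smul_iota (σ : AlgebraicClosure ℚ ≃ₐ[ℚ] AlgebraicClosure ℚ) (R : J) :
    σ • seljjIota J y n R = seljjIota J y n (σ • R) := rfl

end action

/-! ### The kernel chart of `𝕁_y` -/

section chart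

variable {J : Type} [AddCommGroup J]
  [DistribMulAction (AlgebraicClosure ℚ ≃ₐ[ℚ] AlgebraicClosure ℚ) J] (y : J) (n : ℕ)
  [hy : Fact (∀ σ : AlgebraicClosure ℚ ≃ₐ[ℚ] AlgebraicClosure ℚ, σ • y = y)]
  {A : ValuationSubring (AlgebraicClosure ℚ)} {J1 : AddSubgroup J} {g : ℕ}

/-- the coordinate `z`, transported to `𝕁_y` (it is only used on the image of `J1`) -/
def seljjZ (z : J → Fin g → AlgebraicClosure ℚ) : SeljjJ J y n → Fin g → AlgebraicClosure ℚ :=
  Function.extend (seljjIota J y n) z (fun _ _ => 0)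

theorem seljjZ_iota (hn : 0 < n) (z : J → Fin g → AlgebraicClosure ℚ) (R : J) :
    seljjZ y n z (seljjIota J y n R) = z R :=
  (seljjIota_injective J y n hn).extend_apply _ _ _

/-- FULL lift for `𝕁_y` from FULL lift for `J`. -/
theorem seljj_lift
    (hlift : ∀ x : J, ∃ b : J, (∀ σ ∈ A.inertiaSubgroupIn ℚ, σ • b = b) ∧ x - b ∈ J1)
    (x : SeljjJ J y n) :
    ∃ b : SeljjJ J y n, (∀ σ ∈ A.inertiaSubgroupIn ℚ, σ • b = b) ∧
      x - b ∈ J1.map (seljjIota J y n) := by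
  obtain ⟨⟨R, m⟩, rfl⟩ := seljjMk_surjective J y n x
  obtain ⟨b, hb1, hb2⟩ := hlift R
  refine ⟨seljjMk J y n (b, m), ?_, ?_⟩
  · intro σ hσ
    rw [seljj_smul_mk]
    show seljjMk J y n (σ • b, m) = _
    rw [hb1 σ hσ]
  · refine ⟨R - b, hb2, ?_⟩
    rw [seljjIota_apply, ← map_sub]
    congr 1
    simp

/-- **the kernel chart of `𝕁_y`** -/
theorem seljj_kernelChart (hn : 0 < n) {z : J → Fin g → AlgebraicClosure ℚ}
    (hKC : KernelChart A J J1 g z)
    (hlift : ∀ x : J, ∃ b : J, (∀ σ ∈ A.inertiaSubgroupIn ℚ, σ • b = b) ∧ x - b ∈ J1) :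
    KernelChart A (SeljjJ J y n) (J1.map (seljjIota J y n)) g (seljjZ y n z) where
  decomp_stable := by
    rintro σ hσ _ ⟨R, hR, rfl⟩
    exact ⟨σ • R, hKC.decomp_stable σ hσ R hR, (seljj_smul_iota J y n σ R).symm⟩
  mem_nonunits := by
    rintro _ ⟨R, hR, rfl⟩ i
    rw [seljjZ_iota y n hn]
    exact hKC.mem_nonunits R hR i
  injOn := by
    rintro _ ⟨R, hR, rfl⟩ _ ⟨R', hR', rfl⟩ h
    rw [seljjZ_iota y n hn, seljjZ_iota y n hn] at h
    rw [hKC.injOn R hR R' hR' h]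
  inertia_equivariant := by
    rintro σ hσ _ ⟨R, hR, rfl⟩ i
    rw [seljj_smul_iota, seljjZ_iota y n hn, seljjZ_iota y n hn]
    exact hKC.inertia_equivariant σ hσ R hR i
  add_approx := by
    intro ϖ hϖ hϖ0 m
    obtain ⟨F, hF1, hF2⟩ := hKC.add_approx ϖ hϖ hϖ0 m
    refine ⟨F, hF1, ?_⟩
    rintro _ ⟨R, hR, rfl⟩ _ ⟨R', hR', rfl⟩ h1 h2 i
    rw [← map_add]
    simp only [seljjZ_iota y n hn] at h1 h2 ⊢
    exact hF2 R hR R' hR' h1 h2 i
  lift := fun x _ => seljj_lift y n hlift x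

end chart

/-! ### Finiteness and continuity of `𝕁_y[n]` -/

section torsion

variable {J : Type} [AddCommGroup J]
  [DistribMulAction (AlgebraicClosure ℚ ≃ₐ[ℚ] AlgebraicClosure ℚ) J] (y : J) (n : ℕ)

/-- every class has a representative `(R, m)` with `0 ≤ m < n` -/
theorem seljj_exists_rep (hn : 0 < n) (x : SeljjJ J y n) :
    ∃ (R : J) (m : Fin n), x = seljjMk J y n (R, (m : ℤ)) := by
  obtain ⟨⟨R, m⟩, rfl⟩ := seljjMk_surjective J y n x
  have hn' : (0 : ℤ) < n := by exact_mod_cast hn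
  have h0 : 0 ≤ m % (n : ℤ) := Int.emod_nonneg _ hn'.ne'
  have h1 : m % (n : ℤ) < n := Int.emod_lt_of_pos _ hn'
  have h2 : ((m % (n : ℤ)).toNat : ℤ) = m % (n : ℤ) := Int.toNat_of_nonneg h0
  have h3 : (m % (n : ℤ)).toNat < n := by
    have : ((m % (n : ℤ)).toNat : ℤ) < n := by rw [h2]; exact h1
    exact_mod_cast this
  refine ⟨R + (m / (n : ℤ)) • y, ⟨(m % (n : ℤ)).toNat, h3⟩, ?_⟩
  rw [seljjMk_eq_iff]
  refine ⟨-(m / (n : ℤ)), ?_, ?_⟩
  · simp
  · show m - ((m % (n : ℤ)).toNat : ℤ) = _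
    rw [h2]
    have := Int.emod_add_mul_ediv m n
    linarith

theorem seljj_finite_torsion (hn : 0 < n)
    (hfin : Finite (Submodule.torsionBy ℤ J (n : ℤ))) :
    Finite (Submodule.torsionBy ℤ (SeljjJ J y n) (n : ℤ)) := by
  classical
  -- base points
  let s : Fin n → J := fun m =>
    if h : ∃ R : J, (n : ℤ) • R + ((m : ℕ) : ℤ) • y = 0 then h.choose else 0
  let φ : Submodule.torsionBy ℤ J (n : ℤ) × Fin n → SeljjJ J y n := fun p =>
    seljjMk J y n ((p.1 : J) + s p.2, ((p.2 : ℕ) : ℤ))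
  have hsub : ((Submodule.torsionBy ℤ (SeljjJ J y n) (n : ℤ) : Submodule ℤ (SeljjJ J y n)) :
      Set (SeljjJ J y n)) ⊆ Set.range φ := by
    intro x hx
    rw [SetLike.mem_coe, Submodule.mem_torsionBy_iff] at hx
    obtain ⟨R, m, rfl⟩ := seljj_exists_rep y n hn x
    rw [seljj_zsmul_mk_eq_zero_iff J y n hn] at hx
    have hex : ∃ R : J, (n : ℤ) • R + ((m : ℕ) : ℤ) • y = 0 := ⟨R, hx⟩
    have hs : (n : ℤ) • s m + ((m : ℕ) : ℤ) • y = 0 := by
      show (n : ℤ) • (if h : ∃ R : J, (n : ℤ) • R + ((m : ℕ) : ℤ) • y = 0 then h.choose else 0)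
        + ((m : ℕ) : ℤ) • y = 0
      rw [dif_pos hex]
      exact hex.choose_spec
    have hmem : R - s m ∈ Submodule.torsionBy ℤ J (n : ℤ) := by
      rw [Submodule.mem_torsionBy_iff, smul_sub]
      have : (n : ℤ) • R = (n : ℤ) • s m := by
        have h1 : (n : ℤ) • R = -(((m : ℕ) : ℤ) • y) := eq_neg_of_add_eq_zero_left hx
        have h2 : (n : ℤ) • s m = -(((m : ℕ) : ℤ) • y) := eq_neg_of_add_eq_zero_left hs
        rw [h1, h2]
      rw [this, sub_self]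
    refine ⟨(⟨R - s m, hmem⟩, m), ?_⟩
    show seljjMk J y n ((R - s m) + s m, ((m : ℕ) : ℤ)) = _
    rw [sub_add_cancel]
  have hfinset : ((Submodule.torsionBy ℤ (SeljjJ J y n) (n : ℤ) :
      Submodule ℤ (SeljjJ J y n)) : Set (SeljjJ J y n)).Finite :=
    (Set.finite_range φ).subset hsub
  exact hfinset.to_subtype

variable [hy : Fact (∀ σ : AlgebraicClosure ℚ ≃ₐ[ℚ] AlgebraicClosure ℚ, σ • y = y)]

theorem seljj_isContAction (hn : 0 < n)
    (hcont : ∀ R : J, (∃ m : ℤ, (n : ℤ) • R + m • y = 0) →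
      ∃ E : IntermediateField ℚ (AlgebraicClosure ℚ), FiniteDimensional ℚ E ∧
        ∀ σ : AlgebraicClosure ℚ ≃ₐ[ℚ] AlgebraicClosure ℚ, (∀ a ∈ E, σ a = a) → σ • R = R) :
    IsContAction (torsAct (SeljjJ J y n) (n : ℤ)) where
  one P := Subtype.ext (one_smul _ (P : SeljjJ J y n))
  mul σ τ P := Subtype.ext (mul_smul σ τ (P : SeljjJ J y n))
  add σ P Q := Subtype.ext (smul_add σ (P : SeljjJ J y n) (Q : SeljjJ J y n))
  open_stab := by
    rintro ⟨x, hx⟩
    rw [Submodule.mem_torsionBy_iff] at hx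
    obtain ⟨⟨R, m⟩, rfl⟩ := seljjMk_surjective J y n x
    rw [seljj_zsmul_mk_eq_zero_iff J y n hn] at hx
    obtain ⟨E, hE1, hE2⟩ := hcont R ⟨m, hx⟩
    refine ⟨E, hE1, fun σ hσ => ?_⟩
    apply Subtype.ext
    show σ • seljjMk J y n (R, m) = seljjMk J y n (R, m)
    rw [seljj_smul_mk]
    show seljjMk J y n (σ • R, m) = _
    rw [hE2 σ hσ]

end torsion

/-! ### The Hopf lattice on `𝕁_y[n]` -/

/-- **SEL-JJ.**  ALG-A + ALG-B + a kernel chart of `J` at `A ∣ p` with FULL lift give a Hopf lattice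
over `ℤ_(p)` on the Galois module `𝕁_y[n]` (the extension of `ℤ/n` by `J[n]` cut out by the
Kummer class of `y`): the Kummer class of `y` is FLAT at `p`. -/
theorem seljj_hopfLattice (hA : LocalToGlobalStatement) (hB : ChartToLocalStatement)
    (p : ℕ) (hp : p.Prime) (A : ValuationSubring (AlgebraicClosure ℚ)) (hAp : A.LiesOverPrime p)
    (J : Type) [AddCommGroup J] [DistribMulAction (AlgebraicClosure ℚ ≃ₐ[ℚ] AlgebraicClosure ℚ) J]
    (J1 : AddSubgroup J) (g : ℕ) (z : J → Fin g → AlgebraicClosure ℚ)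
    (hKC : KernelChart A J J1 g z)
    (hlift : ∀ x : J, ∃ b : J, (∀ σ ∈ A.inertiaSubgroupIn ℚ, σ • b = b) ∧ x - b ∈ J1)
    (y : J) [hy : Fact (∀ σ : AlgebraicClosure ℚ ≃ₐ[ℚ] AlgebraicClosure ℚ, σ • y = y)]
    (n : ℕ) (hn : 0 < n)
    (hfin : Finite (Submodule.torsionBy ℤ J (n : ℤ)))
    (hcont : ∀ R : J, (∃ m : ℤ, (n : ℤ) • R + m • y = 0) →
      ∃ E : IntermediateField ℚ (AlgebraicClosure ℚ), FiniteDimensional ℚ E ∧
        ∀ σ : AlgebraicClosure ℚ ≃ₐ[ℚ] AlgebraicClosure ℚ, (∀ a ∈ E, σ a = a) → σ • R = R) :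
    ∃ H : Subalgebra (GaloisRep.ratLocalizedAt p)
        (Submodule.torsionBy ℤ (SeljjJ J y n) (n : ℤ) → AlgebraicClosure ℚ),
      IsHopfLattice (GaloisRep.ratLocalizedAt p) (torsAct (SeljjJ J y n) (n : ℤ)) H := by
  have hfin' := seljj_finite_torsion y n hn hfin
  have hcont' := seljj_isContAction y n hn hcont
  obtain ⟨Ht, hHt⟩ := hB p hp A hAp (SeljjJ J y n) inferInstance inferInstance
    (J1.map (seljjIota J y n)) g (seljjZ y n z) (seljj_kernelChart y n hn hKC hlift)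
    n hn hfin' hcont'
  exact hA p hp A hAp _ inferInstance hfin' _ hcont' Ht hHt

/-- the shape of helper73's (RC): the Hopf lattice of a kernel chart is reduction-continuous -/
def SeljjRCStatement : Prop :=
  ∀ (p : ℕ) (_ : p.Prime) (A : ValuationSubring (AlgebraicClosure ℚ)) (_ : A.LiesOverPrime p)
    (J : Type) (_ : AddCommGroup J)
    (_ : DistribMulAction (AlgebraicClosure ℚ ≃ₐ[ℚ] AlgebraicClosure ℚ) J)
    (J1 : AddSubgroup J) (g : ℕ) (z : J → Fin g → AlgebraicClosure ℚ),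
    KernelChart A J J1 g z →
    ∀ n : ℕ, 0 < n → Finite (Submodule.torsionBy ℤ J (n : ℤ)) →
      IsContAction (torsAct J (n : ℤ)) →
      ∃ H : Subalgebra (GaloisRep.ratLocalizedAt p)
          (Submodule.torsionBy ℤ J (n : ℤ) → AlgebraicClosure ℚ),
        IsHopfLattice (GaloisRep.ratLocalizedAt p) (torsAct J (n : ℤ)) H ∧
        ∀ h ∈ H, ∀ t t' : Submodule.torsionBy ℤ J (n : ℤ), (t : J) - (t' : J) ∈ J1 →
          h t - h t' ∈ A.nonunits

/-- ALG-A + ALG-B in the reduction-continuous form, applied to `𝕁_y`. -/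
theorem seljj_hopfLattice_rc (hRC : SeljjRCStatement)
    (p : ℕ) (hp : p.Prime) (A : ValuationSubring (AlgebraicClosure ℚ)) (hAp : A.LiesOverPrime p)
    (J : Type) [AddCommGroup J] [DistribMulAction (AlgebraicClosure ℚ ≃ₐ[ℚ] AlgebraicClosure ℚ) J]
    (J1 : AddSubgroup J) (g : ℕ) (z : J → Fin g → AlgebraicClosure ℚ)
    (hKC : KernelChart A J J1 g z)
    (hlift : ∀ x : J, ∃ b : J, (∀ σ ∈ A.inertiaSubgroupIn ℚ, σ • b = b) ∧ x - b ∈ J1)
    (y : J) [hy : Fact (∀ σ : AlgebraicClosure ℚ ≃ₐ[ℚ] AlgebraicClosure ℚ, σ • y = y)]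
    (n : ℕ) (hn : 0 < n)
    (hfin : Finite (Submodule.torsionBy ℤ J (n : ℤ)))
    (hcont : ∀ R : J, (∃ m : ℤ, (n : ℤ) • R + m • y = 0) →
      ∃ E : IntermediateField ℚ (AlgebraicClosure ℚ), FiniteDimensional ℚ E ∧
        ∀ σ : AlgebraicClosure ℚ ≃ₐ[ℚ] AlgebraicClosure ℚ, (∀ a ∈ E, σ a = a) → σ • R = R) :
    ∃ H : Subalgebra (GaloisRep.ratLocalizedAt p)
        (Submodule.torsionBy ℤ (SeljjJ J y n) (n : ℤ) → AlgebraicClosure ℚ),
      IsHopfLattice (GaloisRep.ratLocalizedAt p) (torsAct (SeljjJ J y n) (n : ℤ)) H ∧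
      ∀ h ∈ H, ∀ t t' : Submodule.torsionBy ℤ (SeljjJ J y n) (n : ℤ),
        (t : SeljjJ J y n) - (t' : SeljjJ J y n) ∈ J1.map (seljjIota J y n) →
          h t - h t' ∈ A.nonunits :=
  hRC p hp A hAp (SeljjJ J y n) inferInstance inferInstance
    (J1.map (seljjIota J y n)) g (seljjZ y n z) (seljj_kernelChart y n hn hKC hlift)
    n hn (seljj_finite_torsion y n hn hfin) (seljj_isContAction y n hn hcont)

/-! ### The structure of `𝕁_y[n]`: the extension `0 → J[n] → 𝕁_y[n] → ℤ/n` -/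

section structure'

variable (J : Type) [AddCommGroup J] (y : J) (n : ℕ)

/-- `J[n] → 𝕁_y[n]` -/
def seljjIotaTors : Submodule.torsionBy ℤ J (n : ℤ) →+ Submodule.torsionBy ℤ (SeljjJ J y n) (n : ℤ)
    where
  toFun x := ⟨seljjIota J y n (x : J), by
    rw [Submodule.mem_torsionBy_iff, ← map_zsmul]
    have := x.2
    rw [Submodule.mem_torsionBy_iff] at this
    rw [this, map_zero]⟩
  map_zero' := Subtype.ext (map_zero (seljjIota J y n))
  map_add' x x' := Subtype.ext (map_add (seljjIota J y n) (x : J) (x' : J))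

@[simp] theorem seljjIotaTors_coe (x : Submodule.torsionBy ℤ J (n : ℤ)) :
    ((seljjIotaTors J y n x : Submodule.torsionBy ℤ (SeljjJ J y n) (n : ℤ)) : SeljjJ J y n) =
      seljjIota J y n (x : J) := rfl

theorem seljjIotaTors_injective (hn : 0 < n) : Function.Injective (seljjIotaTors J y n) := by
  intro x x' h
  apply Subtype.ext
  apply seljjIota_injective J y n hn
  exact congrArg Subtype.val h

/-- the points of `𝕁_y[n]` over `m`: `[(R, m)]` with `n R + m y = 0` -/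
def seljjPt (hn : 0 < n) (R : J) (m : ℤ) (h : (n : ℤ) • R + m • y = 0) :
    Submodule.torsionBy ℤ (SeljjJ J y n) (n : ℤ) :=
  ⟨seljjMk J y n (R, m), by
    rw [Submodule.mem_torsionBy_iff, seljj_zsmul_mk_eq_zero_iff J y n hn]
    exact h⟩

theorem seljj_exists_pt (hn : 0 < n) (x : Submodule.torsionBy ℤ (SeljjJ J y n) (n : ℤ)) :
    ∃ (R : J) (m : ℤ) (h : (n : ℤ) • R + m • y = 0), x = seljjPt J y n hn R m h := by
  obtain ⟨x, hx⟩ := x
  obtain ⟨⟨R, m⟩, rfl⟩ := seljjMk_surjective J y n x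
  have h := hx
  rw [Submodule.mem_torsionBy_iff, seljj_zsmul_mk_eq_zero_iff J y n hn] at h
  exact ⟨R, m, h, rfl⟩

/-- two points over the same `m` differ by an element of `J[n]` -/
theorem seljjPt_sub (hn : 0 < n) (R R' : J) (m : ℤ) (h : (n : ℤ) • R + m • y = 0)
    (h' : (n : ℤ) • R' + m • y = 0) :
    ∃ x : Submodule.torsionBy ℤ J (n : ℤ), (x : J) = R - R' ∧
      seljjPt J y n hn R m h - seljjPt J y n hn R' m h' = seljjIotaTors J y n x := by
  have hmem : R - R' ∈ Submodule.torsionBy ℤ J (n : ℤ) := by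
    rw [Submodule.mem_torsionBy_iff, smul_sub]
    have h1 : (n : ℤ) • R = -(m • y) := eq_neg_of_add_eq_zero_left h
    have h2 : (n : ℤ) • R' = -(m • y) := eq_neg_of_add_eq_zero_left h'
    rw [h1, h2, sub_self]
  refine ⟨⟨R - R', hmem⟩, rfl, ?_⟩
  apply Subtype.ext
  show seljjMk J y n (R, m) - seljjMk J y n (R', m) = seljjIota J y n (R - R')
  rw [seljjIota_apply, ← map_sub]
  congr 1
  simp

variable [DistribMulAction (AlgebraicClosure ℚ ≃ₐ[ℚ] AlgebraicClosure ℚ) J]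
  [hy : Fact (∀ σ : AlgebraicClosure ℚ ≃ₐ[ℚ] AlgebraicClosure ℚ, σ • y = y)]

/-- the Galois action on the points: the Kummer cocycle of `y` -/
theorem seljj_torsAct_pt (hn : 0 < n) (σ : AlgebraicClosure ℚ ≃ₐ[ℚ] AlgebraicClosure ℚ)
    (R : J) (m : ℤ) (h : (n : ℤ) • R + m • y = 0) :
    ∃ h' : (n : ℤ) • (σ • R) + m • y = 0,
      torsAct (SeljjJ J y n) (n : ℤ) σ (seljjPt J y n hn R m h) = seljjPt J y n hn (σ • R) m h' := by
  have h' : (n : ℤ) • (σ • R) + m • y = 0 := by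
    have h1 := congrArg (fun x => σ • x) h
    simp only [smul_add, smul_zero] at h1
    rw [smul_comm σ (n : ℤ) R, smul_comm σ m y, hy.out σ] at h1
    exact h1
  exact ⟨h', rfl⟩

theorem seljj_torsAct_iotaTors (σ : AlgebraicClosure ℚ ≃ₐ[ℚ] AlgebraicClosure ℚ)
    (x : Submodule.torsionBy ℤ J (n : ℤ)) :
    torsAct (SeljjJ J y n) (n : ℤ) σ (seljjIotaTors J y n x) =
      seljjIotaTors J y n (torsAct J (n : ℤ) σ x) := rfl

end structure'

end Fermat.Agent.S15
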