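import Fermat.Agent.S15.SelChain

/-!
# S15 / SELMER block, piece SEL-ST: the step bounds and the count (pure algebra)

`NOTES/S15-FIN.md` §1–§2.  `J` an abelian group with an action of `G`, `𝒥 ≤ J` a subgroup (the
local condition at the level), `W ≤ W'` two `G`-stable finite subgroups,
`Y = selY G 𝒥 W`, `Y' = selY G 𝒥 W'`,

  `k = [Y ∩ W' : W]`,   `c = [Y' : Y + W']`.

* `selst_relIndex_le_card` : pigeonhole for an index;
* `selst_c_eq_one`   (ST-A): `c = 1` if the cocycle of every point of `𝒥 ∩ Y'` is, modulo `W`, the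
  coboundary of an element of `W' ∩ (𝒥 + W)`;
* `selst_c_le_card`  (ST-C): `c ≠ 0`, `c ≤ #T` if a map to `T` separates the cocycles of the points
  of `𝒥 ∩ Y'` modulo `W`;
* `selst_c_le_index` : `c ≠ 0`, `c ≤ [W' : W]` if every such cocycle is a coboundary of an element
  of `W'`;
* `selst_c_le_two`   : `c ≠ 0`, `c ≤ 2` if there are at most two such cocycles;
* `selst_k_eq`       (ST-K): `k = [W' : W]` if `W' ≤ 𝒥 + W` and `G` acts trivially on `W' / W`;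
* `selst_card_jumps` : for a chain with steps of prime index `r` and any subgroup `S`,
  `#(W L ∩ S) = r ^ #{i < L | W (i+1) ∩ S ⊄ W i}`;
* `selst_prod_le`    : the product inequality from the step bounds and the count;
* `sel_main`         : the conclusion of `sel_chain` from the step bounds by type
  (étale :⇔ `W (i+1) ∩ V1 ≤ W i`; finite :⇔ `W (i+1) ∩ 𝒥 ⊄ W i`) and `#(W L ∩ V1) ≤ #(W L ∩ 𝒥)`.
-/

set_option autoImplicit false

namespace Fermat.Agent.S15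

open AddSubgroup

variable {J : Type*} [AddCommGroup J]

/-- **pigeonhole**: if a map to a finite type separates the cosets of `H` in `K`, the index
`[K : H ∩ K]` is finite and at most `#T`. -/
theorem selst_relIndex_le_card (H K : AddSubgroup J) {T : Type*} [Finite T] (τ : J → T)
    (h : ∀ a ∈ K, ∀ b ∈ K, τ a = τ b → a - b ∈ H) :
    H.relIndex K ≠ 0 ∧ H.relIndex K ≤ Nat.card T := by
  let f : (↥K ⧸ H.addSubgroupOf K) → T := fun q => τ ((Quotient.out q : ↥K) : J)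
  have hf : Function.Injective f := by
    intro q q' hqq
    have h1 : ((Quotient.out q : ↥K) : J) - ((Quotient.out q' : ↥K) : J) ∈ H :=
      h _ (Quotient.out q).2 _ (Quotient.out q').2 hqq
    have h2 : (QuotientAddGroup.mk (Quotient.out q) : ↥K ⧸ H.addSubgroupOf K)
        = QuotientAddGroup.mk (Quotient.out q') := by
      rw [QuotientAddGroup.eq, AddSubgroup.mem_addSubgroupOf]
      have : ((-(Quotient.out q) + Quotient.out q' : ↥K) : J)
          = -(((Quotient.out q : ↥K) : J) - ((Quotient.out q' : ↥K) : J)) := by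
        push_cast
        abel
      rw [this]
      exact H.neg_mem h1
    have h3 : ∀ x : ↥K ⧸ H.addSubgroupOf K,
        (QuotientAddGroup.mk (Quotient.out x) : ↥K ⧸ H.addSubgroupOf K) = x :=
      fun x => Quotient.out_eq x
    rw [← h3 q, ← h3 q', h2]
  have hfin : Finite (↥K ⧸ H.addSubgroupOf K) := Finite.of_injective f hf
  have hidx : H.relIndex K = Nat.card (↥K ⧸ H.addSubgroupOf K) := by
    rw [AddSubgroup.relIndex, AddSubgroup.index_eq_card]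
  refine ⟨?_, ?_⟩
  · rw [hidx]
    exact Nat.card_pos.ne'
  · rw [hidx]
    exact Nat.card_le_card_of_injective f hf

section Step

variable {G : Type*} [Group G] [DistribMulAction G J]

/-- `Y' = (𝒥 ∩ Y') + W'` -/
theorem selst_decomp {𝒥 W' : AddSubgroup J} (hW' : ∀ σ : G, ∀ w ∈ W', σ • w ∈ W') {j : J}
    (hj : j ∈ selY G 𝒥 W') : ∃ a ∈ 𝒥 ⊓ selY G 𝒥 W', ∃ w ∈ W', j = a + w := by
  obtain ⟨h1, h2⟩ := hj
  obtain ⟨a, ha, w, hw, rfl⟩ := AddSubgroup.mem_sup.1 h1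
  refine ⟨a, ⟨ha, (le_sup_left : 𝒥 ≤ 𝒥 ⊔ W') ha, fun σ => ?_⟩, w, hw, rfl⟩
  have : σ • a - a = (σ • (a + w) - (a + w)) - (σ • w - w) := by rw [smul_add]; abel
  rw [this]
  exact W'.sub_mem (h2 σ) (W'.sub_mem (hW' σ w hw) hw)

/-- a point of `𝒥` whose cocycle vanishes modulo `W` lies in `Y(W)` -/
theorem selst_mem_selY {𝒥 W : AddSubgroup J} {a : J} (ha : a ∈ 𝒥)
    (h : ∀ σ : G, σ • a - a ∈ W) : a ∈ selY G 𝒥 W :=
  ⟨(le_sup_left : 𝒥 ≤ 𝒥 ⊔ W) ha, h⟩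

/-- **(ST-C)**, general form: `c ≠ 0` and `c ≤ #T` if a map to the finite type `T` separates the
classes of the points of `𝒥 ∩ Y'` modulo `Y + W'`. -/
theorem selst_c_le_card' (𝒥 W W' : AddSubgroup J)
    (hW' : ∀ σ : G, ∀ w ∈ W', σ • w ∈ W') {T : Type*} [Finite T] (τ : J → T)
    (hτ : ∀ a ∈ 𝒥 ⊓ selY G 𝒥 W', ∀ b ∈ 𝒥 ⊓ selY G 𝒥 W', τ a = τ b →
      a - b ∈ selY G 𝒥 W ⊔ W') :
    (selY G 𝒥 W ⊔ W').relIndex (selY G 𝒥 W') ≠ 0 ∧
      (selY G 𝒥 W ⊔ W').relIndex (selY G 𝒥 W') ≤ Nat.card T := by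
  classical
  -- choose the `𝒥`-component of a point of `Y'`
  let comp : J → J := fun j =>
    if hj : j ∈ selY G 𝒥 W' then (selst_decomp hW' hj).choose else 0
  have hcomp : ∀ j ∈ selY G 𝒥 W', comp j ∈ 𝒥 ⊓ selY G 𝒥 W' ∧ ∃ w ∈ W', j = comp j + w := by
    intro j hj
    have h := (selst_decomp hW' hj).choose_spec
    simp only [comp, dif_pos hj]
    exact h
  refine selst_relIndex_le_card (selY G 𝒥 W ⊔ W') (selY G 𝒥 W') (fun j => τ (comp j)) ?_
  intro a ha b hb hab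
  obtain ⟨ha1, wa, hwa, hae⟩ := hcomp a ha
  obtain ⟨hb1, wb, hwb, hbe⟩ := hcomp b hb
  have h1 := hτ _ ha1 _ hb1 hab
  have h2 : a - b = (comp a - comp b) + (wa - wb) := by
    conv_lhs => rw [hae, hbe]
    abel
  rw [h2]
  exact add_mem h1 ((le_sup_right : W' ≤ selY G 𝒥 W ⊔ W') (W'.sub_mem hwa hwb))

/-- **(ST-C)**: `c ≠ 0` and `c ≤ #T` if a map to the finite type `T` separates the cocycles modulo
`W` of the points of `𝒥 ∩ Y'`. -/
theorem selst_c_le_card (𝒥 W W' : AddSubgroup J)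
    (hW' : ∀ σ : G, ∀ w ∈ W', σ • w ∈ W') {T : Type*} [Finite T] (τ : J → T)
    (hτ : ∀ a ∈ 𝒥, (∀ σ : G, σ • a - a ∈ W') → ∀ b ∈ 𝒥, (∀ σ : G, σ • b - b ∈ W') →
      τ a = τ b → ∀ σ : G, σ • (a - b) - (a - b) ∈ W) :
    (selY G 𝒥 W ⊔ W').relIndex (selY G 𝒥 W') ≠ 0 ∧
      (selY G 𝒥 W ⊔ W').relIndex (selY G 𝒥 W') ≤ Nat.card T := by
  refine selst_c_le_card' 𝒥 W W' hW' τ ?_
  intro a ha b hb hab
  exact (le_sup_left : selY G 𝒥 W ≤ selY G 𝒥 W ⊔ W')
    (selst_mem_selY (𝒥.sub_mem ha.1 hb.1) (hτ a ha.1 ha.2.2 b hb.1 hb.2.2 hab))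

/-- **(ST-A)**: `c = 1` if the cocycle of every point of `𝒥 ∩ Y'` is, modulo `W`, the coboundary
of an element of `W' ∩ (𝒥 + W)`. -/
theorem selst_c_eq_one (𝒥 W W' : AddSubgroup J)
    (hW' : ∀ σ : G, ∀ w ∈ W', σ • w ∈ W')
    (h : ∀ a ∈ 𝒥, (∀ σ : G, σ • a - a ∈ W') →
      ∃ w' ∈ W', w' ∈ 𝒥 ⊔ W ∧ ∀ σ : G, (σ • a - a) - (σ • w' - w') ∈ W) :
    (selY G 𝒥 W ⊔ W').relIndex (selY G 𝒥 W') = 1 := by
  rw [AddSubgroup.relIndex_eq_one]
  intro j hj
  obtain ⟨a, ha, w, hw, rfl⟩ := selst_decomp hW' hj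
  obtain ⟨w', hw', hw'J, hcob⟩ := h a ha.1 ha.2.2
  have h1 : a - w' ∈ selY G 𝒥 W := by
    refine ⟨?_, fun σ => ?_⟩
    · have h2 : a ∈ 𝒥 ⊔ W := (le_sup_left : 𝒥 ≤ 𝒥 ⊔ W) ha.1
      exact (𝒥 ⊔ W).sub_mem h2 hw'J
    · have : σ • (a - w') - (a - w') = (σ • a - a) - (σ • w' - w') := by rw [smul_sub]; abel
      rw [this]
      exact hcob σ
  have h3 : a + w = (a - w') + (w' + w) := by abel
  rw [h3]
  exact add_mem ((le_sup_left : selY G 𝒥 W ≤ selY G 𝒥 W ⊔ W') h1)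
    ((le_sup_right : W' ≤ selY G 𝒥 W ⊔ W') (W'.add_mem hw' hw))

/-- `c = 1` if the cocycle of every point of `𝒥 ∩ Y'` vanishes modulo `W` (étale steps). -/
theorem selst_c_eq_one_of_vanish (𝒥 W W' : AddSubgroup J)
    (hW' : ∀ σ : G, ∀ w ∈ W', σ • w ∈ W')
    (h : ∀ a ∈ 𝒥, (∀ σ : G, σ • a - a ∈ W') → ∀ σ : G, σ • a - a ∈ W) :
    (selY G 𝒥 W ⊔ W').relIndex (selY G 𝒥 W') = 1 := by
  refine selst_c_eq_one 𝒥 W W' hW' (fun a ha ha' => ⟨0, W'.zero_mem, (𝒥 ⊔ W).zero_mem, ?_⟩)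
  intro σ
  rw [smul_zero, sub_zero, sub_zero]
  exact h a ha ha' σ

/-- `c = 1` if `W' ≤ 𝒥 + W` and every cocycle is a coboundary of an element of `W'`
(steps of type (conn, fin), `r` odd). -/
theorem selst_c_eq_one_of_fin (𝒥 W W' : AddSubgroup J)
    (hW' : ∀ σ : G, ∀ w ∈ W', σ • w ∈ W') (hfin : W' ≤ 𝒥 ⊔ W)
    (h : ∀ a ∈ 𝒥, (∀ σ : G, σ • a - a ∈ W') →
      ∃ w' ∈ W', ∀ σ : G, (σ • a - a) - (σ • w' - w') ∈ W) :
    (selY G 𝒥 W ⊔ W').relIndex (selY G 𝒥 W') = 1 := by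
  refine selst_c_eq_one 𝒥 W W' hW' (fun a ha ha' => ?_)
  obtain ⟨w', hw', hc⟩ := h a ha ha'
  exact ⟨w', hw', hfin hw', hc⟩

/-- `c ≠ 0`, `c ≤ [W' : W]` if every cocycle is, modulo `W`, a coboundary of an element of `W'`
(steps of type (conn, null), `r` odd). -/
theorem selst_c_le_index (𝒥 W W' : AddSubgroup J)
    (hW : ∀ σ : G, ∀ w ∈ W, σ • w ∈ W)
    (hW' : ∀ σ : G, ∀ w ∈ W', σ • w ∈ W') (hfinite : Finite ↥W')
    (h : ∀ a ∈ 𝒥, (∀ σ : G, σ • a - a ∈ W') →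
      ∃ w' ∈ W', ∀ σ : G, (σ • a - a) - (σ • w' - w') ∈ W) :
    (selY G 𝒥 W ⊔ W').relIndex (selY G 𝒥 W') ≠ 0 ∧
      (selY G 𝒥 W ⊔ W').relIndex (selY G 𝒥 W') ≤ W.relIndex W' := by
  classical
  -- the chosen primitive
  let prim : J → ↥W' := fun a =>
    if ha : a ∈ 𝒥 ∧ ∀ σ : G, σ • a - a ∈ W' then
      ⟨(h a ha.1 ha.2).choose, (h a ha.1 ha.2).choose_spec.1⟩ else 0
  have hprim : ∀ a ∈ 𝒥, (∀ σ : G, σ • a - a ∈ W') →
      ∀ σ : G, (σ • a - a) - (σ • (prim a : J) - (prim a : J)) ∈ W := by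
    intro a ha ha'
    have := (h a ha ha').choose_spec.2
    simp only [prim, dif_pos (And.intro ha ha')]
    exact this
  have hfinq : Finite (↥W' ⧸ W.addSubgroupOf W') := inferInstance
  have hcard : W.relIndex W' = Nat.card (↥W' ⧸ W.addSubgroupOf W') := by
    rw [AddSubgroup.relIndex, AddSubgroup.index_eq_card]
  rw [hcard]
  refine selst_c_le_card 𝒥 W W' hW'
    (fun a => (QuotientAddGroup.mk (prim a) : ↥W' ⧸ W.addSubgroupOf W')) ?_
  intro a ha ha' b hb hb' hab σ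
  rw [QuotientAddGroup.eq, AddSubgroup.mem_addSubgroupOf] at hab
  have hd : (prim a : J) - (prim b : J) ∈ W := by
    have : (prim a : J) - (prim b : J) = -((-(prim a) + prim b : ↥W') : J) := by
      push_cast
      abel
    rw [this]
    exact W.neg_mem hab
  have h1 := hprim a ha ha' σ
  have h2 := hprim b hb hb' σ
  have h3 : σ • (a - b) - (a - b)
      = ((σ • a - a) - (σ • (prim a : J) - (prim a : J)))
        - ((σ • b - b) - (σ • (prim b : J) - (prim b : J)))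
        + (σ • ((prim a : J) - (prim b : J)) - ((prim a : J) - (prim b : J))) := by
    rw [smul_sub, smul_sub]
    abel
  rw [h3]
  exact W.add_mem (W.sub_mem h1 h2) (W.sub_mem (hW σ _ hd) hd)

/-- `c ≠ 0`, `c ≤ 2` if the cocycles modulo `W` of the points of `𝒥 ∩ Y'` take at most two values
(steps of type conn for `r = 2`: the cocycle is `0` or the character of `ℚ(i)`). -/
theorem selst_c_le_two (𝒥 W W' : AddSubgroup J)
    (hW' : ∀ σ : G, ∀ w ∈ W', σ • w ∈ W') (a₀ : J)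
    (h : ∀ a ∈ 𝒥, (∀ σ : G, σ • a - a ∈ W') →
      (∀ σ : G, σ • a - a ∈ W) ∨ (∀ σ : G, σ • (a - a₀) - (a - a₀) ∈ W)) :
    (selY G 𝒥 W ⊔ W').relIndex (selY G 𝒥 W') ≠ 0 ∧
      (selY G 𝒥 W ⊔ W').relIndex (selY G 𝒥 W') ≤ 2 := by
  classical
  have hb : Nat.card Bool = 2 := by simp
  rw [← hb]
  refine selst_c_le_card 𝒥 W W' hW' (fun a => decide (∀ σ : G, σ • a - a ∈ W)) ?_
  intro a ha ha' b hb hb' hab σ
  simp only [decide_eq_decide] at hab
  by_cases hA : ∀ σ : G, σ • a - a ∈ W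
  · have hB := hab.1 hA
    have : σ • (a - b) - (a - b) = (σ • a - a) - (σ • b - b) := by rw [smul_sub]; abel
    rw [this]
    exact W.sub_mem (hA σ) (hB σ)
  · have hB : ¬ ∀ σ : G, σ • b - b ∈ W := fun hB => hA (hab.2 hB)
    have hA' := (h a ha ha').resolve_left hA
    have hB' := (h b hb hb').resolve_left hB
    have : σ • (a - b) - (a - b)
        = (σ • (a - a₀) - (a - a₀)) - (σ • (b - a₀) - (b - a₀)) := by
      simp only [smul_sub]
      abel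
    rw [this]
    exact W.sub_mem (hA' σ) (hB' σ)

/-- **(ST-K)**: `k = [W' : W]` if `W' ≤ 𝒥 + W` and `G` acts trivially on `W' / W`. -/
theorem selst_k_eq (𝒥 W W' : AddSubgroup J) (hfin : W' ≤ 𝒥 ⊔ W)
    (htriv : ∀ σ : G, ∀ w ∈ W', σ • w - w ∈ W) :
    W.relIndex (selY G 𝒥 W ⊓ W') = W.relIndex W' := by
  have : selY G 𝒥 W ⊓ W' = W' :=
    inf_eq_right.2 (fun w hw => ⟨hfin hw, fun σ => htriv σ w hw⟩)
  rw [this]

end Step

/-! ## Counting the jumps -/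

section Count

/-- the set of jumps of the chain `W` with respect to `S` -/
noncomputable def selstJumps (W : ℕ → AddSubgroup J) (S : AddSubgroup J) (L : ℕ) : Finset ℕ := by
  classical
  exact (Finset.range L).filter (fun i => ¬ (W (i + 1) ⊓ S ≤ W i))

theorem mem_selstJumps {W : ℕ → AddSubgroup J} {S : AddSubgroup J} {L i : ℕ} :
    i ∈ selstJumps W S L ↔ i < L ∧ ¬ (W (i + 1) ⊓ S ≤ W i) := by
  classical
  simp [selstJumps]

/-- one step of the count -/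
theorem selst_card_step {r : ℕ} (hr : r.Prime) (W W' S : AddSubgroup J) (hWW' : W ≤ W')
    (hidx : W.relIndex W' = r) :
    (W' ⊓ S ≤ W → Nat.card ↥(W' ⊓ S) = Nat.card ↥(W ⊓ S)) ∧
    (¬ (W' ⊓ S ≤ W) → Nat.card ↥(W' ⊓ S) = Nat.card ↥(W ⊓ S) * r) := by
  have hle : W ⊓ S ≤ W' ⊓ S := inf_le_inf_right S hWW'
  have h1 := selch_card_mul_relIndex hle
  -- `[W' ∩ S : W ∩ S] = [W' ∩ S : W]`
  have h2 : (W ⊓ S).relIndex (W' ⊓ S) = W.relIndex (W' ⊓ S) := by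
    have e : W ⊓ S ⊓ (W' ⊓ S) = W ⊓ (W' ⊓ S) := by
      apply le_antisymm
      · exact le_inf (inf_le_left.trans inf_le_left) inf_le_right
      · exact le_inf (le_inf inf_le_left (inf_le_right.trans inf_le_right)) inf_le_right
    rw [← AddSubgroup.inf_relIndex_right (W ⊓ S) (W' ⊓ S), e,
      AddSubgroup.inf_relIndex_right W (W' ⊓ S)]
  -- `[W' ∩ S : W] ∣ [W' : W] = r`
  have h3 : W.relIndex (W' ⊓ S) ∣ r := by
    have h4 := AddSubgroup.relIndex_inf_mul_relIndex W W' S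
    have h5 : W.relIndex (W' ⊓ S) ∣ (W ⊓ W').relIndex S := Dvd.intro _ h4
    -- use multiplicativity along `W ≤ W ⊔ (W' ⊓ S) ≤ W'`
    have h6 : W.relIndex (W ⊔ (W' ⊓ S)) * (W ⊔ (W' ⊓ S)).relIndex W' = W.relIndex W' :=
      AddSubgroup.relIndex_mul_relIndex W (W ⊔ (W' ⊓ S)) W' le_sup_left
        (sup_le hWW' inf_le_left)
    have h7 : W.relIndex (W ⊔ (W' ⊓ S)) = W.relIndex (W' ⊓ S) :=
      AddSubgroup.relIndex_sup_left _ _
    rw [h7, hidx] at h6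
    exact Dvd.intro _ h6
  constructor
  · intro h
    have h8 : W.relIndex (W' ⊓ S) = 1 := AddSubgroup.relIndex_eq_one.2 h
    rw [h2, h8, mul_one] at h1
    exact h1.symm
  · intro h
    have h8 : W.relIndex (W' ⊓ S) ≠ 1 := fun h9 => h (AddSubgroup.relIndex_eq_one.1 h9)
    have h9 : W.relIndex (W' ⊓ S) = r := ((Nat.dvd_prime hr).1 h3).resolve_left h8
    rw [h2, h9] at h1
    exact h1.symm

/-- **the count**: `#(W L ∩ S) = r ^ #jumps`. -/
theorem selst_card_jumps {r : ℕ} (hr : r.Prime) (W : ℕ → AddSubgroup J) (S : AddSubgroup J)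
    (L : ℕ) (hW0 : W 0 = ⊥) (hW : ∀ i < L, W i ≤ W (i + 1))
    (hidx : ∀ i < L, (W i).relIndex (W (i + 1)) = r) :
    Nat.card ↥(W L ⊓ S) = r ^ (selstJumps W S L).card := by
  classical
  induction L with
  | zero =>
    have : selstJumps W S 0 = ∅ := by
      ext i
      simp [mem_selstJumps]
    rw [this, Finset.card_empty, pow_zero, hW0, bot_inf_eq]
    exact Nat.card_unique
  | succ L ih =>
    have ih' := ih (fun i hi => hW i (Nat.lt_succ_of_lt hi))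
      (fun i hi => hidx i (Nat.lt_succ_of_lt hi))
    have hstep := selst_card_step hr (W L) (W (L + 1)) S (hW L (Nat.lt_succ_self L))
      (hidx L (Nat.lt_succ_self L))
    by_cases hj : W (L + 1) ⊓ S ≤ W L
    · have e : selstJumps W S (L + 1) = selstJumps W S L := by
        ext i
        rw [mem_selstJumps, mem_selstJumps]
        constructor
        · rintro ⟨h1, h2⟩
          refine ⟨?_, h2⟩
          rcases Nat.lt_succ_iff_lt_or_eq.1 h1 with h | h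
          · exact h
          · subst h; exact absurd hj h2
        · rintro ⟨h1, h2⟩
          exact ⟨Nat.lt_succ_of_lt h1, h2⟩
      rw [e, hstep.1 hj, ih']
    · have e : selstJumps W S (L + 1) = insert L (selstJumps W S L) := by
        ext i
        rw [Finset.mem_insert, mem_selstJumps, mem_selstJumps]
        constructor
        · rintro ⟨h1, h2⟩
          rcases Nat.lt_succ_iff_lt_or_eq.1 h1 with h | h
          · exact Or.inr ⟨h, h2⟩
          · exact Or.inl h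
        · rintro (h | ⟨h1, h2⟩)
          · subst h; exact ⟨Nat.lt_succ_self _, hj⟩
          · exact ⟨Nat.lt_succ_of_lt h1, h2⟩
      have hL : L ∉ selstJumps W S L := fun h => lt_irrefl L (mem_selstJumps.1 h).1
      rw [e, Finset.card_insert_of_notMem hL, hstep.2 hj, ih', pow_succ]

/-- the count, comparison form -/
theorem selst_jumps_le {r : ℕ} (hr : r.Prime) (W : ℕ → AddSubgroup J) (S S' : AddSubgroup J)
    (L : ℕ) (hW0 : W 0 = ⊥) (hW : ∀ i < L, W i ≤ W (i + 1))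
    (hidx : ∀ i < L, (W i).relIndex (W (i + 1)) = r)
    (h : Nat.card ↥(W L ⊓ S) ≤ Nat.card ↥(W L ⊓ S')) :
    (selstJumps W S L).card ≤ (selstJumps W S' L).card := by
  rw [selst_card_jumps hr W S L hW0 hW hidx,
    selst_card_jumps hr W S' L hW0 hW hidx] at h
  exact (Nat.pow_le_pow_iff_right hr.one_lt).1 h

/-- **the product inequality**: `A` the steps with `c · r ≤ k`, `C` the steps with only
`c ≤ r · k`, all other steps with `c ≤ k`; if `#C ≤ #A` then `∏ c ≤ ∏ k`. -/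
theorem selst_prod_le {r : ℕ} (hr : 0 < r) (L : ℕ) (c k : ℕ → ℕ) (A C : Finset ℕ)
    (hA : A ⊆ Finset.range L) (hC : C ⊆ Finset.range L) (hAC : C.card ≤ A.card)
    (h : ∀ i < L, c i * (if i ∈ A then r else 1) ≤ (if i ∈ C then r else 1) * k i) :
    ∏ i ∈ Finset.range L, c i ≤ ∏ i ∈ Finset.range L, k i := by
  classical
  have hsum : ∀ B : Finset ℕ, B ⊆ Finset.range L →
      ∏ i ∈ Finset.range L, (if i ∈ B then r else 1) = r ^ B.card := by
    intro B hB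
    rw [Finset.prod_ite, Finset.prod_const_one, mul_one, Finset.prod_const]
    congr 2
    ext i
    rw [Finset.mem_filter]
    exact ⟨fun h => h.2, fun h => ⟨hB h, h⟩⟩
  have h1 : ∏ i ∈ Finset.range L, (c i * (if i ∈ A then r else 1))
      ≤ ∏ i ∈ Finset.range L, ((if i ∈ C then r else 1) * k i) :=
    Finset.prod_le_prod (fun i _ => Nat.zero_le _) (fun i hi => h i (Finset.mem_range.1 hi))
  rw [Finset.prod_mul_distrib, Finset.prod_mul_distrib, hsum A hA, hsum C hC] at h1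
  have h2 : r ^ C.card ≤ r ^ A.card := Nat.pow_le_pow_right hr hAC
  have h3 : (∏ i ∈ Finset.range L, c i) * r ^ A.card
      ≤ (∏ i ∈ Finset.range L, k i) * r ^ A.card :=
    calc (∏ i ∈ Finset.range L, c i) * r ^ A.card
        ≤ r ^ C.card * ∏ i ∈ Finset.range L, k i := h1
      _ ≤ r ^ A.card * ∏ i ∈ Finset.range L, k i := Nat.mul_le_mul_right _ h2
      _ = (∏ i ∈ Finset.range L, k i) * r ^ A.card := mul_comm _ _
  exact Nat.le_of_mul_le_mul_right h3 (Nat.pow_pos hr)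

end Count

/-! ## The main theorem of the abstract descent -/

section Main

variable {G : Type*} [Group G] [DistribMulAction G J]

/-- **SEL-ST, final form.**  `W 0 = ⊥ ≤ … ≤ W L` a chain of `G`-stable finite subgroups with steps
of prime index `r`; `𝒥` the local condition at the level, `V1` the kernel of reduction at `r`.
A step is étale if `W (i+1) ∩ V1 ≤ W i` and finite if `W (i+1) ∩ 𝒥 ⊄ W i`.  If

* étale steps have `c = 1`, and `k = r` when they are finite,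
* (conn, fin) steps have `c ≠ 0`, `c ≤ k`,
* (conn, null) steps have `c ≠ 0`, `c ≤ r`,
* `#(W L ∩ V1) ≤ #(W L ∩ 𝒥)`,
* `#(Y(⊥) ∩ W L) ≤ r ^ t`,

then `r ^ t • Y(W L) ≤ Y(⊥) + W L`. -/
theorem sel_main {r : ℕ} (hr : r.Prime) (𝒥 V1 : AddSubgroup J) (W : ℕ → AddSubgroup J) (L t : ℕ)
    (hW0 : W 0 = ⊥) (hW : ∀ i < L, W i ≤ W (i + 1))
    (hWG : ∀ i ≤ L, ∀ σ : G, ∀ w ∈ W i, σ • w ∈ W i)
    (hfin : ∀ i ≤ L, Finite ↥(W i))
    (hidx : ∀ i < L, (W i).relIndex (W (i + 1)) = r)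
    (hcnt : Nat.card ↥(W L ⊓ V1) ≤ Nat.card ↥(W L ⊓ 𝒥))
    (het : ∀ i < L, W (i + 1) ⊓ V1 ≤ W i → selchC W (fun i => selY G 𝒥 (W i)) i = 1)
    (hetfin : ∀ i < L, W (i + 1) ⊓ V1 ≤ W i → ¬ (W (i + 1) ⊓ 𝒥 ≤ W i) →
      selchK W (fun i => selY G 𝒥 (W i)) i = r)
    (hconnfin : ∀ i < L, ¬ (W (i + 1) ⊓ V1 ≤ W i) → ¬ (W (i + 1) ⊓ 𝒥 ≤ W i) →
      selchC W (fun i => selY G 𝒥 (W i)) i ≠ 0 ∧
        selchC W (fun i => selY G 𝒥 (W i)) i ≤ selchK W (fun i => selY G 𝒥 (W i)) i)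
    (hconnnull : ∀ i < L, ¬ (W (i + 1) ⊓ V1 ≤ W i) → W (i + 1) ⊓ 𝒥 ≤ W i →
      selchC W (fun i => selY G 𝒥 (W i)) i ≠ 0 ∧ selchC W (fun i => selY G 𝒥 (W i)) i ≤ r)
    (ht : Nat.card ↥(selY G 𝒥 ⊥ ⊓ W L) ≤ r ^ t)
    {j : J} (hj : j ∈ selY G 𝒥 (W L)) : r ^ t • j ∈ selY G 𝒥 ⊥ ⊔ W L := by
  classical
  have hrW : ∀ i < L, ∀ w ∈ W (i + 1), r • w ∈ W i := by
    intro i hi w hw
    have := selch_relIndex_nsmul_mem (W i) (W (i + 1)) (hW i hi) hw
    rwa [hidx i hi] at this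
  have hkpos : ∀ i < L, 0 < selchK W (fun i => selY G 𝒥 (W i)) i := fun i hi =>
    selchK_pos W (fun i => selY G 𝒥 (W i)) i (le_selY (hWG i hi.le)) (hW i hi) (hfin (i + 1) hi)
  have hc : ∀ i < L, selchC W (fun i => selY G 𝒥 (W i)) i ≠ 0 := by
    intro i hi
    by_cases h1 : W (i + 1) ⊓ V1 ≤ W i
    · rw [het i hi h1]; exact one_ne_zero
    · by_cases h2 : W (i + 1) ⊓ 𝒥 ≤ W i
      · exact (hconnnull i hi h1 h2).1
      · exact (hconnfin i hi h1 h2).1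
  refine sel_chain hr 𝒥 W L t hW0 hW hWG hfin hrW hc ?_ ht hj
  -- the product inequality
  set A : Finset ℕ := selstJumps W 𝒥 L \ selstJumps W V1 L with hA
  set C : Finset ℕ := selstJumps W V1 L \ selstJumps W 𝒥 L with hC
  have hsub : ∀ S : AddSubgroup J, selstJumps W S L ⊆ Finset.range L := fun S i hi =>
    Finset.mem_range.2 (mem_selstJumps.1 hi).1
  have hjl := selst_jumps_le hr W V1 𝒥 L hW0 hW hidx hcnt
  have hAC : C.card ≤ A.card := by
    have e1 := Finset.card_sdiff_add_card_inter (selstJumps W V1 L) (selstJumps W 𝒥 L)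
    have e2 := Finset.card_sdiff_add_card_inter (selstJumps W 𝒥 L) (selstJumps W V1 L)
    rw [Finset.inter_comm] at e2
    rw [hA, hC]
    omega
  refine selst_prod_le hr.pos L _ _ A C (Finset.sdiff_subset.trans (hsub _))
    (Finset.sdiff_subset.trans (hsub _)) hAC ?_
  intro i hi
  have hmemA : i ∈ A ↔ ¬ (W (i + 1) ⊓ 𝒥 ≤ W i) ∧ W (i + 1) ⊓ V1 ≤ W i := by
    rw [hA, Finset.mem_sdiff, mem_selstJumps, mem_selstJumps]
    constructor
    · rintro ⟨⟨_, h1⟩, h2⟩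
      exact ⟨h1, by_contra fun h3 => h2 ⟨hi, h3⟩⟩
    · rintro ⟨h1, h2⟩
      exact ⟨⟨hi, h1⟩, fun h3 => h3.2 h2⟩
  have hmemC : i ∈ C ↔ ¬ (W (i + 1) ⊓ V1 ≤ W i) ∧ W (i + 1) ⊓ 𝒥 ≤ W i := by
    rw [hC, Finset.mem_sdiff, mem_selstJumps, mem_selstJumps]
    constructor
    · rintro ⟨⟨_, h1⟩, h2⟩
      exact ⟨h1, by_contra fun h3 => h2 ⟨hi, h3⟩⟩
    · rintro ⟨h1, h2⟩
      exact ⟨⟨hi, h1⟩, fun h3 => h3.2 h2⟩
  have hk := hkpos i hi
  by_cases h1 : W (i + 1) ⊓ V1 ≤ W i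
  · have hcC : i ∉ C := fun h => (hmemC.1 h).1 h1
    rw [if_neg hcC, one_mul, het i hi h1, one_mul]
    by_cases h2 : W (i + 1) ⊓ 𝒥 ≤ W i
    · have hcA : i ∉ A := fun h => (hmemA.1 h).1 h2
      rw [if_neg hcA]
      exact hk
    · have hcA : i ∈ A := hmemA.2 ⟨h2, h1⟩
      rw [if_pos hcA, hetfin i hi h1 h2]
  · have hcA : i ∉ A := fun h => h1 (hmemA.1 h).2
    rw [if_neg hcA, mul_one]
    by_cases h2 : W (i + 1) ⊓ 𝒥 ≤ W i
    · have hcC : i ∈ C := hmemC.2 ⟨h1, h2⟩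
      rw [if_pos hcC]
      calc selchC W (fun i => selY G 𝒥 (W i)) i ≤ r := (hconnnull i hi h1 h2).2
        _ = r * 1 := (mul_one r).symm
        _ ≤ r * selchK W (fun i => selY G 𝒥 (W i)) i := Nat.mul_le_mul_left r hk
    · have hcC : i ∉ C := fun h => h2 (hmemC.1 h).2
      rw [if_neg hcC, one_mul]
      exact (hconnfin i hi h1 h2).2

/-- the modular law: a step is finite iff `W' ≤ 𝒥 + W` (for steps of prime index). -/
theorem selst_fin_iff {r : ℕ} (hr : r.Prime) (𝒥 W W' : AddSubgroup J) (hWW' : W ≤ W')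
    (hidx : W.relIndex W' = r) : ¬ (W' ⊓ 𝒥 ≤ W) ↔ W' ≤ 𝒥 ⊔ W := by
  -- `W ≤ W + (W' ∩ 𝒥) ≤ W'` and the index is prime
  have h6 : W.relIndex (W ⊔ (W' ⊓ 𝒥)) * (W ⊔ (W' ⊓ 𝒥)).relIndex W' = W.relIndex W' :=
    AddSubgroup.relIndex_mul_relIndex W (W ⊔ (W' ⊓ 𝒥)) W' le_sup_left
      (sup_le hWW' inf_le_left)
  have h7 : W.relIndex (W ⊔ (W' ⊓ 𝒥)) = W.relIndex (W' ⊓ 𝒥) :=
    AddSubgroup.relIndex_sup_left _ _
  rw [h7, hidx] at h6
  constructor
  · intro h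
    have h8 : W.relIndex (W' ⊓ 𝒥) ≠ 1 := fun h9 => h (AddSubgroup.relIndex_eq_one.1 h9)
    have h9 : W.relIndex (W' ⊓ 𝒥) = r :=
      ((Nat.dvd_prime hr).1 (Dvd.intro _ h6)).resolve_left h8
    rw [h9] at h6
    have h10 : (W ⊔ (W' ⊓ 𝒥)).relIndex W' = 1 := by
      have := hr.pos
      exact Nat.eq_of_mul_eq_mul_left this (by rw [h6, mul_one])
    have h11 : W' ≤ W ⊔ (W' ⊓ 𝒥) := AddSubgroup.relIndex_eq_one.1 h10
    exact h11.trans (sup_le le_sup_right (inf_le_right.trans le_sup_left))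
  · intro h h'
    -- `W' = W' ∩ (𝒥 + W) = (W' ∩ 𝒥) + W ≤ W`
    have h1 : W' ≤ W := by
      intro w hw
      obtain ⟨a, ha, b, hb, rfl⟩ := AddSubgroup.mem_sup.1 (h hw)
      have ha' : a ∈ W' := by
        have : a = (a + b) - b := by abel
        rw [this]
        exact W'.sub_mem hw (hWW' hb)
      exact W.add_mem (h' ⟨ha', ha⟩) hb
    have h2 : W.relIndex W' = 1 := AddSubgroup.relIndex_eq_one.2 h1
    rw [hidx] at h2
    exact hr.one_lt.ne' h2

end Main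

end Fermat.Agent.S15
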