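import Fermat.Agent.S15.Plan
import Fermat.Agent.S15.SelJJ
import Fermat.Agent.S15.SelStep

/-!
# S15 / SELMER block: the arithmetic instantiation (SEL-AR) — exact statements

Sub-captain helper12.  Design: `NOTES/S15-FIN.md`, `NOTES/S15-SelAR.md`.
`N` the (prime) level, `r` the descent prime, `J = JZero N`, `G = GalQ`, `k` the level of the
torsion, `AN ∣ N`, `Ar ∣ r` valuation rings of `ℚ̄`.

* `selIF N AN`  : the points of `J` fixed by the inertia group of `AN` (the local condition `𝒥` at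
  the level: with this choice (L-N) is a tautology and `E 𝒥 ⊂ 𝒥` for every equivariant `E`).
* `SelLocR N r Ar V1` : the local package at `r`: `V1` contains `(σ - 1) J` for `σ ∈ I_{Ar}`, and
  every `𝕁_y[r^k]` has a Hopf lattice over `ℤ_(r)` which is reduction-continuous w.r.t. `V1`.
  (`r ≥ 5`: `seljj_hopfLattice_rc_JZero`; `r ∈ {2,3}`: level-up.)
* `selEisPart N r k` : the Eisenstein part `G_k` of `J[r^k]`.
* `SelStep`, `SelStepTriv`, `SelStepCyc` : a step `W ≤ W'` of the composition series and its type.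
* the pieces: `StmtSelLQ`, `StmtSelLocR`, `StmtSelArEt`, `StmtSelArConnOdd`, `StmtSelArConnTwo`,
  `StmtSelArTrivEt`, `StmtSelArCycConn`, `StmtSelEis`, `StmtSelCnt`, and the goal `StmtFinCore`.
-/

set_option autoImplicit false

noncomputable section

namespace Fermat.Agent.S15

open ModularCurve AlgebraicCurve
open Fermat.Agent.S24 Fermat.Agent.W1

/-- the points of `J₀(N)` fixed by the inertia group of `A` -/
def selIF (N : ℕ) [NeZero N] (A : ValuationSubring Kb) : AddSubgroup (JZero N) where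
  carrier := {a | ∀ σ ∈ A.inertiaSubgroupIn ℚ, σ • a = a}
  zero_mem' := fun σ _ => smul_zero σ
  add_mem' := fun {a b} ha hb σ hσ => by rw [smul_add, ha σ hσ, hb σ hσ]
  neg_mem' := fun {a} ha σ hσ => by rw [smul_neg, ha σ hσ]

theorem mem_selIF {N : ℕ} [NeZero N] {A : ValuationSubring Kb} {a : JZero N} :
    a ∈ selIF N A ↔ ∀ σ ∈ A.inertiaSubgroupIn ℚ, σ • a = a := Iff.rfl

/-- **the local package at the descent prime `r`** -/
structure SelLocR (N r : ℕ) [NeZero N] (Ar : ValuationSubring Kb)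
    (V1 : AddSubgroup (JZero N)) : Prop where
  /-- inertia acts trivially on the reduction -/
  inertia : ∀ σ ∈ Ar.inertiaSubgroupIn ℚ, ∀ a : JZero N, σ • a - a ∈ V1
  /-- the flat, reduction-continuous lattice on `𝕁_y[r^k]` -/
  lattice : ∀ (y : JZero N) [Fact (∀ σ : GalQ, σ • y = y)] (k : ℕ),
    ∃ H : Subalgebra (GaloisRep.ratLocalizedAt r)
        (Submodule.torsionBy ℤ (SeljjJ (JZero N) y (r ^ k)) ((r ^ k : ℕ) : ℤ) → Kb),
      IsHopfLattice (GaloisRep.ratLocalizedAt r)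
        (torsAct (SeljjJ (JZero N) y (r ^ k)) ((r ^ k : ℕ) : ℤ)) H ∧
      ∀ h ∈ H, ∀ u u' : Submodule.torsionBy ℤ (SeljjJ (JZero N) y (r ^ k)) ((r ^ k : ℕ) : ℤ),
        (u : SeljjJ (JZero N) y (r ^ k)) - (u' : SeljjJ (JZero N) y (r ^ k)) ∈
          V1.map (seljjIota (JZero N) y (r ^ k)) → h u - h u' ∈ Ar.nonunits

/-- **SEL-LOCR**: the local package exists at every prime `r ∤ N`. -/
def StmtSelLocR : Prop :=
  ∀ (N : ℕ) [NeZero N] (r : ℕ), N.Prime → r.Prime → r ≠ N →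
    ∀ Ar : ValuationSubring Kb, Ar.LiesOverPrime r → ∃ V1 : AddSubgroup (JZero N),
      SelLocR N r Ar V1

/-- **SEL-LQ**: division points are unramified at the good primes `q`. -/
def StmtSelLQ : Prop :=
  ∀ (N : ℕ) [NeZero N] (q : ℕ), q.Prime → ¬ q ∣ N → ∀ m : ℕ, 0 < m → ¬ q ∣ m →
    ∃ A : ValuationSubring Kb, A.LiesOverPrime q ∧
      ∀ σ ∈ A.inertiaSubgroupIn ℚ, ∀ a : JZero N, m • (σ • a - a) = 0 → σ • a = a

/-! ## Steps -/

/-- a step of the composition series -/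
structure SelStep (N r k : ℕ) [NeZero N] (W W' : AddSubgroup (JZero N)) : Prop where
  le : W ≤ W'
  tors : ∀ w ∈ W', r ^ k • w = 0
  stab : ∀ σ : GalQ, ∀ w ∈ W, σ • w ∈ W
  stab' : ∀ σ : GalQ, ∀ w ∈ W', σ • w ∈ W'
  idx : W.relIndex W' = r

/-- `G` acts trivially on `W' / W` -/
def SelStepTriv {N : ℕ} [NeZero N] (W W' : AddSubgroup (JZero N)) : Prop :=
  ∀ σ : GalQ, ∀ w ∈ W', σ • w - w ∈ W

/-- `W' / W ≅ μ_r` as a Galois module: an equivariant character of `W'` with kernel `W` -/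
def SelStepCyc {N : ℕ} [NeZero N] (W W' : AddSubgroup (JZero N)) : Prop :=
  ∃ ψ : JZero N → Kb, (∀ u ∈ W', ∀ v ∈ W', ψ (u + v) = ψ u * ψ v) ∧ ψ 0 = 1 ∧
    (∀ σ : GalQ, ∀ v ∈ W', ψ (σ • v) = σ (ψ v)) ∧ ∀ w ∈ W', ψ w = 1 ↔ w ∈ W

/-- **AR-ET**: in an étale step with trivial action the cocycles of the points of `𝒥` vanish. -/
def StmtSelArEt : Prop :=
  ∀ (N : ℕ) [NeZero N] (r k : ℕ), N.Prime → r.Prime → r ≠ N →
    ∀ AN Ar : ValuationSubring Kb, AN.LiesOverPrime N → Ar.LiesOverPrime r →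
    ∀ V1 : AddSubgroup (JZero N),
      (∀ σ ∈ Ar.inertiaSubgroupIn ℚ, ∀ a : JZero N, σ • a - a ∈ V1) →
    ∀ W W' : AddSubgroup (JZero N), SelStep N r k W W' → SelStepTriv W W' → W' ⊓ V1 ≤ W →
      ∀ a ∈ selIF N AN, (∀ σ : GalQ, σ • a - a ∈ W') → ∀ σ : GalQ, σ • a - a ∈ W

/-- **AR-CN**: in a step of type `μ_r`, `r` odd, the cocycles of the points of `𝒥` are
coboundaries. -/
def StmtSelArConnOdd : Prop :=
  ∀ (N : ℕ) [NeZero N] (r k : ℕ), N.Prime → r.Prime → r ≠ N → r ≠ 2 →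
    ∀ AN Ar : ValuationSubring Kb, AN.LiesOverPrime N → Ar.LiesOverPrime r →
    ∀ V1 : AddSubgroup (JZero N), SelLocR N r Ar V1 →
    ∀ W W' : AddSubgroup (JZero N), SelStep N r k W W' → SelStepCyc W W' →
      ∀ a ∈ selIF N AN, (∀ σ : GalQ, σ • a - a ∈ W') →
        ∃ w' ∈ W', ∀ σ : GalQ, (σ • a - a) - (σ • w' - w') ∈ W

/-- **AR-C2**: `r = 2`: there are at most two cocycles. -/
def StmtSelArConnTwo : Prop :=
  ∀ (N : ℕ) [NeZero N] (k : ℕ), N.Prime → 2 ≠ N →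
    ∀ AN Ar : ValuationSubring Kb, AN.LiesOverPrime N → Ar.LiesOverPrime 2 →
    ∀ V1 : AddSubgroup (JZero N), SelLocR N 2 Ar V1 →
    ∀ W W' : AddSubgroup (JZero N), SelStep N 2 k W W' →
      ∃ a₀ : JZero N, ∀ a ∈ selIF N AN, (∀ σ : GalQ, σ • a - a ∈ W') →
        (∀ σ : GalQ, σ • a - a ∈ W) ∨ (∀ σ : GalQ, σ • (a - a₀) - (a - a₀) ∈ W)

/-- **AR-3**: a step with trivial action is étale (`r` odd). -/
def StmtSelArTrivEt : Prop :=
  ∀ (N : ℕ) [NeZero N] (r k : ℕ), N.Prime → r.Prime → r ≠ N → r ≠ 2 →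
    ∀ Ar : ValuationSubring Kb, Ar.LiesOverPrime r →
    ∀ V1 : AddSubgroup (JZero N), SelLocR N r Ar V1 →
    ∀ W W' : AddSubgroup (JZero N), SelStep N r k W W' → SelStepTriv W W' → W' ⊓ V1 ≤ W

/-- **AR-4**: a step of type `μ_r` is connected (`r` odd). -/
def StmtSelArCycConn : Prop :=
  ∀ (N : ℕ) [NeZero N] (r k : ℕ), r.Prime → r ≠ 2 →
    ∀ Ar : ValuationSubring Kb, Ar.LiesOverPrime r →
    ∀ V1 : AddSubgroup (JZero N),
      (∀ σ ∈ Ar.inertiaSubgroupIn ℚ, ∀ a : JZero N, σ • a - a ∈ V1) →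
    ∀ W W' : AddSubgroup (JZero N), SelStep N r k W W' → SelStepCyc W W' → ¬ (W' ⊓ V1 ≤ W)

/-! ## The Eisenstein part -/

theorem selplan_nsmul_neg {J : Type*} [AddCommGroup J] (n : ℕ) (a : J) : n • -a = -(n • a) := by
  rw [← neg_nsmul]

/-- the operator `T_q - (1 + q)` -/
def selEisOp (N : ℕ) [NeZero N] (q : Nat.Primes) : Module.End ℤ (JZero N) :=
  heckeOperatorBar N q - ((1 + (q : ℕ) : ℕ) : ℤ) • (1 : Module.End ℤ (JZero N))

/-- the Eisenstein part `G_k` of `J[r^k]`: the points on which every `T_q - (1 + q)`, `q ∤ N r`,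
is nilpotent -/
def selEisPart (N r k : ℕ) [NeZero N] : AddSubgroup (JZero N) where
  carrier := {y | r ^ k • y = 0 ∧ ∀ q : Nat.Primes, ¬ (q : ℕ) ∣ N * r →
    ∃ m : ℕ, (selEisOp N q ^ m) y = 0}
  zero_mem' := ⟨nsmul_zero _, fun _ _ => ⟨0, map_zero _⟩⟩
  add_mem' := by
    rintro a b ⟨ha, ha'⟩ ⟨hb, hb'⟩
    refine ⟨by rw [nsmul_add, ha, hb, add_zero], fun q hq => ?_⟩
    obtain ⟨m, hm⟩ := ha' q hq
    obtain ⟨m', hm'⟩ := hb' q hq
    refine ⟨m + m', ?_⟩
    have h1 : (selEisOp N q ^ (m + m')) a = 0 := by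
      rw [add_comm, pow_add, Module.End.mul_apply, hm, map_zero]
    have h2 : (selEisOp N q ^ (m + m')) b = 0 := by
      rw [pow_add, Module.End.mul_apply, hm', map_zero]
    rw [map_add, h1, h2, add_zero]
  neg_mem' := by
    rintro a ⟨ha, ha'⟩
    refine ⟨by rw [selplan_nsmul_neg, ha, neg_zero], fun q hq => ?_⟩
    obtain ⟨m, hm⟩ := ha' q hq
    exact ⟨m, by rw [map_neg, hm, neg_zero]⟩

theorem mem_selEisPart {N r k : ℕ} [NeZero N] {y : JZero N} :
    y ∈ selEisPart N r k ↔ r ^ k • y = 0 ∧ ∀ q : Nat.Primes, ¬ (q : ℕ) ∣ N * r →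
      ∃ m : ℕ, (selEisOp N q ^ m) y = 0 := Iff.rfl

/-- the data of the Eisenstein part: the projector and a composition series -/
structure SelEisData (N : ℕ) [NeZero N] where
  /-- the Hecke operator which projects `J[r^k]` onto `G_k` -/
  E : JZero N →+ JZero N
  /-- the length of the composition series -/
  L : ℕ
  /-- the composition series -/
  W : ℕ → AddSubgroup (JZero N)

/-- the properties of the Eisenstein data -/
structure SelEisData.IsEis {N : ℕ} [NeZero N] (D : SelEisData N) (r k : ℕ) (cr : JZero N) :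
    Prop where
  E_equiv : ∀ (σ : GalQ) (x : JZero N), D.E (σ • x) = σ • D.E x
  E_cr : D.E cr = cr
  E_mem : ∀ x : JZero N, r ^ k • x = 0 → D.E x ∈ selEisPart N r k
  W_zero : D.W 0 = ⊥
  W_top : D.W D.L = selEisPart N r k
  step : ∀ i < D.L, SelStep N r k (D.W i) (D.W (i + 1)) ∧
    (SelStepTriv (D.W i) (D.W (i + 1)) ∨ SelStepCyc (D.W i) (D.W (i + 1)))

/-- **SEL-EIS** (HECKE + ADM): the projector and the admissible composition series. -/
def StmtSelEis : Prop :=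
  ∀ (N : ℕ) [NeZero N] (r : ℕ), N.Prime → r.Prime → r ≠ N →
    ∀ cr : JZero N, cr ≠ 0 → r • cr = 0 → (∃ n : ℕ, cr = n • cuspClass N) →
    ∀ k : ℕ, ∃ D : SelEisData N, D.IsEis r k cr

/-- **SEL-CNT** (ORD + TORIC): up to a bounded factor the part of `G_k` fixed by the inertia at `N`
is at least as large as the kernel of reduction at `r`. -/
def StmtSelCnt : Prop :=
  ∀ (N : ℕ) [NeZero N] (r : ℕ), N.Prime → r.Prime → r ≠ N →
    ∀ AN Ar : ValuationSubring Kb, AN.LiesOverPrime N → Ar.LiesOverPrime r →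
    ∀ V1 : AddSubgroup (JZero N), SelLocR N r Ar V1 →
    ∃ a : ℕ, ∀ k : ℕ, Nat.card ↥(selEisPart N r k ⊓ V1)
      ≤ r ^ a * Nat.card ↥(selEisPart N r k ⊓ selIF N AN)

/-- **FIN-CORE**, the goal of the SELMER block: the descent for the rational points which are
infinitely `r`-divisible among the points fixed by the inertia at `N`. -/
def StmtFinCore : Prop :=
  ∀ (N : ℕ) [NeZero N], IsMazurLevel N → ∀ r : ℕ, r.Prime → r ≠ N →
    ∀ cr : JZero N, cr ≠ 0 → r • cr = 0 → (∃ n : ℕ, cr = n • cuspClass N) →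
    ∀ AN : ValuationSubring Kb, AN.LiesOverPrime N →
    ∀ w : JZero N, (∀ σ : GalQ, σ • w = w) →
      (∀ k : ℕ, ∃ R ∈ selIF N AN, r ^ k • R = w) → FinAbs GalQ r cr w

/-! ## The two cases `r` odd and `r = 2`

For `r = 2` the count `StmtSelCnt` would need ordinarity; instead the descent at `2` is run with a
second local condition at the archimedean place (helper6, `S15/Real*.lean`, `sel_main2`).
So the top of the block is split. -/

/-- **SEL-CNT for odd `r`** -/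
def StmtSelCntOdd : Prop :=
  ∀ (N : ℕ) [NeZero N] (r : ℕ), N.Prime → r.Prime → r ≠ N → r ≠ 2 →
    ∀ AN Ar : ValuationSubring Kb, AN.LiesOverPrime N → Ar.LiesOverPrime r →
    ∀ V1 : AddSubgroup (JZero N), SelLocR N r Ar V1 →
    ∃ a : ℕ, ∀ k : ℕ, Nat.card ↥(selEisPart N r k ⊓ V1)
      ≤ r ^ a * Nat.card ↥(selEisPart N r k ⊓ selIF N AN)

/-- **FIN-CORE for odd `r`** -/
def StmtFinCoreOdd : Prop :=
  ∀ (N : ℕ) [NeZero N], IsMazurLevel N → ∀ r : ℕ, r.Prime → r ≠ N → r ≠ 2 →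
    ∀ cr : JZero N, cr ≠ 0 → r • cr = 0 → (∃ n : ℕ, cr = n • cuspClass N) →
    ∀ AN : ValuationSubring Kb, AN.LiesOverPrime N →
    ∀ w : JZero N, (∀ σ : GalQ, σ • w = w) →
      (∀ k : ℕ, ∃ R ∈ selIF N AN, r ^ k • R = w) → FinAbs GalQ r cr w

/-- **FIN-CORE for `r = 2`** -/
def StmtFinCoreTwo : Prop :=
  ∀ (N : ℕ) [NeZero N], IsMazurLevel N →
    ∀ cr : JZero N, cr ≠ 0 → 2 • cr = 0 → (∃ n : ℕ, cr = n • cuspClass N) →
    ∀ AN : ValuationSubring Kb, AN.LiesOverPrime N →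
    ∀ w : JZero N, (∀ σ : GalQ, σ • w = w) →
      (∀ k : ℕ, ∃ R ∈ selIF N AN, 2 ^ k • R = w) → FinAbs GalQ 2 cr w

/-- **SEL-CNT for odd `r`**, with the hypotheses on `cr` (so that the composition series of
`StmtSelEis` is available in its proof) -/
def StmtSelCntOddCr : Prop :=
  ∀ (N : ℕ) [NeZero N] (r : ℕ), N.Prime → r.Prime → r ≠ N → r ≠ 2 →
    ∀ cr : JZero N, cr ≠ 0 → r • cr = 0 → (∃ n : ℕ, cr = n • cuspClass N) →
    ∀ AN Ar : ValuationSubring Kb, AN.LiesOverPrime N → Ar.LiesOverPrime r →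
    ∀ V1 : AddSubgroup (JZero N), SelLocR N r Ar V1 →
    ∃ a : ℕ, ∀ k : ℕ, Nat.card ↥(selEisPart N r k ⊓ V1)
      ≤ r ^ a * Nat.card ↥(selEisPart N r k ⊓ selIF N AN)

theorem stmtFinCore_of_cases (h1 : StmtFinCoreOdd) (h2 : StmtFinCoreTwo) : StmtFinCore := by
  intro N _ hN r hr hrN cr hcr0 hrcr hcrc AN hAN w hw hdiv
  by_cases hr2 : r = 2
  · subst hr2
    exact h2 N hN cr hcr0 hrcr hcrc AN hAN w hw hdiv
  · exact h1 N hN r hr hrN hr2 cr hcr0 hrcr hcrc AN hAN w hw hdiv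

end Fermat.Agent.S15
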