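import Fermat.Agent.S15.CntOddAbs
import Fermat.Agent.S15.SelPlan
import Fermat.Prelude.Def_GaloisRep_ComplexConjugation

/-!
# S15 / SEL-CNT, glue `G-odd`: the core (helper47)

* `cntodd_conj_root`   : the complex conjugation inverts roots of unity;
* `cntodd_cyc_no_jump` : a step of type `μ_r`, `r` odd, does not jump for a subgroup of points
  fixed by the complex conjugation;
* `cntodd_core`        : for a composition series of the Eisenstein part with steps of type
  trivial (étale for `V1`) or `μ_r`, `#G ≤ r ^ a · #(G ∩ P) · #(G ∩ Q)` implies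
  `#(G ∩ V1) ≤ r ^ a · #(G ∩ P)`.
-/

set_option autoImplicit false

noncomputable section

namespace Fermat.Agent.S15

open ModularCurve AlgebraicCurve Fermat.Agent.S24

/-- the complex conjugation inverts roots of unity -/
theorem cntodd_conj_root {ζ : Kb} {n : ℕ} (hn : n ≠ 0) (hζ : ζ ^ n = 1) :
    complexConjugation ζ = ζ⁻¹ := by
  apply complexEmbedding.toRingHom.injective
  show complexEmbedding (complexConjugation ζ) = complexEmbedding ζ⁻¹
  rw [complexEmbedding_complexConjugation, map_inv₀]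
  have h1 : (complexEmbedding ζ) ^ n = 1 := by rw [← map_pow, hζ, map_one]
  have h2 : ‖complexEmbedding ζ‖ = 1 := Complex.norm_eq_one_of_pow_eq_one h1 hn
  exact (Complex.inv_eq_conj h2).symm

/-- a step of type `μ_r`, `r` odd, does not jump for the points fixed by the complex
conjugation -/
theorem cntodd_cyc_no_jump {N : ℕ} [NeZero N] {r k : ℕ} (hr : r.Prime) (hr2 : r ≠ 2)
    {W W' : AddSubgroup (JZero N)} (hstep : SelStep N r k W W') (hcyc : SelStepCyc W W')
    {Q : AddSubgroup (JZero N)} (hQ : ∀ x ∈ Q, (complexConjugation : GalQ) • x = x) :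
    W' ⊓ Q ≤ W := by
  obtain ⟨ψ, hmul, h0, heq, hker⟩ := hcyc
  intro w hw
  obtain ⟨hw', hwQ⟩ := AddSubgroup.mem_inf.1 hw
  rw [← hker w hw']
  have hpow : ∀ n : ℕ, ψ (n • w) = ψ w ^ n := by
    intro n
    induction n with
    | zero => rw [zero_nsmul, h0, pow_zero]
    | succ n ih => rw [succ_nsmul, hmul _ (W'.nsmul_mem hw' n) _ hw', ih, pow_succ]
  have hrw : r • w ∈ W := by
    have := selch_relIndex_nsmul_mem W W' hstep.le hw'
    rwa [hstep.idx] at this
  have hζ : ψ w ^ r = 1 := by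
    rw [← hpow, hker _ (W'.nsmul_mem hw' r)]
    exact hrw
  have hc : complexConjugation (ψ w) = ψ w := by
    rw [← heq complexConjugation w hw', hQ w hwQ]
  have hinv := cntodd_conj_root hr.ne_zero hζ
  rw [hc] at hinv
  have hne : ψ w ≠ 0 := by
    intro h
    rw [h, zero_pow hr.ne_zero] at hζ
    exact zero_ne_one hζ
  have h2 : ψ w ^ 2 = 1 := by
    rw [sq]
    nth_rewrite 2 [hinv]
    exact mul_inv_cancel₀ hne
  -- `gcd (2, r) = 1`
  have hodd : Odd r := hr.odd_of_ne_two hr2
  obtain ⟨m, hm⟩ := hodd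
  have h3 : ψ w ^ r = ψ w := by
    rw [hm, pow_succ, pow_mul, h2, one_pow, one_mul]
  rw [← h3, hζ]

/-- **the core of `G-odd`** -/
theorem cntodd_core {N : ℕ} [NeZero N] {r : ℕ} (hr : r.Prime) (hr2 : r ≠ 2) (k : ℕ)
    (cr : JZero N) (D : SelEisData N) (hD : D.IsEis r k cr) (V1 P Q : AddSubgroup (JZero N))
    (hQ : ∀ x ∈ Q, (complexConjugation : GalQ) • x = x)
    (htriv : ∀ W W' : AddSubgroup (JZero N), SelStep N r k W W' → SelStepTriv W W' →
      W' ⊓ V1 ≤ W) (a : ℕ)
    (hcnt : Nat.card ↥(selEisPart N r k) ≤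
      r ^ a * (Nat.card ↥(selEisPart N r k ⊓ P) * Nat.card ↥(selEisPart N r k ⊓ Q))) :
    Nat.card ↥(selEisPart N r k ⊓ V1) ≤ r ^ a * Nat.card ↥(selEisPart N r k ⊓ P) := by
  rw [← hD.W_top] at hcnt ⊢
  refine cntodd_abs hr D.W V1 Q P D.L hD.W_zero (fun i hi => (hD.step i hi).1.le)
    (fun i hi => (hD.step i hi).1.idx) (fun i hi => ?_) a hcnt
  obtain ⟨hst, ht | hc⟩ := hD.step i hi
  · exact Or.inl (htriv _ _ hst ht)
  · exact Or.inr (cntodd_cyc_no_jump hr hr2 hst hc hQ)

end Fermat.Agent.S15
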