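import Mathlib

/-!
# S15 / SEL-CNT / REAL, piece REAL-IDX: the divisible part has bounded index (pure group theory)

`J` an abelian group whose `r ^ n`-torsion is finite for every `n` (`r` a prime).  Then there are
`a : ℕ` and a subgroup `W` of the `r`-power torsion which is `r`-divisible and such that
`#G ≤ r ^ a * #(G ∩ W)` for every finite subgroup `G` of the `r`-power torsion
(`real_idx`).  No structure theorem: `W = r ^ n₀ V`, `n₀` the index where the chain
`r ^ n V ∩ V[r]` becomes stationary.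
-/

set_option autoImplicit false

namespace Fermat.Agent.S15

variable {J : Type*} [AddCommGroup J]

/-- `r ^ n V`, `V` the `r`-power torsion -/
def realDivSub (J : Type*) [AddCommGroup J] (r n : ℕ) : AddSubgroup J where
  carrier := {x | ∃ v : J, (∃ m : ℕ, r ^ m • v = 0) ∧ r ^ n • v = x}
  zero_mem' := ⟨0, ⟨0, smul_zero _⟩, smul_zero _⟩
  add_mem' := by
    rintro _ _ ⟨v, ⟨m, hm⟩, rfl⟩ ⟨v', ⟨m', hm'⟩, rfl⟩
    refine ⟨v + v', ⟨m + m', ?_⟩, smul_add _ _ _⟩
    rw [smul_add, pow_add, mul_comm, mul_smul, hm, smul_zero, mul_comm, mul_smul, hm', smul_zero,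
      add_zero]
  neg_mem' := by
    rintro _ ⟨v, ⟨m, hm⟩, rfl⟩
    exact ⟨-v, ⟨m, by rw [smul_neg, hm, neg_zero]⟩, smul_neg _ _⟩

theorem mem_realDivSub {r n : ℕ} {x : J} :
    x ∈ realDivSub J r n ↔ ∃ v : J, (∃ m : ℕ, r ^ m • v = 0) ∧ r ^ n • v = x := Iff.rfl

theorem realDivSub_tors {r n : ℕ} {x : J} (hx : x ∈ realDivSub J r n) :
    ∃ m : ℕ, r ^ m • x = 0 := by
  obtain ⟨v, ⟨m, hm⟩, rfl⟩ := hx
  exact ⟨m, by rw [smul_comm, hm, smul_zero]⟩

theorem realDivSub_anti {r : ℕ} {n n' : ℕ} (h : n ≤ n') :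
    realDivSub J r n' ≤ realDivSub J r n := by
  rintro _ ⟨v, ⟨m, hm⟩, rfl⟩
  obtain ⟨d, rfl⟩ := Nat.exists_eq_add_of_le h
  refine ⟨r ^ d • v, ⟨m, by rw [smul_comm, hm, smul_zero]⟩, ?_⟩
  rw [← mul_smul, ← pow_add]

/-- the chain `r ^ n V ∩ V[r]` becomes stationary -/
theorem real_idx_stationary (r : ℕ) (hfin : {x : J | r • x = 0}.Finite) :
    ∃ n₀ : ℕ, ∀ n : ℕ, ∀ x : J, r • x = 0 → x ∈ realDivSub J r n₀ → x ∈ realDivSub J r n := by
  classical
  -- for every `x` of the finite set an index after which `x` does not come back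
  have key : ∀ x : J, ∃ d : ℕ, x ∈ realDivSub J r d → ∀ n, x ∈ realDivSub J r n := by
    intro x
    by_cases h : ∀ n, x ∈ realDivSub J r n
    · exact ⟨0, fun _ => h⟩
    · push Not at h
      obtain ⟨d, hd⟩ := h
      exact ⟨d, fun h' => absurd h' hd⟩
  choose d hd using key
  refine ⟨hfin.toFinset.sup d, fun n x hx hx0 => ?_⟩
  have h1 : d x ≤ hfin.toFinset.sup d := Finset.le_sup (hfin.mem_toFinset.2 hx)
  exact hd x (realDivSub_anti h1 hx0) n

/-- after the stationary index the chain `r ^ n V` itself is stationary -/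
theorem real_idx_step (r : ℕ) (n₀ : ℕ)
    (hn₀ : ∀ n : ℕ, ∀ x : J, r • x = 0 → x ∈ realDivSub J r n₀ → x ∈ realDivSub J r n) :
    ∀ m n : ℕ, n₀ ≤ n → ∀ x : J, x ∈ realDivSub J r n → r ^ m • x = 0 →
      x ∈ realDivSub J r (n + 1) := by
  intro m
  induction m with
  | zero =>
    intro n _ x _ hx0
    rw [pow_zero, one_smul] at hx0
    rw [hx0]
    exact (realDivSub J r (n + 1)).zero_mem
  | succ m ih =>
    intro n hn x hx hx0
    obtain ⟨v, ⟨k, hk⟩, rfl⟩ := hx
    -- `y := r ^ m • x` is killed by `r` and lies in `r ^ (n + m) V`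
    have hy0 : r • (r ^ m • (r ^ n • v)) = 0 := by
      rw [← mul_smul, ← pow_succ']
      exact hx0
    have hy1 : r ^ m • (r ^ n • v) ∈ realDivSub J r n₀ := by
      refine realDivSub_anti (Nat.le_trans hn (Nat.le_add_right n m)) ?_
      exact ⟨v, ⟨k, hk⟩, by rw [← mul_smul, ← pow_add, add_comm]⟩
    obtain ⟨v', ⟨k', hk'⟩, hv'⟩ := hn₀ (n + m + 1) _ hy0 hy1
    -- `x' := x - r ^ (n + 1) • v'`
    have hx' : r ^ n • v - r ^ (n + 1) • v' ∈ realDivSub J r n := by
      refine ⟨v - r • v', ⟨k + k', ?_⟩, ?_⟩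
      · rw [smul_sub, pow_add, mul_comm, mul_smul, hk, smul_zero, mul_comm, mul_smul,
          smul_comm (r ^ k') r v', hk', smul_zero, smul_zero, sub_zero]
      · rw [smul_sub, ← mul_smul, ← pow_succ]
    have hx'0 : r ^ m • (r ^ n • v - r ^ (n + 1) • v') = 0 := by
      rw [smul_sub, ← hv', sub_eq_zero, ← mul_smul, ← pow_add]
      congr 2
      ring
    have h1 := ih n hn _ hx' hx'0
    have h2 : r ^ (n + 1) • v' ∈ realDivSub J r (n + 1) := ⟨v', ⟨k', hk'⟩, rfl⟩
    have h3 := (realDivSub J r (n + 1)).add_mem h1 h2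
    rwa [sub_add_cancel] at h3

/-- **REAL-IDX**: a divisible subgroup `W` of the `r`-power torsion of bounded index. -/
theorem real_idx (r : ℕ) (hr : r.Prime) (hfin : ∀ n : ℕ, {x : J | r ^ n • x = 0}.Finite) :
    ∃ (a : ℕ) (W : AddSubgroup J), (∀ w ∈ W, ∃ m : ℕ, r ^ m • w = 0) ∧
      (∀ w ∈ W, ∃ w' ∈ W, r • w' = w) ∧
      ∀ G : AddSubgroup J, (∀ x ∈ G, ∃ m : ℕ, r ^ m • x = 0) → Finite G →
        Nat.card G ≤ r ^ a * Nat.card ↥(G ⊓ W) := by
  classical
  have hfin1 : {x : J | r • x = 0}.Finite := by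
    have := hfin 1
    simpa using this
  obtain ⟨n₀, hn₀⟩ := real_idx_stationary r hfin1
  have hstep := real_idx_step r n₀ hn₀
  refine ⟨(hfin n₀).toFinset.card, realDivSub J r n₀, fun w hw => realDivSub_tors hw,
    fun w hw => ?_, fun G hG hGfin => ?_⟩
  · obtain ⟨m, hm⟩ := realDivSub_tors hw
    obtain ⟨v, hv, rfl⟩ := hstep m n₀ le_rfl w hw hm
    exact ⟨r ^ n₀ • v, ⟨v, hv, rfl⟩, by rw [← mul_smul, ← pow_succ']⟩
  · -- the endomorphism `x ↦ r ^ n₀ • x` of `G`
    let h : ↥G →+ ↥G := nsmulAddMonoidHom (α := ↥G) (r ^ n₀)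
    have hcard : Nat.card ↥G = Nat.card ↥h.ker * Nat.card ↥h.range := by
      rw [← AddSubgroup.index_ker, AddSubgroup.card_mul_index]
    have hker : Nat.card ↥h.ker ≤ (hfin n₀).toFinset.card := by
      have hmem : ∀ x : ↥h.ker, ((x : ↥G) : J) ∈ (hfin n₀).toFinset := by
        intro x
        rw [Set.Finite.mem_toFinset]
        have h1 : h (x : ↥G) = 0 := x.2
        have h2 : ((h (x : ↥G) : ↥G) : J) = 0 := by rw [h1]; rfl
        exact h2
      have hinj : Function.Injective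
          (fun x : ↥h.ker => (⟨((x : ↥G) : J), hmem x⟩ : ↥(hfin n₀).toFinset)) := by
        intro a b hab
        have h1 := congrArg (fun y : ↥(hfin n₀).toFinset => (y : J)) hab
        exact Subtype.ext (Subtype.ext h1)
      have h3 := Nat.card_le_card_of_injective _ hinj
      have e : Nat.card ↥(hfin n₀).toFinset = (hfin n₀).toFinset.card := by
        rw [Nat.card_eq_fintype_card, Fintype.card_coe]
      rwa [e] at h3
    have hrange : Nat.card ↥h.range ≤ Nat.card ↥(G ⊓ realDivSub J r n₀) := by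
      have hmem : ∀ y : ↥h.range, ((y : ↥G) : J) ∈ G ⊓ realDivSub J r n₀ := by
        rintro ⟨y, x, rfl⟩
        refine ⟨(h x).2, ?_⟩
        exact ⟨(x : J), hG _ x.2, rfl⟩
      have hinj : Function.Injective
          (fun y : ↥h.range => (⟨((y : ↥G) : J), hmem y⟩ : ↥(G ⊓ realDivSub J r n₀))) := by
        intro a b hab
        have h1 := congrArg (fun y : ↥(G ⊓ realDivSub J r n₀) => (y : J)) hab
        exact Subtype.ext (Subtype.ext h1)
      have : Finite ↥(G ⊓ realDivSub J r n₀) :=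
        Finite.of_injective (fun y : ↥(G ⊓ realDivSub J r n₀) => (⟨y.1, y.2.1⟩ : ↥G))
          (fun a b hab => Subtype.ext (congrArg (fun y : ↥G => (y : J)) hab))
      exact Nat.card_le_card_of_injective _ hinj
    rw [hcard]
    refine Nat.mul_le_mul (hker.trans ?_) hrange
    exact (Nat.lt_pow_self hr.one_lt).le

end Fermat.Agent.S15
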