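import Fermat.Agent.S15.RealTrAbs
import Fermat.Agent.S15.RealAlgPlan
import Fermat.Agent.ES.Faith
import Fermat.Agent.S21
import Fermat.Agent.S41.CharInv

/-!
# S15 / SEL-CNT / REAL: piece REAL-TR (helper82)

`H = RealtrH M = intHoms (Gamma0 M) (parabolicSet M)` is the lattice of integral parabolic
homomorphisms of `Γ₀(M)`.  On it act

* `realtrHecke M p ℓ` : the good Hecke operators `T_ℓ`, `ℓ ∤ M p` (restriction of `ES.heckeOp`);
* `realtrWordHom M p` : the words in them (`= ES.wordOp` on the underlying homomorphisms);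
* `realtrInv M`       : the involution `φ ↦ φ ∘ jConjGamma0` (restriction of `charInvolution`).

Results:

* `realtr_trace_word`   : `tr_ℤ (w · ι | H) = 0` for every word `w`;
* `realtr_trace_adjoin` : `tr_ℤ (t · ι | H) = 0` for every `t` in the `ℤ`-algebra generated by
  the `T_ℓ`;
* `realtr_hecke_commute`, `realtr_hecke_commute_inv`, `realtr_inv_mul_inv` : the `T_ℓ` commute
  with each other and with `ι`, and `ι² = 1`;
* `realtr_hyps`, `realtr_hyps_neg` : all hypotheses of `StmtRealAlg` for every family `T x` in the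
  algebra generated by the `T_ℓ`, for `ι` and for `-ι`;
* `realtr_of_realAlg` : the conclusion of `StmtRealAlg` for `H`.

Proof of the trace formula: by S21 the map `(f, g) ↦ (1 + ι) P_f + (1 - ι) P_g` is an isomorphism
`S₂ × S₂ ≃ Hom_par(Γ₀(M), ℂ)`; words commute with `ι` and with the period map, so `w · ι`
corresponds to `(w, -w)`, of trace `0`; and the trace over `ℤ` on `H` is the trace over `ℂ` on
`Hom_par(Γ₀(M), ℂ)` (`realtr_trace_cast`).
-/

set_option autoImplicit false

noncomputable section

namespace Fermat.Agent.S15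

open CongruenceSubgroup ModularCurve ModularCurve.Period Fermat.Agent.ES
open scoped MatrixGroups

variable (M p : ℕ)

/-- the lattice of integral parabolic homomorphisms of `Γ₀(M)` -/
abbrev RealtrH : Type := ↥(intHoms (Gamma0 M) (parabolicSet M))

variable {M p}

/-! ### Words, the involution and parabolic homomorphisms -/

/-- words commute with the involution, for every coefficient group -/
theorem realtr_wordOp_charInv (A : Type) [AddCommGroup A] (R : Type) [Semiring R] [Module R A]
    (w : FreeAlgebra ℤ (GoodPrime M p)) (ψ : Additive (Gamma0 M) →+ A) :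
    wordOp (heckeOp M p) A w (charInvolution M R A ψ) =
      charInvolution M R A (wordOp (heckeOp M p) A w ψ) := by
  induction w using FreeAlgebra.induction generalizing ψ with
  | grade0 r =>
    rw [AlgHom.commutes, Module.algebraMap_end_apply, Module.algebraMap_end_apply]
    rfl
  | grade1 ℓ =>
    have : Fact ((ℓ : Nat.Primes) : ℕ).Prime := ⟨ℓ.1.2⟩
    rw [wordOp_ι, wordOp_ι, heckeOp_apply, heckeOp_apply]
    exact Fermat.Agent.S41.heckeHom_comp_jConj (GoodPrime.not_dvd ℓ) ψ
  | mul a b ha hb =>
    rw [map_mul, Module.End.mul_apply, Module.End.mul_apply, hb, ha]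
  | add a b ha hb =>
    rw [map_add, LinearMap.add_apply, LinearMap.add_apply, ha, hb]
    rfl

/-- words preserve parabolic homomorphisms, for every coefficient group -/
theorem realtr_wordOp_par (A : Type) [AddCommGroup A]
    (w : FreeAlgebra ℤ (GoodPrime M p)) (φ : Additive (Gamma0 M) →+ A)
    (hφ : IsParabolicHom (Gamma0 M) φ) :
    IsParabolicHom (Gamma0 M) (wordOp (heckeOp M p) A w φ) := by
  refine wordOp_mem (T := heckeOp M p) (parabolicHoms ℤ (Gamma0 M) A).toAddSubgroup ?_ w φ hφ
  intro ℓ ψ hψ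
  have : Fact ((ℓ : Nat.Primes) : ℕ).Prime := ⟨ℓ.1.2⟩
  show IsParabolicHom (Gamma0 M) (heckeOp M p ℓ A ψ)
  rw [heckeOp_apply]
  exact HeckeP.heckeHom_isParabolicHom (GoodPrime.not_dvd ℓ) hψ

/-- the involution preserves parabolic homomorphisms -/
theorem realtr_charInv_par (A : Type) [AddCommGroup A] (R : Type) [Semiring R] [Module R A]
    (φ : Additive (Gamma0 M) →+ A) (hφ : IsParabolicHom (Gamma0 M) φ) :
    IsParabolicHom (Gamma0 M) (charInvolution M R A φ) :=
  charInvolution_mem_parabolicHoms M R A hφ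

/-! ### The operators on the lattice -/

variable (M p)

/-- the good Hecke operator `T_ℓ` on the lattice -/
def realtrHecke (ℓ : GoodPrime M p) : Module.End ℤ (RealtrH M) :=
  (heckeOp M p ℓ ℤ).toIntLinearMap.restrict (p := intHoms (Gamma0 M) (parabolicSet M))
    (fun φ hφ => by
      have h := realtr_wordOp_par (p := p) ℤ (FreeAlgebra.ι ℤ ℓ) φ hφ
      rwa [wordOp_ι] at h)

/-- the action of words in the good Hecke operators on the lattice -/
def realtrWordHom : FreeAlgebra ℤ (GoodPrime M p) →ₐ[ℤ] Module.End ℤ (RealtrH M) :=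
  FreeAlgebra.lift ℤ (realtrHecke M p)

/-- the involution `φ ↦ φ ∘ jConjGamma0` on the lattice -/
def realtrInv : Module.End ℤ (RealtrH M) :=
  (charInvolution M ℤ ℤ).restrict (p := intHoms (Gamma0 M) (parabolicSet M))
    (fun φ hφ => realtr_charInv_par ℤ ℤ φ hφ)

variable {M p}

@[simp] theorem realtrHecke_coe (ℓ : GoodPrime M p) (x : RealtrH M) :
    ((realtrHecke M p ℓ x : RealtrH M) : Additive (Gamma0 M) →+ ℤ) =
      heckeOp M p ℓ ℤ (x : Additive (Gamma0 M) →+ ℤ) := rfl

@[simp] theorem realtrInv_coe (x : RealtrH M) :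
    ((realtrInv M x : RealtrH M) : Additive (Gamma0 M) →+ ℤ) =
      charInvolution M ℤ ℤ (x : Additive (Gamma0 M) →+ ℤ) := rfl

@[simp] theorem realtrWordHom_ι (ℓ : GoodPrime M p) :
    realtrWordHom M p (FreeAlgebra.ι ℤ ℓ) = realtrHecke M p ℓ := by
  simp [realtrWordHom]

/-- the words act on the lattice through `wordOp` -/
theorem realtrWordHom_coe (w : FreeAlgebra ℤ (GoodPrime M p)) (x : RealtrH M) :
    ((realtrWordHom M p w x : RealtrH M) : Additive (Gamma0 M) →+ ℤ) =
      wordOp (heckeOp M p) ℤ w (x : Additive (Gamma0 M) →+ ℤ) := by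
  induction w using FreeAlgebra.induction generalizing x with
  | grade0 r =>
    rw [AlgHom.commutes, AlgHom.commutes, Module.algebraMap_end_apply,
      Module.algebraMap_end_apply]
    rfl
  | grade1 ℓ => rw [realtrWordHom_ι, wordOp_ι, realtrHecke_coe]
  | mul a b ha hb =>
    rw [map_mul, map_mul, Module.End.mul_apply, Module.End.mul_apply, ha, hb]
  | add a b ha hb =>
    rw [map_add, map_add, LinearMap.add_apply, LinearMap.add_apply, Submodule.coe_add, ha, hb]

/-- every element of the algebra generated by the `T_ℓ` is a word -/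
theorem realtr_exists_word {t : Module.End ℤ (RealtrH M)}
    (ht : t ∈ Algebra.adjoin ℤ (Set.range (realtrHecke M p))) :
    ∃ w : FreeAlgebra ℤ (GoodPrime M p), realtrWordHom M p w = t := by
  have h1 : Algebra.adjoin ℤ (Set.range (realtrHecke M p)) ≤ (realtrWordHom M p).range := by
    refine Algebra.adjoin_le ?_
    rintro _ ⟨ℓ, rfl⟩
    exact ⟨FreeAlgebra.ι ℤ ℓ, realtrWordHom_ι ℓ⟩
  exact h1 ht

/-! ### The complex side -/

section Complex

variable (M p) [NeZero M]

/-- the action of a word on `Hom_par(Γ₀(M), ℂ)` -/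
def realtrWordC (w : FreeAlgebra ℤ (GoodPrime M p)) :
    Module.End ℂ (parabolicHoms ℂ (Gamma0 M) ℂ) where
  toFun v := ⟨wordOp (heckeOp M p) ℂ w (v : Additive (Gamma0 M) →+ ℂ),
    realtr_wordOp_par ℂ w _ v.2⟩
  map_add' a b := Subtype.ext (by
    show wordOp (heckeOp M p) ℂ w ((a : Additive (Gamma0 M) →+ ℂ) + b) = _
    rw [map_add]; rfl)
  map_smul' c a := Subtype.ext (by
    show wordOp (heckeOp M p) ℂ w (c • (a : Additive (Gamma0 M) →+ ℂ)) = _
    rw [wordOp_smul]; rfl)

/-- the involution on `Hom_par(Γ₀(M), ℂ)` -/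
def realtrInvC : Module.End ℂ (parabolicHoms ℂ (Gamma0 M) ℂ) :=
  (charInvolution M ℂ ℂ).restrict (p := parabolicHoms ℂ (Gamma0 M) ℂ)
    (fun φ hφ => realtr_charInv_par ℂ ℂ φ hφ)

/-- the Eichler–Shimura isomorphism (S21) -/
def realtrES :
    (CuspForm (Gamma0 M) 2 × CuspForm (Gamma0 M) 2) ≃ₗ[ℂ] parabolicHoms ℂ (Gamma0 M) ℂ :=
  LinearEquiv.ofBijective
    ((periodHomPair M).codRestrict (parabolicHoms ℂ (Gamma0 M) ℂ)
      (Fermat.Agent.S21.periodHomPair_mem_parabolicHoms M))
    ⟨fun x y h => (Fermat.Agent.S21.result M).1 (congrArg Subtype.val h), fun v => by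
      have hv : (v : Additive (Gamma0 M) →+ ℂ) ∈ LinearMap.range (periodHomPair M) := by
        rw [(Fermat.Agent.S21.result M).2]; exact v.2
      obtain ⟨x, hx⟩ := hv
      exact ⟨x, Subtype.ext hx⟩⟩

variable {M p}

theorem realtrES_coe (f g : CuspForm (Gamma0 M) 2) :
    ((realtrES M (f, g) : parabolicHoms ℂ (Gamma0 M) ℂ) : Additive (Gamma0 M) →+ ℂ) =
      (periodMap M f + charInvolution M ℂ ℂ (periodMap M f))
        + (periodMap M g - charInvolution M ℂ ℂ (periodMap M g)) :=
  Fermat.Agent.S21.periodHomPair_apply M f g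

/-- under the Eichler–Shimura isomorphism `w · ι` is `(w, -w)` -/
theorem realtr_wordC_invC_ES (w : FreeAlgebra ℤ (GoodPrime M p))
    (x : CuspForm (Gamma0 M) 2 × CuspForm (Gamma0 M) 2) :
    (realtrWordC M p w * realtrInvC M) (realtrES M x) =
      realtrES M (LinearMap.prodMap (wordForms M p w) (-(wordForms M p w)) x) := by
  obtain ⟨f, g⟩ := x
  apply Subtype.ext
  rw [LinearMap.prodMap_apply, realtrES_coe, Module.End.mul_apply]
  show wordOp (heckeOp M p) ℂ w (charInvolution M ℂ ℂ
    ((realtrES M (f, g) : parabolicHoms ℂ (Gamma0 M) ℂ) : Additive (Gamma0 M) →+ ℂ)) = _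
  rw [realtrES_coe, realtr_wordOp_charInv, map_add, map_add, map_sub, map_add, map_add, map_sub,
    realtr_wordOp_charInv, realtr_wordOp_charInv, charInvolution_charInvolution,
    charInvolution_charInvolution, ← period_wordForms, ← period_wordForms,
    LinearMap.neg_apply]
  have hneg : periodMap M (-(wordForms M p w) g) = -periodMap M ((wordForms M p w) g) :=
    map_neg (Fermat.Agent.S21.periodMapLinear M) _
  rw [hneg, map_neg]
  abel

/-- **The trace on the complex side.** -/
theorem realtr_traceC (w : FreeAlgebra ℤ (GoodPrime M p)) :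
    LinearMap.trace ℂ (parabolicHoms ℂ (Gamma0 M) ℂ) (realtrWordC M p w * realtrInvC M) = 0 := by
  have := Fermat.Agent.S21.finite_addMonoidHom M
  have : Module.Finite ℂ (CuspForm (Gamma0 M) 2 × CuspForm (Gamma0 M) 2) :=
    Module.Finite.of_injective (periodHomPair M) (Fermat.Agent.S21.result M).1
  have : Module.Finite ℂ (CuspForm (Gamma0 M) 2) :=
    Module.Finite.of_injective (LinearMap.inl ℂ (CuspForm (Gamma0 M) 2) (CuspForm (Gamma0 M) 2))
      LinearMap.inl_injective
  have hconj : realtrWordC M p w * realtrInvC M =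
      (realtrES M).conj (LinearMap.prodMap (wordForms M p w) (-(wordForms M p w))) := by
    refine LinearMap.ext (fun v => ?_)
    obtain ⟨x, rfl⟩ := (realtrES M).surjective v
    rw [realtr_wordC_invC_ES, LinearEquiv.conj_apply_apply, LinearEquiv.symm_apply_apply]
  rw [hconj, LinearMap.trace_conj', LinearMap.trace_prodMap', map_neg, add_neg_cancel]

end Complex

/-! ### The trace on the lattice -/

/-- **REAL-TR.**  The trace of `w · ι` on the lattice of integral parabolic homomorphisms is
zero, for every word `w` in the good Hecke operators. -/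
theorem realtr_trace_word [NeZero M] (w : FreeAlgebra ℤ (GoodPrime M p)) :
    LinearMap.trace ℤ (RealtrH M) (realtrWordHom M p w * realtrInv M) = 0 := by
  have hfg : Group.FG (Gamma0 M) :=
    (Group.fg_iff_subgroup_fg _).mpr (Fermat.Agent.S22.gamma0_fg M)
  have h := realtr_trace_cast (G := Gamma0 M) (P := parabolicSet M)
    (parabolicHoms ℂ (Gamma0 M) ℂ) (fun v => Iff.rfl)
    (realtrWordHom M p w * realtrInv M) (realtrWordC M p w * realtrInvC M)
    (by
      intro x y hxy
      rw [Module.End.mul_apply, Module.End.mul_apply, realtrWordHom_coe, realtrInv_coe]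
      show wordOp (heckeOp M p) ℂ w (charInvolution M ℂ ℂ (y : Additive (Gamma0 M) →+ ℂ)) = _
      rw [hxy]
      exact wordOp_natural (T := heckeOp M p)
        (fun ℓ A A' _ _ f ψ => heckeOp_natural ℓ A A' f ψ) w ℤ ℂ (Int.castAddHom ℂ)
        (charInvolution M ℤ ℤ (x : Additive (Gamma0 M) →+ ℤ)))
  rw [realtr_traceC] at h
  exact_mod_cast h.symm

/-- **REAL-TR**, for the algebra generated by the good Hecke operators. -/
theorem realtr_trace_adjoin [NeZero M] (t : Module.End ℤ (RealtrH M))
    (ht : t ∈ Algebra.adjoin ℤ (Set.range (realtrHecke M p))) :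
    LinearMap.trace ℤ (RealtrH M) (t * realtrInv M) = 0 := by
  obtain ⟨w, rfl⟩ := realtr_exists_word ht
  exact realtr_trace_word w

/-! ### Commutation -/

theorem realtr_inv_mul_inv : realtrInv M * realtrInv M = 1 := by
  refine LinearMap.ext (fun x => Subtype.ext ?_)
  rw [Module.End.mul_apply, realtrInv_coe, realtrInv_coe, charInvolution_charInvolution]
  rfl

/-- words commute with the involution on the lattice -/
theorem realtr_word_commute_inv (w : FreeAlgebra ℤ (GoodPrime M p)) :
    Commute (realtrWordHom M p w) (realtrInv M) := by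
  refine LinearMap.ext (fun x => Subtype.ext ?_)
  rw [Module.End.mul_apply, Module.End.mul_apply, realtrWordHom_coe, realtrInv_coe,
    realtrInv_coe, realtrWordHom_coe, realtr_wordOp_charInv]

theorem realtr_hecke_commute_inv (ℓ : GoodPrime M p) :
    Commute (realtrHecke M p ℓ) (realtrInv M) := by
  rw [← realtrWordHom_ι]
  exact realtr_word_commute_inv _

section Faithful

variable [NeZero M]

/-- under the Eichler–Shimura isomorphism a word `w` is `(w, w)` -/
theorem realtr_wordC_ES (w : FreeAlgebra ℤ (GoodPrime M p))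
    (x : CuspForm (Gamma0 M) 2 × CuspForm (Gamma0 M) 2) :
    realtrWordC M p w (realtrES M x) =
      realtrES M (LinearMap.prodMap (wordForms M p w) (wordForms M p w) x) := by
  obtain ⟨f, g⟩ := x
  apply Subtype.ext
  rw [LinearMap.prodMap_apply, realtrES_coe]
  show wordOp (heckeOp M p) ℂ w
    ((realtrES M (f, g) : parabolicHoms ℂ (Gamma0 M) ℂ) : Additive (Gamma0 M) →+ ℂ) = _
  rw [realtrES_coe, map_add, map_add, map_sub, realtr_wordOp_charInv, realtr_wordOp_charInv,
    ← period_wordForms, ← period_wordForms]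

/-- the action of a word on `Hom_par(Γ₀(M), ℂ)` depends only on its action on the cusp forms -/
theorem realtr_wordC_congr {w w' : FreeAlgebra ℤ (GoodPrime M p)}
    (h : wordForms M p w = wordForms M p w') : realtrWordC M p w = realtrWordC M p w' := by
  refine LinearMap.ext (fun v => ?_)
  obtain ⟨x, rfl⟩ := (realtrES M).surjective v
  rw [realtr_wordC_ES, realtr_wordC_ES, h]

/-- the action of a word on the lattice depends only on its action on the cusp forms -/
theorem realtr_word_congr {w w' : FreeAlgebra ℤ (GoodPrime M p)}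
    (h : wordForms M p w = wordForms M p w') : realtrWordHom M p w = realtrWordHom M p w' := by
  refine LinearMap.ext (fun x => Subtype.ext ?_)
  rw [realtrWordHom_coe, realtrWordHom_coe]
  have hx : castHomC (x : Additive (Gamma0 M) →+ ℤ) ∈ parabolicHoms ℂ (Gamma0 M) ℂ := by
    intro g hg
    rw [castHomC_apply, x.2 g hg, Int.cast_zero]
  have h1 := congrArg Subtype.val
    (LinearMap.congr_fun (realtr_wordC_congr h) ⟨castHomC (x : Additive (Gamma0 M) →+ ℤ), hx⟩)
  have hnat : ∀ u : FreeAlgebra ℤ (GoodPrime M p),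
      wordOp (heckeOp M p) ℂ u (castHomC (x : Additive (Gamma0 M) →+ ℤ)) =
        castHomC (wordOp (heckeOp M p) ℤ u (x : Additive (Gamma0 M) →+ ℤ)) := fun u =>
    wordOp_natural (T := heckeOp M p)
      (fun ℓ A A' _ _ f ψ => heckeOp_natural ℓ A A' f ψ) u ℤ ℂ (Int.castAddHom ℂ)
      (x : Additive (Gamma0 M) →+ ℤ)
  have h2 : castHomC (wordOp (heckeOp M p) ℤ w (x : Additive (Gamma0 M) →+ ℤ)) =
      castHomC (wordOp (heckeOp M p) ℤ w' (x : Additive (Gamma0 M) →+ ℤ)) := by
    rw [← hnat, ← hnat]
    exact h1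
  refine DFunLike.ext _ _ (fun g => ?_)
  have h3 := DFunLike.congr_fun h2 g
  rw [castHomC_apply, castHomC_apply] at h3
  exact_mod_cast h3

/-- words commute on the cusp forms -/
theorem realtr_wordForms_mul_comm (a b : FreeAlgebra ℤ (GoodPrime M p)) :
    wordForms M p (a * b) = wordForms M p (b * a) := by
  rw [wordForms_apply, wordForms_apply, map_mul (wordPoly M p) a b, map_mul (wordPoly M p) b a,
    mul_comm]

/-- words commute on the lattice -/
theorem realtr_word_commute (a b : FreeAlgebra ℤ (GoodPrime M p)) :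
    Commute (realtrWordHom M p a) (realtrWordHom M p b) := by
  show realtrWordHom M p a * realtrWordHom M p b = realtrWordHom M p b * realtrWordHom M p a
  rw [← map_mul, ← map_mul]
  exact realtr_word_congr (realtr_wordForms_mul_comm a b)

theorem realtr_hecke_commute (ℓ ℓ' : GoodPrime M p) :
    Commute (realtrHecke M p ℓ) (realtrHecke M p ℓ') := by
  rw [← realtrWordHom_ι, ← realtrWordHom_ι]
  exact realtr_word_commute _ _

end Faithful

/-! ### The hypotheses of `StmtRealAlg` -/

section Hyps

variable [NeZero M] {X : Type} (T : X → Module.End ℤ (RealtrH M))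

/-- all the hypotheses of `StmtRealAlg` hold on the lattice of integral parabolic homomorphisms,
for every family of operators in the algebra generated by the good Hecke operators and the
involution `ι = realtrInv M` -/
theorem realtr_hyps (hT : ∀ x, T x ∈ Algebra.adjoin ℤ (Set.range (realtrHecke M p))) :
    (∀ x y : X, Commute (T x) (T y)) ∧ (∀ x : X, Commute (T x) (realtrInv M)) ∧
      realtrInv M * realtrInv M = 1 ∧
      ∀ t ∈ Algebra.adjoin ℤ (Set.range T),
        LinearMap.trace ℤ (RealtrH M) (t * realtrInv M) = 0 := by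
  refine ⟨?_, ?_, realtr_inv_mul_inv, ?_⟩
  · intro x y
    obtain ⟨a, ha⟩ := realtr_exists_word (hT x)
    obtain ⟨b, hb⟩ := realtr_exists_word (hT y)
    rw [← ha, ← hb]
    exact realtr_word_commute a b
  · intro x
    obtain ⟨a, ha⟩ := realtr_exists_word (hT x)
    rw [← ha]
    exact realtr_word_commute_inv a
  · intro t ht
    refine realtr_trace_adjoin (p := p) t ?_
    have hle : Algebra.adjoin ℤ (Set.range T) ≤
        Algebra.adjoin ℤ (Set.range (realtrHecke M p)) := by
      refine Algebra.adjoin_le ?_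
      rintro _ ⟨x, rfl⟩
      exact hT x
    exact hle ht

/-- the same for the involution `-ι` (the action of complex conjugation on the multipliers) -/
theorem realtr_hyps_neg (hT : ∀ x, T x ∈ Algebra.adjoin ℤ (Set.range (realtrHecke M p))) :
    (∀ x y : X, Commute (T x) (T y)) ∧ (∀ x : X, Commute (T x) (-realtrInv M)) ∧
      (-realtrInv M) * (-realtrInv M) = 1 ∧
      ∀ t ∈ Algebra.adjoin ℤ (Set.range T),
        LinearMap.trace ℤ (RealtrH M) (t * (-realtrInv M)) = 0 := by
  obtain ⟨h1, h2, h3, h4⟩ := realtr_hyps T hT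
  refine ⟨h1, fun x => (h2 x).neg_right, ?_, ?_⟩
  · rw [neg_mul_neg, h3]
  · intro t ht
    rw [mul_neg, map_neg, h4 t ht, neg_zero]

/-- **REAL-ALG applied to the lattice** (involution `ι`). -/
theorem realtr_of_realAlg (hA : StmtRealAlg)
    (hT : ∀ x, T x ∈ Algebra.adjoin ℤ (Set.range (realtrHecke M p))) (r : ℕ) (hr : r.Prime) :
    ∃ a : ℕ, ∀ n : ℕ,
      (realPowSub (RealtrH M) r n).relIndex (realEisSub T r n) ≤
        r ^ a * ((realPowSub (RealtrH M) r n).relIndex
          (realEisFix T (realtrInv M) r n ⊔ realPowSub (RealtrH M) r n)) ^ 2 := by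
  have hfg : Group.FG (Gamma0 M) :=
    (Group.fg_iff_subgroup_fg _).mpr (Fermat.Agent.S22.gamma0_fg M)
  have hfin := finite_intHoms (Gamma0 M) (parabolicSet M)
  have hfree := free_intHoms (Gamma0 M) (parabolicSet M)
  obtain ⟨h1, h2, h3, h4⟩ := realtr_hyps T hT
  exact hA (RealtrH M) X T (realtrInv M) h1 h2 h3 h4 r hr

/-- **REAL-ALG applied to the lattice** (involution `-ι`). -/
theorem realtr_of_realAlg_neg (hA : StmtRealAlg)
    (hT : ∀ x, T x ∈ Algebra.adjoin ℤ (Set.range (realtrHecke M p))) (r : ℕ) (hr : r.Prime) :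
    ∃ a : ℕ, ∀ n : ℕ,
      (realPowSub (RealtrH M) r n).relIndex (realEisSub T r n) ≤
        r ^ a * ((realPowSub (RealtrH M) r n).relIndex
          (realEisFix T (-realtrInv M) r n ⊔ realPowSub (RealtrH M) r n)) ^ 2 := by
  have hfg : Group.FG (Gamma0 M) :=
    (Group.fg_iff_subgroup_fg _).mpr (Fermat.Agent.S22.gamma0_fg M)
  have hfin := finite_intHoms (Gamma0 M) (parabolicSet M)
  have hfree := free_intHoms (Gamma0 M) (parabolicSet M)
  obtain ⟨h1, h2, h3, h4⟩ := realtr_hyps_neg T hT
  exact hA (RealtrH M) X T (-realtrInv M) h1 h2 h3 h4 r hr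

end Hyps

end Fermat.Agent.S15
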