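import Fermat.Agent.ES.G2.Main
import Fermat.Agent.INJ.InjAll
import Fermat.Agent.ES.TorsionUnifProved
import Fermat.Agent.ES.JOfUnif
import Fermat.Agent.ES.GaloisHecke
import Fermat.Agent.ES.FiniteLevel

/-!
# S15 / HECKE / ES-k: the Eichler–Shimura relation and the triviality of inertia on `J₀(N)[r^k]`

Unconditional forms (the INJ campaign is finished: `Fermat.Agent.INJ.injAll_stmtINJAll`).

* `esk_stmtFrob N r : ES.StmtFrob N r`, `esk_stmtUnram N r : ES.StmtUnram N r`;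
* `esk_frob` : `τ² x - T_q (τ x) + q x = 0` for `r^k • x = 0`, `q ∤ N r`, `τ` a Frobenius at `A ∣ q`;
* `esk_unram` : `σ x = x` for `r^k • x = 0`, `σ ∈ I_A`, `A ∣ q`, `q ∤ N r`.
-/

set_option autoImplicit false

namespace Fermat.Agent.S15

open ModularCurve Fermat.Agent.ES

/-- clause `frob` of the ES package, unconditionally -/
theorem esk_stmtFrob (N r : ℕ) [NeZero N] : Fermat.Agent.ES.StmtFrob N r :=
  Fermat.Agent.ES.G2.stmtFrob_of_stmtINJAll Fermat.Agent.INJ.injAll_stmtINJAll N r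

/-- clause `unram` of the ES package, unconditionally -/
theorem esk_stmtUnram (N r : ℕ) [NeZero N] : Fermat.Agent.ES.StmtUnram N r :=
  Fermat.Agent.ES.G2.stmtUnram_of_stmtINJAll Fermat.Agent.INJ.injAll_stmtINJAll N r

/-- **ES-k (frob)**: on `V_k = J₀(N)[r^k]`, `τ² - T_q τ + q = 0` for a Frobenius `τ` at `q ∤ N r`. -/
theorem esk_frob (N r : ℕ) [NeZero N] (q : ℕ) (hq : q.Prime) (hqNr : ¬ q ∣ N * r)
    (A : ValuationSubring (AlgebraicClosure ℚ)) (hA : A.LiesOverPrime q)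
    (τ : AlgebraicClosure ℚ ≃ₐ[ℚ] AlgebraicClosure ℚ) (hτ : A.IsFrobeniusAt τ q)
    (k : ℕ) (x : JZero N) (hx : r ^ k • x = 0) :
    τ • τ • x - heckeOperatorBar N ⟨q, hq⟩ (τ • x) + q • x = 0 :=
  esk_stmtFrob N r q hq hqNr A hA τ hτ x ⟨k, hx⟩

/-- **ES-k (unram)**: inertia at `q ∤ N r` acts trivially on `V_k = J₀(N)[r^k]`. -/
theorem esk_unram (N r : ℕ) [NeZero N] (q : ℕ) (hq : q.Prime) (hqNr : ¬ q ∣ N * r)
    (A : ValuationSubring (AlgebraicClosure ℚ)) (hA : A.LiesOverPrime q)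
    (σ : AlgebraicClosure ℚ ≃ₐ[ℚ] AlgebraicClosure ℚ) (hσ : σ ∈ A.inertiaSubgroupIn ℚ)
    (k : ℕ) (x : JZero N) (hx : r ^ k • x = 0) : σ • x = x :=
  esk_stmtUnram N r q hq hqNr A hA σ hσ x ⟨k, hx⟩

/-- `V_k = J₀(N)[m]` is finite (`m ≠ 0`). -/
theorem esk_finite (N : ℕ) [NeZero N] (m : ℕ) (hm : m ≠ 0) : {x : JZero N | m • x = 0}.Finite :=
  Fermat.Agent.ES.jFinite_of_torsionUnif hm
    (Fermat.Agent.ES.torsionUnif_proved N m (Nat.pos_of_ne_zero hm))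

/-- the Hecke operators `T_q` commute with `G_ℚ` on `J₀(N)`. -/
theorem esk_galois_hecke (N : ℕ) [NeZero N]
    (σ : AlgebraicClosure ℚ ≃ₐ[ℚ] AlgebraicClosure ℚ) (q : Nat.Primes) (x : JZero N) :
    σ • heckeOperatorBar N q x = heckeOperatorBar N q (σ • x) :=
  Fermat.Agent.ES.galois_heckeOperatorBar N σ q x

/-- every torsion point of `J₀(N)` is fixed by an open subgroup of `G_ℚ`. -/
theorem esk_finiteLevel (N : ℕ) (m : ℕ) (hm : m ≠ 0) (x : JZero N) (hx : m • x = 0) :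
    ∃ E : IntermediateField ℚ (AlgebraicClosure ℚ), FiniteDimensional ℚ E ∧
      ∀ σ : AlgebraicClosure ℚ ≃ₐ[ℚ] AlgebraicClosure ℚ, (∀ a ∈ E, σ a = a) → σ • x = x :=
  Fermat.Agent.ES.exists_field_fixing_torsion N m hm x hx

end Fermat.Agent.S15
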