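import Fermat.Agent.S15.SelPlan
import Fermat.Agent.S15.ESk
import Fermat.Agent.S15.SelFL

/-!
# S15 / SEL-CNT / TORIC, piece T-pre: generalities on the Eisenstein part

* `toricpre_finite` (G1) : the Eisenstein part `selEisPart N r k` is finite;
* `toricpre_stable` (G2) : it is stable under `G_ℚ`;
* `toricpre_field`  (G3) : a finite subgroup of `J₀(N)` is fixed pointwise by `Gal(ℚ̄/E)` for a
  finite normal (Galois) extension `E` of `ℚ`;
* `toricpre_eisOp_smul`, `toricpre_eisOp_pow_smul` : `T_q − (1 + q)` commutes with `G_ℚ`.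
-/

set_option autoImplicit false
set_option linter.style.haveILetI false
set_option synthInstance.maxHeartbeats 400000
set_option maxHeartbeats 1600000

noncomputable section

namespace Fermat.Agent.S15

open ModularCurve AlgebraicCurve
open Fermat.Agent.S24 Fermat.Agent.W1

/-- **(G1)** the Eisenstein part is finite -/
theorem toricpre_finite (N r k : ℕ) [NeZero N] (hr : r.Prime) : Finite ↥(selEisPart N r k) :=
  Set.Finite.to_subtype ((esk_finite N (r ^ k) (pow_ne_zero k hr.ne_zero)).subset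
    (fun _ hx => (mem_selEisPart.1 hx).1))

/-- `T_q − (1 + q)` commutes with `G_ℚ` -/
theorem toricpre_eisOp_smul (N : ℕ) [NeZero N] (q : Nat.Primes) (σ : GalQ) (x : JZero N) :
    selEisOp N q (σ • x) = σ • selEisOp N q x := by
  have h1 : heckeOperatorBar N q (σ • x) = σ • heckeOperatorBar N q x :=
    (esk_galois_hecke N σ q x).symm
  have h2 : ∀ (c : ℤ) (y : JZero N), c • (σ • y) = σ • (c • y) := fun c y =>
    (map_zsmul (DistribSMul.toAddMonoidHom (JZero N) σ) c y).symm
  show (heckeOperatorBar N q - ((1 + (q : ℕ) : ℕ) : ℤ) • (1 : Module.End ℤ (JZero N))) (σ • x) =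
    σ • (heckeOperatorBar N q - ((1 + (q : ℕ) : ℕ) : ℤ) • (1 : Module.End ℤ (JZero N))) x
  rw [LinearMap.sub_apply, LinearMap.sub_apply, LinearMap.smul_apply, LinearMap.smul_apply,
    Module.End.one_apply, Module.End.one_apply, h1, h2, smul_sub]

/-- the powers of `T_q − (1 + q)` commute with `G_ℚ` -/
theorem toricpre_eisOp_pow_smul (N : ℕ) [NeZero N] (q : Nat.Primes) (m : ℕ) (σ : GalQ)
    (x : JZero N) : (selEisOp N q ^ m) (σ • x) = σ • (selEisOp N q ^ m) x := by
  induction m generalizing x with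
  | zero => rfl
  | succ m ih =>
    rw [pow_succ, Module.End.mul_apply, Module.End.mul_apply, toricpre_eisOp_smul, ih]

/-- **(G2)** the Eisenstein part is stable under `G_ℚ` -/
theorem toricpre_stable (N r k : ℕ) [NeZero N] (σ : GalQ) {x : JZero N}
    (hx : x ∈ selEisPart N r k) : σ • x ∈ selEisPart N r k := by
  obtain ⟨h1, h2⟩ := mem_selEisPart.1 hx
  refine mem_selEisPart.2 ⟨?_, fun q hq => ?_⟩
  · have e : r ^ k • (σ • x) = σ • (r ^ k • x) :=
      (map_nsmul (DistribSMul.toAddMonoidHom (JZero N) σ) (r ^ k) x).symm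
    rw [e, h1]
    exact smul_zero (A := JZero N) σ
  · obtain ⟨m, hm⟩ := h2 q hq
    refine ⟨m, ?_⟩
    rw [toricpre_eisOp_pow_smul, hm]
    exact smul_zero (A := JZero N) σ

/-- **(G3)** a finite subgroup of `J₀(N)` is fixed pointwise by `Gal(ℚ̄/E)` for a finite normal
extension `E` of `ℚ` (no torsion hypothesis is needed: SEL-FL). -/
theorem toricpre_field' (N : ℕ) [NeZero N] (G : AddSubgroup (JZero N)) [Finite G] :
    ∃ E : IntermediateField ℚ Kb, FiniteDimensional ℚ E ∧ IsGalois ℚ E ∧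
      ∀ σ : GalQ, (∀ a ∈ E, σ a = a) → ∀ x ∈ G, σ • x = x := by
  classical
  have hfin : (G : Set (JZero N)).Finite := Set.toFinite _
  obtain ⟨K₀, -, h2, h3, h4⟩ := selfl_exists_field_finset N hfin.toFinset ⊥ inferInstance
  exact ⟨K₀, h2, h3, fun σ hσ x hx => h4 x (hfin.mem_toFinset.2 hx) σ hσ⟩

/-- **(G3)**, in the shape of the TORIC plan -/
theorem toricpre_field (N : ℕ) [NeZero N] (G : AddSubgroup (JZero N)) [Finite G]
    (_htors : ∀ x ∈ G, ∃ m : ℕ, m ≠ 0 ∧ m • x = 0) :
    ∃ E : IntermediateField ℚ Kb, FiniteDimensional ℚ E ∧ Normal ℚ E ∧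
      ∀ σ : GalQ, (∀ a ∈ E, σ a = a) → ∀ x ∈ G, σ • x = x := by
  obtain ⟨E, h1, h2, h3⟩ := toricpre_field' N G
  exact ⟨E, h1, h2.to_normal, h3⟩

end Fermat.Agent.S15
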