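import Fermat.Agent.STB.KillsJ
import Fermat.Agent.S15.RealTr
import Fermat.Agent.S15.RealIdx
import Fermat.Agent.S15.ToricPre
import Fermat.Prelude.Def_GaloisRep_ComplexConjugation

/-!
# S15 / SEL-CNT / REAL, piece REAL-ASM: the transfer from the lattice to the torsion points

`H = RealtrH N` is the lattice of integral parabolic homomorphisms of `Γ₀(N)`.  For a prime `r`
and `k : ℕ` the map `Φ_k : H → J₀(N)[r ^ k]`, `φ ↦` the point `x` with `r ^ k x = 0` and
`μ(x) = e(φ / r ^ k)`, is additive with kernel `r ^ k H`, Hecke-equivariant, and its image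
contains the `r ^ k`-torsion of every `r`-divisible group of `r`-power torsion points.

* `realasm_transfer` : counting through an additive map (pure algebra);
* `realasmPhi`, `realasmPhi_tors`, `realasmPhi_mu`, `realasm_unique`, `realasmPhi_ker`,
  `realasmPhi_hecke`, `realasmPhi_op_pow`, `realasmPhi_range`;
* `realasm_core` : the count `#G_k ≤ r ^ a · #(G_k ∩ Q) ^ 2` for `Q` the points fixed by an
  automorphism `c` acting on the multipliers by `e(φ / r ^ k) ↦ e(-ι φ / r ^ k)`.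
-/

set_option autoImplicit false
set_option linter.style.haveILetI false
set_option synthInstance.maxHeartbeats 400000
set_option maxHeartbeats 1600000

noncomputable section

namespace Fermat.Agent.S15

open CongruenceSubgroup ModularCurve ModularCurve.Period AlgebraicCurve
open Fermat.Agent.ES Fermat.Agent.S24 Fermat.Agent.W1
open scoped MatrixGroups

/-- **REAL-ASM, abstract transfer**: counting in `J` through an additive map `Φ : H → J`. -/
theorem realasm_transfer {H J : Type*} [AddCommGroup H] [AddCommGroup J] (Φ : H →+ J)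
    (G Q W : AddSubgroup J) [Finite G] (E F : AddSubgroup H)
    (hE : ∀ φ, φ ∈ E ↔ Φ φ ∈ G) (hF : ∀ φ ∈ F, Φ φ ∈ G ⊓ Q)
    (hW : ∀ x ∈ G ⊓ W, ∃ φ, Φ φ = x)
    (c1 c2 : ℕ)
    (h1 : Nat.card G ≤ c1 * Nat.card ↥(G ⊓ W))
    (h2 : Φ.ker.relIndex E ≤ c2 * (Φ.ker.relIndex (F ⊔ Φ.ker)) ^ 2) :
    Nat.card G ≤ c1 * c2 * Nat.card ↥(G ⊓ Q) ^ 2 := by
  classical
  rw [AddSubgroup.relIndex_ker, AddSubgroup.relIndex_ker] at h2
  have hEG : E.map Φ ≤ G := by
    rintro _ ⟨φ, hφ, rfl⟩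
    exact (hE φ).1 hφ
  haveI : Finite ↥(E.map Φ) := Finite.of_injective
    (fun x : ↥(E.map Φ) => (⟨x.1, hEG x.2⟩ : G)) (fun a b hab => Subtype.ext (congrArg
      (fun z : G => (z : J)) hab))
  have hGQfin : Finite ↥(G ⊓ Q) := Finite.of_injective
    (fun x : ↥(G ⊓ Q) => (⟨x.1, x.2.1⟩ : G)) (fun a b hab => Subtype.ext (congrArg
      (fun z : G => (z : J)) hab))
  have h3 : Nat.card ↥(G ⊓ W) ≤ Nat.card ↥(E.map Φ) := by
    refine AddSubgroup.card_le_of_le ?_
    intro x hx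
    obtain ⟨φ, rfl⟩ := hW x hx
    exact ⟨φ, (hE φ).2 hx.1, rfl⟩
  have h4 : (F ⊔ Φ.ker).map Φ ≤ G ⊓ Q := by
    rw [AddSubgroup.map_sup]
    refine sup_le ?_ ?_
    · rintro _ ⟨φ, hφ, rfl⟩
      exact hF φ hφ
    · rintro _ ⟨φ, hφ, rfl⟩
      rw [AddMonoidHom.mem_ker.1 hφ]
      exact (G ⊓ Q).zero_mem
  have h5 : Nat.card ↥((F ⊔ Φ.ker).map Φ) ≤ Nat.card ↥(G ⊓ Q) := AddSubgroup.card_le_of_le h4
  calc Nat.card G ≤ c1 * Nat.card ↥(G ⊓ W) := h1
    _ ≤ c1 * Nat.card ↥(E.map Φ) := Nat.mul_le_mul_left _ h3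
    _ ≤ c1 * (c2 * Nat.card ↥((F ⊔ Φ.ker).map Φ) ^ 2) := Nat.mul_le_mul_left _ h2
    _ ≤ c1 * (c2 * Nat.card ↥(G ⊓ Q) ^ 2) :=
      Nat.mul_le_mul_left _ (Nat.mul_le_mul_left _ (Nat.pow_le_pow_left h5 2))
    _ = c1 * c2 * Nat.card ↥(G ⊓ Q) ^ 2 := by ring

section phi

variable (N r : ℕ) [NeZero N]

/-- the multiplier contract for `muMap N` -/
theorem realasm_multData (hr : r.Prime) :
    MultData N r (fun n => expHom (r ^ n)) (muMap N) :=
  multData_of_torsionUnifData hr.ne_zero (Fermat.Agent.STB.stb_p2_unifData N r hr.pos)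

theorem realasm_exists (hr : r.Prime) (k : ℕ) (φ : RealtrH N) :
    ∃ x : JZero N, r ^ k • x = 0 ∧
      muMap N x = expChar N (r ^ k) (φ : Additive (Gamma0 N) →+ ℤ) :=
  (realasm_multData N r hr).surj φ.1 φ.2 k

/-- the point with multiplier `e(φ / r ^ k)` -/
def realasmPhiFun (hr : r.Prime) (k : ℕ) (φ : RealtrH N) : JZero N :=
  (realasm_exists N r hr k φ).choose

theorem realasmPhiFun_tors (hr : r.Prime) (k : ℕ) (φ : RealtrH N) :
    r ^ k • realasmPhiFun N r hr k φ = 0 :=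
  (realasm_exists N r hr k φ).choose_spec.1

theorem realasmPhiFun_mu (hr : r.Prime) (k : ℕ) (φ : RealtrH N) :
    muMap N (realasmPhiFun N r hr k φ) = expChar N (r ^ k) (φ : Additive (Gamma0 N) →+ ℤ) :=
  (realasm_exists N r hr k φ).choose_spec.2

/-- uniqueness of the point with a given multiplier -/
theorem realasm_unique (hr : r.Prime) (k : ℕ) (φ : RealtrH N) {x : JZero N} {m : ℕ}
    (hx : r ^ m • x = 0)
    (hμ : muMap N x = expChar N (r ^ k) (φ : Additive (Gamma0 N) →+ ℤ)) :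
    x = realasmPhiFun N r hr k φ :=
  (realasm_multData N r hr).eq_of_eq (isPPowerTorsion_of_pow_smul hx)
    (isPPowerTorsion_of_pow_smul (realasmPhiFun_tors N r hr k φ))
    (hμ.trans (realasmPhiFun_mu N r hr k φ).symm)

theorem realasm_expChar_add (n : ℕ) (φ ψ : Additive (Gamma0 N) →+ ℤ) :
    expChar N n (φ + ψ) = expChar N n φ + expChar N n ψ := by
  refine DFunLike.ext _ _ (fun γ => ?_)
  rw [AddMonoidHom.add_apply, expChar_apply, expChar_apply, expChar_apply,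
    AddMonoidHom.add_apply, map_add]

/-- `Φ_k : H → J₀(N)[r ^ k]` -/
def realasmPhi (hr : r.Prime) (k : ℕ) : RealtrH N →+ JZero N :=
  AddMonoidHom.mk' (realasmPhiFun N r hr k) (fun φ ψ => by
    have hm := realasm_multData N r hr
    have h1 := realasmPhiFun_tors N r hr k φ
    have h2 := realasmPhiFun_tors N r hr k ψ
    symm
    refine realasm_unique N r hr k (φ + ψ) (m := k) (by rw [nsmul_add, h1, h2, add_zero]) ?_
    rw [hm.map_add _ _ (isPPowerTorsion_of_pow_smul h1) (isPPowerTorsion_of_pow_smul h2),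
      realasmPhiFun_mu, realasmPhiFun_mu]
    exact (realasm_expChar_add N (r ^ k) _ _).symm)

theorem realasmPhi_apply (hr : r.Prime) (k : ℕ) (φ : RealtrH N) :
    realasmPhi N r hr k φ = realasmPhiFun N r hr k φ := rfl

theorem realasmPhi_tors (hr : r.Prime) (k : ℕ) (φ : RealtrH N) :
    r ^ k • realasmPhi N r hr k φ = 0 := realasmPhiFun_tors N r hr k φ

theorem realasmPhi_mu (hr : r.Prime) (k : ℕ) (φ : RealtrH N) :
    muMap N (realasmPhi N r hr k φ) = expChar N (r ^ k) (φ : Additive (Gamma0 N) →+ ℤ) :=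
  realasmPhiFun_mu N r hr k φ

/-- division of a homomorphism with values divisible by `q` -/
theorem realasm_exists_div (q : ℕ) (φ : RealtrH N)
    (h : ∀ γ, (q : ℤ) ∣ (φ : Additive (Gamma0 N) →+ ℤ) γ) : ∃ ψ : RealtrH N, q • ψ = φ := by
  let ψ₀ : Additive (Gamma0 N) →+ ℤ :=
    AddMonoidHom.mk' (fun γ => (φ : Additive (Gamma0 N) →+ ℤ) γ / (q : ℤ)) (fun a b => by
      show (φ : Additive (Gamma0 N) →+ ℤ) (a + b) / (q : ℤ) = _
      rw [map_add]
      exact Int.add_ediv_of_dvd_left (h a))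
  have hψ₀ : ψ₀ ∈ intHoms (Gamma0 N) (parabolicSet N) := by
    intro g hg
    show (φ : Additive (Gamma0 N) →+ ℤ) (Additive.ofMul g) / (q : ℤ) = 0
    rw [φ.2 g hg, Int.zero_ediv]
  refine ⟨⟨ψ₀, hψ₀⟩, ?_⟩
  apply Subtype.ext
  refine DFunLike.ext _ _ (fun γ => ?_)
  show (q • ψ₀) γ = (φ : Additive (Gamma0 N) →+ ℤ) γ
  rw [AddMonoidHom.nsmul_apply, nsmul_eq_mul]
  exact Int.mul_ediv_cancel' (h γ)

/-- the kernel of `Φ_k` is `r ^ k H` -/
theorem realasmPhi_ker (hr : r.Prime) (k : ℕ) :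
    (realasmPhi N r hr k).ker = realPowSub (RealtrH N) r k := by
  have hm := realasm_multData N r hr
  ext φ
  rw [AddMonoidHom.mem_ker, mem_realPowSub]
  constructor
  · intro h
    have h1 := realasmPhi_mu N r hr k φ
    rw [h, hm.map_zero] at h1
    have h2 := (expChar_eq_zero_iff (pow_ne_zero k hr.ne_zero) _).1 h1.symm
    exact realasm_exists_div N (r ^ k) φ (fun γ => by exact_mod_cast h2 γ)
  · rintro ⟨ψ, rfl⟩
    rw [map_nsmul]
    exact realasmPhi_tors N r hr k ψ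

/-- `Φ_k` is Hecke-equivariant -/
theorem realasmPhi_hecke (hr : r.Prime) (k : ℕ) (ℓ : GoodPrime N r) (φ : RealtrH N) :
    realasmPhi N r hr k (realtrHecke N r ℓ φ) =
      heckeOperatorBar N (ℓ : Nat.Primes) (realasmPhi N r hr k φ) := by
  have hm := realasm_multData N r hr
  symm
  refine realasm_unique N r hr k _ (m := k) ?_ ?_
  · rw [← map_nsmul, realasmPhi_tors, map_zero]
  · rw [hm.hecke ℓ _ (isPPowerTorsion_of_pow_smul (realasmPhi_tors N r hr k φ)),
      realasmPhi_mu, realtrHecke_coe]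
    exact heckeOp_natural ℓ ℤ (Additive ℂˣ) (expHom (r ^ k)) _

/-- the operators `T_ℓ - (1 + ℓ)` on the lattice -/
def realasmOp (ℓ : GoodPrime N r) : Module.End ℤ (RealtrH N) :=
  realtrHecke N r ℓ -
    ((1 + ((ℓ : Nat.Primes) : ℕ) : ℕ) : ℤ) • (1 : Module.End ℤ (RealtrH N))

theorem realasmOp_mem (ℓ : GoodPrime N r) :
    realasmOp N r ℓ ∈ Algebra.adjoin ℤ (Set.range (realtrHecke N r)) :=
  Subalgebra.sub_mem _ (Algebra.subset_adjoin (Set.mem_range_self ℓ))
    (Subalgebra.zsmul_mem _ (Subalgebra.one_mem _) _)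

theorem realasmPhi_op (hr : r.Prime) (k : ℕ) (ℓ : GoodPrime N r) (φ : RealtrH N) :
    realasmPhi N r hr k (realasmOp N r ℓ φ) =
      selEisOp N (ℓ : Nat.Primes) (realasmPhi N r hr k φ) := by
  show realasmPhi N r hr k ((realtrHecke N r ℓ -
    ((1 + ((ℓ : Nat.Primes) : ℕ) : ℕ) : ℤ) • (1 : Module.End ℤ (RealtrH N))) φ) =
    (heckeOperatorBar N (ℓ : Nat.Primes) -
      ((1 + ((ℓ : Nat.Primes) : ℕ) : ℕ) : ℤ) • (1 : Module.End ℤ (JZero N)))
        (realasmPhi N r hr k φ)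
  rw [LinearMap.sub_apply, LinearMap.sub_apply, LinearMap.smul_apply, LinearMap.smul_apply,
    Module.End.one_apply, Module.End.one_apply, map_sub, map_zsmul, realasmPhi_hecke]

theorem realasmPhi_op_pow (hr : r.Prime) (k : ℕ) (ℓ : GoodPrime N r) (m : ℕ) (φ : RealtrH N) :
    realasmPhi N r hr k ((realasmOp N r ℓ ^ m) φ) =
      (selEisOp N (ℓ : Nat.Primes) ^ m) (realasmPhi N r hr k φ) := by
  induction m generalizing φ with
  | zero => rfl
  | succ m ih =>
    rw [pow_succ, pow_succ, Module.End.mul_apply, Module.End.mul_apply, ih, realasmPhi_op]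

/-- the preimage of the Eisenstein part -/
theorem realasm_mem_eisSub (hr : r.Prime) (k : ℕ) (φ : RealtrH N) :
    φ ∈ realEisSub (realasmOp N r) r k ↔ realasmPhi N r hr k φ ∈ selEisPart N r k := by
  rw [mem_realEisSub, mem_selEisPart]
  constructor
  · intro h
    refine ⟨realasmPhi_tors N r hr k φ, fun q hq => ?_⟩
    obtain ⟨m, hm⟩ := h ⟨q, hq⟩
    refine ⟨m, ?_⟩
    rw [← realasmPhi_ker N r hr k, AddMonoidHom.mem_ker, realasmPhi_op_pow] at hm
    exact hm
  · rintro ⟨-, h⟩ ℓ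
    obtain ⟨m, hm⟩ := h (ℓ : Nat.Primes) ℓ.2
    refine ⟨m, ?_⟩
    rw [← realasmPhi_ker N r hr k, AddMonoidHom.mem_ker, realasmPhi_op_pow]
    exact hm

/-- the image of `Φ_k` contains the `r ^ k`-torsion of every divisible group of `r`-power
torsion points -/
theorem realasmPhi_range (hr : r.Prime) (k : ℕ) (W : AddSubgroup (JZero N))
    (hWt : ∀ w ∈ W, ∃ m : ℕ, r ^ m • w = 0) (hWd : ∀ w ∈ W, ∃ w' ∈ W, r • w' = w)
    (x : JZero N) (hx : x ∈ W) (hxk : r ^ k • x = 0) :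
    ∃ φ : RealtrH N, realasmPhi N r hr k φ = x := by
  classical
  have hmem : x ∈ pDivTors r (JZero N) := by
    refine ⟨hWt x hx, ?_⟩
    let f : W → W := fun w => ⟨(hWd w.1 w.2).choose, (hWd w.1 w.2).choose_spec.1⟩
    have hf : ∀ w : W, r • (f w).1 = w.1 := fun w => (hWd w.1 w.2).choose_spec.2
    refine ⟨fun n => (f^[n] ⟨x, hx⟩).1, rfl, fun n => ?_⟩
    show r • (f^[n + 1] ⟨x, hx⟩).1 = (f^[n] ⟨x, hx⟩).1
    rw [Function.iterate_succ_apply']
    exact hf _
  obtain ⟨φ, hφ, hμ⟩ := Fermat.Agent.STB.stb_p2_range N r hr hmem hxk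
  exact ⟨⟨φ, hφ⟩, (realasm_unique N r hr k ⟨φ, hφ⟩ hxk hμ).symm⟩

end phi

/-- **REAL-ASM, core**: the count for the points fixed by an automorphism `c` which acts on the
multipliers by `e(φ / r ^ k) ↦ e(-ι φ / r ^ k)`. -/
theorem realasm_core (hA : StmtRealAlg) (N r : ℕ) [NeZero N] (hr : r.Prime) (c : GalQ)
    (Q : AddSubgroup (JZero N)) (hQ : ∀ x : JZero N, c • x = x → x ∈ Q)
    (hconj : ∀ (k : ℕ) (x : JZero N) (φ : Additive (Gamma0 N) →+ ℤ), r ^ k • x = 0 →
      muMap N x = expChar N (r ^ k) φ →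
      muMap N (c • x) = expChar N (r ^ k) (-(charInvolution N ℤ ℤ φ))) :
    ∃ a : ℕ, ∀ k : ℕ,
      Nat.card ↥(selEisPart N r k) ≤ r ^ a * Nat.card ↥(selEisPart N r k ⊓ Q) ^ 2 := by
  classical
  obtain ⟨a1, W, hWt, hWd, hW⟩ := real_idx (J := JZero N) r hr
    (fun n => esk_finite N (r ^ n) (pow_ne_zero n hr.ne_zero))
  obtain ⟨a2, ha2⟩ := realtr_of_realAlg_neg (M := N) (p := r) (realasmOp N r) hA
    (realasmOp_mem N r) r hr
  refine ⟨a1 + a2, fun k => ?_⟩
  haveI : Finite ↥(selEisPart N r k) := toricpre_finite N r k hr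
  have h1 : Nat.card ↥(selEisPart N r k) ≤ r ^ a1 * Nat.card ↥(selEisPart N r k ⊓ W) :=
    hW _ (fun x hx => ⟨k, (mem_selEisPart.1 hx).1⟩) inferInstance
  have h2 := ha2 k
  rw [← realasmPhi_ker N r hr k] at h2
  have key := realasm_transfer (realasmPhi N r hr k) (selEisPart N r k) Q W
    (realEisSub (realasmOp N r) r k) (realEisFix (realasmOp N r) (-realtrInv N) r k)
    (realasm_mem_eisSub N r hr k) ?_ ?_ (r ^ a1) (r ^ a2) h1 h2
  · rw [pow_add]
    exact key
  · intro φ hφ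
    obtain ⟨hφE, hφι⟩ := mem_realEisFix.1 hφ
    refine ⟨(realasm_mem_eisSub N r hr k φ).1 hφE, hQ _ ?_⟩
    have h3 := hconj k _ _ (realasmPhi_tors N r hr k φ) (realasmPhi_mu N r hr k φ)
    have h4 : r ^ k • (c • realasmPhi N r hr k φ) = 0 := by
      have e : r ^ k • (c • realasmPhi N r hr k φ) = c • (r ^ k • realasmPhi N r hr k φ) :=
        (map_nsmul (DistribSMul.toAddMonoidHom (JZero N) c) (r ^ k) _).symm
      rw [e, realasmPhi_tors]
      exact smul_zero (A := JZero N) c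
    have h5 := realasm_unique N r hr k ((-realtrInv N) φ) h4 h3
    rw [h5, ← realasmPhi_apply, hφι]
  · intro x hx
    exact realasmPhi_range N r hr k W hWt hWd x hx.2 (mem_selEisPart.1 hx.1).1

end Fermat.Agent.S15
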