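import Fermat.Agent.S15.RealPlan
import Fermat.Agent.S15.RealAsmCore
import Fermat.Agent.S15.RealAlg

/-!
# S15 / SEL-CNT / REAL, piece REAL-ASM: assembly

* `realasm_conjChar_expChar` : `conj ∘ e(φ / n) ∘ j = e(-ι φ / n)`;
* `realasm_muMap_conj`       : REAL-CONJ in terms of `muMap`;
* `stmtSelReal_of`           : `StmtRealAlg → StmtRealConj → StmtSelReal`;
* `stmtSelReal_of_conj`      : `StmtRealConj → StmtSelReal` (REAL-ALG is `stmtRealAlg`).
-/

set_option autoImplicit false
set_option linter.style.haveILetI false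
set_option synthInstance.maxHeartbeats 400000
set_option maxHeartbeats 1600000

noncomputable section

namespace Fermat.Agent.S15

open CongruenceSubgroup ModularCurve ModularCurve.Period AlgebraicCurve
open Fermat.Agent.ES Fermat.Agent.S24 Fermat.Agent.W1
open scoped MatrixGroups

/-- the complex conjugate of `exp(2πi/n)` is its inverse -/
theorem realasm_conj_zetaUnit (n : ℕ) : realConjUnits (zetaUnit n) = (zetaUnit n)⁻¹ := by
  apply Units.ext
  rw [Units.val_inv_eq_inv_val, zetaUnit_val]
  show (starRingEnd ℂ) (Complex.exp (2 * Real.pi * Complex.I / n)) = _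
  rw [← Complex.exp_conj, ← Complex.exp_neg]
  congr 1
  simp only [map_div₀, map_mul, Complex.conj_I, map_natCast, Complex.conj_ofReal, map_ofNat]
  ring

/-- `conj ∘ e(φ / n) ∘ j = e(-ι φ / n)` -/
theorem realasm_conjChar_expChar (N n : ℕ) (φ : Additive (Gamma0 N) →+ ℤ) :
    realConjChar N (expChar N n φ) = expChar N n (-(charInvolution N ℤ ℤ φ)) := by
  refine DFunLike.ext _ _ (fun γ => ?_)
  rw [realConjChar_apply, expChar_apply, expChar_apply, AddMonoidHom.neg_apply,
    charInvolution_apply, expHom_apply, expHom_apply]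
  have h : ∀ u : ℂˣ, (MonoidHom.toAdditive realConjUnits) (Additive.ofMul u) =
      Additive.ofMul (realConjUnits u) := fun u => rfl
  rw [h, map_zpow, realasm_conj_zetaUnit, inv_zpow']

/-- REAL-CONJ in terms of the multiplier map -/
theorem realasm_muMap_conj (hC : StmtRealConj) (N : ℕ) [NeZero N] (n : ℕ) (hn : 0 < n)
    (x : JZero N) (hx : n • x = 0) :
    muMap N ((complexConjugation : GalQ) • x) = realConjChar N (muMap N x) :=
  muMap_eq muUnique hn (hC N n hn x _ (muRel_muMap (muExists N) muUnique hn hx))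

/-- **REAL-ASM**: REAL from REAL-ALG and REAL-CONJ. -/
theorem stmtSelReal_of (hA : StmtRealAlg) (hC : StmtRealConj) : StmtSelReal := by
  intro N _ r _ hr _
  refine realasm_core hA N r hr (complexConjugation : GalQ) (selFixC N)
    (fun x hx => mem_selFixC.2 hx) (fun k x φ hx hμ => ?_)
  rw [realasm_muMap_conj hC N (r ^ k) (pow_pos hr.pos k) x hx, hμ, realasm_conjChar_expChar]

/-- **REAL** from REAL-CONJ alone. -/
theorem stmtSelReal_of_conj (hC : StmtRealConj) : StmtSelReal :=
  stmtSelReal_of stmtRealAlg hC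

end Fermat.Agent.S15
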