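import Fermat.Agent.S15.ToricFinal
import Fermat.Agent.S15.RealAsm

/-!
# S15 / SEL-CNT: the uniform count `(CNT*)` = TORIC × REAL  (G-star)

`(CNT*)`  `∃ a ∀ k, #G_k ≤ r ^ a * (#(G_k ∩ J^{I_N}) * #(G_k ∩ J^c))`, `G_k` the Eisenstein part of
`J₀(N)[r ^ k]`.

* `cntstar_nat`      : `g ≤ t²`, `g ≤ c s²`  ⇒  `g ≤ c (t s)`;
* `cntstar_of`       : `StmtSelToric → StmtSelReal → StmtSelCntStar`;
* `cntstar_of_real`  : `StmtSelReal → StmtSelCntStar`   (TORIC is `stmtSelToric`);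
* `cntstar_of_conj`  : `StmtRealConj → StmtSelCntStar`  (REAL ⇐ REAL-CONJ is `stmtSelReal_of_conj`).
-/

set_option autoImplicit false

namespace Fermat.Agent.S15

open ModularCurve AlgebraicCurve
open Fermat.Agent.S24 Fermat.Agent.W1

/-- `g ≤ t²` and `g ≤ c s²` give `g ≤ c (t s)` -/
theorem cntstar_nat {g t s c : ℕ} (h1 : g ≤ t ^ 2) (h2 : g ≤ c * s ^ 2) : g ≤ c * (t * s) := by
  rcases Nat.eq_zero_or_pos c with hc | hc
  · subst hc
    simpa using h2
  have h3 : g * g ≤ (c * (t * s)) * (c * (t * s)) := by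
    calc g * g ≤ t ^ 2 * (c * s ^ 2) := Nat.mul_le_mul h1 h2
      _ = 1 * (c * (t * s) * (t * s)) := by ring
      _ ≤ c * (c * (t * s) * (t * s)) := Nat.mul_le_mul_right _ hc
      _ = (c * (t * s)) * (c * (t * s)) := by ring
  exact Nat.mul_self_le_mul_self_iff.1 h3

/-- **G-star**: `(CNT*)` from TORIC and REAL. -/
theorem cntstar_of (hT : StmtSelToric) (hR : StmtSelReal) : StmtSelCntStar := by
  intro N _ r hN hr hrN AN hAN
  obtain ⟨a, ha⟩ := hR N r hN hr hrN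
  refine ⟨a, fun k => cntstar_nat ?_ (ha k)⟩
  exact hT N r hN hr hrN AN hAN (selEisPart N r k) (toricpre_finite N r k hr)
    (fun x hx => ⟨k, (mem_selEisPart.1 hx).1⟩)
    (fun σ _ x hx => toricpre_stable N r k σ hx)

/-- `(CNT*)` from REAL. -/
theorem cntstar_of_real (hR : StmtSelReal) : StmtSelCntStar :=
  cntstar_of stmtSelToric hR

/-- `(CNT*)` from REAL-CONJ. -/
theorem cntstar_of_conj (hC : StmtRealConj) : StmtSelCntStar :=
  cntstar_of_real (stmtSelReal_of_conj hC)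

end Fermat.Agent.S15
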