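import Fermat.Agent.S28.Bridge
import Fermat.Agent.S28.NormPoly
import Fermat.Prelude.Def_ModularCurve_PeriodHomPair
import Fermat.Prelude.Def_ModularCurve_X0ModL

/-!
# S15 / SEL-CNT / REAL-CONJ, part 1: the conjugation `f ↦ (τ ↦ conj (f (-τ̄)))` on functions on `ℍ`

`realCj f = f ∣[k] J` (`J = diag(-1, 1)`, Mathlib's slash action of `GL(2, ℝ)`).

* `realCj_mdiff`, `realCj_bdd`, `realCj_isHPB` : it preserves holomorphy, boundedness at `i∞`,
  periodicity;
* `real_J_smul_SL` : `J (γ τ) = (j γ) (J τ)` with `j = jConjSL`;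
* `realCj_qExpansion` : the `q`-expansion of `realCj f` is the conjugate of that of `f`;
* `realCj_discriminant` : `realCj Δ = Δ`;
* `realCj_isMF`, `realCj_isModFun` : it preserves the modular forms and the modular functions of
  level `Γ₀(N)`;
* `laurentOf_realCj` : `laurentOf (realCj f) = coeffMap conj (laurentOf f)`.
-/

set_option autoImplicit false

noncomputable section

open UpperHalfPlane ModularForm CongruenceSubgroup ModularCurve.Period
open Fermat.Agent.S23 Fermat.Agent.S28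
open scoped MatrixGroups Manifold ComplexConjugate ModularForm

namespace Fermat.Agent.S15

local notation "Δ" => ModularForm.discriminant

/-- `f ↦ (τ ↦ conj (f (-τ̄)))` -/
def realCj (f : ℍ → ℂ) : ℍ → ℂ := fun τ => conj (f (J • τ))

theorem realCj_apply (f : ℍ → ℂ) (τ : ℍ) : realCj f τ = conj (f (J • τ)) := rfl

theorem realCj_eq_slash (f : ℍ → ℂ) (k : ℤ) : realCj f = f ∣[k] J := by
  funext τ
  have h : ¬ ((1 : ℝ) < 0) := by norm_num
  simp [realCj, ModularForm.slash_def, σ, h]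

theorem realCj_mdiff {f : ℍ → ℂ} (hf : MDiff f) : MDiff (realCj f) := by
  rw [realCj_eq_slash f 0]
  exact hf.slash 0 J

theorem real_J_smul_J_smul (τ : ℍ) : J • (J • τ) = τ := by
  rw [← mul_smul, ← sq, J_sq, one_smul]

theorem realCj_realCj (f : ℍ → ℂ) : realCj (realCj f) = f := by
  funext τ
  rw [realCj_apply, realCj_apply, real_J_smul_J_smul, Complex.conj_conj]

theorem realCj_mul (f g : ℍ → ℂ) :
    realCj (fun τ => f τ * g τ) = fun τ => realCj f τ * realCj g τ := by
  funext τ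
  simp only [realCj_apply, map_mul]

theorem realCj_pow (f : ℍ → ℂ) (n : ℕ) :
    realCj (fun τ => f τ ^ n) = fun τ => realCj f τ ^ n := by
  funext τ
  simp only [realCj_apply, map_pow]

theorem realCj_eq_zero_iff (f : ℍ → ℂ) : realCj f = 0 ↔ f = 0 := by
  constructor
  · intro h
    rw [← realCj_realCj f, h]
    funext τ
    simp [realCj_apply]
  · rintro rfl
    funext τ
    simp [realCj_apply]

theorem real_im_J_smul (τ : ℍ) : (J • τ).im = τ.im := by
  have h := coe_J_smul τ
  have h2 : ((J • τ : ℍ) : ℂ).im = (τ : ℂ).im := by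
    rw [h]
    simp
  exact h2

theorem realCj_bdd {f : ℍ → ℂ} (hf : IsBoundedAtImInfty f) : IsBoundedAtImInfty (realCj f) := by
  rw [isBoundedAtImInfty_iff] at hf ⊢
  obtain ⟨M, A, h⟩ := hf
  refine ⟨M, A, fun z hz => ?_⟩
  rw [realCj_apply, RCLike.norm_conj]
  exact h _ (by rw [real_im_J_smul]; exact hz)

theorem real_J_mul_SL (γ : SL(2, ℤ)) :
    J * (Matrix.SpecialLinearGroup.mapGL ℝ γ : GL (Fin 2) ℝ) =
      (Matrix.SpecialLinearGroup.mapGL ℝ (jConjSL γ) : GL (Fin 2) ℝ) * J := by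
  apply Units.ext
  ext i j
  fin_cases i <;> fin_cases j <;>
    simp [Matrix.mul_apply, Fin.sum_univ_two, jConjMat]

/-- `J (γ τ) = (j γ) (J τ)` -/
theorem real_J_smul_SL (γ : SL(2, ℤ)) (τ : ℍ) : J • (γ • τ) = jConjSL γ • (J • τ) := by
  show J • ((Matrix.SpecialLinearGroup.mapGL ℝ γ : GL (Fin 2) ℝ) • τ) =
    (Matrix.SpecialLinearGroup.mapGL ℝ (jConjSL γ) : GL (Fin 2) ℝ) • (J • τ)
  rw [← mul_smul, ← mul_smul, real_J_mul_SL]

theorem realCj_smul (f : ℍ → ℂ) (γ : SL(2, ℤ)) (τ : ℍ) :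
    realCj f (γ • τ) = conj (f (jConjSL γ • (J • τ))) := by
  rw [realCj_apply, real_J_smul_SL]

/-! ## Periodicity and `q`-expansions -/

theorem real_J_ofComplex {z : ℂ} (hz : 0 < z.im) : J • ofComplex z = ofComplex (-conj z) := by
  rw [J_smul, ofComplex_apply_of_im_pos hz]

theorem realCj_periodic {f : ℍ → ℂ} (hf : Function.Periodic (f ∘ ofComplex) 1) :
    Function.Periodic (realCj f ∘ ofComplex) 1 := by
  intro z
  simp only [Function.comp_apply, realCj_apply]
  by_cases hz : 0 < z.im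
  · have hz1 : 0 < (z + 1).im := by simpa using hz
    rw [real_J_ofComplex hz, real_J_ofComplex hz1]
    have h1 := hf (-conj (z + 1))
    simp only [Function.comp_apply] at h1
    have e : -conj (z + 1) + 1 = -conj z := by
      simp only [map_add, map_one]
      ring
    rw [e] at h1
    rw [h1]
  · have hz1 : ¬ 0 < (z + 1).im := by simpa using hz
    rw [ofComplex_apply_of_im_nonpos (not_lt.1 hz), ofComplex_apply_of_im_nonpos (not_lt.1 hz1)]

theorem realCj_isHPB {f : ℍ → ℂ} (hf : IsHPB f) : IsHPB (realCj f) :=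
  ⟨realCj_mdiff hf.1, realCj_periodic hf.2.1, realCj_bdd hf.2.2⟩

theorem real_conj_qParam (τ : ℍ) : conj (Function.Periodic.qParam 1 ((J • τ : ℍ) : ℂ)) = Function.Periodic.qParam 1 (τ : ℂ) := by
  rw [coe_J_smul]
  simp only [Function.Periodic.qParam]
  rw [← Complex.exp_conj]
  congr 1
  simp only [map_mul, map_div₀, map_neg, Complex.conj_conj, Complex.conj_I, map_ofNat,
    Complex.conj_ofReal, map_one, Complex.ofReal_one]
  ring

/-- uniqueness of the `q`-expansion coefficients, for plain functions -/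
theorem real_qExpansion_coeff_unique {f : ℍ → ℂ} {c : ℕ → ℂ}
    (hfanalytic : AnalyticAt ℂ (cuspFunction 1 f) 0)
    (hf : ∀ τ : ℍ, HasSum (fun m ↦ c m • Function.Periodic.qParam 1 (τ : ℂ) ^ m) (f τ)) (m : ℕ) :
    c m = (qExpansion 1 f).coeff m := by
  let _ : FunLike (ℍ → ℂ) ℍ ℂ := ⟨id, fun _ _ h => h⟩
  exact UpperHalfPlane.qExpansion_coeff_unique (F := ℍ → ℂ) f one_pos hfanalytic hf m

theorem realCj_qExpansion {f : ℍ → ℂ} (hf : IsHPB f) :
    qExpansion 1 (realCj f) = (qExpansion 1 f).map (starRingEnd ℂ) := by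
  ext m
  rw [PowerSeries.coeff_map]
  symm
  refine real_qExpansion_coeff_unique (realCj_isHPB hf).analyticAt
    (c := fun m => conj ((qExpansion 1 f).coeff m)) (fun τ => ?_) m
  have h1 := (hasSum_qExpansion one_pos hf.2.1 hf.1 hf.2.2 (J • τ)).star
  have e : (fun m : ℕ => star ((qExpansion 1 f).coeff m • Function.Periodic.qParam 1 ((J • τ : ℍ) : ℂ) ^ m)) =
      fun m : ℕ => conj ((qExpansion 1 f).coeff m) • Function.Periodic.qParam 1 (τ : ℂ) ^ m := by
    funext m
    rw [smul_eq_mul, smul_eq_mul]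
    show conj ((qExpansion 1 f).coeff m * Function.Periodic.qParam 1 ((J • τ : ℍ) : ℂ) ^ m) = _
    rw [map_mul, map_pow, real_conj_qParam]
  rw [e] at h1
  exact h1

theorem real_eq_of_qExpansion_eq {f g : ℍ → ℂ} (hf : IsHPB f) (hg : IsHPB g)
    (h : qExpansion 1 f = qExpansion 1 g) : f = g := by
  funext τ
  have h1 := hasSum_qExpansion one_pos hf.2.1 hf.1 hf.2.2 τ
  have h2 := hasSum_qExpansion one_pos hg.2.1 hg.1 hg.2.2 τ
  rw [h] at h1
  exact h1.unique h2

/-! ## The discriminant -/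

theorem real_coeffMap_deltaL : ModularCurve.coeffMap (starRingEnd ℂ) deltaL = deltaL := by
  rw [deltaL, map_mul, ModularCurve.coeffMap_ofPowerSeries]
  congr 1
  · ext k
    rw [ModularCurve.coeffMap_coeff]
    by_cases hk : k = 1
    · subst hk
      simp
    · rw [HahnSeries.coeff_single_of_ne hk, map_zero]
  · congr 1
    ext n
    rw [PowerSeries.coeff_map, PowerSeries.coeff_map]
    simp

theorem real_qExpansion_discriminant_conj :
    (qExpansion 1 (Δ : ℍ → ℂ)).map (starRingEnd ℂ) = qExpansion 1 (Δ : ℍ → ℂ) := by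
  apply HahnSeries.ofPowerSeries_injective (Γ := ℤ)
  rw [← ModularCurve.coeffMap_ofPowerSeries, bridge_ofPowerSeries_discriminant,
    real_coeffMap_deltaL]

/-- `Δ` has real `q`-expansion coefficients -/
theorem realCj_discriminant : realCj (Δ : ℍ → ℂ) = Δ :=
  real_eq_of_qExpansion_eq (realCj_isHPB bridge_isHPB_discriminant) bridge_isHPB_discriminant
    (by rw [realCj_qExpansion bridge_isHPB_discriminant, real_qExpansion_discriminant_conj])

/-! ## Modular forms and modular functions of level `Γ₀(N)` -/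

theorem real_conj_mapGL (γ : SL(2, ℤ)) :
    J * (Matrix.SpecialLinearGroup.mapGL ℝ γ : GL (Fin 2) ℝ) * J⁻¹ =
      (Matrix.SpecialLinearGroup.mapGL ℝ (jConjSL γ) : GL (Fin 2) ℝ) := by
  rw [real_J_mul_SL, mul_assoc, mul_inv_cancel, mul_one]

open ConjAct Pointwise in
theorem real_conj_G0 (N : ℕ) : toConjAct (J⁻¹ : GL (Fin 2) ℝ) • G0 N = G0 N := by
  ext g
  rw [Subgroup.mem_pointwise_smul_iff_inv_smul_mem, ← map_inv, inv_inv, ConjAct.toConjAct_smul]
  constructor
  · rintro ⟨γ, hγ, hg⟩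
    refine ⟨jConjSL γ, jConjSL_mem_Gamma0 hγ, ?_⟩
    rw [← real_conj_mapGL, hg]
    have hJ : (J : GL (Fin 2) ℝ) * J = 1 := by rw [← sq, J_sq]
    have hJi : (J⁻¹ : GL (Fin 2) ℝ) = J := inv_eq_of_mul_eq_one_right hJ
    rw [hJi]
    calc J * (J * g * J) * J = (J * J) * g * (J * J) := by group
      _ = g := by rw [hJ, one_mul, mul_one]
  · rintro ⟨γ, hγ, rfl⟩
    exact ⟨jConjSL γ, jConjSL_mem_Gamma0 hγ, (real_conj_mapGL γ).symm⟩

theorem realCj_isMF {N : ℕ} {k : ℤ} {F : ℍ → ℂ} (h : IsMF (G0 N) k F) :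
    IsMF (G0 N) k (realCj F) := by
  obtain ⟨f, rfl⟩ := h
  have key : ∀ (Γ' : Subgroup (GL (Fin 2) ℝ)), Γ' = G0 N → ∀ g : ModularForm Γ' k,
      IsMF (G0 N) k ⇑g := by
    intro Γ' hΓ g
    subst hΓ
    exact ⟨g, rfl⟩
  have h1 := key _ (real_conj_G0 N) (ModularForm.translate f J)
  rwa [ModularForm.coe_translate, ← realCj_eq_slash] at h1

theorem realCj_mul_discriminant_pow (f : ℍ → ℂ) (m : ℕ) :
    realCj (fun z => f z * Δ z ^ m) = fun z => realCj f z * Δ z ^ m := by
  funext z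
  have h := congrFun realCj_discriminant z
  simp only [realCj_apply] at h ⊢
  rw [map_mul, map_pow, h]

theorem realCj_isModFun {N : ℕ} {f : ℍ → ℂ} (h : IsModFun N f) : IsModFun N (realCj f) := by
  obtain ⟨m, hm⟩ := h
  refine ⟨m, ?_⟩
  have := realCj_isMF hm
  rwa [realCj_mul_discriminant_pow] at this

/-! ## The Laurent expansion -/

theorem laurentOf_realCj {f : ℍ → ℂ} (hf : IsMerInf f) :
    laurentOf (realCj f) = ModularCurve.coeffMap (starRingEnd ℂ) (laurentOf f) := by
  obtain ⟨m, hm⟩ := hf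
  have hm' : IsHPB (fun z => realCj f z * Δ z ^ m) := by
    have := realCj_isHPB hm
    rwa [realCj_mul_discriminant_pow] at this
  rw [laurentOf_eq hm', laurentOf_eq hm, map_mul, map_inv₀, map_pow, real_coeffMap_deltaL,
    ModularCurve.coeffMap_ofPowerSeries, ← realCj_qExpansion hm, realCj_mul_discriminant_pow]

end Fermat.Agent.S15
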