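import Fermat.Agent.S15.RealPlan
import Fermat.Agent.S15.RealCj

/-!
# S15 / SEL-CNT / REAL-CONJ (MuConj): the multiplier of `c • x`

`c` the complex conjugation of `ℚ̄` (`embC ∘ c = conj ∘ embC`).  If `u` is a Kummer function of
`x ∈ J₀(N)[n]`, analytically `u = a / g`, and `w = R.a / R.g` an `n`-th root with multiplier `χ`,
then `c u` is a Kummer function of `c • x`, analytically `c u = realCj a / realCj g`, and
`realCj R.a / realCj R.g` is an `n`-th root with multiplier `conj ∘ χ ∘ j`.

* `stmtRealConj : StmtRealConj`.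
-/

set_option autoImplicit false

noncomputable section

open UpperHalfPlane ModularForm CongruenceSubgroup ModularCurve ModularCurve.Period AlgebraicCurve
open Fermat.Agent.S23 Fermat.Agent.S24 Fermat.Agent.S28 Fermat.Agent.W1 Fermat.Agent.ES
open scoped MatrixGroups Manifold ComplexConjugate ModularForm

namespace Fermat.Agent.S15

/-- `embC ∘ c = conj ∘ embC` -/
theorem real_embC_conj (x : Kb) :
    embC ((complexConjugation : GalQ) x) = conj (embC x) :=
  complexEmbedding_complexConjugation x

theorem real_embC_comp :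
    (embC : Kb →+* ℂ).comp (((complexConjugation : GalQ) : Kb ≃ₐ[ℚ] Kb) : Kb →+* Kb) =
      (starRingEnd ℂ).comp embC :=
  RingHom.ext fun x => real_embC_conj x

/-! ## The conjugate root data -/

/-- the conjugate of a root datum -/
def realRootCj {N n : ℕ} (R : RootData (Gamma0 N) n) : RootData (Gamma0 N) n where
  a := realCj R.a
  g := realCj R.g
  p_ne_zero := R.p_ne_zero
  mdiff_a := realCj_mdiff R.mdiff_a
  mdiff_g := realCj_mdiff R.mdiff_g
  a_ne_zero := fun h => R.a_ne_zero ((realCj_eq_zero_iff _).1 h)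
  g_ne_zero := fun h => R.g_ne_zero ((realCj_eq_zero_iff _).1 h)
  pow_inv := by
    intro γ hγ τ
    have h := R.pow_inv (jConjSL γ) (jConjSL_mem_Gamma0 hγ) (UpperHalfPlane.J • τ)
    have h2 := congrArg (starRingEnd ℂ) h
    simp only [map_pow, map_mul] at h2
    rw [realCj_smul, realCj_smul, realCj_apply, realCj_apply]
    exact h2

theorem realRootCj_a {N n : ℕ} (R : RootData (Gamma0 N) n) : (realRootCj R).a = realCj R.a := rfl

theorem realRootCj_g {N n : ℕ} (R : RootData (Gamma0 N) n) : (realRootCj R).g = realCj R.g := rfl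

/-- the multiplier of the conjugate root datum -/
theorem realRootCj_isMultiplier {N n : ℕ} (R : RootData (Gamma0 N) n) (γ : Gamma0 N) :
    IsMultiplier (γ : SL(2, ℤ)) (realRootCj R).a (realRootCj R).g
      (conj (R.multVal (jConjGamma0 N γ))) := by
  intro τ
  have h := R.multVal_spec (jConjGamma0 N γ) (UpperHalfPlane.J • τ)
  have h2 := congrArg (starRingEnd ℂ) h
  simp only [map_mul] at h2
  rw [realRootCj_a, realRootCj_g, realCj_smul, realCj_smul, realCj_apply, realCj_apply]
  exact h2

theorem realRootCj_multAdd {N n : ℕ} (R : RootData (Gamma0 N) n) :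
    (realRootCj R).multAdd = realConjChar N R.multAdd := by
  refine AddMonoidHom.ext fun γ => ?_
  obtain ⟨γ, rfl⟩ : ∃ γ' : Gamma0 N, Additive.ofMul γ' = γ := ⟨Additive.toMul γ, rfl⟩
  rw [RootData.multAdd_apply, realConjChar_apply]
  apply congrArg Additive.ofMul
  rw [RootData.mult_eq_iff]
  have h := realRootCj_isMultiplier R γ
  convert h using 1
  show ((realConjUnits (R.mult (jConjGamma0 N γ)) : ℂˣ) : ℂ) = _
  rfl

/-! ## The statement -/

/-- **REAL-CONJ** (MuConj). -/
theorem stmtRealConj : StmtRealConj := by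
  intro N _ n hn x χ hrel
  obtain ⟨u, a, g, R, hK, ⟨ha, hg, hg0, hug⟩, hroot, hχ⟩ := hrel
  refine ⟨arithmeticGalois (modularFunctionFieldFull N) (complexConjugation : GalQ) • u,
    realCj a, realCj g, realRootCj R, ?_, ⟨realCj_isModFun ha, realCj_isModFun hg,
      fun h => hg0 ((realCj_eq_zero_iff _).1 h), ?_⟩, ?_, ?_⟩
  · rw [galois_smul_pic0_def]
    exact hK.smul _
  · rw [coe_arithmeticGalois_smul, coeffMap_coeffMap, laurentOf_realCj hg.isMerInf,
      laurentOf_realCj ha.isMerInf, ← hug, map_mul, coeffMap_coeffMap]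
    congr 1
    exact coeffMap_congr real_embC_comp _
  · intro τ
    have h := hroot (UpperHalfPlane.J • τ)
    have h2 := congrArg (starRingEnd ℂ) h
    simp only [map_pow, map_mul] at h2
    exact h2
  · rw [realRootCj_multAdd, hχ]

end Fermat.Agent.S15
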