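import Fermat.Agent.S15.RealAsm
import Fermat.Agent.S15.RealConj

/-!
# S15 / SEL-CNT / REAL: the final statement

`stmtSelReal : StmtSelReal`, unconditional: REAL-ASM (`stmtSelReal_of_conj`, RealAsm.lean, which
already contains REAL-ALG) applied to REAL-CONJ (`stmtRealConj`, RealConj.lean).
-/

set_option autoImplicit false

namespace Fermat.Agent.S15

/-- **REAL**, unconditional. -/
theorem stmtSelReal : StmtSelReal := stmtSelReal_of_conj stmtRealConj

end Fermat.Agent.S15
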