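import Fermat.Agent.S15.CntStar
import Fermat.Agent.S15.RealFinal

/-!
# S15 / SEL-CNT: the uniform count `(CNT*)`, unconditional

`stmtSelCntStar : StmtSelCntStar`  (`(CNT*)` = TORIC × REAL; TORIC is `stmtSelToric` of
`ToricFinal.lean`, REAL is `stmtSelReal` of `RealFinal.lean`).
-/

set_option autoImplicit false

namespace Fermat.Agent.S15

/-- **(CNT\*)**, unconditional. -/
theorem stmtSelCntStar : StmtSelCntStar :=
  cntstar_of_real stmtSelReal

end Fermat.Agent.S15
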