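import Mathlib
import Fermat.Agent.W1.PlanGeo2

/-!
# S15 piece DIV¹: the kernel of reduction is divisible by every `m` prime to the residue
characteristic — exact statements

Notation of `W1/PlanGeo.lean`, `W1/PlanGeo2.lean` (`PRData`, `IsPR`, `Orth`, `J1`).

* `StmtHenselMv` (**DIV1-H**, pure algebra, Mathlib only): Hensel's lemma in several variables for
  a valuation ring `A` of an algebraically closed field `K`: a square system `f` of polynomials
  over `A`, a point `a` with `f(a) ≡ 0 mod 𝔪` at which the Jacobian matrix is injective modulo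
  `𝔪`, has a solution `b ≡ a mod 𝔪`, `f(b) = 0`.  (No completeness: the solution is algebraic.)
* `StmtDiv1` (**DIV¹**): for `m` a unit of `A`, every class of the kernel of reduction `J1` is
  `m • y` with `y` in `J1`.

Route for `StmtDiv1` (file `S15/Div1*.lean`): `x = [D]`, `r_* D = 0`; `N̄`, `R̄` disjoint non-special
reduced divisors of degree `g` of the reduced curve, `N`, `R` lifts; solve `w ^ m = h * h'` with
`w ∈ L(N + R)`, `h ∈ L(D + m N)`, `h' ∈ L(m R - D)`, all three `≡ 1`, by `StmtHenselMv` in
orthonormal coordinates (the differential `m δw - δh - δh'` is injective modulo constants because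
`L̄(N̄) = L̄(R̄) = k`); then `div h + D + m N = m D'` and `y = [D' - N]`.
-/

set_option autoImplicit false

open AlgebraicCurve Module

namespace Fermat.Agent.S15

open Fermat.Agent.W1

/-- **DIV1-H**: Hensel's lemma in several variables for the valuation ring of an algebraically
closed field. -/
def StmtHenselMv : Prop :=
  ∀ (K : Type) [Field K] [IsAlgClosed K] (A : ValuationSubring K)
    (σ ι : Type) [Fintype σ] [Fintype ι], Fintype.card ι = Fintype.card σ →
    ∀ (f : ι → MvPolynomial σ A) (a : σ → A),
      (∀ i, ((MvPolynomial.eval a (f i) : A) : K) ∈ A.nonunits) →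
      (∀ v : σ → A,
        (∀ i, ((∑ j, MvPolynomial.eval a (MvPolynomial.pderiv j (f i)) * v j : A) : K)
          ∈ A.nonunits) →
        ∀ j, ((v j : A) : K) ∈ A.nonunits) →
      ∃ b : σ → A, (∀ j, ((b j - a j : A) : K) ∈ A.nonunits) ∧
        ∀ i, MvPolynomial.eval b (f i) = 0

/-- **DIV¹**: the kernel of reduction is `m`-divisible for every `m` which is a unit of `A`. -/
def StmtDiv1 : Prop :=
  ∀ (K F k Fk : Type) [Field K] [Field F] [Algebra K F] [Field k] [Field Fk] [Algebra k Fk]
    [IsAlgClosed K]
    (A : ValuationSubring K) (R : PRData K F k Fk A) (g : ℕ),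
    R.IsPR → IsNiceCurve K F g → IsNiceCurve k Fk g → R.Orth →
    ∀ m : ℕ, (m : K) ∉ A.nonunits →
    ∀ x : Pic0 K F, x ∈ R.J1 → ∃ y : Pic0 K F, y ∈ R.J1 ∧ m • y = x

end Fermat.Agent.S15
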