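import Fermat.Agent.W1.GeoC1
import Fermat.Agent.W1.GenPos
import Fermat.Agent.S15.Div1Plan

/-!
# S15/DIV¹, part 3: from the solution of `w ^ m = h h'` to the divisor class (helper94)

`D` of degree `0` with `r_* D = 0`; `Nd`, `Rd` with `r_* Nd = Σ TN`, `r_* Rd = Σ TR`, `TN`, `TR`
disjoint.  If `w ∈ L(Nd + Rd)`, `h ∈ L(D + m Nd)`, `h' ∈ L(m Rd - D)` are in `O` with reduction
`1` and `w ^ m = h h'`, then `div h + D + m Nd = m D'` with `D' ≥ 0`, `r_* D' = Σ TN`, and
`y = [D' - Nd]` is in the kernel of reduction with `m y = [D]`.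
-/

set_option autoImplicit false

open AlgebraicCurve Module

namespace Fermat.Agent.S15.Div1

open Fermat.Agent.W1 Fermat.Agent.ES.R Fermat.Agent.S24

variable {K F k Fk : Type} [Field K] [Field F] [Algebra K F] [Field k] [Field Fk] [Algebra k Fk]
variable {A : ValuationSubring K} {R : PRData K F k Fk A}

theorem div1_ord_pow (v : Place K F) (f : F) (m : ℕ) : v.ord (f ^ m) = m * v.ord f := by
  have := v.ord_zpow f (m : ℤ)
  rwa [zpow_natCast] at this

/-- the reduction of the divisor of a function of `O` with reduction `1` is `0` -/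
theorem mapDomain_div_eq_zero (hR : R.IsPR) {u : F} (huO : u ∈ R.O) (hu1 : R.red ⟨u, huO⟩ = 1)
    {Z : Divisor K F} (hZ : ∀ v : Place K F, Z v = v.ord u) : Finsupp.mapDomain R.r Z = 0 := by
  ext Q
  have h := hR.r_div ⟨u, huO⟩ (by rw [hu1]; exact one_ne_zero) Z hZ Q
  rw [h, hu1, Place.ord_one]
  rfl

theorem ne_zero_of_red_eq_one {u : F} (huO : u ∈ R.O) (hu1 : R.red ⟨u, huO⟩ = 1) : u ≠ 0 := by
  rintro rfl
  have : (⟨0, huO⟩ : R.O) = 0 := rfl
  rw [this, map_zero] at hu1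
  exact zero_ne_one hu1

/-- `div f + D ≥ 0` for `f ∈ L(D)`, `f ≠ 0` -/
theorem div_add_nonneg {f : F} (hf0 : f ≠ 0) {D Z : Divisor K F}
    (hf : f ∈ riemannRochSpace D) (hZ : ∀ v : Place K F, Z v = v.ord f) : 0 ≤ Z + D := by
  rw [Finsupp.le_def]
  intro v
  have := ((mem_riemannRochSpace_iff.mp hf) v).resolve_left hf0
  simp only [Finsupp.coe_zero, Pi.zero_apply, Finsupp.coe_add, Pi.add_apply, hZ v]
  linarith

/-- a nonnegative divisor vanishes at the places whose reduction is not in the support of its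
reduction -/
theorem apply_eq_zero_of_mapDomain (r : Place K F → Place k Fk) {E : Divisor K F} (hE : 0 ≤ E)
    (P : Place K F) (h : Finsupp.mapDomain r E (r P) = 0) : E P = 0 := by
  have h1 := c1_le_mapDomain r hE P
  rw [h] at h1
  have h0 : 0 ≤ E P := by simpa using Finsupp.le_def.mp hE P
  omega

theorem mapDomain_nsmul (r : Place K F → Place k Fk) (m : ℕ) (E : Divisor K F) :
    Finsupp.mapDomain r (m • E) = m • Finsupp.mapDomain r E := by
  rw [← Finsupp.mapDomain.addMonoidHom_apply, map_nsmul, Finsupp.mapDomain.addMonoidHom_apply]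

theorem div1_divisor {g : ℕ} (hR : R.IsPR) (hF : IsNiceCurve K F g)
    {TN TR : Finset (Place k Fk)} (hdisj : Disjoint TN TR)
    (Nd Rd D : Divisor K F) (hNd : Finsupp.mapDomain R.r Nd = gpSum TN)
    (hRd : Finsupp.mapDomain R.r Rd = gpSum TR)
    (hD0 : Finsupp.mapDomain R.r D = 0) (hDdeg : D ∈ Divisor.degZero (K := K) (F := F))
    (m : ℕ) (hm : m ≠ 0) (w h h' : F) (hwO : w ∈ R.O) (hhO : h ∈ R.O) (hh'O : h' ∈ R.O)
    (hw1 : R.red ⟨w, hwO⟩ = 1) (hh1 : R.red ⟨h, hhO⟩ = 1) (hh'1 : R.red ⟨h', hh'O⟩ = 1)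
    (hw : w ∈ riemannRochSpace (Nd + Rd)) (hh : h ∈ riemannRochSpace (D + m • Nd))
    (hh' : h' ∈ riemannRochSpace (m • Rd - D)) (heq : w ^ m = h * h') :
    ∃ y : Pic0 K F, y ∈ R.J1 ∧ m • y = Pic0.mk ⟨D, hDdeg⟩ := by
  classical
  have := hF.hpd
  have hw0 := ne_zero_of_red_eq_one hwO hw1
  have hh0 := ne_zero_of_red_eq_one hhO hh1
  have hh'0 := ne_zero_of_red_eq_one hh'O hh'1
  obtain ⟨Zw, hZw, -⟩ := HasPrincipalDivisors.exists_divisor (K := K) w hw0
  obtain ⟨Zh, hZh, hZhdeg⟩ := HasPrincipalDivisors.exists_divisor (K := K) h hh0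
  obtain ⟨Zh', hZh', -⟩ := HasPrincipalDivisors.exists_divisor (K := K) h' hh'0
  have hrZh := mapDomain_div_eq_zero hR hhO hh1 hZh
  have hrZh' := mapDomain_div_eq_zero hR hh'O hh'1 hZh'
  -- the three effective divisors
  have hDw : 0 ≤ Zw + (Nd + Rd) := div_add_nonneg hw0 hw hZw
  have hDh : 0 ≤ Zh + (D + m • Nd) := div_add_nonneg hh0 hh hZh
  have hDh' : 0 ≤ Zh' + (m • Rd - D) := div_add_nonneg hh'0 hh' hZh'
  have hZ : m • Zw = Zh + Zh' := by
    ext v
    rw [Finsupp.smul_apply, Finsupp.add_apply, hZw, hZh, hZh', ← v.ord_mul hh0 hh'0, ← heq,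
      div1_ord_pow, nsmul_eq_mul]
  have hsum : m • (Zw + (Nd + Rd)) = (Zh + (D + m • Nd)) + (Zh' + (m • Rd - D)) := by
    rw [smul_add, smul_add, hZ]; abel
  have hrDh : Finsupp.mapDomain R.r (Zh + (D + m • Nd)) = m • gpSum TN := by
    rw [Finsupp.mapDomain_add, Finsupp.mapDomain_add, mapDomain_nsmul, hrZh, hD0, hNd]
    simp
  have hrDh' : Finsupp.mapDomain R.r (Zh' + (m • Rd - D)) = m • gpSum TR := by
    rw [Finsupp.mapDomain_add, c1_mapDomain_sub, mapDomain_nsmul, hrZh', hD0, hRd]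
    simp
  -- the divisor `D'`
  set D' : Divisor K F := Finsupp.filter (fun P => R.r P ∈ TN) (Zw + (Nd + Rd)) with hD'
  have hmD' : m • D' = Zh + (D + m • Nd) := by
    ext P
    rw [Finsupp.smul_apply, hD', Finsupp.filter_apply]
    by_cases hP : R.r P ∈ TN
    · rw [if_pos hP]
      have hPR : R.r P ∉ TR := fun h => Finset.disjoint_left.mp hdisj hP h
      have h1 : (Zh' + (m • Rd - D)) P = 0 := by
        refine apply_eq_zero_of_mapDomain R.r hDh' P ?_
        rw [hrDh', Finsupp.smul_apply, gpSum_apply_of_not_mem hPR, smul_zero]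
      have h2 := DFunLike.congr_fun hsum P
      rw [Finsupp.smul_apply, Finsupp.add_apply _ (Zh' + (m • Rd - D)), h1, add_zero] at h2
      exact h2
    · rw [if_neg hP, smul_zero]
      symm
      refine apply_eq_zero_of_mapDomain R.r hDh P ?_
      rw [hrDh, Finsupp.smul_apply, gpSum_apply_of_not_mem hP, smul_zero]
  -- `m (D' - Nd) = D + div h`
  have hkey : m • (D' - Nd) = D + Zh := by
    rw [smul_sub, hmD']; abel
  have hmZ : (m : ℤ) ≠ 0 := by exact_mod_cast hm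
  have hdeg : D' - Nd ∈ Divisor.degZero (K := K) (F := F) := by
    rw [Divisor.mem_degZero]
    have h1 : Divisor.degree (m • (D' - Nd)) = 0 := by
      rw [hkey, map_add, hZhdeg, Divisor.mem_degZero.mp hDdeg, add_zero]
    rw [map_nsmul, nsmul_eq_mul] at h1
    exact (mul_eq_zero.mp h1).resolve_left hmZ
  have hred : Finsupp.mapDomain R.r (D' - Nd) = 0 := by
    have h1 : m • Finsupp.mapDomain R.r (D' - Nd) = 0 := by
      rw [← mapDomain_nsmul, hkey, Finsupp.mapDomain_add, hD0, hrZh, add_zero]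
    ext Q
    have h2 := DFunLike.congr_fun h1 Q
    rw [Finsupp.smul_apply, nsmul_eq_mul] at h2
    simpa using (mul_eq_zero.mp h2).resolve_left hmZ
  refine ⟨Pic0.mk ⟨D' - Nd, hdeg⟩, ⟨⟨D' - Nd, hdeg⟩, rfl, ?_⟩, ?_⟩
  · rw [hred]; exact AddSubgroup.zero_mem _
  · have h1 : m • Pic0.mk ⟨D' - Nd, hdeg⟩ =
        Pic0.mk (m • (⟨D' - Nd, hdeg⟩ : Divisor.degZero (K := K) (F := F))) := rfl
    rw [h1]
    unfold Pic0.mk
    rw [QuotientAddGroup.eq, AddSubgroup.mem_addSubgroupOf]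
    have h2 : ((-(m • (⟨D' - Nd, hdeg⟩ : Divisor.degZero (K := K) (F := F))) +
        ⟨D, hDdeg⟩ : Divisor.degZero (K := K) (F := F)) : Divisor K F) = -Zh := by
      rw [AddSubgroup.coe_add, AddSubgroup.coe_neg, AddSubgroup.coe_nsmul]
      show -(m • (D' - Nd)) + D = -Zh
      rw [hkey]; abel
    rw [h2]
    exact AddSubgroup.neg_mem _ ⟨h, hh0, hZh⟩

end Fermat.Agent.S15.Div1
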