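import Fermat.Agent.W1.GeoC1
import Fermat.Agent.W1.GenPos

/-!
# S15/DIV¹, part 2: the tangent computation (helper94)

`F/K` a function field with places of degree one.  `TN`, `TR` disjoint finite sets of places with
`L(Σ TN) = L(Σ TR) = K` (non-special), `m` invertible in `K`.  If
`m · δu = δv + δh` with `δu ∈ L(Σ TN + Σ TR)`, `δv ∈ L(m Σ TN)`, `δh ∈ L(m Σ TR)`, then `δu`, `δv`,
`δh` are constants.  (This is the injectivity, modulo the scalings, of the differential of
`(w, h, h') ↦ w ^ m - h h'` at `(1, 1, 1)`.)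
-/

set_option autoImplicit false

open AlgebraicCurve Module WithZero

namespace Fermat.Agent.S15.Div1

open Fermat.Agent.W1 Fermat.Agent.ES.R Fermat.Agent.S24

variable {K F : Type} [Field K] [Field F] [Algebra K F]

theorem smul_gpSum_apply_of_not_mem {T : Finset (Place K F)} (m : ℕ) {v : Place K F}
    (hv : v ∉ T) : (m • gpSum T) v = 0 := by
  rw [Finsupp.smul_apply, gpSum_apply_of_not_mem hv, smul_zero]

theorem smul_gpSum_nonneg (T : Finset (Place K F)) (m : ℕ) : 0 ≤ m • gpSum T :=
  nsmul_nonneg (gpSum_nonneg T) m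

/-- an element of `L(m Σ T)` which has at most simple poles on `T` lies in `L(Σ T)` -/
theorem mem_rr_gpSum_of_simple {T : Finset (Place K F)} (m : ℕ) {f : F}
    (hf : f ∈ riemannRochSpace (m • gpSum T))
    (hT : ∀ v ∈ T, v.adicValuation f ≤ exp (1 : ℤ)) : f ∈ riemannRochSpace (gpSum T) := by
  intro v
  by_cases hv : v ∈ T
  · rw [gpSum_apply_of_mem hv]; exact hT v hv
  · have := hf v
    rwa [smul_gpSum_apply_of_not_mem m hv, ← gpSum_apply_of_not_mem hv] at this

theorem natCast_eq_algebraMap (m : ℕ) : (m : F) = algebraMap K F (m : K) := by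
  rw [map_natCast]

theorem tangent_const [HasPrincipalDivisors K F]
    (hres : ∀ v : Place K F, Function.Bijective (algebraMap K v.ResidueField))
    (v₀ : Place K F) {TN TR : Finset (Place K F)} (hdisj : Disjoint TN TR)
    (hN : finrank K ↥(riemannRochSpace (gpSum TN)) = 1)
    (hRR : finrank K ↥(riemannRochSpace (gpSum TR)) = 1)
    (m : ℕ) (hm : (m : K) ≠ 0) {du dv dh : F}
    (hu : du ∈ riemannRochSpace (gpSum TN + gpSum TR))
    (hv : dv ∈ riemannRochSpace (m • gpSum TN))
    (hh : dh ∈ riemannRochSpace (m • gpSum TR))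
    (heq : (m : F) * du = dv + dh) :
    (∃ c : K, du = algebraMap K F c) ∧ (∃ c : K, dv = algebraMap K F c) ∧
      ∃ c : K, dh = algebraMap K F c := by
  have hmu : ∀ v : Place K F, v.adicValuation ((m : F) * du) ≤ v.adicValuation du := by
    intro v
    rw [map_mul, natCast_eq_algebraMap (K := K)]
    exact mul_le_of_le_one_left' (v.adicValuation_algebraMap_le_one _)
  have h01 : exp (0 : ℤ) ≤ (exp (1 : ℤ) : ℤᵐ⁰) := exp_le_exp.mpr (by norm_num)
  -- `dv ∈ L(Σ TN)`
  have hv1 : dv ∈ riemannRochSpace (gpSum TN) := by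
    refine mem_rr_gpSum_of_simple m hv fun v hvN => ?_
    have hvR : v ∉ TR := fun h => Finset.disjoint_left.mp hdisj hvN h
    have e1 : dv = (m : F) * du - dh := by rw [heq]; ring
    rw [e1]
    refine (Valuation.map_sub _ _ _).trans (max_le ?_ ?_)
    · refine (hmu v).trans ?_
      have := hu v
      rwa [Finsupp.add_apply, gpSum_apply_of_mem hvN, gpSum_apply_of_not_mem hvR,
        add_zero] at this
    · have := hh v
      rw [smul_gpSum_apply_of_not_mem m hvR] at this
      exact this.trans h01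
  -- `dh ∈ L(Σ TR)`
  have hh1 : dh ∈ riemannRochSpace (gpSum TR) := by
    refine mem_rr_gpSum_of_simple m hh fun v hvR => ?_
    have hvN : v ∉ TN := fun h => Finset.disjoint_left.mp hdisj h hvR
    have e1 : dh = (m : F) * du - dv := by rw [heq]; ring
    rw [e1]
    refine (Valuation.map_sub _ _ _).trans (max_le ?_ ?_)
    · refine (hmu v).trans ?_
      have := hu v
      rwa [Finsupp.add_apply, gpSum_apply_of_mem hvR, gpSum_apply_of_not_mem hvN,
        zero_add] at this
    · have := hv v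
      rw [smul_gpSum_apply_of_not_mem m hvN] at this
      exact this.trans h01
  obtain ⟨c₂, hc₂⟩ := c1_const_of_finrank_le_one hres v₀ (gpSum_nonneg TN) hN.le hv1
  obtain ⟨c₃, hc₃⟩ := c1_const_of_finrank_le_one hres v₀ (gpSum_nonneg TR) hRR.le hh1
  refine ⟨⟨(m : K)⁻¹ * (c₂ + c₃), ?_⟩, ⟨c₂, hc₂⟩, ⟨c₃, hc₃⟩⟩
  have hmF : (m : F) ≠ 0 := by
    rw [natCast_eq_algebraMap (K := K)]
    exact (map_ne_zero _).mpr hm
  rw [map_mul, map_inv₀, map_add, ← hc₂, ← hc₃, ← heq, ← natCast_eq_algebraMap (K := K),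
    inv_mul_cancel_left₀ hmF]

end Fermat.Agent.S15.Div1
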