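import Fermat.Agent.S15.Div1Aux
import Fermat.Agent.S15.Div1Tangent
import Fermat.Agent.S15.Div1Divisor

/-!
# S15/DIV¹: the kernel of reduction is `m`-divisible (helper94)

`stmtDiv1_of : StmtHenselMv → StmtDiv1`.

`x = [D]` with `r_* D = 0` (`exists_rep`).  `TN`, `TR` disjoint non-special sets of `g` places of
the reduced curve, `Nd`, `Rd` lifts.  Orthonormal bases `e₁, e₂, e₃, e₄` of
`L(Nd + Rd)`, `L(D + m Nd)`, `L(m Rd - D)`, `L(m (Nd + Rd))`.  The system: the coordinates of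
`w ^ m - h h'` in `e₄`, and two normalisations.  It is square, the point `(α, β, γ)` (lifts of
`1, 1, 1`) solves it modulo `𝔪`, and the differential is injective modulo `𝔪`
(`tangent_const` and the normalisations).  `StmtHenselMv` gives an exact solution and
`div1_divisor` the class `y`.
-/

set_option autoImplicit false

open AlgebraicCurve Module MvPolynomial

namespace Fermat.Agent.S15.Div1

open Fermat.Agent.W1 Fermat.Agent.ES.R Fermat.Agent.S24

section sys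

variable {A : Type} [CommRing A] {σ : Type}

theorem eval_X_sub_C (i₀ : σ) (c : A) (a : σ → A) : eval a (X i₀ - C c) = a i₀ - c := by
  rw [map_sub, eval_X, eval_C]

theorem sum_pderiv_X_sub_C [Fintype σ] (i₀ : σ) (c : A) (a v : σ → A) :
    ∑ j, eval a (pderiv j (X i₀ - C c)) * v j = v i₀ := by
  classical
  rw [Finset.sum_eq_single i₀]
  · rw [map_sub, pderiv_X_self, pderiv_C, sub_zero, map_one, one_mul]
  · intro j _ hj
    rw [map_sub, pderiv_X_of_ne (Ne.symm hj), pderiv_C, sub_zero, map_zero, zero_mul]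
  · intro h; exact absurd (Finset.mem_univ _) h

end sys

variable {K F k Fk : Type} [Field K] [Field F] [Algebra K F] [Field k] [Field Fk] [Algebra k Fk]
variable {A : ValuationSubring K} {R : PRData K F k Fk A}

theorem zero_mem_nonunits' : (0 : K) ∈ A.nonunits := by
  rw [A.mem_nonunits_iff, map_zero]; exact zero_lt_one

theorem natCast_res (hR : R.IsPR) {m : ℕ} (hm : (m : K) ∉ A.nonunits) : (m : k) ≠ 0 := by
  intro h0
  apply hm
  have h1 : R.res (m : A) = 0 := by rw [map_natCast]; exact h0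
  have h2 := (hR.res_eq_zero_iff (m : A)).mp h1
  simpa using h2

theorem natCast_memO (hR : R.IsPR) (m : ℕ) : (m : F) ∈ R.O := by
  have := gao_algebraMap_mem hR (a := (m : K)) (by exact_mod_cast (m : A).2)
  rwa [map_natCast] at this

theorem stmtDiv1_of (hH : StmtHenselMv) : StmtDiv1 := by
  intro K F k Fk _ _ _ _ _ _ _ A R g hR hF hFk hO m hm x hx
  classical
  have hpd := hF.hpd
  have hpdk := hFk.hpd
  have hm0 : m ≠ 0 := by
    rintro rfl
    exact hm (by rw [Nat.cast_zero]; exact zero_mem_nonunits')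
  have hmk : (m : k) ≠ 0 := natCast_res hR hm
  obtain ⟨D, hDdeg, rfl, hD0⟩ := exists_rep hR hx
  obtain ⟨v₀, -⟩ := hFk.infinite.nonempty
  -- the two non-special sets
  obtain ⟨TN, hTNcard, -, hTN⟩ := gp_exists_chart hFk.hres hFk.upper hFk.infinite ∅
  obtain ⟨TR, hTRcard, hdisj', hTR⟩ := gp_exists_chart hFk.hres hFk.upper hFk.infinite TN
  have hdisj : Disjoint TN TR := hdisj'.symm
  -- lifts
  have hsurj : Function.Surjective R.r := stmtOnto K F k Fk A R g hR hF hFk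
  set ℓ := Function.surjInv hsurj with hℓdef
  have hℓ : R.r ∘ ℓ = id := funext fun Q => Function.surjInv_eq hsurj Q
  set Nd : Divisor K F := Finsupp.mapDomain ℓ (gpSum TN) with hNddef
  set Rd : Divisor K F := Finsupp.mapDomain ℓ (gpSum TR) with hRddef
  have hNd : Finsupp.mapDomain R.r Nd = gpSum TN := by
    rw [hNddef, ← Finsupp.mapDomain_comp, hℓ, Finsupp.mapDomain_id]
  have hRd : Finsupp.mapDomain R.r Rd = gpSum TR := by
    rw [hRddef, ← Finsupp.mapDomain_comp, hℓ, Finsupp.mapDomain_id]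
  obtain ⟨m', rfl⟩ : ∃ m', m = m' + 1 := Nat.exists_eq_succ_of_ne_zero hm0
  -- reductions of the four divisors
  have hrB : Finsupp.mapDomain R.r (Nd + Rd) = gpSum TN + gpSum TR := by
    rw [Finsupp.mapDomain_add, hNd, hRd]
  have hrE : Finsupp.mapDomain R.r (D + (m' + 1) • Nd) = (m' + 1) • gpSum TN := by
    rw [Finsupp.mapDomain_add, mapDomain_nsmul, hD0, hNd, zero_add]
  have hrE' : Finsupp.mapDomain R.r ((m' + 1) • Rd - D) = (m' + 1) • gpSum TR := by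
    rw [c1_mapDomain_sub, mapDomain_nsmul, hD0, hRd, sub_zero]
  have hrM : Finsupp.mapDomain R.r ((m' + 1) • (Nd + Rd))
      = (m' + 1) • (gpSum TN + gpSum TR) := by
    rw [mapDomain_nsmul, hrB]
  -- the four orthonormal bases
  obtain ⟨n₁, e₁, h₁, hn₁⟩ := ob_of_chart hR hF hFk hO hTNcard hTN (Nd + Rd) (gpSum TR)
    (gpSum_nonneg _) hrB
  obtain ⟨n₂, e₂, h₂, hn₂⟩ := ob_of_chart hR hF hFk hO hTNcard hTN (D + (m' + 1) • Nd)
    (m' • gpSum TN) (smul_gpSum_nonneg _ _) (by rw [hrE, succ_nsmul']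
  )
  obtain ⟨n₃, e₃, h₃, hn₃⟩ := ob_of_chart hR hF hFk hO hTRcard hTR ((m' + 1) • Rd - D)
    (m' • gpSum TR) (smul_gpSum_nonneg _ _) (by rw [hrE', succ_nsmul'])
  obtain ⟨n₄, e₄, h₄, hn₄⟩ := ob_of_chart hR hF hFk hO hTNcard hTN ((m' + 1) • (Nd + Rd))
    (m' • gpSum TN + (m' + 1) • gpSum TR)
    (add_nonneg (smul_gpSum_nonneg _ _) (smul_gpSum_nonneg _ _))
    (by rw [hrM, smul_add, succ_nsmul' (gpSum TN)]; abel)
  have hdegN : Divisor.degree (gpSum TN) = g := by rw [degree_gpSum hFk.hres, hTNcard]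
  have hdegR : Divisor.degree (gpSum TR) = g := by rw [degree_gpSum hFk.hres, hTRcard]
  rw [hdegR] at hn₁
  rw [map_nsmul, hdegN] at hn₂
  rw [map_nsmul, hdegR] at hn₃
  rw [map_add, map_nsmul, map_nsmul, hdegN, hdegR] at hn₄
  have hcard : Fintype.card (Fin n₄ ⊕ Bool) = Fintype.card (Fin n₁ ⊕ Fin n₂ ⊕ Fin n₃) := by
    simp only [Fintype.card_sum, Fintype.card_fin, Fintype.card_bool]
    have : ((n₄ + 2 : ℕ) : ℤ) = ((n₁ + (n₂ + n₃) : ℕ) : ℤ) := by
      push_cast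
      rw [hn₁, hn₂, hn₃, hn₄]
      simp only [nsmul_eq_mul]
      push_cast
      ring
    exact_mod_cast this
  -- lifts of `1`
  have h1B : (1 : Fk) ∈ riemannRochSpace (Finsupp.mapDomain R.r (Nd + Rd)) := by
    rw [hrB]; exact gp_one_mem_rr (add_nonneg (gpSum_nonneg _) (gpSum_nonneg _))
  have h1E : (1 : Fk) ∈ riemannRochSpace (Finsupp.mapDomain R.r (D + (m' + 1) • Nd)) := by
    rw [hrE]; exact gp_one_mem_rr (smul_gpSum_nonneg _ _)
  have h1E' : (1 : Fk) ∈ riemannRochSpace (Finsupp.mapDomain R.r ((m' + 1) • Rd - D)) := by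
    rw [hrE']; exact gp_one_mem_rr (smul_gpSum_nonneg _ _)
  obtain ⟨α, hα⟩ := h₁.exists_lift hR h1B
  obtain ⟨β, hβ⟩ := h₂.exists_lift hR h1E
  obtain ⟨γ, hγ⟩ := h₃.exists_lift hR h1E'
  obtain ⟨a₁, ha₁⟩ := h₁.exists_unit_coeff hR α hα
  obtain ⟨b₁, hb₁⟩ := h₂.exists_unit_coeff hR β hβ
  -- the polynomial system
  have hp : ∀ μ, ∃ c : Fin n₄ → A,
      coeff μ (polyPhi e₁ e₂ e₃ (m' + 1)) = cmb (phiA A F) e₄ c := by
    intro μ
    have hmem := coeff_polyPhi_mem e₁ e₂ e₃ (fun j => latticeSub R (j • (Nd + Rd)))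
      (by
        refine ⟨?_, R.O.one_mem⟩
        rw [zero_smul]; exact gp_one_mem_rr le_rfl)
      (fun i j x hx y hy => ⟨by rw [add_smul]; exact rr_mul_mem hx.1 hy.1,
        R.O.mul_mem _ _ hx.2 hy.2⟩)
      (fun a => ⟨by rw [one_smul]; exact h₁.mem_rr a, h₁.memO a⟩) (m' + 1)
      (fun b c => ⟨by
        have := rr_mul_mem (h₂.mem_rr b) (h₃.mem_rr c)
        have e : D + (m' + 1) • Nd + ((m' + 1) • Rd - D) = (m' + 1) • (Nd + Rd) := by
          rw [smul_add]; abel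
        rwa [e] at this, R.O.mul_mem _ _ (h₂.memO b) (h₃.memO c)⟩) μ
    obtain ⟨c, hc⟩ := h₄.exists_coeff hR hmem.1 hmem.2
    exact ⟨c, by rw [hc, cmb_eq_comb]⟩
  obtain ⟨q, hq1, hq2⟩ := exists_system (phiA A F) e₁ e₂ e₃ e₄ (m' + 1) hp
  simp only [cmb_eq_comb] at hq1 hq2
  set f : Fin n₄ ⊕ Bool → MvPolynomial (Fin n₁ ⊕ Fin n₂ ⊕ Fin n₃) A := fun i =>
    match i with
    | Sum.inl d => q d
    | Sum.inr false => X (Sum.inl a₁) - C (α a₁)
    | Sum.inr true => X (Sum.inr (Sum.inl b₁)) - C (β b₁) with hf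
  set a₀ : Fin n₁ ⊕ Fin n₂ ⊕ Fin n₃ → A := Sum.elim α (Sum.elim β γ) with ha₀
  have hp₁ : pt₁ a₀ = α := rfl
  have hp₂ : pt₂ a₀ = β := rfl
  have hp₃ : pt₃ a₀ = γ := rfl
  -- (i) the point solves the system modulo `𝔪`
  have hi : ∀ i, ((eval a₀ (f i) : A) : K) ∈ A.nonunits := by
    intro i
    rcases i with d | b
    · have e1 := hq1 a₀
      rw [hp₁, hp₂, hp₃] at e1
      refine h₄.coeff_nonunit hR (fun d => eval a₀ (q d)) ?_ d
      have e2 : (⟨comb e₄ fun d => eval a₀ (q d), h₄.comb_memO hR _⟩ : R.O)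
          = ⟨comb e₁ α, h₁.comb_memO hR α⟩ ^ (m' + 1)
            - ⟨comb e₂ β, h₂.comb_memO hR β⟩ * ⟨comb e₃ γ, h₃.comb_memO hR γ⟩ :=
        Subtype.ext e1
      rw [e2, map_sub, map_pow, map_mul, hα, hβ, hγ, one_pow, mul_one, sub_self]
    · cases b
      · show ((eval a₀ (X (Sum.inl a₁) - C (α a₁)) : A) : K) ∈ A.nonunits
        rw [eval_X_sub_C]
        have : a₀ (Sum.inl a₁) - α a₁ = 0 := sub_self _
        rw [this]; exact zero_mem_nonunits'
      · show ((eval a₀ (X (Sum.inr (Sum.inl b₁)) - C (β b₁)) : A) : K) ∈ A.nonunits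
        rw [eval_X_sub_C]
        have : a₀ (Sum.inr (Sum.inl b₁)) - β b₁ = 0 := sub_self _
        rw [this]; exact zero_mem_nonunits'
  -- (ii) the differential is injective modulo `𝔪`
  have hii : ∀ v : Fin n₁ ⊕ Fin n₂ ⊕ Fin n₃ → A,
      (∀ i, ((∑ j, eval a₀ (pderiv j (f i)) * v j : A) : K) ∈ A.nonunits) →
      ∀ j, ((v j : A) : K) ∈ A.nonunits := by
    intro v hv
    have hv₁ : ((v (Sum.inl a₁) : A) : K) ∈ A.nonunits := by
      have := hv (Sum.inr false)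
      have e : ∑ j, eval a₀ (pderiv j (f (Sum.inr false))) * v j = v (Sum.inl a₁) :=
        sum_pderiv_X_sub_C _ _ _ _
      rwa [e] at this
    have hv₂ : ((v (Sum.inr (Sum.inl b₁)) : A) : K) ∈ A.nonunits := by
      have := hv (Sum.inr true)
      have e : ∑ j, eval a₀ (pderiv j (f (Sum.inr true))) * v j = v (Sum.inr (Sum.inl b₁)) :=
        sum_pderiv_X_sub_C _ _ _ _
      rwa [e] at this
    have e1 := hq2 a₀ v
    rw [hp₁, hp₂, hp₃] at e1
    have hred0 := h₄.red_eq_zero_of_nonunit hR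
      (fun d => ∑ j, eval a₀ (pderiv j (q d)) * v j) (fun d => hv (Sum.inl d))
    have e2 : (⟨comb e₄ fun d => ∑ j, eval a₀ (pderiv j (q d)) * v j, h₄.comb_memO hR _⟩ : R.O)
        = ⟨((m' + 1 : ℕ) : F), natCast_memO hR _⟩
            * ⟨comb e₁ α, h₁.comb_memO hR α⟩ ^ (m' + 1 - 1)
            * ⟨comb e₁ (pt₁ v), h₁.comb_memO hR _⟩
          - ⟨comb e₂ (pt₂ v), h₂.comb_memO hR _⟩ * ⟨comb e₃ γ, h₃.comb_memO hR γ⟩
          - ⟨comb e₂ β, h₂.comb_memO hR β⟩ * ⟨comb e₃ (pt₃ v), h₃.comb_memO hR _⟩ :=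
      Subtype.ext e1
    have hmO : (⟨((m' + 1 : ℕ) : F), natCast_memO hR _⟩ : R.O) = ((m' + 1 : ℕ) : R.O) :=
      Subtype.ext (by push_cast; rfl)
    rw [e2, map_sub, map_sub, map_mul, map_mul, map_mul, map_mul, map_pow, hα, hβ, hγ, one_pow,
      mul_one, mul_one, one_mul, hmO, map_natCast] at hred0
    have heq : ((m' + 1 : ℕ) : Fk) * R.red ⟨comb e₁ (pt₁ v), h₁.comb_memO hR _⟩
        = R.red ⟨comb e₂ (pt₂ v), h₂.comb_memO hR _⟩
          + R.red ⟨comb e₃ (pt₃ v), h₃.comb_memO hR _⟩ := by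
      linear_combination hred0
    have hu := h₁.red_comb_mem_rr hR (pt₁ v)
    have hvv := h₂.red_comb_mem_rr hR (pt₂ v)
    have hhh := h₃.red_comb_mem_rr hR (pt₃ v)
    rw [hrB] at hu
    rw [hrE] at hvv
    rw [hrE'] at hhh
    obtain ⟨⟨c₁, hc₁⟩, ⟨c₂, hc₂⟩, -⟩ := tangent_const hFk.hres v₀ hdisj hTN hTR (m' + 1) hmk
      hu hvv hhh heq
    have hu0 := h₁.red_eq_zero_of_const hR α (pt₁ v) hα a₁ ha₁ hv₁ c₁ hc₁
    have hv0 := h₂.red_eq_zero_of_const hR β (pt₂ v) hβ b₁ hb₁ hv₂ c₂ hc₂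
    have hh0 : R.red ⟨comb e₃ (pt₃ v), h₃.comb_memO hR _⟩ = 0 := by
      rw [hu0, hv0, mul_zero, zero_add] at heq
      exact heq.symm
    intro j
    rcases j with a | b | c
    · exact h₁.coeff_nonunit hR (pt₁ v) hu0 a
    · exact h₂.coeff_nonunit hR (pt₂ v) hv0 b
    · exact h₃.coeff_nonunit hR (pt₃ v) hh0 c
  -- the exact solution
  obtain ⟨b, hb, hfb⟩ := hH K A (Fin n₁ ⊕ Fin n₂ ⊕ Fin n₃) (Fin n₄ ⊕ Bool) hcard f a₀ hi hii
  have hres : ∀ j, R.res (b j) = R.res (a₀ j) := fun j => res_eq_of_sub_nonunit hR (hb j)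
  have hw1 : R.red ⟨comb e₁ (pt₁ b), h₁.comb_memO hR _⟩ = 1 := by
    rw [← hα, h₁.red_comb hR, h₁.red_comb hR]
    exact Finset.sum_congr rfl fun i _ => by rw [pt₁, hres]; rfl
  have hh1 : R.red ⟨comb e₂ (pt₂ b), h₂.comb_memO hR _⟩ = 1 := by
    rw [← hβ, h₂.red_comb hR, h₂.red_comb hR]
    exact Finset.sum_congr rfl fun i _ => by rw [pt₂, hres]; rfl
  have hh'1 : R.red ⟨comb e₃ (pt₃ b), h₃.comb_memO hR _⟩ = 1 := by
    rw [← hγ, h₃.red_comb hR, h₃.red_comb hR]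
    exact Finset.sum_congr rfl fun i _ => by rw [pt₃, hres]; rfl
  have heq : comb e₁ (pt₁ b) ^ (m' + 1) = comb e₂ (pt₂ b) * comb e₃ (pt₃ b) := by
    have e1 := hq1 b
    have e2 : (comb e₄ fun d => eval b (q d)) = 0 := by
      unfold comb
      refine Finset.sum_eq_zero fun d _ => ?_
      have := hfb (Sum.inl d)
      have e3 : eval b (q d) = 0 := this
      show ((eval b (q d) : A) : K) • e₄ d = 0
      rw [e3]; simp
    rw [e2] at e1
    exact (sub_eq_zero.mp e1.symm)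
  exact div1_divisor hR hF hdisj Nd Rd D hNd hRd hD0 hDdeg (m' + 1) (Nat.succ_ne_zero _)
    _ _ _ (h₁.comb_memO hR _) (h₂.comb_memO hR _) (h₃.comb_memO hR _) hw1 hh1 hh'1
    (h₁.comb_mem_rr _) (h₂.comb_mem_rr _) (h₃.comb_mem_rr _) heq

end Fermat.Agent.S15.Div1
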