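import Fermat.Agent.W1.GeoOrthApprox
import Fermat.Agent.W1.GeoC1
import Fermat.Agent.S15.Div1Plan

/-!
# S15/DIV¹, part 1: orthonormal bases whose reductions span (helper94)

`IsOB R D e` : `e` is a basis of `L(D)` in `O` whose reductions are a basis of `L̄(r_* D)`.
It exists as soon as `dim L̄(r_* D) ≤ deg D + 1 - g` (`exists_isOB`).

`comb e c = Σ c i • e i` for `c : Fin n → A`; reduction, coefficients, lifts.
-/

set_option autoImplicit false

open AlgebraicCurve Module

namespace Fermat.Agent.S15.Div1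

open Fermat.Agent.W1 Fermat.Agent.ES.R Fermat.Agent.S24

variable {K F k Fk : Type} [Field K] [Field F] [Algebra K F] [Field k] [Field Fk] [Algebra k Fk]
variable {A : ValuationSubring K} {R : PRData K F k Fk A}

/-- the combination `Σ c i • e i` with coefficients in `A` -/
noncomputable def comb {n : ℕ} (e : Fin n → F) (c : Fin n → A) : F :=
  ∑ i, ((c i : A) : K) • e i

/-- an orthonormal basis of `L(D)` whose reductions are a basis of `L̄(r_* D)` -/
structure IsOB (R : PRData K F k Fk A) (D : Divisor K F) {n : ℕ} (e : Fin n → F) : Prop where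
  memO : ∀ i, e i ∈ R.O
  span : Submodule.span K (Set.range e) = riemannRochSpace D
  li : LinearIndependent k (fun i => R.red ⟨e i, memO i⟩)
  redMem : ∀ i, R.red ⟨e i, memO i⟩ ∈ riemannRochSpace (Finsupp.mapDomain R.r D)
  redSpan : ∀ y ∈ riemannRochSpace (Finsupp.mapDomain R.r D),
    ∃ c : Fin n → k, y = ∑ i, c i • R.red ⟨e i, memO i⟩

theorem exists_isOB {g : ℕ} (hR : R.IsPR) (hF : IsNiceCurve K F g) (hFk : IsNiceCurve k Fk g)
    (hO : R.Orth) (D : Divisor K F)
    (hdim : (finrank k ↥(riemannRochSpace (Finsupp.mapDomain R.r D)) : ℤ)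
      ≤ Divisor.degree D + 1 - g) :
    ∃ (n : ℕ) (e : Fin n → F), IsOB R D e ∧
      n = finrank k ↥(riemannRochSpace (Finsupp.mapDomain R.r D)) := by
  classical
  obtain ⟨n, e, he, hspan, hli, hmem⟩ := hO D
  obtain ⟨v₀, -⟩ := hFk.infinite.nonempty
  have := hFk.hpd
  have hfin := rr_finite v₀ hFk.hres (Finsupp.mapDomain R.r D)
  -- `n = dim L(D)`
  have hliK : LinearIndependent K e := gao_linearIndependent hR e he hli
  have hn : finrank K ↥(riemannRochSpace D) = n := by
    rw [← hspan, finrank_span_eq_card hliK, Fintype.card_fin]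
  have hlow := hF.lower D
  rw [hn] at hlow
  -- the reductions, in the subtype
  set eb : Fin n → ↥(riemannRochSpace (Finsupp.mapDomain R.r D)) :=
    fun i => ⟨R.red ⟨e i, he i⟩, hmem i⟩ with heb
  have hli' : LinearIndependent k eb := by
    apply LinearIndependent.of_comp (Submodule.subtype _)
    exact hli
  have hle : n ≤ finrank k ↥(riemannRochSpace (Finsupp.mapDomain R.r D)) := by
    have := hli'.fintype_card_le_finrank
    simpa using this
  have hcard : n = finrank k ↥(riemannRochSpace (Finsupp.mapDomain R.r D)) := by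
    have : (finrank k ↥(riemannRochSpace (Finsupp.mapDomain R.r D)) : ℤ) ≤ n := by linarith
    omega
  have htop : Submodule.span k (Set.range eb) = ⊤ :=
    hli'.span_eq_top_of_card_eq_finrank' (by rw [Fintype.card_fin]; exact hcard)
  refine ⟨n, e, ⟨he, hspan, hli, hmem, ?_⟩, hcard⟩
  intro y hy
  have hy' : (⟨y, hy⟩ : ↥(riemannRochSpace (Finsupp.mapDomain R.r D))) ∈
      Submodule.span k (Set.range eb) := by rw [htop]; trivial
  obtain ⟨c, hc⟩ := (Submodule.mem_span_range_iff_exists_fun k).mp hy'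
  refine ⟨c, ?_⟩
  have := congrArg Subtype.val hc
  simp only [heb, Submodule.coe_sum, Submodule.coe_smul] at this
  exact this.symm

namespace IsOB

variable {D : Divisor K F} {n : ℕ} {e : Fin n → F}

theorem mem_rr (h : IsOB R D e) (i : Fin n) : e i ∈ riemannRochSpace D := by
  rw [← h.span]
  exact Submodule.subset_span ⟨i, rfl⟩

theorem comb_memO (hR : R.IsPR) (h : IsOB R D e) (c : Fin n → A) : comb e c ∈ R.O :=
  sum_mem fun i _ => gao_smul_mem hR (c i).2 (h.memO i)

theorem comb_mem_rr (h : IsOB R D e) (c : Fin n → A) : comb e c ∈ riemannRochSpace D :=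
  Submodule.sum_mem _ fun i _ => Submodule.smul_mem _ _ (h.mem_rr i)

theorem red_comb (hR : R.IsPR) (h : IsOB R D e) (c : Fin n → A) :
    R.red ⟨comb e c, h.comb_memO hR c⟩ = ∑ i, R.res (c i) • R.red ⟨e i, h.memO i⟩ :=
  gao_red_sum hR (fun i => ((c i : A) : K)) (fun i => (c i).2) e h.memO _

theorem red_comb_mem_rr (hR : R.IsPR) (h : IsOB R D e) (c : Fin n → A) :
    R.red ⟨comb e c, h.comb_memO hR c⟩ ∈ riemannRochSpace (Finsupp.mapDomain R.r D) := by
  rw [h.red_comb hR]
  exact Submodule.sum_mem _ fun i _ => Submodule.smul_mem _ _ (h.redMem i)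

/-- the coefficients of an element of `L(D) ∩ O` are in `A` -/
theorem exists_coeff (hR : R.IsPR) (h : IsOB R D e) {x : F} (hx : x ∈ riemannRochSpace D)
    (hxO : x ∈ R.O) : ∃ c : Fin n → A, x = comb e c := by
  rw [← h.span] at hx
  obtain ⟨a, ha⟩ := (Submodule.mem_span_range_iff_exists_fun K).mp hx
  have hA : ∀ j, a j ∈ A := gao_coeff_mem hR e h.memO h.li a (by rw [ha]; exact hxO)
  exact ⟨fun j => ⟨a j, hA j⟩, ha.symm⟩

/-- lifting an element of `L̄(r_* D)` -/
theorem exists_lift (hR : R.IsPR) (h : IsOB R D e) {y : Fk}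
    (hy : y ∈ riemannRochSpace (Finsupp.mapDomain R.r D)) :
    ∃ c : Fin n → A, R.red ⟨comb e c, h.comb_memO hR c⟩ = y := by
  obtain ⟨cb, hcb⟩ := h.redSpan y hy
  choose c hc using fun i => hR.res_surjective (cb i)
  refine ⟨c, ?_⟩
  rw [h.red_comb hR, hcb]
  exact Finset.sum_congr rfl fun i _ => by rw [hc i]

/-- the reduction determines the coefficients modulo `𝔪` -/
theorem res_eq_of_red_eq (hR : R.IsPR) (h : IsOB R D e) (c c' : Fin n → A)
    (hcc : R.red ⟨comb e c, h.comb_memO hR c⟩ = R.red ⟨comb e c', h.comb_memO hR c'⟩) :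
    ∀ i, R.res (c i) = R.res (c' i) := by
  rw [h.red_comb hR, h.red_comb hR] at hcc
  have h0 : ∑ i, (R.res (c i) - R.res (c' i)) • R.red ⟨e i, h.memO i⟩ = 0 := by
    simp only [sub_smul, Finset.sum_sub_distrib, hcc, sub_self]
  intro i
  have := Fintype.linearIndependent_iff.mp h.li _ h0 i
  exact sub_eq_zero.mp this

/-- if the reduction vanishes, the coefficients are in `𝔪` -/
theorem coeff_nonunit (hR : R.IsPR) (h : IsOB R D e) (c : Fin n → A)
    (h0 : R.red ⟨comb e c, h.comb_memO hR c⟩ = 0) : ∀ i, ((c i : A) : K) ∈ A.nonunits := by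
  rw [h.red_comb hR] at h0
  intro i
  have := Fintype.linearIndependent_iff.mp h.li _ h0 i
  exact (hR.res_eq_zero_iff (c i)).mp this

/-- conversely -/
theorem red_eq_zero_of_nonunit (hR : R.IsPR) (h : IsOB R D e) (c : Fin n → A)
    (hc : ∀ i, ((c i : A) : K) ∈ A.nonunits) : R.red ⟨comb e c, h.comb_memO hR c⟩ = 0 := by
  rw [h.red_comb hR]
  refine Finset.sum_eq_zero fun i _ => ?_
  rw [(hR.res_eq_zero_iff (c i)).mpr (hc i), zero_smul]

end IsOB

end Fermat.Agent.S15.Div1
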