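import Mathlib

/-!
# S15/DIV¹, part 4: the polynomial system `w ^ m = h h'` in coordinates (helper94)

Pure algebra.  `φ : A →+* F`, families `e₁, e₂, e₃, e₄` in `F`;
`cmb φ e c = Σ φ (c i) * e i`.  The unknowns are the coefficients of
`w = cmb e₁ _`, `h = cmb e₂ _`, `h' = cmb e₃ _` (variables `Fin n₁ ⊕ Fin n₂ ⊕ Fin n₃`).

* `polyPhi` : the polynomial `W ^ m - H H'` over `F`;
* `coeff_polyPhi_mem` : its coefficients lie in `S m` for any multiplicative family of additive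
  subgroups `S j` with `e₁ ∈ S 1`, `e₂ i * e₃ j ∈ S m`;
* `exists_system` : if the coefficients are `A`-combinations of `e₄`, there are polynomials
  `q d` over `A` with `Σ φ (q d (s)) * e₄ d = w ^ m - h h'` and the corresponding formula for the
  differential.
-/

set_option autoImplicit false

open MvPolynomial

namespace Fermat.Agent.S15.Div1

variable {A F : Type} [CommRing A] [CommRing F] (φ : A →+* F)

/-- `Σ φ (c i) * e i` -/
def cmb {n : ℕ} (e : Fin n → F) (c : Fin n → A) : F := ∑ i, φ (c i) * e i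

section poly

variable {σ : Type}

/-- the linear form `Σ e i * X (ι i)` -/
noncomputable def polyL {n : ℕ} (e : Fin n → F) (ι : Fin n → σ) : MvPolynomial σ F :=
  ∑ i, C (e i) * X (ι i)

theorem eval_polyL {n : ℕ} (e : Fin n → F) (ι : Fin n → σ) (t : σ → F) :
    eval t (polyL e ι) = ∑ i, t (ι i) * e i := by
  simp only [polyL, map_sum, map_mul, eval_C, eval_X]
  exact Finset.sum_congr rfl fun i _ => mul_comm _ _

theorem pderiv_polyL [DecidableEq σ] {n : ℕ} (e : Fin n → F) (ι : Fin n → σ) (j : σ) :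
    pderiv j (polyL e ι) = ∑ i, C (e i) * Pi.single (M := fun _ => MvPolynomial σ F) j 1 (ι i) := by
  simp only [polyL, map_sum, pderiv_C_mul, pderiv_X]

theorem coeff_polyL_mem {n : ℕ} (e : Fin n → F) (ι : Fin n → σ) (S : AddSubgroup F)
    (he : ∀ i, e i ∈ S) (μ : σ →₀ ℕ) : coeff μ (polyL e ι) ∈ S := by
  classical
  rw [polyL, coeff_sum]
  refine AddSubgroup.sum_mem _ fun i _ => ?_
  rw [coeff_C_mul, coeff_X]
  split_ifs
  · rw [mul_one]; exact he i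
  · rw [mul_zero]; exact S.zero_mem

theorem coeff_mul_mem {S₁ S₂ S₃ : AddSubgroup F} (hmul : ∀ x ∈ S₁, ∀ y ∈ S₂, x * y ∈ S₃)
    {p q : MvPolynomial σ F} (hp : ∀ μ, coeff μ p ∈ S₁) (hq : ∀ μ, coeff μ q ∈ S₂)
    (μ : σ →₀ ℕ) : coeff μ (p * q) ∈ S₃ := by
  classical
  rw [coeff_mul]
  exact AddSubgroup.sum_mem _ fun x _ => hmul _ (hp _) _ (hq _)

theorem coeff_pow_mem (S : ℕ → AddSubgroup F) (h1 : (1 : F) ∈ S 0)
    (hmul : ∀ i j, ∀ x ∈ S i, ∀ y ∈ S j, x * y ∈ S (i + j))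
    {p : MvPolynomial σ F} (hp : ∀ μ, coeff μ p ∈ S 1) (m : ℕ) (μ : σ →₀ ℕ) :
    coeff μ (p ^ m) ∈ S m := by
  classical
  induction m generalizing μ with
  | zero =>
    rw [pow_zero, coeff_one]
    split_ifs
    · exact h1
    · exact (S 0).zero_mem
  | succ m ih =>
    rw [pow_succ]
    exact coeff_mul_mem (hmul m 1) ih hp μ

/-- polynomials with coefficients in the `A`-span of `e` are combinations of the `e d` with
polynomial coefficients over `A` -/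
theorem exists_coord {n : ℕ} (e : Fin n → F) (p : MvPolynomial σ F)
    (hp : ∀ μ, ∃ c : Fin n → A, coeff μ p = cmb φ e c) :
    ∃ q : Fin n → MvPolynomial σ A, p = ∑ d, C (e d) * map φ (q d) := by
  classical
  choose c hc using hp
  refine ⟨fun d => ∑ μ ∈ p.support, monomial μ (c μ d), ?_⟩
  have h1 : ∀ d, C (e d) * map φ (∑ μ ∈ p.support, monomial μ (c μ d))
      = ∑ μ ∈ p.support, monomial μ (φ (c μ d) * e d) := by
    intro d
    rw [map_sum, Finset.mul_sum]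
    refine Finset.sum_congr rfl fun μ _ => ?_
    rw [map_monomial, C_mul_monomial, mul_comm]
  simp only [h1]
  rw [Finset.sum_comm]
  conv_lhs => rw [p.as_sum]
  refine Finset.sum_congr rfl fun μ _ => ?_
  rw [hc μ, cmb, map_sum]

end poly

section system

variable {n₁ n₂ n₃ n₄ : ℕ} (e₁ : Fin n₁ → F) (e₂ : Fin n₂ → F) (e₃ : Fin n₃ → F)
  (e₄ : Fin n₄ → F)

/-- the first block of a point -/
def pt₁ {X : Type} (s : Fin n₁ ⊕ Fin n₂ ⊕ Fin n₃ → X) : Fin n₁ → X := fun a => s (Sum.inl a)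

/-- the second block of a point -/
def pt₂ {X : Type} (s : Fin n₁ ⊕ Fin n₂ ⊕ Fin n₃ → X) : Fin n₂ → X :=
  fun b => s (Sum.inr (Sum.inl b))

/-- the third block of a point -/
def pt₃ {X : Type} (s : Fin n₁ ⊕ Fin n₂ ⊕ Fin n₃ → X) : Fin n₃ → X :=
  fun c => s (Sum.inr (Sum.inr c))

/-- `W = Σ e₁ a X_a` -/
noncomputable def polyW : MvPolynomial (Fin n₁ ⊕ Fin n₂ ⊕ Fin n₃) F := polyL e₁ Sum.inl

/-- `H = Σ e₂ b X_b` -/
noncomputable def polyH : MvPolynomial (Fin n₁ ⊕ Fin n₂ ⊕ Fin n₃) F :=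
  polyL e₂ (fun b => Sum.inr (Sum.inl b))

/-- `H' = Σ e₃ c X_c` -/
noncomputable def polyH' : MvPolynomial (Fin n₁ ⊕ Fin n₂ ⊕ Fin n₃) F :=
  polyL e₃ (fun c => Sum.inr (Sum.inr c))

/-- `W ^ m - H H'` -/
noncomputable def polyPhi (m : ℕ) : MvPolynomial (Fin n₁ ⊕ Fin n₂ ⊕ Fin n₃) F :=
  polyW e₁ ^ m - polyH e₂ * polyH' e₃

theorem coeff_polyPhi_mem (S : ℕ → AddSubgroup F) (h1 : (1 : F) ∈ S 0)
    (hmul : ∀ i j, ∀ x ∈ S i, ∀ y ∈ S j, x * y ∈ S (i + j)) (he₁ : ∀ a, e₁ a ∈ S 1) (m : ℕ)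
    (he₂₃ : ∀ b c, e₂ b * e₃ c ∈ S m) (μ : Fin n₁ ⊕ Fin n₂ ⊕ Fin n₃ →₀ ℕ) :
    coeff μ (polyPhi (n₂ := n₂) (n₃ := n₃) e₁ e₂ e₃ m) ∈ S m := by
  classical
  rw [polyPhi, coeff_sub]
  refine AddSubgroup.sub_mem _ (coeff_pow_mem S h1 hmul
    (fun μ => coeff_polyL_mem e₁ _ (S 1) he₁ μ) m μ) ?_
  -- the product `H H'`
  rw [polyH, polyH', polyL, polyL, Finset.sum_mul, coeff_sum]
  refine AddSubgroup.sum_mem _ fun b _ => ?_
  rw [Finset.mul_sum, coeff_sum]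
  refine AddSubgroup.sum_mem _ fun c _ => ?_
  have e : C (e₂ b) * X (Sum.inr (Sum.inl b)) * (C (e₃ c) * X (Sum.inr (Sum.inr c)))
      = C (e₂ b * e₃ c) * (X (Sum.inr (Sum.inl b)) * X (Sum.inr (Sum.inr c)) :
        MvPolynomial (Fin n₁ ⊕ Fin n₂ ⊕ Fin n₃) F) := by
    rw [C_mul]; ring
  rw [e, coeff_C_mul]
  have hX : (X (Sum.inr (Sum.inl b)) * X (Sum.inr (Sum.inr c)) :
      MvPolynomial (Fin n₁ ⊕ Fin n₂ ⊕ Fin n₃) F)
      = monomial (Finsupp.single (Sum.inr (Sum.inl b)) 1 + Finsupp.single (Sum.inr (Sum.inr c)) 1)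
        (1 : F) := by
    rw [X, X, monomial_mul, one_mul]
  rw [hX, coeff_monomial]
  split_ifs
  · rw [mul_one]; exact he₂₃ b c
  · rw [mul_zero]; exact (S m).zero_mem

theorem eval_polyPhi (m : ℕ) (s : Fin n₁ ⊕ Fin n₂ ⊕ Fin n₃ → A) :
    eval (fun j => φ (s j)) (polyPhi e₁ e₂ e₃ m)
      = cmb φ e₁ (pt₁ s) ^ m - cmb φ e₂ (pt₂ s) * cmb φ e₃ (pt₃ s) := by
  simp only [polyPhi, polyW, polyH, polyH', map_sub, map_pow, map_mul, eval_polyL, cmb, pt₁, pt₂,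
    pt₃]

/-- the differential of `W ^ m - H H'` at `s` in the direction `v` -/
theorem deriv_polyPhi (m : ℕ) (s v : Fin n₁ ⊕ Fin n₂ ⊕ Fin n₃ → A) :
    ∑ j, φ (v j) * eval (fun j => φ (s j)) (pderiv j (polyPhi e₁ e₂ e₃ m))
      = m * cmb φ e₁ (pt₁ s) ^ (m - 1) * cmb φ e₁ (pt₁ v)
        - cmb φ e₂ (pt₂ v) * cmb φ e₃ (pt₃ s) - cmb φ e₂ (pt₂ s) * cmb φ e₃ (pt₃ v) := by
  classical
  have hL : ∀ {n : ℕ} (e : Fin n → F) (ι : Fin n → Fin n₁ ⊕ Fin n₂ ⊕ Fin n₃)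
      (_ : Function.Injective ι),
      ∑ j, φ (v j) * eval (fun j => φ (s j)) (pderiv j (polyL e ι)) = ∑ i, φ (v (ι i)) * e i := by
    intro n e ι hι
    simp only [pderiv_polyL, map_sum, map_mul, eval_C, Finset.mul_sum]
    rw [Finset.sum_comm]
    refine Finset.sum_congr rfl fun i _ => ?_
    rw [Finset.sum_eq_single (ι i)]
    · rw [Pi.single_eq_same, map_one, mul_one, mul_comm]
    · intro j _ hj
      rw [Pi.single_eq_of_ne (Ne.symm hj), map_zero, mul_zero, mul_zero]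
    · intro h; exact absurd (Finset.mem_univ _) h
  have h₁ := hL e₁ Sum.inl Sum.inl_injective
  have h₂ := hL e₂ (fun b => Sum.inr (Sum.inl b))
    (fun a b h => Sum.inl_injective (Sum.inr_injective h))
  have h₃ := hL e₃ (fun c => Sum.inr (Sum.inr c))
    (fun a b h => Sum.inr_injective (Sum.inr_injective h))
  have hj : ∀ j, φ (v j) * eval (fun j => φ (s j)) (pderiv j (polyPhi e₁ e₂ e₃ m))
      = m * cmb φ e₁ (pt₁ s) ^ (m - 1)
          * (φ (v j) * eval (fun j => φ (s j)) (pderiv j (polyL e₁ Sum.inl)))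
        - (φ (v j) * eval (fun j => φ (s j))
            (pderiv j (polyL e₂ (fun b => Sum.inr (Sum.inl b))))) * cmb φ e₃ (pt₃ s)
        - cmb φ e₂ (pt₂ s) * (φ (v j) * eval (fun j => φ (s j))
            (pderiv j (polyL e₃ (fun c => Sum.inr (Sum.inr c))))) := by
    intro j
    simp only [polyPhi, polyW, polyH, polyH', map_sub, pderiv_pow, pderiv_mul, map_mul, map_add,
      map_pow, map_natCast, eval_polyL, cmb, pt₁, pt₂, pt₃]
    ring
  simp only [hj, Finset.sum_sub_distrib, ← Finset.mul_sum, ← Finset.sum_mul, h₁, h₂, h₃]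
  rfl

/-- **the system**: polynomials `q d` over `A` computing the coordinates of `w ^ m - h h'` and of
its differential. -/
theorem exists_system (m : ℕ)
    (hp : ∀ μ, ∃ c : Fin n₄ → A, coeff μ (polyPhi e₁ e₂ e₃ m) = cmb φ e₄ c) :
    ∃ q : Fin n₄ → MvPolynomial (Fin n₁ ⊕ Fin n₂ ⊕ Fin n₃) A,
      (∀ s : Fin n₁ ⊕ Fin n₂ ⊕ Fin n₃ → A,
        cmb φ e₄ (fun d => eval s (q d))
          = cmb φ e₁ (pt₁ s) ^ m - cmb φ e₂ (pt₂ s) * cmb φ e₃ (pt₃ s)) ∧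
      ∀ s v : Fin n₁ ⊕ Fin n₂ ⊕ Fin n₃ → A,
        cmb φ e₄ (fun d => ∑ j, eval s (pderiv j (q d)) * v j)
          = m * cmb φ e₁ (pt₁ s) ^ (m - 1) * cmb φ e₁ (pt₁ v)
            - cmb φ e₂ (pt₂ v) * cmb φ e₃ (pt₃ s) - cmb φ e₂ (pt₂ s) * cmb φ e₃ (pt₃ v) := by
  classical
  obtain ⟨q, hq⟩ := exists_coord φ e₄ (polyPhi e₁ e₂ e₃ m) hp
  have hev : ∀ (s : Fin n₁ ⊕ Fin n₂ ⊕ Fin n₃ → A) (p : MvPolynomial (Fin n₁ ⊕ Fin n₂ ⊕ Fin n₃) A),
      eval (fun j => φ (s j)) (map φ p) = φ (eval s p) := by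
    intro s p
    rw [eval_map, eval₂_comp]
    rfl
  refine ⟨q, fun s => ?_, fun s v => ?_⟩
  · rw [← eval_polyPhi, hq]
    simp only [cmb, map_sum, map_mul, eval_C, hev]
    exact Finset.sum_congr rfl fun d _ => mul_comm _ _
  · rw [← deriv_polyPhi, hq]
    simp only [cmb, map_sum, map_mul, pderiv_C_mul, pderiv_map, eval_C, hev, Finset.mul_sum,
      Finset.sum_mul]
    rw [Finset.sum_comm]
    refine Finset.sum_congr rfl fun j _ => Finset.sum_congr rfl fun d _ => ?_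
    ring

end system

end Fermat.Agent.S15.Div1
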