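import Fermat.Agent.W1.GeoEval
import Fermat.Agent.S15.Div1Orth
import Fermat.Agent.S15.Div1Poly

/-!
# S15/DIV¹, part 5: auxiliary lemmas for the assembly (helper94)

* `rr_mul_mem` : `L(D₁) · L(D₂) ⊂ L(D₁ + D₂)`;
* `latticeSub R D` : the additive subgroup `L(D) ∩ O`;
* `exists_rep` : a class of the kernel of reduction has a representative `D` with `r_* D = 0`;
* `ob_of_chart` : orthonormal bases for divisors whose reduction is `Σ T + X`, `X ≥ 0`, `T`
  non-special;
* `IsOB.nonunit_of_red_const` : the normalisation argument.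
-/

set_option autoImplicit false

open AlgebraicCurve Module WithZero

namespace Fermat.Agent.S15.Div1

open Fermat.Agent.W1 Fermat.Agent.ES.R Fermat.Agent.S24

variable {K F k Fk : Type} [Field K] [Field F] [Algebra K F] [Field k] [Field Fk] [Algebra k Fk]
variable {A : ValuationSubring K} {R : PRData K F k Fk A}

theorem rr_mul_mem {D₁ D₂ : Divisor K F} {x y : F} (hx : x ∈ riemannRochSpace D₁)
    (hy : y ∈ riemannRochSpace D₂) : x * y ∈ riemannRochSpace (D₁ + D₂) := by
  intro v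
  show v.adicValuation (x * y) ≤ exp ((D₁ + D₂) v)
  rw [map_mul, Finsupp.add_apply, exp_add]
  exact mul_le_mul' (hx v) (hy v)

/-- `L(D) ∩ O` -/
def latticeSub (R : PRData K F k Fk A) (D : Divisor K F) : AddSubgroup F where
  carrier := {x | x ∈ riemannRochSpace D ∧ x ∈ R.O}
  zero_mem' := ⟨Submodule.zero_mem _, R.O.zero_mem⟩
  add_mem' := fun hx hy => ⟨Submodule.add_mem _ hx.1 hy.1, R.O.add_mem _ _ hx.2 hy.2⟩
  neg_mem' := fun hx => ⟨Submodule.neg_mem _ hx.1, R.O.neg_mem _ hx.2⟩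

theorem mem_latticeSub {D : Divisor K F} {x : F} :
    x ∈ latticeSub R D ↔ x ∈ riemannRochSpace D ∧ x ∈ R.O := Iff.rfl

/-- the ring homomorphism `A → F` -/
def phiA (A : ValuationSubring K) (F : Type) [Field F] [Algebra K F] : A →+* F :=
  (algebraMap K F).comp A.subtype

theorem cmb_eq_comb {n : ℕ} (e : Fin n → F) (c : Fin n → A) : cmb (phiA A F) e c = comb e c := by
  unfold cmb comb phiA
  refine Finset.sum_congr rfl fun i _ => ?_
  rw [Algebra.smul_def]
  rfl

/-- a class of the kernel of reduction has a representative whose reduction is `0` -/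
theorem exists_rep (hR : R.IsPR) [HasPrincipalDivisors K F] {x : Pic0 K F} (hx : x ∈ R.J1) :
    ∃ (D : Divisor K F) (hD : D ∈ Divisor.degZero (K := K) (F := F)),
      Pic0.mk ⟨D, hD⟩ = x ∧ Finsupp.mapDomain R.r D = 0 := by
  obtain ⟨D₀, rfl, fb, hfb0, hfb⟩ := hx
  obtain ⟨u, hu⟩ := hR.red_surjective fb
  have hu0 : (u : F) ≠ 0 := by
    intro h0
    have : u = 0 := Subtype.ext h0
    rw [this, map_zero] at hu
    exact hfb0 hu.symm
  obtain ⟨Z, hZ, hZdeg⟩ := HasPrincipalDivisors.exists_divisor (K := K) (u : F) hu0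
  have hrZ : Finsupp.mapDomain R.r Z = Finsupp.mapDomain R.r (D₀ : Divisor K F) := by
    ext Q
    rw [hR.r_div u (by rw [hu]; exact hfb0) Z hZ Q, hu, hfb Q]
  have hdeg : (D₀ : Divisor K F) - Z ∈ Divisor.degZero (K := K) (F := F) := by
    rw [Divisor.mem_degZero, map_sub, hZdeg, Divisor.mem_degZero.mp D₀.2, sub_zero]
  refine ⟨(D₀ : Divisor K F) - Z, hdeg, ?_, ?_⟩
  · unfold Pic0.mk
    rw [QuotientAddGroup.eq, AddSubgroup.mem_addSubgroupOf]
    have h2 : ((-(⟨(D₀ : Divisor K F) - Z, hdeg⟩ : Divisor.degZero (K := K) (F := F)) + D₀ :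
        Divisor.degZero (K := K) (F := F)) : Divisor K F) = Z := by
      rw [AddSubgroup.coe_add, AddSubgroup.coe_neg]
      show -((D₀ : Divisor K F) - Z) + (D₀ : Divisor K F) = Z
      abel
    rw [h2]
    exact ⟨(u : F), hu0, hZ⟩
  · rw [c1_mapDomain_sub, hrZ, sub_self]

/-- orthonormal bases for the divisors whose reduction is `Σ T + X`, `X ≥ 0`, `T` non-special -/
theorem ob_of_chart {g : ℕ} (hR : R.IsPR) (hF : IsNiceCurve K F g) (hFk : IsNiceCurve k Fk g)
    (hO : R.Orth) {T : Finset (Place k Fk)} (hTcard : T.card = g)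
    (hT : finrank k ↥(riemannRochSpace (gpSum T)) = 1) (D : Divisor K F) (X : Divisor k Fk)
    (hX : 0 ≤ X) (hr : Finsupp.mapDomain R.r D = gpSum T + X) :
    ∃ (n : ℕ) (e : Fin n → F), IsOB R D e ∧ (n : ℤ) = Divisor.degree X + 1 := by
  have := hFk.hpd
  have h1 := gp_finrank_chart_add hFk.hres hFk.lower hTcard hT hX
  have h2 : Divisor.degree D = g + Divisor.degree X := by
    rw [← c1_degree_mapDomain hF.hres hFk.hres R.r D, hr, map_add, degree_gpSum hFk.hres, hTcard]
  obtain ⟨n, e, he, hn⟩ := exists_isOB hR hF hFk hO D (by rw [hr, h1, h2]; linarith)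
  refine ⟨n, e, he, ?_⟩
  rw [hn, hr, h1]

theorem res_eq_of_sub_nonunit (hR : R.IsPR) {a b : A} (h : ((b - a : A) : K) ∈ A.nonunits) :
    R.res b = R.res a := by
  have := (hR.res_eq_zero_iff (b - a)).mpr h
  rwa [map_sub, sub_eq_zero] at this

/-- normalisation: if `red (comb α) = 1`, `α a₁` is a unit, `v a₁ ∈ 𝔪` and `red (comb v)` is a
constant, then `red (comb v) = 0`. -/
theorem IsOB.red_eq_zero_of_const (hR : R.IsPR) {D : Divisor K F} {n : ℕ} {e : Fin n → F}
    (h : IsOB R D e) (α v : Fin n → A) (hα : R.red ⟨comb e α, h.comb_memO hR α⟩ = 1)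
    (a₁ : Fin n) (ha₁ : ((α a₁ : A) : K) ∉ A.nonunits) (hv₁ : ((v a₁ : A) : K) ∈ A.nonunits)
    (c : k) (hc : R.red ⟨comb e v, h.comb_memO hR v⟩ = algebraMap k Fk c) :
    R.red ⟨comb e v, h.comb_memO hR v⟩ = 0 := by
  have h1 : ∑ i, (R.res (v i) - c * R.res (α i)) • R.red ⟨e i, h.memO i⟩ = 0 := by
    have e1 := h.red_comb hR v
    have e2 := h.red_comb hR α
    rw [hc] at e1
    rw [hα] at e2
    simp only [sub_smul, mul_smul, Finset.sum_sub_distrib, ← Finset.smul_sum, ← e1, ← e2]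
    rw [Algebra.algebraMap_eq_smul_one, sub_self]
  have h2 := Fintype.linearIndependent_iff.mp h.li _ h1 a₁
  rw [(hR.res_eq_zero_iff (v a₁)).mpr hv₁, zero_sub, neg_eq_zero] at h2
  have h3 : R.res (α a₁) ≠ 0 := fun h0 => ha₁ ((hR.res_eq_zero_iff (α a₁)).mp h0)
  have hc0 : c = 0 := (mul_eq_zero.mp h2).resolve_right h3
  rw [hc, hc0, map_zero]

/-- a combination with reduction `1` has a unit coefficient -/
theorem IsOB.exists_unit_coeff (hR : R.IsPR) {D : Divisor K F} {n : ℕ} {e : Fin n → F}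
    (h : IsOB R D e) (α : Fin n → A) (hα : R.red ⟨comb e α, h.comb_memO hR α⟩ = 1) :
    ∃ a₁ : Fin n, ((α a₁ : A) : K) ∉ A.nonunits := by
  by_contra hne
  rw [not_exists] at hne
  have := h.red_eq_zero_of_nonunit hR α fun i => not_not.mp (hne i)
  rw [hα] at this
  exact one_ne_zero this

end Fermat.Agent.S15.Div1
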