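import Fermat.Agent.S15.Div1Plan

/-!
# S15 / LOCAL-N, brick for LN-TF (helper24): uniqueness in Hensel's lemma in several variables

`stmtHenselMvUniq : StmtHenselMvUniq`: for a valuation ring `A` of a field `K` (no hypothesis on
`K`, the system need not be square or finite), two solutions `b, b' ≡ a mod 𝔪` of `f = 0` coincide as soon
as the Jacobian matrix at `a` is injective modulo `𝔪`.

* `div1hu_taylor` : `P(b + c u) = P(b) + c Σ_j ∂_j P(b) u_j + c² r` with `r ∈ A`;
* `div1hu_eval_congr` : `P(b) ≡ P(a) mod 𝔪` if `b ≡ a mod 𝔪`.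
-/

set_option autoImplicit false

namespace Fermat.Agent.S15

open MvPolynomial

/-- **DIV1-HU**: uniqueness in Hensel's lemma in several variables. -/
def StmtHenselMvUniq : Prop :=
  ∀ (K : Type) [Field K] (A : ValuationSubring K)
    (σ ι : Type) [Fintype σ] (f : ι → MvPolynomial σ A) (a : σ → A),
      (∀ v : σ → A,
        (∀ i, ((∑ j, MvPolynomial.eval a (MvPolynomial.pderiv j (f i)) * v j : A) : K)
          ∈ A.nonunits) →
        ∀ j, ((v j : A) : K) ∈ A.nonunits) →
      ∀ b b' : σ → A, (∀ j, ((b j - a j : A) : K) ∈ A.nonunits) →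
        (∀ j, ((b' j - a j : A) : K) ∈ A.nonunits) →
        (∀ i, MvPolynomial.eval b (f i) = 0) → (∀ i, MvPolynomial.eval b' (f i) = 0) → b = b'

section Taylor

variable {R : Type} [CommRing R] {σ : Type} [Fintype σ]

/-- second order Taylor expansion with integral remainder -/
theorem div1hu_taylor (P : MvPolynomial σ R) (b u : σ → R) (c : R) :
    ∃ r : R, eval (fun j => b j + c * u j) P =
      eval b P + c * ∑ j, eval b (pderiv j P) * u j + c ^ 2 * r := by
  classical
  induction P using MvPolynomial.induction_on with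
  | C a =>
    refine ⟨0, ?_⟩
    simp
  | add p q hp hq =>
    obtain ⟨r₁, h₁⟩ := hp
    obtain ⟨r₂, h₂⟩ := hq
    refine ⟨r₁ + r₂, ?_⟩
    simp only [map_add, h₁, h₂, add_mul, Finset.sum_add_distrib]
    ring
  | mul_X p i hp =>
    obtain ⟨r, h⟩ := hp
    refine ⟨(∑ j, eval b (pderiv j p) * u j) * u i + r * b i + c * r * u i, ?_⟩
    have hd : ∀ j, eval b (pderiv j (p * X i)) =
        eval b (pderiv j p) * b i + eval b p * (if j = i then 1 else 0) := by
      intro j
      rw [Derivation.leibniz, pderiv_X]
      simp only [smul_eq_mul, map_add, map_mul, eval_X, Pi.single_apply]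
      by_cases hji : i = j
      · subst hji
        simp
        ring
      · have hij : ¬ j = i := fun h => hji h.symm
        simp [hji, hij, mul_comm]
    have hsum : ∑ j, eval b (pderiv j (p * X i)) * u j =
        (∑ j, eval b (pderiv j p) * u j) * b i + eval b p * u i := by
      simp only [hd, add_mul, Finset.sum_add_distrib]
      congr 1
      · rw [Finset.sum_mul]
        refine Finset.sum_congr rfl fun j _ => ?_
        ring
      · rw [Finset.sum_eq_single i]
        · simp
        · intro j _ hj
          simp [hj]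
        · intro h
          exact absurd (Finset.mem_univ i) h
    rw [map_mul, eval_X, h, hsum, map_mul, eval_X]
    ring

end Taylor

section Congr

variable {K : Type} [Field K] (A : ValuationSubring K) {σ : Type}

/-- evaluation is compatible with congruences modulo the maximal ideal -/
theorem div1hu_eval_congr (P : MvPolynomial σ A) (a b : σ → A)
    (h : ∀ j, ((b j - a j : A) : K) ∈ A.nonunits) :
    ((eval b P - eval a P : A) : K) ∈ A.nonunits := by
  rw [ValuationSubring.coe_mem_nonunits_iff, ← IsLocalRing.residue_eq_zero_iff, map_sub,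
    sub_eq_zero]
  have hab : ∀ j, IsLocalRing.residue A (b j) = IsLocalRing.residue A (a j) := by
    intro j
    have := h j
    rw [ValuationSubring.coe_mem_nonunits_iff, ← IsLocalRing.residue_eq_zero_iff, map_sub,
      sub_eq_zero] at this
    exact this
  have e1 : ∀ x : σ → A, IsLocalRing.residue A (eval x P) =
      eval (fun j => IsLocalRing.residue A (x j)) (map (IsLocalRing.residue A) P) := by
    intro x
    rw [eval_map]
    exact MvPolynomial.eval₂_comp_left (IsLocalRing.residue A) (RingHom.id A) x P
  rw [e1, e1]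
  have : (fun j => IsLocalRing.residue A (b j)) = fun j => IsLocalRing.residue A (a j) :=
    funext hab
  rw [this]

end Congr

section Main

variable {K : Type} [Field K] (A : ValuationSubring K) {σ ι : Type} [Fintype σ]

/-- membership in the maximal ideal, in the two languages -/
theorem div1hu_mem_iff (x : A) : (x : K) ∈ A.nonunits ↔ IsLocalRing.residue A x = 0 := by
  rw [ValuationSubring.coe_mem_nonunits_iff, IsLocalRing.residue_eq_zero_iff]

/-- **uniqueness in Hensel's lemma in several variables** -/
theorem div1hu_main (f : ι → MvPolynomial σ A) (a : σ → A)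
    (hJ : ∀ v : σ → A,
      (∀ i, ((∑ j, MvPolynomial.eval a (MvPolynomial.pderiv j (f i)) * v j : A) : K)
        ∈ A.nonunits) →
      ∀ j, ((v j : A) : K) ∈ A.nonunits)
    (b b' : σ → A) (hb : ∀ j, ((b j - a j : A) : K) ∈ A.nonunits)
    (hb' : ∀ j, ((b' j - a j : A) : K) ∈ A.nonunits)
    (hfb : ∀ i, MvPolynomial.eval b (f i) = 0) (hfb' : ∀ i, MvPolynomial.eval b' (f i) = 0) :
    b = b' := by
  classical
  by_contra hne
  -- an index where `b' - b` has maximal valuation
  have hex : ∃ j, b' j - b j ≠ 0 := by
    by_contra h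
    simp only [not_exists, not_not] at h
    exact hne (funext fun j => (sub_eq_zero.mp (h j)).symm)
  obtain ⟨j₁, hj₁⟩ := hex
  obtain ⟨j₀, -, hmax⟩ := Finset.exists_max_image Finset.univ
    (fun j => A.valuation ((b' j - b j : A) : K)) ⟨j₁, Finset.mem_univ j₁⟩
  set c : A := b' j₀ - b j₀ with hc
  have hc0 : c ≠ 0 := by
    intro h0
    have h1 := hmax j₁ (Finset.mem_univ j₁)
    rw [h0] at h1
    simp only [ZeroMemClass.coe_zero, map_zero, le_zero_iff, map_eq_zero,
      ZeroMemClass.coe_eq_zero] at h1
    exact hj₁ h1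
  have hcK : (c : K) ≠ 0 := fun h => hc0 (Subtype.ext h)
  -- `b' - b = c u`
  have hu : ∀ j, ((b' j - b j : A) : K) / (c : K) ∈ A := by
    intro j
    rw [← ValuationSubring.valuation_le_one_iff, map_div₀]
    exact div_le_one_of_le₀ (hmax j (Finset.mem_univ j)) zero_le
  let u : σ → A := fun j => ⟨((b' j - b j : A) : K) / (c : K), hu j⟩
  have hbu : ∀ j, b' j = b j + c * u j := by
    intro j
    apply Subtype.ext
    show (b' j : K) = (b j : K) + (c : K) * (((b' j - b j : A) : K) / (c : K))
    rw [mul_div_cancel₀ _ hcK]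
    push_cast
    ring
  have hu₀ : u j₀ = 1 := by
    apply Subtype.ext
    show ((b' j₀ - b j₀ : A) : K) / (c : K) = 1
    exact div_self hcK
  -- the Jacobian at `b` kills `u` modulo `𝔪`
  have hcm : (c : K) ∈ A.nonunits := by
    have h1 := hb' j₀
    have h2 := hb j₀
    rw [div1hu_mem_iff] at h1 h2 ⊢
    rw [hc, map_sub] at *
    rw [sub_eq_zero] at h1 h2 ⊢
    rw [h1, h2]
  have key : ∀ i, ((∑ j, MvPolynomial.eval a (MvPolynomial.pderiv j (f i)) * u j : A) : K)
      ∈ A.nonunits := by
    intro i
    obtain ⟨r, hr⟩ := div1hu_taylor (f i) b u c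
    have hb'' : (fun j => b j + c * u j) = b' := funext fun j => (hbu j).symm
    rw [hb'', hfb', hfb, zero_add] at hr
    have h3 : c * (∑ j, eval b (pderiv j (f i)) * u j + c * r) = 0 := by
      rw [hr]; ring
    have h4 : ∑ j, eval b (pderiv j (f i)) * u j = -(c * r) := by
      have := (mul_eq_zero.mp h3).resolve_left hc0
      exact eq_neg_of_add_eq_zero_left this
    rw [div1hu_mem_iff]
    have h5 : IsLocalRing.residue A (∑ j, eval b (pderiv j (f i)) * u j) = 0 := by
      rw [h4, map_neg, map_mul, (div1hu_mem_iff A c).mp hcm, zero_mul, neg_zero]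
    rw [← h5, map_sum, map_sum]
    refine Finset.sum_congr rfl fun j _ => ?_
    rw [map_mul, map_mul]
    congr 1
    have h6 := div1hu_eval_congr A (pderiv j (f i)) a b hb
    rw [div1hu_mem_iff, map_sub, sub_eq_zero] at h6
    exact h6.symm
  have h7 := hJ u key j₀
  rw [hu₀, div1hu_mem_iff, map_one] at h7
  exact one_ne_zero h7

/-- **DIV1-HU.** -/
theorem stmtHenselMvUniq : StmtHenselMvUniq := by
  intro K _ A σ ι _ f a hJ b b' hb hb' hfb hfb'
  exact div1hu_main A f a hJ b b' hb hb' hfb hfb'

end Main

end Fermat.Agent.S15
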