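import Mathlib

/-!
# S15, piece GLUE (abstract): the endgame of Mazur's Step 3 as pure group theory

`J` an abelian group with an action of a group `G`; `Dv`, `Dl` two subgroups of `G`
(decomposition groups at a place over `v ∈ {2,3}` and at a place over `ℓ`); `r` a prime.
`c = z - u`, `cr` a nonzero multiple of `c` killed by `r`.

Inputs:
* `LocDivAbs D r w`  : `w` is infinitely `r`-divisible among the `D`-fixed points;
* `TorsBddAbs D r`   : the `D`-fixed `r`-power torsion has bounded exponent;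
* `FinAbs r cr w`    : the output of the Eisenstein descent (NOTES/S15-route.md, F5): there is `t`
  such that for every `k` some `G`-equivariant endomorphism `E` with `E cr = cr` and some
  `G`-fixed `m` satisfy `r ^ t • (E w - r ^ k • m) = 0`.

`glue_abstract` : `LocDiv` for `u` at `Dv` and for `z` at `Dl`, `TorsBdd` at both, and `FinAbs` for
`u` or for `z` are contradictory.
-/

set_option autoImplicit false

namespace Fermat.Agent.S15

variable {J : Type*} [AddCommGroup J] {G : Type*} [Group G] [DistribMulAction G J]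

/-- `w` is infinitely `r`-divisible among the points fixed by `D`. -/
def LocDivAbs (D : Subgroup G) (r : ℕ) (w : J) : Prop :=
  ∀ k : ℕ, ∃ y : J, (∀ σ ∈ D, σ • y = y) ∧ r ^ k • y = w

/-- the `r`-power torsion fixed by `D` has bounded exponent -/
def TorsBddAbs (J : Type*) [AddCommGroup J] {G : Type*} [Group G] [DistribMulAction G J]
    (D : Subgroup G) (r : ℕ) : Prop :=
  ∃ k₀ : ℕ, ∀ y : J, (∀ σ ∈ D, σ • y = y) → (∃ n : ℕ, r ^ n • y = 0) → r ^ k₀ • y = 0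

/-- the output of the descent for the rational point `w` -/
def FinAbs (G : Type*) [Group G] {J : Type*} [AddCommGroup J] [DistribMulAction G J]
    (r : ℕ) (cr w : J) : Prop :=
  ∃ t : ℕ, ∀ k : ℕ, ∃ E : J →+ J, (∀ (σ : G) (x : J), E (σ • x) = σ • E x) ∧ E cr = cr ∧
    ∃ m : J, (∀ σ : G, σ • m = m) ∧ r ^ t • (E w - r ^ k • m) = 0

theorem pow_smul_eq_zero_of_le {r k₀ k : ℕ} (h : k₀ ≤ k) {y : J} (hy : r ^ k₀ • y = 0) :
    r ^ k • y = 0 := by
  obtain ⟨d, rfl⟩ := Nat.exists_eq_add_of_le h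
  rw [pow_add, mul_comm, mul_smul, hy, smul_zero]

/-- one half of the glue: descent output for `w₁`, local divisibility of `w₁` at `D₁` and of
`w₂` at `D₂`, and `cr = ± a • (w₂ - w₁)`. -/
theorem glue_half (D₁ D₂ : Subgroup G) (r : ℕ) (w₁ w₂ cr : J) (a : ℤ)
    (hcr : cr = a • (w₂ - w₁)) (hcr0 : cr ≠ 0) (hrcr : r • cr = 0)
    (h₁ : LocDivAbs D₁ r w₁) (h₂ : LocDivAbs D₂ r w₂)
    (hY₁ : TorsBddAbs J D₁ r) (hY₂ : TorsBddAbs J D₂ r)
    (hfin : FinAbs G r cr w₁) : False := by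
  obtain ⟨t, ht⟩ := hfin
  obtain ⟨k₁, hk₁⟩ := hY₁
  obtain ⟨k₂, hk₂⟩ := hY₂
  set k := max k₁ k₂ with hk
  obtain ⟨E, hE, hEcr, m, hm, hτ⟩ := ht k
  obtain ⟨y₁, hy₁, hy₁w⟩ := h₁ k
  obtain ⟨y₂, hy₂, hy₂w⟩ := h₂ k
  -- `E w₁ = r ^ k • m`
  have hEw₁ : E w₁ = r ^ k • E y₁ := by rw [← hy₁w, map_nsmul]
  have hfix₁ : ∀ σ ∈ D₁, σ • (E y₁ - m) = E y₁ - m := by
    intro σ hσ
    rw [smul_sub, ← hE, hy₁ σ hσ, hm]
  have htors₁ : r ^ (t + k) • (E y₁ - m) = 0 := by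
    rw [pow_add, mul_smul, smul_sub, ← hEw₁]
    exact hτ
  have hz₁ : r ^ k • (E y₁ - m) = 0 :=
    pow_smul_eq_zero_of_le (le_max_left k₁ k₂) (hk₁ _ hfix₁ ⟨_, htors₁⟩)
  have hEw₁' : E w₁ = r ^ k • m := by
    rw [hEw₁]
    rw [smul_sub, sub_eq_zero] at hz₁
    exact hz₁
  -- `E w₂ = r ^ k • E y₂`
  have hEw₂ : E w₂ = r ^ k • E y₂ := by rw [← hy₂w, map_nsmul]
  have hEc : cr = r ^ k • (a • (E y₂ - m)) := by
    calc cr = E cr := hEcr.symm
      _ = a • (E w₂ - E w₁) := by rw [hcr, map_zsmul, map_sub]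
      _ = a • (r ^ k • (E y₂ - m)) := by rw [hEw₂, hEw₁', ← smul_sub]
      _ = r ^ k • (a • (E y₂ - m)) := by
          rw [← natCast_zsmul (a • (E y₂ - m)) (r ^ k), ← natCast_zsmul (E y₂ - m) (r ^ k),
            smul_smul, smul_smul, mul_comm]
  have hfix₂ : ∀ σ ∈ D₂, σ • (a • (E y₂ - m)) = a • (E y₂ - m) := by
    intro σ hσ
    rw [smul_comm, smul_sub, ← hE, hy₂ σ hσ, hm]
  have htors₂ : r ^ (k + 1) • (a • (E y₂ - m)) = 0 := by
    rw [pow_succ, mul_comm, mul_smul, ← hEc]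
    exact hrcr
  have hz₂ : r ^ k • (a • (E y₂ - m)) = 0 :=
    pow_smul_eq_zero_of_le (le_max_right k₁ k₂) (hk₂ _ hfix₂ ⟨_, htors₂⟩)
  exact hcr0 (hEc.trans hz₂)

/-- **GLUE (abstract)**. -/
theorem glue_abstract (Dv Dl : Subgroup G) (r : ℕ) (u z c cr : J) (a : ℕ)
    (hc : z - u = c) (hcr : cr = a • c) (hcr0 : cr ≠ 0) (hrcr : r • cr = 0)
    (hu : LocDivAbs Dv r u) (hz : LocDivAbs Dl r z)
    (hYv : TorsBddAbs J Dv r) (hYl : TorsBddAbs J Dl r)
    (hfin : FinAbs G r cr u ∨ FinAbs G r cr z) : False := by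
  rcases hfin with h | h
  · refine glue_half Dv Dl r u z cr (a : ℤ) ?_ hcr0 hrcr hu hz hYv hYl h
    rw [hc, hcr, natCast_zsmul]
  · refine glue_half Dl Dv r z u cr (-(a : ℤ)) ?_ hcr0 hrcr hz hu hYl hYv h
    rw [hcr, ← hc, neg_smul, natCast_zsmul, ← smul_neg, neg_sub]

end Fermat.Agent.S15
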