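import Fermat.Agent.ES.RC.UnitField
import Fermat.Agent.ES.DescentInj
import Fermat.Agent.ES.G2.HeckeDeg
import Fermat.Agent.ES.M.FrickePlaces

/-!
# S15, piece OGG (1): the modular unit `u_N = Δ(q^N)/Δ(q)` in `F_N = ℚ̄(j(q^d) : d ∣ N)`

* `oggU N : FF N` : the element of `F_N` with `q`-expansion `uS ℚ̄ N = Δ(q^N)/Δ(q)`;
* `ogg_ord_cuspInfty` : its order at the cusp `∞` is `N - 1`;
* `ogg_unitHyp` : the two integrality relations of the unit over `ℚ̄` (for a prime `N`);
* `ogg_ord_eq_zero` : for a prime `N`, `u_N` is a unit at every place where `j` is regular.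
-/

set_option autoImplicit false

noncomputable section

namespace Fermat.Agent.S15

open ModularCurve AlgebraicCurve Polynomial
open Fermat.Agent.S24 Fermat.Agent.S28 Fermat.Agent.ES.M

attribute [local instance] algKbC

/-- `Δ(q^N)/Δ(q)` with coefficients in `ℚ̄` lies in `F_N`. -/
theorem ogg_uS_mem (N : ℕ) [NeZero N] : uS Kb N ∈ modularFunctionFieldBar N := by
  have h1 : uS ℂ N ∈ laurentBaseChange ℂ (modularFunctionFieldFull N) := by
    rw [Fermat.Agent.ES.G2.hdeg_laurentBaseChange_full]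
    exact Fermat.Agent.ES.RC.rc_uS_mem_full N
  have h2 : coeffMap (algebraMap Kb ℂ) (uS Kb N) = uS ℂ N := coeffMap_uS N (algebraMap Kb ℂ)
  rw [← h2] at h1
  exact Fermat.Agent.ES.DescentInj.mem_laurentBaseChange_of_coeffMap_mem _ h1

/-- The modular unit `u_N = Δ(q^N)/Δ(q)` as an element of `F_N`. -/
def oggU (N : ℕ) [NeZero N] : FF N := ⟨uS Kb N, ogg_uS_mem N⟩

theorem coe_oggU (N : ℕ) [NeZero N] : ((oggU N : FF N) : LaurentSeries Kb) = uS Kb N := rfl

theorem oggU_ne_zero (N : ℕ) [NeZero N] : oggU N ≠ 0 := by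
  intro h
  have := congrArg (fun z : FF N => (z : LaurentSeries Kb)) h
  exact uS_ne_zero N Kb this

/-- The order of `u_N` at the cusp `∞` is `N - 1`. -/
theorem ogg_ord_cuspInfty (N : ℕ) [NeZero N] {P : Place Kb (FF N)} (hP : IsCuspInfty N P) :
    P.ord (oggU N) = (N : ℤ) - 1 := by
  rw [hP _ (oggU_ne_zero N), coe_oggU, order_uS]

/-! ### Integrality -/

/-- The two integrality relations of the modular unit over `ℚ̄`. -/
theorem ogg_unitHyp (p : ℕ) [NeZero p] (hp : p.Prime) : UnitHyp Kb p := by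
  have hv : ((p : ℚ)⁻¹) * ((p : ℕ) : ℚ) = 1 :=
    inv_mul_cancel₀ (Nat.cast_ne_zero.mpr hp.ne_zero)
  exact unitHyp_transfer (algebraMap ℚ ℂ) (algebraMap ℚ ℂ).injective (algebraMap ℚ Kb)
    hp.two_le hv (unitHyp_complex p hp)

theorem ogg_jBar_eq : jBar = jqModC Kb := by
  rw [jBar, coeffEmb, ← jqModC_rat]
  exact map_jqModC (algebraMap ℚ Kb)

/-- Transport of a relation `U(x, y) = 0` from Laurent series to `F_N`. -/
theorem ogg_eval₂_coe (N : ℕ) [NeZero N] (U : (Kb[X])[X]) (x y : FF N) :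
    ((U.eval₂ (aeval (R := Kb) y).toRingHom x : FF N) : LaurentSeries Kb) =
      U.eval₂ (aeval (R := Kb) (y : LaurentSeries Kb)).toRingHom (x : LaurentSeries Kb) := by
  have h := Polynomial.hom_eval₂ U (aeval (R := Kb) y).toRingHom
    (algebraMap (FF N) (LaurentSeries Kb)) x
  have h2 : (algebraMap (FF N) (LaurentSeries Kb)).comp (aeval (R := Kb) y).toRingHom =
      (aeval (R := Kb) (y : LaurentSeries Kb)).toRingHom := by
    apply Polynomial.ringHom_ext
    · intro a
      simp only [RingHom.comp_apply, AlgHom.toRingHom_eq_coe, RingHom.coe_coe, aeval_C]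
      rfl
    · simp only [RingHom.comp_apply, AlgHom.toRingHom_eq_coe, RingHom.coe_coe, aeval_X]
      rfl
  rw [h2] at h
  exact h

/-- A root `x` of a monic `U(X, y)`, `U ∈ ℚ̄[Y][X]`, with `y` regular at the place `P`, is regular
at `P`. -/
theorem ogg_mem_of_eval₂ {F : Type*} [Field F] [Algebra Kb F] (P : Place Kb F) {x y : F}
    (hy : y ∈ P.toValuationSubring) {U : (Kb[X])[X]} (hU : U.Monic)
    (h : U.eval₂ (aeval (R := Kb) y).toRingHom x = 0) : x ∈ P.toValuationSubring := by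
  have hint : IsIntegral P.toValuationSubring x := by
    refine ⟨U.map (aeval (R := Kb) (⟨y, hy⟩ : P.toValuationSubring)).toRingHom, hU.map _, ?_⟩
    rw [Polynomial.eval₂_map]
    have h2 : (algebraMap P.toValuationSubring F).comp
        (aeval (R := Kb) (⟨y, hy⟩ : P.toValuationSubring)).toRingHom =
          (aeval (R := Kb) y).toRingHom := by
      apply Polynomial.ringHom_ext
      · intro a
        simp only [RingHom.comp_apply, AlgHom.toRingHom_eq_coe, RingHom.coe_coe, aeval_C]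
        rfl
      · simp only [RingHom.comp_apply, AlgHom.toRingHom_eq_coe, RingHom.coe_coe, aeval_X]
        rfl
    rw [h2]
    exact h
  obtain ⟨z, hz⟩ := IsIntegrallyClosed.isIntegral_iff.mp hint
  rw [← hz]
  exact z.2

theorem ogg_coe_jN (N : ℕ) [NeZero N] :
    ((jdF N N dvd_rfl : FF N) : LaurentSeries Kb) = qExpand Kb N (jqModC Kb) := by
  rw [fr_coe_jdF, intJd_eq]

theorem ogg_coe_const_mul_inv (N : ℕ) [NeZero N] (a : Kb) :
    ((algebraMap Kb (FF N) a * (oggU N)⁻¹ : FF N) : LaurentSeries Kb) =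
      HahnSeries.C a * uInvS Kb N := by
  rw [uInvS_eq_inv, ← LaurentSeries.algebraMap_apply]
  rfl

/-- For a prime `N`, the modular unit `u_N` is a unit at every place where `j` is regular. -/
theorem ogg_ord_eq_zero (N : ℕ) [NeZero N] (hN : N.Prime) (P : Place Kb (FF N))
    (hP : 0 ≤ P.ord (jF N)) : P.ord (oggU N) = 0 := by
  obtain ⟨U, hUm, -, h1, h2⟩ := ogg_unitHyp N hN
  have hj : jF N ∈ P.toValuationSubring := (PlaceAux.ord_nonneg_iff P fr_jF_ne_zero).mp hP
  have hjN : jdF N N dvd_rfl ∈ P.toValuationSubring := fr_jdF_mem P.toValuationSubring hj N dvd_rfl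
  -- `u` is regular
  have e1 : U.eval₂ (aeval (R := Kb) (jF N)).toRingHom (oggU N) = 0 := by
    apply Subtype.ext
    rw [ogg_eval₂_coe, coe_jF, ogg_jBar_eq, coe_oggU]
    exact h1
  have hu : oggU N ∈ P.toValuationSubring := ogg_mem_of_eval₂ P hj hUm e1
  -- `u⁻¹` is regular
  have hN0 : (N : Kb) ≠ 0 := Nat.cast_ne_zero.mpr hN.ne_zero
  have e2 : U.eval₂ (aeval (R := Kb) (jdF N N dvd_rfl)).toRingHom
      (algebraMap Kb (FF N) (((N : Kb)⁻¹) ^ 12) * (oggU N)⁻¹) = 0 := by
    apply Subtype.ext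
    rw [ogg_eval₂_coe, ogg_coe_jN, ogg_coe_const_mul_inv]
    exact h2
  have hx' := ogg_mem_of_eval₂ P hjN hUm e2
  have hc : algebraMap Kb (FF N) ((N : Kb) ^ 12) ∈ P.toValuationSubring := by
    have := (algebraMap Kb P.toValuationSubring ((N : Kb) ^ 12)).2
    exact this
  have hinv : (oggU N)⁻¹ ∈ P.toValuationSubring := by
    have h3 := P.toValuationSubring.mul_mem _ _ hc hx'
    have h4 : algebraMap Kb (FF N) ((N : Kb) ^ 12) *
        (algebraMap Kb (FF N) (((N : Kb)⁻¹) ^ 12) * (oggU N)⁻¹) = (oggU N)⁻¹ := by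
      rw [← mul_assoc, ← map_mul, inv_pow, mul_inv_cancel₀ (pow_ne_zero _ hN0), map_one, one_mul]
    rwa [h4] at h3
  have h5 : 0 ≤ P.ord (oggU N) := (PlaceAux.ord_nonneg_iff P (oggU_ne_zero N)).mpr hu
  have h6 : 0 ≤ P.ord (oggU N)⁻¹ :=
    (PlaceAux.ord_nonneg_iff P (inv_ne_zero (oggU_ne_zero N))).mpr hinv
  rw [Place.ord_inv] at h6
  omega

end Fermat.Agent.S15
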