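import Fermat.Agent.S15.Cusp
import Fermat.Agent.S15.OggUnit
import Fermat.Agent.S15.Glue
import Fermat.Agent.W1.PlanGeo
import Fermat.Agent.S15.ModPlan
import Fermat.Prelude.Def_EllipticCurve_ZeroComponentAt
import Fermat.Prelude.Def_FLTPrelim_Ramification

/-!
# S15 (Mazur's key step) — the top-level interface.  Architecture: `NOTES/S15-route.md`.

In the frozen statement the ORDER of the rational point `Q` is called `p`; it is the LEVEL here.
`r` is the descent (Eisenstein) prime, `v` runs over primes `≠ p`.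

All interfaces are PACKAGE-FREE: they mention only `JZero p`, its Galois action, places of
`FF p`, the values of `j = jF p` and of the Fricke product `Π₀` (`IsFrickeProd p 0`, `ModPlan.lean`)
at a place, and membership of rational numbers in a valuation ring `A ⊂ ℚ̄`.  How the reduction at `v` is realised (directly for `v ≥ 5`, by level-up for `v ∈ {2,3}`)
is internal to the pieces.

* `IsDiffClass x y w`  : `w = [(x) − (y)]`.
* `IsTypeTwo x`        : the certificate at the LEVEL prime `p`: `v_p(p¹² · u(x)) ≤ 0` for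
                `u = oggU p = Δ(pτ)/Δ(τ)`, i.e. `x` reduces at `p` to a smooth point of the component
                of the cusp `0` (or into the residue disc of the cusp `0`).
* `StmtCusp`   (OGG-lite): `c ≠ 0`, `(p − 1) c = 0` for `c = cuspClass p = [(0) − (∞)]`.   DONE (helper80)
* `StmtMod`    (MOD + N3): for `W` with a multiplicative prime: the rational place `x` of
                `(E, ⟨Q⟩)` with `j(x) = a`, `Π₀(x) = c` rational and `IsTypeTwo x`;
                at a multiplicative prime `v ≠ p`, `A ∣ v`: `a ∉ A`, `c ∈ A`, and `Q ∈ E⁰` iff `c ∈ Aˣ`.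
* `StmtLocDiv` (MOD-RED + DIV¹ + S18, level-up at `v ∈ {2,3}`): if `a ∉ A`, `c ∈ A`, then
                `c ∈ 𝔪_A` ⇒ `[(x) − (0)]` is infinitely `r`-divisible in `J^{D_A}`,
                `c ∈ Aˣ` ⇒ `[(x) − (∞)]` is (`r ≠ v`).
* `StmtLocDivN` (LOCAL-N): for `A ∣ p` and `x` of type two, `[(x) − (0)]` is infinitely
                `r`-divisible in `J^{I_A}` (`r ≠ p`).
* `StmtFinRed` (FINRED): `J[r^∞]^{D_A}` has bounded exponent, `A ∣ v`, `v ≠ r`, `v ≠ p`.   DONE (helper89, helper49)
* `StmtFin`    (FIN″, the Eisenstein descent = `StmtFinCore` of `SelPlan.lean`): `FinAbs` for every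
                `G_ℚ`-fixed class which is infinitely `r`-divisible in `J^{I_A}`, `A ∣ p`.

`Fermat/Agent/S15/Top.lean` proves the frozen statement from these six Props and EC-loc.
-/

set_option autoImplicit false

noncomputable section

namespace Fermat.Agent.S15

open ModularCurve AlgebraicCurve WeierstrassCurve WeierstrassCurve.Affine
open Fermat.Agent.S24 Fermat.Agent.ES.M Fermat.Agent.W1

/-- the absolute Galois group of `ℚ` -/
abbrev GalQ : Type := Kb ≃ₐ[ℚ] Kb

/-- `w = [(x) − (y)]` in `J₀(N)` -/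
def IsDiffClass (N : ℕ) [NeZero N] (x y : Place Kb (FF N)) (w : JZero N) : Prop :=
  ∃ D : Divisor.degZero (K := Kb) (F := FF N),
    (D : Divisor Kb (FF N)) = Finsupp.single x 1 - Finsupp.single y 1 ∧ Pic0.mk D = w

/-- the place `x` is rational: fixed by `G_ℚ`, with rational values `a = j(x)`, `c = Π₀(x)`
(`Π₀` the Fricke product of `ModPlan.lean`) -/
structure IsRatPlace (N : ℕ) [NeZero N] (x : Place Kb (FF N)) (a c : ℚ) : Prop where
  fixed : ∀ σ : GalQ, galAct N σ • x = x
  val_j : HasValueAt x (jF N) (algebraMap ℚ Kb a)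
  val_pi : ∀ f : FF N, IsFrickeProd N 0 f → HasValueAt x f (algebraMap ℚ Kb c)

/-- **the certificate at the level prime** `N`: the value of `u = oggU N = Δ(Nτ)/Δ(τ)` at the
rational place `x` is a nonzero rational number `d` with `v_N(N¹² d) ≤ 0`.  (In the two-component
model of `X₀(N)` at `N` this says that `x` reduces to a smooth point of the component of the cusp
`0`, or into the residue disc of the cusp `0`; it is "TYPE 2" of the package `LN-PKG`.) -/
def IsTypeTwo (N : ℕ) [NeZero N] (x : Place Kb (FF N)) : Prop :=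
  ∃ d : ℚ, d ≠ 0 ∧ HasValueAt x (oggU N) (algebraMap ℚ Kb d) ∧ padicValRat N d ≤ -12

/-- the levels of `S15` -/
def IsMazurLevel (p : ℕ) : Prop := p.Prime ∧ p ∉ ({2, 3, 5, 7, 13} : Finset ℕ)

/-- **OGG-lite**: the cuspidal class is a nonzero torsion class. -/
def StmtCusp : Prop :=
  ∀ (p : ℕ) [NeZero p], IsMazurLevel p → cuspClass p ≠ 0 ∧ (p - 1) • cuspClass p = 0

/-- **MOD** (+ N3): the rational place attached to `(E, ⟨Q⟩)`, for `W` with a prime of
multiplicative reduction. -/
def StmtMod : Prop :=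
  ∀ (p : ℕ) [NeZero p], IsMazurLevel p → ∀ (W : WeierstrassCurve ℤ), W.Δ ≠ 0 →
    (∃ ℓ : ℕ, ℓ.Prime ∧ (ℓ : ℤ) ∣ W.Δ ∧ ¬ (ℓ : ℤ) ∣ W.c₄) →
    ∀ Q : ((W.map (Int.castRingHom ℚ))⁄(AlgebraicClosure ℚ)).Point,
      (∀ σ : AlgebraicClosure ℚ ≃ₐ[ℚ] AlgebraicClosure ℚ, σ • Q = Q) → addOrderOf Q = p →
      ∃ (x : Place Kb (FF p)) (a c : ℚ), IsRatPlace p x a c ∧ IsTypeTwo p x ∧
        ∀ v : ℕ, v.Prime → v ≠ p → (v : ℤ) ∣ W.Δ → ¬ (v : ℤ) ∣ W.c₄ →
          ∀ A : ValuationSubring (AlgebraicClosure ℚ), A.LiesOverPrime v →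
            algebraMap ℚ Kb a ∉ A ∧ algebraMap ℚ Kb c ∈ A ∧
              (W.InZeroComponentAt A Q ↔ algebraMap ℚ Kb c ∉ A.nonunits)

/-- **LOCDIV**: classes supported in the residue disc of a cusp are infinitely `r`-divisible among
the points fixed by the decomposition group. -/
def StmtLocDiv : Prop :=
  ∀ (p : ℕ) [NeZero p], IsMazurLevel p → ∀ v : ℕ, v.Prime → v ≠ p → ∀ r : ℕ, r.Prime → r ≠ v →
    ∀ A : ValuationSubring Kb, A.LiesOverPrime v →
    ∀ (x : Place Kb (FF p)) (a c : ℚ), IsRatPlace p x a c →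
      algebraMap ℚ Kb a ∉ A → algebraMap ℚ Kb c ∈ A →
      (algebraMap ℚ Kb c ∈ A.nonunits → ∀ u : JZero p, IsDiffClass p x (cuspZero p) u →
        LocDivAbs (A.decompositionSubgroup ℚ) r u) ∧
      (algebraMap ℚ Kb c ∉ A.nonunits → ∀ z : JZero p, IsDiffClass p x (cuspInf p) z →
        LocDivAbs (A.decompositionSubgroup ℚ) r z)

/-- **FINRED**: the `r`-power torsion fixed by a decomposition group at `v ≠ r, p` is finite
(bounded exponent is all that is used). -/
def StmtFinRed : Prop :=
  ∀ (p : ℕ) [NeZero p], IsMazurLevel p → ∀ v : ℕ, v.Prime → v ≠ p → ∀ r : ℕ, r.Prime → r ≠ v →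
    ∀ A : ValuationSubring Kb, A.LiesOverPrime v →
      TorsBddAbs (JZero p) (A.decompositionSubgroup ℚ) r

/-- **LOCDIV at the level prime**: the class `[(x) − (0)]` of a rational place of type two is
infinitely `r`-divisible among the points fixed by an inertia group at `p`. -/
def StmtLocDivN : Prop :=
  ∀ (p : ℕ) [NeZero p], IsMazurLevel p → ∀ r : ℕ, r.Prime → r ≠ p →
    ∀ A : ValuationSubring Kb, A.LiesOverPrime p →
    ∀ (x : Place Kb (FF p)) (a c : ℚ), IsRatPlace p x a c → IsTypeTwo p x →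
      ∀ u : JZero p, IsDiffClass p x (cuspZero p) u →
        LocDivAbs (A.inertiaSubgroupIn ℚ) r u

/-- **FIN″**: the Eisenstein descent at the prime `r ≠ p`: a `G_ℚ`-fixed class which is infinitely
`r`-divisible among the points fixed by an inertia group at the level `p` has finite Eisenstein
part.  (This is `StmtFinCore` of `SelPlan.lean`, restricted to the levels of `S15`.) -/
def StmtFin : Prop :=
  ∀ (p : ℕ) [NeZero p], IsMazurLevel p → ∀ r : ℕ, r.Prime → r ≠ p →
    ∀ cr : JZero p, cr ≠ 0 → r • cr = 0 → (∃ n : ℕ, cr = n • cuspClass p) →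
    ∀ A : ValuationSubring Kb, A.LiesOverPrime p →
    ∀ w : JZero p, (∀ σ : GalQ, σ • w = w) →
      LocDivAbs (A.inertiaSubgroupIn ℚ) r w → FinAbs GalQ r cr w

/-- **FIN″ for all rational points** (Mazur: the Eisenstein part of `J₀(p)(ℚ) ⊗ ℤ_r` is finite).
This is the recommended target of the descent; it implies `StmtFin`. -/
def StmtFinAll : Prop :=
  ∀ (p : ℕ) [NeZero p], IsMazurLevel p → ∀ r : ℕ, r.Prime →
    ∀ cr : JZero p, cr ≠ 0 → r • cr = 0 → (∃ n : ℕ, cr = n • cuspClass p) →
    ∀ w : JZero p, (∀ σ : GalQ, σ • w = w) → FinAbs GalQ r cr w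

end Fermat.Agent.S15
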