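import Fermat.Agent.S15.FinRedInst
import Fermat.Agent.S15.Plan
import Fermat.Agent.W1.LevelUp

/-!
# S15 block RED: `StmtFinRed` from the reduction package

`StmtRedFrob` : the interface `HasRedFrob N A ℓ` holds whenever the reduction package of
`DEU.hasModPR_s19` exists (`ℓ ∤ N`, `2 ≤ N`, `5 ≤ ℓ` or `(5 - ℓ) ∣ N`).

`stmtFinRed_of_stmtRedFrob : StmtRedFrob → StmtFinRed` : for `v ≥ 5` directly at the level `p`;
for `v ∈ {2, 3}` at the level `p (5 - v)`, transferred to the level `p` by the level-up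
homomorphism `W1.stmtLevelUp` (equivariant, injective on `r`-power torsion).
-/

set_option autoImplicit false
set_option linter.unusedSectionVars false
set_option linter.style.haveILetI false
set_option synthInstance.maxHeartbeats 400000

noncomputable section

namespace Fermat.Agent.S15

open ModularCurve AlgebraicCurve Fermat.Agent.ES Fermat.Agent.ES.M Fermat.Agent.S24
  Fermat.Agent.W1

/-- the reduction package, in the form used by FINRED, at the levels and primes where
`W1.HasModPR` is available -/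
def StmtRedFrob : Prop :=
  ∀ (N : ℕ) [NeZero N] (ℓ : ℕ), ℓ.Prime → ¬ ℓ ∣ N → 2 ≤ N → (5 ≤ ℓ ∨ (5 - ℓ) ∣ N) →
    ∀ A : ValuationSubring Kb, A.LiesOverPrime ℓ → HasRedFrob N A ℓ

theorem finred_mazurLevel_ne {p : ℕ} (hp : IsMazurLevel p) : p ≠ 2 ∧ p ≠ 3 := by
  refine ⟨fun h => hp.2 ?_, fun h => hp.2 ?_⟩ <;> rw [h] <;> decide

/-- **FINRED** from the reduction package. -/
theorem stmtFinRed_of_stmtRedFrob (h : StmtRedFrob) : StmtFinRed := by
  intro p _ hp v hv hvp r hr hrv A hA
  have hpp : p.Prime := hp.1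
  obtain ⟨hp2, hp3⟩ := finred_mazurLevel_ne hp
  have hvp' : ¬ v ∣ p := fun hd => hvp ((Nat.prime_dvd_prime_iff_eq hv hpp).mp hd)
  rcases le_or_gt 5 v with h5 | h5
  · exact finred_torsBdd_of_hasRedFrob p A (h p v hv hvp' hpp.two_le (Or.inl h5) A hA) r hr hrv
  · have hv23 : v = 2 ∨ v = 3 := by
      have h2 := hv.two_le
      interval_cases v
      · exact Or.inl rfl
      · exact Or.inr rfl
      · exact absurd hv (by decide)
    obtain ⟨s, hs, hsv, hsp, hvs⟩ : ∃ s : ℕ, s.Prime ∧ s = 5 - v ∧ ¬ s ∣ p ∧ ¬ v ∣ s := by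
      rcases hv23 with rfl | rfl
      · exact ⟨3, Nat.prime_three, rfl,
          fun hd => hp3 ((Nat.prime_dvd_prime_iff_eq Nat.prime_three hpp).mp hd).symm,
          by decide⟩
      · exact ⟨2, Nat.prime_two, rfl,
          fun hd => hp2 ((Nat.prime_dvd_prime_iff_eq Nat.prime_two hpp).mp hd).symm,
          by decide⟩
    haveI : NeZero (p * s) := ⟨mul_ne_zero hpp.ne_zero hs.ne_zero⟩
    have hvN : ¬ v ∣ p * s := fun hd => (hv.dvd_mul.mp hd).elim hvp' hvs
    have h2N : 2 ≤ p * s := le_trans hpp.two_le (Nat.le_mul_of_pos_right p hs.pos)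
    obtain ⟨ψ, hψe, hψi⟩ := stmtLevelUp p s r hs hsp hr
    refine finred_torsBdd_of_levelUp (A.decompositionSubgroup ℚ) r ψ hψe hψi ?_
    exact finred_torsBdd_of_hasRedFrob (p * s) A
      (h (p * s) v hv hvN h2N (Or.inr (hsv ▸ Dvd.intro_left p rfl)) A hA) r hr hrv

end Fermat.Agent.S15
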