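import Fermat.Agent.S15.FinRed
import Fermat.Agent.S15.RedPkg

/-!
# S15 block RED — FINRED, unconditional

* `s15red_stmtRedFrob : StmtRedFrob` (from the package `s15red_exists_pkg`);
* `stmtFinRed : StmtFinRed` : for a Mazur level `p`, primes `v ≠ p`, `r ≠ v` and `A ∣ v`, the
  `r`-power torsion of `J₀(p)` fixed by the decomposition group of `A` has bounded exponent.
-/

set_option autoImplicit false
set_option synthInstance.maxHeartbeats 400000
set_option maxHeartbeats 1600000

open ModularCurve AlgebraicCurve

namespace Fermat.Agent.S15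

open Fermat.Agent.S24 Fermat.Agent.ES.M Fermat.Agent.W1

/-- the reduction package in the form used by FINRED -/
theorem s15red_stmtRedFrob : StmtRedFrob := by
  intro N _ ℓ hℓ hℓN _ hcase A hA
  obtain ⟨r, sp, Pinf, Qinf, h⟩ := s15red_exists_pkg N ℓ hℓ hℓN hcase A hA
  exact ⟨hℓ, hA, gN N, sp, h.lower, h.sp_frob, h.s18⟩

/-- **FINRED** (block RED of the Mazur chain), unconditional. -/
theorem stmtFinRed : StmtFinRed :=
  stmtFinRed_of_stmtRedFrob s15red_stmtRedFrob

end Fermat.Agent.S15
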