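import Fermat.Agent.S15.RedFin
import Fermat.Agent.S15.Glue
import Fermat.Agent.PR.Frob
import Fermat.Agent.S18.Constancy
import Fermat.Agent.DEU.ModHyp
import Fermat.Agent.W1.PlanGeo4
import Fermat.Agent.Common.FrobExists

/-!
# S15 block RED, piece RED-INST: the bounded exponent of `J₀(N)[r^∞]^{D_A}` from a reduction map

* `finred_torsBdd_of_red` (abstract): if `red : J → J̄` is additive, injective on the `r`-power
  torsion, intertwines some `φ ∈ D` with a map `Fr̄` of `J̄`, and `Fr̄` has finitely many fixed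
  points, then the `D`-fixed `r`-power torsion of `J` has bounded exponent (`TorsBddAbs`).
* `finred_torsBdd_of_levelUp` (abstract): `TorsBddAbs` descends along an equivariant homomorphism
  which is injective on the `r`-power torsion.
* `finred_frob_resJ`, `finred_exists_pole` : the coefficientwise Frobenius `prFrobA` of
  `F̄ = modularFunctionFieldFullC k N` fixes `j̄`, and `j̄` has a pole.
* `finred_fixed_classes_finite` : `Pic⁰(F̄)` has finitely many classes fixed by `prFrobA`
  (given Riemann's inequality for `F̄`), by `s15red_fixed_classes_finite`.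
* `HasRedFrob N A ℓ` : the interface to the reduction package (a reduction map `sp` on classes,
  Frobenius-equivariant, injective on torsion prime to `ℓ`; Riemann's inequality for `F̄`).
* `finred_torsBdd_of_hasRedFrob` : `HasRedFrob N A ℓ → TorsBddAbs (JZero N) D_A r` for `r ≠ ℓ`.
-/

set_option autoImplicit false
set_option linter.unusedSectionVars false
set_option linter.style.haveILetI false
set_option synthInstance.maxHeartbeats 400000

noncomputable section

namespace Fermat.Agent.S15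

open ModularCurve AlgebraicCurve HahnSeries Fermat.Agent.ES Fermat.Agent.ES.M Fermat.Agent.S24
  Fermat.Agent.W1 Fermat.Agent.PR Fermat.Agent.DEU

/-! ## 1. Abstract part -/

section Abstract

variable {J Jb J' : Type*} [AddCommGroup J] [AddCommGroup Jb] [AddCommGroup J']
  {G : Type*} [Group G] [DistribMulAction G J] [DistribMulAction G J']

/-- bounded exponent of the `D`-fixed `r`-power torsion from a reduction map with finitely many
Frobenius-fixed points in the target -/
theorem finred_torsBdd_of_red (D : Subgroup G) (r : ℕ) (red : J →+ Jb) (Frb : Jb → Jb)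
    (φ : G) (hφ : φ ∈ D) (hred : ∀ x : J, red (φ • x) = Frb (red x))
    (hinj : ∀ x : J, (∃ n : ℕ, r ^ n • x = 0) → red x = 0 → x = 0)
    (hfin : {c : Jb | Frb c = c}.Finite) : TorsBddAbs J D r := by
  classical
  set T : Set J := {y | (∀ σ ∈ D, σ • y = y) ∧ ∃ n : ℕ, r ^ n • y = 0} with hT
  have hTfin : T.Finite := by
    refine Set.Finite.of_finite_image (f := red) (hfin.subset ?_) ?_
    · rintro _ ⟨y, hy, rfl⟩
      show Frb (red y) = red y
      rw [← hred, hy.1 φ hφ]
    · intro y₁ hy₁ y₂ hy₂ h12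
      have h0 : y₁ - y₂ = 0 := by
        apply hinj
        · obtain ⟨n₁, hn₁⟩ := hy₁.2
          obtain ⟨n₂, hn₂⟩ := hy₂.2
          refine ⟨n₁ + n₂, ?_⟩
          have e₁ : r ^ (n₁ + n₂) • y₁ = 0 := by
            rw [_root_.pow_add, mul_comm, mul_smul, hn₁, smul_zero]
          have e₂ : r ^ (n₁ + n₂) • y₂ = 0 := by
            rw [_root_.pow_add, mul_smul, hn₂, smul_zero]
          rw [smul_sub, e₁, e₂, sub_zero]
        · rw [map_sub, h12, sub_self]
      exact sub_eq_zero.mp h0
  choose! e he using fun (y : J) (hy : y ∈ T) => hy.2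
  refine ⟨hTfin.toFinset.sup e, fun y hfix htors => ?_⟩
  have hyT : y ∈ T := ⟨hfix, htors⟩
  exact pow_smul_eq_zero_of_le (Finset.le_sup (f := e) (hTfin.mem_toFinset.mpr hyT)) (he y hyT)

/-- `TorsBddAbs` descends along an equivariant homomorphism injective on `r`-power torsion -/
theorem finred_torsBdd_of_levelUp (D : Subgroup G) (r : ℕ) (ψ : J →+ J')
    (hequiv : ∀ (σ : G) (x : J), ψ (σ • x) = σ • ψ x)
    (hinj : ∀ x : J, (∃ n : ℕ, r ^ n • x = 0) → ψ x = 0 → x = 0)
    (h : TorsBddAbs J' D r) : TorsBddAbs J D r := by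
  obtain ⟨k₀, hk₀⟩ := h
  refine ⟨k₀, fun y hfix htors => ?_⟩
  obtain ⟨n, hn⟩ := htors
  apply hinj
  · exact ⟨n, by rw [smul_comm, hn, smul_zero]⟩
  · rw [map_nsmul]
    exact hk₀ (ψ y) (fun σ hσ => by rw [← hequiv, hfix σ hσ])
      ⟨n, by rw [← map_nsmul, hn, map_zero]⟩

end Abstract

/-! ## 2. The residue side `F̄` -/

section ResSide

/-- `j̄` has a pole (at the cusp `∞` of `F̄`) -/
theorem finred_exists_pole (k : Type*) [Field k] (N : ℕ) [NeZero N] :
    ∃ P : Place k ↥(modularFunctionFieldFullC k N),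
      P.ord (⟨jqModC k, jqModC_mem_full k N⟩ : ↥(modularFunctionFieldFullC k N)) < 0 := by
  obtain ⟨w, -, hnn, -⟩ := Fermat.Agent.S18.exists_cuspPlace (Fermat.Agent.S18.exists_pole_Fk k N)
  refine ⟨w, ?_⟩
  have hj0 : (⟨jqModC k, jqModC_mem_full k N⟩ : ↥(modularFunctionFieldFullC k N)) ≠ 0 := by
    intro h
    exact jqModC_ne_zero_of_nontrivial k (congrArg Subtype.val h)
  by_contra h
  have h1 := (hnn _ hj0).mp (not_lt.mp h) (-1) (by norm_num)
  simp only at h1
  rw [coeff_jqModC_neg_one] at h1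
  exact one_ne_zero h1

variable (N : ℕ) [NeZero N] (A : ValuationSubring Kb)

/-- the coefficientwise Frobenius fixes `j̄` -/
theorem finred_frob_resJ {ℓ : ℕ} (hℓ : ℓ.Prime) (hA : A.LiesOverPrime ℓ) :
    prFrobA N A hℓ hA •
        (⟨jqModC (kA A), jqModC_mem_full (kA A) N⟩ : ↥(modularFunctionFieldFullC (kA A) N)) =
      ⟨jqModC (kA A), jqModC_mem_full (kA A) N⟩ := by
  haveI : Fact ℓ.Prime := ⟨hℓ⟩
  haveI : CharP (kA A) ℓ := kron_charP_residueField hℓ hA
  apply Subtype.ext
  apply HahnSeries.ext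
  funext n
  rw [prFrobA_smul_coeff]
  show (jqModC (kA A)).coeff n ^ ℓ = (jqModC (kA A)).coeff n
  rw [coeff_jqModC_eq_intCast, ← frobenius_def, map_intCast]

/-- **finitely many Frobenius-fixed classes** in `Pic⁰(F̄)` -/
theorem finred_fixed_classes_finite {ℓ : ℕ} (hℓ : ℓ.Prime) (hA : A.LiesOverPrime ℓ) (g : ℕ)
    (hlow : GPRiemannLower (kA A) ↥(modularFunctionFieldFullC (kA A) N) g) :
    {c : JZeroC (kA A) N | prFrobA N A hℓ hA • c = c}.Finite := by
  haveI := modHyp_isAlgClosed A
  haveI := modHyp_hpdk N A hℓ hA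
  haveI : Fact ℓ.Prime := ⟨hℓ⟩
  haveI : CharP (kA A) ℓ := kron_charP_residueField hℓ hA
  exact s15red_fixed_classes_finite (modHyp_hresk N A) g hlow (prFrobA N A hℓ hA) ℓ hℓ.two_le
    (CharP.cast_eq_zero (kA A) ℓ) (baseAut_prFrobA_apply N A hℓ hA) (finred_frob_resJ N A hℓ hA)
    (finred_exists_pole (kA A) N)

end ResSide

/-! ## 3. The interface to the reduction package and the bounded exponent -/

section Main

variable (N : ℕ) [NeZero N] (A : ValuationSubring Kb)

/-- What FINRED needs from the reduction at `(N, A)`, `A` over `ℓ`: a reduction map on classes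
which is Frobenius-equivariant and injective on torsion prime to `ℓ`, and Riemann's inequality on
the residue side. -/
def HasRedFrob (ℓ : ℕ) : Prop :=
  ∃ (hℓ : ℓ.Prime) (hA : A.LiesOverPrime ℓ) (g : ℕ) (sp : JZero N →+ JZeroC (kA A) N),
    GPRiemannLower (kA A) ↥(modularFunctionFieldFullC (kA A) N) g ∧
    (∀ φ : Kb ≃ₐ[ℚ] Kb, A.IsFrobeniusAt φ ℓ →
      ∀ x : JZero N, sp (φ • x) = prFrobA N A hℓ hA • sp x) ∧
    (∀ m : ℕ, ¬ ℓ ∣ m → ∀ x : JZero N, m • x = 0 → sp x = 0 → x = 0)

/-- **FINRED at `(N, A)`** from the reduction package. -/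
theorem finred_torsBdd_of_hasRedFrob {ℓ : ℕ} (h : HasRedFrob N A ℓ) (r : ℕ) (hr : r.Prime)
    (hrℓ : r ≠ ℓ) : TorsBddAbs (JZero N) (A.decompositionSubgroup ℚ) r := by
  obtain ⟨hℓ, hA, g, sp, hlow, hfrob, hinj⟩ := h
  obtain ⟨φ, hφ⟩ := Fermat.Agent.Common.exists_isFrobeniusAt_of_liesOverPrime ℓ hℓ A hA
  refine finred_torsBdd_of_red (A.decompositionSubgroup ℚ) r sp
    (fun c => prFrobA N A hℓ hA • c) φ hφ.mem_decompositionSubgroup (hfrob φ hφ) ?_
    (finred_fixed_classes_finite N A hℓ hA g hlow)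
  rintro x ⟨n, hn⟩ hx
  refine hinj (r ^ n) ?_ x hn hx
  intro hd
  exact hrℓ ((Nat.prime_dvd_prime_iff_eq hℓ hr).mp (hℓ.dvd_of_dvd_pow hd)).symm

end Main

end Fermat.Agent.S15
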