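import Fermat.Agent.S15.ModFrickeLaurent
import Fermat.Agent.ES.RiemannRat

/-!
# S15 / MOD-FRICKE : assembly (helper71)

`stmtModFricke : StmtModFricke` : the Fricke products `Π_t` exist in `F_N` and are rational;
`StmtModFricke0` is proved in `ModFricke0.lean`: `Π₀ ∈ ℤ[1/N][[q]]` with constant term `± N⁻²`,
poles over `j = 1728`, a zero at the cusp `0`.

Design: `NOTES/S15-MODFRICKE.md`.
-/

set_option autoImplicit false
set_option linter.unusedSectionVars false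
set_option linter.unusedVariables false
set_option linter.style.longLine false
set_option linter.unusedSimpArgs false

noncomputable section

namespace Fermat.Agent.S15

open UpperHalfPlane PeriodPair Complex Filter Topology ModularForm EisensteinSeries ModularCurve
open AlgebraicCurve
open Fermat.Agent.S23 Fermat.Agent.S24 Fermat.Agent.S28 Fermat.Agent.ES.I2 Fermat.Agent.INJ.HM
open Fermat.Agent.ES.M Fermat.Agent.W1
open scoped Real MatrixGroups Manifold

attribute [local instance] algKbC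

local notation "Δ" => ModularForm.discriminant

/-! ### The `q`-expansion of `Π_t` over a field -/

/-- `N^{-2(N-1)} Y` as a Laurent series over `K` -/
def mfrYL (K : Type*) [Field K] (N : ℕ) (Y : PowerSeries ℤ) : LaurentSeries K :=
  HahnSeries.C (((N : K) ^ (2 * (N - 1)))⁻¹) *
    HahnSeries.ofPowerSeries ℤ K (Y.map (Int.castRingHom K))

theorem mfr_coeffMap_YL {K L : Type*} [Field K] [Field L] (ι : K →+* L) (N : ℕ)
    (Y : PowerSeries ℤ) : coeffMap ι (mfrYL K N Y) = mfrYL L N Y := by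
  rw [mfrYL, mfrYL, map_mul, coeffMap_ofPowerSeries, HahnSeries.C_apply, coeffMap_single,
    HahnSeries.C_apply]
  congr 2
  · rw [map_inv₀, map_pow, map_natCast]
  · ext n
    simp

/-- the same series as a power series over `ℚ` -/
def mfrYQ (N : ℕ) (Y : PowerSeries ℤ) : PowerSeries ℚ :=
  PowerSeries.C (((N : ℚ) ^ (2 * (N - 1)))⁻¹) * Y.map (Int.castRingHom ℚ)

theorem mfr_ofPowerSeries_YQ (N : ℕ) (Y : PowerSeries ℤ) :
    HahnSeries.ofPowerSeries ℤ ℚ (mfrYQ N Y) = mfrYL ℚ N Y := by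
  rw [mfrYQ, mfrYL, map_mul, HahnSeries.ofPowerSeries_C]

theorem mfr_coeff_YQ (N : ℕ) (Y : PowerSeries ℤ) (n : ℕ) :
    PowerSeries.coeff n (mfrYQ N Y) = ((N : ℚ) ^ (2 * (N - 1)))⁻¹ * (PowerSeries.coeff n Y : ℤ) := by
  rw [mfrYQ, PowerSeries.coeff_C_mul, PowerSeries.coeff_map]
  rfl

theorem mfr_YL_mul (N : ℕ) [NeZero N] (Y : PowerSeries ℤ) (a b : LaurentSeries ℂ)
    (h : HahnSeries.C ((N : ℂ) ^ (2 * (N - 1))) * a = HahnSeries.ofPowerSeries ℤ ℂ (hmC Y) * b) :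
    mfrYL ℂ N Y * b = a := by
  have hN : ((N : ℂ) ^ (2 * (N - 1))) ≠ 0 := pow_ne_zero _ (Nat.cast_ne_zero.2 (NeZero.ne N))
  have hC : (HahnSeries.C (((N : ℂ) ^ (2 * (N - 1)))⁻¹) : LaurentSeries ℂ) *
      HahnSeries.C ((N : ℂ) ^ (2 * (N - 1))) = 1 := by
    rw [← map_mul, inv_mul_cancel₀ hN, map_one]
  rw [mfrYL, mul_assoc]
  show _ * (HahnSeries.ofPowerSeries ℤ ℂ (hmC Y) * b) = a
  rw [← h, ← mul_assoc, hC, one_mul]

/-! ### Existence -/

/-- the Fricke product `Π_t` as an element of `F_N`, with its `q`-expansion -/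
theorem mfr_exists (N : ℕ) [NeZero N] (hN : N.Prime) (t : ℤ) :
    ∃ (Y : PowerSeries ℤ) (f : FF N), (f : LaurentSeries Kb) = mfrYL Kb N Y ∧
      coeffMap embC (f : LaurentSeries Kb) * laurentOf (mfrBf N) = laurentOf (mfrA N (t : ℂ)) ∧
      (t = 0 → PowerSeries.constantCoeff Y ^ 2 = ((N : ℤ) ^ (2 * (N - 2))) ^ 2) := by
  obtain ⟨Y, hY, hY0⟩ := mfr_laurent N hN t
  have h1 : coeffMap embC (mfrYL Kb N Y) * laurentOf (mfrBf N) = laurentOf (mfrA N (t : ℂ)) := by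
    rw [mfr_coeffMap_YL]
    exact mfr_YL_mul N Y _ _ hY
  have hmem : mfrYL Kb N Y ∈ modularFunctionFieldBar N := by
    apply Fermat.Agent.ES.DescentInj.mem_laurentBaseChange_of_coeffMap_mem (K := Kb) (L := ℂ)
    apply Fermat.Agent.ES.R.fullC_le_laurentBaseChange ℂ N
    exact Fermat.Agent.ES.RC.rc_mem_full_of_frac N (isModFun_mfrA N hN t) (isModFun_mfrBf N)
      (mfr_laurentOf_B_ne_zero N) h1
  exact ⟨Y, ⟨mfrYL Kb N Y, hmem⟩, rfl, h1, hY0⟩

theorem mfr_isFrickeProd (N : ℕ) [NeZero N] (hN : N.Prime) (t : ℤ) (f : FF N)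
    (h : coeffMap embC (f : LaurentSeries Kb) * laurentOf (mfrBf N) = laurentOf (mfrA N (t : ℂ))) :
    IsFrickeProd N t f :=
  ⟨⟨mfrA N (t : ℂ), isModFun_mfrA N hN t⟩, ⟨mfrBf N, isModFun_mfrBf N⟩, h,
    fun τ hτ => mfrA_eq N (t : ℂ) τ hτ⟩

/-- **MOD-FRICKE (a).** -/
theorem stmtModFricke : StmtModFricke := by
  intro N _ hN t
  obtain ⟨Y, f, hf, h1, -⟩ := mfr_exists N hN t
  refine ⟨f, mfr_isFrickeProd N hN t f h1, fun σ => ?_⟩
  apply Subtype.ext
  rw [coe_galAct_smul, hf, mfr_coeffMap_YL]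

end Fermat.Agent.S15
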