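import Fermat.Agent.S15.ModPlan

/-!
# S15 / MOD-FRICKE — sub-pieces (owner of MOD-FRICKE: helper71)

`IsAnalyticOn N f φ` (ModPlan): `f = a / b` with `a, b ∈ modFunAlg N`, `b ≠ 0` and `a = φ b` where
`g₃ ≠ 0`.  General facts about it, independent of the Fricke products:

| piece | Prop | file |
|---|---|---|
| FR-UNIQ | `StmtFrUniq` : `f` is determined by `φ` | `S15/ModFrUniq.lean` |
| FR-WN | `StmtFrWN` : `w_N f = (a ∘ w_N) / (b ∘ w_N)` | `S15/ModFrWN.lean` |
| FR-INT | `StmtFrInt` : a holomorphic modular function has its poles at the cusps | `S15/ModFrInt.lean` |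
| FR-RAT | `StmtFrRat` : the norm of Tate's series from `ℚ(ζ_N)` is rational, `N`-integral | `S15/ModFrRat.lean` |
-/

set_option autoImplicit false
set_option linter.unusedSectionVars false

noncomputable section

namespace Fermat.Agent.S15

open UpperHalfPlane AlgebraicCurve ModularCurve
open Fermat.Agent.S24 Fermat.Agent.S28 Fermat.Agent.ES.M
open scoped MatrixGroups

/-- **FR-UNIQ.** An element of `F_N` is determined by its analytic function. -/
def StmtFrUniq : Prop :=
  ∀ (N : ℕ) [NeZero N] (f f' : FF N) (φ : ℍ → ℂ),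
    IsAnalyticOn N f φ → IsAnalyticOn N f' φ → f = f'

/-- **FR-WN.** The Fricke involution of `F_N` is the substitution `τ ↦ -1/(Nτ)`. -/
def StmtFrWN : Prop :=
  ∀ (N : ℕ) [NeZero N] (f : FF N) (a b : ℍ → ℂ), IsModFun N a → IsModFun N b →
    ModularCurve.coeffMap embC (f : LaurentSeries Kb) * laurentOf b = laurentOf a →
      IsModFun N (fun τ => a (fricke N τ)) ∧ IsModFun N (fun τ => b (fricke N τ)) ∧
        ModularCurve.coeffMap embC ((frickeAut N f : FF N) : LaurentSeries Kb) *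
            laurentOf (fun τ => b (fricke N τ)) = laurentOf (fun τ => a (fricke N τ))

/-- **FR-INT.** An element of `F_N` which is a holomorphic modular function has poles only at
the cusps. -/
def StmtFrInt : Prop :=
  ∀ (N : ℕ) [NeZero N] (f : FF N) (a : ℍ → ℂ), IsModFun N a →
    ModularCurve.coeffMap embC (f : LaurentSeries Kb) = laurentOf a → PolesAtCusps N f

/-- Tate's series without its constant `1/12`, at `u ≠ 1`, `|u| = 1`:
`u/(1-u)² + ∑_{e ≥ 1} (∑_{m ∣ e} m (u^m + u^{-m} - 2)) q^e`. -/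
def mfrSeries (u : ℂ) : PowerSeries ℂ :=
  PowerSeries.mk fun e =>
    if e = 0 then u / (1 - u) ^ 2
    else ∑ m ∈ e.divisors, (m : ℂ) * (u ^ m + (u⁻¹) ^ m - 2)

/-- **FR-RAT.** For `A, B ∈ ℤ[[q]]` the product `N^{2(N-1)} ∏_{k=1}^{N-1} (A + B · S(ζ_N^k))`
(`S = mfrSeries`) lies in `ℤ[[q]]`; if `A(0) = 0` and `B(0) = 1` its constant term is
`± N^{2(N-2)}`. -/
def StmtFrRat : Prop :=
  ∀ (N : ℕ), N.Prime → ∀ A B : PowerSeries ℤ,
    ∃ Y : PowerSeries ℤ,
      Y.map (Int.castRingHom ℂ) =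
        PowerSeries.C ((N : ℂ) ^ (2 * (N - 1))) *
          ∏ k ∈ Finset.Ico 1 N,
            (A.map (Int.castRingHom ℂ) + B.map (Int.castRingHom ℂ) *
              mfrSeries (Complex.exp (2 * Real.pi * Complex.I * ((k : ℂ) / (N : ℂ))))) ∧
      (PowerSeries.constantCoeff A = 0 → PowerSeries.constantCoeff B = 1 →
        PowerSeries.constantCoeff Y ^ 2 = ((N : ℤ) ^ (2 * (N - 2))) ^ 2)

end Fermat.Agent.S15
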