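import Fermat.Agent.S15.ModPlaceVal
import Fermat.Agent.S15.ModFrickePlan

/-!
# S15 / MOD-FRICKE, piece FR-INT (helper8)

`stmtFrInt : StmtFrInt` : an element `f ∈ F_N` whose `q`-expansion is the `q`-expansion of a
holomorphic modular function `a` of level `N` has its poles at the cusps
(`PolesAtCusps N f` : `0 ≤ ord_P j → 0 ≤ ord_P f`).

Route (MOD-PLACE): a place `P` with `0 ≤ ord_P j` lies over `j = j₀` for some `j₀ ∈ ℚ̄`
(`modVal`); `j₀ = J(τ)` (`Jfun_surjective`), so `P` is the place at `γ • τ` (`modplace_fibre`), and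
at the place at `τ'` the order of `f = a / b` (`b τ' ≠ 0`) is `e · ord_{τ'} a ≥ 0`
(`mfrint_ord_nonneg`).
-/

set_option autoImplicit false
set_option linter.unusedSectionVars false
set_option linter.style.haveILetI false

noncomputable section

open UpperHalfPlane AlgebraicCurve ModularCurve IntermediateField
open scoped MatrixGroups Manifold

namespace Fermat.Agent.S15

open Fermat.Agent.S24 Fermat.Agent.S28 Fermat.Agent.S23 Fermat.Agent.ES.RC Fermat.Agent.W1
open Fermat.Agent.ES.G2 Fermat.Agent.ES.M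

attribute [local instance] algKbC

variable {N : ℕ} [NeZero N]

/-- **regularity.**  `f = a / b` with `a`, `b` holomorphic modular functions of level `N` and
`b τ₀ ≠ 0` is regular at the place at `τ₀`. -/
theorem mfrint_ord_nonneg {τ₀ : ℍ} {c₀ : Kb} (h : Jfun τ₀ = embC c₀) {f : FF N}
    {a b : ℍ → ℂ} (ha : IsModFun N a) (hb : IsModFun N b)
    (hab : coeffMap embC (f : LaurentSeries Kb) * laurentOf b = laurentOf a)
    (hb0 : b τ₀ ≠ 0) : 0 ≤ (modPlace N τ₀ c₀ h).ord f := by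
  rcases eq_or_ne f 0 with h0 | h0
  · rw [h0, Place.ord_zero]
  obtain ⟨P, Q, hQ, hPQ⟩ := modplace_exists_rep N f
  have key := modplace_bridge hPQ ha hb hab
  have hP0 : MvPolynomial.aeval (jFfam N) P ≠ 0 := by
    rw [← hPQ]
    exact mul_ne_zero h0 hQ
  set A : Ban N := MvPolynomial.aeval (JdBanfam N) P with hA
  set B : Ban N := MvPolynomial.aeval (JdBanfam N) Q with hB
  have hAM : algebraMap (Ban N) (Man N) A ≠ 0 := by
    rw [← modplace_phi_aeval]
    exact (map_ne_zero (phi N)).2 hP0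
  have hBM : algebraMap (Ban N) (Man N) B ≠ 0 := by
    rw [← modplace_phi_aeval]
    exact (map_ne_zero (phi N)).2 hQ
  have hA0 : A ≠ 0 := fun h1 => hAM (by rw [h1, map_zero])
  have hB0 : B ≠ 0 := fun h1 => hBM (by rw [h1, map_zero])
  have hphi : phi N f = algebraMap (Ban N) (Man N) A / algebraMap (Ban N) (Man N) B := by
    rw [eq_div_iff hBM, ← modplace_phi_aeval, ← modplace_phi_aeval, ← map_mul, hPQ]
  have hf0 : phi N f ≠ 0 := (map_ne_zero (phi N)).2 h0
  rw [modPlace_ord_nonneg_iff, modPlaceMan_ord_nonneg_iff h hf0, hphi, vord_valMan_div τ₀ hA0 hB0]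
  have hAd : MDiff (A : ℍ → ℂ) := mdifferentiable_of_mem_Ban A.2
  have hBd : MDiff (B : ℍ → ℂ) := mdifferentiable_of_mem_Ban B.2
  have hbd : MDiff b := rc_mdiff_of_isModFun hb
  have had : MDiff a := rc_mdiff_of_isModFun ha
  have hkey : (A : ℍ → ℂ) * b = a * (B : ℍ → ℂ) := by
    rw [hA, hB, modplace_coe_aeval_JdBanfam, modplace_coe_aeval_JdBanfam]
    exact key
  have hord := congrArg (ordAt τ₀) hkey
  rw [ordAt_mul hAd hbd, ordAt_mul had hBd, modplace_ordAt_eq_zero hbd hb0, add_zero] at hord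
  have hA1 := coe_ordBan τ₀ hA0
  have hB1 := coe_ordBan τ₀ hB0
  rw [← hA1, ← hB1] at hord
  have h2 : ((ordBan N τ₀ B : ℕ) : ℕ∞) ≤ (ordBan N τ₀ A : ℕ) := by
    rw [hord]
    exact le_add_self
  have h3 : ordBan N τ₀ B ≤ ordBan N τ₀ A := by exact_mod_cast h2
  omega

/-- every place of `F_N` at which `j` is regular is the place at some point of `ℍ` -/
theorem mfrint_exists_point (P : Place Kb (FF N)) (hP : 0 ≤ P.ord (jF N)) :
    ∃ (τ : ℍ) (c₀ : Kb) (h : Jfun τ = embC c₀), P = modPlace N τ c₀ h := by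
  have hmem : jF N ∈ P.toValuationSubring :=
    (PlaceAux.ord_nonneg_iff P (Fermat.Agent.S24.jF_ne_zero N)).1 hP
  set c₀ : Kb := modVal P (jF N) with hc₀
  have hval : HasValueAt P (jF N) c₀ := (modplace_hasValueAt_iff P (jF N) c₀).2 ⟨hmem, rfl⟩
  obtain ⟨τ, hτ⟩ := Jfun_surjective (embC c₀)
  obtain ⟨γ, hγ⟩ := modplace_fibre hτ P ((modplace_hasValueAt_jF_iff P c₀).1 hval)
  exact ⟨γ • τ, c₀, modplace_Jfun_smul hτ γ, hγ⟩

/-- **FR-INT.** -/
theorem stmtFrInt : StmtFrInt := by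
  intro N _ f a ha hfa P hP
  obtain ⟨τ, c₀, h, rfl⟩ := mfrint_exists_point P hP
  have h1 : IsModFun N (fun _ : ℍ => (1 : ℂ)) := isModFun_const N 1
  refine mfrint_ord_nonneg h ha h1 ?_ one_ne_zero
  rw [laurentOf_const, map_one, mul_one, hfa]

end Fermat.Agent.S15
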