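import Fermat.Agent.S15.ModFrickePlan
import Fermat.Agent.S15.ModUnifLat

/-!
# S15 / MOD-FRICKE / FR-UNIQ — `stmtFrUniq : StmtFrUniq` (helper51)

An element of `F_N` is determined by its analytic function on `{g₃ ≠ 0}`: if `f = a / b` and
`f' = a' / b'` with `a = φ b`, `a' = φ b'` where `g₃ ≠ 0`, then `E₆ · (a b' - a' b) = 0` on `ℍ`,
and the Laurent expansion at `i∞` is injective and multiplicative.
-/

set_option autoImplicit false
set_option linter.unusedSectionVars false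

noncomputable section

namespace Fermat.Agent.S15

open UpperHalfPlane AlgebraicCurve ModularCurve ModularForm EisensteinSeries
open Fermat.Agent.S23 Fermat.Agent.S24 Fermat.Agent.S28 Fermat.Agent.ES.M
open scoped MatrixGroups

theorem mfruniq_isHPB_E6 : IsHPB (E₆ : ℍ → ℂ) := by
  have h : IsMF (G0 1) 6 (E₆ : ℍ → ℂ) := IsMF.of_levelOne ⟨E₆, rfl⟩
  exact h.isHPB

theorem mfruniq_g₃_ne_zero_iff (τ : ℍ) : (modLat τ).g₃ ≠ 0 ↔ E₆ τ ≠ 0 := by
  rw [modunif_g₃_tau]
  have hπ : (8 * (Real.pi : ℂ) ^ 6 / 27) ≠ 0 := by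
    have : (Real.pi : ℂ) ≠ 0 := by exact_mod_cast Real.pi_ne_zero
    exact div_ne_zero (mul_ne_zero (by norm_num) (pow_ne_zero _ this)) (by norm_num)
  constructor
  · intro h h0
    exact h (by rw [h0, mul_zero])
  · intro h
    exact mul_ne_zero hπ h

/-- `E₆` is not the zero function: it does not vanish at a zero of `j`. -/
theorem mfruniq_exists_E6_ne_zero : ∃ τ : ℍ, E₆ τ ≠ 0 := by
  by_contra hcon
  push Not at hcon
  have h1 : (qExpansion 1 (E₆ : ℍ → ℂ)) = 0 := by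
    have hf : (E₆ : ℍ → ℂ) = 0 := funext hcon
    exact (qExpansion_eq_zero_iff one_pos mfruniq_isHPB_E6.2.1 mfruniq_isHPB_E6.1
      mfruniq_isHPB_E6.2.2).mpr hf
  have h2 := levelOneInt_E6_eq
  rw [h1] at h2
  have h3 := congrArg (PowerSeries.coeff 0) h2
  have hB : PowerSeries.coeff 0 levelOneInt_B = 0 := by
    rw [levelOneInt_B, PowerSeries.coeff_mk]
    simp
  rw [map_zero, map_sub, PowerSeries.coeff_C_mul, hB, mul_zero, sub_zero,
    PowerSeries.coeff_one, if_pos rfl] at h3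
  exact zero_ne_one h3

theorem stmtFrUniq : StmtFrUniq := by
  intro N _ f f' φ hf hf'
  obtain ⟨a, b, hab, h⟩ := hf
  obtain ⟨a', b', hab', h'⟩ := hf'
  have ma : IsMerInf (a : ℍ → ℂ) := IsModFun.isMerInf a.2
  have mb : IsMerInf (b : ℍ → ℂ) := IsModFun.isMerInf b.2
  have ma' : IsMerInf (a' : ℍ → ℂ) := IsModFun.isMerInf a'.2
  have mb' : IsMerInf (b' : ℍ → ℂ) := IsModFun.isMerInf b'.2
  have mE : IsMerInf (E₆ : ℍ → ℂ) := IsHPB.isMerInf mfruniq_isHPB_E6
  -- the identity of functions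
  have hu : (E₆ : ℍ → ℂ) * ((a : ℍ → ℂ) * (b' : ℍ → ℂ)) =
      (E₆ : ℍ → ℂ) * ((a' : ℍ → ℂ) * (b : ℍ → ℂ)) := by
    funext τ
    simp only [Pi.mul_apply]
    by_cases hτ : E₆ τ = 0
    · rw [hτ, zero_mul, zero_mul]
    · have hg := (mfruniq_g₃_ne_zero_iff τ).2 hτ
      rw [(h τ hg).2, (h' τ hg).2]
      ring
  have hL := congrArg laurentOf hu
  rw [laurentOf_mul mE (ma.mul mb'), laurentOf_mul mE (ma'.mul mb), laurentOf_mul ma mb',
    laurentOf_mul ma' mb] at hL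
  have hE : laurentOf (E₆ : ℍ → ℂ) ≠ 0 := by
    intro h0
    obtain ⟨τ, hτ⟩ := mfruniq_exists_E6_ne_zero
    exact hτ (congrFun ((laurentOf_eq_zero_iff mE).1 h0) τ)
  have key := mul_left_cancel₀ hE hL
  -- `b`, `b'` are not zero
  obtain ⟨τ₁, hτ₁⟩ := mfruniq_exists_E6_ne_zero
  have hg₁ := (mfruniq_g₃_ne_zero_iff τ₁).2 hτ₁
  have hb : laurentOf (b : ℍ → ℂ) ≠ 0 := by
    intro h0
    exact (h τ₁ hg₁).1 (congrFun ((laurentOf_eq_zero_iff mb).1 h0) τ₁)
  have hb' : laurentOf (b' : ℍ → ℂ) ≠ 0 := by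
    intro h0
    exact (h' τ₁ hg₁).1 (congrFun ((laurentOf_eq_zero_iff mb').1 h0) τ₁)
  have hc : ModularCurve.coeffMap embC (f : LaurentSeries Kb) =
      ModularCurve.coeffMap embC (f' : LaurentSeries Kb) := by
    apply mul_right_cancel₀ (mul_ne_zero hb hb')
    calc ModularCurve.coeffMap embC (f : LaurentSeries Kb) *
          (laurentOf (b : ℍ → ℂ) * laurentOf (b' : ℍ → ℂ))
        = laurentOf (a : ℍ → ℂ) * laurentOf (b' : ℍ → ℂ) := by rw [← mul_assoc, hab]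
      _ = laurentOf (a' : ℍ → ℂ) * laurentOf (b : ℍ → ℂ) := key
      _ = ModularCurve.coeffMap embC (f' : LaurentSeries Kb) *
          (laurentOf (b : ℍ → ℂ) * laurentOf (b' : ℍ → ℂ)) := by
        rw [← hab']; ring
  exact Subtype.ext ((ModularCurve.coeffMap embC).injective hc)

end Fermat.Agent.S15
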