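import Fermat.Agent.S15.OggUnit
import Fermat.Agent.S28.ModUnit
import Fermat.Agent.S28.Fricke
import Fermat.Agent.S24.Bridge

/-!
# S15, piece OGG (3): the Fricke involution inverts the modular unit

`ogg_fricke : w_N(u_N) · u_N = N⁻¹²` in `F_N`, where `u_N = Δ(q^N)/Δ(q)`.

Route: write `u_N = P(j_d)/Q(j_d)`; the relation `u_N · Q(j_d) = P(j_d)` between `q`-expansions is
a relation `X(τ) · Q(J(dτ)) = P(J(dτ))` between functions on `ℍ`, `X(τ) = Δ(Nτ)/Δ(τ)` (injectivity
of the Laurent expansion `S28.laurentExp`); substitute `τ ↦ -1/(Nτ)` (`S28.unit_fricke`) and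
multiply: `N⁻¹² · Q(J(dτ)) · Q(J((N/d)τ)) = P(J(dτ)) · P(J((N/d)τ))`; come back to `q`-expansions.
-/

set_option autoImplicit false
set_option linter.style.haveILetI false

noncomputable section

namespace Fermat.Agent.S15

open UpperHalfPlane ModularCurve AlgebraicCurve
open Fermat.Agent.S23 Fermat.Agent.S24 Fermat.Agent.S28 Fermat.Agent.ES.M

attribute [local instance] algKbC

local notation "Δ" => ModularForm.discriminant

theorem ogg_dv_ne_zero {N : ℕ} [NeZero N] (d : Dv N) : d.1 ≠ 0 :=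
  ne_zero_of_dvd_ne_zero (NeZero.ne N) d.2

/-- The function `τ ↦ J(dτ)`, as an element of `merInf`. -/
def oggG (N : ℕ) [NeZero N] (d : Dv N) : merInf :=
  haveI : NeZero d.1 := ⟨ogg_dv_ne_zero d⟩
  ⟨fun z => Jfun (scaleN d.1 z), isMerInf_comp_scaleN d.1 isMerInf_Jfun⟩

/-- The analytic modular unit `Δ(Nτ)/Δ(τ)`, as an element of `merInf`. -/
def oggX (N : ℕ) [NeZero N] : merInf :=
  ⟨fun z => Δ (scaleN N z) / Δ z, (isModFun_unit N).isMerInf⟩

theorem oggX_apply (N : ℕ) [NeZero N] (τ : ℍ) :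
    (oggX N : ℍ → ℂ) τ = Δ (scaleN N τ) / Δ τ := rfl

theorem laurentExp_oggX (N : ℕ) [NeZero N] : laurentExp (oggX N) = uS ℂ N :=
  laurentOf_unit_eq_uS N

theorem ogg_jCd_eq (d : ℕ) [NeZero d] : jCd d = jqNModC ℂ d := by
  rw [jCd, coeffMap_qExpand, ← jqModC_rat, jqNModC]
  congr 1
  exact map_jqModC (algebraMap ℚ ℂ)

theorem laurentExp_oggG (N : ℕ) [NeZero N] (d : Dv N) : laurentExp (oggG N d) = jCfam N d := by
  obtain ⟨d, hd⟩ := d
  haveI : NeZero d := ⟨ogg_dv_ne_zero ⟨d, hd⟩⟩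
  rw [jCfam_eq, ogg_jCd_eq]
  exact laurentOf_Jfun_scaleN d

/-- The Laurent expansion of a polynomial in the `J(dτ)`. -/
theorem laurentExp_aeval_oggG (N : ℕ) [NeZero N] (P : MvPolynomial (Dv N) ℂ) :
    laurentExp (MvPolynomial.aeval (oggG N) P) = MvPolynomial.aeval (jCfam N) P := by
  have h := MvPolynomial.comp_aeval_apply (oggG N) laurentExp P
  rw [h]
  congr 2
  funext d
  exact laurentExp_oggG N d

/-- The values of a polynomial in the `J(dτ)`. -/
theorem ogg_aeval_apply (N : ℕ) [NeZero N] (P : MvPolynomial (Dv N) ℂ) (τ : ℍ) :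
    ((MvPolynomial.aeval (oggG N) P : merInf) : ℍ → ℂ) τ =
      MvPolynomial.aeval (fun d => (oggG N d : ℍ → ℂ) τ) P := by
  have h1 := MvPolynomial.comp_aeval_apply (oggG N) (merInf.val) P
  have h2 := MvPolynomial.comp_aeval_apply (fun d => (oggG N d : ℍ → ℂ))
    (Pi.evalAlgHom ℂ (fun _ : ℍ => ℂ) τ) P
  have h3 : ((MvPolynomial.aeval (oggG N) P : merInf) : ℍ → ℂ) =
      MvPolynomial.aeval (fun d => (oggG N d : ℍ → ℂ)) P := h1
  rw [h3]
  exact h2

/-- The Fricke substitution on the `J(dτ)`. -/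
theorem oggG_fricke (N : ℕ) [NeZero N] (d : Dv N) (τ : ℍ) :
    (oggG N d : ℍ → ℂ) (fricke N τ) = (oggG N (frDv d) : ℍ → ℂ) τ := by
  haveI : NeZero d.1 := ⟨ogg_dv_ne_zero d⟩
  haveI : NeZero (frDv d).1 := ⟨ogg_dv_ne_zero (frDv d)⟩
  show Jfun (scaleN d.1 (fricke N τ)) = Jfun (scaleN (frDv d).1 τ)
  have h := fr_Jdfam d τ
  have h1 : Jdfam N d (fricke N τ) = Jfun (scaleN d.1 (fricke N τ)) :=
    Fermat.Agent.ES.G2.swap_Jd_eq (ogg_dv_ne_zero d) _ _ (coe_scaleN _ _)
  have h2 : Jdfam N (frDv d) τ = Jfun (scaleN (frDv d).1 τ) :=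
    Fermat.Agent.ES.G2.swap_Jd_eq (ogg_dv_ne_zero (frDv d)) _ _ (coe_scaleN _ _)
  rw [← h1, ← h2, h]

/-- The Fricke substitution on the analytic modular unit. -/
theorem oggX_fricke (N : ℕ) [NeZero N] (τ : ℍ) :
    (oggX N : ℍ → ℂ) τ * (oggX N : ℍ → ℂ) (fricke N τ) = ((N : ℂ) ^ 12)⁻¹ := by
  rw [oggX_apply, oggX_apply, unit_fricke]
  have h1 : Δ τ ≠ 0 := ModularForm.discriminant_ne_zero τ
  have h2 : Δ (scaleN N τ) ≠ 0 := ModularForm.discriminant_ne_zero _
  field_simp

/-- The analytic identity behind `ogg_fricke`. -/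
theorem ogg_fricke_analytic (N : ℕ) [NeZero N] (P Q : MvPolynomial (Dv N) ℂ)
    (h : uS ℂ N * MvPolynomial.aeval (jCfam N) Q = MvPolynomial.aeval (jCfam N) P) :
    MvPolynomial.aeval (jCfam N)
      (MvPolynomial.C (((N : ℂ) ^ 12)⁻¹) * (Q * MvPolynomial.rename frDv Q) -
        P * MvPolynomial.rename frDv P) = 0 := by
  -- the relation between functions
  have e1 : oggX N * MvPolynomial.aeval (oggG N) Q = MvPolynomial.aeval (oggG N) P := by
    apply laurentExp_injective
    rw [map_mul, laurentExp_oggX, laurentExp_aeval_oggG, laurentExp_aeval_oggG, h]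
  have e2 : ∀ τ : ℍ, (oggX N : ℍ → ℂ) τ * MvPolynomial.aeval (fun d => (oggG N d : ℍ → ℂ) τ) Q =
      MvPolynomial.aeval (fun d => (oggG N d : ℍ → ℂ) τ) P := by
    intro τ
    have := congrArg (fun f : merInf => (f : ℍ → ℂ) τ) e1
    rw [← ogg_aeval_apply, ← ogg_aeval_apply]
    exact this
  -- the product relation
  rw [← laurentExp_aeval_oggG]
  have e3 : MvPolynomial.aeval (oggG N)
      (MvPolynomial.C (((N : ℂ) ^ 12)⁻¹) * (Q * MvPolynomial.rename frDv Q) -
        P * MvPolynomial.rename frDv P) = 0 := by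
    apply Subtype.ext
    funext τ
    rw [ogg_aeval_apply]
    have hfr : (fun d => (oggG N d : ℍ → ℂ) (fricke N τ)) =
        (fun d => (oggG N d : ℍ → ℂ) τ) ∘ frDv := by
      funext d
      exact oggG_fricke N d τ
    have a1 := e2 τ
    have a2 := e2 (fricke N τ)
    rw [hfr] at a2
    have a3 := oggX_fricke N τ
    simp only [map_sub, map_mul, MvPolynomial.aeval_C, MvPolynomial.aeval_rename]
    show _ = (0 : ℂ)
    rw [← a1, ← a2, Algebra.algebraMap_self, RingHom.id_apply, ← a3]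
    ring
  rw [e3, map_zero]

/-- Polynomials in the generators: from `F_N` to Laurent series. -/
theorem ogg_coe_aeval (N : ℕ) [NeZero N] (P : MvPolynomial (Dv N) Kb) :
    ((MvPolynomial.aeval (jFfam N) P : FF N) : LaurentSeries Kb) =
      MvPolynomial.aeval (jBfam N) P :=
  MvPolynomial.comp_aeval_apply (jFfam N) (IntermediateField.val (modularFunctionFieldBar N)) P

/-- The Fricke involution on polynomials in the generators. -/
theorem ogg_fricke_aeval (N : ℕ) [NeZero N] (P : MvPolynomial (Dv N) Kb) :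
    frickeAut N (MvPolynomial.aeval (jFfam N) P) =
      MvPolynomial.aeval (jFfam N) (MvPolynomial.rename frDv P) := by
  rw [MvPolynomial.aeval_rename]
  have h := MvPolynomial.comp_aeval_apply (jFfam N) ((frickeAut N : FF N ≃ₐ[Kb] FF N) :
    FF N →ₐ[Kb] FF N) P
  refine h.trans ?_
  congr 2
  funext d
  exact frickeHom_jFfam N d

/-- **The Fricke involution inverts the modular unit**: `w_N(u_N) · u_N = N⁻¹²`. -/
theorem ogg_fricke (N : ℕ) [NeZero N] :
    frickeAut N (oggU N) * oggU N = algebraMap Kb (FF N) (((N : Kb) ^ 12)⁻¹) := by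
  -- write `u = r / s`
  have hu' : ((oggU N : FF N) : LaurentSeries Kb) ∈
      IntermediateField.adjoin Kb (Set.range (jBfam N)) := by
    rw [← br_modularFunctionFieldBar_eq_adjoin]; exact (oggU N).2
  obtain ⟨P, Q, hPQ⟩ := (IntermediateField.mem_adjoin_range_iff Kb _ _).1 hu'
  have hQ0 : MvPolynomial.aeval (jBfam N) Q ≠ 0 := by
    intro h
    rw [h, div_zero] at hPQ
    exact uS_ne_zero N Kb hPQ
  have h1 : uS Kb N * MvPolynomial.aeval (jBfam N) Q = MvPolynomial.aeval (jBfam N) P := by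
    rw [← coe_oggU, hPQ, div_mul_cancel₀ _ hQ0]
  -- to `ℂ`
  have h2 : uS ℂ N * MvPolynomial.aeval (jCfam N) (MvPolynomial.map embC Q) =
      MvPolynomial.aeval (jCfam N) (MvPolynomial.map embC P) := by
    rw [← br_coeffMap_aeval_jBfam, ← br_coeffMap_aeval_jBfam, ← h1, map_mul, coeffMap_uS]
  have h3 := ogg_fricke_analytic N _ _ h2
  -- back to `ℚ̄`
  have hR : MvPolynomial.map embC
      (MvPolynomial.C (((N : Kb) ^ 12)⁻¹) * (Q * MvPolynomial.rename frDv Q) -
        P * MvPolynomial.rename frDv P) =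
      MvPolynomial.C (((N : ℂ) ^ 12)⁻¹) * (MvPolynomial.map embC Q *
        MvPolynomial.rename frDv (MvPolynomial.map embC Q)) -
          MvPolynomial.map embC P * MvPolynomial.rename frDv (MvPolynomial.map embC P) := by
    simp only [map_sub, map_mul, MvPolynomial.map_C, MvPolynomial.map_rename, map_inv₀, map_pow,
      map_natCast]
  have h4 : MvPolynomial.aeval (jBfam N)
      (MvPolynomial.C (((N : Kb) ^ 12)⁻¹) * (Q * MvPolynomial.rename frDv Q) -
        P * MvPolynomial.rename frDv P) = 0 := by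
    apply br_coeffMap_embC_injective
    rw [br_coeffMap_aeval_jBfam, hR, h3, map_zero]
  -- in `F_N`
  have hxs : oggU N * MvPolynomial.aeval (jFfam N) Q = MvPolynomial.aeval (jFfam N) P := by
    apply Subtype.ext
    have : ((oggU N * MvPolynomial.aeval (jFfam N) Q : FF N) : LaurentSeries Kb) =
        (oggU N : LaurentSeries Kb) * ((MvPolynomial.aeval (jFfam N) Q : FF N) :
          LaurentSeries Kb) := rfl
    rw [this, ogg_coe_aeval, ogg_coe_aeval, coe_oggU]
    exact h1
  have hs0 : MvPolynomial.aeval (jFfam N) Q ≠ 0 := by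
    intro h
    apply hQ0
    rw [← ogg_coe_aeval, h]
    rfl
  have hws0 : frickeAut N (MvPolynomial.aeval (jFfam N) Q) ≠ 0 :=
    (map_ne_zero (frickeAut N)).mpr hs0
  have h5 : algebraMap Kb (FF N) (((N : Kb) ^ 12)⁻¹) *
      (MvPolynomial.aeval (jFfam N) Q * frickeAut N (MvPolynomial.aeval (jFfam N) Q)) =
        MvPolynomial.aeval (jFfam N) P * frickeAut N (MvPolynomial.aeval (jFfam N) P) := by
    apply Subtype.ext
    rw [← ogg_coe_aeval] at h4
    have h6 := Subtype.ext (a1 := MvPolynomial.aeval (jFfam N)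
      (MvPolynomial.C (((N : Kb) ^ 12)⁻¹) * (Q * MvPolynomial.rename frDv Q) -
        P * MvPolynomial.rename frDv P)) (a2 := (0 : FF N)) h4
    rw [map_sub, map_mul, map_mul, map_mul, MvPolynomial.aeval_C, ← ogg_fricke_aeval,
      ← ogg_fricke_aeval, sub_eq_zero] at h6
    rw [h6]
  have h7 : frickeAut N (oggU N) * frickeAut N (MvPolynomial.aeval (jFfam N) Q) =
      frickeAut N (MvPolynomial.aeval (jFfam N) P) := by
    rw [← map_mul, hxs]
  apply mul_right_cancel₀ (mul_ne_zero hs0 hws0)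
  calc frickeAut N (oggU N) * oggU N *
        (MvPolynomial.aeval (jFfam N) Q * frickeAut N (MvPolynomial.aeval (jFfam N) Q))
      = (oggU N * MvPolynomial.aeval (jFfam N) Q) *
          (frickeAut N (oggU N) * frickeAut N (MvPolynomial.aeval (jFfam N) Q)) := by ring
    _ = MvPolynomial.aeval (jFfam N) P * frickeAut N (MvPolynomial.aeval (jFfam N) P) := by
        rw [hxs, h7]
    _ = _ := h5.symm

end Fermat.Agent.S15
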