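import Fermat.Agent.S15.ModPlaceVal
import Fermat.Agent.S15.ModFrickePlan
import Fermat.Agent.S15.OggFricke
import Fermat.Agent.S28.Fricke
import Fermat.Agent.S28.ScaleForm

/-!
# S15 / MOD-FRICKE, piece FR-WN (helper8)

`stmtFrWN : StmtFrWN` : the Fricke involution `w_N = frickeAut N` of `F_N` is the substitution
`τ ↦ -1/(Nτ)`: if `f = a / b` with `a`, `b` holomorphic modular functions of level `N`, then
`a ∘ w_N`, `b ∘ w_N` are again holomorphic modular functions of level `N` and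
`w_N f = (a ∘ w_N) / (b ∘ w_N)`.

* `mfrwnW N` : the matrix `[[0, -1], [N, 0]]` of `GL(2, ℝ)`; `mfrwn_smul`, `mfrwn_slash`;
  `mfrwn_le : Γ₀(N) ≤ W⁻¹ Γ₀(N) W`.
* `mfrwn_isMF` : the Fricke operator `G ↦ G ∣[k] W` on modular forms of level `Γ₀(N)`
  (Mathlib's `ModularForm.translate`).
* `mfrwn_isModFun` : `a ∘ w_N` is a modular function if `a` is
  (`a(wτ) = N^{1-12m} · (G∣W)(τ)/Δ(τ)^m · (Δ(τ)/Δ(Nτ))^m` for `G = a Δ^m`).
* `stmtFrWN` : write `f = P(j_d)/Q(j_d)`; `w_N` permutes the generators as the substitution does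
  (`ogg_fricke_aeval`, `fr_Jdfam`), and `P(J_d) b = a Q(J_d)` on `ℍ` (`modplace_bridge`).
-/

set_option autoImplicit false
set_option linter.unusedSectionVars false

noncomputable section

namespace Fermat.Agent.S15

open UpperHalfPlane ModularForm SlashInvariantForm AlgebraicCurve ModularCurve
open Fermat.Agent.S23 Fermat.Agent.S24 Fermat.Agent.S28 Fermat.Agent.ES.M
open scoped MatrixGroups ModularForm Manifold Topology

attribute [local instance] algKbC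

local notation "Δ" => ModularForm.discriminant

/-! ### The Fricke matrix -/

/-- The Fricke matrix `[[0, -1], [N, 0]]`. -/
def mfrwnW (N : ℕ) [NeZero N] : GL (Fin 2) ℝ :=
  Matrix.GeneralLinearGroup.mkOfDetNeZero !![0, -1; (N : ℝ), 0] (by
    rw [Matrix.det_fin_two_of]
    have : (N : ℝ) ≠ 0 := by exact_mod_cast NeZero.ne N
    simpa using this)

theorem mfrwnW_coe (N : ℕ) [NeZero N] :
    ((mfrwnW N : GL (Fin 2) ℝ) : Matrix (Fin 2) (Fin 2) ℝ) = !![0, -1; (N : ℝ), 0] := rfl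

theorem mfrwnW_det (N : ℕ) [NeZero N] : (mfrwnW N).det.val = (N : ℝ) := by
  show Matrix.det ((mfrwnW N : GL (Fin 2) ℝ) : Matrix (Fin 2) (Fin 2) ℝ) = N
  rw [mfrwnW_coe, Matrix.det_fin_two_of]
  simp

theorem mfrwnW_det_pos (N : ℕ) [NeZero N] : 0 < (mfrwnW N).det.val := by
  rw [mfrwnW_det]
  exact_mod_cast Nat.pos_of_ne_zero (NeZero.ne N)

theorem mfrwn_sigma (N : ℕ) [NeZero N] (z : ℂ) : σ (mfrwnW N) z = z := by
  rw [σ, if_pos (mfrwnW_det_pos N)]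
  rfl

theorem mfrwn_denom (N : ℕ) [NeZero N] (z : ℂ) : denom (mfrwnW N) z = (N : ℂ) * z := by
  rw [denom]
  have h1 : (mfrwnW N : GL (Fin 2) ℝ) 1 0 = (N : ℝ) := rfl
  have h2 : (mfrwnW N : GL (Fin 2) ℝ) 1 1 = 0 := rfl
  rw [h1, h2]
  simp

theorem mfrwn_num (N : ℕ) [NeZero N] (z : ℂ) : num (mfrwnW N) z = -1 := by
  rw [num]
  have h1 : (mfrwnW N : GL (Fin 2) ℝ) 0 0 = 0 := rfl
  have h2 : (mfrwnW N : GL (Fin 2) ℝ) 0 1 = -1 := rfl
  rw [h1, h2]
  simp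

theorem mfrwn_smul (N : ℕ) [NeZero N] (τ : ℍ) : mfrwnW N • τ = fricke N τ := by
  apply UpperHalfPlane.ext
  rw [coe_smul_of_det_pos (mfrwnW_det_pos N), mfrwn_num, mfrwn_denom, coe_fricke]
  have hN : (N : ℂ) ≠ 0 := by exact_mod_cast NeZero.ne N
  have hτ : (τ : ℂ) ≠ 0 := UpperHalfPlane.ne_zero τ
  field_simp

/-- the slash action of the Fricke matrix -/
theorem mfrwn_slash (N : ℕ) [NeZero N] (k : ℤ) (G : ℍ → ℂ) (τ : ℍ) :
    (G ∣[k] mfrwnW N) τ = G (fricke N τ) * (N : ℂ) ^ (k - 1) * ((N : ℂ) * τ) ^ (-k) := by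
  rw [ModularForm.slash_apply, mfrwn_sigma, mfrwn_smul, mfrwn_denom, mfrwnW_det]
  congr 2
  have : |(N : ℝ)| = N := abs_of_nonneg (Nat.cast_nonneg N)
  rw [this]
  simp

/-- the companion `γ' = W γ W⁻¹` of `γ ∈ Γ₀(N)` -/
def mfrwnComp (N : ℕ) (γ : SL(2, ℤ)) (c' : ℤ) (hc' : γ 1 0 = (N : ℤ) * c') : SL(2, ℤ) :=
  ⟨!![γ 1 1, -c'; -(N : ℤ) * γ 0 1, γ 0 0], by
    have hdet := γ.det_coe
    rw [Matrix.det_fin_two] at hdet
    rw [Matrix.det_fin_two_of]
    rw [hc'] at hdet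
    linear_combination hdet⟩

theorem mfrwnComp_mem (N : ℕ) (γ : SL(2, ℤ)) (c' : ℤ) (hc' : γ 1 0 = (N : ℤ) * c') :
    mfrwnComp N γ c' hc' ∈ CongruenceSubgroup.Gamma0 N := by
  apply (CongruenceSubgroup.Gamma0_mem).2
  simp [mfrwnComp]

theorem mfrwn_mapGL_apply (γ : SL(2, ℤ)) (i j : Fin 2) :
    ((Matrix.SpecialLinearGroup.mapGL ℝ γ : GL (Fin 2) ℝ) : Matrix (Fin 2) (Fin 2) ℝ) i j =
      ((γ i j : ℤ) : ℝ) := rfl

theorem mfrwnComp_apply (N : ℕ) (γ : SL(2, ℤ)) (c' : ℤ) (hc' : γ 1 0 = (N : ℤ) * c')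
    (i j : Fin 2) :
    (mfrwnComp N γ c' hc') i j = (!![γ 1 1, -c'; -(N : ℤ) * γ 0 1, γ 0 0] :
      Matrix (Fin 2) (Fin 2) ℤ) i j := rfl

theorem mfrwnComp_mul (N : ℕ) [NeZero N] (γ : SL(2, ℤ)) (c' : ℤ)
    (hc' : γ 1 0 = (N : ℤ) * c') :
    mfrwnW N * Matrix.SpecialLinearGroup.mapGL ℝ γ =
      Matrix.SpecialLinearGroup.mapGL ℝ (mfrwnComp N γ c' hc') * mfrwnW N := by
  apply Units.ext
  ext i j
  simp only [Units.val_mul, mfrwnW_coe, Matrix.mul_apply, Fin.sum_univ_two, mfrwn_mapGL_apply,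
    mfrwnComp_apply]
  have hc'' : ((γ 1 0 : ℤ) : ℝ) = (N : ℝ) * (c' : ℝ) := by exact_mod_cast hc'
  fin_cases i <;> fin_cases j <;> simp [hc''] <;> ring

open ConjAct Pointwise in
/-- `Γ₀(N) ≤ W⁻¹ Γ₀(N) W` -/
theorem mfrwn_le (N : ℕ) [NeZero N] : G0 N ≤ toConjAct (mfrwnW N)⁻¹ • G0 N := by
  rintro x ⟨γ, hγ, rfl⟩
  rw [map_inv, Subgroup.mem_inv_pointwise_smul_iff, toConjAct_smul]
  have hdvd : (N : ℤ) ∣ γ 1 0 := by
    have hγ' : γ ∈ CongruenceSubgroup.Gamma0 N := hγ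
    rw [CongruenceSubgroup.Gamma0_mem] at hγ'
    exact (ZMod.intCast_zmod_eq_zero_iff_dvd _ _).mp hγ'
  obtain ⟨c', hc'⟩ := hdvd
  rw [mfrwnComp_mul N γ c' hc', mul_inv_cancel_right]
  exact ⟨_, mfrwnComp_mem N γ c' hc', rfl⟩

/-! ### The Fricke operator on forms and functions -/

open ConjAct Pointwise in
/-- **the Fricke operator** on modular forms of level `Γ₀(N)` -/
theorem mfrwn_isMF {N : ℕ} [NeZero N] {k : ℤ} {G : ℍ → ℂ} (hG : IsMF (G0 N) k G) :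
    IsMF (G0 N) k (G ∣[k] mfrwnW N) := by
  obtain ⟨F, rfl⟩ := hG
  let F' := ModularForm.translate F (mfrwnW N)
  refine ⟨{ toFun := (F : ℍ → ℂ) ∣[k] mfrwnW N
            slash_action_eq' := fun γ hγ => F'.slash_action_eq' γ (mfrwn_le N hγ)
            holo' := F'.holo'
            bdd_at_cusps' := fun {c} hc => F'.bdd_at_cusps' (hc.mono (mfrwn_le N)) }, rfl⟩

/-- `Δ(-1/(Nτ)) = (Nτ)¹² Δ(Nτ)` -/
theorem mfrwn_discriminant (N : ℕ) [NeZero N] (τ : ℍ) :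
    Δ (fricke N τ) = ((N : ℂ) * τ) ^ 12 * Δ (scaleN N τ) := by
  rw [fricke, discriminant_S_smul, coe_scaleN]

/-- **`a ∘ w_N`** is a holomorphic modular function of level `N` if `a` is. -/
theorem mfrwn_isModFun {N : ℕ} [NeZero N] {a : ℍ → ℂ} (ha : IsModFun N a) :
    IsModFun N (fun τ => a (fricke N τ)) := by
  obtain ⟨m, hG⟩ := ha
  have hW := mfrwn_isMF hG
  have h1 : IsModFun N (fun z => ((fun z => a z * Δ z ^ m) ∣[12 * (m : ℤ)] mfrwnW N) z / Δ z ^ m) :=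
    isModFun_div hW
  have h2 : IsModFun N ((fun z => Δ z / Δ (scaleN N z)) ^ m) := (isModFun_unit_inv N).pow m
  have h3 : IsModFun N (fun _ : ℍ => ((N : ℂ) ^ (12 * (m : ℤ) - 1))⁻¹) := isModFun_const N _
  have h4 := (h3.mul h1).mul h2
  convert h4 using 1
  funext τ
  simp only [Pi.mul_apply, Pi.pow_apply]
  rw [mfrwn_slash, mfrwn_discriminant]
  have hN : (N : ℂ) ≠ 0 := by exact_mod_cast NeZero.ne N
  have hτ : (τ : ℂ) ≠ 0 := UpperHalfPlane.ne_zero τ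
  have hNτ : (N : ℂ) * τ ≠ 0 := mul_ne_zero hN hτ
  have hΔ : Δ τ ≠ 0 := discriminant_ne_zero τ
  have hΔN : Δ (scaleN N τ) ≠ 0 := discriminant_ne_zero _
  have hNk : (N : ℂ) ^ (12 * (m : ℤ) - 1) ≠ 0 := zpow_ne_zero _ hN
  have e1 : ((N : ℂ) * τ) ^ (-(12 * (m : ℤ))) = ((((N : ℂ) * τ) ^ 12) ^ m)⁻¹ := by
    have h12 : (12 * (m : ℤ)) = ((12 * m : ℕ) : ℤ) := by push_cast; ring
    rw [zpow_neg, h12, zpow_natCast, pow_mul]
  rw [e1, mul_pow, div_pow]
  have hp : (((N : ℂ) * τ) ^ 12) ^ m ≠ 0 := pow_ne_zero _ (pow_ne_zero _ hNτ)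
  have hΔm : Δ τ ^ m ≠ 0 := pow_ne_zero _ hΔ
  have hΔNm : Δ (scaleN N τ) ^ m ≠ 0 := pow_ne_zero _ hΔN
  field_simp

/-! ### The comparison with `frickeAut` -/

/-- the substitution on polynomials in the `J(dτ)` -/
theorem mfrwn_modAn (N : ℕ) [NeZero N] (P : MvPolynomial (Dv N) Kb) (τ : ℍ) :
    modAn N P (fricke N τ) = modAn N (MvPolynomial.rename frDv P) τ := by
  have h1 : modAn N P (fricke N τ) =
      MvPolynomial.aeval (R := Kb) (fun d => Jdfam N d (fricke N τ)) P :=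
    Fermat.Agent.ES.G2.swap_aeval_apply (Jdfam N) P (fricke N τ)
  have h2 : modAn N (MvPolynomial.rename frDv P) τ =
      MvPolynomial.aeval (R := Kb) (fun d => Jdfam N d τ) (MvPolynomial.rename frDv P) :=
    Fermat.Agent.ES.G2.swap_aeval_apply (Jdfam N) (MvPolynomial.rename frDv P) τ
  rw [h1, h2, MvPolynomial.aeval_rename]
  have h3 : (fun d => Jdfam N d (fricke N τ)) = (fun d => Jdfam N d τ) ∘ frDv := by
    funext d
    exact fr_Jdfam d τ
  rw [h3]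

/-- **FR-WN.** -/
theorem stmtFrWN : StmtFrWN := by
  intro N _ f a b ha hb hab
  have haw := mfrwn_isModFun ha
  have hbw := mfrwn_isModFun hb
  refine ⟨haw, hbw, ?_⟩
  obtain ⟨P, Q, hQ, hPQ⟩ := modplace_exists_rep N f
  have key := modplace_bridge hPQ ha hb hab
  -- substitute `τ ↦ -1/(Nτ)`
  have key' : modAn N (MvPolynomial.rename frDv P) * (fun τ => b (fricke N τ)) =
      (fun τ => a (fricke N τ)) * modAn N (MvPolynomial.rename frDv Q) := by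
    funext τ
    have := congrFun key (fricke N τ)
    simp only [Pi.mul_apply] at this ⊢
    rw [← mfrwn_modAn, ← mfrwn_modAn]
    exact this
  have hP' := (modAn_isModFun N (MvPolynomial.rename frDv P)).isMerInf
  have hQ' := (modAn_isModFun N (MvPolynomial.rename frDv Q)).isMerInf
  have hL := congrArg laurentOf key'
  rw [laurentOf_mul hP' hbw.isMerInf, laurentOf_mul haw.isMerInf hQ', modAn_laurentOf,
    modAn_laurentOf, ← modplace_coe_aeval_jFfam, ← modplace_coe_aeval_jFfam,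
    ← ogg_fricke_aeval, ← ogg_fricke_aeval, ← hPQ, map_mul] at hL
  have hQw : frickeAut N (MvPolynomial.aeval (jFfam N) Q) ≠ 0 :=
    (map_ne_zero (frickeAut N)).2 hQ
  have hQw' : coeffMap embC
      ((frickeAut N (MvPolynomial.aeval (jFfam N) Q) : FF N) : LaurentSeries Kb) ≠ 0 := by
    intro h0
    apply hQw
    apply Subtype.ext
    exact br_coeffMap_embC_injective (h0.trans (map_zero _).symm)
  have e : ((frickeAut N f * frickeAut N (MvPolynomial.aeval (jFfam N) Q) : FF N) :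
      LaurentSeries Kb) = ((frickeAut N f : FF N) : LaurentSeries Kb) *
        ((frickeAut N (MvPolynomial.aeval (jFfam N) Q) : FF N) : LaurentSeries Kb) := rfl
  rw [e, map_mul] at hL
  apply mul_right_cancel₀ hQw'
  linear_combination hL

end Fermat.Agent.S15
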