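import Fermat.Agent.S15.Cusp
import Fermat.Agent.S15.OggUnit
import Fermat.Agent.ES.HModular
import Fermat.Agent.INJ.HMMem
import Fermat.Agent.S20.Index
import Fermat.Agent.S24.Places
import Fermat.Agent.S24.PrincipalDegree

/-!
# S15, piece OGG (2): the divisor of the modular unit and the torsion of the cuspidal class

For a prime `N`:

* `ogg_pole_cases` : the only poles of `j` on `X₀(N)` are the two cusps `∞` and `0`
  (`1 + N = ψ(N) = [F_N : ℚ̄(j)]`);
* `ogg_ord_of_ne`, `ogg_ord_cuspInf`, `ogg_ord_cuspZero` : `div(u_N) = (N - 1)((∞) - (0))`;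
* `ogg_torsion` : `(N - 1) • c = 0` for the cuspidal class `c = [(0) - (∞)]`;
* `ogg_const_of_ord_eq_zero` : an element of `F_N` without zeros and poles is a constant.
-/

set_option autoImplicit false
set_option linter.style.haveILetI false

noncomputable section

namespace Fermat.Agent.S15

open ModularCurve AlgebraicCurve IntermediateField
open Fermat.Agent.S24 Fermat.Agent.ES.M

/-- For a prime `N`, the only poles of `j` are the cusps `∞` and `0`. -/
theorem ogg_pole_cases (N : ℕ) [NeZero N] (hN : N.Prime) (P : Place Kb (FF N))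
    (hP : P.ord (jF N) < 0) : P = cuspInf N ∨ P = cuspZero N := by
  classical
  by_contra hne
  push Not at hne
  obtain ⟨h1, h2⟩ := hne
  haveI := Fermat.Agent.ES.H.finiteDimensional_adjoin_jF N
  have htr : Transcendental Kb (jF N)⁻¹ := transcendental_jF_inv N
  haveI hfd : FiniteDimensional Kb⟮(jF N)⁻¹⟯ (FF N) :=
    pd_finiteDimensional_adjoin_of_transcendental (jF N) (transcendental_jF N) _ htr
  obtain ⟨V, hV, hsum⟩ := sum_ord_eq_finrank (K := Kb) (jF N)⁻¹ htr
  rw [pd_finrank_eq_of_eq (pd_adjoin_inv_eq (K := Kb) (jF N)), Fermat.Agent.INJ.hmMem_finrank_jF,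
    Fermat.Agent.S20.dedekindPsi_prime hN] at hsum
  have hNpos : (0 : ℤ) < N := by exact_mod_cast hN.pos
  have hI : cuspInf N ∈ V := by
    rw [hV, Place.ord_inv, cuspInf_ord_jF]; norm_num
  have hZ : cuspZero N ∈ V := by
    rw [hV, Place.ord_inv, cuspZero_ord_jF, neg_neg]; exact hNpos
  have hPV : P ∈ V := by
    rw [hV, Place.ord_inv]; omega
  have hZI : cuspZero N ≠ cuspInf N := cuspZero_ne_cuspInf N hN.two_le
  have hsub : ({cuspInf N, cuspZero N, P} : Finset (Place Kb (FF N))) ⊆ V := by
    intro v hv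
    simp only [Finset.mem_insert, Finset.mem_singleton] at hv
    rcases hv with rfl | rfl | rfl
    · exact hI
    · exact hZ
    · exact hPV
  have hle := Finset.sum_le_sum_of_subset_of_nonneg (f := fun v => v.ord (jF N)⁻¹) hsub
    (fun v hv _ => ((hV v).mp hv).le)
  rw [Finset.sum_insert (by
      simp only [Finset.mem_insert, Finset.mem_singleton, not_or]
      exact ⟨fun h => hZI h.symm, fun h => h1 h.symm⟩),
    Finset.sum_insert (by
      simp only [Finset.mem_singleton]
      exact fun h => h2 h.symm),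
    Finset.sum_singleton, hsum] at hle
  simp only [Place.ord_inv, cuspInf_ord_jF, cuspZero_ord_jF, neg_neg] at hle
  push_cast at hle
  omega

/-- For a prime `N`, the modular unit has neither zero nor pole outside the two cusps. -/
theorem ogg_ord_of_ne (N : ℕ) [NeZero N] (hN : N.Prime) (P : Place Kb (FF N))
    (h1 : P ≠ cuspInf N) (h2 : P ≠ cuspZero N) : P.ord (oggU N) = 0 := by
  apply ogg_ord_eq_zero N hN P
  by_contra h
  push Not at h
  rcases ogg_pole_cases N hN P h with h | h
  · exact h1 h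
  · exact h2 h

theorem ogg_ord_cuspInf (N : ℕ) [NeZero N] : (cuspInf N).ord (oggU N) = (N : ℤ) - 1 :=
  ogg_ord_cuspInfty N (cuspInf_isCuspInfty N)

/-- For a prime `N`, the modular unit has a pole of order `N - 1` at the cusp `0`. -/
theorem ogg_ord_cuspZero (N : ℕ) [NeZero N] (hN : N.Prime) :
    (cuspZero N).ord (oggU N) = -((N : ℤ) - 1) := by
  classical
  haveI := Fermat.Agent.ES.H.hasPrincipalDivisors_FF N
  obtain ⟨D, hD, hdeg⟩ := HasPrincipalDivisors.exists_divisor (K := Kb) (oggU N) (oggU_ne_zero N)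
  have hZI : cuspZero N ≠ cuspInf N := cuspZero_ne_cuspInf N hN.two_le
  have hDeq : D = Finsupp.single (cuspInf N) ((N : ℤ) - 1) +
      Finsupp.single (cuspZero N) (D (cuspZero N)) := by
    ext v
    rw [Finsupp.add_apply]
    by_cases hv1 : v = cuspInf N
    · subst hv1
      rw [Finsupp.single_eq_same, Finsupp.single_eq_of_ne (Ne.symm hZI), add_zero, hD,
        ogg_ord_cuspInf]
    · by_cases hv2 : v = cuspZero N
      · subst hv2
        rw [Finsupp.single_eq_same, Finsupp.single_eq_of_ne hv1, zero_add]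
      · rw [Finsupp.single_eq_of_ne hv1, Finsupp.single_eq_of_ne hv2, hD,
          ogg_ord_of_ne N hN v hv1 hv2, add_zero]
  rw [hDeq, map_add, Divisor.degree_single, Divisor.degree_single, cuspInf_deg, cuspZero_deg,
    hD] at hdeg
  push_cast at hdeg
  linarith

/-- The divisor of the modular unit: `div(u_N⁻¹) = (N - 1) • ((0) - (∞))`. -/
theorem ogg_div (N : ℕ) [NeZero N] (hN : N.Prime) (v : Place Kb (FF N)) :
    ((N - 1) • (cuspDiv N : Divisor Kb (FF N))) v = v.ord (oggU N)⁻¹ := by
  classical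
  have hZI : cuspZero N ≠ cuspInf N := cuspZero_ne_cuspInf N hN.two_le
  have hN1 : ((N - 1 : ℕ) : ℤ) = (N : ℤ) - 1 := by
    have := hN.one_le
    push_cast [Nat.cast_sub this]
    ring
  rw [Place.ord_inv, coe_cuspDiv, Finsupp.smul_apply, Finsupp.sub_apply, nsmul_eq_mul, hN1]
  by_cases hv1 : v = cuspInf N
  · subst hv1
    rw [Finsupp.single_eq_same, Finsupp.single_eq_of_ne (Ne.symm hZI), ogg_ord_cuspInf]
    push_cast
    ring
  · by_cases hv2 : v = cuspZero N
    · subst hv2
      rw [Finsupp.single_eq_same, Finsupp.single_eq_of_ne hv1, ogg_ord_cuspZero N hN]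
      push_cast
      ring
    · rw [Finsupp.single_eq_of_ne hv1, Finsupp.single_eq_of_ne hv2, ogg_ord_of_ne N hN v hv1 hv2]
      simp

/-- **Ogg (upper bound)**: for a prime `N`, the cuspidal class `c = [(0) - (∞)]` of `J₀(N)` is
killed by `N - 1`. -/
theorem ogg_torsion (N : ℕ) [NeZero N] (hN : N.Prime) : (N - 1) • cuspClass N = 0 := by
  have h1 : (N - 1) • cuspClass N = Pic0.mk ((N - 1) • cuspDiv N) := rfl
  rw [h1, Pic0.mk, QuotientAddGroup.eq_zero_iff, AddSubgroup.mem_addSubgroupOf,
    AddSubgroup.coe_nsmul, Divisor.mem_principal]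
  exact ⟨(oggU N)⁻¹, inv_ne_zero (oggU_ne_zero N), fun v => ogg_div N hN v⟩

/-- An element of `F_N` without zeros and poles is a constant. -/
theorem ogg_const_of_ord_eq_zero (N : ℕ) [NeZero N] (f : FF N)
    (hf : ∀ v : Place Kb (FF N), v.ord f = 0) : ∃ a : Kb, algebraMap Kb (FF N) a = f := by
  by_cases halg : IsAlgebraic Kb f
  · obtain ⟨a, ha⟩ := mem_range_algebraMap_of_isAlgebraic halg
    exact ⟨a, ha⟩
  · exfalso
    have htr : Transcendental Kb f := halg
    haveI := Fermat.Agent.ES.H.finiteDimensional_adjoin_jF N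
    haveI hfd : FiniteDimensional Kb⟮f⟯ (FF N) :=
      pd_finiteDimensional_adjoin_of_transcendental (jF N) (transcendental_jF N) _ htr
    obtain ⟨V, hV, hsum⟩ := sum_ord_eq_finrank (K := Kb) f htr
    have hVe : V = ∅ := by
      ext v
      simp [hV v, hf v]
    rw [hVe, Finset.sum_empty] at hsum
    have hpos : 0 < Module.finrank Kb⟮f⟯ (FF N) := Module.finrank_pos
    have h0 : Module.finrank Kb⟮f⟯ (FF N) = 0 := by exact_mod_cast hsum.symm
    omega

end Fermat.Agent.S15
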