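import Fermat.Agent.S15.ModFricke
import Fermat.Agent.S15.ModFrInt
import Fermat.Agent.S15.ModFrUniq
import Fermat.Agent.S15.ModFrWN
import Fermat.Agent.S15.OggDiv

/-!
# S15 / MOD-FRICKE (b) : the Fricke product `Π₀` (helper71)

`stmtModFricke0 : StmtModFricke0` : `Π₀ ∈ ℤ[1/N][[q]]` with constant term `± N⁻²`, its poles lie
over `j = 1728`, and it vanishes at the cusp `0`.

* `q`-expansion: `mfr_exists` (`ModFricke.lean`), uniqueness `stmtFrUniq`;
* cusp `0`: `Π₀ ∘ w_N = ∏_k V_k / (E₆² ∘ N)^{N-1}` with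
  `V_k = mfrV N k = (-(1/12) E₆² + E₄ E₆ P_{k,0}) ∘ (τ ↦ Nτ)`, every `V_k` tends to `0` at `i∞`
  (`mfrV_tendsto`), and `stmtFrWN`;
* poles: where `j` is regular, `Π₀ = a₀ / b₀` with `b₀ = (E₆²/Δ)^{N-1}` (`mfrint_ord_nonneg`),
  `E₆ τ = 0 ⇒ j(τ) = 1728`; at the poles of `j`: `ogg_pole_cases` and the two expansions.

Design: `NOTES/S15-MODFRICKE.md`.
-/

set_option autoImplicit false
set_option linter.unusedSectionVars false
set_option linter.unusedVariables false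
set_option linter.style.longLine false
set_option linter.unusedSimpArgs false

noncomputable section

namespace Fermat.Agent.S15

open UpperHalfPlane PeriodPair Complex Filter Topology ModularForm EisensteinSeries ModularCurve
open AlgebraicCurve
open Fermat.Agent.S23 Fermat.Agent.S24 Fermat.Agent.S28 Fermat.Agent.ES.I2 Fermat.Agent.INJ.HM
open Fermat.Agent.ES.M Fermat.Agent.W1
open scoped Real MatrixGroups Manifold

attribute [local instance] algKbC

local notation "Δ" => ModularForm.discriminant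

/-! ### limits at `i∞` -/

theorem mfr_tendsto_E4 : Tendsto (E₄ : ℍ → ℂ) atImInfty (𝓝 1) := by
  have h := bridge_isHPB_E4.tendsto_coeff_zero
  rw [hm_qExp_E4] at h
  have e : PowerSeries.coeff 0 (hmC ModularCurve.eisenstein4) = 1 := by
    rw [hmC, PowerSeries.coeff_map, PowerSeries.coeff_zero_eq_constantCoeff_apply,
      constantCoeff_eisenstein4]
    simp
  rwa [e] at h

theorem mfr_tendsto_E6 : Tendsto (E₆ : ℍ → ℂ) atImInfty (𝓝 1) := by
  have h := mfr_isHPB_E6.tendsto_coeff_zero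
  rw [mf_qExp_E6] at h
  have e : PowerSeries.coeff 0 (hmC mfE6) = 1 := by
    rw [hmC, PowerSeries.coeff_map, PowerSeries.coeff_zero_eq_constantCoeff_apply,
      mfr_constantCoeff_mfE6]
    simp
  rwa [e] at h

/-! ### the factors at the cusp `0` -/

/-- the factor `(-(1/12) E₆² + E₄ E₆ P_{k,0})(Nτ)` of `Π₀ ∘ w_N` -/
def mfrV (N : ℕ) [NeZero N] (k : ℤ) (τ : ℍ) : ℂ := mfrW N 0 k 0 (scaleN N τ)

theorem mfrV_eq (N : ℕ) [NeZero N] (k : ℤ) :
    mfrV N k = (fun _ : ℍ => ((0 : ℂ) - 1 / 12)) *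
        ((fun τ => E₆ (scaleN N τ)) * (fun τ => E₆ (scaleN N τ))) +
      (fun τ => E₄ (scaleN N τ)) * (fun τ => E₆ (scaleN N τ)) *
        (fun τ => mfrP N k 0 (scaleN N τ)) := by
  funext τ
  simp only [mfrV, mfrW, Pi.add_apply, Pi.mul_apply]
  ring

theorem mfrV_isHPB (N : ℕ) [NeZero N] (k : ℤ) (hk : ¬ (N : ℤ) ∣ k) : IsHPB (mfrV N k) := by
  have hP := mfrP_scale_isHPB N k hk
  have h4 := bridge_isHPB_comp_scaleN N bridge_isHPB_E4
  have h6 := bridge_isHPB_comp_scaleN N mfr_isHPB_E6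
  have hc : IsHPB (fun _ : ℍ => ((0 : ℂ) - 1 / 12)) := qring_isHPB_const _
  rw [mfrV_eq]
  exact (hc.mul (h6.mul h6)).add ((h4.mul h6).mul hP)

theorem mfrV_tendsto (N : ℕ) [NeZero N] (k : ℤ) (hk0 : 0 < k) (hkN : k < N) :
    Tendsto (mfrV N k) atImInfty (𝓝 0) := by
  have hs := P7_tendsto_scaleN_atImInfty N
  have h4 : Tendsto (fun τ => E₄ (scaleN N τ)) atImInfty (𝓝 1) := mfr_tendsto_E4.comp hs
  have h6 : Tendsto (fun τ => E₆ (scaleN N τ)) atImInfty (𝓝 1) := mfr_tendsto_E6.comp hs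
  have hP := mfrP_scale_tendsto N k hk0 hkN
  have hc : Tendsto (fun _ : ℍ => ((0 : ℂ) - 1 / 12)) atImInfty (𝓝 ((0 : ℂ) - 1 / 12)) :=
    tendsto_const_nhds
  have h := (hc.mul (h6.mul h6)).add ((h4.mul h6).mul hP)
  have e : ((0 : ℂ) - 1 / 12) * (1 * 1) + 1 * 1 * (1 / 12) = 0 := by norm_num
  rw [e] at h
  rw [mfrV_eq]
  exact h

/-- `a₀ ∘ w_N`, cleared of its denominator -/
def mfrA' (N : ℕ) [NeZero N] (τ : ℍ) : ℂ := ∏ k ∈ Finset.Ico 1 N, mfrV N (k : ℤ) τ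

/-- `b₀ ∘ w_N`, cleared of its denominator -/
def mfrB' (N : ℕ) [NeZero N] (τ : ℍ) : ℂ := (E₆ (scaleN N τ) ^ 2) ^ (N - 1)

/-- the common denominator `Δ(Nτ)^{N-1}` -/
def mfrD' (N : ℕ) [NeZero N] (τ : ℍ) : ℂ := Δ (scaleN N τ) ^ (N - 1)

theorem mfrA'_isHPB (N : ℕ) [NeZero N] : IsHPB (mfrA' N) :=
  (mfr_qExp_prod (Finset.Ico 1 N) (fun k : ℕ => mfrV N (k : ℤ))
    (fun k hk => mfrV_isHPB N k (mfr_not_dvd_of_mem hk))).1

theorem mfrB'_isHPB (N : ℕ) [NeZero N] : IsHPB (mfrB' N) :=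
  bridge_isHPB_pow (bridge_isHPB_pow (bridge_isHPB_comp_scaleN N mfr_isHPB_E6) 2) (N - 1)

theorem mfrD'_isHPB (N : ℕ) [NeZero N] : IsHPB (mfrD' N) :=
  bridge_isHPB_pow (bridge_isHPB_comp_scaleN N bridge_isHPB_discriminant) (N - 1)

theorem mfrA'_tendsto (N : ℕ) [NeZero N] (hN : 2 ≤ N) : Tendsto (mfrA' N) atImInfty (𝓝 0) := by
  have h : Tendsto (fun τ => ∏ k ∈ Finset.Ico 1 N, mfrV N (k : ℤ) τ) atImInfty
      (𝓝 (∏ k ∈ Finset.Ico 1 N, (0 : ℂ))) := by
    refine tendsto_finsetProd _ fun k hk => ?_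
    rw [Finset.mem_Ico] at hk
    exact mfrV_tendsto N k (by exact_mod_cast hk.1) (by exact_mod_cast hk.2)
  rw [Finset.prod_const, Nat.card_Ico, zero_pow (by omega)] at h
  exact h

theorem mfrB'_tendsto (N : ℕ) [NeZero N] : Tendsto (mfrB' N) atImInfty (𝓝 1) := by
  have h6 : Tendsto (fun τ => E₆ (scaleN N τ)) atImInfty (𝓝 1) :=
    mfr_tendsto_E6.comp (P7_tendsto_scaleN_atImInfty N)
  have h := (h6.pow 2).pow (N - 1)
  rw [one_pow, one_pow] at h
  exact h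

theorem mfr_S10 : (ModularGroup.S 1 0 : ℤ) = 1 := rfl

theorem mfr_S11 : (ModularGroup.S 1 1 : ℤ) = 0 := rfl

theorem mfrA_fricke (N : ℕ) [NeZero N] (τ : ℍ) :
    mfrA N 0 (fricke N τ) * mfrD' N τ = mfrA' N τ := by
  have hσ : ((scaleN N τ : ℍ) : ℂ) ≠ 0 := UpperHalfPlane.ne_zero _
  have hΔ : Δ (scaleN N τ) ≠ 0 := discriminant_ne_zero _
  have hP : ∏ k ∈ Finset.Ico 1 N, mfrW N 0 ((k : ℤ) * ModularGroup.S 1 0)
      ((k : ℤ) * ModularGroup.S 1 1) (scaleN N τ) = mfrA' N τ := by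
    refine Finset.prod_congr rfl fun k _ => ?_
    rw [mfr_S10, mfr_S11, mul_one, mul_zero]
    rfl
  simp only [mfrA, mfrD', fricke]
  rw [mfrF_smul, mfr_disc_smul, hP, mfr_S10, mfr_S11, Int.cast_one, Int.cast_zero, one_mul,
    add_zero, mul_pow, ← pow_mul]
  field_simp

theorem mfrBf_fricke (N : ℕ) [NeZero N] (τ : ℍ) :
    mfrBf N (fricke N τ) * mfrD' N τ = mfrB' N τ := by
  have hσ : ((scaleN N τ : ℍ) : ℂ) ≠ 0 := UpperHalfPlane.ne_zero _
  have hΔ : Δ (scaleN N τ) ≠ 0 := discriminant_ne_zero _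
  simp only [mfrBf, mfrD', mfrB', fricke]
  rw [mfr_E6_smul, mfr_disc_smul, mfr_S10, mfr_S11, Int.cast_one, Int.cast_zero, one_mul,
    add_zero, mul_pow, mul_pow, mul_pow, ← pow_mul, ← pow_mul, ← pow_mul]
  field_simp
  ring

/-! ### orders of power series -/

theorem mfr_order_nonneg {K : Type*} [Field K] (p : PowerSeries K) :
    0 ≤ (HahnSeries.ofPowerSeries ℤ K p).order := by
  by_contra hlt
  push Not at hlt
  have h1 := ModularCurve.ofPowerSeries_coeff_of_neg p hlt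
  rw [HahnSeries.coeff_order_eq_zero] at h1
  rw [h1, HahnSeries.order_zero] at hlt
  exact lt_irrefl _ hlt

theorem mfr_order_pos {K : Type*} [Field K] {p : PowerSeries K} (hp : p ≠ 0)
    (h0 : PowerSeries.coeff 0 p = 0) : 0 < (HahnSeries.ofPowerSeries ℤ K p).order := by
  have hne : HahnSeries.ofPowerSeries ℤ K p ≠ 0 := fun h =>
    hp (HahnSeries.ofPowerSeries_injective (by rw [h, map_zero]))
  rcases lt_or_eq_of_le (mfr_order_nonneg p) with h | h
  · exact h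
  · exfalso
    have h1 : (HahnSeries.ofPowerSeries ℤ K p).coeff (HahnSeries.ofPowerSeries ℤ K p).order = 0 := by
      rw [← h]
      have := HahnSeries.ofPowerSeries_apply_coeff (Γ := ℤ) p 0
      rw [Nat.cast_zero] at this
      rw [this, h0]
    exact hne (HahnSeries.coeff_order_eq_zero.1 h1)

theorem mfr_order_zero {K : Type*} [Field K] {p : PowerSeries K}
    (h0 : PowerSeries.coeff 0 p ≠ 0) : (HahnSeries.ofPowerSeries ℤ K p).order = 0 := by
  refine le_antisymm (HahnSeries.order_le_of_coeff_ne_zero ?_) (mfr_order_nonneg p)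
  have := HahnSeries.ofPowerSeries_apply_coeff (Γ := ℤ) p 0
  rw [Nat.cast_zero] at this
  rwa [this]

/-! ### the zero at the cusp `0` -/

theorem mfr_cuspZero (hWN : StmtFrWN) (N : ℕ) [NeZero N] (hN : N.Prime) (f : FF N) (hf0 : f ≠ 0)
    (h : coeffMap embC (f : LaurentSeries Kb) * laurentOf (mfrBf N) = laurentOf (mfrA N 0)) :
    0 < (cuspZero N).ord f := by
  obtain ⟨ha, hb, hab⟩ := hWN N f (mfrA N 0) (mfrBf N) (isModFun_mfrA N hN 0) (isModFun_mfrBf N) h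
  have hw0 : frickeAut N f ≠ 0 := (map_ne_zero (frickeAut N)).2 hf0
  rw [cuspZero_ord, cuspInf_ord hw0, ← Fermat.Agent.ES.DescentInj.order_coeffMap embC]
  set X : LaurentSeries ℂ := coeffMap embC ((frickeAut N f : FF N) : LaurentSeries Kb) with hX
  have hX0 : X ≠ 0 := fun h0 => hw0 (Subtype.ext
    (Fermat.Agent.ES.DescentInj.coeffMap_inj embC (by
      rw [← hX, h0]; exact (map_zero (coeffMap embC)).symm)))
  have e1 : (fun τ => mfrA N 0 (fricke N τ)) * mfrD' N = mfrA' N := funext (mfrA_fricke N)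
  have e2 : (fun τ => mfrBf N (fricke N τ)) * mfrD' N = mfrB' N := funext (mfrBf_fricke N)
  have l1 : laurentOf (mfrA' N) = laurentOf (fun τ => mfrA N 0 (fricke N τ)) * laurentOf (mfrD' N) := by
    rw [← e1, laurentOf_mul ha.isMerInf (IsHPB.isMerInf (mfrD'_isHPB N))]
  have l2 : laurentOf (mfrB' N) = laurentOf (fun τ => mfrBf N (fricke N τ)) * laurentOf (mfrD' N) := by
    rw [← e2, laurentOf_mul hb.isMerInf (IsHPB.isMerInf (mfrD'_isHPB N))]
  have key : X * laurentOf (mfrB' N) = laurentOf (mfrA' N) := by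
    rw [l1, l2, ← mul_assoc, hab]
  rw [laurentOf_of_isHPB (mfrA'_isHPB N), laurentOf_of_isHPB (mfrB'_isHPB N)] at key
  have hB0 : PowerSeries.coeff 0 (qExpansion 1 (mfrB' N)) = 1 :=
    (mfrB'_isHPB N).coeff_zero_of_tendsto (mfrB'_tendsto N)
  have hA0 : PowerSeries.coeff 0 (qExpansion 1 (mfrA' N)) = 0 :=
    (mfrA'_isHPB N).coeff_zero_of_tendsto (mfrA'_tendsto N hN.two_le)
  have hBord : (HahnSeries.ofPowerSeries ℤ ℂ (qExpansion 1 (mfrB' N))).order = 0 :=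
    mfr_order_zero (by rw [hB0]; exact one_ne_zero)
  have hBne : HahnSeries.ofPowerSeries ℤ ℂ (qExpansion 1 (mfrB' N)) ≠ 0 := by
    intro h0
    have := HahnSeries.ofPowerSeries_injective (h0.trans (map_zero _).symm)
    rw [this] at hB0
    simp at hB0
  have hAne : qExpansion 1 (mfrA' N) ≠ 0 := by
    intro h0
    rw [h0, map_zero] at key
    exact (mul_ne_zero hX0 hBne) key
  have hAord := mfr_order_pos hAne hA0
  rw [← key, HahnSeries.order_mul hX0 hBne, hBord, add_zero] at hAord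
  exact hAord

/-! ### the poles -/

theorem mfr_Jfun_of_E6 (τ : ℍ) (h6 : E₆ τ = 0) : Jfun τ = 1728 := by
  have hΔ : Δ τ ≠ 0 := discriminant_ne_zero τ
  have h1 := discriminant_eq_E₄_cube_sub_E₆_sq τ
  rw [h6] at h1
  rw [Jfun, div_eq_iff hΔ, h1]
  ring

theorem mfr_poles (N : ℕ) [NeZero N] (hN : N.Prime) (t : ℤ) (f : FF N)
    (h : coeffMap embC (f : LaurentSeries Kb) * laurentOf (mfrBf N) = laurentOf (mfrA N (t : ℂ)))
    (hInf : 0 ≤ (cuspInf N).ord f) (hZero : 0 ≤ (cuspZero N).ord f)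
    (P : Place Kb (FF N)) (hP : P.ord f < 0) : HasValueAt P (jF N) 1728 := by
  by_cases hj : 0 ≤ P.ord (jF N)
  · obtain ⟨τ, c₀, hτ, rfl⟩ := mfrint_exists_point P hj
    by_cases hb : mfrBf N τ = 0
    · have h6 : E₆ τ = 0 := by
        have hΔ : Δ τ ^ (N - 1) ≠ 0 := pow_ne_zero _ (discriminant_ne_zero τ)
        simp only [mfrBf] at hb
        rw [div_eq_zero_iff] at hb
        rcases hb with hb | hb
        · exact pow_eq_zero_iff (two_ne_zero) |>.1 (pow_eq_zero_iff (by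
            have := hN.two_le; omega) |>.1 hb)
        · exact absurd hb hΔ
      have hJ := mfr_Jfun_of_E6 τ h6
      have hc : c₀ = 1728 := by
        apply embC.injective
        rw [← hτ, hJ, map_ofNat]
      subst hc
      exact (modplace_hasValueAt_jF_iff _ _).2 (modPlace_ord_jF_sub_pos hτ)
    · exact absurd (mfrint_ord_nonneg hτ (isModFun_mfrA N hN t) (isModFun_mfrBf N) h hb)
        (not_le.2 hP)
  · rcases ogg_pole_cases N hN P (not_le.1 hj) with rfl | rfl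
    · exact absurd hInf (not_le.2 hP)
    · exact absurd hZero (not_le.2 hP)

/-! ### MOD-FRICKE (b) -/

theorem mfr_const_sq (N : ℕ) (hN : 2 ≤ N) (y : ℤ) (hy : y ^ 2 = ((N : ℤ) ^ (2 * (N - 2))) ^ 2) :
    (((N : ℚ) ^ (2 * (N - 1)))⁻¹ * (y : ℚ) * (N : ℚ) ^ 2) ^ 2 = 1 := by
  have hN0 : (N : ℚ) ≠ 0 := by
    have : N ≠ 0 := by omega
    exact_mod_cast this
  have hy' : (y : ℚ) ^ 2 = ((N : ℚ) ^ (2 * (N - 2))) ^ 2 := by exact_mod_cast hy
  have e1 : 2 * (N - 1) = 2 * (N - 2) + 2 := by omega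
  rw [e1, pow_add]
  have e2 : (((N : ℚ) ^ (2 * (N - 2)) * (N : ℚ) ^ 2)⁻¹ * (y : ℚ) * (N : ℚ) ^ 2) ^ 2 =
      (y : ℚ) ^ 2 / ((N : ℚ) ^ (2 * (N - 2))) ^ 2 := by
    field_simp
  rw [e2, hy', div_self (pow_ne_zero _ (pow_ne_zero _ hN0))]

/-- **MOD-FRICKE (b)**, from FR-WN. -/
theorem stmtModFricke0_of (hWN : StmtFrWN) : StmtModFricke0 := by
  intro N _ hN f hf
  obtain ⟨Y, f₀, hf₀, h1, hY0⟩ := mfr_exists N hN 0
  have hY := hY0 rfl
  have hff : f = f₀ := stmtFrUniq N f f₀ _ hf (mfr_isFrickeProd N hN 0 f₀ h1)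
  subst hff
  have hN0 : (N : ℚ) ≠ 0 := by exact_mod_cast NeZero.ne N
  have hexp : (f : LaurentSeries Kb) = coeffEmb Kb (HahnSeries.ofPowerSeries ℤ ℚ (mfrYQ N Y)) := by
    rw [hf₀, mfr_ofPowerSeries_YQ, coeffEmb, mfr_coeffMap_YL]
  have hc0 : (PowerSeries.coeff 0 (mfrYQ N Y) * (N : ℚ) ^ 2) ^ 2 = 1 := by
    rw [mfr_coeff_YQ, PowerSeries.coeff_zero_eq_constantCoeff_apply]
    exact mfr_const_sq N hN.two_le _ hY
  have hYne : mfrYQ N Y ≠ 0 := by
    intro h0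
    rw [h0] at hc0
    simp at hc0
  have hfne : f ≠ 0 := by
    intro h0
    rw [h0] at hexp
    have h2 : HahnSeries.ofPowerSeries ℤ ℚ (mfrYQ N Y) = 0 :=
      (coeffEmb Kb).injective (by rw [← hexp, map_zero]; rfl)
    exact hYne (HahnSeries.ofPowerSeries_injective (by rw [h2, map_zero]))
  have hInf : 0 ≤ (cuspInf N).ord f := by
    rw [cuspInf_ord hfne, hexp, coeffEmb, coeffMap_ofPowerSeries]
    exact mfr_order_nonneg _
  have h1' : coeffMap embC (f : LaurentSeries Kb) * laurentOf (mfrBf N) = laurentOf (mfrA N 0) := by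
    rw [h1, Int.cast_zero]
  have hZero : 0 < (cuspZero N).ord f := mfr_cuspZero hWN N hN f hfne h1'
  refine ⟨⟨mfrYQ N Y, hexp, fun n => ⟨2 * (N - 1), PowerSeries.coeff n Y, ?_⟩, hc0⟩,
    mfr_poles N hN 0 f h1 hInf hZero.le, hZero⟩
  rw [mfr_coeff_YQ]
  field_simp

/-- **MOD-FRICKE (b).** -/
theorem stmtModFricke0 : StmtModFricke0 := stmtModFricke0_of stmtFrWN

end Fermat.Agent.S15
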