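import Fermat.Agent.S15.LocDiv
import Fermat.Agent.S15.ModFricke
import Fermat.Agent.S15.ModFricke0

/-!
# S15 / LOCDIV, final: `stmtLocDiv : StmtLocDiv` (unconditional)

`StmtLocDiv` (`Plan.lean`): for a Mazur level `p`, `A ∣ v ≠ p`, a prime `r ≠ v` and a rational place
`x` of `X₀(p)` with `j(x) ∉ A`, `Π₀(x) ∈ A`: the class `[(x) − (0)]` (if `Π₀(x)` is a non-unit) resp.
`[(x) − (∞)]` (if `Π₀(x)` is a unit) is infinitely `r`-divisible among the `D_A`-fixed points of
`J₀(p)`.

Inputs: `stmtLocDiv_of` (helper94, with helper49's `LocDivNC/Cusp/Aux`), the reduction package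
`s15red_stmtLdPkg` (helper89), DIV¹ (`stmtDiv1`, helper94 + helper24) and the Fricke product
`stmtModFricke`, `stmtModFricke0` (helper71).
-/

set_option autoImplicit false

namespace Fermat.Agent.S15

/-- **LOCDIV.** -/
theorem stmtLocDiv : StmtLocDiv := stmtLocDiv_of stmtModFricke stmtModFricke0

end Fermat.Agent.S15
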