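/-
S15 block N3, piece N3-EC (helper52), part 1: a valuation ring of a field of characteristic `0`
lying over `p` and the `p`-adic valuation of rational numbers.

`L` a field with `Algebra ℚ L`, `A` a valuation subring of `L` with `(p : L) ∈ 𝔪_A`, `r : ℚ`,
`r ≠ 0`:

* `n3ec_rat_mem_iff`     : `r ∈ A ↔ 0 ≤ padicValRat p r`;
* `n3ec_rat_not_mem_iff` : `r ∉ A ↔ padicValRat p r < 0`;
* `n3ec_rat_val_one_iff` : `v r = 1 ↔ padicValRat p r = 0`;
* `n3ec_mem_of_pow_mem`  : `x ^ n ∈ A → x ∈ A` (`n ≠ 0`).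
-/
import Fermat.Agent.S05.FreyArith

set_option autoImplicit false
set_option linter.style.haveILetI false
set_option linter.unusedSectionVars false

namespace Fermat.Agent.S15

open Fermat.Agent.S05

section Val

variable {L : Type*} [Field L] [Algebra ℚ L] (A : ValuationSubring L) {p : ℕ}

theorem n3ec_algebraMap_eq (r : ℚ) :
    algebraMap ℚ L r = (r.num : L) / (r.den : L) := by
  have h1 : (r : ℚ) = (r.num : ℚ) / (r.den : ℚ) := (Rat.num_div_den r).symm
  conv_lhs => rw [h1]
  rw [map_div₀, map_intCast, map_natCast]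

theorem n3ec_den_ne_zero [CharZero L] (r : ℚ) : (r.den : L) ≠ 0 :=
  Nat.cast_ne_zero.mpr r.den_ne_zero

theorem n3ec_padicValRat_nonneg_iff (hp : p.Prime) (r : ℚ) :
    0 ≤ padicValRat p r ↔ ¬ p ∣ r.den := by
  haveI : Fact p.Prime := ⟨hp⟩
  rw [padicValRat_def]
  constructor
  · intro h hd
    have hnum : ¬ (p : ℤ) ∣ r.num := by
      intro hn
      have h1 : p ∣ r.num.natAbs := Int.natCast_dvd.mp hn
      have h2 : p ∣ Nat.gcd r.num.natAbs r.den := Nat.dvd_gcd h1 hd
      rw [r.reduced] at h2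
      exact hp.one_lt.ne' (Nat.dvd_one.mp h2)
    have h3 : padicValInt p r.num = 0 := padicValInt.eq_zero_of_not_dvd hnum
    have h4 : 1 ≤ padicValNat p r.den := one_le_padicValNat_of_dvd r.den_ne_zero hd
    rw [h3] at h
    omega
  · intro hd
    rw [padicValNat.eq_zero_of_not_dvd hd]
    simp

theorem n3ec_rat_mem_iff [CharZero L] (hp : p.Prime) (hA : A.LiesOverPrime p) (r : ℚ) :
    algebraMap ℚ L r ∈ A ↔ 0 ≤ padicValRat p r := by
  rw [n3ec_padicValRat_nonneg_iff hp, n3ec_algebraMap_eq]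
  have hden0 := n3ec_den_ne_zero (L := L) r
  constructor
  · intro h hd
    have hnum : ¬ (p : ℤ) ∣ r.num := by
      intro hn
      have h1 : p ∣ r.num.natAbs := Int.natCast_dvd.mp hn
      have h2 : p ∣ Nat.gcd r.num.natAbs r.den := Nat.dvd_gcd h1 hd
      rw [r.reduced] at h2
      exact hp.one_lt.ne' (Nat.dvd_one.mp h2)
    have hdn : (r.den : L) ∈ A.nonunits := (natCast_mem_nonunits_iff A hp hA r.den).mpr hd
    have hnn : (r.num : L) ∉ A.nonunits := fun h' =>
      hnum ((intCast_mem_nonunits_iff A hp hA r.num).mp h')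
    apply hnn
    rw [ValuationSubring.mem_nonunits_iff] at hdn ⊢
    have h1 : (r.num : L) = (r.num : L) / (r.den : L) * (r.den : L) := by
      field_simp
    rw [h1, map_mul]
    have h2 := (ValuationSubring.valuation_le_one_iff A _).mpr h
    exact mul_lt_one_of_nonneg_of_lt_one_right h2 zero_le hdn
  · intro hd
    have hdn : (r.den : L) ∉ A.nonunits := fun h' =>
      hd ((natCast_mem_nonunits_iff A hp hA r.den).mp h')
    have hdA : (r.den : L) ∈ A := natCast_mem A r.den
    have hv : A.valuation (r.den : L) = 1 := by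
      rw [ValuationSubring.mem_nonunits_iff] at hdn
      exact le_antisymm ((ValuationSubring.valuation_le_one_iff A _).mpr hdA) (not_lt.mp hdn)
    rw [← ValuationSubring.valuation_le_one_iff, map_div₀, hv, div_one]
    exact (ValuationSubring.valuation_le_one_iff A _).mpr (intCast_mem A r.num)

theorem n3ec_rat_not_mem_iff [CharZero L] (hp : p.Prime) (hA : A.LiesOverPrime p) (r : ℚ) :
    algebraMap ℚ L r ∉ A ↔ padicValRat p r < 0 := by
  rw [n3ec_rat_mem_iff A hp hA, not_le]

theorem n3ec_rat_val_one_iff [CharZero L] (hp : p.Prime) (hA : A.LiesOverPrime p) {r : ℚ}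
    (hr : r ≠ 0) : A.valuation (algebraMap ℚ L r) = 1 ↔ padicValRat p r = 0 := by
  haveI : Fact p.Prime := ⟨hp⟩
  have h1 := n3ec_rat_mem_iff A hp hA r
  have h2 := n3ec_rat_mem_iff A hp hA r⁻¹
  rw [padicValRat.inv, map_inv₀] at h2
  rw [← ValuationSubring.valuation_le_one_iff] at h1 h2
  rw [map_inv₀] at h2
  have hr' : A.valuation (algebraMap ℚ L r) ≠ 0 := by
    rw [ne_eq, map_eq_zero]
    exact fun h => hr ((map_eq_zero_iff _ (algebraMap ℚ L).injective).mp h)
  constructor
  · intro h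
    have h3 : 0 ≤ padicValRat p r := h1.mp h.le
    have h4 : 0 ≤ -padicValRat p r := h2.mp (by rw [h, inv_one])
    omega
  · intro h
    have h3 : A.valuation (algebraMap ℚ L r) ≤ 1 := h1.mpr h.ge
    have h4 : (A.valuation (algebraMap ℚ L r))⁻¹ ≤ 1 := h2.mpr (by rw [h]; simp)
    have h5 : 1 ≤ A.valuation (algebraMap ℚ L r) := by
      rw [inv_le_one₀ (zero_lt_iff.mpr hr')] at h4
      exact h4
    exact le_antisymm h3 h5

omit [Algebra ℚ L] in
theorem n3ec_mem_of_pow_mem {x : L} {n : ℕ} (hn : n ≠ 0) (h : x ^ n ∈ A) : x ∈ A := by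
  rw [← ValuationSubring.valuation_le_one_iff] at h ⊢
  rw [map_pow] at h
  exact (pow_le_one_iff_of_nonneg zero_le hn).mp h

omit [Algebra ℚ L] in
theorem n3ec_pow_mem_iff {x : L} {n : ℕ} (hn : n ≠ 0) : x ^ n ∈ A ↔ x ∈ A :=
  ⟨n3ec_mem_of_pow_mem A hn, fun h => pow_mem h n⟩

end Val

end Fermat.Agent.S15
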