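/-
S15 block N3, piece N3-EC (helper52), part 2: the short model scaled by `u`.

`K` a field with `2, 3 ≠ 0`, `W` a Weierstrass curve over `K`, `u ∈ Kˣ`,
`C = n3ecC W u = (u, r, s, t)` with `r = -b₂/12`, `s = -a₁/2`, `t = -(a₃ + r a₁)/2`:

* `n3ec_model_a₁/a₂/a₃` : `C • W` is short; `n3ec_model_a₄`, `n3ec_model_a₆` :
  `a₄ = -c₄ / (48 u⁴)`, `a₆ = -c₆ / (864 u⁶)`;
* `n3ec_model_int` : `C • W` has coefficients in a valuation ring `A` with `v 2 = v 3 = 1` as soon
  as `c₄ / u⁴ ∈ A`, `c₆ / u⁶ ∈ A`;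
* `n3ec_eta_scale` : `2 Y + a₁ X + a₃ = u³ (2 y + a₁' x + a₃')` for `(X, Y) = (vcX x, vcY x y)`
  (any change of variables);
* `n3ec_model_X` : `u² x = X + b₂/12`;
* `n3ec_symm_some` : the preimage of an affine point under `vcEquiv` is an affine point.
-/
import Fermat.Agent.S15.N3ECVal
import Fermat.Agent.S15.N3Sub
import Fermat.Agent.EC.VarChange

set_option autoImplicit false
set_option linter.style.haveILetI false
set_option linter.unusedSectionVars false

noncomputable section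

namespace Fermat.Agent.S15

open WeierstrassCurve WeierstrassCurve.Affine Fermat.Agent.EC

section Model

variable {K : Type*} [Field K] (W : WeierstrassCurve K) (u : Kˣ)

/-- the change of variables to the short model, scaled by `u` -/
def n3ecC : VariableChange K :=
  ⟨u, -W.b₂ / 12, -W.a₁ / 2, -(W.a₃ + (-W.b₂ / 12) * W.a₁) / 2⟩

@[simp] theorem n3ecC_u : (n3ecC W u).u = u := rfl
@[simp] theorem n3ecC_r : (n3ecC W u).r = -W.b₂ / 12 := rfl
@[simp] theorem n3ecC_s : (n3ecC W u).s = -W.a₁ / 2 := rfl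
@[simp] theorem n3ecC_t : (n3ecC W u).t = -(W.a₃ + (-W.b₂ / 12) * W.a₁) / 2 := rfl

variable (h2 : (2 : K) ≠ 0) (h3 : (3 : K) ≠ 0)

include h2 in
theorem n3ec_model_a₁ : (n3ecC W u • W).a₁ = 0 := by
  rw [variableChange_a₁, n3ecC_s]
  have : W.a₁ + 2 * (-W.a₁ / 2) = 0 := by field_simp; ring
  rw [this, mul_zero]

include h2 h3 in
theorem n3ec_model_a₂ : (n3ecC W u • W).a₂ = 0 := by
  have h12 : (12 : K) ≠ 0 := by
    have : (12 : K) = 2 * 2 * 3 := by norm_num
    rw [this]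
    exact mul_ne_zero (mul_ne_zero h2 h2) h3
  rw [variableChange_a₂, n3ecC_s, n3ecC_r]
  have : W.a₂ - -W.a₁ / 2 * W.a₁ + 3 * (-W.b₂ / 12) - (-W.a₁ / 2) ^ 2 = 0 := by
    simp only [WeierstrassCurve.b₂]
    field_simp
    ring
  rw [this, mul_zero]

include h2 in
theorem n3ec_model_a₃ : (n3ecC W u • W).a₃ = 0 := by
  rw [variableChange_a₃, n3ecC_r, n3ecC_t]
  have : W.a₃ + -W.b₂ / 12 * W.a₁ + 2 * (-(W.a₃ + -W.b₂ / 12 * W.a₁) / 2) = 0 := by
    field_simp
    ring
  rw [this, mul_zero]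

include h2 h3 in
theorem n3ec_model_c₄ : (n3ecC W u • W).c₄ = -48 * (n3ecC W u • W).a₄ := by
  have e : (n3ecC W u • W).c₄ = (n3ecC W u • W).b₂ ^ 2 - 24 * (n3ecC W u • W).b₄ := rfl
  rw [e]
  simp only [WeierstrassCurve.b₂, WeierstrassCurve.b₄, n3ec_model_a₁ W u h2,
    n3ec_model_a₂ W u h2 h3, n3ec_model_a₃ W u h2]
  ring

include h2 h3 in
theorem n3ec_model_c₆ : (n3ecC W u • W).c₆ = -864 * (n3ecC W u • W).a₆ := by
  have e : (n3ecC W u • W).c₆ = -(n3ecC W u • W).b₂ ^ 3 +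
      36 * (n3ecC W u • W).b₂ * (n3ecC W u • W).b₄ - 216 * (n3ecC W u • W).b₆ := rfl
  rw [e]
  simp only [WeierstrassCurve.b₂, WeierstrassCurve.b₄, WeierstrassCurve.b₆, n3ec_model_a₁ W u h2,
    n3ec_model_a₂ W u h2 h3, n3ec_model_a₃ W u h2]
  ring

include h2 h3 in
theorem n3ec_model_a₄ : (n3ecC W u • W).a₄ = -(W.c₄ * ((u⁻¹ : Kˣ) : K) ^ 4) / 48 := by
  have h48 : (48 : K) ≠ 0 := by
    have : (48 : K) = 2 * 2 * 2 * 2 * 3 := by norm_num
    rw [this]
    exact mul_ne_zero (mul_ne_zero (mul_ne_zero (mul_ne_zero h2 h2) h2) h2) h3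
  have h1 := n3ec_model_c₄ W u h2 h3
  rw [variableChange_c₄, n3ecC_u] at h1
  field_simp
  linear_combination h1

include h2 h3 in
theorem n3ec_model_a₆ : (n3ecC W u • W).a₆ = -(W.c₆ * ((u⁻¹ : Kˣ) : K) ^ 6) / 864 := by
  have h864 : (864 : K) ≠ 0 := by
    have : (864 : K) = 2 * 2 * 2 * 2 * 2 * (3 * 3 * 3) := by norm_num
    rw [this]
    exact mul_ne_zero (mul_ne_zero (mul_ne_zero (mul_ne_zero (mul_ne_zero h2 h2) h2) h2) h2)
      (mul_ne_zero (mul_ne_zero h3 h3) h3)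
  have h1 := n3ec_model_c₆ W u h2 h3
  rw [variableChange_c₆, n3ecC_u] at h1
  field_simp
  linear_combination h1

end Model

section Int

variable {K : Type*} [Field K] [DecidableEq K] (A : ValuationSubring K) (W : WeierstrassCurve K)
  (u : Kˣ)

theorem n3ec_val_ne_zero {x : K} (h : A.valuation x = 1) : x ≠ 0 := by
  intro h0
  rw [h0, map_zero] at h
  exact zero_ne_one h

theorem n3ec_div_mem {x c : K} (hx : x ∈ A) (hc : A.valuation c = 1) : x / c ∈ A := by
  rw [← ValuationSubring.valuation_le_one_iff] at hx ⊢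
  rw [map_div₀, hc, div_one]
  exact hx

/-- `C • W` is integral at `A` -/
theorem n3ec_model_int (h2 : A.valuation (2 : K) = 1) (h3 : A.valuation (3 : K) = 1)
    (hc₄ : W.c₄ * ((u⁻¹ : Kˣ) : K) ^ 4 ∈ A) (hc₆ : W.c₆ * ((u⁻¹ : Kˣ) : K) ^ 6 ∈ A) :
    N3Int A (n3ecC W u • W) := by
  have h2' := n3ec_val_ne_zero A h2
  have h3' := n3ec_val_ne_zero A h3
  have h48 : A.valuation (48 : K) = 1 := by
    have : (48 : K) = 2 * 2 * 2 * 2 * 3 := by norm_num
    rw [this]
    simp only [map_mul, h2, h3, mul_one]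
  have h864 : A.valuation (864 : K) = 1 := by
    have : (864 : K) = 2 * 2 * 2 * 2 * 2 * (3 * 3 * 3) := by norm_num
    rw [this]
    simp only [map_mul, h2, h3, mul_one]
  refine ⟨?_, ?_, ?_, ?_, ?_⟩
  · rw [n3ec_model_a₁ W u h2']
    exact A.zero_mem
  · rw [n3ec_model_a₂ W u h2' h3']
    exact A.zero_mem
  · rw [n3ec_model_a₃ W u h2']
    exact A.zero_mem
  · rw [n3ec_model_a₄ W u h2' h3']
    exact n3ec_div_mem A (neg_mem hc₄) h48
  · rw [n3ec_model_a₆ W u h2' h3']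
    exact n3ec_div_mem A (neg_mem hc₆) h864

end Int

section Points

variable {K : Type*} [Field K] [DecidableEq K] (W : WeierstrassCurve K) (C : VariableChange K)

/-- `η` scales by `u³` under a change of variables -/
theorem n3ec_eta_scale (x y : K) :
    2 * vcY C x y + W.a₁ * vcX C x + W.a₃ =
      (C.u : K) ^ 3 * (2 * y + (C • W).a₁ * x + (C • W).a₃) := by
  have hu := vc_u_ne_zero C
  simp only [variableChange_a₁, variableChange_a₃, vc_inv_u, vcX, vcY]
  field_simp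
  ring

/-- the preimage of an affine point is an affine point -/
theorem n3ec_symm_some {X Y : K} (h : W.toAffine.Nonsingular X Y) :
    ∃ (x y : K) (h' : (C • W).toAffine.Nonsingular x y),
      (vcEquiv W C).symm (Point.some X Y h) = Point.some x y h' ∧ vcX C x = X ∧ vcY C x y = Y := by
  have hP : vcEquiv W C ((vcEquiv W C).symm (Point.some X Y h)) = Point.some X Y h :=
    (vcEquiv W C).apply_symm_apply _
  rcases hQ : (vcEquiv W C).symm (Point.some X Y h) with _ | ⟨x, y, h'⟩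
  · rw [hQ] at hP
    exact absurd hP.symm (Point.some_ne_zero _)
  · rw [hQ, vcEquiv_apply, vcFun_some, Point.some.injEq] at hP
    exact ⟨x, y, h', rfl, hP.1, hP.2⟩

theorem n3ec_model_X (u : Kˣ) (x : K) :
    (u : K) ^ 2 * x = vcX (n3ecC W u) x + W.b₂ / 12 := by
  simp only [vcX, n3ecC_u, n3ecC_r]
  ring

end Points

end Fermat.Agent.S15
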