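/-
S15 block N3, piece N3-EC (helper52), part 3: the valuations of `η` at one point.

`p ≥ 5` a prime, `L` a field of characteristic `0`, `A` a valuation subring of `L` over `p`,
`W` a Weierstrass curve over `ℚ`, `u ∈ Lˣ`, `W' = n3ecC W_L u • W_L` the short model scaled by `u`,
`P = (x₀, y₀)` a rational point of `W`, `P' = (x', y')` the corresponding point of `W'`,
`xs = x₀ + b₂/12`, `η₀ = 2 y₀ + a₁ x₀ + a₃ ≠ 0`, `v = padicValRat p`.

* `n3ec_parity` : if `j` is integral at `p` then `v Δ` is even or divisible by `3`;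
* `n3ec_pt_alpha` : `x' ∉ A ⇒ xs ≠ 0 ∧ 4 v η₀ = 6 v xs`;
* case `u¹² = Δ`: `n3ec_int_beta` (`x' ∈ A ⇒ v Δ ≤ 4 v η₀`), `n3ec_int_alpha`
  (`x' ∉ A ⇒ 6 v xs < v Δ`), `n3ec_int_model` (`W'` is integral if `j` is);
* case `u⁴ = c₄`: `n3ec_non_beta` (`x' ∈ A ⇒ 3 v c₄ ≤ 4 v η₀`), `n3ec_non_alpha`
  (`x' ∉ A ⇒ 2 v xs < v c₄`), `n3ec_non_model` (`W'` is integral if `j` is not).
-/
import Fermat.Agent.S15.N3ECModel

set_option autoImplicit false
set_option linter.style.haveILetI false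
set_option linter.unusedSectionVars false

noncomputable section

namespace Fermat.Agent.S15

open WeierstrassCurve WeierstrassCurve.Affine Fermat.Agent.EC Fermat.Agent.S05

/-! ### Arithmetic -/

section Arith

variable {p : ℕ}

theorem n3ec_padicValRat_1728 (hp : p.Prime) (hp5 : 5 ≤ p) : padicValRat p 1728 = 0 := by
  haveI : Fact p.Prime := ⟨hp⟩
  have h1 : (1728 : ℚ) = ((1728 : ℕ) : ℚ) := by norm_num
  rw [h1, padicValRat.of_nat]
  have h2 : ¬ p ∣ 1728 := by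
    intro hd
    have e : (1728 : ℕ) = 2 ^ 6 * 3 ^ 3 := by norm_num
    rw [e] at hd
    rcases (Nat.Prime.dvd_mul hp).mp hd with h | h
    · have := (Nat.prime_dvd_prime_iff_eq hp Nat.prime_two).mp (hp.dvd_of_dvd_pow h)
      omega
    · have := (Nat.prime_dvd_prime_iff_eq hp Nat.prime_three).mp (hp.dvd_of_dvd_pow h)
      omega
  rw [padicValNat.eq_zero_of_not_dvd h2]
  rfl

/-- if `j` is integral at `p ≥ 5` then `v_p(Δ)` is even or divisible by `3` -/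
theorem n3ec_parity (hp : p.Prime) (hp5 : 5 ≤ p) {Δ c₄ c₆ : ℚ}
    (hrel : 1728 * Δ = c₄ ^ 3 - c₆ ^ 2) (hΔ : Δ ≠ 0)
    (hj : c₄ = 0 ∨ padicValRat p Δ ≤ 3 * padicValRat p c₄) :
    padicValRat p Δ % 2 = 0 ∨ padicValRat p Δ % 3 = 0 := by
  haveI : Fact p.Prime := ⟨hp⟩
  by_contra hcon
  rw [not_or] at hcon
  have h1728 := n3ec_padicValRat_1728 hp hp5
  have h1728' : (1728 : ℚ) ≠ 0 := by norm_num
  have hv : padicValRat p (-(1728 * Δ)) = padicValRat p Δ := by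
    rw [padicValRat.neg, padicValRat.mul h1728' hΔ, h1728, zero_add]
  have hne : -(1728 * Δ) ≠ 0 := neg_ne_zero.mpr (mul_ne_zero h1728' hΔ)
  have hc6 : c₆ ^ 2 = -(1728 * Δ) + c₄ ^ 3 := by linear_combination hrel
  have key : padicValRat p (c₆ ^ 2) = padicValRat p Δ := by
    rcases hj with h0 | hle
    · rw [hc6, h0]
      simp only [ne_eq, OfNat.ofNat_ne_zero, not_false_eq_true, zero_pow, add_zero]
      exact hv
    · have hc4 : c₄ ≠ 0 := by
        intro h0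
        rw [h0, padicValRat.zero, mul_zero] at hle
        have h0' : c₆ ^ 2 = -(1728 * Δ) := by rw [hc6, h0]; ring
        have hc60 : c₆ ≠ 0 := by
          intro h
          rw [h] at h0'
          exact hne (by rw [← h0']; ring)
        have h2 := congrArg (padicValRat p) h0'
        rw [padicValRat.pow c₆, hv] at h2
        omega
      have hlt : padicValRat p (-(1728 * Δ)) < padicValRat p (c₄ ^ 3) := by
        rw [hv, padicValRat.pow c₄]
        have : padicValRat p Δ ≠ 3 * padicValRat p c₄ := by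
          intro h
          omega
        push_cast
        omega
      have hsum : -(1728 * Δ) + c₄ ^ 3 ≠ 0 := by
        intro h
        have h3 : c₄ ^ 3 = 1728 * Δ := by linear_combination h
        have h4 := congrArg (padicValRat p) h3
        rw [padicValRat.pow c₄, padicValRat.mul h1728' hΔ, h1728, zero_add] at h4
        push_cast at h4
        omega
      rw [hc6, padicValRat.add_eq_of_lt hsum hne (pow_ne_zero 3 hc4) hlt, hv]
  have hc60 : c₆ ≠ 0 := by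
    intro h
    rw [h] at hc6
    rcases hj with h0 | hle
    · rw [h0] at hc6
      exact hne (by linear_combination -hc6)
    · rw [h] at key
      simp only [ne_eq, OfNat.ofNat_ne_zero, not_false_eq_true, zero_pow, padicValRat.zero] at key
      omega
  rw [padicValRat.pow c₆] at key
  push_cast at key
  omega

end Arith

/-! ### One point -/

section Point

variable {L : Type*} [Field L] [DecidableEq L] [Algebra ℚ L] [CharZero L]
  (A : ValuationSubring L) {p : ℕ} (W : WeierstrassCurve ℚ) (u : Lˣ)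

/-- the curve over `L` -/
abbrev n3ecWL : WeierstrassCurve L := W.map (algebraMap ℚ L)

/-- the short model over `L`, scaled by `u` -/
abbrev n3ecW' : WeierstrassCurve L := n3ecC (n3ecWL (L := L) W) u • n3ecWL (L := L) W

theorem n3ec_val_two (hp : p.Prime) (hp5 : 5 ≤ p) (hA : A.LiesOverPrime p) :
    A.valuation (2 : L) = 1 := by
  have h1 : ((2 : ℕ) : L) ∉ A.nonunits := fun h => by
    have := (natCast_mem_nonunits_iff A hp hA 2).mp h
    have := Nat.le_of_dvd (by norm_num) this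
    omega
  rw [ValuationSubring.mem_nonunits_iff, not_lt] at h1
  have h2 : A.valuation ((2 : ℕ) : L) ≤ 1 :=
    (ValuationSubring.valuation_le_one_iff A _).mpr (natCast_mem A 2)
  have h3 := le_antisymm h2 h1
  exact_mod_cast h3

theorem n3ec_val_three (hp : p.Prime) (hp5 : 5 ≤ p) (hA : A.LiesOverPrime p) :
    A.valuation (3 : L) = 1 := by
  have h1 : ((3 : ℕ) : L) ∉ A.nonunits := fun h => by
    have := (natCast_mem_nonunits_iff A hp hA 3).mp h
    have := Nat.le_of_dvd (by norm_num) this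
    omega
  rw [ValuationSubring.mem_nonunits_iff, not_lt] at h1
  have h2 : A.valuation ((3 : ℕ) : L) ≤ 1 :=
    (ValuationSubring.valuation_le_one_iff A _).mpr (natCast_mem A 3)
  have h3 := le_antisymm h2 h1
  exact_mod_cast h3

omit [DecidableEq L] [Algebra ℚ L] [CharZero L] in
theorem n3ec_inv_u_units : ((u⁻¹ : Lˣ) : L) = (u : L)⁻¹ := by simp

variable {x₀ y₀ : ℚ} {x' y' : L}

/-- `4 v(η₀) = 6 v(xs)` at a point of the kernel of reduction -/
theorem n3ec_pt_alpha (hp : p.Prime) (hp5 : 5 ≤ p) (hA : A.LiesOverPrime p)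
    (hint : N3Int A (n3ecW' (L := L) W u))
    (h' : (n3ecW' (L := L) W u).toAffine.Equation x' y')
    (hX : (u : L) ^ 2 * x' = algebraMap ℚ L (x₀ + W.b₂ / 12))
    (hE : (u : L) ^ 3 * (2 * y' + (n3ecW' (L := L) W u).a₁ * x' + (n3ecW' (L := L) W u).a₃) =
      algebraMap ℚ L (2 * y₀ + W.a₁ * x₀ + W.a₃))
    (hη : 2 * y₀ + W.a₁ * x₀ + W.a₃ ≠ 0) (hx' : x' ∉ A) :
    x₀ + W.b₂ / 12 ≠ 0 ∧
      4 * padicValRat p (2 * y₀ + W.a₁ * x₀ + W.a₃) = 6 * padicValRat p (x₀ + W.b₂ / 12) := by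
  haveI : Fact p.Prime := ⟨hp⟩
  have hu : (u : L) ≠ 0 := u.ne_zero
  set xs : ℚ := x₀ + W.b₂ / 12 with hxs
  set η₀ : ℚ := 2 * y₀ + W.a₁ * x₀ + W.a₃ with hη₀
  have hxs0 : xs ≠ 0 := by
    intro h0
    rw [h0, map_zero] at hX
    rcases mul_eq_zero.mp hX with h | h
    · exact pow_ne_zero 2 hu h
    · exact hx' (h ▸ A.zero_mem)
  refine ⟨hxs0, ?_⟩
  have h2 := n3ec_val_two A hp hp5 hA
  have hv1 := n3sub_val_eta hint h2 h' hx'
  have hv2 := n3sub_val_sq hint h' hx'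
  -- `v(η')⁴ = v(x')⁶`
  have hv3 : A.valuation (2 * y' + (n3ecW' (L := L) W u).a₁ * x' + (n3ecW' (L := L) W u).a₃) ^ 4
      = A.valuation x' ^ 6 := by
    rw [hv1, show (4 : ℕ) = 2 * 2 from rfl, pow_mul, hv2, ← pow_mul]
  -- multiply by `v(u)¹²`
  have hv4 : A.valuation (algebraMap ℚ L (η₀ ^ 4)) = A.valuation (algebraMap ℚ L (xs ^ 6)) := by
    have e1 : A.valuation (algebraMap ℚ L (η₀ ^ 4)) = A.valuation (u : L) ^ 12 *
        A.valuation (2 * y' + (n3ecW' (L := L) W u).a₁ * x' + (n3ecW' (L := L) W u).a₃) ^ 4 := by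
      rw [map_pow, ← hE, map_pow, map_mul, map_pow, mul_pow, ← pow_mul]
    have e2 : A.valuation (algebraMap ℚ L (xs ^ 6)) = A.valuation (u : L) ^ 12 *
        A.valuation x' ^ 6 := by
      rw [map_pow, ← hX, map_pow, map_mul, map_pow, mul_pow, ← pow_mul]
    rw [e1, e2, hv3]
  have hxs6 : xs ^ 6 ≠ 0 := pow_ne_zero 6 hxs0
  have hη4 : η₀ ^ 4 ≠ 0 := pow_ne_zero 4 hη
  have hv5 : A.valuation (algebraMap ℚ L (η₀ ^ 4 / xs ^ 6)) = 1 := by
    rw [map_div₀, map_div₀, hv4]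
    refine div_self ?_
    rw [ne_eq, map_eq_zero, map_eq_zero_iff _ (algebraMap ℚ L).injective]
    exact hxs6
  have hv6 := (n3ec_rat_val_one_iff A hp hA (div_ne_zero hη4 hxs6)).mp hv5
  rw [padicValRat.div hη4 hxs6, padicValRat.pow η₀, padicValRat.pow xs] at hv6
  push_cast at hv6
  omega

/-! ### The case `u¹² = Δ` (`j` integral) -/

section IntCase

variable (hu : (u : L) ^ 12 = algebraMap ℚ L W.Δ)

include hu in
theorem n3ec_int_model (hp : p.Prime) (hp5 : 5 ≤ p) (hA : A.LiesOverPrime p) (hΔ : W.Δ ≠ 0)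
    (hj : W.c₄ = 0 ∨ padicValRat p W.Δ ≤ 3 * padicValRat p W.c₄) :
    N3Int A (n3ecW' (L := L) W u) := by
  haveI : Fact p.Prime := ⟨hp⟩
  have hu0 : (u : L) ≠ 0 := u.ne_zero
  have hΔL : algebraMap ℚ L W.Δ ≠ 0 := by
    rw [← hu]
    exact pow_ne_zero 12 hu0
  -- `c₄³/Δ ∈ A`
  have hjA : algebraMap ℚ L (W.c₄ ^ 3 / W.Δ) ∈ A := by
    rw [n3ec_rat_mem_iff A hp hA]
    rcases hj with h0 | hle
    · rw [h0]
      simp
    · by_cases h0 : W.c₄ = 0
      · rw [h0]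
        simp
      · rw [padicValRat.div (pow_ne_zero 3 h0) hΔ, padicValRat.pow]
        push_cast
        omega
  refine n3ec_model_int A _ u (n3ec_val_two A hp hp5 hA) (n3ec_val_three A hp hp5 hA) ?_ ?_
  · apply n3ec_mem_of_pow_mem A (n := 3) (by norm_num)
    have e : ((n3ecWL (L := L) W).c₄ * ((u⁻¹ : Lˣ) : L) ^ 4) ^ 3 =
        algebraMap ℚ L (W.c₄ ^ 3 / W.Δ) := by
      rw [map_div₀, map_pow, ← hu, WeierstrassCurve.map_c₄, n3ec_inv_u_units]
      field_simp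
    rw [e]
    exact hjA
  · apply n3ec_mem_of_pow_mem A (n := 2) (by norm_num)
    have hrel := W.c_relation
    have e : ((n3ecWL (L := L) W).c₆ * ((u⁻¹ : Lˣ) : L) ^ 6) ^ 2 =
        algebraMap ℚ L (W.c₄ ^ 3 / W.Δ) - algebraMap ℚ L 1728 := by
      have h1 : W.c₆ ^ 2 = W.c₄ ^ 3 - 1728 * W.Δ := by linear_combination hrel
      have h2 : algebraMap ℚ L (W.c₄ ^ 3 / W.Δ) - algebraMap ℚ L 1728 =
          algebraMap ℚ L (W.c₆ ^ 2 / W.Δ) := by
        rw [← map_sub, h1]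
        congr 1
        field_simp
      rw [h2, map_div₀, map_pow, ← hu, WeierstrassCurve.map_c₆, n3ec_inv_u_units]
      field_simp
    rw [e]
    refine sub_mem hjA ?_
    rw [n3ec_rat_mem_iff A hp hA, n3ec_padicValRat_1728 hp hp5]

variable {x₀ y₀ : ℚ} {x' y' : L}

include hu in
theorem n3ec_int_beta (hp : p.Prime) (hA : A.LiesOverPrime p) (hΔ : W.Δ ≠ 0)
    (hint : N3Int A (n3ecW' (L := L) W u))
    (h' : (n3ecW' (L := L) W u).toAffine.Equation x' y')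
    (hE : (u : L) ^ 3 * (2 * y' + (n3ecW' (L := L) W u).a₁ * x' + (n3ecW' (L := L) W u).a₃) =
      algebraMap ℚ L (2 * y₀ + W.a₁ * x₀ + W.a₃))
    (hη : 2 * y₀ + W.a₁ * x₀ + W.a₃ ≠ 0) (hx' : x' ∈ A) :
    padicValRat p W.Δ ≤ 4 * padicValRat p (2 * y₀ + W.a₁ * x₀ + W.a₃) := by
  haveI : Fact p.Prime := ⟨hp⟩
  have hu0 : (u : L) ≠ 0 := u.ne_zero
  have hmem := n3sub_eta_mem hint h' hx'
  have e : algebraMap ℚ L ((2 * y₀ + W.a₁ * x₀ + W.a₃) ^ 4 / W.Δ) =
      (2 * y' + (n3ecW' (L := L) W u).a₁ * x' + (n3ecW' (L := L) W u).a₃) ^ 4 := by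
    rw [map_div₀, map_pow, ← hE, ← hu]
    field_simp
  have h1 : algebraMap ℚ L ((2 * y₀ + W.a₁ * x₀ + W.a₃) ^ 4 / W.Δ) ∈ A := by
    rw [e]
    exact pow_mem hmem 4
  rw [n3ec_rat_mem_iff A hp hA, padicValRat.div (pow_ne_zero 4 hη) hΔ, padicValRat.pow] at h1
  push_cast at h1
  omega

include hu in
theorem n3ec_int_alpha (hp : p.Prime) (hA : A.LiesOverPrime p) (hΔ : W.Δ ≠ 0)
    (hX : (u : L) ^ 2 * x' = algebraMap ℚ L (x₀ + W.b₂ / 12))
    (hxs : x₀ + W.b₂ / 12 ≠ 0) (hx' : x' ∉ A) :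
    6 * padicValRat p (x₀ + W.b₂ / 12) < padicValRat p W.Δ := by
  haveI : Fact p.Prime := ⟨hp⟩
  have hu0 : (u : L) ≠ 0 := u.ne_zero
  have e : algebraMap ℚ L ((x₀ + W.b₂ / 12) ^ 6 / W.Δ) = x' ^ 6 := by
    rw [map_div₀, map_pow, ← hX, ← hu]
    field_simp
  have h1 : algebraMap ℚ L ((x₀ + W.b₂ / 12) ^ 6 / W.Δ) ∉ A := by
    rw [e]
    exact fun h => hx' (n3ec_mem_of_pow_mem A (by norm_num) h)
  rw [n3ec_rat_not_mem_iff A hp hA, padicValRat.div (pow_ne_zero 6 hxs) hΔ, padicValRat.pow]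
    at h1
  push_cast at h1
  omega

end IntCase

/-! ### The case `u⁴ = c₄` (`j` not integral) -/

section NonCase

variable (hu : (u : L) ^ 4 = algebraMap ℚ L W.c₄)

include hu in
theorem n3ec_non_model (hp : p.Prime) (hp5 : 5 ≤ p) (hA : A.LiesOverPrime p) (hΔ : W.Δ ≠ 0)
    (hc₄ : W.c₄ ≠ 0) (hj : 3 * padicValRat p W.c₄ < padicValRat p W.Δ) :
    N3Int A (n3ecW' (L := L) W u) := by
  haveI : Fact p.Prime := ⟨hp⟩
  have hu0 : (u : L) ≠ 0 := u.ne_zero
  have hcL : algebraMap ℚ L W.c₄ ≠ 0 := by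
    rw [← hu]
    exact pow_ne_zero 4 hu0
  have hjA : algebraMap ℚ L (W.Δ / W.c₄ ^ 3) ∈ A := by
    rw [n3ec_rat_mem_iff A hp hA, padicValRat.div hΔ (pow_ne_zero 3 hc₄), padicValRat.pow]
    push_cast
    omega
  refine n3ec_model_int A _ u (n3ec_val_two A hp hp5 hA) (n3ec_val_three A hp hp5 hA) ?_ ?_
  · have e : (n3ecWL (L := L) W).c₄ * ((u⁻¹ : Lˣ) : L) ^ 4 = 1 := by
      rw [WeierstrassCurve.map_c₄, ← hu, n3ec_inv_u_units]
      field_simp
    rw [e]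
    exact A.one_mem
  · apply n3ec_mem_of_pow_mem A (n := 2) (by norm_num)
    have hrel := W.c_relation
    have e : ((n3ecWL (L := L) W).c₆ * ((u⁻¹ : Lˣ) : L) ^ 6) ^ 2 =
        1 - algebraMap ℚ L 1728 * algebraMap ℚ L (W.Δ / W.c₄ ^ 3) := by
      have h1 : W.c₆ ^ 2 = W.c₄ ^ 3 - 1728 * W.Δ := by linear_combination hrel
      have h2 : 1 - algebraMap ℚ L 1728 * algebraMap ℚ L (W.Δ / W.c₄ ^ 3) =
          algebraMap ℚ L (W.c₆ ^ 2 / W.c₄ ^ 3) := by
        rw [← map_mul, ← map_one (algebraMap ℚ L), ← map_sub, h1]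
        congr 1
        field_simp
      have hu12 : (u : L) ^ 12 = algebraMap ℚ L (W.c₄ ^ 3) := by
        rw [map_pow, ← hu, ← pow_mul]
      rw [h2, map_div₀, ← hu12, map_pow, WeierstrassCurve.map_c₆, n3ec_inv_u_units]
      field_simp
    rw [e]
    refine sub_mem A.one_mem (mul_mem ?_ hjA)
    rw [n3ec_rat_mem_iff A hp hA, n3ec_padicValRat_1728 hp hp5]

variable {x₀ y₀ : ℚ} {x' y' : L}

include hu in
theorem n3ec_non_beta (hp : p.Prime) (hA : A.LiesOverPrime p) (hc₄ : W.c₄ ≠ 0)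
    (hint : N3Int A (n3ecW' (L := L) W u))
    (h' : (n3ecW' (L := L) W u).toAffine.Equation x' y')
    (hE : (u : L) ^ 3 * (2 * y' + (n3ecW' (L := L) W u).a₁ * x' + (n3ecW' (L := L) W u).a₃) =
      algebraMap ℚ L (2 * y₀ + W.a₁ * x₀ + W.a₃))
    (hη : 2 * y₀ + W.a₁ * x₀ + W.a₃ ≠ 0) (hx' : x' ∈ A) :
    3 * padicValRat p W.c₄ ≤ 4 * padicValRat p (2 * y₀ + W.a₁ * x₀ + W.a₃) := by
  haveI : Fact p.Prime := ⟨hp⟩
  have hu0 : (u : L) ≠ 0 := u.ne_zero
  have hmem := n3sub_eta_mem hint h' hx'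
  have hu12 : (u : L) ^ 12 = algebraMap ℚ L (W.c₄ ^ 3) := by
    rw [map_pow, ← hu, ← pow_mul]
  have e : algebraMap ℚ L ((2 * y₀ + W.a₁ * x₀ + W.a₃) ^ 4 / W.c₄ ^ 3) =
      (2 * y' + (n3ecW' (L := L) W u).a₁ * x' + (n3ecW' (L := L) W u).a₃) ^ 4 := by
    rw [map_div₀, ← hu12, map_pow, ← hE]
    field_simp
  have h1 : algebraMap ℚ L ((2 * y₀ + W.a₁ * x₀ + W.a₃) ^ 4 / W.c₄ ^ 3) ∈ A := by
    rw [e]
    exact pow_mem hmem 4
  rw [n3ec_rat_mem_iff A hp hA, padicValRat.div (pow_ne_zero 4 hη) (pow_ne_zero 3 hc₄),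
    padicValRat.pow, padicValRat.pow] at h1
  push_cast at h1
  omega

include hu in
theorem n3ec_non_alpha (hp : p.Prime) (hA : A.LiesOverPrime p) (hc₄ : W.c₄ ≠ 0)
    (hX : (u : L) ^ 2 * x' = algebraMap ℚ L (x₀ + W.b₂ / 12))
    (hxs : x₀ + W.b₂ / 12 ≠ 0) (hx' : x' ∉ A) :
    2 * padicValRat p (x₀ + W.b₂ / 12) < padicValRat p W.c₄ := by
  haveI : Fact p.Prime := ⟨hp⟩
  have hu0 : (u : L) ≠ 0 := u.ne_zero
  have e : algebraMap ℚ L ((x₀ + W.b₂ / 12) ^ 2 / W.c₄) = x' ^ 2 := by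
    rw [map_div₀, map_pow, ← hX, ← hu]
    field_simp
  have h1 : algebraMap ℚ L ((x₀ + W.b₂ / 12) ^ 2 / W.c₄) ∉ A := by
    rw [e]
    exact fun h => hx' (n3ec_mem_of_pow_mem A (by norm_num) h)
  rw [n3ec_rat_not_mem_iff A hp hA, padicValRat.div (pow_ne_zero 2 hxs) hc₄, padicValRat.pow]
    at h1
  push_cast at h1
  omega

end NonCase

end Point

end Fermat.Agent.S15
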