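/-
S15 block N3, piece N3-EC (helper52), part 4: the dichotomy for the multiples of a point of
prime order `p ≥ 5`.

`W / ℚ`, `Q ∈ W(L)` with `p • Q = 0`, `k • Q = (x₀ k, y₀ k)` rational for `1 ≤ k < p`,
`η k = 2 y₀ k + a₁ x₀ k + a₃ ≠ 0`, `v = padicValRat p`:

* `n3ec_dich_int` (`j` integral at `p`) :
    `(∀ k, v Δ ≤ 4 v (η k)) ∨ (∀ k, 4 v (η k) ≤ v Δ - 2)`;
* `n3ec_dich_non` (`j` not integral at `p`) :
    `(∀ k, 3 v c₄ ≤ 4 v (η k)) ∨ (∀ k, 4 v (η k) ≤ 3 v c₄ - 3)`.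
-/
import Fermat.Agent.S15.N3ECPt

set_option autoImplicit false
set_option linter.style.haveILetI false
set_option linter.unusedSectionVars false

noncomputable section

namespace Fermat.Agent.S15

open WeierstrassCurve WeierstrassCurve.Affine Fermat.Agent.EC Fermat.Agent.S05

section Dich

variable {L : Type*} [Field L] [DecidableEq L] [Algebra ℚ L] [CharZero L]
  (A : ValuationSubring L) {p : ℕ} (W : WeierstrassCurve ℚ) (u : Lˣ)

/-- the point of the scaled short model corresponding to `Q` -/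
def n3ecQ' (Q : (n3ecWL (L := L) W).toAffine.Point) : (n3ecW' (L := L) W u).toAffine.Point :=
  (vcEquiv (n3ecWL (L := L) W) (n3ecC (n3ecWL (L := L) W) u)).symm Q

theorem n3ecQ'_nsmul (Q : (n3ecWL (L := L) W).toAffine.Point) (k : ℕ) :
    k • n3ecQ' W u Q = n3ecQ' W u (k • Q) :=
  (map_nsmul (vcEquiv (n3ecWL (L := L) W) (n3ecC (n3ecWL (L := L) W) u)).symm k Q).symm

theorem n3ecQ'_zero : n3ecQ' W u (0 : (n3ecWL (L := L) W).toAffine.Point) = 0 :=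
  map_zero (vcEquiv (n3ecWL (L := L) W) (n3ecC (n3ecWL (L := L) W) u)).symm

/-- the data of one rational point on the scaled short model -/
theorem n3ec_pt_data {x₀ y₀ : ℚ}
    (h : (n3ecWL (L := L) W).toAffine.Nonsingular (algebraMap ℚ L x₀) (algebraMap ℚ L y₀)) :
    ∃ (x' y' : L) (h' : (n3ecW' (L := L) W u).toAffine.Nonsingular x' y'),
      n3ecQ' W u (Point.some _ _ h) = Point.some x' y' h' ∧
      (u : L) ^ 2 * x' = algebraMap ℚ L (x₀ + W.b₂ / 12) ∧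
      (u : L) ^ 3 * (2 * y' + (n3ecW' (L := L) W u).a₁ * x' + (n3ecW' (L := L) W u).a₃) =
        algebraMap ℚ L (2 * y₀ + W.a₁ * x₀ + W.a₃) := by
  obtain ⟨x', y', h', hQ, hx, hy⟩ :=
    n3ec_symm_some (n3ecWL (L := L) W) (n3ecC (n3ecWL (L := L) W) u) h
  refine ⟨x', y', h', hQ, ?_, ?_⟩
  · have h1 := n3ec_model_X (n3ecWL (L := L) W) u x'
    rw [h1, hx, WeierstrassCurve.map_b₂, map_add, map_div₀]
    congr 2
    exact (map_ofNat (algebraMap ℚ L) 12).symm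
  · have h1 := n3ec_eta_scale (n3ecWL (L := L) W) (n3ecC (n3ecWL (L := L) W) u) x' y'
    rw [n3ecC_u] at h1
    rw [← h1, hx, hy, WeierstrassCurve.map_a₁, WeierstrassCurve.map_a₃, map_add, map_add, map_mul,
      map_mul]
    congr 3
    exact (map_ofNat (algebraMap ℚ L) 2).symm

variable (Q : (n3ecWL (L := L) W).toAffine.Point) (x₀ y₀ : ℕ → ℚ)

/-- **the dichotomy**, `j` integral at `p` -/
theorem n3ec_dich_int (hp : p.Prime) (hp5 : 5 ≤ p) (hA : A.LiesOverPrime p) (hΔ : W.Δ ≠ 0)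
    (hu : (u : L) ^ 12 = algebraMap ℚ L W.Δ)
    (hj : W.c₄ = 0 ∨ padicValRat p W.Δ ≤ 3 * padicValRat p W.c₄)
    (hQ : p • Q = 0)
    (hpt : ∀ k ∈ Finset.Ico 1 p, ∃ h, k • Q =
      Point.some (algebraMap ℚ L (x₀ k)) (algebraMap ℚ L (y₀ k)) h)
    (hη : ∀ k ∈ Finset.Ico 1 p, 2 * y₀ k + W.a₁ * x₀ k + W.a₃ ≠ 0) :
    (∀ k ∈ Finset.Ico 1 p,
        padicValRat p W.Δ ≤ 4 * padicValRat p (2 * y₀ k + W.a₁ * x₀ k + W.a₃)) ∨
      (∀ k ∈ Finset.Ico 1 p,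
        4 * padicValRat p (2 * y₀ k + W.a₁ * x₀ k + W.a₃) ≤ padicValRat p W.Δ - 2) := by
  have hint := n3ec_int_model A W u hu hp hp5 hA hΔ hj
  have hpar := n3ec_parity hp hp5 W.c_relation hΔ hj
  have hQ' : p • n3ecQ' W u Q = 0 := by rw [n3ecQ'_nsmul, hQ, n3ecQ'_zero]
  by_cases hker : n3ecQ' W u Q ∈ n3subKer A _ hint
  · right
    intro k hk
    obtain ⟨h, hkQ⟩ := hpt k hk
    obtain ⟨x', y', h', hQk, hX, hE⟩ := n3ec_pt_data W u h
    have hmem : k • n3ecQ' W u Q ∈ n3subKer A _ hint := n3sub_nsmul_mem hint hker k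
    rw [n3ecQ'_nsmul, hkQ, hQk, n3sub_mem_ker_some] at hmem
    obtain ⟨hxs, h46⟩ := n3ec_pt_alpha A W u hp hp5 hA hint h'.1 hX hE (hη k hk) hmem
    have hlt := n3ec_int_alpha A W u hu hp hA hΔ hX hxs hmem
    omega
  · left
    intro k hk
    obtain ⟨h, hkQ⟩ := hpt k hk
    obtain ⟨x', y', h', hQk, hX, hE⟩ := n3ec_pt_data W u h
    have hkp : ¬ p ∣ k := by
      rw [Finset.mem_Ico] at hk
      exact Nat.not_dvd_of_pos_of_lt (by omega) hk.2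
    have hmem : k • n3ecQ' W u Q ∉ n3subKer A _ hint := fun hm =>
      hker (n3sub_mem_of_nsmul_mem hint hp hQ' hkp hm)
    rw [n3ecQ'_nsmul, hkQ, hQk, n3sub_mem_ker_some, not_not] at hmem
    exact n3ec_int_beta A W u hu hp hA hΔ hint h'.1 hE (hη k hk) hmem

/-- **the dichotomy**, `j` not integral at `p` -/
theorem n3ec_dich_non (hp : p.Prime) (hp5 : 5 ≤ p) (hA : A.LiesOverPrime p) (hΔ : W.Δ ≠ 0)
    (hc₄ : W.c₄ ≠ 0) (hu : (u : L) ^ 4 = algebraMap ℚ L W.c₄)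
    (hj : 3 * padicValRat p W.c₄ < padicValRat p W.Δ)
    (hQ : p • Q = 0)
    (hpt : ∀ k ∈ Finset.Ico 1 p, ∃ h, k • Q =
      Point.some (algebraMap ℚ L (x₀ k)) (algebraMap ℚ L (y₀ k)) h)
    (hη : ∀ k ∈ Finset.Ico 1 p, 2 * y₀ k + W.a₁ * x₀ k + W.a₃ ≠ 0) :
    (∀ k ∈ Finset.Ico 1 p,
        3 * padicValRat p W.c₄ ≤ 4 * padicValRat p (2 * y₀ k + W.a₁ * x₀ k + W.a₃)) ∨
      (∀ k ∈ Finset.Ico 1 p,
        4 * padicValRat p (2 * y₀ k + W.a₁ * x₀ k + W.a₃) ≤ 3 * padicValRat p W.c₄ - 3) := by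
  have hint := n3ec_non_model A W u hu hp hp5 hA hΔ hc₄ hj
  have hQ' : p • n3ecQ' W u Q = 0 := by rw [n3ecQ'_nsmul, hQ, n3ecQ'_zero]
  by_cases hker : n3ecQ' W u Q ∈ n3subKer A _ hint
  · right
    intro k hk
    obtain ⟨h, hkQ⟩ := hpt k hk
    obtain ⟨x', y', h', hQk, hX, hE⟩ := n3ec_pt_data W u h
    have hmem : k • n3ecQ' W u Q ∈ n3subKer A _ hint := n3sub_nsmul_mem hint hker k
    rw [n3ecQ'_nsmul, hkQ, hQk, n3sub_mem_ker_some] at hmem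
    obtain ⟨hxs, h46⟩ := n3ec_pt_alpha A W u hp hp5 hA hint h'.1 hX hE (hη k hk) hmem
    have hlt := n3ec_non_alpha A W u hu hp hA hc₄ hX hxs hmem
    omega
  · left
    intro k hk
    obtain ⟨h, hkQ⟩ := hpt k hk
    obtain ⟨x', y', h', hQk, hX, hE⟩ := n3ec_pt_data W u h
    have hkp : ¬ p ∣ k := by
      rw [Finset.mem_Ico] at hk
      exact Nat.not_dvd_of_pos_of_lt (by omega) hk.2
    have hmem : k • n3ecQ' W u Q ∉ n3subKer A _ hint := fun hm =>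
      hker (n3sub_mem_of_nsmul_mem hint hp hQ' hkp hm)
    rw [n3ecQ'_nsmul, hkQ, hQk, n3sub_mem_ker_some, not_not] at hmem
    exact n3ec_non_beta A W u hu hp hA hc₄ hint h'.1 hE (hη k hk) hmem

end Dich

end Fermat.Agent.S15
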