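import Fermat.Agent.S15.ModAsmPlan
import Fermat.Agent.S15.ModXi

/-!
# S15 / block N3 — the certificate `IsTypeTwo` at the level prime (captain helper51)

Design: `NOTES/S15-N3.md` (helper17), piece table: `NOTES/S15-N3plan.md`.

`N = p` the level, `x` the place of `F_N` at `τ₀`, `(ℂ/(ℤτ₀ + ℤ), 1/N) ≅ (E, Q)`,
`u = oggU N = Δ(q^N)/Δ(q)`, `g = N¹² u`.

* `n3Psi W x = 4x³ + b₂x² + 2b₄x + b₆ = (2y + a₁x + a₃)²` on the curve.
* `N3Rel N τ d` : `d · N¹² · ∏_{k=1}^{N-1} ℘'(k/N; τ)⁴ = Δ(ℤτ + ℤ)^{N-1}`; it characterises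
  `d = u(τ) = Δ(Nτ)/Δ(τ)` (product formula `N¹² Δ(Nτ) ∏ ℘'(k/N)⁴ = Δ(τ)^N`).
* `N3Dich p a d` : the dichotomy of the curve side,
  `v(g) ≤ (p-1)V⁺` or `(p-1)V⁺ + 2(p-1) ≤ v(g)`, `v(g) = v_p(d) + 12`, `V⁺ = max(0, -v_p(a))`.

Pieces:
* `StmtN3F`   (N3-F, analytic + place): `N3Rel N τ₀ (embC d)` ⇒ `u` has the value `d` at the
              place at `τ₀`.
* `StmtN3Eq`  (N3-EQ, modular equation of `g` over `ℤ[j]` + Newton polygon).
* `StmtN3EC`  (N3-EC, elementary valuations on the curve).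
* `StmtModAsmE2`, `StmtModAsmP2` : the two halves of MOD-ASM, extended by `d`.
* `stmtMod_of_n3` : the assembly, proving `Plan.StmtMod` (v2).
-/

set_option autoImplicit false
set_option linter.unusedSectionVars false
set_option synthInstance.maxHeartbeats 400000

noncomputable section

namespace Fermat.Agent.S15

open UpperHalfPlane AlgebraicCurve ModularCurve PeriodPair
open Fermat.Agent.S24 Fermat.Agent.S28 Fermat.Agent.W1 Fermat.Agent.ES.M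
open scoped MatrixGroups WeierstrassCurve.Affine

/-- `ψ₂² = 4x³ + b₂x² + 2b₄x + b₆`; on the curve it is `(2y + a₁x + a₃)²`. -/
def n3Psi {R : Type*} [CommRing R] (W : WeierstrassCurve R) (x : R) : R :=
  4 * x ^ 3 + W.b₂ * x ^ 2 + 2 * W.b₄ * x + W.b₆

/-- the discriminant `g₂³ - 27 g₃²` of a lattice -/
def n3Disc (L : PeriodPair) : ℂ := L.g₂ ^ 3 - 27 * L.g₃ ^ 2

/-- `d · N¹² · ∏_{k=1}^{N-1} ℘'(k/N; τ)⁴ = Δ(ℤτ + ℤ)^{N-1}`: the relation which characterises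
`d = Δ(Nτ)/Δ(τ)`. -/
def N3Rel (N : ℕ) (τ : ℍ) (d : ℂ) : Prop :=
  d * (N : ℂ) ^ 12 * ∏ k ∈ Finset.Ico 1 N, (℘'[modLat τ] ((k : ℂ) / (N : ℂ))) ^ 4 =
    n3Disc (modLat τ) ^ (N - 1)

/-- the algebraic twin of `N3Rel`:
`d · N¹² · ∏_{k=1}^{N-1} ψ₂²(x(kQ))² = Δ(W)^{N-1}` -/
def N3RelAlg (N : ℕ) (W : WeierstrassCurve ℤ)
    (Q : ((W.map (Int.castRingHom ℚ))⁄(AlgebraicClosure ℚ)).Point) (d : ℚ) : Prop :=
  algebraMap ℚ Kb d * (N : Kb) ^ 12 *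
      ∏ k ∈ Finset.Ico 1 N,
        (n3Psi ((W.map (Int.castRingHom ℚ)).baseChange Kb) (modPtX (k • Q))) ^ 2 =
    ((W.Δ : ℤ) : Kb) ^ (N - 1)

/-- the dichotomy of the curve side: with `v = v_p`, `g = p¹² d`, `V⁺ = max(0, -v(a))`:
`v(g) ≤ (p-1)V⁺` (no multiple of `Q` in the kernel of reduction) or
`(p-1)V⁺ + 2(p-1) ≤ v(g)` (all of them). -/
def N3Dich (p : ℕ) (a d : ℚ) : Prop :=
  padicValRat p d + 12 ≤ ((p : ℤ) - 1) * max 0 (-padicValRat p a) ∨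
    ((p : ℤ) - 1) * max 0 (-padicValRat p a) + 2 * ((p : ℤ) - 1) ≤ padicValRat p d + 12

/-- **N3-F** (analytic + place): if `d · N¹² ∏ ℘'(k/N; τ₀)⁴ = Δ(τ₀)^{N-1}` then the modular
unit `u_N` has the value `d` at the place at `τ₀`.
(Product formula `N¹² Δ(Nτ) ∏_k ℘'(k/N; τ)⁴ = Δ(τ)^N`, then `IsPlaceAt`.) -/
def StmtN3F : Prop :=
  ∀ (N : ℕ) [NeZero N], N.Prime → 5 ≤ N → ∀ (τ₀ : ℍ) (j₀ : Kb), Jfun τ₀ = embC j₀ →
    (modLat τ₀).g₃ ≠ 0 →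
    ∀ x : Place Kb (FF N), IsPlaceAt N τ₀ x → ∀ d : Kb, N3Rel N τ₀ (embC d) →
      HasValueAt x (oggU N) d

/-- **N3-EQ** (modular equation of `g = N¹² u_N` over `ℤ[j]` + Newton polygon at `N`):
`(MB)` `v(j) ≥ 0 ⇒ v(g) ≤ 12`; `(DICH)` `v(j) = -V < 0 ⇒ v(g) = 12 + (N-1)V` or
`v(g) = -(N-1)V/N`. -/
def StmtN3Eq : Prop :=
  ∀ (N : ℕ) [NeZero N], N.Prime → ∀ (P : Place Kb (FF N)) (a d : ℚ), d ≠ 0 →
    HasValueAt P (jF N) (algebraMap ℚ Kb a) → HasValueAt P (oggU N) (algebraMap ℚ Kb d) →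
    (0 ≤ padicValRat N a → padicValRat N d ≤ 0) ∧
    (padicValRat N a < 0 →
      padicValRat N d = -(((N : ℤ) - 1) * padicValRat N a) ∨
        (N : ℤ) * (padicValRat N d + 12) = ((N : ℤ) - 1) * padicValRat N a)

/-- **N3-EC** (elementary valuations on the curve, `NOTES/S15-N3.md` (EC), with N3-SUB). -/
def StmtN3EC : Prop :=
  ∀ (p : ℕ), p.Prime → 5 ≤ p → ∀ (W : WeierstrassCurve ℤ), W.Δ ≠ 0 →
    ∀ Q : ((W.map (Int.castRingHom ℚ))⁄(AlgebraicClosure ℚ)).Point,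
      (∀ σ : AlgebraicClosure ℚ ≃ₐ[ℚ] AlgebraicClosure ℚ, σ • Q = Q) → addOrderOf Q = p →
      ∀ d : ℚ, N3RelAlg p W Q d → N3Dich p ((W.c₄ : ℚ) ^ 3 / (W.Δ : ℚ)) d

/-- **MOD-ASM-P2** (place side): `StmtModAsmP` with the value of `u_N`. -/
def StmtModAsmP2 : Prop :=
  ∀ (N : ℕ) [NeZero N], N.Prime → 5 ≤ N → ∀ (τ₀ : ℍ) (a : ℚ) (c : ℤ → ℚ) (d : ℚ),
    Jfun τ₀ = embC (algebraMap ℚ Kb a) →
    (∀ γ : SL(2, ℤ), (modLat (γ • τ₀)).g₃ ≠ 0) →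
    (∀ t : ℤ, modPiAn N (t : ℂ) τ₀ = embC (algebraMap ℚ Kb (c t))) →
    (∀ γ : SL(2, ℤ), (∀ t : ℤ, modPiAn N (t : ℂ) (γ • τ₀) = modPiAn N (t : ℂ) τ₀) →
      γ ∈ CongruenceSubgroup.Gamma0 N) →
    N3Rel N τ₀ (embC (algebraMap ℚ Kb d)) →
    ∃ x : Place Kb (FF N), IsRatPlace N x a (c 0) ∧
      HasValueAt x (oggU N) (algebraMap ℚ Kb d)

/-- **MOD-ASM-E2** (curve side): `StmtModAsmE` with the value `d` of `u_N` at `τ₀` and the
dichotomy of the curve side at the level prime. -/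
def StmtModAsmE2 : Prop :=
  ∀ (p : ℕ), p.Prime → 5 ≤ p → ∀ (W : WeierstrassCurve ℤ), W.Δ ≠ 0 →
    (∃ ℓ : ℕ, ℓ.Prime ∧ (ℓ : ℤ) ∣ W.Δ ∧ ¬ (ℓ : ℤ) ∣ W.c₄) →
    ∀ Q : ((W.map (Int.castRingHom ℚ))⁄(AlgebraicClosure ℚ)).Point,
      (∀ σ : AlgebraicClosure ℚ ≃ₐ[ℚ] AlgebraicClosure ℚ, σ • Q = Q) → addOrderOf Q = p →
      ∃ (τ₀ : ℍ) (a : ℚ) (c : ℤ → ℚ) (d : ℚ),
        Jfun τ₀ = embC (algebraMap ℚ Kb a) ∧
        (∀ γ : SL(2, ℤ), (modLat (γ • τ₀)).g₃ ≠ 0) ∧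
        (∀ t : ℤ, modPiAn p (t : ℂ) τ₀ = embC (algebraMap ℚ Kb (c t))) ∧
        (∀ γ : SL(2, ℤ), (∀ t : ℤ, modPiAn p (t : ℂ) (γ • τ₀) = modPiAn p (t : ℂ) τ₀) →
          γ ∈ CongruenceSubgroup.Gamma0 p) ∧
        (∀ v : ℕ, v.Prime → v ≠ p → (v : ℤ) ∣ W.Δ → ¬ (v : ℤ) ∣ W.c₄ →
          ∀ A : ValuationSubring (AlgebraicClosure ℚ), A.LiesOverPrime v →
            algebraMap ℚ Kb a ∉ A ∧ algebraMap ℚ Kb (c 0) ∈ A ∧
              (W.InZeroComponentAt A Q ↔ algebraMap ℚ Kb (c 0) ∉ A.nonunits)) ∧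
        d ≠ 0 ∧ N3Rel p τ₀ (embC (algebraMap ℚ Kb d)) ∧ N3Dich p a d

theorem n3_eleven_le {p : ℕ} (hp : IsMazurLevel p) : 11 ≤ p := by
  obtain ⟨hp1, hp2⟩ := hp
  have h2 := hp1.two_le
  by_contra h
  have : p = 2 ∨ p = 3 ∨ p = 4 ∨ p = 5 ∨ p = 6 ∨ p = 7 ∨ p = 8 ∨ p = 9 ∨ p = 10 := by omega
  rcases this with rfl | rfl | rfl | rfl | rfl | rfl | rfl | rfl | rfl
  · exact hp2 (by decide)
  · exact hp2 (by decide)
  · exact absurd hp1 (by decide)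
  · exact hp2 (by decide)
  · exact absurd hp1 (by decide)
  · exact hp2 (by decide)
  · exact absurd hp1 (by decide)
  · exact absurd hp1 (by decide)
  · exact absurd hp1 (by decide)

/-- the arithmetic of N3: `(MB)/(DICH)` and the dichotomy of the curve side give
`v_p(d) ≤ -12`. -/
theorem n3_arith {p : ℕ} (hp : 11 ≤ p) {a d : ℚ}
    (hMB : 0 ≤ padicValRat p a → padicValRat p d ≤ 0)
    (hDI : padicValRat p a < 0 →
      padicValRat p d = -(((p : ℤ) - 1) * padicValRat p a) ∨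
        (p : ℤ) * (padicValRat p d + 12) = ((p : ℤ) - 1) * padicValRat p a)
    (hEC : N3Dich p a d) : padicValRat p d ≤ -12 := by
  have hp' : (11 : ℤ) ≤ (p : ℤ) := by exact_mod_cast hp
  unfold N3Dich at hEC
  generalize padicValRat p a = va at *
  generalize padicValRat p d = vd at *
  rcases le_or_gt 0 va with h0 | h0
  · have hmax : max 0 (-va) = 0 := max_eq_left (by omega)
    rw [hmax, mul_zero] at hEC
    have := hMB h0
    rcases hEC with h | h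
    · omega
    · omega
  · have hmax : max 0 (-va) = -va := max_eq_right (by omega)
    rw [hmax] at hEC
    rcases hDI h0 with h | h
    · rcases hEC with h' | h'
      · rw [h] at h'
        have : ((p : ℤ) - 1) * -va = -(((p : ℤ) - 1) * va) := by ring
        omega
      · rw [h] at h'
        have : ((p : ℤ) - 1) * -va = -(((p : ℤ) - 1) * va) := by ring
        omega
    · have h1 : ((p : ℤ) - 1) * va < 0 := mul_neg_of_pos_of_neg (by omega) h0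
      have h2 : (p : ℤ) * (vd + 12) < 0 := by rw [h]; exact h1
      have h3 : vd + 12 < 0 := by
        by_contra hcon
        push Not at hcon
        have : 0 ≤ (p : ℤ) * (vd + 12) := mul_nonneg (by omega) hcon
        omega
      omega

/-- **The assembly of MOD with the certificate at the level prime.** -/
theorem stmtMod_of_n3 (hE : StmtModAsmE2) (hP : StmtModAsmP2) (hEq : StmtN3Eq) : StmtMod := by
  intro p _ hp W hΔ hmult Q hfix hord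
  have hp11 := n3_eleven_le hp
  obtain ⟨τ₀, a, c, d, hJ, hg₃, hc, hG0, hred, hd0, hrel, hdich⟩ :=
    hE p hp.1 (modasm_five_le hp) W hΔ hmult Q hfix hord
  obtain ⟨x, hx, hval⟩ := hP p hp.1 (modasm_five_le hp) τ₀ a c d hJ hg₃ hc hG0 hrel
  obtain ⟨hMB, hDI⟩ := hEq p hp.1 x a d hd0 hx.val_j hval
  exact ⟨x, a, c 0, hx, ⟨d, hd0, hval, n3_arith hp11 hMB hDI hdich⟩, hred⟩

end Fermat.Agent.S15
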