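/-
S15 block N3, piece N3-EC (helper52): `stmtN3EC : StmtN3EC`.

`W / ℤ`, `Q ∈ W(ℚ̄)` Galois-fixed of prime order `p ≥ 5`, `d ∈ ℚ` with
`d p¹² ∏_{k=1}^{p-1} ψ₂²(x(kQ))² = Δ^{p-1}`.  Then, with `v = v_p`, `V⁺ = max(0, -v(j))`:
`v(d) + 12 ≤ (p-1)V⁺` or `(p-1)V⁺ + 2(p-1) ≤ v(d) + 12`.

Proof: `NOTES/S15-N3.md` (EC): on the short model scaled by `u` (`u¹² = Δ` resp. `u⁴ = c₄`)
the kernel of reduction at a place `A ∣ p` of `ℚ̄` is a subgroup (N3-SUB, helper8), so either no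
multiple `kQ` lies in it (then `η'(kQ) ∈ A`) or all of them do (then `4 v(η) = 6 v(x) < v(u¹²)`,
and the gap comes from `v(x) ∈ 2ℤ` and `v(Δ) ≢ ±1 mod 6`).
-/
import Fermat.Agent.S15.N3Plan
import Fermat.Agent.S15.N3ECDich
import Fermat.Agent.Common.FrobProfinite
import Fermat.Agent.S05.Inertia

set_option autoImplicit false
set_option linter.style.haveILetI false
set_option linter.unusedSectionVars false

noncomputable section

namespace Fermat.Agent.S15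

open WeierstrassCurve WeierstrassCurve.Affine Fermat.Agent.EC Fermat.Agent.S05
open Fermat.Agent.S24 Fermat.Agent.Common

section Aux

theorem n3ec_padicValRat_prod {p : ℕ} [Fact p.Prime] {ι : Type*} (s : Finset ι) (f : ι → ℚ)
    (hf : ∀ i ∈ s, f i ≠ 0) :
    padicValRat p (∏ i ∈ s, f i) = ∑ i ∈ s, padicValRat p (f i) := by
  classical
  induction s using Finset.induction_on with
  | empty => simp
  | insert a s ha ih =>
    rw [Finset.prod_insert ha, Finset.sum_insert ha,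
      padicValRat.mul (hf a (Finset.mem_insert_self a s))
        (Finset.prod_ne_zero_iff.mpr fun i hi => hf i (Finset.mem_insert_of_mem hi)),
      ih fun i hi => hf i (Finset.mem_insert_of_mem hi)]

/-- a Galois-fixed affine point of `W(ℚ̄)` has rational coordinates -/
theorem n3ec_rational (Wq : WeierstrassCurve ℚ) (P : (Wq⁄Kb).Point)
    (hfix : ∀ σ : Kb ≃ₐ[ℚ] Kb, σ • P = P) (hP : P ≠ 0) :
    ∃ (x₀ y₀ : ℚ) (h : (Wq⁄Kb).Nonsingular (algebraMap ℚ Kb x₀) (algebraMap ℚ Kb y₀)),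
      P = Point.some _ _ h := by
  rcases P with _ | ⟨x, y, h⟩
  · exact absurd rfl hP
  · have hxy : ∀ σ : Kb ≃ₐ[ℚ] Kb, σ x = x ∧ σ y = y := by
      intro σ
      have h1 := hfix σ
      rw [galois_smul_some] at h1
      injection h1 with hx hy
      exact ⟨hx, hy⟩
    obtain ⟨x₀, hx₀⟩ := exists_rat_of_fixed x fun σ => (hxy σ).1
    obtain ⟨y₀, hy₀⟩ := exists_rat_of_fixed y fun σ => (hxy σ).2
    subst hx₀
    subst hy₀
    exact ⟨x₀, y₀, h, rfl⟩

/-- `ψ₂² = η²` on the curve -/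
theorem n3ec_psi_eq {K : Type*} [Field K] (W : WeierstrassCurve K) {x y : K}
    (h : W.toAffine.Equation x y) :
    n3Psi W x = (2 * y + W.a₁ * x + W.a₃) ^ 2 := by
  have h1 := (Affine.equation_iff x y).mp h
  simp only [n3Psi, WeierstrassCurve.b₂, WeierstrassCurve.b₄, WeierstrassCurve.b₆]
  linear_combination -4 * h1

end Aux

section Main

/-- **N3-EC**, for a curve over `ℚ`. -/
theorem n3ec_main (p : ℕ) (hp : p.Prime) (hp5 : 5 ≤ p) (Wq : WeierstrassCurve ℚ)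
    (hΔq0 : Wq.Δ ≠ 0) (Q : (Wq⁄Kb).Point) (hfix : ∀ σ : Kb ≃ₐ[ℚ] Kb, σ • Q = Q)
    (hord : addOrderOf Q = p) (d : ℚ)
    (hrel : algebraMap ℚ Kb d * (p : Kb) ^ 12 *
        ∏ k ∈ Finset.Ico 1 p, (n3Psi (Wq.baseChange Kb) (modPtX (k • Q))) ^ 2 =
      algebraMap ℚ Kb Wq.Δ ^ (p - 1)) :
    N3Dich p (Wq.c₄ ^ 3 / Wq.Δ) d := by
  haveI : Fact p.Prime := ⟨hp⟩
  -- the multiples of `Q`
  have hpQ : p • Q = 0 := by rw [← hord]; exact addOrderOf_nsmul_eq_zero Q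
  have hkQ : ∀ k ∈ Finset.Ico 1 p, k • Q ≠ 0 := by
    intro k hk h0
    rw [Finset.mem_Ico] at hk
    have h1 : addOrderOf Q ∣ k := addOrderOf_dvd_iff_nsmul_eq_zero.mpr h0
    rw [hord] at h1
    exact Nat.not_dvd_of_pos_of_lt (by omega) hk.2 h1
  have hfixk : ∀ k : ℕ, ∀ σ : Kb ≃ₐ[ℚ] Kb, σ • (k • Q) = k • Q := by
    intro k σ
    have h1 := map_nsmul (DistribSMul.toAddMonoidHom ((Wq⁄Kb).Point) σ) k Q
    have h2 : σ • (k • Q) = k • (σ • Q) := h1
    rw [h2, hfix σ]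
  have hrat : ∀ k, k ∈ Finset.Ico 1 p → ∃ (x₀ y₀ : ℚ)
      (h : (Wq⁄Kb).Nonsingular (algebraMap ℚ Kb x₀) (algebraMap ℚ Kb y₀)),
      k • Q = Point.some _ _ h := fun k hk => n3ec_rational Wq (k • Q) (hfixk k) (hkQ k hk)
  choose! x₀ y₀ hxy using hrat
  have hpt : ∀ k ∈ Finset.Ico 1 p, ∃ h, k • Q =
      Point.some (algebraMap ℚ Kb (x₀ k)) (algebraMap ℚ Kb (y₀ k)) h := hxy
  -- the relation over `ℚ`
  have hψ : ∀ k ∈ Finset.Ico 1 p,
      (n3Psi (Wq.baseChange Kb) (modPtX (k • Q))) ^ 2 =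
        algebraMap ℚ Kb ((2 * y₀ k + Wq.a₁ * x₀ k + Wq.a₃) ^ 4) := by
    intro k hk
    obtain ⟨h, hk'⟩ := hpt k hk
    rw [hk', modPtX_some, n3ec_psi_eq _ h.1]
    have e1 : (Wq.baseChange Kb).a₁ = algebraMap ℚ Kb Wq.a₁ := rfl
    have e3 : (Wq.baseChange Kb).a₃ = algebraMap ℚ Kb Wq.a₃ := rfl
    rw [e1, e3, map_pow, map_add, map_add, map_mul, map_mul, map_ofNat]
    ring
  have hrelQ : d * (p : ℚ) ^ 12 * ∏ k ∈ Finset.Ico 1 p, (2 * y₀ k + Wq.a₁ * x₀ k + Wq.a₃) ^ 4 =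
      Wq.Δ ^ (p - 1) := by
    have h1 := hrel
    rw [Finset.prod_congr rfl hψ] at h1
    apply (algebraMap ℚ Kb).injective
    rw [map_mul, map_mul, map_pow, map_natCast, map_prod, h1, map_pow]
  have hΔpow : Wq.Δ ^ (p - 1) ≠ 0 := pow_ne_zero _ hΔq0
  have hd0 : d ≠ 0 := by
    intro h
    rw [h, zero_mul, zero_mul] at hrelQ
    exact hΔpow hrelQ.symm
  have hprod0 : ∏ k ∈ Finset.Ico 1 p, (2 * y₀ k + Wq.a₁ * x₀ k + Wq.a₃) ^ 4 ≠ 0 := by
    intro h
    rw [h, mul_zero] at hrelQ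
    exact hΔpow hrelQ.symm
  have hη : ∀ k ∈ Finset.Ico 1 p, 2 * y₀ k + Wq.a₁ * x₀ k + Wq.a₃ ≠ 0 := by
    intro k hk h
    apply hprod0
    exact Finset.prod_eq_zero hk (by rw [h]; ring)
  have hp0 : (p : ℚ) ≠ 0 := Nat.cast_ne_zero.mpr hp.ne_zero
  -- valuations
  have hval : padicValRat p d + 12 +
      ∑ k ∈ Finset.Ico 1 p, 4 * padicValRat p (2 * y₀ k + Wq.a₁ * x₀ k + Wq.a₃) =
      ((p : ℤ) - 1) * padicValRat p Wq.Δ := by
    have h1 := congrArg (padicValRat p) hrelQ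
    rw [padicValRat.mul (mul_ne_zero hd0 (pow_ne_zero 12 hp0)) hprod0,
      padicValRat.mul hd0 (pow_ne_zero 12 hp0), padicValRat.pow, padicValRat.self hp.one_lt,
      padicValRat.pow, n3ec_padicValRat_prod _ _ fun k hk => pow_ne_zero 4 (hη k hk)] at h1
    have h2 : ∀ k ∈ Finset.Ico 1 p,
        padicValRat p ((2 * y₀ k + Wq.a₁ * x₀ k + Wq.a₃) ^ 4) =
          4 * padicValRat p (2 * y₀ k + Wq.a₁ * x₀ k + Wq.a₃) := by
      intro k _
      rw [padicValRat.pow]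
      rfl
    rw [Finset.sum_congr rfl h2] at h1
    have h3 : ((p - 1 : ℕ) : ℤ) = (p : ℤ) - 1 := by
      have := hp.one_le
      omega
    rw [h3] at h1
    rw [← h1]
    push_cast
    ring
  have hcard : ((Finset.Ico 1 p).card : ℤ) = (p : ℤ) - 1 := by
    rw [Nat.card_Ico]
    have := hp.one_le
    omega
  -- `G = ∑ (v Δ - 4 v η)`
  have hG : padicValRat p d + 12 =
      ∑ k ∈ Finset.Ico 1 p,
        (padicValRat p Wq.Δ - 4 * padicValRat p (2 * y₀ k + Wq.a₁ * x₀ k + Wq.a₃)) := by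
    rw [Finset.sum_sub_distrib, Finset.sum_const, nsmul_eq_mul, hcard]
    linarith
  obtain ⟨A, hA⟩ := exists_liesOverPrime p hp
  unfold N3Dich
  by_cases hj : Wq.c₄ = 0 ∨ padicValRat p Wq.Δ ≤ 3 * padicValRat p Wq.c₄
  · -- `j` integral
    have hV : max 0 (-padicValRat p (Wq.c₄ ^ 3 / Wq.Δ)) = 0 := by
      apply max_eq_left
      rcases hj with h0 | hle
      · rw [h0]
        simp
      · by_cases h0 : Wq.c₄ = 0
        · rw [h0]
          simp
        · rw [padicValRat.div (pow_ne_zero 3 h0) hΔq0, padicValRat.pow]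
          push_cast
          omega
    rw [hV, mul_zero, zero_add]
    obtain ⟨u₀, hu₀⟩ := IsAlgClosed.exists_pow_nat_eq (algebraMap ℚ Kb Wq.Δ)
      (by norm_num : 0 < 12)
    have hu₀0 : u₀ ≠ 0 := by
      intro h
      rw [h, zero_pow (by norm_num)] at hu₀
      exact hΔq0 ((map_eq_zero_iff _ (algebraMap ℚ Kb).injective).mp hu₀.symm)
    rcases n3ec_dich_int A Wq (Units.mk0 u₀ hu₀0) Q x₀ y₀ hp hp5 hA hΔq0 hu₀ hj hpQ hpt hη
      with hβ | hα
    · left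
      rw [hG]
      refine Finset.sum_nonpos fun k hk => ?_
      have := hβ k hk
      omega
    · right
      rw [hG]
      have h1 : ∑ _k ∈ Finset.Ico 1 p, (2 : ℤ) ≤ ∑ k ∈ Finset.Ico 1 p,
          (padicValRat p Wq.Δ - 4 * padicValRat p (2 * y₀ k + Wq.a₁ * x₀ k + Wq.a₃)) := by
        refine Finset.sum_le_sum fun k hk => ?_
        have := hα k hk
        omega
      rw [Finset.sum_const, nsmul_eq_mul, hcard] at h1
      linarith
  · -- `j` not integral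
    rw [not_or, not_le] at hj
    obtain ⟨hc₄, hlt⟩ := hj
    have hV : max 0 (-padicValRat p (Wq.c₄ ^ 3 / Wq.Δ)) =
        padicValRat p Wq.Δ - 3 * padicValRat p Wq.c₄ := by
      rw [padicValRat.div (pow_ne_zero 3 hc₄) hΔq0, padicValRat.pow]
      push_cast
      rw [max_eq_right (by omega)]
      ring
    rw [hV]
    obtain ⟨u₀, hu₀⟩ := IsAlgClosed.exists_pow_nat_eq (algebraMap ℚ Kb Wq.c₄)
      (by norm_num : 0 < 4)
    have hu₀0 : u₀ ≠ 0 := by
      intro h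
      rw [h, zero_pow (by norm_num)] at hu₀
      exact hc₄ ((map_eq_zero_iff _ (algebraMap ℚ Kb).injective).mp hu₀.symm)
    rcases n3ec_dich_non A Wq (Units.mk0 u₀ hu₀0) Q x₀ y₀ hp hp5 hA hΔq0 hc₄ hu₀ hlt hpQ hpt hη
      with hβ | hα
    · left
      rw [hG]
      have h1 : ∑ k ∈ Finset.Ico 1 p,
          (padicValRat p Wq.Δ - 4 * padicValRat p (2 * y₀ k + Wq.a₁ * x₀ k + Wq.a₃)) ≤
          ∑ _k ∈ Finset.Ico 1 p, (padicValRat p Wq.Δ - 3 * padicValRat p Wq.c₄) := by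
        refine Finset.sum_le_sum fun k hk => ?_
        have := hβ k hk
        omega
      rw [Finset.sum_const, nsmul_eq_mul, hcard] at h1
      exact h1
    · right
      rw [hG]
      have h1 : ∑ _k ∈ Finset.Ico 1 p, (padicValRat p Wq.Δ - 3 * padicValRat p Wq.c₄ + 3) ≤
          ∑ k ∈ Finset.Ico 1 p,
          (padicValRat p Wq.Δ - 4 * padicValRat p (2 * y₀ k + Wq.a₁ * x₀ k + Wq.a₃)) := by
        refine Finset.sum_le_sum fun k hk => ?_
        have := hα k hk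
        omega
      rw [Finset.sum_const, nsmul_eq_mul, hcard] at h1
      have hp1 : (0 : ℤ) ≤ (p : ℤ) - 1 := by
        have := hp.one_le
        omega
      nlinarith

/-- **N3-EC.** -/
theorem stmtN3EC : StmtN3EC := by
  intro p hp hp5 W hΔ Q hfix hord d hrel
  have hΔq : (W.map (Int.castRingHom ℚ)).Δ = (W.Δ : ℚ) := by
    rw [WeierstrassCurve.map_Δ]
    rfl
  have hc₄q : (W.map (Int.castRingHom ℚ)).c₄ = (W.c₄ : ℚ) := by
    rw [WeierstrassCurve.map_c₄]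
    rfl
  have hΔq0 : (W.map (Int.castRingHom ℚ)).Δ ≠ 0 := by
    rw [hΔq]
    exact_mod_cast hΔ
  have hrel' : algebraMap ℚ Kb d * (p : Kb) ^ 12 *
      ∏ k ∈ Finset.Ico 1 p,
        (n3Psi ((W.map (Int.castRingHom ℚ)).baseChange Kb) (modPtX (k • Q))) ^ 2 =
      algebraMap ℚ Kb (W.map (Int.castRingHom ℚ)).Δ ^ (p - 1) := by
    rw [hΔq, map_intCast]
    exact hrel
  have h := n3ec_main p hp hp5 (W.map (Int.castRingHom ℚ)) hΔq0 Q hfix hord d hrel'
  rw [hΔq, hc₄q] at h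
  exact h

end Main

end Fermat.Agent.S15
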