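import Fermat.Agent.S15.N3FForm
import Fermat.Agent.S15.N3Plan

/-!
# S15 / N3-F (B) (helper56): from the product formula `n3fH = 1` to `StmtN3F`

`n3fH N τ = N¹² Δ(Nτ) ∏_k R_{0,k}(τ)² / Δ(τ)^N = 1` and `R_{0,k} (2πi)⁶ = ℘'(k/N; τ)²`,
`g₂³ − 27 g₃² = (2π)¹² Δ` give `N¹² Δ(Nτ) ∏_k ℘'(k/N)⁴ = (g₂³ − 27 g₃²)^{N-1} Δ(τ)`, so `N3Rel N τ d`
forces `d = Δ(Nτ)/Δ(τ)`; then the place at `τ₀` evaluates `u_N = Δ(q^N)/Δ(q)`.
-/

set_option autoImplicit false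
set_option linter.unusedSectionVars false
set_option linter.unusedVariables false
set_option linter.style.longLine false
set_option linter.unusedSimpArgs false

noncomputable section

namespace Fermat.Agent.S15

open UpperHalfPlane AlgebraicCurve ModularCurve PeriodPair Complex
open Fermat.Agent.S23 Fermat.Agent.S24 Fermat.Agent.S28 Fermat.Agent.W1 Fermat.Agent.ES.M
open scoped MatrixGroups Real

local notation "Δ" => ModularForm.discriminant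

/-- `∏_k ℘'(k/N)⁴ = (2πi)^{12(N-1)} ∏_k R_{0,k}²` -/
theorem n3fa_prod (N : ℕ) [NeZero N] (τ : ℍ) :
    ∏ k ∈ Finset.Ico 1 N, (℘'[modLat τ] ((k : ℂ) / (N : ℂ))) ^ 4 =
      ((2 * (π : ℂ) * Complex.I) ^ 12) ^ (N - 1) * n3fG N τ := by
  unfold n3fG
  have hcard : (Finset.Ico 1 N).card = N - 1 := by simp
  rw [← hcard, ← Finset.prod_const, ← Finset.prod_mul_distrib]
  refine Finset.prod_congr rfl fun k hk => ?_
  have hk' := Finset.mem_Ico.1 hk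
  have hab : ¬ ((N : ℤ) ∣ (0 : ℤ) ∧ (N : ℤ) ∣ (k : ℤ)) := by
    rintro ⟨-, h⟩
    have h1 := Int.natCast_dvd_natCast.1 h
    have h2 := Nat.le_of_dvd (by omega) h1
    omega
  have h := n3fR_eq N 0 (k : ℤ) hab τ
  have e : (((0 : ℤ) : ℂ) * (τ : ℂ) + (((k : ℤ) : ℤ) : ℂ)) / (N : ℂ) = (k : ℂ) / (N : ℂ) := by
    push_cast
    ring
  rw [e] at h
  calc (℘'[modLat τ] ((k : ℂ) / (N : ℂ))) ^ 4
      = ((℘'[modLat τ] ((k : ℂ) / (N : ℂ))) ^ 2) ^ 2 := by ring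
    _ = (n3fR N 0 (k : ℤ) τ * (2 * (π : ℂ) * Complex.I) ^ 6) ^ 2 := by rw [h]
    _ = (2 * (π : ℂ) * Complex.I) ^ 12 * n3fR N 0 (k : ℤ) τ ^ 2 := by ring

theorem n3fa_two_pi_pow : (2 * (π : ℂ) * Complex.I) ^ 12 = (2 * (π : ℂ)) ^ 12 := by
  have hI4 : Complex.I ^ 4 = 1 := Complex.I_pow_four
  calc (2 * (π : ℂ) * Complex.I) ^ 12 = (2 * (π : ℂ)) ^ 12 * (Complex.I ^ 4) ^ 3 := by ring
    _ = (2 * (π : ℂ)) ^ 12 := by rw [hI4]; ring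

/-- the product formula determines `d` -/
theorem n3fa_value (N : ℕ) [NeZero N] (τ : ℍ) (h1 : n3fH N τ = 1) (d : ℂ)
    (hrel : N3Rel N τ d) : d = Δ (scaleN N τ) / Δ τ := by
  have hΔ : Δ τ ≠ 0 := ModularForm.discriminant_ne_zero τ
  have hΔN : Δ (scaleN N τ) ≠ 0 := ModularForm.discriminant_ne_zero _
  have hπ : (2 * (π : ℂ)) ^ 12 ≠ 0 :=
    pow_ne_zero 12 (mul_ne_zero two_ne_zero (by exact_mod_cast Real.pi_ne_zero))
  have hN1 : 1 ≤ N := Nat.one_le_iff_ne_zero.2 (NeZero.ne N)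
  unfold N3Rel n3Disc at hrel
  rw [n3fa_prod, n3fa_two_pi_pow, modunif_disc_tau] at hrel
  -- `d N¹² G = Δ^{N-1}`
  have h2 : d * (N : ℂ) ^ 12 * n3fG N τ = Δ τ ^ (N - 1) := by
    have hπ' : ((2 * (π : ℂ)) ^ 12) ^ (N - 1) ≠ 0 := pow_ne_zero _ hπ
    apply mul_left_cancel₀ hπ'
    calc ((2 * (π : ℂ)) ^ 12) ^ (N - 1) * (d * (N : ℂ) ^ 12 * n3fG N τ)
        = d * (N : ℂ) ^ 12 * (((2 * (π : ℂ)) ^ 12) ^ (N - 1) * n3fG N τ) := by ring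
      _ = ((2 * (π : ℂ)) ^ 12 * Δ τ) ^ (N - 1) := hrel
      _ = ((2 * (π : ℂ)) ^ 12) ^ (N - 1) * Δ τ ^ (N - 1) := mul_pow _ _ _
  -- `N¹² Δ(Nτ) G = Δ^N`
  unfold n3fH at h1
  rw [div_eq_one_iff_eq (pow_ne_zero _ hΔ)] at h1
  have h3 : Δ τ ^ N = Δ τ ^ (N - 1) * Δ τ := by
    rw [← pow_succ, Nat.sub_add_cancel hN1]
  rw [h3, ← h2] at h1
  rw [eq_div_iff hΔ]
  have hG : (N : ℂ) ^ 12 * n3fG N τ ≠ 0 := by
    intro h0
    have : Δ τ ^ (N - 1) = 0 := by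
      rw [← h2, mul_assoc, h0, mul_zero]
    exact pow_ne_zero _ hΔ this
  apply mul_left_cancel₀ hG
  calc (N : ℂ) ^ 12 * n3fG N τ * (d * Δ τ)
      = d * (N : ℂ) ^ 12 * n3fG N τ * Δ τ := by ring
    _ = (N : ℂ) ^ 12 * (Δ (scaleN N τ) * n3fG N τ) := h1.symm
    _ = (N : ℂ) ^ 12 * n3fG N τ * Δ (scaleN N τ) := by ring

/-- **N3-F**, from the product formula `n3fH = 1`. -/
theorem stmtN3F_of_one
    (h1 : ∀ (N : ℕ) [NeZero N], N.Prime → N ≠ 2 → ∀ τ : ℍ, n3fH N τ = 1) : StmtN3F := by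
  intro N _ hN h5 τ₀ j₀ hJ hg₃ x hx d hrel
  have hval := n3fa_value N τ₀ (h1 N hN (by omega) τ₀) (embC d) hrel
  have ha : (fun z : ℍ => Δ (scaleN N z) / Δ z) ∈ modFunAlg N := isModFun_unit N
  have hb : (1 : ℍ → ℂ) ∈ modFunAlg N := (modFunAlg N).one_mem
  refine hx (oggU N) ⟨_, ha⟩ ⟨_, hb⟩ ?_ ?_ d ?_
  · show ModularCurve.coeffMap embC ((oggU N : FF N) : LaurentSeries Kb) *
      laurentOf (1 : ℍ → ℂ) = laurentOf (fun z : ℍ => Δ (scaleN N z) / Δ z)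
    rw [coe_oggU, coeffMap_uS, laurentOf_one, mul_one, laurentOf_unit_eq_uS]
  · show (1 : ℍ → ℂ) τ₀ ≠ 0
    simp
  · show embC d * (1 : ℍ → ℂ) τ₀ = Δ (scaleN N τ₀) / Δ τ₀
    rw [Pi.one_apply, mul_one, hval]

end Fermat.Agent.S15
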