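import Fermat.Agent.S15.N3FOne
import Fermat.Agent.S15.N3FAsm

/-!
# S15 / N3-F : final statement (helper71 + helper56)

`stmtN3F : StmtN3F` : if `d · N¹² ∏_k ℘'(k/N; τ₀)⁴ = Δ(ℤτ₀ + ℤ)^{N-1}` then the modular unit
`u_N` has the value `d` at the place at `τ₀`.

* `N3FForm.lean` : the modular forms `R_{a,b}`, `G`, the modular function `H`;
* `N3FQ.lean` (helper56) : rationality of the expansion of `G`, constant term `N⁻¹²`;
* `N3FOne.lean` : `H = 1` (the product formula);
* `N3FAsm.lean` (helper56) : from `H = 1` to `StmtN3F`.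
-/

set_option autoImplicit false

namespace Fermat.Agent.S15

/-- **N3-F.** -/
theorem stmtN3F : StmtN3F :=
  stmtN3F_of_one (fun N _ hN hodd τ => n3fH_eq_one N hN hodd τ)

end Fermat.Agent.S15
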