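import Fermat.Agent.S15.N3Mod
import Fermat.Agent.S15.N3FFinal
import Fermat.Agent.S15.N3EC

/-!
# S15 / MOD — `Plan.StmtMod` (v2), unconditional (helper51, captain of the blocks MOD and N3)

`stmtMod : StmtMod` : the rational place `x` of `X₀(p)` attached to `(E, ⟨Q⟩)`, with
`j(x) = j(E)`, the value `Π₀(x)` of the Fricke product deciding the component of `Q` at the
primes of multiplicative reduction `≠ p`, and the certificate `IsTypeTwo p x` at the level prime.

Pieces: MOD-ADD (helper51), MOD-XI/UNIF/ASM-E (helper13), MOD-TATE/G0/FR-RAT (helper56),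
MOD-PLACE/ASM-P/FR-WN (helper8), MOD-RED (helper6), MOD-FRICKE + N3-F (helper71, helper56),
N3-SUB (helper8), N3-EQ (helper80), N3-EC (helper52), N3-ASM (helper51); design of N3: helper17,
helper25.
-/

set_option autoImplicit false

namespace Fermat.Agent.S15

/-- **MOD** (the interface Prop `StmtMod` of `S15/Plan.lean`, version 2), unconditional. -/
theorem stmtMod : StmtMod := stmtMod_of_n3F_EC stmtN3F stmtN3EC

end Fermat.Agent.S15
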