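import Fermat.Agent.S15.OggLc
import Fermat.Prelude.Def_ModularCurve_ModularUnit

/-!
# S15, piece OGG (5): the order of the cuspidal class (Ogg's theorem, lower bound)

For a prime `N` and `c = [(0) − (∞)] ∈ J₀(N)`:

* `ogg_dvd_twelve` : if `g • c = 0` and `e * g = N - 1` then `e ∣ 12`;
* `ogg_cuspClass_ne_zero` : `c ≠ 0` unless `N - 1 ∣ 12`;
* `ogg_dvd_of_smul_eq_zero` : `r • c = 0 → (N - 1) / gcd (N - 1, 12) ∣ r`;
* `ogg_stmtCusp` : for `N ∉ {2, 3, 5, 7, 13}` : `c ≠ 0 ∧ (N - 1) • c = 0`.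

Proof (Ogg): let `div(h) = g • ((0) − (∞))`, `h` with leading coefficient `1` at `∞`.  Then
`h ^ e · u_N = 1` (no zeros or poles, leading coefficient `1`), `h` is `G_ℚ`-invariant (same
reason), `h · w_N(h) = μ` is a constant, fixed by `G_ℚ`, hence rational, and
`μ ^ e = N ^ 12` by `w_N(u_N) · u_N = N⁻¹²`.  Compare `N`-adic valuations.
-/

set_option autoImplicit false
set_option linter.style.haveILetI false
set_option linter.unusedSectionVars false

noncomputable section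

namespace Fermat.Agent.S15

open ModularCurve AlgebraicCurve
open Fermat.Agent.S24 Fermat.Agent.S28 Fermat.Agent.ES.M

variable {N : ℕ} [NeZero N]

/-- `ℚ̄/ℚ` is Galois (for the `Algebra ℚ ℚ̄` instance found by unification). -/
theorem ogg_isGalois : IsGalois ℚ Kb := by
  have h1 : @IsGalois ℚ _ (AlgebraicClosure ℚ) _ (AlgebraicClosure.instAlgebra ℚ) :=
    inferInstance
  convert h1
  exact Subsingleton.elim _ _

/-- Normalisation of the leading coefficient. -/
theorem exists_isCuspFn_lc_one {m : ℤ} {h : FF N} (hh : IsCuspFn N m h) :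
    ∃ h' : FF N, IsCuspFn N m h' ∧ oggLc h' = 1 := by
  refine ⟨algebraMap Kb (FF N) (oggLc h)⁻¹ * h, ?_, ?_⟩
  · have := (isCuspFn_const (N := N) (inv_ne_zero (oggLc_ne_zero hh.1))).mul hh
    rwa [zero_add] at this
  · rw [oggLc_mul, oggLc_algebraMap, inv_mul_cancel₀ (oggLc_ne_zero hh.1)]

/-- Two functions with the same cuspidal divisor and the same leading coefficient are equal. -/
theorem IsCuspFn.eq_of_lc {m : ℤ} {f g : FF N} (hf : IsCuspFn N m f) (hg : IsCuspFn N m g)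
    (h : oggLc f = oggLc g) : f = g := by
  have h1 := hf.mul hg.inv
  rw [add_neg_cancel] at h1
  obtain ⟨a, -, ha⟩ := h1.exists_const
  have h2 : f = algebraMap Kb (FF N) a * g := by
    rw [ha, mul_assoc, inv_mul_cancel₀ hg.1, mul_one]
  have h3 : oggLc f = a * oggLc g := by
    conv_lhs => rw [h2]
    rw [oggLc_mul, oggLc_algebraMap]
  have h4 : a = 1 := by
    rw [h] at h3
    have := mul_right_cancel₀ (oggLc_ne_zero hg.1) (h3.symm.trans (one_mul _).symm)
    exact this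
  rw [h2, h4, map_one, one_mul]

/-- **Ogg**: if `g • c = 0` and `e * g = N - 1`, then `e ∣ 12`. -/
theorem ogg_dvd_twelve (hN : N.Prime) {g e : ℕ} (hge : e * g = N - 1)
    (hg : g • cuspClass N = 0) : e ∣ 12 := by
  obtain ⟨h₀, hh₀⟩ := exists_isCuspFn_of_smul_eq_zero hg
  obtain ⟨h, hh, hlc⟩ := exists_isCuspFn_lc_one hh₀
  have hgeZ : (e : ℤ) * (g : ℤ) = (N : ℤ) - 1 := by
    have h1 := hN.one_le
    have h2 : ((e * g : ℕ) : ℤ) = ((N - 1 : ℕ) : ℤ) := by rw [hge]
    push_cast [Nat.cast_sub h1] at h2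
    linarith
  -- `h ^ e * u = 1`
  have h1 : IsCuspFn N 0 (h ^ e * oggU N) := by
    have := (hh.pow e).mul (isCuspFn_oggU hN)
    rwa [hgeZ, add_neg_cancel] at this
  have e1 : h ^ e * oggU N = 1 :=
    h1.eq_of_lc isCuspFn_one (by
      rw [oggLc_mul, oggLc_pow, hlc, one_pow, oggLc_oggU, one_mul, oggLc_one])
  -- `h` is Galois invariant
  have hσ : ∀ σ : Kb ≃ₐ[ℚ] Kb, galAct N σ • h = h := fun σ =>
    (hh.galSmul σ).eq_of_lc hh (by rw [oggLc_galAct, hlc, map_one])
  -- the constant `μ = h · w(h)`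
  have h2 : IsCuspFn N 0 (h * frickeAut N h) := by
    have := hh.mul hh.fricke
    rwa [add_neg_cancel] at this
  obtain ⟨μ, hμ0, hμ⟩ := h2.exists_const
  have hμσ : ∀ σ : Kb ≃ₐ[ℚ] Kb, σ μ = μ := by
    intro σ
    have h3 : galAct N σ • (h * frickeAut N h) = h * frickeAut N h := by
      rw [smul_mul', ← fricke_galAct, hσ σ]
    rw [← hμ, galAct_algebraMap] at h3
    exact (algebraMap Kb (FF N)).injective h3
  haveI := ogg_isGalois
  obtain ⟨m, hm⟩ := (InfiniteGalois.mem_range_algebraMap_iff_fixed (k := ℚ) (K := Kb) μ).mpr hμσ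
  -- `μ ^ e = N ^ 12`
  have e2 : frickeAut N h ^ e * frickeAut N (oggU N) = 1 := by
    rw [← map_pow, ← map_mul, e1, map_one]
  have e3 : algebraMap Kb (FF N) (μ ^ e * ((N : Kb) ^ 12)⁻¹) = 1 := by
    rw [map_mul, map_pow, hμ, ← ogg_fricke, mul_pow]
    calc h ^ e * frickeAut N h ^ e * (frickeAut N (oggU N) * oggU N)
        = (h ^ e * oggU N) * (frickeAut N h ^ e * frickeAut N (oggU N)) := by ring
      _ = 1 := by rw [e1, e2, one_mul]
  have hN0 : (N : Kb) ≠ 0 := Nat.cast_ne_zero.mpr hN.ne_zero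
  have e4 : μ ^ e = (N : Kb) ^ 12 := by
    have h5 := (algebraMap Kb (FF N)).injective (e3.trans (map_one _).symm)
    exact (mul_inv_eq_one₀ (pow_ne_zero 12 hN0)).mp h5
  have e5 : m ^ e = (N : ℚ) ^ 12 := by
    apply (algebraMap ℚ Kb).injective
    rw [map_pow, hm, e4, map_pow, map_natCast]
  -- valuations
  haveI := Fact.mk hN
  have hNQ : (N : ℚ) ≠ 0 := Nat.cast_ne_zero.mpr hN.ne_zero
  have hm0 : m ≠ 0 := by
    rintro rfl
    rw [map_zero] at hm
    exact hμ0 hm.symm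
  have e6 := congrArg (padicValRat N) e5
  rw [padicValRat.pow m, padicValRat.pow (N : ℚ), padicValRat.self hN.one_lt, mul_one] at e6
  exact Int.natCast_dvd_natCast.mp ⟨padicValRat N m, by push_cast at e6 ⊢; linarith⟩

/-- The cuspidal class is nonzero unless `N - 1 ∣ 12`. -/
theorem ogg_cuspClass_ne_zero (hN : N.Prime) (h12 : ¬ (N - 1 ∣ 12)) : cuspClass N ≠ 0 := by
  intro h
  apply h12
  exact ogg_dvd_twelve hN (g := 1) (e := N - 1) (by ring) (by rw [one_smul]; exact h)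

/-- **Ogg (lower bound)**: the order of the cuspidal class is divisible by
`(N - 1) / gcd (N - 1, 12)`. -/
theorem ogg_dvd_of_smul_eq_zero (hN : N.Prime) {r : ℕ} (hr : r • cuspClass N = 0) :
    eisensteinNumerator N ∣ r := by
  have h1 : addOrderOf (cuspClass N) ∣ r := addOrderOf_dvd_of_nsmul_eq_zero hr
  have h2 : addOrderOf (cuspClass N) ∣ N - 1 := addOrderOf_dvd_of_nsmul_eq_zero (ogg_torsion N hN)
  have h3 : addOrderOf (cuspClass N) ∣ Nat.gcd r (N - 1) := Nat.dvd_gcd h1 h2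
  have hg : Nat.gcd r (N - 1) • cuspClass N = 0 := addOrderOf_dvd_iff_nsmul_eq_zero.mp h3
  have hgd : Nat.gcd r (N - 1) ∣ N - 1 := Nat.gcd_dvd_right _ _
  have he : (N - 1) / Nat.gcd r (N - 1) ∣ 12 :=
    ogg_dvd_twelve hN (Nat.div_mul_cancel hgd) hg
  have he' : (N - 1) / Nat.gcd r (N - 1) ∣ Nat.gcd (N - 1) 12 :=
    Nat.dvd_gcd (Nat.div_dvd_of_dvd hgd) he
  have h4 : (N - 1) / Nat.gcd (N - 1) 12 ∣ (N - 1) / ((N - 1) / Nat.gcd r (N - 1)) :=
    Nat.div_dvd_div_left (Nat.gcd_dvd_left _ _) he'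
  have hN1 : N - 1 ≠ 0 := by have := hN.two_le; omega
  rw [Nat.div_div_self hgd hN1] at h4
  exact h4.trans (Nat.gcd_dvd_left _ _)

/-- **OGG-lite**: for a prime `N ∉ {2, 3, 5, 7, 13}` the cuspidal class is a nonzero torsion
class. -/
theorem ogg_stmtCusp (hN : N.Prime) (h : N ∉ ({2, 3, 5, 7, 13} : Finset ℕ)) :
    cuspClass N ≠ 0 ∧ (N - 1) • cuspClass N = 0 := by
  refine ⟨ogg_cuspClass_ne_zero hN ?_, ogg_torsion N hN⟩
  intro h12
  have h1 : N - 1 ≤ 12 := Nat.le_of_dvd (by norm_num) h12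
  have h2 : N ≤ 13 := by omega
  have h3 := hN.two_le
  apply h
  interval_cases N <;> first | (exfalso; revert h12; decide) | (exfalso; revert hN; decide) | simp

end Fermat.Agent.S15
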