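import Fermat.Agent.S15.Plan
import Fermat.Agent.S15.OggOrder

/-!
# S15, piece OGG: the interface statement `StmtCusp` of `S15/Plan.lean`
-/

set_option autoImplicit false

namespace Fermat.Agent.S15

/-- **OGG-lite** (`StmtCusp` of `S15/Plan.lean`): for a prime `p ∉ {2, 3, 5, 7, 13}` the cuspidal
class `c = [(0) − (∞)] ∈ J₀(p)` is nonzero and killed by `p - 1`. -/
theorem stmtCusp_proved : StmtCusp := fun _ _ hp => ogg_stmtCusp hp.1 hp.2

end Fermat.Agent.S15
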