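import Fermat.Agent.S15.OggDiv
import Fermat.Agent.S15.OggFricke

/-!
# S15, piece OGG (4): functions with cuspidal divisor, leading coefficients

* `IsCuspFn N m f` : `f ≠ 0` and `div(f) = m • ((0) − (∞))`;
* stability under products, inverses, powers, the Fricke involution (`m ↦ -m`) and the Galois
  action; `IsCuspFn N 0 f` iff `f` is a nonzero constant;
* `oggLc f` : the leading coefficient of the `q`-expansion of `f`; multiplicative, Galois
  equivariant, `oggLc (oggU N) = 1`.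
-/

set_option autoImplicit false
set_option linter.style.haveILetI false
set_option linter.unusedSectionVars false

noncomputable section

namespace Fermat.Agent.S15

open ModularCurve AlgebraicCurve
open Fermat.Agent.S24 Fermat.Agent.S28 Fermat.Agent.ES.M

/-! ### Functions with cuspidal divisor -/

/-- `f ≠ 0` and `div(f) = m • ((0) − (∞))`. -/
def IsCuspFn (N : ℕ) [NeZero N] (m : ℤ) (f : FF N) : Prop :=
  f ≠ 0 ∧ ∀ v : Place Kb (FF N), v.ord f = m * (cuspDiv N : Divisor Kb (FF N)) v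

variable {N : ℕ} [NeZero N]

theorem IsCuspFn.mul {m n : ℤ} {f g : FF N} (hf : IsCuspFn N m f) (hg : IsCuspFn N n g) :
    IsCuspFn N (m + n) (f * g) :=
  ⟨mul_ne_zero hf.1 hg.1, fun v => by rw [v.ord_mul hf.1 hg.1, hf.2, hg.2]; ring⟩

theorem IsCuspFn.inv {m : ℤ} {f : FF N} (hf : IsCuspFn N m f) : IsCuspFn N (-m) f⁻¹ :=
  ⟨inv_ne_zero hf.1, fun v => by rw [Place.ord_inv, hf.2]; ring⟩

theorem isCuspFn_one : IsCuspFn N 0 (1 : FF N) :=
  ⟨one_ne_zero, fun v => by rw [Place.ord_one, zero_mul]⟩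

theorem IsCuspFn.pow {m : ℤ} {f : FF N} (hf : IsCuspFn N m f) (e : ℕ) :
    IsCuspFn N (e * m) (f ^ e) := by
  induction e with
  | zero => simpa using isCuspFn_one (N := N)
  | succ e ih =>
    have := ih.mul hf
    rw [pow_succ]
    convert this using 1
    push_cast
    ring

theorem isCuspFn_const {a : Kb} (ha : a ≠ 0) : IsCuspFn N 0 (algebraMap Kb (FF N) a) :=
  ⟨(map_ne_zero _).mpr ha, fun v => by rw [PlaceAux.ord_algebraMap, zero_mul]⟩

theorem IsCuspFn.exists_const {f : FF N} (hf : IsCuspFn N 0 f) :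
    ∃ a : Kb, a ≠ 0 ∧ algebraMap Kb (FF N) a = f := by
  obtain ⟨a, ha⟩ := ogg_const_of_ord_eq_zero N f (fun v => by rw [hf.2, zero_mul])
  refine ⟨a, ?_, ha⟩
  rintro rfl
  rw [map_zero] at ha
  exact hf.1 ha.symm

/-- The modular unit has divisor `-(N - 1) • ((0) − (∞))`. -/
theorem isCuspFn_oggU (hN : N.Prime) : IsCuspFn N (-((N : ℤ) - 1)) (oggU N) := by
  refine ⟨oggU_ne_zero N, fun v => ?_⟩
  have h := ogg_div N hN v
  have hN1 : ((N - 1 : ℕ) : ℤ) = (N : ℤ) - 1 := by
    have := hN.one_le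
    push_cast [Nat.cast_sub this]
    ring
  rw [Place.ord_inv, Finsupp.smul_apply, nsmul_eq_mul, hN1] at h
  linarith

/-- A relation `g • c = 0` gives a function with divisor `g • ((0) − (∞))`. -/
theorem exists_isCuspFn_of_smul_eq_zero {g : ℕ} (hg : g • cuspClass N = 0) :
    ∃ h : FF N, IsCuspFn N g h := by
  have h1 : g • cuspClass N = Pic0.mk (g • cuspDiv N) := rfl
  rw [h1, Pic0.mk, QuotientAddGroup.eq_zero_iff, AddSubgroup.mem_addSubgroupOf,
    AddSubgroup.coe_nsmul, Divisor.mem_principal] at hg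
  obtain ⟨h, h0, hh⟩ := hg
  refine ⟨h, h0, fun v => ?_⟩
  rw [← hh v, Finsupp.smul_apply, nsmul_eq_mul]

/-! ### The Fricke involution -/

theorem fricke_smul_cuspInf : frickeAut N • cuspInf N = cuspZero N := rfl

theorem fricke_smul_cuspDiv :
    frickeAut N • (cuspDiv N : Divisor Kb (FF N)) = -(cuspDiv N : Divisor Kb (FF N)) := by
  rw [coe_cuspDiv, smul_sub, Divisor.smul_single, Divisor.smul_single, fricke_smul_cuspZero,
    fricke_smul_cuspInf, neg_sub]

theorem cuspDiv_fricke_smul (v : Place Kb (FF N)) :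
    (cuspDiv N : Divisor Kb (FF N)) (frickeAut N • v) = -(cuspDiv N : Divisor Kb (FF N)) v := by
  have h := Divisor.smul_apply_smul (frickeAut N) (cuspDiv N : Divisor Kb (FF N)) v
  rw [fricke_smul_cuspDiv, Finsupp.neg_apply] at h
  linarith

theorem IsCuspFn.fricke {m : ℤ} {f : FF N} (hf : IsCuspFn N m f) :
    IsCuspFn N (-m) (frickeAut N f) := by
  refine ⟨(map_ne_zero (frickeAut N)).mpr hf.1, fun v => ?_⟩
  rw [← fr_ord_frickeAut, hf.2, cuspDiv_fricke_smul]
  ring

/-! ### The Galois action -/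

theorem galAct_smul_cuspDiv (σ : Kb ≃ₐ[ℚ] Kb) :
    galAct N σ • (cuspDiv N : Divisor Kb (FF N)) = (cuspDiv N : Divisor Kb (FF N)) := by
  rw [coe_cuspDiv, smul_sub, SemilinearAut.smul_single, SemilinearAut.smul_single,
    galAct_smul_cuspZero, galAct_smul_cuspInf]

theorem cuspDiv_galAct_smul (σ : Kb ≃ₐ[ℚ] Kb) (v : Place Kb (FF N)) :
    (cuspDiv N : Divisor Kb (FF N)) (galAct N σ • v) = (cuspDiv N : Divisor Kb (FF N)) v := by
  have h := SemilinearAut.divisor_smul_apply_smul (galAct N σ) (cuspDiv N : Divisor Kb (FF N)) v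
  rwa [galAct_smul_cuspDiv] at h

theorem IsCuspFn.galSmul {m : ℤ} {f : FF N} (hf : IsCuspFn N m f) (σ : Kb ≃ₐ[ℚ] Kb) :
    IsCuspFn N m (galAct N σ • f) := by
  refine ⟨galAct_smul_ne_zero σ hf.1, fun v => ?_⟩
  have h := SemilinearAut.ord_smul (galAct N σ) ((galAct N σ)⁻¹ • v) f
  rw [smul_inv_smul] at h
  rw [h, hf.2, galAct_inv, cuspDiv_galAct_smul]

/-! ### Leading coefficients -/

/-- The leading coefficient of the `q`-expansion. -/
def oggLc (f : FF N) : Kb := (f : LaurentSeries Kb).leadingCoeff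

theorem oggLc_mul (f g : FF N) : oggLc (f * g) = oggLc f * oggLc g :=
  HahnSeries.leadingCoeff_mul _ _

theorem oggLc_one : oggLc (1 : FF N) = 1 := HahnSeries.leadingCoeff_one

theorem oggLc_pow (f : FF N) (e : ℕ) : oggLc (f ^ e) = oggLc f ^ e := by
  induction e with
  | zero => simpa using oggLc_one (N := N)
  | succ e ih => rw [pow_succ, oggLc_mul, ih, pow_succ]

theorem oggLc_algebraMap (a : Kb) : oggLc (algebraMap Kb (FF N) a) = a := by
  have h : ((algebraMap Kb (FF N) a : FF N) : LaurentSeries Kb) = HahnSeries.single 0 a := by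
    rw [← ModularCurve.algebraMap_laurentSeries_eq_single]
    rfl
  rw [oggLc, h, HahnSeries.leadingCoeff_of_single]

theorem oggLc_ne_zero {f : FF N} (hf : f ≠ 0) : oggLc f ≠ 0 := by
  rw [oggLc, HahnSeries.leadingCoeff_ne_zero]
  intro h
  exact hf (Subtype.ext h)

theorem oggLc_galAct (σ : Kb ≃ₐ[ℚ] Kb) (f : FF N) : oggLc (galAct N σ • f) = σ (oggLc f) := by
  rw [oggLc, oggLc, HahnSeries.leadingCoeff_eq, HahnSeries.leadingCoeff_eq, order_galAct_smul,
    coe_galAct_smul, coeffMap_coeff]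
  rfl

theorem ogg_leadingCoeff_qExpand (k : Type*) [Field k] (p : ℕ) [NeZero p] (x : LaurentSeries k) :
    (qExpand k p x).leadingCoeff = x.leadingCoeff := by
  rw [HahnSeries.leadingCoeff_eq, HahnSeries.leadingCoeff_eq, order_qExpand, qExpand_coeff_mul]

theorem ogg_leadingCoeff_uS (k : Type*) [Field k] (p : ℕ) [NeZero p] :
    (uS k p).leadingCoeff = 1 := by
  rw [uS_eq_qExpand_mul, HahnSeries.leadingCoeff_mul, ogg_leadingCoeff_qExpand,
    ← HahnSeries.leadingCoeff_mul, deltaS_mul_deltaInvS, HahnSeries.leadingCoeff_one]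

theorem oggLc_oggU : oggLc (oggU N) = 1 := ogg_leadingCoeff_uS Kb N

end Fermat.Agent.S15
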