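import Fermat.Agent.S15.PkgCardB
import Fermat.Agent.S15.OggLc
import Fermat.Agent.S15.OggDiv

/-!
# S15 / LOCAL-N / LN-PKG, piece PKG-card (3): the pole-control elements `e = h ^ i * j ^ m`

`h = 1 / oggU = Δ(q)/Δ(q^N)`: `div h = (N - 1)((0) - (∞))`, leading coefficient `1`,
`|h|₁ = 1`, `|h|₂ < 1`.

* `pkgcB_h` : `h ∈ B` with reductions `((uS k N)⁻¹, 0)`;
* `pkgcB_wh` : `w_N h = N ^ 12 • oggU ∈ B` with reductions `(0, (uS k N)⁻¹)`;
* `pkgc_exists_E` : for `a ≥ N (N - 1)` there is `e ∈ B` whose `q`-expansion is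
  `q ^ (-a) + …`, and such that `w_N e` has no pole at `q = 0`.
-/

set_option autoImplicit false
set_option linter.unusedSectionVars false

noncomputable section

namespace Fermat.Agent.S15.LN

open ModularCurve AlgebraicCurve HahnSeries Polynomial Fermat.Agent.ES Fermat.Agent.S24
  Fermat.Agent.ES.M Fermat.Agent.DEU Fermat.Agent.INJ Fermat.Agent.S15 Fermat.Agent.S28

variable (N : ℕ) [NeZero N] (A : ValuationSubring Kb)

/-! ### `h` and `w_N h` -/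

/-- `h` has poles only at the cusps -/
theorem pkgc_poles_h (hN : N.Prime) : PolesAtCusps N (oggU N)⁻¹ := by
  classical
  intro P hP
  rw [← ogg_div N hN P, coe_cuspDiv, Finsupp.smul_apply, Finsupp.sub_apply]
  have hne : P ≠ cuspInf N := by
    rintro rfl
    rw [cuspInf_ord_jF] at hP
    omega
  rw [Finsupp.single_eq_of_ne hne, sub_zero]
  apply smul_nonneg (Nat.zero_le _)
  rw [Finsupp.single_apply]
  split_ifs <;> norm_num

/-- `w_N h = N ^ 12 • oggU` -/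
theorem pkgc_fricke_h : frickeAut N (oggU N)⁻¹ = ((N : Kb) ^ 12) • oggU N := by
  have hfr := ogg_fricke N
  have hu0 : oggU N ≠ 0 := oggU_ne_zero N
  have hN0 : ((N : Kb) ^ 12) ≠ 0 := pow_ne_zero _ (Nat.cast_ne_zero.mpr (NeZero.ne N))
  have hN0' : algebraMap Kb (FF N) ((N : Kb) ^ 12) ≠ 0 := (_root_.map_ne_zero _).mpr hN0
  have hw0 : frickeAut N (oggU N) ≠ 0 := (_root_.map_ne_zero _).mpr hu0
  rw [map_inv₀, Algebra.smul_def]
  rw [inv_eq_iff_eq_inv, mul_inv]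
  have h1 : frickeAut N (oggU N) = algebraMap Kb (FF N) (((N : Kb) ^ 12)⁻¹) * (oggU N)⁻¹ := by
    rw [← hfr, mul_assoc, mul_inv_cancel₀ hu0, mul_one]
  rw [h1, map_inv₀]

theorem pkgc_natCast_pow_nonunit (hA : A.LiesOverPrime N) : ((N : Kb) ^ 12) ∈ A.nonunits := by
  have h1 : (N : Kb) ∈ A.nonunits := hA
  rw [ValuationSubring.mem_nonunits_iff] at h1 ⊢
  rw [map_pow]
  exact pow_lt_one₀ zero_le h1 (by norm_num)

/-- `h ∈ B` with reductions `(h̄₁, 0)` -/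
theorem pkgcB_h (hN : N.Prime) (hA : A.LiesOverPrime N) :
    PkgcB N A (oggU N)⁻¹ (uS (kA A) N)⁻¹ 0 := by
  refine ⟨pkgc_poles_h N hN, pkg_gaussRed_h N A, ?_⟩
  rw [pkgc_fricke_h]
  exact pkgc_gaussRed_smul_nonunit (pkgc_natCast_pow_nonunit N A hA) (pkg_gaussRed_oggU N A)

/-- `w_N h ∈ B` with reductions `(0, h̄₁)` -/
theorem pkgcB_wh (hN : N.Prime) (hA : A.LiesOverPrime N) :
    PkgcB N A (frickeAut N (oggU N)⁻¹) 0 (uS (kA A) N)⁻¹ :=
  (pkgcB_h N A hN hA).swap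

/-! ### The elements `e = h ^ i * j ^ m` -/

/-- `e = h ^ i * j ^ m` -/
def pkgcE (i m : ℕ) : FF N := (oggU N)⁻¹ ^ i * jF N ^ m

theorem pkgcE_ne_zero (i m : ℕ) : pkgcE N i m ≠ 0 :=
  mul_ne_zero (pow_ne_zero _ (inv_ne_zero (oggU_ne_zero N))) (pow_ne_zero _ fr_jF_ne_zero)

theorem pkgc_ord_pow (P : Place Kb (FF N)) {f : FF N} (hf : f ≠ 0) (n : ℕ) :
    P.ord (f ^ n) = n * P.ord f := by
  induction n with
  | zero => rw [pow_zero, Place.ord_one]; simp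
  | succ n ih =>
    rw [pow_succ, Place.ord_mul _ (pow_ne_zero _ hf) hf, ih]
    push_cast
    ring

theorem pkgcE_ord (P : Place Kb (FF N)) (i m : ℕ) :
    P.ord (pkgcE N i m) = -(i * P.ord (oggU N)) + m * P.ord (jF N) := by
  rw [pkgcE, Place.ord_mul _ (pow_ne_zero _ (inv_ne_zero (oggU_ne_zero N)))
    (pow_ne_zero _ fr_jF_ne_zero), pkgc_ord_pow N P (inv_ne_zero (oggU_ne_zero N)),
    pkgc_ord_pow N P fr_jF_ne_zero, Place.ord_inv]
  ring

theorem pkgcE_order (i m : ℕ) :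
    ((pkgcE N i m : FF N) : LaurentSeries Kb).order = -((i : ℤ) * ((N : ℤ) - 1) + m) := by
  rw [← cuspInf_ord (pkgcE_ne_zero N i m), pkgcE_ord, ogg_ord_cuspInf, cuspInf_ord_jF]
  ring

theorem pkgcE_fricke_order (hN : N.Prime) (i m : ℕ) :
    ((frickeAut N (pkgcE N i m) : FF N) : LaurentSeries Kb).order =
      (i : ℤ) * ((N : ℤ) - 1) - m * N := by
  have h0 : frickeAut N (pkgcE N i m) ≠ 0 := (_root_.map_ne_zero _).mpr (pkgcE_ne_zero N i m)
  rw [← cuspInf_ord h0, ← cuspZero_ord, pkgcE_ord, ogg_ord_cuspZero N hN, cuspZero_ord_jF]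
  ring

theorem pkgc_oggLc_inv {f : FF N} (hf : f ≠ 0) : oggLc f⁻¹ = (oggLc f)⁻¹ := by
  have h1 : oggLc f * oggLc f⁻¹ = 1 := by
    rw [← oggLc_mul, mul_inv_cancel₀ hf, oggLc_one]
  exact eq_inv_of_mul_eq_one_right h1

theorem pkgc_oggLc_jF : oggLc (jF N) = 1 := by
  rw [oggLc, pkg_coe_jF, pkgc_leadingCoeff_j]

theorem pkgcE_lc (i m : ℕ) : oggLc (pkgcE N i m) = 1 := by
  rw [pkgcE, oggLc_mul, oggLc_pow, oggLc_pow, pkgc_oggLc_inv N (oggU_ne_zero N), oggLc_oggU,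
    pkgc_oggLc_jF, inv_one, one_pow, one_pow, mul_one]

/-- the coefficient of `q ^ (-a)` in `e` is `1`, `a = i (N - 1) + m` -/
theorem pkgcE_coeff (i m : ℕ) :
    ((pkgcE N i m : FF N) : LaurentSeries Kb).coeff (-((i : ℤ) * ((N : ℤ) - 1) + m)) = 1 := by
  have h := pkgcE_lc N i m
  rw [oggLc, HahnSeries.leadingCoeff_eq, pkgcE_order] at h
  exact h

theorem pkgcE_poleLe (i m : ℕ) :
    PkgcPoleLe ((i : ℤ) * ((N : ℤ) - 1) + m) ((pkgcE N i m : FF N) : LaurentSeries Kb) := by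
  have h0 : ((pkgcE N i m : FF N) : LaurentSeries Kb) ≠ 0 := fun h =>
    pkgcE_ne_zero N i m (Subtype.ext h)
  rw [pkgcPoleLe_iff_order h0, pkgcE_order]

theorem pkgcE_fricke_poleLe (hN : N.Prime) (i m : ℕ) (h : m * N ≤ i * (N - 1)) :
    PkgcPoleLe 0 ((frickeAut N (pkgcE N i m) : FF N) : LaurentSeries Kb) := by
  have h0 : frickeAut N (pkgcE N i m) ≠ 0 := (_root_.map_ne_zero _).mpr (pkgcE_ne_zero N i m)
  have h0' : ((frickeAut N (pkgcE N i m) : FF N) : LaurentSeries Kb) ≠ 0 := fun h =>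
    h0 (Subtype.ext h)
  rw [pkgcPoleLe_iff_order h0', pkgcE_fricke_order N hN, neg_zero]
  have h1 : ((m * N : ℕ) : ℤ) ≤ ((i * (N - 1) : ℕ) : ℤ) := by exact_mod_cast h
  have hN1 : ((N - 1 : ℕ) : ℤ) = (N : ℤ) - 1 := by
    have := hN.one_le
    push_cast [Nat.cast_sub this]
    ring
  push_cast at h1
  rw [hN1] at h1
  linarith

theorem pkgcB_E (hN : N.Prime) (hA : A.LiesOverPrime N) (i m : ℕ) :
    ∃ u v : LaurentSeries (kA A), PkgcB N A (pkgcE N i m) u v :=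
  ⟨_, _, ((pkgcB_h N A hN hA).pow i).mul ((pkgcB_j N A hN hA).pow m)⟩

/-- **the pole-control elements**: for `a ≥ N (N - 1)` there is `e ∈ B` with `q`-expansion
`q ^ (-a) + …` such that `w_N e` has no pole at `q = 0`. -/
theorem pkgc_exists_E (hN : N.Prime) (hA : A.LiesOverPrime N) (a : ℕ) (ha : N * (N - 1) ≤ a) :
    ∃ e : FF N, (∃ u v : LaurentSeries (kA A), PkgcB N A e u v) ∧
      PkgcPoleLe (a : ℤ) ((e : FF N) : LaurentSeries Kb) ∧
      ((e : FF N) : LaurentSeries Kb).coeff (-(a : ℤ)) = 1 ∧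
      PkgcPoleLe 0 ((frickeAut N e : FF N) : LaurentSeries Kb) := by
  have hN2 := hN.two_le
  have hpos : 0 < N - 1 := by omega
  set i := a / (N - 1) with hi
  set m := a % (N - 1) with hm
  have hdm : (N - 1) * i + m = a := Nat.div_add_mod a (N - 1)
  have hmlt : m < N - 1 := Nat.mod_lt a hpos
  have hiN : N ≤ i := by
    rw [hi, Nat.le_div_iff_mul_le hpos]
    exact ha
  have hcast : (i : ℤ) * ((N : ℤ) - 1) + m = (a : ℤ) := by
    have hN1 : ((N - 1 : ℕ) : ℤ) = (N : ℤ) - 1 := by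
      push_cast [Nat.cast_sub hN.one_le]
      ring
    rw [← hN1]
    have : (((N - 1) * i + m : ℕ) : ℤ) = (a : ℤ) := by rw [hdm]
    push_cast at this
    linarith
  refine ⟨pkgcE N i m, pkgcB_E N A hN hA i m, ?_, ?_, ?_⟩
  · rw [← hcast]
    exact pkgcE_poleLe N i m
  · rw [← hcast]
    exact pkgcE_coeff N i m
  · apply pkgcE_fricke_poleLe N hN
    calc m * N ≤ (N - 1) * N := Nat.mul_le_mul_right N hmlt.le
      _ = N * (N - 1) := Nat.mul_comm _ _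
      _ ≤ i * (N - 1) := Nat.mul_le_mul_right (N - 1) hiN

end Fermat.Agent.S15.LN
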