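import Fermat.Agent.S15.PkgMinHMain
import Fermat.Agent.S15.PkgCardE

/-!
# S15 / LN-PKG, piece PKG-minh: `stmtPkgMinH : StmtPkgMinH` (helper52)

The separating functions `pkgSepJ = h = 1/oggU` (chart `j`) and `pkgSepI = h · j^(1-N)`
(chart `1/j`) generate `F_N` over `ℚ̄(t)` and are roots of a monic `m ∈ A[X][T]` with
reduction `(T - F₁(X)) · T ^ N`.

Both are instances of `pkgmh_isMin` (`S15/PkgMinHMain.lean`): `w_N f = N ^ 12 · v` with
`v = oggU · (j_N⁻¹)^e` integral of `q`-order `≡ -1 mod N`.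
-/

set_option autoImplicit false
set_option linter.unusedSectionVars false
set_option linter.unusedVariables false
set_option linter.style.haveILetI false

noncomputable section

namespace Fermat.Agent.S15.LN

open ModularCurve AlgebraicCurve Polynomial IntermediateField
open Fermat.Agent.ES Fermat.Agent.ES.M Fermat.Agent.ES.G2 Fermat.Agent.S24 Fermat.Agent.ES.LR
  Fermat.Agent.DEU Fermat.Agent.W1 Fermat.Agent.S15 Fermat.Agent.INJ Fermat.Agent.S28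

variable (N : ℕ) [NeZero N] (A : ValuationSubring Kb)

/-! ### `q`-expansions -/

theorem pkgmh_kronInt_uS : KronInt A (uS Kb N) := by
  have h : uS Kb N = kronIncl A (coeffMap (Int.castRingHom A) (uZ N)) := by
    rw [pkg_kronIncl_int]
    rfl
  rw [h]
  exact kronInt_kronIncl _

theorem pkgmh_order_not_dvd (hN : N.Prime) {c₀ : Kb} (hc₀ : c₀ ≠ 0) (z : LaurentSeries Kb)
    (hz : z ≠ 0) :
    ¬ (N : ℤ) ∣ (HahnSeries.C c₀ * (uS Kb N * qExpand Kb N z)).order := by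
  have hC : (HahnSeries.C c₀ : LaurentSeries Kb) ≠ 0 := by
    intro h
    apply hc₀
    have := congrArg (fun g : LaurentSeries Kb => g.coeff 0) h
    simpa using this
  have hq : qExpand Kb N z ≠ 0 := qExpand_ne_zero hz
  rw [HahnSeries.order_mul hC (mul_ne_zero (uS_ne_zero N Kb) hq), HahnSeries.order_C, zero_add,
    HahnSeries.order_mul (uS_ne_zero N Kb) hq, order_uS, order_qExpand]
  rintro ⟨c, hc⟩
  have h1 : (N : ℤ) ∣ 1 := ⟨z.order - c + 1, by linarith⟩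
  have h2 : N ∣ 1 := by exact_mod_cast h1
  exact hN.one_lt.ne' (Nat.dvd_one.1 h2)

theorem pkgmh_natCast_pow_ne_zero : ((N : Kb) ^ 12) ≠ 0 :=
  pow_ne_zero _ (Nat.cast_ne_zero.mpr (NeZero.ne N))

theorem pkgmh_coe_fricke_h :
    ((frickeAut N (oggU N)⁻¹ : FF N) : LaurentSeries Kb) =
      HahnSeries.C ((N : Kb) ^ 12) * uS Kb N := by
  rw [pkgc_fricke_h, Algebra.smul_def, pkgmh_coe_mul, pkgtv_coe_algebraMap, coe_oggU]

/-! ### The chart `j` -/

theorem pkgmh_isMin_j (hN : N.Prime) (hA : A.LiesOverPrime N) (hB : PkgBase N A) :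
    PkgIsMin N A hB (jF N) (pkgJbar A) (pkgSepJ N) := by
  obtain ⟨ht₁, htb⟩ := pkg_red₁_j N A hB
  have huv : ((frickeAut N (pkgSepJ N) : FF N) : LaurentSeries Kb) =
      HahnSeries.C ((N : Kb) ^ 12) * (uS Kb N * qExpand Kb N 1) := by
    rw [map_one, mul_one]
    exact pkgmh_coe_fricke_h N
  have hord : ¬ (N : ℤ) ∣ ((frickeAut N (pkgSepJ N) : FF N) : LaurentSeries Kb).order := by
    rw [huv]
    exact pkgmh_order_not_dvd N hN (pkgmh_natCast_pow_ne_zero N) 1 one_ne_zero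
  have hv : KronInt A (uS Kb N * qExpand Kb N 1) := by
    rw [map_one, mul_one]
    exact pkgmh_kronInt_uS N A
  have key := pkgmh_isMin N A hN (arch_Qbar A hN hA) hB (jF N) (pkgtvCoord_j N hN A) ht₁
    (pkgSepJ N) (pkgc_poles_h N hN) (pkg_h_mem₁ N A) (pkgc_natCast_pow_nonunit N A hA)
    (pkgmh_natCast_pow_ne_zero N) _ hv huv hord
  rwa [htb] at key

/-! ### The chart `1/j` -/

theorem pkgmh_jinv_mem (hB : PkgBase N A) :
    ∃ h : (jF N)⁻¹ ∈ pkgO₁ N A, pkgRed₁ N A hB ⟨_, h⟩ = (pkgJbar A)⁻¹ := by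
  obtain ⟨ht₁, htb⟩ := pkg_red₁_j N A hB
  have hg : GaussRed N A (jF N)⁻¹ (jqModC (kA A))⁻¹ :=
    deuInst_gaussRed_inv N A (pkg_gaussRed_j N A) (jqModC_ne_zero (k := kA A))
  have hmem : (jF N)⁻¹ ∈ pkgO₁ N A := ⟨_, hg⟩
  refine ⟨hmem, ?_⟩
  have h1 : (⟨(jF N)⁻¹, hmem⟩ : ↥(pkgO₁ N A)) * ⟨jF N, ht₁⟩ = 1 := by
    apply Subtype.ext
    show (jF N)⁻¹ * jF N = 1
    have hj0 : jF N ≠ 0 := fun h => transcendental_jF N (h ▸ isAlgebraic_zero)
    exact inv_mul_cancel₀ hj0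
  have h2 := congrArg (pkgRed₁ N A hB) h1
  rw [map_mul, map_one, htb] at h2
  exact eq_inv_of_mul_eq_one_left h2

theorem pkgmh_reg_sepI (hN : N.Prime) (P : Place Kb (FF N)) (hP : 0 ≤ P.ord (jF N)⁻¹) :
    0 ≤ P.ord (pkgSepI N) := by
  classical
  have hj0 : jF N ≠ 0 := fun h => transcendental_jF N (h ▸ isAlgebraic_zero)
  have hh0 : (oggU N)⁻¹ ≠ 0 := inv_ne_zero (oggU_ne_zero N)
  have hp0 : ((jF N)⁻¹) ^ (N - 1) ≠ 0 := pow_ne_zero _ (inv_ne_zero hj0)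
  have hN1 : ((N - 1 : ℕ) : ℤ) = (N : ℤ) - 1 := by
    have := hN.one_le
    push_cast [Nat.cast_sub this]
    ring
  have hpow : P.ord (((jF N)⁻¹) ^ (N - 1)) = ((N : ℤ) - 1) * P.ord (jF N)⁻¹ := by
    have h := P.ord_zpow (jF N)⁻¹ ((N - 1 : ℕ) : ℤ)
    rw [zpow_natCast, hN1] at h
    exact h
  have hN0 : (0 : ℤ) ≤ (N : ℤ) - 1 := by
    have := hN.one_le
    omega
  rw [pkgSepI, P.ord_mul hh0 hp0, hpow]
  by_cases hne : P = cuspInf N
  · subst hne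
    rw [Place.ord_inv, ogg_ord_cuspInf, Place.ord_inv, cuspInf_ord_jF]
    ring_nf
    exact le_refl _
  · have h1 : 0 ≤ P.ord (oggU N)⁻¹ := by
      rw [← ogg_div N hN P, coe_cuspDiv, Finsupp.smul_apply, Finsupp.sub_apply,
        Finsupp.single_eq_of_ne hne, sub_zero]
      apply smul_nonneg (Nat.zero_le _)
      rw [Finsupp.single_apply]
      split_ifs <;> norm_num
    have h2 : 0 ≤ ((N : ℤ) - 1) * P.ord (jF N)⁻¹ := mul_nonneg hN0 hP
    omega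

theorem pkgmh_isMin_jinv (hN : N.Prime) (hA : A.LiesOverPrime N) (hB : PkgBase N A) :
    PkgIsMin N A hB (jF N)⁻¹ (pkgJbar A)⁻¹ (pkgSepI N) := by
  obtain ⟨ht₁, htb⟩ := pkgmh_jinv_mem N A hB
  have hjb0 : (jBar : LaurentSeries Kb) ≠ 0 := pkgtv_jBar_ne_zero
  set z : LaurentSeries Kb := ((jBar : LaurentSeries Kb)⁻¹) ^ (N - 1) with hz
  have hz0 : z ≠ 0 := pow_ne_zero _ (inv_ne_zero hjb0)
  have huv : ((frickeAut N (pkgSepI N) : FF N) : LaurentSeries Kb) =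
      HahnSeries.C ((N : Kb) ^ 12) * (uS Kb N * qExpand Kb N z) := by
    have e1 : frickeAut N (pkgSepI N) =
        frickeAut N (oggU N)⁻¹ * ((jdF N N dvd_rfl)⁻¹) ^ (N - 1) := by
      rw [pkgSepI, map_mul, map_pow, map_inv₀ (frickeAut N) (jF N), frickeAut_jF]
    have e2 : qExpand Kb N z = ((qExpand Kb N jBar)⁻¹) ^ (N - 1) := by
      rw [hz, map_pow, map_inv₀]
    rw [e1, pkgmh_coe_mul, pkgmh_coe_pow, pkgtv_coe_inv, pkgtv_coe_jN, pkgmh_coe_fricke_h, e2,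
      mul_assoc]
  have hord : ¬ (N : ℤ) ∣ ((frickeAut N (pkgSepI N) : FF N) : LaurentSeries Kb).order := by
    rw [huv]
    exact pkgmh_order_not_dvd N hN (pkgmh_natCast_pow_ne_zero N) z hz0
  have hv : KronInt A (uS Kb N * qExpand Kb N z) :=
    (pkgmh_kronInt_uS N A).mul (((pkgtv_kronInt_jinv A).pow (N - 1)).qExpand N)
  have hu₁ : pkgSepI N ∈ pkgO₁ N A :=
    mul_mem (pkg_h_mem₁ N A) (pow_mem ht₁ _)
  have key := pkgmh_isMin N A hN (arch_Qbar A hN hA) hB (jF N)⁻¹ (pkgtvCoord_jinv N hN A) ht₁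
    (pkgSepI N) (pkgmh_reg_sepI N hN) hu₁ (pkgc_natCast_pow_nonunit N A hA)
    (pkgmh_natCast_pow_ne_zero N) _ hv huv hord
  rwa [htb] at key

/-- **PKG-minh** -/
theorem stmtPkgMinH : StmtPkgMinH := fun N _ hN _ A hA hB =>
  ⟨pkgmh_isMin_j N A hN hA hB, pkgmh_isMin_jinv N A hN hA hB⟩

end Fermat.Agent.S15.LN
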