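import Fermat.Agent.S15.PkgEvPlan

/-!
# S15 / LN-PKG, piece PKG-uniq: exact statements (helper25)

Input of PKG-rdiv: above a value `b ∈ A` of the coordinate `t` (`t = j` or `t = 1/j`) there is at
most ONE place of type 1, and `t - b` is a uniformizer there (`e = 1`).

Route (three pieces):
* `PkgIsSimple` (abstract, `S15/PkgSimple.lean`): `F = K(t, f)`, `m(t, f) = 0`, `m` monic in `T`,
  `c` a SIMPLE root of `m(b, T)`: then there is at most one place `P` with `t(P) = b`, `f(P) = c`,
  and `ord_P (t - b) = 1`.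
* `StmtPkgMinH` : for the separating function `f = pkgSep` of the chart (`h = 1/oggU` for `t = j`,
  `h · t^(N-1)` for `t = 1/j`): `F_N = ℚ̄(t, f)` and `f` is a root of a monic `m ∈ A[X][T]` whose
  reduction is `(T - F₁(X)) · T ^ N`, `F₁(t̄) = f̄₁` (the `N + 1` conjugates: one reduces to `f̄₁`,
  the others to `f̄₂ = 0`).
* the assembly `StmtPkgUniq` (with PKG-ev for the chart `1/j` at `|b| < 1`).
-/

set_option autoImplicit false
set_option linter.unusedSectionVars false

noncomputable section

open AlgebraicCurve Module ModularCurve Polynomial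

namespace Fermat.Agent.S15.LN

open Fermat.Agent.W1 Fermat.Agent.S24 Fermat.Agent.S15 Fermat.Agent.ES.M Fermat.Agent.DEU
  Fermat.Agent.INJ

/-! ## The abstract statement -/

section Abstract

variable (K F : Type) [Field K] [Field F] [Algebra K F]

/-- evaluation of a polynomial in two variables at `(t, f)` -/
def pkgEv₂ (t f : F) : K[X][X] →+* F :=
  Polynomial.eval₂RingHom ((Polynomial.aeval t : K[X] →ₐ[K] F) : K[X] →+* F) f

/-- **PKG-simple**: a simple point of the plane model carries exactly one place, unramified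
over the `t`-line. -/
def StmtPkgSimple : Prop :=
  ∀ (K F : Type) [Field K] [Field F] [Algebra K F] (t f : F) (m : K[X][X]) (b c : K),
    IntermediateField.adjoin K {t, f} = ⊤ → pkgEv₂ K F t f m = 0 →
      ((Polynomial.derivative m).eval (C c)).eval b ≠ 0 →
        ∀ P P' : Place K F, HasValueAt P t b → HasValueAt P f c → HasValueAt P' t b →
          HasValueAt P' f c → P.ord (t - algebraMap K F b) = 1 ∧ P' = P

end Abstract

variable (N : ℕ) [NeZero N] (A : ValuationSubring Kb)

/-! ## The separating functions -/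

/-- the separating function of the chart `j`: `h = Δ(τ)/Δ(Nτ)` -/
def pkgSepJ : FF N := (oggU N)⁻¹

/-- the separating function of the chart `1/j`: `h · j ^ (1 - N)` -/
def pkgSepI : FF N := (oggU N)⁻¹ * ((jF N)⁻¹) ^ (N - 1)

/-- evaluation of a polynomial in two variables over `A` at `(t, f)` -/
def pkgEvA (t f : FF N) : (↥A)[X][X] →+* FF N :=
  (pkgEv₂ Kb (FF N) t f).comp
    (Polynomial.mapRingHom (Polynomial.mapRingHom A.subtype))

/-- the facts on the separating function `f` of the chart `t` -/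
structure PkgIsMin (hB : PkgBase N A) (t : FF N) (tb : FFk A) (f : FF N) : Prop where
  /-- `f` generates `F_N` over `ℚ̄(t)` -/
  gen : IntermediateField.adjoin Kb {t, f} = ⊤
  /-- `f` is a root of a monic polynomial over `A[t]` with reduction `(T - F₁(X)) T ^ N` -/
  min : ∃ (m : (↥A)[X][X]) (F₁ : (kA A)[X]), m.Monic ∧ pkgEvA N A t f m = 0 ∧
    (∃ h₁ : f ∈ pkgO₁ N A, pkgRed₁ N A hB ⟨f, h₁⟩ = Polynomial.aeval tb F₁) ∧
    m.map (Polynomial.mapRingHom (IsLocalRing.residue A)) = (X - C F₁) * X ^ N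

/-- **PKG-minh** -/
def StmtPkgMinH : Prop :=
  ∀ (N : ℕ) [NeZero N], N.Prime → 5 ≤ N → ∀ A : ValuationSubring Kb, A.LiesOverPrime N →
    ∀ hB : PkgBase N A, PkgIsMin N A hB (jF N) (pkgJbar A) (pkgSepJ N) ∧
      PkgIsMin N A hB (jF N)⁻¹ (pkgJbar A)⁻¹ (pkgSepI N)

/-- **PKG-uniq**: at most one place of type 1 above a value `b ∈ A` of the coordinate `t`, and
it is unramified over the `t`-line. -/
def StmtPkgUniq : Prop :=
  ∀ (N : ℕ) [NeZero N], N.Prime → 5 ≤ N → ∀ A : ValuationSubring Kb, A.LiesOverPrime N →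
    ∀ t : FF N, t = jF N ∨ t = (jF N)⁻¹ → ∀ (b : A) (P P' : Place Kb (FF N)),
      PkgType₁ N A P → PkgType₁ N A P' → HasValueAt P t (b : Kb) → HasValueAt P' t (b : Kb) →
        P.ord (t - algebraMap Kb (FF N) (b : Kb)) = 1 ∧ P' = P

/-- the assembly of PKG-uniq -/
def StmtPkgUniqAsm : Prop :=
  StmtPkgSimple → StmtPkgMinH → StmtPkgEv → StmtPkgType → StmtPkgVal → StmtPkgUniq

end Fermat.Agent.S15.LN
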