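import Fermat.Agent.S15.PkgRdivH
import Fermat.Agent.S15.PkgUniqPlan

/-!
# S15 / LN-PKG, piece PKG-rdiv, part 4: the assembly (helper24)

`stmtPkgRdiv_of : StmtPkgUniq → StmtPkgRdiv`.

`u ∈ O₁ˣ`, `Q` a smooth point of the first component with `t̄(Q) = a` (`t = j`, or `t = 1/j` at
the cusp).  For `P` in the tube of `Q` put `φ_P = t - t(P)`: a unit of `O₁` with reduction
`π = t̄ - a`, a uniformizer at `Q`; by `StmtPkgUniq` its only zero on the tube is `P`, a simple
one.  So `w = u · ∏ φ_P ^ (- ord_P u)` has neither zeros nor poles on the tube, hence `red₁ w` is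
a unit at `Q` by Hartogs (`pkgrd_hartogs`, for `w` and `w⁻¹`), i.e.
`ord_Q (red₁ u) = Σ_{P in the tube} ord_P u`.
-/

set_option autoImplicit false
set_option linter.unusedSectionVars false
set_option linter.unusedVariables false
set_option linter.style.haveILetI false

noncomputable section

open AlgebraicCurve Module ModularCurve Polynomial IsDedekindDomain

namespace Fermat.Agent.S15.LN

open Fermat.Agent.W1 Fermat.Agent.S24 Fermat.Agent.S15 Fermat.Agent.ES.M Fermat.Agent.DEU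
  Fermat.Agent.INJ

/-! ## Generalities -/

/-- the coordinate minus its value is a uniformizer -/
theorem pkgrd_ord_coord {k F : Type} [Field k] [Field F] [Algebra k F] {t : F}
    (ht : PkgIsCoord k t) (Q : Place k F) (a : k) (hQ : HasValueAt Q t a) :
    Q.ord (t - algebraMap k F a) = 1 := by
  letI := polyAlgebra (K := k) t
  haveI := pkgrp_isFractionRing ht
  have hQ' := pkgrp_hasValueAt_placeOfPrime ht a
  have e := pkgrp_place_ext ht Q _ a hQ hQ'
  rw [e]
  have h1 : t - algebraMap k F a = algebraMap k[X] F (X - C a) := by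
    rw [polyAlgebra_algebraMap_apply, map_sub, aeval_X, aeval_C]
  have hne : t - algebraMap k F a ≠ 0 := by
    rw [h1]
    intro h
    have hinj := (faithfulSMul_iff_algebraMap_injective k[X] F).mp (pkgrp_faithful ht)
    exact X_sub_C_ne_zero a (hinj (by rw [h, map_zero]))
  rw [placeOfPrime_ord _ _ hne, h1, HeightOneSpectrum.valuation_of_algebraMap,
    HeightOneSpectrum.intValuation_singleton _ (X_sub_C_ne_zero a) rfl, WithZero.log_exp]
  simp

theorem pkgrd_add_one {G : Type*} [Group G] (o : G → ℤ)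
    (ho : ∀ x y, o (x * y) = o x + o y) : o 1 = 0 := by
  have := ho 1 1
  rw [mul_one] at this
  omega

theorem pkgrd_add_inv {G : Type*} [Group G] (o : G → ℤ)
    (ho : ∀ x y, o (x * y) = o x + o y) (x : G) : o x⁻¹ = -o x := by
  have h2 := ho x x⁻¹
  rw [mul_inv_cancel, pkgrd_add_one o ho] at h2
  omega

theorem pkgrd_add_zpow {G : Type*} [Group G] (o : G → ℤ)
    (ho : ∀ x y, o (x * y) = o x + o y) (x : G) (n : ℤ) : o (x ^ n) = n * o x := by
  induction n using Int.induction_on with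
  | zero => rw [zpow_zero, pkgrd_add_one o ho, zero_mul]
  | succ n ih =>
      rw [zpow_add_one, ho, ih]
      ring
  | pred n ih =>
      rw [zpow_sub_one, ho, ih, pkgrd_add_inv o ho]
      ring

theorem pkgrd_add_prod_zpow {G ι : Type*} [CommGroup G] (o : G → ℤ)
    (ho : ∀ x y, o (x * y) = o x + o y) (T : Finset ι) (Φ : ι → G) (n : ι → ℤ) :
    o (∏ i ∈ T, Φ i ^ n i) = ∑ i ∈ T, n i * o (Φ i) := by
  classical
  induction T using Finset.induction_on with
  | empty => rw [Finset.prod_empty, Finset.sum_empty, pkgrd_add_one o ho]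
  | insert i T hi ih =>
      rw [Finset.prod_insert hi, Finset.sum_insert hi, ho, ih, pkgrd_add_zpow o ho]

/-! ## The abstract count -/

/-- **the abstract count**, for a commutative group `G` (the units of `O₁`) with the additive
functions `oP P` (the order at `P`) and `oQ` (the order at `Q` of the reduction). -/
theorem pkgrd_count_group {G ι : Type*} [CommGroup G] (oP : ι → G → ℤ) (oQ : G → ℤ)
    (hoP : ∀ P x y, oP P (x * y) = oP P x + oP P y) (hoQ : ∀ x y, oQ (x * y) = oQ x + oQ y)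
    (Tube : ι → Prop) (hart : ∀ W : G, (∀ P, Tube P → oP P W = 0) → 0 ≤ oQ W)
    (Φ : ι → G) (hΦQ : ∀ P, oQ (Φ P) = 1)
    (hΦP : ∀ P P', Tube P → Tube P' → (P = P' → oP P' (Φ P) = 1) ∧ (P ≠ P' → oP P' (Φ P) = 0))
    (U : G) (D : ι →₀ ℤ) (hD : ∀ P, D P = oP P U)
    (T : Finset ι) (hTmem : ∀ P, P ∈ T ↔ P ∈ D.support ∧ Tube P) :
    oQ U = ∑ P ∈ T, D P := by
  classical
  have hΦP' : ∀ P P', Tube P → Tube P' → oP P' (Φ P) = if P = P' then 1 else 0 := by
    intro P P' hP hP'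
    by_cases hPP : P = P'
    · rw [if_pos hPP]
      exact (hΦP P P' hP hP').1 hPP
    · rw [if_neg hPP]
      exact (hΦP P P' hP hP').2 hPP
  obtain ⟨V, hV⟩ : ∃ V : G, V = ∏ P ∈ T, Φ P ^ D P := ⟨_, rfl⟩
  obtain ⟨W, hW⟩ : ∃ W : G, W = U * V⁻¹ := ⟨_, rfl⟩
  have hVP : ∀ P', Tube P' → oP P' V = D P' := by
    intro P' hP'
    rw [hV, pkgrd_add_prod_zpow (oP P') (hoP P') T Φ (fun P => D P)]
    have h1 : ∀ P ∈ T, D P * oP P' (Φ P) = if P = P' then D P' else 0 := by
      intro P hPT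
      rw [hΦP' P P' ((hTmem P).mp hPT).2 hP']
      by_cases hPP : P = P'
      · subst hPP
        rw [if_pos rfl, if_pos rfl, mul_one]
      · rw [if_neg hPP, if_neg hPP, mul_zero]
    rw [Finset.sum_congr rfl h1, Finset.sum_ite_eq' T P' (fun _ => D P')]
    by_cases hmem : P' ∈ T
    · rw [if_pos hmem]
    · rw [if_neg hmem]
      have : P' ∉ D.support := fun h => hmem ((hTmem P').mpr ⟨h, hP'⟩)
      rw [Finsupp.notMem_support_iff] at this
      exact this.symm
  have hWP : ∀ P', Tube P' → oP P' W = 0 := by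
    intro P' hP'
    rw [hW, hoP, pkgrd_add_inv (oP P') (hoP P'), hVP P' hP', ← hD]
    ring
  have hW1 : 0 ≤ oQ W := hart W hWP
  have hW2 : 0 ≤ oQ W⁻¹ := hart W⁻¹ (fun P hP => by
    rw [pkgrd_add_inv (oP P) (hoP P), hWP P hP, neg_zero])
  rw [pkgrd_add_inv oQ hoQ] at hW2
  have hW0 : oQ W = 0 := by omega
  have hVQ : oQ V = ∑ P ∈ T, D P := by
    rw [hV, pkgrd_add_prod_zpow oQ hoQ T Φ (fun P => D P)]
    exact Finset.sum_congr rfl fun P _ => by rw [hΦQ, mul_one]
  have hUWV : U = W * V := by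
    rw [hW, inv_mul_cancel_right]
  rw [hUWV, hoQ, hW0, hVQ, zero_add]

section Abstract

variable {K F k Fk : Type} [Field K] [Field F] [Algebra K F] [Field k] [Field Fk] [Algebra k Fk]
  {O₁ : ValuationSubring F} (red₁ : O₁ →+* Fk)

/-- the order at `P` of a unit of `O₁` -/
def pkgrdOrdP (P : Place K F) (x : O₁ˣ) : ℤ :=
  P.ord (((x : O₁)) : F)

/-- the order at `Q` of the reduction of a unit of `O₁` -/
def pkgrdOrdQ (Q : Place k Fk) (x : O₁ˣ) : ℤ :=
  Q.ord (red₁ (x : O₁))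

theorem pkgrd_unit_coe_ne_zero (x : O₁ˣ) : (((x : O₁)) : F) ≠ 0 := by
  intro h
  exact x.ne_zero (Subtype.ext h)

theorem pkgrdOrdP_mul (P : Place K F) (x y : O₁ˣ) :
    pkgrdOrdP P (x * y) = pkgrdOrdP P x + pkgrdOrdP P y := by
  unfold pkgrdOrdP
  rw [Units.val_mul, MulMemClass.coe_mul,
    P.ord_mul (pkgrd_unit_coe_ne_zero x) (pkgrd_unit_coe_ne_zero y)]

theorem pkgrdOrdQ_mul (Q : Place k Fk) (x y : O₁ˣ) :
    pkgrdOrdQ red₁ Q (x * y) = pkgrdOrdQ red₁ Q x + pkgrdOrdQ red₁ Q y := by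
  unfold pkgrdOrdQ
  rw [Units.val_mul, map_mul,
    Q.ord_mul (x.isUnit.map red₁).ne_zero (y.isUnit.map red₁).ne_zero]

/-- **the abstract count**: Hartogs on the tube and uniformizers `φ_P` with reduction `π` give
`Σ_{P in the tube} ord_P u = ord_Q (red₁ u)`. -/
theorem pkgrd_count_core (Q : Place k Fk) (Tube : Place K F → Prop)
    (hart : ∀ w : O₁, (∀ P : Place K F, Tube P → 0 ≤ P.ord (w : F)) → 0 ≤ Q.ord (red₁ w))
    (hunit : ∀ x : O₁, red₁ x ≠ 0 → IsUnit x)
    (φ : Place K F → O₁) (π : Fk) (hπ : Q.ord π = 1) (hφred : ∀ P, red₁ (φ P) = π)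
    (hφP : ∀ P P' : Place K F, Tube P → Tube P' →
      (P = P' → P'.ord ((φ P : O₁) : F) = 1) ∧ (P ≠ P' → P'.ord ((φ P : O₁) : F) = 0))
    (u : O₁) (hu : red₁ u ≠ 0) (D : Place K F →₀ ℤ) (hD : ∀ P, D P = P.ord (u : F))
    (T : Finset (Place K F)) (hTmem : ∀ P, P ∈ T ↔ P ∈ D.support ∧ Tube P) :
    Q.ord (red₁ u) = ∑ P ∈ T, D P := by
  have hπ0 : π ≠ 0 := by
    intro h
    rw [h, Place.ord_zero] at hπ
    exact zero_ne_one hπ
  have hφunit : ∀ P, IsUnit (φ P) := fun P => hunit _ (by rw [hφred]; exact hπ0)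
  obtain ⟨Φ, hΦ⟩ : ∃ Φ : Place K F → O₁ˣ, ∀ P, ((Φ P : O₁ˣ) : O₁) = φ P :=
    ⟨fun P => (hφunit P).unit, fun P => rfl⟩
  obtain ⟨U, hUcoe⟩ : ∃ U : O₁ˣ, ((U : O₁ˣ) : O₁) = u := ⟨(hunit u hu).unit, rfl⟩
  have key := pkgrd_count_group (G := O₁ˣ) (fun P x => pkgrdOrdP P x) (pkgrdOrdQ red₁ Q)
    (fun P x y => pkgrdOrdP_mul P x y) (pkgrdOrdQ_mul red₁ Q) Tube
    (fun W hW => hart (W : O₁) (fun P hP => le_of_eq (hW P hP).symm)) Φ
    (fun P => by
      unfold pkgrdOrdQ
      rw [hΦ, hφred, hπ])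
    (fun P P' hP hP' => by
      unfold pkgrdOrdP
      rw [hΦ]
      exact hφP P P' hP hP') U D
    (fun P => by
      unfold pkgrdOrdP
      rw [hUcoe, hD]) T hTmem
  rw [← key, ← hUcoe]
  rfl

end Abstract

variable {N : ℕ} [NeZero N] {A : ValuationSubring Kb} (hB : PkgBase N A)

include hB in
theorem pkgrd_isUnit (x : pkgO₁ N A) (hx : pkgRed₁ N A hB x ≠ 0) : IsUnit x := by
  by_contra h
  apply hx
  rw [pkg_red₁_eq_zero_iff N A hB x, ValuationSubring.coe_mem_nonunits_iff,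
    IsLocalRing.mem_maximalIdeal, mem_nonunits_iff]
  exact h

/-! ## The tube -/

theorem pkgrd_j_ne_inv : jF N ≠ (jF N)⁻¹ := by
  intro h
  have h1 := congrArg (cuspInf N).ord h
  rw [Place.ord_inv, cuspInf_ord_jF] at h1
  omega

/-- the places reducing to `Q` are the places of the tube of `Q` -/
theorem pkgrd_tube_iff (hN : N.Prime) (hA : A.LiesOverPrime N) {t : FF N} {tb : FFk A}
    (ht : PkgCoord N A t tb) (Q : Place (kA A) (FFk A)) (a : kA A) (hQ : HasValueAt Q tb a)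
    (hcusp : t = (jF N)⁻¹ → a = 0) (P : Place Kb (FF N)) :
    pkgR N A P = some (Sum.inl Q) ↔ PkgrdTube N A t a P := by
  have hT : PkgIsType N A := pkgty_isType N A hN hA
  rw [hT.r_inl_iff]
  constructor
  · intro hrel
    have hex : ∃ c : A, HasValueAt P t (c : Kb) := by
      rcases ht with ⟨rfl, rfl⟩ | ⟨rfl, rfl⟩
      · exact pkgcr_j_value hrel hQ
      · have ha : a = 0 := hcusp rfl
        subst ha
        rcases hrel.2 with ⟨c, -, hcQ⟩ | ⟨c, hc, -⟩
        · exfalso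
          have hmul := ln_hasValueAt_mul hcQ hQ
          rw [mul_inv_cancel₀ (pkgty_Jbar_ne_zero A), mul_zero] at hmul
          exact one_ne_zero (hasValueAt_unique Q (ln_hasValueAt_one Q) hmul)
        · exact ⟨c, hc⟩
    obtain ⟨c, hc⟩ := hex
    exact ⟨hrel.1, c, hc, hasValueAt_unique Q (pkgev_coord_value N A ht hrel c hc) hQ⟩
  · rintro ⟨hty, c, hc, hres⟩
    refine ⟨hty, ?_⟩
    rcases ht with ⟨rfl, rfl⟩ | ⟨rfl, rfl⟩
    · exact Or.inl ⟨c, hc, by rw [hres]; exact hQ⟩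
    · exact Or.inr ⟨c, hc, by rw [hres]; exact hQ⟩

/-! ## The main computation -/

include hB in
/-- **PKG-rdiv in a chart** -/
theorem pkgrd_main (hU : StmtPkgUniq) (hN : N.Prime) (h5 : 5 ≤ N) (hA : A.LiesOverPrime N)
    {t : FF N} {tb : FFk A} (ht : PkgCoord N A t tb) (Q : Place (kA A) (FFk A)) (a : kA A)
    (hQ : HasValueAt Q tb a) (hcusp : t = (jF N)⁻¹ → a = 0)
    (hnc : ∀ x ∈ pkgX N A hB, x.1 ≠ Q) (u : pkgO₁ N A) (hu : pkgRed₁ N A hB u ≠ 0)
    (D : Divisor Kb (FF N)) (hD : ∀ P, D P = P.ord (u : FF N)) :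
    (pkgTR N A hB).push₁ D Q = Q.ord (pkgRed₁ N A hB u) := by
  classical
  obtain ⟨ht₁, ht₂⟩ := pkgev_coord_mem N A hB hN hA ht
  have htred := (pkgev_coord_red N A hB hN hA ht ht₁ ht₂).1
  have htj : t = jF N ∨ t = (jF N)⁻¹ := by
    rcases ht with ⟨rfl, -⟩ | ⟨rfl, -⟩
    · exact Or.inl rfl
    · exact Or.inr rfl
  have htco : PkgIsCoord (kA A) tb := by
    rcases ht with ⟨-, rfl⟩ | ⟨-, rfl⟩
    · exact pkgty_coordJ A
    · exact pkgty_coord_inv (kA A) (pkgty_coordJ A)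
  obtain ⟨c₀, hc₀⟩ := IsLocalRing.residue_surjective (R := A) a
  -- the values of `t` on the tube
  obtain ⟨c, hc_res, hc_val⟩ : ∃ c : Place Kb (FF N) → A,
      (∀ P, IsLocalRing.residue A (c P) = a) ∧
        ∀ P, PkgrdTube N A t a P → HasValueAt P t ((c P : A) : Kb) := by
    refine ⟨fun P => if h : PkgrdTube N A t a P then h.2.choose else c₀, ?_, ?_⟩
    · intro P
      by_cases h : PkgrdTube N A t a P
      · simp only [dif_pos h]
        exact h.2.choose_spec.2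
      · simp only [dif_neg h]
        exact hc₀
    · intro P h
      simp only [dif_pos h]
      exact h.2.choose_spec.1
  -- the uniformizer at `Q`
  obtain ⟨π, hπdef⟩ : ∃ π : FFk A, π = tb - algebraMap (kA A) (FFk A) a := ⟨_, rfl⟩
  have hπ : Q.ord π = 1 := by
    rw [hπdef]
    exact pkgrd_ord_coord htco Q a hQ
  -- the functions `φ_P`
  have hφmem : ∀ P, t - algebraMap Kb (FF N) ((c P : A) : Kb) ∈ pkgO₁ N A := fun P =>
    sub_mem ht₁ (pkgrd_const_mem hB (c P))
  have hφred : ∀ P, pkgRed₁ N A hB ⟨_, hφmem P⟩ = π := by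
    intro P
    have e : (⟨t - algebraMap Kb (FF N) ((c P : A) : Kb), hφmem P⟩ : pkgO₁ N A) =
        ⟨t, ht₁⟩ - ⟨algebraMap Kb (FF N) ((c P : A) : Kb), pkgrd_const_mem hB (c P)⟩ := rfl
    rw [e, map_sub, pkg_red₁_algebraMap N A hB (c P) _, htred, hc_res, hπdef]
  -- the orders of `φ_P` on the tube
  have hφP : ∀ P P' : Place Kb (FF N), PkgrdTube N A t a P → PkgrdTube N A t a P' →
      (P = P' → P'.ord (t - algebraMap Kb (FF N) ((c P : A) : Kb)) = 1) ∧
        (P ≠ P' → P'.ord (t - algebraMap Kb (FF N) ((c P : A) : Kb)) = 0) := by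
    intro P P' hP hP'
    constructor
    · intro hPP
      subst hPP
      exact (hU N hN h5 A hA t htj (c P) P P hP.1 hP.1 (hc_val P hP) (hc_val P hP)).1
    · intro hPP
      have hne : ((c P' : A) : Kb) ≠ ((c P : A) : Kb) := by
        intro heq
        have h1 := hc_val P' hP'
        rw [heq] at h1
        exact hPP (hU N hN h5 A hA t htj (c P) P P' hP.1 hP'.1 (hc_val P hP) h1).2.symm
      have hv := pkgrd_hasValueAt_sub (hc_val P' hP') (ln_hasValueAt_const P' ((c P : A) : Kb))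
      exact ln_ord_eq_zero_of_value hv (sub_ne_zero.mpr hne)
  have key := pkgrd_count_core (K := Kb) (pkgRed₁ N A hB) Q (PkgrdTube N A t a)
    (fun w hw => pkgrd_hartogs hB hN h5 hA ht Q a hQ hcusp hnc w hw)
    (fun x hx => pkgrd_isUnit hB x hx)
    (fun P => ⟨_, hφmem P⟩) π hπ hφred hφP u hu D hD
    (D.support.filter (fun P => PkgrdTube N A t a P))
    (fun P => Finset.mem_filter)
  have hr : ∀ P, ((pkgTR N A hB).r P = some (Sum.inl Q)) ↔ PkgrdTube N A t a P :=
    fun P => pkgrd_tube_iff hN hA ht Q a hQ hcusp P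
  rw [key, ln_push₁_apply, Finset.sum_filter]
  refine (Finset.sum_congr rfl fun P _ => ?_).symm
  by_cases h : PkgrdTube N A t a P
  · rw [if_pos h, if_pos ((hr P).mpr h)]
  · rw [if_neg h, if_neg (fun h' => h ((hr P).mp h'))]

/-- **PKG-rdiv**, from PKG-uniq. -/
theorem stmtPkgRdiv_of (hU : StmtPkgUniq) : StmtPkgRdiv := by
  intro N _ hN h5 A hA hB u hu D hD Q hnc
  rcases pkgty_mem_or_pole Q (pkgJbar A) with hmem | hpole
  · obtain ⟨a, ha⟩ := ge_exists_value Q (modHyp_hresk 1 A Q) hmem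
    exact pkgrd_main hB hU hN h5 hA (t := jF N) (tb := pkgJbar A) (Or.inl ⟨rfl, rfl⟩) Q a ha
      (fun h => absurd h pkgrd_j_ne_inv) hnc u hu D hD
  · exact pkgrd_main hB hU hN h5 hA (t := (jF N)⁻¹) (tb := (pkgJbar A)⁻¹) (Or.inr ⟨rfl, rfl⟩)
      Q 0 (pkgty_value_inv_of_pole hpole) (fun _ => rfl) hnc u hu D hD

end Fermat.Agent.S15.LN
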