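import Fermat.Agent.W1.GeoEval

/-!
# S15 / LOCDIV: arithmetic of values at a place

`HasValueAt P f a` (`f(P) = a`) is compatible with constants, sums, products, inverses, powers.
-/

set_option autoImplicit false
set_option linter.unusedSectionVars false

open AlgebraicCurve

namespace Fermat.Agent.S15.LD

open Fermat.Agent.S24 Fermat.Agent.W1

variable {K F : Type} [Field K] [Field F] [Algebra K F] (P : Place K F)

theorem ld_hv_iff {f : F} {a : K} :
    HasValueAt P f a ↔ ∃ h : f - algebraMap K F a ∈ P.toValuationSubring,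
      (⟨f - algebraMap K F a, h⟩ : P.toValuationSubring) ∈
        IsLocalRing.maximalIdeal P.toValuationSubring :=
  ValuationSubring.mem_nonunits_iff_exists_mem_maximalIdeal

theorem ld_hv_const (a : K) : HasValueAt P (algebraMap K F a) a :=
  hasValueAt_of_eq P (sub_self _)

theorem ld_hv_add {f g : F} {a b : K} (hf : HasValueAt P f a) (hg : HasValueAt P g b) :
    HasValueAt P (f + g) (a + b) := by
  obtain ⟨h1, h1'⟩ := (ld_hv_iff P).mp hf
  obtain ⟨h2, h2'⟩ := (ld_hv_iff P).mp hg
  rw [ld_hv_iff]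
  have e : f + g - algebraMap K F (a + b) = (f - algebraMap K F a) + (g - algebraMap K F b) := by
    rw [map_add]; ring
  refine ⟨e ▸ add_mem h1 h2, ?_⟩
  have := Ideal.add_mem _ h1' h2'
  convert this using 1
  exact Subtype.ext e

theorem ld_hv_mul {f g : F} {a b : K} (hf : HasValueAt P f a) (hg : HasValueAt P g b) :
    HasValueAt P (f * g) (a * b) := by
  obtain ⟨h1, h1'⟩ := (ld_hv_iff P).mp hf
  obtain ⟨h2, h2'⟩ := (ld_hv_iff P).mp hg
  have hgm : g ∈ P.toValuationSubring := HasValueAt.mem P hg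
  have ham : algebraMap K F a ∈ P.toValuationSubring := P.algebraMap_mem' a
  rw [ld_hv_iff]
  have e : f * g - algebraMap K F (a * b) =
      (f - algebraMap K F a) * g + algebraMap K F a * (g - algebraMap K F b) := by
    rw [map_mul]; ring
  refine ⟨e ▸ add_mem (mul_mem h1 hgm) (mul_mem ham h2), ?_⟩
  have := Ideal.add_mem _ (Ideal.mul_mem_right (⟨g, hgm⟩ : P.toValuationSubring) _ h1')
    (Ideal.mul_mem_left _ (⟨algebraMap K F a, ham⟩ : P.toValuationSubring) h2')
  convert this using 1
  exact Subtype.ext e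

theorem ld_hv_pow {f : F} {a : K} (hf : HasValueAt P f a) (n : ℕ) :
    HasValueAt P (f ^ n) (a ^ n) := by
  induction n with
  | zero =>
    rw [pow_zero, pow_zero]
    have := ld_hv_const P (1 : K)
    rwa [map_one] at this
  | succ n ih =>
    rw [pow_succ, pow_succ]
    exact ld_hv_mul P ih hf

theorem ld_hv_inv {f : F} {a : K} (hf : HasValueAt P f a) (ha : a ≠ 0) :
    HasValueAt P f⁻¹ a⁻¹ := by
  have hfm : f ∈ P.toValuationSubring := HasValueAt.mem P hf
  have ham : algebraMap K F a ∈ P.toValuationSubring := P.algebraMap_mem' a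
  have ha0 : algebraMap K F a ≠ 0 := (map_ne_zero _).mpr ha
  -- `f` is a unit at `P`
  have hfn : f ∉ P.toValuationSubring.nonunits := by
    intro h
    have h1 := ge_nonunits_sub h hf
    have h2 : f - (f - algebraMap K F a) = algebraMap K F a := by ring
    rw [h2, ge_algebraMap_mem_nonunits_iff] at h1
    exact ha h1
  have hf0 : f ≠ 0 := fun h => hfn (h ▸ ge_zero_mem_nonunits _)
  have hfinv : f⁻¹ ∈ P.toValuationSubring := by
    by_contra h
    exact hfn ((ValuationSubring.mem_nonunits_iff_or _).mpr (Or.inr h))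
  have hainv : (algebraMap K F a)⁻¹ ∈ P.toValuationSubring := by
    rw [← map_inv₀]; exact P.algebraMap_mem' _
  obtain ⟨h1, h1'⟩ := (ld_hv_iff P).mp hf
  rw [ld_hv_iff]
  have e : f⁻¹ - algebraMap K F a⁻¹ =
      (-(f⁻¹ * (algebraMap K F a)⁻¹)) * (f - algebraMap K F a) := by
    rw [map_inv₀]
    field_simp
    ring
  have hm : -(f⁻¹ * (algebraMap K F a)⁻¹) ∈ P.toValuationSubring :=
    neg_mem (mul_mem hfinv hainv)
  refine ⟨e ▸ mul_mem hm h1, ?_⟩
  have := Ideal.mul_mem_left _ (⟨_, hm⟩ : P.toValuationSubring) h1'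
  convert this using 1
  exact Subtype.ext e

theorem ld_hv_div {f g : F} {a b : K} (hf : HasValueAt P f a) (hg : HasValueAt P g b)
    (hb : b ≠ 0) : HasValueAt P (f / g) (a / b) := by
  rw [div_eq_mul_inv, div_eq_mul_inv]
  exact ld_hv_mul P hf (ld_hv_inv P hg hb)

/-- a function with positive order has value `0` -/
theorem ld_hv_zero_of_ord_pos {f : F} (h : 0 < P.ord f) : HasValueAt P f 0 := by
  have hf : f ≠ 0 := by
    rintro rfl
    rw [Place.ord_zero] at h
    exact lt_irrefl _ h
  have h2 : f - algebraMap K F 0 ≠ 0 := by rwa [map_zero, sub_zero]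
  rw [hasValueAt_iff_ord_pos P h2, map_zero, sub_zero]
  exact h

/-- a function with a value at `P` is not a pole -/
theorem ld_ord_nonneg_of_hv {f : F} {a : K} (h : HasValueAt P f a) : 0 ≤ P.ord f :=
  ge_ord_nonneg_of_mem P (HasValueAt.mem P h)

/-- value `0` means positive order (for `f ≠ 0`) -/
theorem ld_ord_pos_of_hv_zero {f : F} (hf : f ≠ 0) (h : HasValueAt P f 0) : 0 < P.ord f := by
  have h2 : f - algebraMap K F 0 ≠ 0 := by rwa [map_zero, sub_zero]
  have := (hasValueAt_iff_ord_pos P h2).mp h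
  rwa [map_zero, sub_zero] at this

end Fermat.Agent.S15.LD
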