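import Fermat.Agent.S15.PlanPKG

/-!
# S15 / LN-PKG, piece PKG-ev: the exact inputs (helper72)

`PKG-ev` (`StmtPkgEv` of `PlanPKG.lean`) is proved in `S15/PkgEv.lean` from the two statements
below, both in the two charts `t = j`, `t = 1/j`:

* `StmtPkgPoly2` : the reductions of an element of the chart ring of `t` are polynomials in `t̄`;
* `StmtPkgFibre` (TV2, set form): for `f` in the chart ring of `t`, with reductions `F₁(t̄)`,
  `F₂(t̄)`, and a place `P` with `t(P) = ã ∈ A`: `f(P) ∈ A` and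
  `f(P)‾ ∈ {F₁(a), F₂(b)}`, `a = ã‾`, `b ^ N = a`.
-/

set_option autoImplicit false
set_option linter.unusedSectionVars false

noncomputable section

open AlgebraicCurve Module ModularCurve Polynomial

namespace Fermat.Agent.S15.LN

open Fermat.Agent.W1 Fermat.Agent.S24 Fermat.Agent.S15 Fermat.Agent.ES.M Fermat.Agent.DEU
  Fermat.Agent.INJ

variable (N : ℕ) [NeZero N] (A : ValuationSubring Kb)

/-- the coordinate `t` of a chart (`j` or `1/j`) together with its reduction `t̄` -/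
def PkgCoord (t : FF N) (tb : FFk A) : Prop :=
  (t = jF N ∧ tb = pkgJbar A) ∨ (t = (jF N)⁻¹ ∧ tb = (pkgJbar A)⁻¹)

/-- `f` lies in the chart ring of `t`: in both Gauss rings and regular wherever `t` is -/
def PkgChart (t f : FF N) : Prop :=
  f ∈ pkgO₁ N A ∧ f ∈ pkgO₂ N A ∧ ∀ P : Place Kb (FF N), 0 ≤ P.ord t → 0 ≤ P.ord f

/-- **PKG-poly in both charts**: the reductions of an element of the chart ring of `t` are
polynomials in `t̄`. -/
def StmtPkgPoly2 : Prop :=
  ∀ (N : ℕ) [NeZero N], N.Prime → 5 ≤ N → ∀ A : ValuationSubring Kb, A.LiesOverPrime N →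
    ∀ hB : PkgBase N A, ∀ (t : FF N) (tb : FFk A), PkgCoord N A t tb →
      ∀ (f : FF N) (h₁ : f ∈ pkgO₁ N A) (h₂ : f ∈ pkgO₂ N A),
        (∀ P : Place Kb (FF N), 0 ≤ P.ord t → 0 ≤ P.ord f) →
          (∃ F₁ : (kA A)[X], pkgRed₁ N A hB ⟨f, h₁⟩ = Polynomial.aeval tb F₁) ∧
            ∃ F₂ : (kA A)[X], pkgRed₂ N A hB ⟨f, h₂⟩ = Polynomial.aeval tb F₂

/-- **TV2 (fibre formula, set form)**: the value at a place `P` above `t = ã ∈ A` of an element
`f` of the chart ring of `t` lies in `A`, and reduces to `F₁(a)` or to `F₂(b)`, `b ^ N = a`,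
where `f̄₁ = F₁(t̄)`, `f̄₂ = F₂(t̄)`. -/
def StmtPkgFibre : Prop :=
  ∀ (N : ℕ) [NeZero N], N.Prime → 5 ≤ N → ∀ A : ValuationSubring Kb, A.LiesOverPrime N →
    ∀ hB : PkgBase N A, ∀ (t : FF N) (tb : FFk A), PkgCoord N A t tb →
      ∀ (f : FF N) (h₁ : f ∈ pkgO₁ N A) (h₂ : f ∈ pkgO₂ N A),
        (∀ P : Place Kb (FF N), 0 ≤ P.ord t → 0 ≤ P.ord f) →
          ∀ F₁ F₂ : (kA A)[X], pkgRed₁ N A hB ⟨f, h₁⟩ = Polynomial.aeval tb F₁ →
            pkgRed₂ N A hB ⟨f, h₂⟩ = Polynomial.aeval tb F₂ →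
              ∀ (P : Place Kb (FF N)) (a : A), HasValueAt P t (a : Kb) →
                ∃ c : A, HasValueAt P f (c : Kb) ∧
                  ∀ b : kA A, b ^ N = IsLocalRing.residue A a →
                    IsLocalRing.residue A c = F₁.eval (IsLocalRing.residue A a) ∨
                      IsLocalRing.residue A c = F₂.eval b

end Fermat.Agent.S15.LN
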