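import Fermat.Agent.S15.PlanN
import Fermat.Agent.S15.OggFricke
import Fermat.Agent.DEU.Val
import Fermat.Agent.INJ.BGConstJ

/-!
# S15 block LOCAL-N, the wall LN-PKG: definitions and exact statements (sub-captain helper25)

Plan: `NOTES/S15-PKG.md`.  `N` a prime (the level), `A ⊂ ℚ̄` a valuation ring over `N`,
`k = kA A` its residue field, `F = FF N`, `FFk A = k(j̄) ⊂ k((q))`.

## The package `pkgTR N A hB : TRData …`
* `pkgO₁ = DEU.deuValO N A` (Gauss ring at the cusp `∞`), `pkgO₂ = w_N⁻¹ (pkgO₁)`;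
* `pkgRed₁` = Gauss reduction followed by `F̄_N = F̄_1` (`PkgBase.fieldEq`), `pkgRed₂ = pkgRed₁ ∘ w_N`;
* `h = (oggU N)⁻¹ = Δ(τ)/Δ(Nτ)`; a place `P` is of type 1 if `oggU(P) ∈ A` (`PkgType₁`), of type 2
  if `w_N P` is of type 1;
* `pkgR P = some (inl Q)` iff `P` is of type 1 and `j̄(Q) = res (j(P))` (chart `j` or chart `1/j`),
  `pkgR P = some (inr Q)` iff `pkgR (w_N P) = some (inl Q)`;
* `pkgX` : the pairs `(Q₁, Q₂)` with `h̄₁(Q₁) = 0`, `j̄(Q₁) = a`, `j̄(Q₂) = a ^ N`.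

## The pieces: `StmtPkg*` below; the assembly is `StmtPkgAsm`.
-/

set_option autoImplicit false
set_option linter.unusedSectionVars false

noncomputable section

open AlgebraicCurve Module ModularCurve

namespace Fermat.Agent.S15.LN

open Fermat.Agent.W1 Fermat.Agent.S24 Fermat.Agent.S15 Fermat.Agent.ES.M Fermat.Agent.DEU
  Fermat.Agent.INJ

/-! ## Fast instances

The instance problems `Algebra k ↥F_M(k)`, `Module …`, `SMul …` for `k = IsLocalRing.ResidueField ↥A`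
are SLOW (they time out at the default `synthInstance` limit).  As in `UNIP/MGConcrete.lean`, the
instances found by Lean for a GENERIC field are registered at `k` with high priority.  So no
`letI` and no `set_option synthInstance.maxHeartbeats` is needed in the files importing this one. -/

section Generic

variable (K : Type*) [Field K] (M : ℕ)

/-- the `K`-algebra structure of `F_M(K)` (the one Lean finds) -/
@[reducible] def pkgAlgGen : Algebra K ↥(modularFunctionFieldFullC K M) := inferInstance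

/-- the `K`-module structure of `F_M(K)` (the one Lean finds) -/
@[reducible] def pkgModGen : Module K ↥(modularFunctionFieldFullC K M) := inferInstance

/-- the scalar multiplication of `K` on `F_M(K)` (the one Lean finds) -/
@[reducible] def pkgSMulGen : SMul K ↥(modularFunctionFieldFullC K M) := inferInstance

end Generic

instance (priority := 100000) pkgInstAlgebra (A : ValuationSubring Kb) (M : ℕ) :
    Algebra (IsLocalRing.ResidueField ↥A)
      ↥(modularFunctionFieldFullC (IsLocalRing.ResidueField ↥A) M) :=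
  pkgAlgGen (IsLocalRing.ResidueField ↥A) M

instance (priority := 100000) pkgInstModule (A : ValuationSubring Kb) (M : ℕ) :
    Module (IsLocalRing.ResidueField ↥A)
      ↥(modularFunctionFieldFullC (IsLocalRing.ResidueField ↥A) M) :=
  pkgModGen (IsLocalRing.ResidueField ↥A) M

instance (priority := 100000) pkgInstSMul (A : ValuationSubring Kb) (M : ℕ) :
    SMul (IsLocalRing.ResidueField ↥A)
      ↥(modularFunctionFieldFullC (IsLocalRing.ResidueField ↥A) M) :=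
  pkgSMulGen (IsLocalRing.ResidueField ↥A) M

variable (N : ℕ) [NeZero N] (A : ValuationSubring Kb)

/-! ## Definitions -/

/-- the two facts under which the reductions are defined: (RedF) at the level `N` itself, and
the equality `F̄_N = F̄_1` in the residue characteristic. -/
structure PkgBase : Prop where
  redF : StmtRedF N A
  fieldEq : modularFunctionFieldFullC (kA A) N = modularFunctionFieldFullC (kA A) 1

/-- the Gauss valuation ring at the cusp `∞` -/
abbrev pkgO₁ : ValuationSubring (FF N) := deuValO N A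

/-- the Gauss valuation ring at the cusp `0` -/
def pkgO₂ : ValuationSubring (FF N) :=
  (deuValO N A).comap ((frickeAut N : FF N ≃ₐ[Kb] FF N) : FF N →+* FF N)

theorem mem_pkgO₂ {x : FF N} : x ∈ pkgO₂ N A ↔ frickeAut N x ∈ pkgO₁ N A := Iff.rfl

/-- the reduction on the first component -/
def pkgRed₁ (hB : PkgBase N A) : ↥(pkgO₁ N A) →+* FFk A :=
  ((IntermediateField.equivOfEq hB.fieldEq :
      ↥(modularFunctionFieldFullC (kA A) N) ≃ₐ[kA A] ↥(modularFunctionFieldFullC (kA A) 1)) :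
    ↥(modularFunctionFieldFullC (kA A) N) →+* ↥(modularFunctionFieldFullC (kA A) 1)).comp
    (deuValRed N A hB.redF)

/-- `w_N : O₂ → O₁` -/
def pkgSwap : ↥(pkgO₂ N A) →+* ↥(pkgO₁ N A) :=
  (((frickeAut N : FF N ≃ₐ[Kb] FF N) : FF N →+* FF N).comp (pkgO₂ N A).subtype).codRestrict
    (pkgO₁ N A).toSubring fun x => x.2

theorem coe_pkgSwap (x : ↥(pkgO₂ N A)) : ((pkgSwap N A x : ↥(pkgO₁ N A)) : FF N) =
    frickeAut N (x : FF N) := rfl

/-- the reduction on the second component -/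
def pkgRed₂ (hB : PkgBase N A) : ↥(pkgO₂ N A) →+* FFk A :=
  (pkgRed₁ N A hB).comp (pkgSwap N A)

/-- the coordinate `j̄` of the components -/
def pkgJbar : FFk A := bgJ (kA A) 1

/-- `P` is of type 1: `|h(P)| ≥ 1`, i.e. the modular unit `oggU = 1/h` has a value in `A` at `P`
(the cusp `∞` is of type 1) -/
def PkgType₁ (P : Place Kb (FF N)) : Prop :=
  ∃ a : Kb, a ∈ A ∧ HasValueAt P (oggU N) a

/-- `P` is of type 1 and reduces to the point `Q` of the first component -/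
def PkgRel₁ (P : Place Kb (FF N)) (Q : Place (kA A) (FFk A)) : Prop :=
  PkgType₁ N A P ∧
    ((∃ a : A, HasValueAt P (jF N) (a : Kb) ∧
        HasValueAt Q (pkgJbar A) (IsLocalRing.residue A a)) ∨
      (∃ a : A, HasValueAt P (jF N)⁻¹ (a : Kb) ∧
        HasValueAt Q (pkgJbar A)⁻¹ (IsLocalRing.residue A a)))

open Classical in
/-- the reduction of the places of smooth type -/
def pkgR (P : Place Kb (FF N)) : Option (Place (kA A) (FFk A) ⊕ Place (kA A) (FFk A)) :=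
  if h : ∃ Q, PkgRel₁ N A P Q then some (Sum.inl h.choose)
  else if h : ∃ Q, PkgRel₁ N A (frickeAut N • P) Q then some (Sum.inr h.choose)
  else none

open Classical in
/-- `h̄₁`: the reduction of `h = 1 / oggU` on the first component -/
def pkgHbar (hB : PkgBase N A) : FFk A :=
  if h : (oggU N)⁻¹ ∈ pkgO₁ N A then pkgRed₁ N A hB ⟨_, h⟩ else 0

/-- the crossing points as a set -/
def pkgXset (hB : PkgBase N A) : Set (Place (kA A) (FFk A) × Place (kA A) (FFk A)) :=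
  {x | 0 < x.1.ord (pkgHbar N A hB) ∧
    ∃ a : kA A, HasValueAt x.1 (pkgJbar A) a ∧ HasValueAt x.2 (pkgJbar A) (a ^ N)}

open Classical in
/-- the crossing points -/
def pkgX (hB : PkgBase N A) : Finset (Place (kA A) (FFk A) × Place (kA A) (FFk A)) :=
  if h : (pkgXset N A hB).Finite then h.toFinset else ∅

/-- **the package** -/
def pkgTR (hB : PkgBase N A) : TRData Kb (FF N) (kA A) (FFk A) (FFk A) A where
  res := IsLocalRing.residue A
  O₁ := pkgO₁ N A
  O₂ := pkgO₂ N A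
  red₁ := pkgRed₁ N A hB
  red₂ := pkgRed₂ N A hB
  r := pkgR N A
  X := pkgX N A hB

/-- the ring `A[t] ⊆ F` -/
def pkgPoly (t : FF N) : Subring (FF N) :=
  Subring.closure ((algebraMap Kb (FF N)) '' (A : Set Kb) ∪ {t})

/-- `b` lies in the chart of the coordinate `t` (`t = j` or `t = 1/j`): `b` is integral over
`A[t]` (stated with an explicit monic polynomial, to have no instance problem) -/
def PkgInt (t b : FF N) : Prop :=
  ∃ p : Polynomial (FF N), p.Monic ∧ (∀ i, p.coeff i ∈ pkgPoly N A t) ∧ p.eval b = 0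

/-- the chart ring `B` of the coordinate `j`: the elements of both Gauss rings with poles only at
the cusps -/
def PkgB (f : FF N) : Prop :=
  f ∈ pkgO₁ N A ∧ f ∈ pkgO₂ N A ∧ ∀ P : Place Kb (FF N), 0 ≤ P.ord (jF N) → 0 ≤ P.ord f

/-! ## The pieces -/

/-- **PKG-val (a)**: the reductions are defined. -/
def StmtPkgBase : Prop :=
  ∀ (N : ℕ) [NeZero N], N.Prime → ∀ A : ValuationSubring Kb, A.LiesOverPrime N → PkgBase N A

/-- the basic fields of `IsTR` -/
structure PkgIsVal (hB : PkgBase N A) : Prop where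
  algebraMap_mem_iff₁ : ∀ a : Kb, algebraMap Kb (FF N) a ∈ pkgO₁ N A ↔ a ∈ A
  algebraMap_mem_iff₂ : ∀ a : Kb, algebraMap Kb (FF N) a ∈ pkgO₂ N A ↔ a ∈ A
  red₁_surjective : Function.Surjective (pkgRed₁ N A hB)
  red₂_surjective : Function.Surjective (pkgRed₂ N A hB)
  red₁_eq_zero_iff : ∀ x : pkgO₁ N A, pkgRed₁ N A hB x = 0 ↔ (x : FF N) ∈ (pkgO₁ N A).nonunits
  red₂_eq_zero_iff : ∀ x : pkgO₂ N A, pkgRed₂ N A hB x = 0 ↔ (x : FF N) ∈ (pkgO₂ N A).nonunits
  red₁_algebraMap : ∀ (a : A) (h : algebraMap Kb (FF N) (a : Kb) ∈ pkgO₁ N A),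
    pkgRed₁ N A hB ⟨algebraMap Kb (FF N) (a : Kb), h⟩ =
      algebraMap (kA A) (FFk A) (IsLocalRing.residue A a)
  red₂_algebraMap : ∀ (a : A) (h : algebraMap Kb (FF N) (a : Kb) ∈ pkgO₂ N A),
    pkgRed₂ N A hB ⟨algebraMap Kb (FF N) (a : Kb), h⟩ =
      algebraMap (kA A) (FFk A) (IsLocalRing.residue A a)
  prim₁ : ∀ f : FF N, f ≠ 0 → ∃ a : Kb, a ≠ 0 ∧ ∃ h : algebraMap Kb (FF N) a * f ∈ pkgO₁ N A,
    pkgRed₁ N A hB ⟨algebraMap Kb (FF N) a * f, h⟩ ≠ 0
  prim₂ : ∀ f : FF N, f ≠ 0 → ∃ a : Kb, a ≠ 0 ∧ ∃ h : algebraMap Kb (FF N) a * f ∈ pkgO₂ N A,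
    pkgRed₂ N A hB ⟨algebraMap Kb (FF N) a * f, h⟩ ≠ 0
  /-- `j`, `j_N` are units of both Gauss rings, with reductions `j̄`, `j̄ ^ N` on the first
  component -/
  red₁_j : ∃ h : jF N ∈ pkgO₁ N A, pkgRed₁ N A hB ⟨_, h⟩ = pkgJbar A
  red₁_jN : ∃ h : jdF N N dvd_rfl ∈ pkgO₁ N A, pkgRed₁ N A hB ⟨_, h⟩ = pkgJbar A ^ N
  /-- `h = 1 / oggU` is a unit at the first Gauss valuation and `N ^ 12 ·` unit at the second -/
  h_mem₁ : (oggU N)⁻¹ ∈ pkgO₁ N A
  h_unit₁ : (oggU N)⁻¹ ∉ (pkgO₁ N A).nonunits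
  h_mem₂ : (oggU N)⁻¹ ∈ (pkgO₂ N A).nonunits
  /-- the value group has rank one -/
  arch : ∀ c : Kb, c ≠ 0 → ∃ n : ℕ, (N : Kb) ^ n * c ∈ A

/-- **PKG-val (b)**: the basic fields. -/
def StmtPkgVal : Prop :=
  ∀ (N : ℕ) [NeZero N], N.Prime → ∀ A : ValuationSubring Kb, A.LiesOverPrime N →
    ∀ hB : PkgBase N A, PkgIsVal N A hB

/-- **PKG-tv** (two valuations): an element of both Gauss rings which is regular wherever the
coordinate `t` is regular, is integral over `A[t]` (`t = j` or `t = 1/j`); and the two Gauss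
rings are the only valuation rings of `F` above the Gauss valuation ring of `K(j)`, in the form:
the norm `F → K(j)` of an element of `O₁ ∩ O₂` reduces to `ū₁ · ū₂^{(N)}`. -/
def StmtPkgTV : Prop :=
  ∀ (N : ℕ) [NeZero N], N.Prime → 5 ≤ N → ∀ A : ValuationSubring Kb, A.LiesOverPrime N →
    ∀ t : FF N, t = jF N ∨ t = (jF N)⁻¹ → ∀ u : FF N, u ∈ pkgO₁ N A → u ∈ pkgO₂ N A →
      (∀ P : Place Kb (FF N), 0 ≤ P.ord t → 0 ≤ P.ord u) → PkgInt N A t u

/-- **PKG-poly** (input of the Goursat route of helper89): the reductions of an element of `B`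
are POLYNOMIALS in `j̄` on both components. -/
def StmtPkgPoly : Prop :=
  ∀ (N : ℕ) [NeZero N], N.Prime → 5 ≤ N → ∀ A : ValuationSubring Kb, A.LiesOverPrime N →
    ∀ hB : PkgBase N A, ∀ (f : FF N) (h₁ : f ∈ pkgO₁ N A) (h₂ : f ∈ pkgO₂ N A),
      (∀ P : Place Kb (FF N), 0 ≤ P.ord (jF N) → 0 ≤ P.ord f) →
        pkgRed₁ N A hB ⟨f, h₁⟩ ∈ Algebra.adjoin (kA A) {pkgJbar A} ∧
          pkgRed₂ N A hB ⟨f, h₂⟩ ∈ Algebra.adjoin (kA A) {pkgJbar A}

/-- **PKG-ev** (evaluation = the dictionary place ↔ closed point of the chart): if `P` reduces to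
the point `Q` of the first component, `b` is integral over `A[t]` and `t` is regular at `P`,
then `b(P) ∈ A` and `b(P)‾ = b̄₁(Q)`. -/
def StmtPkgEv : Prop :=
  ∀ (N : ℕ) [NeZero N], N.Prime → 5 ≤ N → ∀ A : ValuationSubring Kb, A.LiesOverPrime N →
    ∀ hB : PkgBase N A, ∀ t : FF N, t = jF N ∨ t = (jF N)⁻¹ →
      ∀ (P : Place Kb (FF N)) (Q : Place (kA A) (FFk A)), pkgR N A P = some (Sum.inl Q) →
        (∃ a : A, HasValueAt P t (a : Kb)) → ∀ (b : FF N), PkgInt N A t b →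
          ∀ hb₁ : b ∈ pkgO₁ N A,
          ∃ c : A, HasValueAt P b (c : Kb) ∧
            HasValueAt Q (pkgRed₁ N A hB ⟨b, hb₁⟩) (IsLocalRing.residue A c)

/-- **PKG-type**: bookkeeping of the types (no local algebra). -/
structure PkgIsType : Prop where
  /-- the reduction of a place of type 1 exists and is unique -/
  exists_rel : ∀ P : Place Kb (FF N), PkgType₁ N A P → ∃ Q, PkgRel₁ N A P Q
  rel_unique : ∀ (P : Place Kb (FF N)) (Q Q' : Place (kA A) (FFk A)),
    PkgRel₁ N A P Q → PkgRel₁ N A P Q' → Q = Q'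
  /-- the types exclude each other -/
  not_both : ∀ P : Place Kb (FF N), PkgType₁ N A P → ¬ PkgType₁ N A (frickeAut N • P)
  r_inl_iff : ∀ (P : Place Kb (FF N)) (Q : Place (kA A) (FFk A)),
    pkgR N A P = some (Sum.inl Q) ↔ PkgRel₁ N A P Q
  r_inr_iff : ∀ (P : Place Kb (FF N)) (Q : Place (kA A) (FFk A)),
    pkgR N A P = some (Sum.inr Q) ↔ PkgRel₁ N A (frickeAut N • P) Q
  cuspInf : ∃ Q, pkgR N A (S15.cuspInf N) = some (Sum.inl Q) ∧ Q.ord (pkgJbar A) < 0
  cuspZero : ∃ Q, pkgR N A (S15.cuspZero N) = some (Sum.inr Q) ∧ Q.ord (pkgJbar A) < 0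
  /-- a place of `k(j̄)` is determined by the value of `j̄` -/
  place_ext : ∀ (Q Q' : Place (kA A) (FFk A)) (a : kA A),
    HasValueAt Q (pkgJbar A) a → HasValueAt Q' (pkgJbar A) a → Q = Q'
  place_exists : ∀ a : kA A, ∃ Q : Place (kA A) (FFk A), HasValueAt Q (pkgJbar A) a
  place_ext_inf : ∀ Q Q' : Place (kA A) (FFk A),
    Q.ord (pkgJbar A) < 0 → Q'.ord (pkgJbar A) < 0 → Q = Q'

/-- **PKG-type** -/
def StmtPkgType : Prop :=
  ∀ (N : ℕ) [NeZero N], N.Prime → 5 ≤ N → ∀ A : ValuationSubring Kb, A.LiesOverPrime N →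
    PkgIsType N A

/-- **PKG-cross**: the crossing points: finiteness, injectivity, and a place of smooth type does
not reduce to a crossing point. -/
structure PkgIsCross (hB : PkgBase N A) : Prop where
  finite : (pkgXset N A hB).Finite
  cross₁ : ∀ P Q, pkgR N A P = some (Sum.inl Q) → ∀ x ∈ pkgX N A hB, x.1 ≠ Q
  cross₂ : ∀ P Q, pkgR N A P = some (Sum.inr Q) → ∀ x ∈ pkgX N A hB, x.2 ≠ Q
  cross_inj₁ : ∀ x ∈ pkgX N A hB, ∀ y ∈ pkgX N A hB, x.1 = y.1 → x = y
  cross_inj₂ : ∀ x ∈ pkgX N A hB, ∀ y ∈ pkgX N A hB, x.2 = y.2 → x = y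
  /-- the crossing points are symmetric under `w_N` -/
  symm : ∀ x ∈ pkgX N A hB, (x.2, x.1) ∈ pkgX N A hB

/-- **PKG-cross** -/
def StmtPkgCross : Prop :=
  ∀ (N : ℕ) [NeZero N], N.Prime → 5 ≤ N → ∀ A : ValuationSubring Kb, A.LiesOverPrime N →
    ∀ hB : PkgBase N A, PkgIsCross N A hB

/-- **PKG-rdiv**: `r_*(div u) = div(ū)` at the smooth points of the first component (the second
component follows by `w_N`). -/
def StmtPkgRdiv : Prop :=
  ∀ (N : ℕ) [NeZero N], N.Prime → 5 ≤ N → ∀ A : ValuationSubring Kb, A.LiesOverPrime N →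
    ∀ hB : PkgBase N A, ∀ u : pkgO₁ N A, pkgRed₁ N A hB u ≠ 0 →
      ∀ D : Divisor Kb (FF N), (∀ P, D P = P.ord (u : FF N)) →
        ∀ Q : Place (kA A) (FFk A), (∀ x ∈ pkgX N A hB, x.1 ≠ Q) →
          (pkgTR N A hB).push₁ D Q = Q.ord (pkgRed₁ N A hB u)

/-- **PKG-glue**: normality of the model at the crossing points (UNIP Lemma U). -/
def StmtPkgGlue : Prop :=
  ∀ (N : ℕ) [NeZero N], N.Prime → 5 ≤ N → ∀ A : ValuationSubring Kb, A.LiesOverPrime N →
    ∀ hB : PkgBase N A, ∀ (u : FF N) (h₁ : u ∈ pkgO₁ N A) (h₂ : u ∈ pkgO₂ N A),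
      (∀ P : Place Kb (FF N), P.ord u < 0 → (pkgR N A P).isSome) →
        (pkgTR N A hB).Glued (pkgRed₁ N A hB ⟨u, h₁⟩) (pkgRed₂ N A hB ⟨u, h₂⟩)

/-- **PKG-orth**: orthonormal bases for the norm `max (|·|₁, |·|₂)`. -/
def StmtPkgOrth : Prop :=
  ∀ (N : ℕ) [NeZero N], N.Prime → 5 ≤ N → ∀ A : ValuationSubring Kb, A.LiesOverPrime N →
    ∀ hB : PkgBase N A, (pkgTR N A hB).Orth

/-- **PKG-card**: the number of crossing points is `g + 1`, `g = gN N` the genus. -/
def StmtPkgCard : Prop :=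
  ∀ (N : ℕ) [NeZero N], N.Prime → 5 ≤ N → ∀ A : ValuationSubring Kb, A.LiesOverPrime N →
    ∀ hB : PkgBase N A, (pkgX N A hB).card = gN N + 1

/-- **PKG-nice**: the generic fibre has genus `gN N`, the components have genus `0`. -/
def StmtPkgNice : Prop :=
  ∀ (N : ℕ) [NeZero N], N.Prime → 5 ≤ N → ∀ A : ValuationSubring Kb, A.LiesOverPrime N →
    IsNiceCurve Kb (FF N) (gN N) ∧ IsNiceCurve (kA A) (FFk A) 0

/-- **PKG-gal** -/
structure PkgIsGal (hB : PkgBase N A) : Prop where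
  decomp0 : ∀ σ ∈ A.decompositionSubgroup ℚ, ∀ x ∈ (pkgTR N A hB).J0, σ • x ∈ (pkgTR N A hB).J0
  decomp1 : ∀ σ ∈ A.decompositionSubgroup ℚ, ∀ x ∈ (pkgTR N A hB).J1, σ • x ∈ (pkgTR N A hB).J1
  inertia : ∀ σ ∈ A.inertiaSubgroupIn ℚ, ∀ P : Place Kb (FF N),
    pkgR N A (galAct N σ • P) = pkgR N A P

/-- **PKG-gal** -/
def StmtPkgGal : Prop :=
  ∀ (N : ℕ) [NeZero N], N.Prime → 5 ≤ N → ∀ A : ValuationSubring Kb, A.LiesOverPrime N →
    ∀ hB : PkgBase N A, PkgIsGal N A hB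

/-- **PKG-hecke** -/
def StmtPkgHecke : Prop :=
  ∀ (N : ℕ) [NeZero N], N.Prime → 5 ≤ N → ∀ A : ValuationSubring Kb, A.LiesOverPrime N →
    ∀ hB : PkgBase N A, ∀ q : Nat.Primes, (q : ℕ) ≠ N →
      ∀ x ∈ (pkgTR N A hB).J0, heckeOperatorBar N q x ∈ (pkgTR N A hB).J0

/-- **PKG-crit** (the easy direction of the criterion) -/
def StmtPkgCrit : Prop :=
  ∀ (N : ℕ) [NeZero N], N.Prime → 5 ≤ N → ∀ A : ValuationSubring Kb, A.LiesOverPrime N →
    ∀ hB : PkgBase N A,
      (∀ (h : FF N) (h₁ : h ∈ pkgO₁ N A), pkgRed₁ N A hB ⟨h, h₁⟩ ≠ 0 →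
        h ∈ (pkgO₂ N A).nonunits →
        (∀ P : Place Kb (FF N), P.ord h ≠ 0 → P = S15.cuspInf N ∨ P = S15.cuspZero N) →
        ∀ (P : Place Kb (FF N)) (a : Kb), a ∈ A → a ∉ A.nonunits → HasValueAt P h a →
          ∃ Q, pkgR N A P = some (Sum.inl Q)) ∧
      (∀ (h : FF N) (h₂ : h ∈ pkgO₂ N A), pkgRed₂ N A hB ⟨h, h₂⟩ ≠ 0 →
        h ∈ (pkgO₁ N A).nonunits →
        (∀ P : Place Kb (FF N), P.ord h ≠ 0 → P = S15.cuspInf N ∨ P = S15.cuspZero N) →
        ∀ (P : Place Kb (FF N)) (a : Kb), a ∈ A → a ∉ A.nonunits → HasValueAt P h a →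
          ∃ Q, pkgR N A P = some (Sum.inr Q))

/-- **PKG-asm**: the pieces give the modular package `StmtModTR` of `PlanN.lean`. -/
def StmtPkgAsm : Prop :=
  StmtPkgBase → StmtPkgVal → StmtPkgType → StmtPkgCross → StmtPkgRdiv → StmtPkgGlue →
    StmtPkgOrth → StmtPkgCard → StmtPkgNice → StmtPkgGal → StmtPkgHecke → StmtPkgCrit →
      StmtModTR

end Fermat.Agent.S15.LN
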