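import Fermat.Agent.S15.PkgTVInt
import Fermat.Agent.S15.PlanPKG

/-!
# S15 / LN-PKG, piece PKG-tv: `stmtPkgTV : StmtPkgTV` (helper10)

An element `u` of both Gauss rings of `F_N` (`N` prime) which is regular wherever `t` is
(`t = j` or `t = 1/j`) is integral over `A[t]`: its minimal polynomial over `ℚ̄[t]` has
coefficients in `A[t]`.

The core `pkgtv_pkgInt` holds for EVERY valuation ring `A` of `ℚ̄` of rank one (`Arch A`), not
only for those over `N`; `pkgtv_pkgInt_prime` is the version over a prime `ℓ`.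
-/

set_option autoImplicit false
set_option linter.unusedSectionVars false
set_option linter.unusedVariables false
set_option linter.style.haveILetI false

noncomputable section

namespace Fermat.Agent.S15.LN

open ModularCurve AlgebraicCurve Polynomial IntermediateField
open Fermat.Agent.ES Fermat.Agent.ES.M Fermat.Agent.ES.G2 Fermat.Agent.S24 Fermat.Agent.ES.LR
  Fermat.Agent.DEU

variable (N : ℕ) [NeZero N]

theorem pkgtv_adjoin_inv (x : FF N) : Kb⟮x⁻¹⟯ = Kb⟮x⟯ := by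
  apply le_antisymm
  · rw [IntermediateField.adjoin_simple_le_iff]
    exact inv_mem (mem_adjoin_simple_self Kb x)
  · rw [IntermediateField.adjoin_simple_le_iff]
    have h := inv_mem (mem_adjoin_simple_self Kb x⁻¹)
    rwa [inv_inv] at h

theorem pkgtv_finrank_of_eq {E₁ E₂ : IntermediateField Kb (FF N)} (h : E₁ = E₂) :
    Module.finrank E₁ (FF N) = Module.finrank E₂ (FF N) := by
  subst h
  rfl

theorem pkgtv_finrank_j (hN : N.Prime) : Module.finrank Kb⟮jF N⟯ (FF N) = N + 1 := by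
  rw [Fermat.Agent.INJ.hmMem_finrank_jF, Fermat.Agent.S20.dedekindPsi_prime hN]

theorem pkgtv_finrank_jinv (hN : N.Prime) : Module.finrank Kb⟮(jF N)⁻¹⟯ (FF N) = N + 1 := by
  rw [pkgtv_finrank_of_eq N (pkgtv_adjoin_inv N (jF N)), pkgtv_finrank_j N hN]

theorem pkgtv_transcendental_jinv : Transcendental Kb (jF N)⁻¹ := by
  intro h
  apply transcendental_jF N
  have h2 := h.inv
  rwa [inv_inv] at h2

theorem pkgtv_coe_inv (x : FF N) : ((x⁻¹ : FF N) : LaurentSeries Kb) = (x : LaurentSeries Kb)⁻¹ :=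
  rfl

/-- the coordinate `t`: all that is used -/
structure PkgtvCoord (A : ValuationSubring Kb) (t : FF N) : Prop where
  transc : Transcendental Kb t
  finrank : Module.finrank Kb⟮t⟯ (FF N) = N + 1
  fam : ∀ ζ : Kbˣ, ζ ^ N = 1 → ∀ i, pkgtvFam N ζ i t = pkgtvInf N t
  int₁ : KronInt A (t : LaurentSeries Kb)
  int₂ : KronInt A ((frickeAut N t : FF N) : LaurentSeries Kb)
  coeff : ∀ d : Kb[X], KronInt A (Polynomial.aeval (t : LaurentSeries Kb) d) → ∀ k, d.coeff k ∈ A

theorem pkgtvCoord_j (hN : N.Prime) (A : ValuationSubring Kb) : PkgtvCoord N A (jF N) where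
  transc := transcendental_jF N
  finrank := pkgtv_finrank_j N hN
  fam := fun ζ hζ i => pkgtvFam_jF N ζ hζ i
  int₁ := kronInt_jBar A
  int₂ := by
    rw [frickeAut_jF, pkgtv_coe_jN]
    exact (kronInt_jBar A).qExpand N
  coeff := fun d hd => pkgtv_coeff_mem A d hd

theorem pkgtvCoord_jinv (hN : N.Prime) (A : ValuationSubring Kb) :
    PkgtvCoord N A (jF N)⁻¹ where
  transc := pkgtv_transcendental_jinv N
  finrank := pkgtv_finrank_jinv N hN
  fam := fun ζ hζ i => by
    rw [map_inv₀, map_inv₀, pkgtvFam_jF N ζ hζ i]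
  int₁ := pkgtv_kronInt_jinv A
  int₂ := by
    rw [map_inv₀, frickeAut_jF, pkgtv_coe_inv, pkgtv_coe_jN, ← map_inv₀]
    exact (pkgtv_kronInt_jinv A).qExpand N
  coeff := fun d hd => pkgtv_coeff_mem_inv A d hd

/-- **PKG-tv, core**, for a coordinate `t` and a valuation ring of rank one: the minimal
polynomial of `u` over `ℚ̄[t]` has all its coefficients in `A[X]`. -/
theorem pkgtv_minpoly_coeff (hN : N.Prime) (A : ValuationSubring Kb) (hA : Arch A) (t : FF N)
    (ht : PkgtvCoord N A t) (u : FF N) (hu₁ : GaussInt N A u)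
    (hu₂ : GaussInt N A (frickeAut N u))
    (hreg : ∀ P : Place Kb (FF N), 0 ≤ P.ord t → 0 ≤ P.ord u) :
    letI := polyAlgebra (K := Kb) t
    IsIntegral Kb[X] u ∧ ∀ n k, ((minpoly Kb[X] u).coeff n).coeff k ∈ A := by
  letI := polyAlgebra (K := Kb) t
  haveI hfin : FiniteDimensional Kb⟮t⟯ (FF N) :=
    FiniteDimensional.of_finrank_pos (by rw [ht.finrank]; omega)
  have hint : IsIntegral Kb[X] u := pkgtv_isIntegral N t ht.transc u hreg
  refine ⟨hint, ?_⟩
  obtain ⟨p, hp, hpz⟩ := hint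
  have hK₁ : KronInt A (u : LaurentSeries Kb) :=
    pkgtv_kronInt_gen N A hA _ ht.int₁ u p hp (pkgtv_eval₂_coe N t u p hpz) hu₁
  have hK₂ : KronInt A ((frickeAut N u : FF N) : LaurentSeries Kb) :=
    pkgtv_kronInt_gen N A hA _ ht.int₂ (frickeAut N u) p hp
      (pkgtv_eval₂_coe N (frickeAut N t) (frickeAut N u) p
        (pkgtv_eval₂_aut N (frickeAut N) t u p hpz)) hu₂
  intro n k
  exact ht.coeff _ (pkgtv_minpoly_kronInt N hN A t ht.transc ht.fam ht.finrank u ⟨p, hp, hpz⟩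
    hK₁ hK₂ n) k

/-- a polynomial with coefficients in `A`, evaluated at `t`, lies in `A[t]` -/
theorem pkgtv_aeval_mem_pkgPoly (A : ValuationSubring Kb) (t : FF N) (d : Kb[X])
    (hd : ∀ k, d.coeff k ∈ A) : Polynomial.aeval t d ∈ pkgPoly N A t := by
  rw [Polynomial.aeval_eq_sum_range]
  refine Subring.sum_mem _ fun k _ => ?_
  rw [Algebra.smul_def]
  have h1 : algebraMap Kb (FF N) (d.coeff k) ∈ pkgPoly N A t :=
    Subring.subset_closure (Set.mem_union_left _ ⟨d.coeff k, hd k, rfl⟩)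
  have h2 : t ∈ pkgPoly N A t :=
    Subring.subset_closure (Set.mem_union_right _ (Set.mem_singleton t))
  exact Subring.mul_mem _ h1 (Subring.pow_mem _ h2 _)

/-- **PKG-tv** for a coordinate `t` and a valuation ring of rank one -/
theorem pkgtv_pkgInt_coord (hN : N.Prime) (A : ValuationSubring Kb) (hA : Arch A) (t : FF N)
    (ht : PkgtvCoord N A t) (u : FF N) (hu₁ : GaussInt N A u)
    (hu₂ : GaussInt N A (frickeAut N u))
    (hreg : ∀ P : Place Kb (FF N), 0 ≤ P.ord t → 0 ≤ P.ord u) : PkgInt N A t u := by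
  letI := polyAlgebra (K := Kb) t
  obtain ⟨hint, hcoef⟩ := pkgtv_minpoly_coeff N hN A hA t ht u hu₁ hu₂ hreg
  refine ⟨(minpoly Kb[X] u).map (algebraMap Kb[X] (FF N)), (minpoly.monic hint).map _, ?_, ?_⟩
  · intro i
    rw [Polynomial.coeff_map]
    exact pkgtv_aeval_mem_pkgPoly N A t _ (hcoef i)
  · rw [Polynomial.eval_map, ← Polynomial.aeval_def]
    exact minpoly.aeval _ _

/-- **PKG-tv** for `t = j`, `t = 1/j` and a valuation ring of rank one -/
theorem pkgtv_pkgInt (hN : N.Prime) (A : ValuationSubring Kb) (hA : Arch A) (t : FF N)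
    (ht : t = jF N ∨ t = (jF N)⁻¹) (u : FF N) (hu₁ : GaussInt N A u)
    (hu₂ : GaussInt N A (frickeAut N u))
    (hreg : ∀ P : Place Kb (FF N), 0 ≤ P.ord t → 0 ≤ P.ord u) : PkgInt N A t u := by
  rcases ht with rfl | rfl
  · exact pkgtv_pkgInt_coord N hN A hA _ (pkgtvCoord_j N hN A) u hu₁ hu₂ hreg
  · exact pkgtv_pkgInt_coord N hN A hA _ (pkgtvCoord_jinv N hN A) u hu₁ hu₂ hreg

/-- **PKG-tv** over any prime `ℓ` (the level `N` is a prime, `ℓ = N` allowed) -/
theorem pkgtv_pkgInt_prime (hN : N.Prime) (ℓ : ℕ) (hℓ : ℓ.Prime) (A : ValuationSubring Kb)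
    (hA : A.LiesOverPrime ℓ) (t : FF N)
    (ht : t = jF N ∨ t = (jF N)⁻¹) (u : FF N) (hu₁ : GaussInt N A u)
    (hu₂ : GaussInt N A (frickeAut N u))
    (hreg : ∀ P : Place Kb (FF N), 0 ≤ P.ord t → 0 ≤ P.ord u) : PkgInt N A t u :=
  pkgtv_pkgInt N hN A (arch_Qbar A hℓ hA) t ht u hu₁ hu₂ hreg

/-- **PKG-tv** -/
theorem stmtPkgTV : StmtPkgTV := fun N _ hN _ A hA t ht u hu₁ hu₂ hreg =>
  pkgtv_pkgInt_prime N hN N hN A hA t ht u hu₁ hu₂ hreg

end Fermat.Agent.S15.LN
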