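import Fermat.Agent.S15.PkgEvCusp

/-!
# S15 / LN-PKG, piece PKG-ev: `stmtPkgEv_of : StmtPkgFibre → StmtPkgEv` (helper72)

Evaluation = the dictionary place ↔ closed point of the chart: if the place `P` (of type 1)
reduces to the point `Q` of the first component, `b` is integral over `A[t]` (`t = j` or
`t = 1/j`) and `t(P) ∈ A`, then `b(P) ∈ A` and `b(P)‾ = b̄₁(Q)`.

Input: the fibre formula `StmtPkgFibre` (TV2, set form; `S15/PkgEvPlan.lean`).  No
multiplicities are used: `f ↦ f(P)‾`, `f ↦ F₁(a)`, `f ↦ F₂(b)` are additive, the first one takes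
its values in the set of the two others, and a separating element exists
(`S15/PkgEvSep.lean`, `S15/PkgEvCusp.lean`).

Also exported: `pkgev_main` (the same for an element of the chart ring `PkgChart`, with the
polynomial `F₁`: `b(P)‾ = F₁(t(P)‾)`).
-/

set_option autoImplicit false
set_option linter.unusedSectionVars false
set_option linter.unusedVariables false
set_option linter.style.haveILetI false

noncomputable section

namespace Fermat.Agent.S15.LN

open ModularCurve AlgebraicCurve Polynomial IntermediateField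
open Fermat.Agent.ES Fermat.Agent.ES.M Fermat.Agent.S24 Fermat.Agent.ES.LR Fermat.Agent.DEU
  Fermat.Agent.INJ Fermat.Agent.W1 Fermat.Agent.S15 Fermat.Agent.S28

variable (N : ℕ) [NeZero N] (A : ValuationSubring Kb)

/-- **PKG-ev, polynomial form**: for a place `P` of type 1 with `t(P) = a ∈ A` and `f` in the
chart ring of `t` with `f̄₁ = F₁(t̄)`: `f(P) ∈ A` and `f(P)‾ = F₁(ā)`. -/
theorem pkgev_main (hFib : StmtPkgFibre) (hN : N.Prime) (h5 : 5 ≤ N) (hA : A.LiesOverPrime N)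
    (hB : PkgBase N A) {t : FF N} {tb : FFk A} (hc : PkgCoord N A t tb)
    (P : Place Kb (FF N)) (hP : PkgType₁ N A P) (a : A) (hPa : HasValueAt P t (a : Kb))
    (f : FF N) (hf : PkgChart N A t f) (F₁ : (kA A)[X])
    (hF₁ : pkgRed₁ N A hB ⟨f, hf.1⟩ = Polynomial.aeval tb F₁) :
    ∃ c : A, HasValueAt P f (c : Kb) ∧
      IsLocalRing.residue A c = F₁.eval (IsLocalRing.residue A a) := by
  obtain ⟨-, ⟨F₂, hF₂⟩⟩ := stmtPkgPoly2 N hN h5 A hA hB t tb hc f hf.1 hf.2.1 hf.2.2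
  haveI : IsAlgClosed (kA A) := Fermat.Agent.RED.isAlgClosed_residueField A
  obtain ⟨β, hβ⟩ := IsAlgClosed.exists_pow_nat_eq (IsLocalRing.residue A a) hN.pos
  have hsep : ∃ (s : FF N) (hs : PkgChart N A t s) (S₁ S₂ : (kA A)[X]),
      pkgRed₁ N A hB ⟨s, hs.1⟩ = Polynomial.aeval tb S₁ ∧
      pkgRed₂ N A hB ⟨s, hs.2.1⟩ = Polynomial.aeval tb S₂ ∧
      ∀ c : A, HasValueAt P s (c : Kb) → IsLocalRing.residue A c ≠ S₂.eval β := by
    rcases hc with ⟨rfl, rfl⟩ | ⟨rfl, rfl⟩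
    · exact pkgev_sep_j N A hB hN h5 hA P hP β
    · by_cases h0 : IsLocalRing.residue A a = 0
      · exact pkgev_sep_cusp N A hB hN h5 hA P hP a hPa h0 β hβ
      · exact pkgev_sep_unit N A hB hN h5 hA P hP a hPa h0 β
  obtain ⟨s, hs, S₁, S₂, hS₁, hS₂, hsv⟩ := hsep
  exact pkgev_of_sep N A hFib hN h5 hA hB hc P a hPa β hβ s hs S₁ S₂ hS₁ hS₂ hsv f hf F₁ F₂
    hF₁ hF₂

/-- **PKG-ev** from the fibre formula -/
theorem stmtPkgEv_of (hFib : StmtPkgFibre) : StmtPkgEv := by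
  intro N _ hN h5 A hA hB t ht P Q hr ha b hint hb₁
  obtain ⟨a, hPa⟩ := ha
  have hrel := pkgev_rel_of_r N A hr
  obtain ⟨tb, hc⟩ : ∃ tb : FFk A, PkgCoord N A t tb := by
    rcases ht with rfl | rfl
    · exact ⟨pkgJbar A, Or.inl ⟨rfl, rfl⟩⟩
    · exact ⟨(pkgJbar A)⁻¹, Or.inr ⟨rfl, rfl⟩⟩
  have hchart := pkgev_chart_of_int N A hB hN hA hc b hint
  obtain ⟨⟨F₁, hF₁⟩, -⟩ := stmtPkgPoly2 N hN h5 A hA hB t tb hc b hchart.1 hchart.2.1
    hchart.2.2
  obtain ⟨c, hcP, hcv⟩ := pkgev_main N A hFib hN h5 hA hB hc P hrel.1 a hPa b hchart F₁ hF₁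
  refine ⟨c, hcP, ?_⟩
  have hQ := pkgev_coord_value N A hc hrel a hPa
  have h1 := pkgev_hv_aeval hQ F₁
  have e : pkgRed₁ N A hB ⟨b, hb₁⟩ = Polynomial.aeval tb F₁ := hF₁
  rw [e, hcv]
  exact h1

end Fermat.Agent.S15.LN
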