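import Fermat.Agent.S15.PkgSimple
import Fermat.Agent.S15.PkgEv

/-!
# S15 / LN-PKG, piece PKG-uniq: the assembly (helper25)

`stmtPkgUniq_of : StmtPkgMinH → StmtPkgFibre → StmtPkgUniq`: above a value `b ∈ A` of the
coordinate `t` (`t = j` or `t = 1/j`) there is at most one place of type 1, and `t - b` is a
uniformizer there.

Proof: the separating function `f` of the chart is a root of a monic `m ∈ A[X][T]` with
`m ≡ (T - F₁(X)) T ^ N`; at a place `P` of type 1 above `b` the value `c = f(P)` lies in `A` with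
`c̄ = F₁(b̄) ≠ 0`, so `c` is the unique root of `m(b, T)` with this residue, and it is a simple
root; `stmtPkgSimple` applies.
-/

set_option autoImplicit false
set_option linter.unusedSectionVars false
set_option linter.unusedVariables false

noncomputable section

open AlgebraicCurve Module ModularCurve Polynomial

namespace Fermat.Agent.S15.LN

open Fermat.Agent.W1 Fermat.Agent.S24 Fermat.Agent.S15 Fermat.Agent.ES.M Fermat.Agent.DEU
  Fermat.Agent.INJ Fermat.Agent.S28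

/-! ## A monic polynomial with reduction `(T - u) T ^ n`, `u ≠ 0` -/

section Root

variable {R k : Type*} [CommRing R] [IsDomain R] [Field k]

theorem pkguq_root (φ : R →+* k) (g : R[X]) (u : k) (n : ℕ) (hu : u ≠ 0)
    (hg : g.map φ = (X - C u) * X ^ n) (c c' : R) (hc : g.eval c = 0) (hc' : g.eval c' = 0)
    (hcu : φ c = u) : (φ c' = u → c' = c) ∧ (derivative g).eval c ≠ 0 := by
  obtain ⟨g₁, hg₁⟩ : (X - C c) ∣ g := (Polynomial.dvd_iff_isRoot).mpr hc
  have h1 : (X - C u) * (g₁.map φ) = (X - C u) * X ^ n := by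
    rw [← hg, hg₁, Polynomial.map_mul, Polynomial.map_sub, Polynomial.map_X, Polynomial.map_C,
      hcu]
  have h2 : g₁.map φ = X ^ n := mul_left_cancel₀ (X_sub_C_ne_zero u) h1
  have h3 : ∀ x : R, φ x = u → g₁.eval x ≠ 0 := by
    intro x hx h0
    have h4 : (g₁.map φ).eval (φ x) = 0 := by
      rw [Polynomial.eval_map, Polynomial.eval₂_hom, h0, map_zero]
    rw [h2, eval_pow, eval_X, hx] at h4
    exact pow_ne_zero n hu h4
  constructor
  · intro hcu'
    rw [hg₁, eval_mul, eval_sub, eval_X, eval_C] at hc'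
    rcases mul_eq_zero.mp hc' with h | h
    · exact sub_eq_zero.mp h
    · exact absurd h (h3 c' hcu')
  · rw [hg₁, derivative_mul, derivative_sub, derivative_X, derivative_C, sub_zero, one_mul,
      eval_add, eval_mul, eval_sub, eval_X, eval_C, sub_self, zero_mul, add_zero]
    exact h3 c hcu

end Root

variable (N : ℕ) [NeZero N] (A : ValuationSubring Kb)

/-! ## The core -/

theorem pkguq_evA_eq (t f : FF N) (m : (↥A)[X][X]) :
    pkgEvA N A t f m =
      pkgEv₂ Kb (FF N) t f (m.map (Polynomial.mapRingHom A.subtype)) := rfl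

/-- the value of `m(t, f)` at a place, `m ∈ A[X][T]` -/
theorem pkguq_value (t f : FF N) (m : (↥A)[X][X]) (P : Place Kb (FF N)) (b c : A)
    (ht : HasValueAt P t (b : Kb)) (hf : HasValueAt P f (c : Kb)) :
    HasValueAt P (pkgEvA N A t f m) ((m.evalEval b c : A) : Kb) := by
  have h := pkgs_hasValueAt_ev ht hf (m.map (Polynomial.mapRingHom A.subtype))
  have e : pkgsVal (b : Kb) (c : Kb) (m.map (Polynomial.mapRingHom A.subtype)) =
      ((m.evalEval b c : A) : Kb) :=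
    Polynomial.map_mapRingHom_evalEval A.subtype m b c
  rw [e] at h
  exact h

theorem pkguq_core (hB : PkgBase N A) {t : FF N} {tb : FFk A} {f : FF N}
    (hmin : PkgIsMin N A hB t tb f)
    (hval : ∀ F₁ : (kA A)[X], (∃ h₁ : f ∈ pkgO₁ N A,
        pkgRed₁ N A hB ⟨f, h₁⟩ = Polynomial.aeval tb F₁) →
      ∀ (P : Place Kb (FF N)) (b : A), PkgType₁ N A P → HasValueAt P t (b : Kb) →
        ∃ c : A, HasValueAt P f (c : Kb) ∧
          IsLocalRing.residue A c = F₁.eval (IsLocalRing.residue A b) ∧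
          IsLocalRing.residue A c ≠ 0)
    (b : A) (P P' : Place Kb (FF N)) (hP : PkgType₁ N A P) (hP' : PkgType₁ N A P')
    (hb : HasValueAt P t (b : Kb)) (hb' : HasValueAt P' t (b : Kb)) :
    P.ord (t - algebraMap Kb (FF N) (b : Kb)) = 1 ∧ P' = P := by
  obtain ⟨m, F₁, hmonic, hev, hF₁, hred⟩ := hmin.min
  obtain ⟨c, hc, hcres, hc0⟩ := hval F₁ hF₁ P b hP hb
  obtain ⟨c', hc', hcres', -⟩ := hval F₁ hF₁ P' b hP' hb'
  -- the polynomial `g = m(b, T) ∈ A[T]`
  set g : (↥A)[X] := m.map (Polynomial.evalRingHom b) with hg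
  have hgeval : ∀ x : A, g.eval x = m.evalEval b x := fun x =>
    Polynomial.map_evalRingHom_eval b x m
  have hroot : ∀ (P : Place Kb (FF N)) (c : A), HasValueAt P t (b : Kb) →
      HasValueAt P f (c : Kb) → g.eval c = 0 := by
    intro P c h1 h2
    have h3 := pkguq_value N A t f m P b c h1 h2
    rw [hev] at h3
    have h4 := hasValueAt_unique P h3 (ln_hasValueAt_zero P)
    rw [hgeval]
    exact Subtype.ext h4
  have hgred : g.map (IsLocalRing.residue A) =
      (X - C (F₁.eval (IsLocalRing.residue A b))) * X ^ N := by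
    have h1 : g.map (IsLocalRing.residue A) =
        (m.map (Polynomial.mapRingHom (IsLocalRing.residue A))).map
          (Polynomial.evalRingHom (IsLocalRing.residue A b)) := by
      rw [hg, Polynomial.map_map, Polynomial.map_map]
      congr 1
      refine RingHom.ext fun q => ?_
      show IsLocalRing.residue A (q.eval b) =
        (q.map (IsLocalRing.residue A)).eval (IsLocalRing.residue A b)
      rw [Polynomial.eval_map, Polynomial.eval₂_hom]
    rw [h1, hred]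
    simp
  have hkey := pkguq_root (IsLocalRing.residue A) g (F₁.eval (IsLocalRing.residue A b)) N
    (hcres ▸ hc0) hgred c c' (hroot P c hb hc) (hroot P' c' hb' hc') hcres
  have hcc : c' = c := hkey.1 hcres'
  have hder : pkgsVal (b : Kb) (c : Kb)
      (derivative (m.map (Polynomial.mapRingHom A.subtype))) ≠ 0 := by
    have e1 : derivative (m.map (Polynomial.mapRingHom A.subtype)) =
        (derivative m).map (Polynomial.mapRingHom A.subtype) := Polynomial.derivative_map _ _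
    have e2 : pkgsVal (b : Kb) (c : Kb) ((derivative m).map (Polynomial.mapRingHom A.subtype)) =
        (((derivative m).evalEval b c : A) : Kb) :=
      Polynomial.map_mapRingHom_evalEval A.subtype (derivative m) b c
    have e3 : (derivative m).evalEval b c = (derivative g).eval c := by
      rw [hg, Polynomial.derivative_map]
      exact (Polynomial.map_evalRingHom_eval b c (derivative m)).symm
    rw [e1, e2, e3]
    intro h0
    exact hkey.2 (Subtype.ext h0)
  have hmK : pkgEv₂ Kb (FF N) t f (m.map (Polynomial.mapRingHom A.subtype)) = 0 := hev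
  rw [hcc] at hc'
  exact stmtPkgSimple Kb (FF N) t f _ (b : Kb) (c : Kb) hmin.gen hmK hder P P' hb hc hb' hc'

/-! ## The chart `j` -/

theorem pkguq_val_j (hFib : StmtPkgFibre) (hN : N.Prime) (h5 : 5 ≤ N) (hA : A.LiesOverPrime N)
    (hB : PkgBase N A) (F₁ : (kA A)[X])
    (hF₁ : ∃ h₁ : pkgSepJ N ∈ pkgO₁ N A,
      pkgRed₁ N A hB ⟨pkgSepJ N, h₁⟩ = Polynomial.aeval (pkgJbar A) F₁)
    (P : Place Kb (FF N)) (b : A) (hP : PkgType₁ N A P) (hb : HasValueAt P (jF N) (b : Kb)) :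
    ∃ c : A, HasValueAt P (pkgSepJ N) (c : Kb) ∧
      IsLocalRing.residue A c = F₁.eval (IsLocalRing.residue A b) ∧
      IsLocalRing.residue A c ≠ 0 := by
  obtain ⟨h₁, hF₁⟩ := hF₁
  have hs : PkgChart N A (jF N) (pkgSepJ N) := pkgev_chart_h N A hB hN hA
  obtain ⟨c, hc, hcres⟩ := pkgev_main N A hFib hN h5 hA hB (Or.inl ⟨rfl, rfl⟩) P hP b hb
    (pkgSepJ N) hs F₁ hF₁
  refine ⟨c, hc, hcres, ?_⟩
  obtain ⟨a₀, ha₀, hv₀⟩ := hP
  have e := pkgev_value_mul_eq_one (oggU_ne_zero N) hv₀ hc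
  have e1 : (c * ⟨a₀, ha₀⟩ : A) = 1 := Subtype.ext (by
    rw [mul_comm] at e
    exact e)
  have e2 : IsLocalRing.residue A c * IsLocalRing.residue A ⟨a₀, ha₀⟩ = 1 := by
    rw [← map_mul, e1, map_one]
  exact pkgev_residue_ne_zero_of_mul A one_ne_zero e2

/-! ## The chart `1/j` -/

theorem pkguq_sepI_eq : pkgSepI N = (jF N)⁻¹ ^ (N - 1) * (oggU N)⁻¹ := by
  unfold pkgSepI
  exact mul_comm _ _

theorem pkguq_chart_I (hN : N.Prime) (hA : A.LiesOverPrime N) (hB : PkgBase N A) :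
    PkgChart N A (jF N)⁻¹ (pkgSepI N) := by
  rw [pkguq_sepI_eq]
  exact pkgev_chart_unit N A hB hN hA

/-- the reduction of the separating function of the chart `1/j` -/
theorem pkguq_red_I (hN : N.Prime) (hA : A.LiesOverPrime N) (hB : PkgBase N A)
    (h₁ : pkgSepI N ∈ pkgO₁ N A) :
    ((pkgRed₁ N A hB ⟨pkgSepI N, h₁⟩ : FFk A) : LaurentSeries (kA A)) =
      ((jqModC (kA A))⁻¹) ^ (N - 1) * (uS (kA A) N)⁻¹ := by
  obtain ⟨ht₁, ht₂⟩ := pkgev_coord_mem N A hB hN hA (t := (jF N)⁻¹) (tb := (pkgJbar A)⁻¹)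
    (Or.inr ⟨rfl, rfl⟩)
  obtain ⟨hr, -⟩ := pkgev_coord_red N A hB hN hA (t := (jF N)⁻¹) (tb := (pkgJbar A)⁻¹)
    (Or.inr ⟨rfl, rfl⟩) ht₁ ht₂
  have e1 : (⟨pkgSepI N, h₁⟩ : pkgO₁ N A) =
      (⟨(jF N)⁻¹, ht₁⟩ : pkgO₁ N A) ^ (N - 1) * ⟨(oggU N)⁻¹, pkg_h_mem₁ N A⟩ :=
    Subtype.ext (pkguq_sepI_eq N)
  have hH : pkgRed₁ N A hB ⟨(oggU N)⁻¹, pkg_h_mem₁ N A⟩ = pkgHbar N A hB := by
    unfold pkgHbar
    rw [dif_pos (pkg_h_mem₁ N A)]
  rw [e1, map_mul, map_pow, hr, hH]
  have h1 : (((pkgJbar A)⁻¹ ^ (N - 1) * pkgHbar N A hB : FFk A) : LaurentSeries (kA A)) =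
      (((pkgJbar A : FFk A) : LaurentSeries (kA A))⁻¹) ^ (N - 1) *
        ((pkgHbar N A hB : FFk A) : LaurentSeries (kA A)) := rfl
  rw [h1, pkg_coe_Hbar, pkg_coe_Jbar]

theorem pkguq_const_I (hN : N.Prime) (hA : A.LiesOverPrime N) (hB : PkgBase N A)
    (F₁ : (kA A)[X])
    (hF₁ : ∃ h₁ : pkgSepI N ∈ pkgO₁ N A,
      pkgRed₁ N A hB ⟨pkgSepI N, h₁⟩ = Polynomial.aeval (pkgJbar A)⁻¹ F₁) :
    F₁.eval 0 ≠ 0 := by
  obtain ⟨h₁, hF₁⟩ := hF₁
  have hu0 : uS (kA A) N ≠ 0 := uS_ne_zero N (kA A)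
  have hJ0 : jqModC (kA A) ≠ 0 := by
    intro h
    have := bgConst_order_jqModC (kA A)
    rw [h, HahnSeries.order_zero] at this
    omega
  have hN1 : ((N - 1 : ℕ) : ℤ) = (N : ℤ) - 1 := by
    have := hN.one_le
    push_cast [Nat.cast_sub this]
    ring
  have hx1 : ((jqModC (kA A))⁻¹) ^ (N - 1) ≠ 0 := pow_ne_zero _ (inv_ne_zero hJ0)
  have hx2 : (uS (kA A) N)⁻¹ ≠ 0 := inv_ne_zero hu0
  have hne : ((jqModC (kA A))⁻¹) ^ (N - 1) * (uS (kA A) N)⁻¹ ≠ 0 := mul_ne_zero hx1 hx2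
  have hord : (((jqModC (kA A))⁻¹) ^ (N - 1) * (uS (kA A) N)⁻¹).order = 0 := by
    rw [HahnSeries.order_mul hx1 hx2, HahnSeries.order_pow, pkgev_order_inv hJ0,
      pkgev_order_inv hu0, order_uS, bgConst_order_jqModC, nsmul_eq_mul, hN1]
    ring
  have hred := pkguq_red_I N A hN hA hB h₁
  rw [hF₁] at hred
  have e : ((Polynomial.aeval (pkgJbar A)⁻¹ F₁ : FFk A) : LaurentSeries (kA A)) =
      Polynomial.aeval ((jqModC (kA A))⁻¹) F₁ := by
    have h := Polynomial.aeval_algHom_apply (modularFunctionFieldFullC (kA A) 1).val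
      (pkgJbar A)⁻¹ F₁
    exact h.symm
  rw [e] at hred
  rw [← hred] at hord hne
  have hy : (0 : ℤ) < ((jqModC (kA A))⁻¹).order := by
    rw [pkgev_order_inv hJ0, bgConst_order_jqModC]
    norm_num
  have h1 := pkgev_aeval_coeff_zero _ hy F₁
  rw [← h1]
  have h2 : (Polynomial.aeval ((jqModC (kA A))⁻¹) F₁).coeff 0 =
      (Polynomial.aeval ((jqModC (kA A))⁻¹) F₁).leadingCoeff := by
    rw [HahnSeries.leadingCoeff_eq, hord]
  rw [h2]
  exact fun h => hne (HahnSeries.leadingCoeff_eq_zero.mp h)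

theorem pkguq_val_I (hFib : StmtPkgFibre) (hN : N.Prime) (h5 : 5 ≤ N) (hA : A.LiesOverPrime N)
    (hB : PkgBase N A) (F₁ : (kA A)[X])
    (hF₁ : ∃ h₁ : pkgSepI N ∈ pkgO₁ N A,
      pkgRed₁ N A hB ⟨pkgSepI N, h₁⟩ = Polynomial.aeval (pkgJbar A)⁻¹ F₁)
    (P : Place Kb (FF N)) (b : A) (hP : PkgType₁ N A P)
    (hb : HasValueAt P (jF N)⁻¹ (b : Kb)) :
    ∃ c : A, HasValueAt P (pkgSepI N) (c : Kb) ∧
      IsLocalRing.residue A c = F₁.eval (IsLocalRing.residue A b) ∧
      IsLocalRing.residue A c ≠ 0 := by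
  have hconst := pkguq_const_I N A hN hA hB F₁ hF₁
  obtain ⟨h₁, hF₁⟩ := hF₁
  have hs : PkgChart N A (jF N)⁻¹ (pkgSepI N) := pkguq_chart_I N A hN hA hB
  obtain ⟨c, hc, hcres⟩ := pkgev_main N A hFib hN h5 hA hB (Or.inr ⟨rfl, rfl⟩) P hP b hb
    (pkgSepI N) hs F₁ hF₁
  refine ⟨c, hc, hcres, ?_⟩
  by_cases h0 : IsLocalRing.residue A b = 0
  · rw [hcres, h0]
    exact hconst
  · obtain ⟨a₀, ha₀, hv₀⟩ := hP
    have h1 := ln_hasValueAt_mul hc hv₀
    have e0 : pkgSepI N * oggU N = (jF N)⁻¹ ^ (N - 1) := by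
      rw [pkguq_sepI_eq, mul_assoc, inv_mul_cancel₀ (oggU_ne_zero N), mul_one]
    rw [e0] at h1
    have e := hasValueAt_unique P h1 (pkgev_hv_pow hb (N - 1))
    have e1 : (c * ⟨a₀, ha₀⟩ : A) = b ^ (N - 1) := Subtype.ext e
    have e2 : IsLocalRing.residue A c * IsLocalRing.residue A ⟨a₀, ha₀⟩ =
        IsLocalRing.residue A b ^ (N - 1) := by
      rw [← map_mul, e1, map_pow]
    exact pkgev_residue_ne_zero_of_mul A (pow_ne_zero _ h0) e2

/-! ## The assembly -/

/-- **PKG-uniq** -/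
theorem stmtPkgUniq_of (hM : StmtPkgMinH) (hFib : StmtPkgFibre) : StmtPkgUniq := by
  intro N _ hN h5 A hA t ht b P P' hP hP' hb hb'
  have hB : PkgBase N A := pkg_base N A hN hA
  obtain ⟨hJ, hI⟩ := hM N hN h5 A hA hB
  rcases ht with rfl | rfl
  · exact pkguq_core N A hB hJ
      (fun F₁ hF₁ P b hP hb => pkguq_val_j N A hFib hN h5 hA hB F₁ hF₁ P b hP hb)
      b P P' hP hP' hb hb'
  · exact pkguq_core N A hB hI
      (fun F₁ hF₁ P b hP hb => pkguq_val_I N A hFib hN h5 hA hB F₁ hF₁ P b hP hb)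
      b P P' hP hP' hb hb'

end Fermat.Agent.S15.LN
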