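import Fermat.Agent.S15.PlanPKG
import Fermat.Agent.DEU.ModPRFinal
import Fermat.Agent.Common.FrobProfinite
import Fermat.Agent.S08

/-!
# S15 / LN-PKG, piece PKG-nice: `stmtPkgNice : StmtPkgNice` (helper10)

* `pkgnice_FF` : `IsNiceCurve ℚ̄ (FF N) (gN N)` for EVERY level `N` (reduction at a prime
  `ℓ ≥ 5`, `ℓ ∤ N`; Deuring's dimension count `DEU.deuAnchor_hyp`);
* `pkgnice_k` : `IsNiceCurve k (FFk A) 0` for `A` over a prime `ℓ ≥ 5` (level `1`, `gN 1 = 0` by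
  S08).
-/

set_option autoImplicit false
set_option linter.unusedSectionVars false
set_option linter.unusedVariables false
set_option linter.style.haveILetI false
set_option synthInstance.maxHeartbeats 400000
set_option maxHeartbeats 1600000

open ModularCurve AlgebraicCurve HahnSeries Module

namespace Fermat.Agent.S15.LN

open Fermat.Agent.ES Fermat.Agent.S24 Fermat.Agent.ES.M Fermat.Agent.W1 Fermat.Agent.DEU

/-- the genus of `X₀(1)` is `0` -/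
theorem pkgnice_gN_one : gN 1 = 0 := by
  unfold gN
  haveI : Subsingleton (CuspForm (CongruenceSubgroup.Gamma0 1) 2) :=
    ⟨fun f g => by rw [Fermat.Agent.S08.result f, Fermat.Agent.S08.result g]⟩
  exact Module.finrank_zero_of_subsingleton

/-- `IsNiceCurve` for the generic fibre, from the reduction at `A'` over `ℓ ≥ 5`, `ℓ ∤ N` -/
theorem pkgnice_FF_of (N : ℕ) [NeZero N] (ℓ : ℕ) (hℓ : ℓ.Prime) (h5 : 5 ≤ ℓ) (hℓN : ¬ ℓ ∣ N)
    (A' : ValuationSubring Kb) (hA' : A'.LiesOverPrime ℓ) : IsNiceCurve Kb (FF N) (gN N) := by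
  have hRedF : StmtRedF N A' := stmtRedF N A' ℓ hℓ hℓN hA'
  obtain ⟨Pinf, Qinf, n₀, -, hQ, H⟩ := deuAnchor_hyp N A' hRedF
    (Fermat.Agent.ES.LR.stmtLRa N ℓ hℓ A' hA')
    (Fermat.Agent.ES.I2.stmtI2All N ℓ hℓ h5 hℓN A' hA') (Fermat.Agent.ES.R.stmtR N)
    (modHyp_hresk N A') (modHyp_hpdk N A' hℓ hA')
  exact modPR_nice H

/-- the reduction at `A` over `ℓ ≥ 5`, `ℓ ∤ N`, is a nice curve of genus `gN N` -/
theorem pkgnice_k_of (N : ℕ) [NeZero N] (ℓ : ℕ) (hℓ : ℓ.Prime) (h5 : 5 ≤ ℓ) (hℓN : ¬ ℓ ∣ N)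
    (A : ValuationSubring Kb) (hA : A.LiesOverPrime ℓ) :
    IsNiceCurve (kA A) ↥(modularFunctionFieldFullC (kA A) N) (gN N) := by
  have hRedF : StmtRedF N A := stmtRedF N A ℓ hℓ hℓN hA
  obtain ⟨Pinf, Qinf, n₀, -, hQ, H⟩ := deuAnchor_hyp N A hRedF
    (Fermat.Agent.ES.LR.stmtLRa N ℓ hℓ A hA)
    (Fermat.Agent.ES.I2.stmtI2All N ℓ hℓ h5 hℓN A hA) (Fermat.Agent.ES.R.stmtR N)
    (modHyp_hresk N A) (modHyp_hpdk N A hℓ hA)
  exact modPR_nice_k H hQ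

/-- **the generic fibre**: `IsNiceCurve ℚ̄ (FF N) (gN N)`, every level -/
theorem pkgnice_FF (N : ℕ) [NeZero N] : IsNiceCurve Kb (FF N) (gN N) := by
  obtain ⟨ℓ, hℓ5, hℓ⟩ := Nat.exists_infinite_primes (max 5 (N + 1))
  have h5 : 5 ≤ ℓ := le_trans (le_max_left _ _) hℓ5
  have hN : N < ℓ := lt_of_lt_of_le (Nat.lt_succ_self N) (le_trans (le_max_right _ _) hℓ5)
  have hℓN : ¬ ℓ ∣ N := fun h =>
    absurd (Nat.le_of_dvd (Nat.pos_of_ne_zero (NeZero.ne N)) h) (not_le.2 hN)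
  obtain ⟨A', hA'⟩ := Fermat.Agent.Common.exists_liesOverPrime ℓ hℓ
  exact pkgnice_FF_of N ℓ hℓ h5 hℓN A' hA'

/-- **the components**: `k(j̄)` is a nice curve of genus `0` -/
theorem pkgnice_k (ℓ : ℕ) (hℓ : ℓ.Prime) (h5 : 5 ≤ ℓ) (A : ValuationSubring Kb)
    (hA : A.LiesOverPrime ℓ) : IsNiceCurve (kA A) (FFk A) 0 := by
  have h1 : ¬ ℓ ∣ 1 := fun h => hℓ.one_lt.ne' (Nat.dvd_one.1 h)
  have h := pkgnice_k_of 1 ℓ hℓ h5 h1 A hA
  rwa [pkgnice_gN_one] at h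

/-- **PKG-nice** -/
theorem stmtPkgNice : StmtPkgNice := fun N _ hN h5 A hA =>
  ⟨pkgnice_FF N, pkgnice_k N hN h5 A hA⟩

end Fermat.Agent.S15.LN
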