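import Fermat.Agent.S15.PkgCardFinal
import Fermat.Agent.S15.PkgNice

/-!
# S15 / LN-PKG, piece PKG-card: `stmtPkgCard : StmtPkgCard`, unconditional (helper89)

`stmtPkgCard_of_nice` (PkgCardFinal, helper89) applied to `stmtPkgNice` (PkgNice, helper10).
-/

set_option autoImplicit false

namespace Fermat.Agent.S15.LN

/-- **PKG-card**, unconditional: the number of crossing points is `gN N + 1`. -/
theorem stmtPkgCard : StmtPkgCard := stmtPkgCard_of_nice stmtPkgNice

end Fermat.Agent.S15.LN
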