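import Fermat.Agent.S15.PkgCardDim
import Fermat.Agent.ES.LR.Arch

/-!
# S15 / LOCAL-N / LN-PKG, piece PKG-card (6): Goursat for `red(B)`, `Z = S`, and the count

* `pkgc_pow_div` : a Gauss-nonunit has a power divisible by any nonzero constant;
* `pkgc_goursat : PkgcPoly N A → ∃ S, PkgIsGoursat N A S` (`stmtPkgGoursat`);
* `pkgc_count` (`stmtPkgCount`) : `#S = g + 1`.
-/

set_option autoImplicit false
set_option linter.unusedSectionVars false

noncomputable section

namespace Fermat.Agent.S15.LN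

open ModularCurve AlgebraicCurve HahnSeries Polynomial Fermat.Agent.ES Fermat.Agent.S24
  Fermat.Agent.ES.M Fermat.Agent.DEU Fermat.Agent.INJ Fermat.Agent.S15 Fermat.Agent.S28
  Fermat.Agent.W1

variable (N : ℕ) [NeZero N] (A : ValuationSubring Kb)

/-! ### Powers of a Gauss-nonunit -/

variable {N A}

/-- a Gauss-nonunit has a power divisible by any nonzero constant -/
theorem pkgc_pow_div {ℓ : ℕ} (hℓ : ℓ.Prime) (hA : A.LiesOverPrime ℓ) {ψ : FF N}
    (hψ : GaussRed N A ψ 0) {d : Kb} (hd : d ≠ 0) :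
    ∃ (M : ℕ) (v : LaurentSeries (kA A)), 0 < M ∧ GaussRed N A (d⁻¹ • ψ ^ M) v := by
  rcases eq_or_ne ψ 0 with rfl | hψ0
  · refine ⟨1, 0, one_pos, ?_⟩
    rw [pow_one, smul_zero]
    exact deuInst_gaussRed_zero N A
  obtain ⟨c, hc, w, hw0, hw⟩ := deuInst_exists_scale N A ψ hψ0
  have hcinv : c⁻¹ ∈ A.nonunits := by
    by_contra hnot
    have hcA : c ∈ A := by
      rw [ValuationSubring.mem_nonunits_iff, map_inv₀, not_lt] at hnot
      rw [← ValuationSubring.valuation_le_one_iff]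
      have h0 : A.valuation c ≠ 0 := (_root_.map_ne_zero _).mpr hc
      exact (one_le_inv₀ (zero_lt_iff.mpr h0)).mp hnot
    have h1 := pkgc_gaussRed_smul ⟨c, hcA⟩ hψ
    rw [mul_zero, Algebra.smul_def] at h1
    exact hw0 (deuInst_gaussRed_unique N A hw h1)
  obtain ⟨M, hM⟩ := Fermat.Agent.ES.LR.arch_Qbar A hℓ hA c⁻¹ d hcinv hd
  have hmem : c⁻¹ ^ (M + 1) / d ∈ A := by
    have h2 : c⁻¹ ^ (M + 1) / d = c⁻¹ ^ M / d * c⁻¹ := by
      rw [pow_succ]
      ring
    rw [h2]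
    exact mul_mem hM (A.nonunits_subset hcinv)
  refine ⟨M + 1, HahnSeries.C (IsLocalRing.residue A ⟨c⁻¹ ^ (M + 1) / d, hmem⟩) * w ^ (M + 1),
    Nat.succ_pos M, ?_⟩
  have heq : d⁻¹ • ψ ^ (M + 1) =
      ((⟨c⁻¹ ^ (M + 1) / d, hmem⟩ : A) : Kb) • (algebraMap Kb (FF N) c * ψ) ^ (M + 1) := by
    rw [Algebra.smul_def, Algebra.smul_def, mul_pow, ← mul_assoc, ← map_pow, ← map_mul]
    congr 2
    show d⁻¹ = c⁻¹ ^ (M + 1) / d * c ^ (M + 1)
    rw [inv_pow]
    field_simp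
  rw [heq]
  exact pkgc_gaussRed_smul _ (pkgc_gaussRed_pow hw (M + 1))

variable (N A)

/-! ### `oggU` -/

/-- `w_N (oggU) = N⁻¹² • h` -/
theorem pkgc_fricke_oggU : frickeAut N (oggU N) = (((N : Kb) ^ 12)⁻¹) • (oggU N)⁻¹ := by
  have hfr := ogg_fricke N
  have hu0 : oggU N ≠ 0 := oggU_ne_zero N
  rw [Algebra.smul_def, ← hfr, mul_assoc, mul_inv_cancel₀ hu0, mul_one]

theorem pkgc_poles_oggU (hN : N.Prime) : PolesAtCusps N (oggU N) := by
  have h1 : PolesAtCusps N (frickeAut N (oggU N)⁻¹) := fricke_polesAtCusps (pkgc_poles_h N hN)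
  rw [pkgc_fricke_h] at h1
  have hN0 : ((N : Kb) ^ 12) ≠ 0 := pow_ne_zero _ (Nat.cast_ne_zero.mpr (NeZero.ne N))
  have h2 : oggU N = algebraMap Kb (FF N) (((N : Kb) ^ 12)⁻¹) * (((N : Kb) ^ 12) • oggU N) := by
    rw [Algebra.smul_def, ← mul_assoc, ← map_mul, inv_mul_cancel₀ hN0, map_one, one_mul]
  rw [h2]
  exact pkgc_poles_mul (pkgc_poles_const N _) h1

/-- `oggU · φ ^ M ∈ B` for `M` large, if the second reduction of `φ ∈ B` is `0` -/
theorem pkgc_oggU_mul_pow (hN : N.Prime) (hA : A.LiesOverPrime N) {φ : FF N}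
    {u : LaurentSeries (kA A)} (hφ : PkgcB N A φ u 0) :
    ∃ (M : ℕ) (v : LaurentSeries (kA A)),
      PkgcB N A (oggU N * φ ^ M) (uS (kA A) N * u ^ M) v := by
  have hN0 : ((N : Kb) ^ 12) ≠ 0 := pow_ne_zero _ (Nat.cast_ne_zero.mpr (NeZero.ne N))
  obtain ⟨M, v, -, hv⟩ := pkgc_pow_div hN hA hφ.2.2 hN0
  refine ⟨M, HahnSeries.C 1 * (uS (kA A) N)⁻¹ * v, ?_,
    deuInst_gaussRed_mul N A (pkg_gaussRed_oggU N A) (pkgc_gaussRed_pow hφ.2.1 M), ?_⟩
  · exact pkgc_poles_mul (pkgc_poles_oggU N hN) (pkgc_poles_pow hφ.1 M)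
  · have heq : frickeAut N (oggU N * φ ^ M) =
        ((1 : A) : Kb) • ((oggU N)⁻¹ * (((N : Kb) ^ 12)⁻¹ • frickeAut N φ ^ M)) := by
      rw [map_mul, map_pow, pkgc_fricke_oggU]
      simp only [Algebra.smul_def, OneMemClass.coe_one, map_one, one_mul]
      ring
    rw [heq]
    have h1 := pkgc_gaussRed_smul (1 : A) (deuInst_gaussRed_mul N A (pkg_gaussRed_h N A) hv)
    rw [map_one, ← mul_assoc] at h1
    exact h1

/-! ### Goursat -/

/-- **Goursat + (Z = S)** for the reduction of the chart ring -/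
theorem pkgc_goursat (hN : N.Prime) (hA : A.LiesOverPrime N) (hPoly : PkgcPoly N A) :
    ∃ S : Finset (kA A), PkgIsGoursat N A S := by
  classical
  have : IsAlgClosed (kA A) := modHyp_isAlgClosed A
  have : CharP (kA A) N := kron_charP_residueField hN hA
  have hq : ((N : ℕ) : kA A) = 0 := CharP.cast_eq_zero (kA A) N
  obtain ⟨S, hfrob, hS⟩ := lngo_goursat N hq (pkgcR N A) (pkgcR_j_mem N A hN hA)
    (pkgcR_jN_mem N A hN hA)
  -- the polynomial `H`
  obtain ⟨⟨H, hH⟩, -⟩ := hPoly _ _ _ (pkgcB_h N A hN hA)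
  have hH0 : H ≠ 0 := by
    rintro rfl
    rw [map_zero] at hH
    exact inv_ne_zero (uS_ne_zero N (kA A)) hH.symm
  have hHR : ((H, 0) : (kA A)[X] × (kA A)[X]) ∈ pkgcR N A := by
    refine ⟨(oggU N)⁻¹, ?_⟩
    show PkgcB N A _ (Polynomial.aeval (jqModC (kA A)) H) (Polynomial.aeval (jqModC (kA A)) 0)
    rw [hH, map_zero]
    exact pkgcB_h N A hN hA
  have hHR' : ((0, H) : (kA A)[X] × (kA A)[X]) ∈ pkgcR N A := by
    refine ⟨frickeAut N (oggU N)⁻¹, ?_⟩
    show PkgcB N A _ (Polynomial.aeval (jqModC (kA A)) 0) (Polynomial.aeval (jqModC (kA A)) H)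
    rw [hH, map_zero]
    exact pkgcB_wh N A hN hA
  -- `Z = S`
  have hzeros : ∀ a : kA A, a ∈ S ↔ H.eval a = 0 := by
    intro a
    constructor
    · intro ha
      have := (hS _).mp hHR a ha
      simpa using this
    · intro ha
      by_contra hnot
      set PS : (kA A)[X] := ∏ s ∈ S, (X - Polynomial.C s) with hPS
      have hPSR : ((PS, 0) : (kA A)[X] × (kA A)[X]) ∈ pkgcR N A := by
        rw [hS]
        intro s hs
        show PS.eval s = (0 : (kA A)[X]).eval (s ^ N)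
        rw [Polynomial.eval_zero, hPS, Polynomial.eval_prod]
        apply Finset.prod_eq_zero hs
        simp
      obtain ⟨φ, hφ⟩ := hPSR
      have hφ' : PkgcB N A φ (Polynomial.aeval (jqModC (kA A)) PS) 0 := by
        have : PkgcB N A φ (Polynomial.aeval (jqModC (kA A)) PS)
            (Polynomial.aeval (jqModC (kA A)) 0) := hφ
        rwa [map_zero] at this
      obtain ⟨M, v, hM⟩ := pkgc_oggU_mul_pow N A hN hA hφ'
      obtain ⟨⟨G, hG⟩, -⟩ := hPoly _ _ _ hM
      have hGH : G * H = PS ^ M := by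
        apply pkgc_aeval_injective
        rw [map_mul, map_pow, hG, hH, mul_comm (uS (kA A) N), mul_assoc,
          mul_inv_cancel₀ (uS_ne_zero N (kA A)), mul_one]
      have h1 := congrArg (Polynomial.eval a) hGH
      rw [Polynomial.eval_mul, ha, mul_zero, Polynomial.eval_pow] at h1
      have h2 : PS.eval a = 0 := by
        by_contra h
        exact pow_ne_zero M h h1.symm
      rw [hPS, Polynomial.eval_prod, Finset.prod_eq_zero_iff] at h2
      obtain ⟨s, hs, hsa⟩ := h2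
      rw [Polynomial.eval_sub, Polynomial.eval_X, Polynomial.eval_C, sub_eq_zero] at hsa
      exact hnot (hsa ▸ hs)
  refine ⟨S, hfrob, ?_, ?_, ?_, H, hH0, hH, hzeros⟩
  · intro s hs
    rw [hzeros]
    have := (hS _).mp hHR' s hs
    simpa using this.symm
  · intro f P Q hf s hs
    exact (hS (P, Q)).mp ⟨f, hf⟩ s hs
  · intro P Q h
    exact (hS (P, Q)).mpr h

theorem stmtPkgGoursat : StmtPkgGoursat :=
  fun N _ hN _ A hA hPoly => pkgc_goursat N A hN hA hPoly

/-- **the count** -/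
theorem pkgc_count (hN : N.Prime) (hA : A.LiesOverPrime N) (hPoly : PkgcPoly N A)
    (hnice : IsNiceCurve Kb (FF N) (gN N)) (S : Finset (kA A)) (hG : PkgIsGoursat N A S) :
    S.card = gN N + 1 := by
  apply pkgc_card N A hN hA hPoly hnice S hG.frob
  intro f
  constructor
  · rintro ⟨g, hg⟩ s hs
    exact hG.glued g f.1 f.2 hg s hs
  · intro h
    exact hG.lift f.1 f.2 h

theorem stmtPkgCount : StmtPkgCount :=
  fun N _ hN _ A hA hPoly hnice S hG => pkgc_count N A hN hA hPoly hnice S hG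

end Fermat.Agent.S15.LN
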