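import Fermat.Agent.S15.PkgTV
import Fermat.Agent.S15.PkgVal
import Fermat.Agent.S28.KeyDataJ
import Fermat.Agent.S28.UpperBound

/-!
# S15 / LN-PKG, piece PKG-poly: `stmtPkgPoly : StmtPkgPoly` (helper10)

The reductions of an element integral over `A[t]` (`t = j` or `t = 1/j`) are POLYNOMIALS in `t̄`
on both components: reduce the monic equation; `k[t̄]` is integrally closed in `k(j̄)`.

* `pkgpoly_red_mem_j`, `pkgpoly_red_mem_jinv` : from `PkgInt`;
* `stmtPkgPoly` : from `stmtPkgTV`.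
-/

set_option autoImplicit false
set_option linter.unusedSectionVars false
set_option linter.unusedVariables false
set_option linter.style.haveILetI false

noncomputable section

namespace Fermat.Agent.S15.LN

open ModularCurve AlgebraicCurve Polynomial IntermediateField
open Fermat.Agent.ES Fermat.Agent.ES.M Fermat.Agent.S24 Fermat.Agent.ES.LR Fermat.Agent.DEU
  Fermat.Agent.INJ Fermat.Agent.W1

/-! ### generic algebra -/

/-- reduction of a monic equation -/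
theorem pkgpoly_reduce_equation {F E : Type*} [Field F] [CommRing E] (O : ValuationSubring F)
    (red : O →+* E) (S : Subring E) (R : Subring F)
    (hR : ∀ x ∈ R, ∃ h : x ∈ O, red ⟨x, h⟩ ∈ S) (b : F) (hb : b ∈ O)
    (p : F[X]) (hp : p.Monic) (hpc : ∀ i, p.coeff i ∈ R) (hpb : p.eval b = 0) :
    ∃ q : E[X], q.Monic ∧ (∀ i, q.coeff i ∈ S) ∧ q.eval (red ⟨b, hb⟩) = 0 := by
  have hlift : p ∈ Polynomial.lifts O.subtype := by
    rw [Polynomial.lifts_iff_coeff_lifts]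
    intro i
    obtain ⟨h, -⟩ := hR _ (hpc i)
    exact ⟨⟨p.coeff i, h⟩, rfl⟩
  obtain ⟨p₁, hp₁, -, hmonic⟩ := Polynomial.lifts_and_natDegree_eq_and_monic hlift hp
  refine ⟨p₁.map red, hmonic.map red, ?_, ?_⟩
  · intro i
    rw [Polynomial.coeff_map]
    obtain ⟨h, hS⟩ := hR _ (hpc i)
    have h1 : p₁.coeff i = ⟨p.coeff i, h⟩ := by
      apply Subtype.ext
      have h2 : p.coeff i = O.subtype (p₁.coeff i) := by
        rw [← hp₁, Polynomial.coeff_map]
      exact h2.symm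
    rw [h1]
    exact hS
  · rw [Polynomial.eval_map, Polynomial.eval₂_hom]
    have h0 : p₁.eval (⟨b, hb⟩ : O) = 0 := by
      apply Subtype.ext
      have h1 := Polynomial.eval₂_hom (p := p₁) O.subtype (⟨b, hb⟩ : O)
      rw [← Polynomial.eval_map, hp₁] at h1
      have h2 : O.subtype ⟨b, hb⟩ = b := rfl
      rw [h2, hpb] at h1
      exact h1.symm
    rw [h0, map_zero]

/-- `k[x]` is integrally closed in `k(x)` -/
theorem pkgpoly_mem_range_aeval {k F : Type*} [Field k] [Field F] [Algebra k F] (x : F)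
    (hx : Transcendental k x) (y : F) (hy : y ∈ k⟮x⟯) (q : k[X][X]) (hq : q.Monic)
    (hqy : Polynomial.eval₂ (Polynomial.aeval (R := k) x).toRingHom y q = 0) :
    ∃ r : k[X], Polynomial.aeval x r = y := by
  letI := polyAlgebraAdjoin (K := k) x
  haveI := polyAlgebraAdjoin_isFractionRing (K := k) x hx
  have hint : IsIntegral k[X] (⟨y, hy⟩ : k⟮x⟯) := by
    refine ⟨q, hq, ?_⟩
    apply Subtype.ext
    have h1 := Polynomial.hom_eval₂ q (algebraMap k[X] k⟮x⟯) (k⟮x⟯).val.toRingHom ⟨y, hy⟩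
    have hcomp : (k⟮x⟯).val.toRingHom.comp (algebraMap k[X] k⟮x⟯) =
        (Polynomial.aeval (R := k) x).toRingHom := by
      have h2 : (Polynomial.aeval (R := k) x) =
          (k⟮x⟯).val.comp (Polynomial.aeval (AdjoinSimple.gen k x)) := by
        rw [← Polynomial.aeval_algHom]
        simp
      rw [h2]
      rfl
    rw [hcomp] at h1
    have h3 : (k⟮x⟯).val.toRingHom ⟨y, hy⟩ = y := rfl
    rw [h3, hqy] at h1
    exact h1
  obtain ⟨r, hr⟩ := IsIntegrallyClosed.isIntegral_iff.1 hint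
  refine ⟨r, ?_⟩
  have h4 := congrArg (fun z : k⟮x⟯ => (z : F)) hr
  have h5 : ((algebraMap k[X] k⟮x⟯ r : k⟮x⟯) : F) = Polynomial.aeval x r := by
    change ((Polynomial.aeval (AdjoinSimple.gen k x) r : k⟮x⟯) : F) = _
    rw [← IntermediateField.coe_val, ← Polynomial.aeval_algHom_apply]
    simp
  rw [← h5]
  exact h4

theorem pkgpoly_adjoin_inv {k F : Type*} [Field k] [Field F] [Algebra k F] (x : F) :
    k⟮x⁻¹⟯ = k⟮x⟯ := by
  apply le_antisymm
  · rw [IntermediateField.adjoin_simple_le_iff]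
    exact inv_mem (mem_adjoin_simple_self k x)
  · rw [IntermediateField.adjoin_simple_le_iff]
    have h := inv_mem (mem_adjoin_simple_self k x⁻¹)
    rwa [inv_inv] at h

/-! ### the package -/

variable (N : ℕ) [NeZero N] (A : ValuationSubring Kb)

/-- `FFk A = k(j̄)` -/
theorem pkgpoly_mem_adjoin_jbar (y : FFk A) :
    (y : LaurentSeries (kA A)) ∈ (kA A)⟮jqModC (kA A)⟯ := by
  have h : ∀ z : LaurentSeries (kA A), z ∈ modularFunctionFieldFullC (kA A) 1 →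
      z ∈ (kA A)⟮jqModC (kA A)⟯ := by
    intro z hz
    rw [Fermat.Agent.S28.UB.full_one] at hz
    exact hz
  exact h _ y.2

theorem pkgpoly_mem_adjoin_jbar_inv (y : FFk A) :
    (y : LaurentSeries (kA A)) ∈ (kA A)⟮(jqModC (kA A))⁻¹⟯ := by
  rw [pkgpoly_adjoin_inv]
  exact pkgpoly_mem_adjoin_jbar A y

/-- the ring `A[t]` reduces into `k[T]` -/
theorem pkgpoly_closure (O : ValuationSubring (FF N)) (red : O →+* FFk A)
    (S : Subalgebra (kA A) (FFk A))
    (hconst : ∀ a : A, ∃ h : algebraMap Kb (FF N) (a : Kb) ∈ O,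
      red ⟨_, h⟩ = algebraMap (kA A) (FFk A) (IsLocalRing.residue A a))
    (t : FF N) (ht : ∃ h : t ∈ O, red ⟨t, h⟩ ∈ S) :
    ∀ x ∈ pkgPoly N A t, ∃ h : x ∈ O, red ⟨x, h⟩ ∈ S.toSubring := by
  intro x hx
  induction hx using Subring.closure_induction with
  | mem x hx =>
      rcases hx with ⟨a, ha, rfl⟩ | hx
      · obtain ⟨h, he⟩ := hconst ⟨a, ha⟩
        refine ⟨h, ?_⟩
        rw [he]
        exact S.algebraMap_mem _
      · rw [Set.mem_singleton_iff] at hx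
        subst hx
        exact ht
  | zero =>
      refine ⟨O.zero_mem, ?_⟩
      have h : (⟨0, O.zero_mem⟩ : O) = 0 := rfl
      rw [h, map_zero]
      exact Subring.zero_mem _
  | one =>
      refine ⟨O.one_mem, ?_⟩
      have h : (⟨1, O.one_mem⟩ : O) = 1 := rfl
      rw [h, map_one]
      exact Subring.one_mem _
  | add x y _ _ ihx ihy =>
      obtain ⟨hx, hx'⟩ := ihx
      obtain ⟨hy, hy'⟩ := ihy
      refine ⟨O.add_mem _ _ hx hy, ?_⟩
      have h : (⟨x + y, O.add_mem _ _ hx hy⟩ : O) = ⟨x, hx⟩ + ⟨y, hy⟩ := rfl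
      rw [h, map_add]
      exact Subring.add_mem _ hx' hy'
  | neg x _ ihx =>
      obtain ⟨hx, hx'⟩ := ihx
      refine ⟨O.neg_mem _ hx, ?_⟩
      have h : (⟨-x, O.neg_mem _ hx⟩ : O) = -⟨x, hx⟩ := rfl
      rw [h, map_neg]
      exact Subring.neg_mem _ hx'
  | mul x y _ _ ihx ihy =>
      obtain ⟨hx, hx'⟩ := ihx
      obtain ⟨hy, hy'⟩ := ihy
      refine ⟨O.mul_mem _ _ hx hy, ?_⟩
      have h : (⟨x * y, O.mul_mem _ _ hx hy⟩ : O) = ⟨x, hx⟩ * ⟨y, hy⟩ := rfl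
      rw [h, map_mul]
      exact Subring.mul_mem _ hx' hy'

/-- the reduction of an element integral over `A[t]` is a polynomial in `T` -/
theorem pkgpoly_red_mem_gen (T : FFk A)
    (hT : Transcendental (kA A) (T : LaurentSeries (kA A)))
    (hTtop : ∀ y : FFk A, (y : LaurentSeries (kA A)) ∈ (kA A)⟮(T : LaurentSeries (kA A))⟯)
    (O : ValuationSubring (FF N)) (red : O →+* FFk A)
    (hconst : ∀ a : A, ∃ h : algebraMap Kb (FF N) (a : Kb) ∈ O,
      red ⟨_, h⟩ = algebraMap (kA A) (FFk A) (IsLocalRing.residue A a))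
    (t : FF N) (ht : ∃ h : t ∈ O, red ⟨t, h⟩ ∈ Algebra.adjoin (kA A) {T})
    (b : FF N) (hb : b ∈ O) (hint : PkgInt N A t b) :
    red ⟨b, hb⟩ ∈ Algebra.adjoin (kA A) {T} := by
  obtain ⟨p, hp, hpc, hpb⟩ := hint
  obtain ⟨q, hq, hqc, hqb⟩ := pkgpoly_reduce_equation O red
    (Algebra.adjoin (kA A) {T}).toSubring (pkgPoly N A t)
    (pkgpoly_closure N A O red _ hconst t ht) b hb p hp hpc hpb
  have hlift : q ∈ Polynomial.lifts (Polynomial.aeval (R := kA A) T).toRingHom := by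
    rw [Polynomial.lifts_iff_coeff_lifts]
    intro i
    have h := hqc i
    rw [Subalgebra.mem_toSubring, Algebra.adjoin_singleton_eq_range_aeval] at h
    obtain ⟨r, hr⟩ := h
    exact ⟨r, hr⟩
  obtain ⟨q', hq', -, hmonic⟩ := Polynomial.lifts_and_natDegree_eq_and_monic hlift hq
  have h1 : Polynomial.eval₂ (Polynomial.aeval (R := kA A) T).toRingHom (red ⟨b, hb⟩) q' = 0 := by
    rw [← Polynomial.eval_map, hq']
    exact hqb
  have hcomp : (modularFunctionFieldFullC (kA A) 1).val.toRingHom.comp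
      (Polynomial.aeval (R := kA A) T).toRingHom =
      (Polynomial.aeval (T : LaurentSeries (kA A))).toRingHom := by
    have h2 : (Polynomial.aeval (R := kA A) (T : LaurentSeries (kA A))) =
        (modularFunctionFieldFullC (kA A) 1).val.comp (Polynomial.aeval T) :=
      Polynomial.aeval_algHom (modularFunctionFieldFullC (kA A) 1).val T
    rw [h2]
    rfl
  have h3 := Polynomial.hom_eval₂ q' (Polynomial.aeval (R := kA A) T).toRingHom
    (modularFunctionFieldFullC (kA A) 1).val.toRingHom (red ⟨b, hb⟩)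
  rw [h1, map_zero, hcomp] at h3
  obtain ⟨r, hr⟩ := pkgpoly_mem_range_aeval (T : LaurentSeries (kA A)) hT
    ((red ⟨b, hb⟩ : FFk A) : LaurentSeries (kA A)) (hTtop _) q' hmonic h3.symm
  rw [Algebra.adjoin_singleton_eq_range_aeval]
  refine ⟨r, ?_⟩
  apply Subtype.ext
  rw [← hr]
  exact (Polynomial.aeval_algHom_apply (modularFunctionFieldFullC (kA A) 1).val T r).symm

/-- reduction of an inverse -/
theorem pkgpoly_red_inv (O : ValuationSubring (FF N)) (red : O →+* FFk A)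
    (hzero : ∀ x : O, red x = 0 ↔ (x : FF N) ∈ O.nonunits)
    (t : FF N) (ht : t ∈ O) (h0 : red ⟨t, ht⟩ ≠ 0) :
    ∃ h : t⁻¹ ∈ O, red ⟨t⁻¹, h⟩ = (red ⟨t, ht⟩)⁻¹ := by
  have h1 : t ∉ O.nonunits := fun h => h0 ((hzero ⟨t, ht⟩).2 h)
  rw [ValuationSubring.mem_nonunits_iff_or, not_or, not_not] at h1
  refine ⟨h1.2, ?_⟩
  have h2 : (⟨t⁻¹, h1.2⟩ : O) * ⟨t, ht⟩ = 1 := Subtype.ext (inv_mul_cancel₀ h1.1)
  have h3 := congrArg red h2
  rw [map_mul, map_one] at h3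
  exact eq_inv_of_mul_eq_one_left h3

variable (hB : PkgBase N A)

include hB in
theorem pkgpoly_hconst₁ (a : A) : ∃ h : algebraMap Kb (FF N) (a : Kb) ∈ pkgO₁ N A,
    pkgRed₁ N A hB ⟨_, h⟩ = algebraMap (kA A) (FFk A) (IsLocalRing.residue A a) :=
  ⟨(pkg_algebraMap_mem_iff₁ N A hB _).2 a.2, pkg_red₁_algebraMap N A hB a _⟩

include hB in
theorem pkgpoly_hconst₂ (a : A) : ∃ h : algebraMap Kb (FF N) (a : Kb) ∈ pkgO₂ N A,
    pkgRed₂ N A hB ⟨_, h⟩ = algebraMap (kA A) (FFk A) (IsLocalRing.residue A a) :=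
  ⟨(pkg_algebraMap_mem_iff₂ N A hB _).2 a.2, pkg_red₂_algebraMap N A hB a _⟩

theorem pkgpoly_Jbar_ne_zero : pkgJbar A ≠ 0 := by
  intro h
  have h1 := Fermat.Agent.S28.kdj_transcendental_jqModC (kA A)
  apply h1
  have h2 : jqModC (kA A) = 0 := by
    rw [← pkg_coe_Jbar, h]
    rfl
  rw [h2]
  exact isAlgebraic_zero

/-- `red₂ j = j̄ ^ N` -/
theorem pkgpoly_red₂_j (hN : N.Prime) (hA : A.LiesOverPrime N) :
    ∃ h : jF N ∈ pkgO₂ N A, pkgRed₂ N A hB ⟨_, h⟩ = pkgJbar A ^ N := by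
  obtain ⟨h, he⟩ := pkg_red₁_jN N A hB hN hA
  have h2 : jF N ∈ pkgO₂ N A := by
    rw [mem_pkgO₂, frickeAut_jF]
    exact h
  refine ⟨h2, ?_⟩
  have h3 : pkgSwap N A ⟨jF N, h2⟩ = ⟨jdF N N dvd_rfl, h⟩ :=
    Subtype.ext ((coe_pkgSwap N A _).trans (frickeAut_jF N))
  show pkgRed₁ N A hB (pkgSwap N A ⟨jF N, h2⟩) = _
  rw [h3, he]

/-- **PKG-poly, chart `j`**: the reductions of an element integral over `A[j]` are polynomials
in `j̄`. -/
theorem pkgpoly_red_mem_j (hN : N.Prime) (hA : A.LiesOverPrime N) (b : FF N)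
    (hint : PkgInt N A (jF N) b) (h₁ : b ∈ pkgO₁ N A) (h₂ : b ∈ pkgO₂ N A) :
    pkgRed₁ N A hB ⟨b, h₁⟩ ∈ Algebra.adjoin (kA A) {pkgJbar A} ∧
      pkgRed₂ N A hB ⟨b, h₂⟩ ∈ Algebra.adjoin (kA A) {pkgJbar A} := by
  have hT : Transcendental (kA A) ((pkgJbar A : FFk A) : LaurentSeries (kA A)) :=
    Fermat.Agent.S28.kdj_transcendental_jqModC (kA A)
  have hTtop : ∀ y : FFk A, (y : LaurentSeries (kA A)) ∈
      (kA A)⟮((pkgJbar A : FFk A) : LaurentSeries (kA A))⟯ := pkgpoly_mem_adjoin_jbar A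
  constructor
  · refine pkgpoly_red_mem_gen N A (pkgJbar A) hT hTtop (pkgO₁ N A) (pkgRed₁ N A hB)
      (pkgpoly_hconst₁ N A hB) (jF N) ?_ b h₁ hint
    obtain ⟨h, he⟩ := pkg_red₁_j N A hB
    exact ⟨h, by rw [he]; exact Algebra.self_mem_adjoin_singleton _ _⟩
  · refine pkgpoly_red_mem_gen N A (pkgJbar A) hT hTtop (pkgO₂ N A) (pkgRed₂ N A hB)
      (pkgpoly_hconst₂ N A hB) (jF N) ?_ b h₂ hint
    obtain ⟨h, he⟩ := pkgpoly_red₂_j N A hB hN hA
    exact ⟨h, by rw [he]; exact Subalgebra.pow_mem _ (Algebra.self_mem_adjoin_singleton _ _) _⟩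

/-- **PKG-poly, chart `1/j`**: the reductions of an element integral over `A[1/j]` are
polynomials in `1/j̄`. -/
theorem pkgpoly_red_mem_jinv (hN : N.Prime) (hA : A.LiesOverPrime N) (b : FF N)
    (hint : PkgInt N A (jF N)⁻¹ b) (h₁ : b ∈ pkgO₁ N A) (h₂ : b ∈ pkgO₂ N A) :
    pkgRed₁ N A hB ⟨b, h₁⟩ ∈ Algebra.adjoin (kA A) {(pkgJbar A)⁻¹} ∧
      pkgRed₂ N A hB ⟨b, h₂⟩ ∈ Algebra.adjoin (kA A) {(pkgJbar A)⁻¹} := by
  have hT : Transcendental (kA A) (((pkgJbar A)⁻¹ : FFk A) : LaurentSeries (kA A)) := by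
    intro h
    apply Fermat.Agent.S28.kdj_transcendental_jqModC (kA A)
    have h2 := h.inv
    rwa [show (((pkgJbar A)⁻¹ : FFk A) : LaurentSeries (kA A)) = (jqModC (kA A))⁻¹ from rfl,
      inv_inv] at h2
  have hTtop : ∀ y : FFk A, (y : LaurentSeries (kA A)) ∈
      (kA A)⟮(((pkgJbar A)⁻¹ : FFk A) : LaurentSeries (kA A))⟯ :=
    pkgpoly_mem_adjoin_jbar_inv A
  constructor
  · refine pkgpoly_red_mem_gen N A (pkgJbar A)⁻¹ hT hTtop (pkgO₁ N A) (pkgRed₁ N A hB)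
      (pkgpoly_hconst₁ N A hB) (jF N)⁻¹ ?_ b h₁ hint
    obtain ⟨h, he⟩ := pkg_red₁_j N A hB
    obtain ⟨h', he'⟩ := pkgpoly_red_inv N A (pkgO₁ N A) (pkgRed₁ N A hB)
      (pkg_red₁_eq_zero_iff N A hB) (jF N) h (by rw [he]; exact pkgpoly_Jbar_ne_zero A)
    exact ⟨h', by rw [he', he]; exact Algebra.self_mem_adjoin_singleton _ _⟩
  · refine pkgpoly_red_mem_gen N A (pkgJbar A)⁻¹ hT hTtop (pkgO₂ N A) (pkgRed₂ N A hB)
      (pkgpoly_hconst₂ N A hB) (jF N)⁻¹ ?_ b h₂ hint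
    obtain ⟨h, he⟩ := pkgpoly_red₂_j N A hB hN hA
    obtain ⟨h', he'⟩ := pkgpoly_red_inv N A (pkgO₂ N A) (pkgRed₂ N A hB)
      (pkg_red₂_eq_zero_iff N A hB) (jF N) h
      (by rw [he]; exact pow_ne_zero _ (pkgpoly_Jbar_ne_zero A))
    refine ⟨h', ?_⟩
    rw [he', he, ← inv_pow]
    exact Subalgebra.pow_mem _ (Algebra.self_mem_adjoin_singleton _ _) _

/-- **PKG-poly** -/
theorem stmtPkgPoly : StmtPkgPoly := fun N _ hN h5 A hA hB f h₁ h₂ hreg =>
  pkgpoly_red_mem_j N A hB hN hA f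
    (stmtPkgTV N hN h5 A hA (jF N) (Or.inl rfl) f h₁ h₂ hreg) h₁ h₂

end Fermat.Agent.S15.LN
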