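import Fermat.Agent.S15.PlanN
import Fermat.Agent.W1.GeoEval

/-!
# S15 block LOCAL-N, piece LN-BASIC (helper5): basic API of the two-component package

* values: `ln_hasValueAt_const/add/mul/smul/inv`, `ln_ord_eq_zero_of_value`;
* `ln_mem_princBar` : `princBar` is the set `IsPrincBar` (which is a subgroup);
* `ln_mem_Lbar` : `Lbar D` is the set of glued pairs of `L(r_{1*}D) × L(r_{2*}D)`;
* `ln_push₁_apply`, `ln_push₂_apply`, `ln_push₁_cross`, `ln_push₂_cross`;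
* `ln_isPrincBar_of_biunit` : for `u ∈ O₁^× ∩ O₂^×` with divisor of smooth type,
  `(r_{1*}, r_{2*})(div u)` is principal on the nodal curve;
* `ln_mem_J0`, `ln_mem_J1`, `ln_J1_le_J0`, `ln_mk_eq_iff`.
(`slope`, `onto`, `glue_unit` and their consequences are in `LNDerived.lean`.)
-/

set_option autoImplicit false

noncomputable section

open AlgebraicCurve Module

namespace Fermat.Agent.S15.LN

open Fermat.Agent.W1 Fermat.Agent.S24

open scoped Classical

/-! ### Values -/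

section Values

variable {K F : Type} [Field K] [Field F] [Algebra K F]

theorem ln_nonunits_add {B : ValuationSubring F} {x y : F} (hx : x ∈ B.nonunits)
    (hy : y ∈ B.nonunits) : x + y ∈ B.nonunits := by
  have h := ge_nonunits_sub hx (ge_nonunits_sub (ge_zero_mem_nonunits B) hy)
  have e : x - (0 - y) = x + y := by ring
  rwa [e] at h

theorem ln_hasValueAt_const (P : Place K F) (a : K) : HasValueAt P (algebraMap K F a) a :=
  hasValueAt_of_eq P (sub_self _)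

theorem ln_hasValueAt_zero (P : Place K F) : HasValueAt P (0 : F) (0 : K) := by
  have h := ln_hasValueAt_const P (0 : K)
  rwa [map_zero] at h

theorem ln_hasValueAt_one (P : Place K F) : HasValueAt P (1 : F) (1 : K) := by
  have h := ln_hasValueAt_const P (1 : K)
  rwa [map_one] at h

theorem ln_hasValueAt_add {P : Place K F} {f g : F} {a b : K} (hf : HasValueAt P f a)
    (hg : HasValueAt P g b) : HasValueAt P (f + g) (a + b) := by
  unfold HasValueAt at *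
  have e : f + g - algebraMap K F (a + b) = (f - algebraMap K F a) + (g - algebraMap K F b) := by
    rw [map_add]; ring
  rw [e]
  exact ln_nonunits_add hf hg

theorem ln_hasValueAt_mul {P : Place K F} {f g : F} {a b : K} (hf : HasValueAt P f a)
    (hg : HasValueAt P g b) : HasValueAt P (f * g) (a * b) := by
  have hgm : g ∈ P.toValuationSubring := HasValueAt.mem P hg
  unfold HasValueAt at *
  have e : f * g - algebraMap K F (a * b) =
      g * (f - algebraMap K F a) + algebraMap K F a * (g - algebraMap K F b) := by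
    rw [map_mul]; ring
  rw [e]
  exact ln_nonunits_add (ge_nonunits_mul_mem hgm hf)
    (ge_nonunits_mul_mem (P.algebraMap_mem' a) hg)

theorem ln_hasValueAt_smul {P : Place K F} {f : F} {a : K} (c : K) (hf : HasValueAt P f a) :
    HasValueAt P (c • f) (c * a) := by
  rw [Algebra.smul_def]
  exact ln_hasValueAt_mul (ln_hasValueAt_const P c) hf

theorem ln_not_nonunit_of_value {P : Place K F} {f : F} {a : K} (hf : HasValueAt P f a)
    (ha : a ≠ 0) : f ∉ P.toValuationSubring.nonunits := by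
  intro h
  have h1 := ge_nonunits_sub h hf
  have e : f - (f - algebraMap K F a) = algebraMap K F a := by ring
  rw [e, ge_algebraMap_mem_nonunits_iff] at h1
  exact ha h1

theorem ln_inv_mem_of_value {P : Place K F} {f : F} {a : K} (hf : HasValueAt P f a)
    (ha : a ≠ 0) : f⁻¹ ∈ P.toValuationSubring := by
  have h := ln_not_nonunit_of_value hf ha
  rw [ValuationSubring.mem_nonunits_iff_or, not_or, not_not] at h
  exact h.2

theorem ln_ne_zero_of_value {P : Place K F} {f : F} {a : K} (hf : HasValueAt P f a)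
    (ha : a ≠ 0) : f ≠ 0 := by
  rintro rfl
  exact ln_not_nonunit_of_value hf ha (ge_zero_mem_nonunits _)

theorem ln_hasValueAt_inv {P : Place K F} {f : F} {a : K} (hf : HasValueAt P f a)
    (ha : a ≠ 0) : HasValueAt P f⁻¹ a⁻¹ := by
  have hf0 := ln_ne_zero_of_value hf ha
  have hinv := ln_inv_mem_of_value hf ha
  have hA : algebraMap K F a ≠ 0 := (map_ne_zero _).mpr ha
  unfold HasValueAt at *
  have e : f⁻¹ - algebraMap K F a⁻¹ =
      (f⁻¹ * algebraMap K F a⁻¹) * ((0 : F) - (f - algebraMap K F a)) := by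
    rw [map_inv₀]
    field_simp
    ring
  rw [e]
  exact ge_nonunits_mul_mem (mul_mem hinv (P.algebraMap_mem' _))
    (ge_nonunits_sub (ge_zero_mem_nonunits _) hf)

theorem ln_ord_eq_zero_of_value {P : Place K F} {f : F} {a : K} (hf : HasValueAt P f a)
    (ha : a ≠ 0) : P.ord f = 0 := by
  have h1 := ge_ord_nonneg_of_mem P (HasValueAt.mem P hf)
  have h2 := ge_ord_nonneg_of_mem P (ln_inv_mem_of_value hf ha)
  rw [Place.ord_inv] at h2
  omega

theorem ln_ord_algebraMap (P : Place K F) {a : K} (ha : a ≠ 0) :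
    P.ord (algebraMap K F a) = 0 :=
  ln_ord_eq_zero_of_value (ln_hasValueAt_const P a) ha

theorem ln_ord_const_mul (P : Place K F) {a : K} (ha : a ≠ 0) (u : F) :
    P.ord (algebraMap K F a * u) = P.ord u := by
  rcases eq_or_ne u 0 with rfl | hu
  · simp
  · rw [Place.ord_mul _ ((map_ne_zero _).mpr ha) hu, ln_ord_algebraMap P ha, zero_add]

end Values

/-! ### The package -/

section TR

variable {K F k F₁ F₂ : Type} [Field K] [Field F] [Algebra K F] [Field k]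
  [Field F₁] [Algebra k F₁] [Field F₂] [Algebra k F₂]
variable {A : ValuationSubring K} (R : TRData K F k F₁ F₂ A)

theorem ln_gluedUnit_glued {f₁ : F₁} {f₂ : F₂} (h : R.GluedUnit f₁ f₂) : R.Glued f₁ f₂ :=
  fun x hx => let ⟨a, _, h1, h2⟩ := h x hx; ⟨a, h1, h2⟩

theorem ln_gluedUnit_one : R.GluedUnit (1 : F₁) (1 : F₂) :=
  fun x _ => ⟨1, one_ne_zero, ln_hasValueAt_one x.1, ln_hasValueAt_one x.2⟩

variable {R} in
theorem ln_gluedUnit_mul {f₁ g₁ : F₁} {f₂ g₂ : F₂} (hf : R.GluedUnit f₁ f₂)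
    (hg : R.GluedUnit g₁ g₂) : R.GluedUnit (f₁ * g₁) (f₂ * g₂) := by
  intro x hx
  obtain ⟨a, ha, h1, h2⟩ := hf x hx
  obtain ⟨b, hb, h3, h4⟩ := hg x hx
  exact ⟨a * b, mul_ne_zero ha hb, ln_hasValueAt_mul h1 h3, ln_hasValueAt_mul h2 h4⟩

variable {R} in
theorem ln_gluedUnit_inv {f₁ : F₁} {f₂ : F₂} (hf : R.GluedUnit f₁ f₂) :
    R.GluedUnit f₁⁻¹ f₂⁻¹ := by
  intro x hx
  obtain ⟨a, ha, h1, h2⟩ := hf x hx
  exact ⟨a⁻¹, inv_ne_zero ha, ln_hasValueAt_inv h1 ha, ln_hasValueAt_inv h2 ha⟩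

theorem ln_glued_zero : R.Glued (0 : F₁) (0 : F₂) :=
  fun x _ => ⟨0, ln_hasValueAt_zero x.1, ln_hasValueAt_zero x.2⟩

variable {R} in
theorem ln_glued_add {f₁ g₁ : F₁} {f₂ g₂ : F₂} (hf : R.Glued f₁ f₂) (hg : R.Glued g₁ g₂) :
    R.Glued (f₁ + g₁) (f₂ + g₂) := by
  intro x hx
  obtain ⟨a, h1, h2⟩ := hf x hx
  obtain ⟨b, h3, h4⟩ := hg x hx
  exact ⟨a + b, ln_hasValueAt_add h1 h3, ln_hasValueAt_add h2 h4⟩

variable {R} in
theorem ln_glued_smul (c : k) {f₁ : F₁} {f₂ : F₂} (hf : R.Glued f₁ f₂) :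
    R.Glued (c • f₁) (c • f₂) := by
  intro x hx
  obtain ⟨a, h1, h2⟩ := hf x hx
  exact ⟨c * a, ln_hasValueAt_smul c h1, ln_hasValueAt_smul c h2⟩

/-! #### `princBar` -/

theorem ln_isPrincBar_zero : R.IsPrincBar 0 :=
  ⟨1, 1, one_ne_zero, one_ne_zero, ln_gluedUnit_one R, fun Q => by simp, fun Q => by simp⟩

variable {R} in
theorem ln_isPrincBar_add {E E' : Divisor k F₁ × Divisor k F₂} (h : R.IsPrincBar E)
    (h' : R.IsPrincBar E') : R.IsPrincBar (E + E') := by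
  obtain ⟨f₁, f₂, hf₁, hf₂, hg, h1, h2⟩ := h
  obtain ⟨g₁, g₂, hg₁, hg₂, hg', h3, h4⟩ := h'
  refine ⟨f₁ * g₁, f₂ * g₂, mul_ne_zero hf₁ hg₁, mul_ne_zero hf₂ hg₂, ln_gluedUnit_mul hg hg',
    fun Q => ?_, fun Q => ?_⟩
  · rw [Prod.fst_add, Finsupp.add_apply, h1, h3, Q.ord_mul hf₁ hg₁]
  · rw [Prod.snd_add, Finsupp.add_apply, h2, h4, Q.ord_mul hf₂ hg₂]

variable {R} in
theorem ln_isPrincBar_neg {E : Divisor k F₁ × Divisor k F₂} (h : R.IsPrincBar E) :
    R.IsPrincBar (-E) := by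
  obtain ⟨f₁, f₂, hf₁, hf₂, hg, h1, h2⟩ := h
  refine ⟨f₁⁻¹, f₂⁻¹, inv_ne_zero hf₁, inv_ne_zero hf₂, ln_gluedUnit_inv hg,
    fun Q => ?_, fun Q => ?_⟩
  · rw [Prod.fst_neg, Finsupp.neg_apply, h1, Q.ord_inv]
  · rw [Prod.snd_neg, Finsupp.neg_apply, h2, Q.ord_inv]

theorem ln_mem_princBar {E : Divisor k F₁ × Divisor k F₂} :
    E ∈ R.princBar ↔ R.IsPrincBar E := by
  constructor
  · intro h
    unfold TRData.princBar at h
    induction h using AddSubgroup.closure_induction with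
    | mem x hx => exact hx
    | zero => exact ln_isPrincBar_zero R
    | add x y _ _ hx hy => exact ln_isPrincBar_add hx hy
    | neg x _ hx => exact ln_isPrincBar_neg hx
  · intro h
    exact AddSubgroup.subset_closure h

/-! #### `Lbar` -/

theorem ln_mem_Lbar {D : Divisor K F} {f : F₁ × F₂} :
    f ∈ R.Lbar D ↔ f.1 ∈ riemannRochSpace (R.push₁ D) ∧
      f.2 ∈ riemannRochSpace (R.push₂ D) ∧ R.Glued f.1 f.2 := by
  constructor
  · intro h
    unfold TRData.Lbar at h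
    induction h using Submodule.span_induction with
    | mem x hx => exact hx
    | zero => exact ⟨Submodule.zero_mem _, Submodule.zero_mem _, ln_glued_zero R⟩
    | add x y _ _ hx hy =>
      exact ⟨Submodule.add_mem _ hx.1 hy.1, Submodule.add_mem _ hx.2.1 hy.2.1,
        ln_glued_add hx.2.2 hy.2.2⟩
    | smul c x _ hx =>
      exact ⟨Submodule.smul_mem _ c hx.1, Submodule.smul_mem _ c hx.2.1,
        ln_glued_smul c hx.2.2⟩
  · intro h
    exact Submodule.subset_span h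

/-! #### The push-forwards -/

theorem ln_pt₁_apply (P : Place K F) (n : ℤ) (Q : Place k F₁) :
    R.pt₁ P n Q = if R.r P = some (Sum.inl Q) then n else 0 := by
  unfold TRData.pt₁
  split
  · rename_i Q' hQ'
    rw [hQ', Finsupp.singleAddHom_apply, Finsupp.single_apply]
    by_cases h : Q' = Q
    · subst h; simp
    · rw [if_neg h, if_neg]
      intro h'
      exact h (Sum.inl.inj (Option.some.inj h'))
  · rename_i h
    rw [if_neg]
    · rfl
    · intro h'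
      exact h Q h'

theorem ln_pt₂_apply (P : Place K F) (n : ℤ) (Q : Place k F₂) :
    R.pt₂ P n Q = if R.r P = some (Sum.inr Q) then n else 0 := by
  unfold TRData.pt₂
  split
  · rename_i Q' hQ'
    rw [hQ', Finsupp.singleAddHom_apply, Finsupp.single_apply]
    by_cases h : Q' = Q
    · subst h; simp
    · rw [if_neg h, if_neg]
      intro h'
      exact h (Sum.inr.inj (Option.some.inj h'))
  · rename_i h
    rw [if_neg]
    · rfl
    · intro h'
      exact h Q h'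

theorem ln_push₁_apply (D : Divisor K F) (Q : Place k F₁) :
    R.push₁ D Q = ∑ P ∈ D.support, if R.r P = some (Sum.inl Q) then D P else 0 := by
  unfold TRData.push₁
  rw [Finsupp.liftAddHom_apply, Finsupp.sum, Finsupp.finsetSum_apply]
  exact Finset.sum_congr rfl fun P _ => ln_pt₁_apply R P (D P) Q

theorem ln_push₂_apply (D : Divisor K F) (Q : Place k F₂) :
    R.push₂ D Q = ∑ P ∈ D.support, if R.r P = some (Sum.inr Q) then D P else 0 := by
  unfold TRData.push₂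
  rw [Finsupp.liftAddHom_apply, Finsupp.sum, Finsupp.finsetSum_apply]
  exact Finset.sum_congr rfl fun P _ => ln_pt₂_apply R P (D P) Q

variable {R} in
theorem ln_push₁_cross (hR : R.IsTR) (D : Divisor K F) {x : Place k F₁ × Place k F₂}
    (hx : x ∈ R.X) : R.push₁ D x.1 = 0 := by
  rw [ln_push₁_apply]
  refine Finset.sum_eq_zero fun P _ => ?_
  rw [if_neg]
  intro h
  exact hR.cross₁ P x.1 h x hx rfl

variable {R} in
theorem ln_push₂_cross (hR : R.IsTR) (D : Divisor K F) {x : Place k F₁ × Place k F₂}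
    (hx : x ∈ R.X) : R.push₂ D x.2 = 0 := by
  rw [ln_push₂_apply]
  refine Finset.sum_eq_zero fun P _ => ?_
  rw [if_neg]
  intro h
  exact hR.cross₂ P x.2 h x hx rfl

/-! #### Units at both Gauss valuations -/

variable {R} in
theorem ln_inv_mem₁ (hR : R.IsTR) {u : F} (h₁ : u ∈ R.O₁) (hu : R.red₁ ⟨u, h₁⟩ ≠ 0) :
    u⁻¹ ∈ R.O₁ := by
  have h := mt (hR.red₁_eq_zero_iff ⟨u, h₁⟩).mpr hu
  rw [ValuationSubring.mem_nonunits_iff_or, not_or, not_not] at h
  exact h.2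

variable {R} in
theorem ln_inv_mem₂ (hR : R.IsTR) {u : F} (h₂ : u ∈ R.O₂) (hu : R.red₂ ⟨u, h₂⟩ ≠ 0) :
    u⁻¹ ∈ R.O₂ := by
  have h := mt (hR.red₂_eq_zero_iff ⟨u, h₂⟩).mpr hu
  rw [ValuationSubring.mem_nonunits_iff_or, not_or, not_not] at h
  exact h.2

variable {R} in
theorem ln_ne_zero₁ (hR : R.IsTR) {u : F} (h₁ : u ∈ R.O₁) (hu : R.red₁ ⟨u, h₁⟩ ≠ 0) :
    u ≠ 0 := by
  rintro rfl
  exact hu ((hR.red₁_eq_zero_iff _).mpr (ge_zero_mem_nonunits _))

variable {R} in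
theorem ln_red₁_inv (hR : R.IsTR) {u : F} (h₁ : u ∈ R.O₁) (hu : R.red₁ ⟨u, h₁⟩ ≠ 0)
    (h₁' : u⁻¹ ∈ R.O₁) : R.red₁ ⟨u⁻¹, h₁'⟩ = (R.red₁ ⟨u, h₁⟩)⁻¹ := by
  have hu0 := ln_ne_zero₁ hR h₁ hu
  have e : (⟨u, h₁⟩ : R.O₁) * ⟨u⁻¹, h₁'⟩ = 1 := Subtype.ext (mul_inv_cancel₀ hu0)
  have h := congrArg R.red₁ e
  rw [map_mul, map_one] at h
  exact eq_inv_of_mul_eq_one_right h

variable {R} in
theorem ln_ne_zero₂ (hR : R.IsTR) {u : F} (h₂ : u ∈ R.O₂) (hu : R.red₂ ⟨u, h₂⟩ ≠ 0) :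
    u ≠ 0 := by
  rintro rfl
  exact hu ((hR.red₂_eq_zero_iff _).mpr (ge_zero_mem_nonunits _))

variable {R} in
theorem ln_red₂_inv (hR : R.IsTR) {u : F} (h₂ : u ∈ R.O₂) (hu : R.red₂ ⟨u, h₂⟩ ≠ 0)
    (h₂' : u⁻¹ ∈ R.O₂) : R.red₂ ⟨u⁻¹, h₂'⟩ = (R.red₂ ⟨u, h₂⟩)⁻¹ := by
  have hu0 := ln_ne_zero₂ hR h₂ hu
  have e : (⟨u, h₂⟩ : R.O₂) * ⟨u⁻¹, h₂'⟩ = 1 := Subtype.ext (mul_inv_cancel₀ hu0)
  have h := congrArg R.red₂ e
  rw [map_mul, map_one] at h
  exact eq_inv_of_mul_eq_one_right h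

variable {R} in
/-- a unit at both Gauss valuations whose zeros and poles are of smooth type reduces to a
glued unit -/
theorem ln_gluedUnit_of_biunit (hR : R.IsTR) {u : F} (h₁ : u ∈ R.O₁) (h₂ : u ∈ R.O₂)
    (hu₁ : R.red₁ ⟨u, h₁⟩ ≠ 0) (hu₂ : R.red₂ ⟨u, h₂⟩ ≠ 0)
    (hsm : ∀ P : Place K F, P.ord u ≠ 0 → (R.r P).isSome) :
    R.GluedUnit (R.red₁ ⟨u, h₁⟩) (R.red₂ ⟨u, h₂⟩) := by
  intro x hx
  have hi₁ := ln_inv_mem₁ hR h₁ hu₁
  have hi₂ := ln_inv_mem₂ hR h₂ hu₂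
  obtain ⟨a, ha1, ha2⟩ := hR.glue u h₁ h₂ (fun P hP => hsm P (ne_of_lt hP)) x hx
  obtain ⟨b, hb1, hb2⟩ := hR.glue u⁻¹ hi₁ hi₂ (fun P hP => hsm P (by
    rw [Place.ord_inv] at hP
    intro h0
    rw [h0] at hP
    exact absurd hP (by simp))) x hx
  rw [ln_red₁_inv hR h₁ hu₁] at hb1
  have hprod := ln_hasValueAt_mul ha1 hb1
  rw [mul_inv_cancel₀ hu₁] at hprod
  have hab : a * b = 1 := hasValueAt_unique x.1 hprod (ln_hasValueAt_one x.1)
  exact ⟨a, left_ne_zero_of_mul_eq_one hab, ha1, ha2⟩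

variable {R} in
/-- **`r_*(div u) = div(ū)` on the nodal curve**, for `u` a unit at both Gauss valuations whose
divisor is of smooth type -/
theorem ln_isPrincBar_of_biunit (hR : R.IsTR) {u : F} (h₁ : u ∈ R.O₁) (h₂ : u ∈ R.O₂)
    (hu₁ : R.red₁ ⟨u, h₁⟩ ≠ 0) (hu₂ : R.red₂ ⟨u, h₂⟩ ≠ 0) (D : Divisor K F)
    (hD : ∀ P, D P = P.ord u) (hsm : D ∈ R.smDiv) :
    R.IsPrincBar (R.push₁ D, R.push₂ D) := by
  have hg := ln_gluedUnit_of_biunit hR h₁ h₂ hu₁ hu₂ (fun P hP => hsm P (by rwa [hD]))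
  refine ⟨R.red₁ ⟨u, h₁⟩, R.red₂ ⟨u, h₂⟩, hu₁, hu₂, hg, fun Q => ?_, fun Q => ?_⟩
  · by_cases hQ : ∀ x ∈ R.X, x.1 ≠ Q
    · exact hR.r_div₁ ⟨u, h₁⟩ hu₁ D hD Q hQ
    · push Not at hQ
      obtain ⟨x, hx, rfl⟩ := hQ
      obtain ⟨a, ha, h1, -⟩ := hg x hx
      show R.push₁ D x.1 = _
      rw [ln_push₁_cross hR D hx, ln_ord_eq_zero_of_value h1 ha]
  · by_cases hQ : ∀ x ∈ R.X, x.2 ≠ Q
    · exact hR.r_div₂ ⟨u, h₂⟩ hu₂ D hD Q hQ
    · push Not at hQ
      obtain ⟨x, hx, rfl⟩ := hQ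
      obtain ⟨a, ha, -, h2⟩ := hg x hx
      show R.push₂ D x.2 = _
      rw [ln_push₂_cross hR D hx, ln_ord_eq_zero_of_value h2 ha]

/-! #### `div00`, `div1`, `J0`, `J1` -/

theorem ln_mem_div00 {D : Divisor K F} :
    D ∈ R.div00 ↔ D ∈ R.smDiv ∧ Divisor.degree (R.push₁ D) = 0 ∧
      Divisor.degree (R.push₂ D) = 0 := by
  unfold TRData.div00
  rw [AddSubgroup.mem_inf, AddSubgroup.mem_inf, AddMonoidHom.mem_ker, AddMonoidHom.mem_ker,
    AddMonoidHom.comp_apply, AddMonoidHom.comp_apply, and_assoc]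

theorem ln_mem_div1 {D : Divisor K F} :
    D ∈ R.div1 ↔ D ∈ R.div00 ∧ R.IsPrincBar (R.push₁ D, R.push₂ D) := by
  unfold TRData.div1
  rw [AddSubgroup.mem_inf, AddSubgroup.mem_comap, ln_mem_princBar]
  rfl

theorem ln_div1_le_div00 : R.div1 ≤ R.div00 := fun _ h => ((ln_mem_div1 R).mp h).1

theorem ln_mem_J0 {x : Pic0 K F} :
    x ∈ R.J0 ↔ ∃ D : Divisor.degZero (K := K) (F := F),
      (D : Divisor K F) ∈ R.div00 ∧ Pic0.mk D = x := by
  unfold TRData.J0
  rw [AddSubgroup.mem_map]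
  rfl

theorem ln_mem_J1 {x : Pic0 K F} :
    x ∈ R.J1 ↔ ∃ D : Divisor.degZero (K := K) (F := F),
      (D : Divisor K F) ∈ R.div1 ∧ Pic0.mk D = x := by
  unfold TRData.J1
  rw [AddSubgroup.mem_map]
  rfl

theorem ln_J1_le_J0 : R.J1 ≤ R.J0 := by
  intro x hx
  obtain ⟨D, hD, rfl⟩ := (ln_mem_J1 R).mp hx
  exact (ln_mem_J0 R).mpr ⟨D, ln_div1_le_div00 R hD, rfl⟩

theorem ln_mk_eq_iff {D D' : Divisor.degZero (K := K) (F := F)} :
    Pic0.mk D = Pic0.mk D' ↔
      ((D' : Divisor K F) - (D : Divisor K F)) ∈ Divisor.principal (K := K) (F := F) := by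
  unfold Pic0.mk
  rw [QuotientAddGroup.eq, AddSubgroup.mem_addSubgroupOf]
  have e : ((-D + D' : Divisor.degZero (K := K) (F := F)) : Divisor K F) =
      (D' : Divisor K F) - (D : Divisor K F) := by
    rw [AddSubgroup.coe_add, AddSubgroup.coe_neg]; abel
  rw [e]

end TR

end Fermat.Agent.S15.LN
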