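import Fermat.Agent.S24.PlaceDict
import Fermat.Agent.S24.PolySetup
import Fermat.Agent.W1.PlanGeo

/-!
# S15 / LOCAL-N, piece PKG-type, part A: the places of a rational function field `k(t)`

`F = k(t)` (`t` transcendental, `k⟮t⟯ = ⊤`).  A place of `F` at which `t` is regular is determined
by the value of `t`, and every value occurs.
-/

set_option autoImplicit false

noncomputable section

open AlgebraicCurve Polynomial IsDedekindDomain

namespace Fermat.Agent.S15.LN

open Fermat.Agent.W1 Fermat.Agent.S24

variable {k F : Type} [Field k] [Field F] [Algebra k F]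

/-- `t` is a coordinate of the rational function field `F = k(t)` -/
structure PkgIsCoord (k : Type) {F : Type} [Field k] [Field F] [Algebra k F] (t : F) : Prop where
  transc : Transcendental k t
  top : IntermediateField.adjoin k {t} = ⊤

variable {t : F}

theorem pkgrp_faithful (ht : PkgIsCoord k t) :
    letI := polyAlgebra (K := k) t
    FaithfulSMul k[X] F := by
  letI := polyAlgebra (K := k) t
  refine (faithfulSMul_iff_algebraMap_injective k[X] F).mpr ?_
  intro p q hpq
  exact (transcendental_iff_injective.mp ht.transc) hpq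

theorem pkgrp_isFractionRing (ht : PkgIsCoord k t) :
    letI := polyAlgebra (K := k) t
    IsFractionRing k[X] F := by
  letI := polyAlgebra (K := k) t
  haveI := pkgrp_faithful ht
  refine IsFractionRing.of_field k[X] F fun z => ?_
  have hz : z ∈ IntermediateField.adjoin k {t} := by rw [ht.top]; trivial
  obtain ⟨r, s, h⟩ := (IntermediateField.mem_adjoin_simple_iff k z).mp hz
  exact ⟨r, s, h⟩

theorem pkgrp_hK (t : F) :
    letI := polyAlgebra (K := k) t
    ∀ a : k, ∃ r : k[X], algebraMap k[X] F r = algebraMap k F a := by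
  letI := polyAlgebra (K := k) t
  intro a
  refine ⟨C a, ?_⟩
  rw [polyAlgebra_algebraMap_apply, aeval_C]

/-- the prime `(X - a)` of `k[X]` -/
def pkgrpPrime (a : k) : HeightOneSpectrum k[X] where
  asIdeal := Ideal.span {X - C a}
  isPrime := (Ideal.span_singleton_prime (X_sub_C_ne_zero a)).mpr (prime_X_sub_C a)
  ne_bot := by
    rw [Ne, Ideal.span_singleton_eq_bot]
    exact X_sub_C_ne_zero a

theorem pkgrp_hasValueAt_placeOfPrime (ht : PkgIsCoord k t) (a : k) :
    letI := polyAlgebra (K := k) t
    haveI := pkgrp_isFractionRing ht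
    HasValueAt (placeOfPrime (K := k) (F := F) (pkgrp_hK t) (pkgrpPrime a)) t a := by
  letI := polyAlgebra (K := k) t
  haveI := pkgrp_isFractionRing ht
  show t - algebraMap k F a ∈ ((pkgrpPrime a).valuation F).valuationSubring.nonunits
  have h1 : t - algebraMap k F a = algebraMap k[X] F (X - C a) := by
    rw [polyAlgebra_algebraMap_apply, map_sub, aeval_X, aeval_C]
  rw [h1, ValuationSubring.mem_nonunits_iff]
  have h2 := ((pkgrpPrime a).valuation_lt_one_iff_mem (K := F) (X - C a)).mpr
    (Ideal.subset_span rfl)
  exact ((Valuation.isEquiv_valuation_valuationSubring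
    ((pkgrpPrime a).valuation F)).lt_one_iff_lt_one).mp h2

/-- every value of `t` occurs -/
theorem pkgrp_place_exists (ht : PkgIsCoord k t) (a : k) : ∃ Q : Place k F, HasValueAt Q t a := by
  letI := polyAlgebra (K := k) t
  haveI := pkgrp_isFractionRing ht
  exact ⟨_, pkgrp_hasValueAt_placeOfPrime ht a⟩

theorem pkgrp_mem_of_value {Q : Place k F} {f : F} {a : k} (h : HasValueAt Q f a) :
    f ∈ Q.toValuationSubring := by
  have h1 : f - algebraMap k F a ∈ Q.toValuationSubring :=
    Q.toValuationSubring.nonunits_subset h
  have h2 := Q.toValuationSubring.add_mem _ _ h1 (Q.algebraMap_mem' a)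
  rwa [sub_add_cancel] at h2

theorem pkgrp_aeval_mem {Q : Place k F} (ht : t ∈ Q.toValuationSubring) (p : k[X]) :
    aeval t p ∈ Q.toValuationSubring := by
  induction p using Polynomial.induction_on' with
  | add p q hp hq => rw [map_add]; exact Q.toValuationSubring.add_mem _ _ hp hq
  | monomial n a =>
    rw [aeval_monomial]
    exact Q.toValuationSubring.mul_mem _ _ (Q.algebraMap_mem' a)
      (Q.toValuationSubring.pow_mem ht n)

/-- a place at which `t` is regular is determined by the value of `t` -/
theorem pkgrp_place_ext (ht : PkgIsCoord k t) (Q Q' : Place k F) (a : k)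
    (hQ : HasValueAt Q t a) (hQ' : HasValueAt Q' t a) : Q = Q' := by
  letI := polyAlgebra (K := k) t
  haveI := pkgrp_isFractionRing ht
  have key : ∀ Q : Place k F, HasValueAt Q t a →
      Q = placeOfPrime (K := k) (F := F) (pkgrp_hK t) (pkgrpPrime a) := by
    intro Q hQ
    obtain ⟨w, hw⟩ := exists_placeOfPrime_eq (K := k) (F := F) (R := k[X]) (pkgrp_hK t) Q
      (fun r => pkgrp_aeval_mem (pkgrp_mem_of_value hQ) r)
    rw [← hw]
    congr 1
    -- `X - a ∈ w`
    have h1 : t - algebraMap k F a = algebraMap k[X] F (X - C a) := by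
      rw [polyAlgebra_algebraMap_apply, map_sub, aeval_X, aeval_C]
    have h2 : t - algebraMap k F a ∈ (w.valuation F).valuationSubring.nonunits := by
      have := hQ
      rw [← hw] at this
      exact this
    rw [h1, ValuationSubring.mem_nonunits_iff] at h2
    have h3 : (X - C a : k[X]) ∈ w.asIdeal :=
      (w.valuation_lt_one_iff_mem (K := F) (X - C a)).mp
        (((Valuation.isEquiv_valuation_valuationSubring (w.valuation F)).lt_one_iff_lt_one).mpr h2)
    have h4 : (pkgrpPrime a).asIdeal ≤ w.asIdeal := by
      show Ideal.span {X - C a} ≤ w.asIdeal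
      rw [Ideal.span_le, Set.singleton_subset_iff]
      exact h3
    have hmax : (pkgrpPrime a).asIdeal.IsMaximal := (pkgrpPrime a).isMaximal
    have h5 : (pkgrpPrime a).asIdeal = w.asIdeal :=
      hmax.eq_of_le w.isPrime.ne_top h4
    exact (HeightOneSpectrum.ext h5).symm
  rw [key Q hQ, key Q' hQ']

end Fermat.Agent.S15.LN
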