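import Fermat.Agent.S15.PlanPKG
import Fermat.Agent.S15.PkgRatPlace
import Fermat.Agent.S15.LNBasic
import Fermat.Agent.S15.OggDiv
import Fermat.Agent.ES.HModular
import Fermat.Agent.W1.GeoEval

/-!
# S15 / LOCAL-N, piece PKG-type: bookkeeping of the types of the places (helper25)

`stmtPkgType : StmtPkgType`: the reduction of a place of type 1 exists and is unique, the two
types exclude each other, the map `pkgR` is characterised by `PkgRel₁`, the cusps, and the places
of `k(j̄)` are the values of `j̄` and the pole of `j̄`.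
-/

set_option autoImplicit false
set_option linter.unusedSectionVars false

noncomputable section

open AlgebraicCurve Module ModularCurve

namespace Fermat.Agent.S15.LN

open Fermat.Agent.W1 Fermat.Agent.S24 Fermat.Agent.S15 Fermat.Agent.ES.M Fermat.Agent.DEU
  Fermat.Agent.INJ

/-! ## The coordinates `j̄` and `1 / j̄` of `k(j̄)` -/

section Coord

variable (E : Type) [Field E]

theorem pkgty_coe_aeval (M : ℕ) (x : ↥(modularFunctionFieldFullC E M)) (p : Polynomial E) :
    ((Polynomial.aeval x p : ↥(modularFunctionFieldFullC E M)) : LaurentSeries E) =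
      Polynomial.aeval (x : LaurentSeries E) p :=
  (Polynomial.aeval_algHom_apply (modularFunctionFieldFullC E M).val x p).symm

theorem pkgty_top : IntermediateField.adjoin E {bgJ E 1} = ⊤ := by
  rw [eq_top_iff]
  intro z _
  have hz : (z : LaurentSeries E) ∈ IntermediateField.adjoin E {jqModC E} := by
    have h : ∀ y : LaurentSeries E, y ∈ modularFunctionFieldFullC E 1 →
        y ∈ IntermediateField.adjoin E {jqModC E} := by
      intro y hy
      rw [Fermat.Agent.S28.UB.full_one] at hy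
      exact hy
    exact h _ z.2
  obtain ⟨r, s, h⟩ := (IntermediateField.mem_adjoin_simple_iff E _).mp hz
  refine (IntermediateField.mem_adjoin_simple_iff E z).mpr ⟨r, s, ?_⟩
  apply Subtype.ext
  rw [h]
  push_cast
  rw [pkgty_coe_aeval, pkgty_coe_aeval]
  rfl

theorem pkgty_coord : PkgIsCoord E (bgJ E 1) :=
  ⟨bgConst_transcendental_bgJ E 1, pkgty_top E⟩

theorem pkgty_coord_inv {F : Type} [Field F] [Algebra E F] {t : F} (ht : PkgIsCoord E t) :
    PkgIsCoord E t⁻¹ := by
  refine ⟨fun h => ht.transc ?_, ?_⟩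
  · have := h.inv
    rwa [inv_inv] at this
  · rw [eq_top_iff, ← ht.top, IntermediateField.adjoin_le_iff, Set.singleton_subset_iff]
    have h1 : t⁻¹ ∈ IntermediateField.adjoin E {t⁻¹} :=
      IntermediateField.subset_adjoin E _ rfl
    have h2 := (IntermediateField.adjoin E {t⁻¹}).inv_mem h1
    rwa [inv_inv] at h2

end Coord

variable (N : ℕ) [NeZero N] (A : ValuationSubring Kb)

theorem pkgty_coordJ : PkgIsCoord (kA A) (pkgJbar A) := pkgty_coord (kA A)

theorem pkgty_Jbar_ne_zero : pkgJbar A ≠ 0 := fun h =>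
  (pkgty_coordJ A).transc (h ▸ isAlgebraic_zero)

/-! ## The places of `k(j̄)` -/

theorem pkgty_place_exists (a : kA A) :
    ∃ Q : Place (kA A) (FFk A), HasValueAt Q (pkgJbar A) a :=
  pkgrp_place_exists (pkgty_coordJ A) a

theorem pkgty_place_ext (Q Q' : Place (kA A) (FFk A)) (a : kA A)
    (h : HasValueAt Q (pkgJbar A) a) (h' : HasValueAt Q' (pkgJbar A) a) : Q = Q' :=
  pkgrp_place_ext (pkgty_coordJ A) Q Q' a h h'

theorem pkgty_place_exists_inv (a : kA A) :
    ∃ Q : Place (kA A) (FFk A), HasValueAt Q (pkgJbar A)⁻¹ a :=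
  pkgrp_place_exists (pkgty_coord_inv (kA A) (pkgty_coordJ A)) a

theorem pkgty_place_ext_inv (Q Q' : Place (kA A) (FFk A)) (a : kA A)
    (h : HasValueAt Q (pkgJbar A)⁻¹ a) (h' : HasValueAt Q' (pkgJbar A)⁻¹ a) : Q = Q' :=
  pkgrp_place_ext (pkgty_coord_inv (kA A) (pkgty_coordJ A)) Q Q' a h h'

section Gen

variable {K F : Type} [Field K] [Field F] [Algebra K F]

/-- a pole of `t` is a zero of `1 / t` -/
theorem pkgty_value_inv_of_pole {P : Place K F} {t : F} (h : P.ord t < 0) :
    HasValueAt P t⁻¹ 0 := by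
  have ht0 : t ≠ 0 := by
    rintro rfl
    simp at h
  have h1 : t⁻¹ - algebraMap K F 0 ≠ 0 := by
    rw [map_zero, sub_zero]
    exact inv_ne_zero ht0
  rw [hasValueAt_iff_ord_pos P h1, map_zero, sub_zero, Place.ord_inv]
  omega

theorem pkgty_pole_of_value_inv {P : Place K F} {t : F} (ht0 : t ≠ 0)
    (h : HasValueAt P t⁻¹ 0) : P.ord t < 0 := by
  have h1 : t⁻¹ - algebraMap K F 0 ≠ 0 := by
    rw [map_zero, sub_zero]
    exact inv_ne_zero ht0
  rw [hasValueAt_iff_ord_pos P h1, map_zero, sub_zero, Place.ord_inv] at h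
  omega

theorem pkgty_value_zero_of_ord_pos {P : Place K F} {t : F} (h : 0 < P.ord t) :
    HasValueAt P t 0 := by
  have ht0 : t ≠ 0 := by
    rintro rfl
    simp at h
  have h1 : t - algebraMap K F 0 ≠ 0 := by
    rw [map_zero, sub_zero]
    exact ht0
  rw [hasValueAt_iff_ord_pos P h1, map_zero, sub_zero]
  exact h

/-- regular or the inverse vanishes -/
theorem pkgty_mem_or_pole (P : Place K F) (t : F) :
    t ∈ P.toValuationSubring ∨ P.ord t < 0 := by
  by_cases h : P.ord t < 0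
  · exact Or.inr h
  · exact Or.inl (ge_mem_of_not_ord_neg P h)

end Gen

theorem pkgty_place_ext_inf (Q Q' : Place (kA A) (FFk A))
    (h : Q.ord (pkgJbar A) < 0) (h' : Q'.ord (pkgJbar A) < 0) : Q = Q' :=
  pkgty_place_ext_inv A Q Q' 0 (pkgty_value_inv_of_pole h) (pkgty_value_inv_of_pole h')

/-! ## The action of `w_N` on values -/

theorem pkgty_hasValueAt_fricke (P : Place Kb (FF N)) (f : FF N) (a : Kb) :
    HasValueAt (frickeAut N • P) f a ↔ HasValueAt P (frickeAut N f) a := by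
  by_cases h0 : f - algebraMap Kb (FF N) a = 0
  · have h0' : frickeAut N f - algebraMap Kb (FF N) a = 0 := by
      have := congrArg (frickeAut N) h0
      rwa [map_sub, AlgEquiv.commutes, map_zero] at this
    exact ⟨fun _ => hasValueAt_of_eq P h0', fun _ => hasValueAt_of_eq _ h0⟩
  · have h0' : frickeAut N f - algebraMap Kb (FF N) a ≠ 0 := by
      intro h
      apply h0
      have h1 : frickeAut N (f - algebraMap Kb (FF N) a) = 0 := by
        rw [map_sub, AlgEquiv.commutes]
        exact h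
      exact (map_eq_zero_iff _ (frickeAut N).injective).mp h1
    rw [hasValueAt_iff_ord_pos _ h0, hasValueAt_iff_ord_pos _ h0', fr_ord_frickeAut, map_sub,
      AlgEquiv.commutes]

/-! ## The fields of `PkgIsType` -/

theorem pkgty_exists_value (P : Place Kb (FF N)) {f : FF N} (hf : f ∈ P.toValuationSubring) :
    ∃ a : Kb, HasValueAt P f a :=
  ge_exists_value P (Fermat.Agent.ES.H.residue_bijective_FF N P) hf

theorem pkgty_exists_rel (P : Place Kb (FF N)) (hP : PkgType₁ N A P) :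
    ∃ Q, PkgRel₁ N A P Q := by
  rcases pkgty_mem_or_pole P (jF N) with h | h
  · obtain ⟨c, hc⟩ := pkgty_exists_value N P h
    by_cases hcA : c ∈ A
    · obtain ⟨Q, hQ⟩ := pkgty_place_exists A (IsLocalRing.residue A ⟨c, hcA⟩)
      exact ⟨Q, hP, Or.inl ⟨⟨c, hcA⟩, hc, hQ⟩⟩
    · have hc0 : c ≠ 0 := fun h0 => hcA (h0 ▸ A.zero_mem)
      have hci : c⁻¹ ∈ A := (A.mem_or_inv_mem c).resolve_left hcA
      obtain ⟨Q, hQ⟩ := pkgty_place_exists_inv A (IsLocalRing.residue A ⟨c⁻¹, hci⟩)
      exact ⟨Q, hP, Or.inr ⟨⟨c⁻¹, hci⟩, ln_hasValueAt_inv hc hc0, hQ⟩⟩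
  · obtain ⟨Q, hQ⟩ := pkgty_place_exists_inv A (IsLocalRing.residue A 0)
    refine ⟨Q, hP, Or.inr ⟨0, ?_, hQ⟩⟩
    exact pkgty_value_inv_of_pole h

theorem pkgty_rel_unique (P : Place Kb (FF N)) (Q Q' : Place (kA A) (FFk A))
    (h : PkgRel₁ N A P Q) (h' : PkgRel₁ N A P Q') : Q = Q' := by
  have hj0 : jF N ≠ 0 := fr_jF_ne_zero
  -- the mixed case
  have mixed : ∀ (Q Q' : Place (kA A) (FFk A)) (a a' : A), HasValueAt P (jF N) (a : Kb) →
      HasValueAt Q (pkgJbar A) (IsLocalRing.residue A a) →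
      HasValueAt P (jF N)⁻¹ (a' : Kb) →
      HasValueAt Q' (pkgJbar A)⁻¹ (IsLocalRing.residue A a') → Q = Q' := by
    intro Q Q' a a' h1 h2 h3 h4
    have h5 := ln_hasValueAt_mul h1 h3
    rw [mul_inv_cancel₀ hj0] at h5
    have h6 : (a : Kb) * (a' : Kb) = 1 := hasValueAt_unique P h5 (ln_hasValueAt_one P)
    have h7 : a * a' = 1 := Subtype.ext h6
    have h8 : IsLocalRing.residue A a * IsLocalRing.residue A a' = 1 := by
      rw [← map_mul, h7, map_one]
    have h9 : IsLocalRing.residue A a' ≠ 0 := right_ne_zero_of_mul_eq_one h8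
    have h10 := ln_hasValueAt_inv h4 h9
    rw [inv_inv, ← eq_inv_of_mul_eq_one_left h8] at h10
    exact pkgty_place_ext A Q Q' _ h2 h10
  rcases h.2 with ⟨a, h1, h2⟩ | ⟨a, h1, h2⟩ <;> rcases h'.2 with ⟨a', h3, h4⟩ | ⟨a', h3, h4⟩
  · have e : a = a' := Subtype.ext (hasValueAt_unique P h1 h3)
    subst e
    exact pkgty_place_ext A Q Q' _ h2 h4
  · exact mixed Q Q' a a' h1 h2 h3 h4
  · exact (mixed Q' Q a' a h3 h4 h1 h2).symm
  · have e : a = a' := Subtype.ext (hasValueAt_unique P h1 h3)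
    subst e
    exact pkgty_place_ext_inv A Q Q' _ h2 h4

theorem pkgty_not_both (hA : A.LiesOverPrime N) (P : Place Kb (FF N))
    (hP : PkgType₁ N A P) : ¬ PkgType₁ N A (frickeAut N • P) := by
  rintro ⟨b, hbA, hb⟩
  obtain ⟨a, haA, ha⟩ := hP
  rw [pkgty_hasValueAt_fricke] at hb
  have h1 := ln_hasValueAt_mul hb ha
  rw [ogg_fricke] at h1
  have h2 : b * a = ((N : Kb) ^ 12)⁻¹ := hasValueAt_unique P h1 (ln_hasValueAt_const P _)
  have hN0 : ((N : Kb) ^ 12) ≠ 0 := pow_ne_zero _ (Nat.cast_ne_zero.mpr (NeZero.ne N))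
  have h3 : (N : Kb) ^ 12 * (b * a) = 1 := by
    rw [h2, mul_inv_cancel₀ hN0]
  have hmem : (N : Kb) ^ 12 ∈ A.nonunits := by
    rw [ValuationSubring.mem_nonunits_iff, map_pow]
    exact pow_lt_one₀ zero_le' ((ValuationSubring.mem_nonunits_iff A).mp hA) (by norm_num)
  have h4 : (N : Kb) ^ 12 * (b * a) ∈ A.nonunits := by
    rw [ValuationSubring.mem_nonunits_iff, map_mul]
    have hba : A.valuation (b * a) ≤ 1 :=
      (A.valuation_le_one_iff _).mpr (A.mul_mem _ _ hbA haA)
    calc A.valuation ((N : Kb) ^ 12) * A.valuation (b * a)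
        ≤ A.valuation ((N : Kb) ^ 12) * 1 := by gcongr
      _ = A.valuation ((N : Kb) ^ 12) := mul_one _
      _ < 1 := (ValuationSubring.mem_nonunits_iff A).mp hmem
  rw [h3, ValuationSubring.mem_nonunits_iff, map_one] at h4
  exact lt_irrefl _ h4

theorem pkgty_r_inl_iff (P : Place Kb (FF N)) (Q : Place (kA A) (FFk A)) :
    pkgR N A P = some (Sum.inl Q) ↔ PkgRel₁ N A P Q := by
  classical
  constructor
  · intro h
    unfold pkgR at h
    split_ifs at h with h1 h2
    · have e : h1.choose = Q := Sum.inl.inj (Option.some.inj h)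
      rw [← e]
      exact h1.choose_spec
    · exact absurd (Option.some.inj h) (by simp)
  · intro h
    have h1 : ∃ Q, PkgRel₁ N A P Q := ⟨Q, h⟩
    unfold pkgR
    rw [dif_pos h1, pkgty_rel_unique N A P _ _ h1.choose_spec h]

theorem pkgty_r_inr_iff (hA : A.LiesOverPrime N) (P : Place Kb (FF N))
    (Q : Place (kA A) (FFk A)) :
    pkgR N A P = some (Sum.inr Q) ↔ PkgRel₁ N A (frickeAut N • P) Q := by
  classical
  constructor
  · intro h
    unfold pkgR at h
    split_ifs at h with h1 h2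
    · exact absurd (Option.some.inj h) (by simp)
    · have e : h2.choose = Q := Sum.inr.inj (Option.some.inj h)
      rw [← e]
      exact h2.choose_spec
  · intro h
    have h1 : ¬ ∃ Q, PkgRel₁ N A P Q := by
      rintro ⟨Q', hQ'⟩
      exact pkgty_not_both N A hA P hQ'.1 h.1
    have h2 : ∃ Q, PkgRel₁ N A (frickeAut N • P) Q := ⟨Q, h⟩
    unfold pkgR
    rw [dif_neg h1, dif_pos h2, pkgty_rel_unique N A _ _ _ h2.choose_spec h]

theorem pkgty_rel_cuspInf (hN : 2 ≤ N) :
    ∃ Q, PkgRel₁ N A (S15.cuspInf N) Q ∧ Q.ord (pkgJbar A) < 0 := by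
  obtain ⟨Q, hQ⟩ := pkgty_place_exists_inv A (IsLocalRing.residue A 0)
  rw [map_zero] at hQ
  refine ⟨Q, ⟨⟨0, A.zero_mem, ?_⟩, Or.inr ⟨0, ?_, ?_⟩⟩, ?_⟩
  · apply pkgty_value_zero_of_ord_pos
    rw [ogg_ord_cuspInf]
    have : (2 : ℤ) ≤ N := by exact_mod_cast hN
    omega
  · apply pkgty_value_inv_of_pole
    rw [cuspInf_ord_jF]
    norm_num
  · rw [map_zero]
    exact hQ
  · exact pkgty_pole_of_value_inv (pkgty_Jbar_ne_zero A) hQ

/-- **PKG-type** -/
theorem pkgty_isType (hN : N.Prime) (hA : A.LiesOverPrime N) : PkgIsType N A where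
  exists_rel := pkgty_exists_rel N A
  rel_unique := pkgty_rel_unique N A
  not_both := pkgty_not_both N A hA
  r_inl_iff := pkgty_r_inl_iff N A
  r_inr_iff := pkgty_r_inr_iff N A hA
  cuspInf := by
    obtain ⟨Q, hQ, hord⟩ := pkgty_rel_cuspInf N A hN.two_le
    exact ⟨Q, (pkgty_r_inl_iff N A _ _).mpr hQ, hord⟩
  cuspZero := by
    obtain ⟨Q, hQ, hord⟩ := pkgty_rel_cuspInf N A hN.two_le
    refine ⟨Q, (pkgty_r_inr_iff N A hA _ _).mpr ?_, hord⟩
    rw [fricke_smul_cuspZero]
    exact hQ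
  place_ext := pkgty_place_ext A
  place_exists := pkgty_place_exists A
  place_ext_inf := pkgty_place_ext_inf A

/-- **PKG-type** -/
theorem stmtPkgType : StmtPkgType := fun N _ hN _ A hA => pkgty_isType N A hN hA

end Fermat.Agent.S15.LN
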