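import Fermat.Agent.S15.PkgCrossG
import Fermat.Agent.S15.PkgCardGoursat
import Fermat.Agent.S15.PkgType
import Fermat.Agent.S15.PkgPoly

/-!
# S15 / LN-PKG, piece PKG-cross (helper8), part 3: the final form

With `stmtPkgType` (helper25), `stmtPkgPoly` (helper10) and `stmtPkgGoursat` (helper89) landed:

* `pkgcr_poly : PkgcPoly N A` (PKG-poly in Gauss form, from `stmtPkgPoly`);
* `pkgcr_exists_goursat : ∃ S, PkgIsGoursat N A S`, unconditional;
* `pkgcr_isFrob : PkgIsFrob N A hB`, unconditional (the crossing set is finite and symmetric);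
* **`stmtPkgCross_of_ev : StmtPkgEv → StmtPkgCross`**.
-/

set_option autoImplicit false
set_option linter.unusedSectionVars false

noncomputable section

open AlgebraicCurve Module ModularCurve Polynomial

namespace Fermat.Agent.S15.LN

open Fermat.Agent.W1 Fermat.Agent.S24 Fermat.Agent.S15 Fermat.Agent.ES.M Fermat.Agent.DEU
  Fermat.Agent.INJ Fermat.Agent.S28

variable {N : ℕ} [NeZero N] {A : ValuationSubring Kb}

/-- an element of `k[j̄] ⊂ k(j̄)` is a polynomial in `j̄`, as a Laurent series -/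
theorem pkgcr_exists_aeval {y : FFk A} (hy : y ∈ Algebra.adjoin (kA A) {pkgJbar A}) :
    ∃ P : (kA A)[X], Polynomial.aeval (jqModC (kA A)) P = (y : LaurentSeries (kA A)) := by
  rw [Algebra.adjoin_singleton_eq_range_aeval] at hy
  obtain ⟨P, hP⟩ := hy
  refine ⟨P, ?_⟩
  rw [← pkgcr_coe_aeval, ← hP]
  rfl

/-- **PKG-poly in Gauss form** -/
theorem pkgcr_poly (hN : N.Prime) (h5 : 5 ≤ N) (hA : A.LiesOverPrime N) : PkgcPoly N A := by
  intro f u v hf
  have hB : PkgBase N A := pkg_base N A hN hA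
  obtain ⟨h₁, e₁⟩ := pkg_red₁_of_gaussRed N A hB hf.2.1
  obtain ⟨h₂, e₂⟩ := pkg_red₂_of_gaussRed N A hB hf.2.2
  obtain ⟨hp₁, hp₂⟩ := stmtPkgPoly N hN h5 A hA hB f h₁ h₂ hf.1
  obtain ⟨P, hP⟩ := pkgcr_exists_aeval hp₁
  obtain ⟨Q, hQ⟩ := pkgcr_exists_aeval hp₂
  exact ⟨⟨P, by rw [hP, e₁]⟩, ⟨Q, by rw [hQ, e₂]⟩⟩

/-- the Goursat set exists -/
theorem pkgcr_exists_goursat (hN : N.Prime) (h5 : 5 ≤ N) (hA : A.LiesOverPrime N) :
    ∃ S : Finset (kA A), PkgIsGoursat N A S :=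
  stmtPkgGoursat N hN h5 A hA (pkgcr_poly hN h5 hA)

/-- the crossing set is finite and symmetric -/
theorem pkgcr_isFrob (hN : N.Prime) (h5 : 5 ≤ N) (hA : A.LiesOverPrime N) (hB : PkgBase N A) :
    PkgIsFrob N A hB := by
  obtain ⟨S, hS⟩ := pkgcr_exists_goursat hN h5 hA
  exact pkgcr_isFrob_of_goursat (stmtPkgType N hN h5 A hA) hB hS

/-- the crossing set is finite -/
theorem pkgcr_Xset_finite (hN : N.Prime) (h5 : 5 ≤ N) (hA : A.LiesOverPrime N)
    (hB : PkgBase N A) : (pkgXset N A hB).Finite :=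
  (pkgcr_isFrob hN h5 hA hB).finite

/-- membership in `pkgX` -/
theorem pkgcr_mem_X (hN : N.Prime) (h5 : 5 ≤ N) (hA : A.LiesOverPrime N)
    (hB : PkgBase N A) (x : Place (kA A) (FFk A) × Place (kA A) (FFk A)) :
    x ∈ pkgX N A hB ↔ x ∈ pkgXset N A hB :=
  pkgcr_mem_X_iff (pkgcr_Xset_finite hN h5 hA hB) x

/-- the crossing points in terms of a Goursat set -/
theorem pkgcr_mem_X_goursat (hN : N.Prime) (h5 : 5 ≤ N) (hA : A.LiesOverPrime N)
    (hB : PkgBase N A) {S : Finset (kA A)} (hS : PkgIsGoursat N A S)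
    (x : Place (kA A) (FFk A) × Place (kA A) (FFk A)) :
    x ∈ pkgX N A hB ↔
      ∃ s ∈ S, HasValueAt x.1 (pkgJbar A) s ∧ HasValueAt x.2 (pkgJbar A) (s ^ N) :=
  (pkgcr_mem_X hN h5 hA hB x).trans (pkgcr_mem_Xset_iff_of_zeros hB hS.zeros x)

/-- **PKG-cross** for one `(N, A, hB)`, from the instance of PKG-ev for the coordinate `j` -/
theorem pkgcr_isCross_of_evJ (hN : N.Prime) (h5 : 5 ≤ N) (hA : A.LiesOverPrime N)
    (hB : PkgBase N A) (hEv : PkgEvJ N A hB) : PkgIsCross N A hB :=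
  pkgcr_isCross (stmtPkgType N hN h5 A hA) hN h5 hA hB hEv (pkgcr_isFrob hN h5 hA hB)

/-- **PKG-cross**, from PKG-ev only. -/
theorem stmtPkgCross_of_ev (hEv : StmtPkgEv) : StmtPkgCross :=
  fun _ _ hN h5 _ hA hB =>
    pkgcr_isCross_of_evJ hN h5 hA hB (pkgcr_evJ_of_stmt hEv hN h5 hA hB)

end Fermat.Agent.S15.LN
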