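import Fermat.Agent.S15.PkgCardB

/-!
# S15 / LOCAL-N / LN-PKG, piece PKG-card: the exported statements (helper89)

`k = kA A`, `j̄ = jqModC k ∈ k((q))`, `w = frickeAut N`.
`PkgcB N A f u v` (`PkgCardB.lean`): `f` has poles only at the cusps, `GaussRed N A f u`,
`GaussRed N A (w f) v`, i.e. `f ∈ B` with reductions `(u, v)` (as Laurent series; use
`pkg_red₁_eq`, `pkg_red₂_eq`, `pkg_gaussRed_red₁/₂` of `PkgVal.lean` to pass to `pkgRed₁/₂`).

* `PkgcPoly N A` : PKG-poly in Gauss form (from `StmtPkgPoly`: `pkgc_poly_of_stmt`);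
* `PkgIsGoursat N A S` : the Goursat description of `red(B)` with `Z = S`:
  `S ⊂ k` finite, `s ^ (N ^ 2) = s` and `s ^ N ∈ S` on `S`;
  `glued` : `f ∈ B` with reductions `(P(j̄), Q(j̄))` ⇒ `P(s) = Q(s ^ N)` for `s ∈ S`;
  `lift` : conversely every such pair `(P, Q)` is the reduction of some `f ∈ B`;
  `zeros` : `S` is the set of zeros of `H`, where `H(j̄) = h̄₁ = (uS k N)⁻¹`;
* `StmtPkgGoursat` : `PkgcPoly N A → ∃ S, PkgIsGoursat N A S`;
* `StmtPkgCount` : moreover `S.card = gN N + 1` (with Riemann for `F_N`).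
-/

set_option autoImplicit false

noncomputable section

namespace Fermat.Agent.S15.LN

open ModularCurve AlgebraicCurve HahnSeries Polynomial Fermat.Agent.ES Fermat.Agent.S24
  Fermat.Agent.ES.M Fermat.Agent.DEU Fermat.Agent.INJ Fermat.Agent.S15 Fermat.Agent.W1
  Fermat.Agent.S28.UB Fermat.Agent.S28

variable (N : ℕ) [NeZero N] (A : ValuationSubring Kb)

/-- **PKG-poly in Gauss form**: the reductions of an element of `B` are polynomials in `j̄` -/
def PkgcPoly : Prop :=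
  ∀ (f : FF N) (u v : LaurentSeries (kA A)), PkgcB N A f u v →
    (∃ P : (kA A)[X], Polynomial.aeval (jqModC (kA A)) P = u) ∧
      ∃ Q : (kA A)[X], Polynomial.aeval (jqModC (kA A)) Q = v

/-- **the Goursat description of `red(B)`**, with `Z = S` -/
structure PkgIsGoursat (S : Finset (kA A)) : Prop where
  frob : ∀ s ∈ S, s ^ (N ^ 2) = s
  pow_mem : ∀ s ∈ S, s ^ N ∈ S
  glued : ∀ (f : FF N) (P Q : (kA A)[X]),
    PkgcB N A f (Polynomial.aeval (jqModC (kA A)) P) (Polynomial.aeval (jqModC (kA A)) Q) →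
      ∀ s ∈ S, P.eval s = Q.eval (s ^ N)
  lift : ∀ P Q : (kA A)[X], (∀ s ∈ S, P.eval s = Q.eval (s ^ N)) →
    ∃ f : FF N,
      PkgcB N A f (Polynomial.aeval (jqModC (kA A)) P) (Polynomial.aeval (jqModC (kA A)) Q)
  zeros : ∃ H : (kA A)[X], H ≠ 0 ∧ Polynomial.aeval (jqModC (kA A)) H = (uS (kA A) N)⁻¹ ∧
    ∀ a : kA A, a ∈ S ↔ H.eval a = 0

/-- **Goursat + (Z = S)** -/
def StmtPkgGoursat : Prop :=
  ∀ (N : ℕ) [NeZero N], N.Prime → 5 ≤ N → ∀ A : ValuationSubring Kb, A.LiesOverPrime N →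
    PkgcPoly N A → ∃ S : Finset (kA A), PkgIsGoursat N A S

/-- **the count**: `#S = g + 1` -/
def StmtPkgCount : Prop :=
  ∀ (N : ℕ) [NeZero N], N.Prime → 5 ≤ N → ∀ A : ValuationSubring Kb, A.LiesOverPrime N →
    PkgcPoly N A → IsNiceCurve Kb (FF N) (gN N) →
      ∀ S : Finset (kA A), PkgIsGoursat N A S → S.card = gN N + 1

/-- the crossing set in terms of `S` -/
def StmtPkgXset : Prop :=
  ∀ (N : ℕ) [NeZero N], N.Prime → 5 ≤ N → ∀ A : ValuationSubring Kb, A.LiesOverPrime N →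
    ∀ (hB : PkgBase N A) (S : Finset (kA A)), PkgIsGoursat N A S →
      ∀ x : Place (kA A) (FFk A) × Place (kA A) (FFk A),
        x ∈ pkgXset N A hB ↔
          ∃ s ∈ S, HasValueAt x.1 (pkgJbar A) s ∧ HasValueAt x.2 (pkgJbar A) (s ^ N)

end Fermat.Agent.S15.LN
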