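import Fermat.Agent.S15.PkgCross
import Fermat.Agent.S15.PkgCardPlan

/-!
# S15 / LN-PKG, piece PKG-cross (helper8), part 2: the crossing set and Goursat

* `pkgcr_hasValueAt_aeval` : the value of a polynomial in `t` at a place;
* `stmtPkgXset : StmtPkgXset` (`PkgCardPlan.lean`), unconditional: if `S` is the Goursat set
  (`PkgIsGoursat N A S`, only the field `zeros` is used), the crossing set is
  `{(Q_s, Q_{s ^ N}) | s ∈ S}`;
* `pkgcr_isFrob_of_goursat` : `PkgIsGoursat N A S ⇒ PkgIsFrob N A hB` (finite and symmetric);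
* `stmtPkgCross_of_goursat` : PKG-cross from PKG-type, PKG-ev and the Goursat description.
-/

set_option autoImplicit false
set_option linter.unusedSectionVars false

noncomputable section

open AlgebraicCurve Module ModularCurve Polynomial

namespace Fermat.Agent.S15.LN

open Fermat.Agent.W1 Fermat.Agent.S24 Fermat.Agent.S15 Fermat.Agent.ES.M Fermat.Agent.DEU Fermat.Agent.S28
  Fermat.Agent.INJ

/-! ## Values of polynomials -/

section Values

variable {K F : Type} [Field K] [Field F] [Algebra K F]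

theorem pkgcr_hasValueAt_pow {P : Place K F} {t : F} {a : K} (h : HasValueAt P t a) (n : ℕ) :
    HasValueAt P (t ^ n) (a ^ n) := by
  induction n with
  | zero => rw [pow_zero, pow_zero]; exact ln_hasValueAt_one P
  | succ n ih => rw [pow_succ, pow_succ]; exact ln_hasValueAt_mul ih h

theorem pkgcr_hasValueAt_aeval {P : Place K F} {t : F} {a : K} (h : HasValueAt P t a)
    (p : K[X]) : HasValueAt P (Polynomial.aeval t p) (p.eval a) := by
  induction p using Polynomial.induction_on' with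
  | add p q hp hq =>
    rw [map_add, Polynomial.eval_add]
    exact ln_hasValueAt_add hp hq
  | monomial n c =>
    rw [Polynomial.aeval_monomial, Polynomial.eval_monomial]
    exact ln_hasValueAt_mul (ln_hasValueAt_const P c) (pkgcr_hasValueAt_pow h n)

theorem pkgcr_ord_pos_of_value_zero {P : Place K F} {f : F} (hf : f ≠ 0)
    (h : HasValueAt P f 0) : 0 < P.ord f := by
  have h1 : f - algebraMap K F 0 ≠ 0 := by rwa [map_zero, sub_zero]
  have h2 := (hasValueAt_iff_ord_pos P h1).mp h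
  rwa [map_zero, sub_zero] at h2

end Values

variable {N : ℕ} [NeZero N] {A : ValuationSubring Kb}

/-! ## `h̄₁` as a polynomial in `j̄` -/

theorem pkgcr_coe_aeval (H : (kA A)[X]) :
    ((Polynomial.aeval (pkgJbar A) H : FFk A) : LaurentSeries (kA A)) =
      Polynomial.aeval (jqModC (kA A)) H := by
  have h := Polynomial.aeval_algHom_apply
    (modularFunctionFieldFullC (kA A) 1).val (pkgJbar A) H
  rw [IntermediateField.val_mk] at h
  exact h.symm

/-- `h̄₁ = H(j̄)` in `k(j̄)` -/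
theorem pkgcr_Hbar_eq_aeval (hB : PkgBase N A) {H : (kA A)[X]}
    (hH : Polynomial.aeval (jqModC (kA A)) H = (uS (kA A) N)⁻¹) :
    pkgHbar N A hB = Polynomial.aeval (pkgJbar A) H := by
  apply Subtype.ext
  rw [pkg_coe_Hbar, pkgcr_coe_aeval, hH]

/-- the order of `h̄₁` at a point with finite `j̄`-value `a` is positive iff `H(a) = 0` -/
theorem pkgcr_ord_Hbar_pos_iff (hB : PkgBase N A) {H : (kA A)[X]}
    (hH : Polynomial.aeval (jqModC (kA A)) H = (uS (kA A) N)⁻¹)
    {Q : Place (kA A) (FFk A)} {a : kA A} (ha : HasValueAt Q (pkgJbar A) a) :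
    0 < Q.ord (pkgHbar N A hB) ↔ H.eval a = 0 := by
  have hval : HasValueAt Q (pkgHbar N A hB) (H.eval a) := by
    rw [pkgcr_Hbar_eq_aeval hB hH]
    exact pkgcr_hasValueAt_aeval ha H
  constructor
  · intro hpos
    by_contra hne
    have := ln_ord_eq_zero_of_value hval hne
    omega
  · intro h0
    rw [h0] at hval
    exact pkgcr_ord_pos_of_value_zero (pkg_Hbar_ne_zero N A hB) hval

/-! ## The crossing set in terms of the Goursat set -/

theorem pkgcr_mem_Xset_iff_of_zeros (hB : PkgBase N A) {S : Finset (kA A)}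
    (hz : ∃ H : (kA A)[X], H ≠ 0 ∧ Polynomial.aeval (jqModC (kA A)) H = (uS (kA A) N)⁻¹ ∧
      ∀ a : kA A, a ∈ S ↔ H.eval a = 0)
    (x : Place (kA A) (FFk A) × Place (kA A) (FFk A)) :
    x ∈ pkgXset N A hB ↔
      ∃ s ∈ S, HasValueAt x.1 (pkgJbar A) s ∧ HasValueAt x.2 (pkgJbar A) (s ^ N) := by
  obtain ⟨H, -, hH, hS⟩ := hz
  constructor
  · rintro ⟨hord, a, ha₁, ha₂⟩
    exact ⟨a, (hS a).mpr ((pkgcr_ord_Hbar_pos_iff hB hH ha₁).mp hord), ha₁, ha₂⟩
  · rintro ⟨s, hs, hs₁, hs₂⟩
    exact ⟨(pkgcr_ord_Hbar_pos_iff hB hH hs₁).mpr ((hS s).mp hs), s, hs₁, hs₂⟩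

/-- **the crossing set in terms of `S`** (unconditional) -/
theorem stmtPkgXset : StmtPkgXset :=
  fun _ _ _ _ _ _ hB _ hG x => pkgcr_mem_Xset_iff_of_zeros hB hG.zeros x

/-! ## Goursat gives finiteness and symmetry -/

theorem pkgcr_isFrob_of_goursat (hT : PkgIsType N A) (hB : PkgBase N A) {S : Finset (kA A)}
    (hG : PkgIsGoursat N A S) : PkgIsFrob N A hB where
  finite := by
    classical
    choose Qof hQof using hT.place_exists
    refine Set.Finite.subset ((S.finite_toSet).image fun s => (Qof s, Qof (s ^ N))) ?_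
    intro x hx
    obtain ⟨s, hs, hs₁, hs₂⟩ := (pkgcr_mem_Xset_iff_of_zeros hB hG.zeros x).mp hx
    refine ⟨s, hs, ?_⟩
    exact Prod.ext (hT.place_ext _ _ s (hQof s) hs₁) (hT.place_ext _ _ (s ^ N) (hQof (s ^ N)) hs₂)
  symm := by
    intro x hx
    obtain ⟨s, hs, hs₁, hs₂⟩ := (pkgcr_mem_Xset_iff_of_zeros hB hG.zeros x).mp hx
    refine (pkgcr_mem_Xset_iff_of_zeros hB hG.zeros (x.2, x.1)).mpr
      ⟨s ^ N, hG.pow_mem s hs, hs₂, ?_⟩
    have e : (s ^ N) ^ N = s := by rw [← pow_mul, ← pow_two, hG.frob s hs]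
    change HasValueAt x.1 (pkgJbar A) ((s ^ N) ^ N)
    rw [e]
    exact hs₁

/-- **PKG-cross**, from PKG-type, PKG-ev and the Goursat description of `red(B)`. -/
theorem stmtPkgCross_of_goursat (hT : StmtPkgType) (hEv : StmtPkgEv)
    (hG : ∀ (N : ℕ) [NeZero N], N.Prime → 5 ≤ N → ∀ A : ValuationSubring Kb,
      A.LiesOverPrime N → ∃ S : Finset (kA A), PkgIsGoursat N A S) : StmtPkgCross :=
  stmtPkgCross_of hT hEv fun N _ hN h5 A hA hB => by
    obtain ⟨S, hS⟩ := hG N hN h5 A hA
    exact pkgcr_isFrob_of_goursat (hT N hN h5 A hA) hB hS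

end Fermat.Agent.S15.LN
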