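import Fermat.Agent.S15.PkgGlue
import Fermat.Agent.S15.PkgCrossG
import Fermat.Agent.S15.PkgCardGoursat

/-!
# S15 / LOCAL-N / LN-PKG, piece PKG-glue (helper13): the wiring

With the landed pieces `stmtPkgPoly` (helper10), `stmtPkgGoursat` (helper89), `stmtPkgXset`,
`stmtPkgCross_of_goursat` (helper8), `stmtPkgType` (helper25) the statements PKG-glue and
PKG-cross have ONE open input: PKG-ev (`StmtPkgEv`).

* `pkggl_pkgcPoly` : `PkgcPoly N A` (PKG-poly in Gauss form);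
* `pkggl_exists_goursat` : `∃ S, PkgIsGoursat N A S`;
* `pkggl_cross_of_ev : StmtPkgEv → StmtPkgCross`;
* `stmtPkgGlue_of_cross : StmtPkgCross → StmtPkgGlue`;
* `stmtPkgGlue_of_ev : StmtPkgEv → StmtPkgGlue`.
-/

set_option autoImplicit false
set_option linter.unusedSectionVars false

noncomputable section

open AlgebraicCurve Module ModularCurve

namespace Fermat.Agent.S15.LN

open Fermat.Agent.W1 Fermat.Agent.S24 Fermat.Agent.S15 Fermat.Agent.ES.M Fermat.Agent.DEU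
  Fermat.Agent.INJ

variable {N : ℕ} [NeZero N] {A : ValuationSubring Kb}

/-- **PKG-poly in Gauss form** -/
theorem pkggl_pkgcPoly (hN : N.Prime) (h5 : 5 ≤ N) (hA : A.LiesOverPrime N) :
    PkgcPoly N A := by
  have hB : PkgBase N A := pkg_base N A hN hA
  intro f u v hf
  obtain ⟨hp, hu, hv⟩ := hf
  obtain ⟨h₁, e₁⟩ := pkg_red₁_of_gaussRed N A hB hu
  obtain ⟨h₂, e₂⟩ := pkg_red₂_of_gaussRed N A hB hv
  obtain ⟨hp₁, hp₂⟩ := stmtPkgPoly N hN h5 A hA hB f h₁ h₂ hp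
  rw [Algebra.adjoin_singleton_eq_range_aeval] at hp₁ hp₂
  obtain ⟨P, hP⟩ := hp₁
  obtain ⟨Q, hQ⟩ := hp₂
  have hP' : Polynomial.aeval (pkgJbar A) P = pkgRed₁ N A hB ⟨f, h₁⟩ := hP
  have hQ' : Polynomial.aeval (pkgJbar A) Q = pkgRed₂ N A hB ⟨f, h₂⟩ := hQ
  refine ⟨⟨P, ?_⟩, ⟨Q, ?_⟩⟩
  · rw [← e₁, ← hP', pkgty_coe_aeval]
    rfl
  · rw [← e₂, ← hQ', pkgty_coe_aeval]
    rfl

/-- **Goursat** -/
theorem pkggl_exists_goursat (hN : N.Prime) (h5 : 5 ≤ N) (hA : A.LiesOverPrime N) :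
    ∃ S : Finset (kA A), PkgIsGoursat N A S :=
  stmtPkgGoursat N hN h5 A hA (pkggl_pkgcPoly hN h5 hA)

/-- **PKG-cross** from PKG-ev -/
theorem pkggl_cross_of_ev (hEv : StmtPkgEv) : StmtPkgCross :=
  stmtPkgCross_of_goursat stmtPkgType hEv fun _ _ hN h5 _ hA => pkggl_exists_goursat hN h5 hA

/-- **PKG-glue** from PKG-cross -/
theorem stmtPkgGlue_of_cross (hC : StmtPkgCross) : StmtPkgGlue :=
  stmtPkgGlue_of stmtPkgPoly (fun _ _ hN h5 _ hA => pkggl_exists_goursat hN h5 hA) stmtPkgXset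
    stmtPkgType hC

/-- **PKG-glue** from PKG-ev -/
theorem stmtPkgGlue_of_ev (hEv : StmtPkgEv) : StmtPkgGlue :=
  stmtPkgGlue_of_cross (pkggl_cross_of_ev hEv)

end Fermat.Agent.S15.LN
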