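import Fermat.Agent.S15.PkgAsmMin
import Fermat.Agent.S15.PkgCardTop
import Fermat.Agent.S15.PkgEv
import Fermat.Agent.S15.PkgCrossFinal
import Fermat.Agent.S15.PkgGlueFinal

/-!
# S15 / LOCAL-N / LN-PKG: the wiring check (helper13)

The landed reductions of the wall LN-PKG compose:

* `stmtPkgEv_of : StmtPkgFibre → StmtPkgEv` (helper72);
* `stmtPkgCross_of_ev : StmtPkgEv → StmtPkgCross` (helper8);
* `stmtPkgGlue_of_ev : StmtPkgEv → StmtPkgGlue` (helper13);
* `stmtPkgCard`, `stmtPkgNice` (helper89, helper10);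
* `stmtLocDivN_of_pieces` (helper5, helper17).

So LOCAL-N has exactly TWO open inputs: the fibre formula `StmtPkgFibre` (PKG-tv2) and
`StmtPkgRdiv`:

  `stmtLocDivN_of_open : StmtPkgFibre → StmtPkgRdiv → StmtLocDivN`.
-/

set_option autoImplicit false

namespace Fermat.Agent.S15.LN

/-- **LOCDIV at the level prime** from PKG-ev and PKG-rdiv -/
theorem stmtLocDivN_of_ev (hEv : StmtPkgEv) (hRdiv : StmtPkgRdiv) : StmtLocDivN :=
  stmtLocDivN_of_pieces (stmtPkgCross_of_ev hEv) hRdiv (stmtPkgGlue_of_ev hEv) stmtPkgCard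
    stmtPkgNice

/-- **LOCDIV at the level prime** from the fibre formula and PKG-rdiv -/
theorem stmtLocDivN_of_open (hFib : StmtPkgFibre) (hRdiv : StmtPkgRdiv) : StmtLocDivN :=
  stmtLocDivN_of_ev (stmtPkgEv_of hFib) hRdiv

end Fermat.Agent.S15.LN
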