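/-
S15 / SELMER block, piece **SEL-EIS**, abstract part (helper72).

* `seleis_exists_hom`  : a group of prime order `r` embeds additively into `ZMod r`;
* `seleis_exists_char` : a step `W ≤ W'` of index `r` on which `G_ℚ` acts through the mod `r`
  cyclotomic character carries an equivariant character `ψ : W' → μ_r` with kernel `W`;
* `seleis_uniform`     : on a finite set, pointwise nilpotent ⇒ uniformly nilpotent;
* `seleis_admE_iterate`: `((τ - 1)(τ - q)) ^ n = t ^ n τ ^ n` if `τ² - T τ + q = 0`, `t = T - (1 + q)`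
  commutes with `τ`.
-/
import Fermat.Agent.S15.AdmChain

set_option autoImplicit false
set_option linter.style.haveILetI false

namespace Fermat.Agent.S15

/-! ### Groups of prime order -/

/-- a group of prime order `r` embeds into `ZMod r` -/
theorem seleis_exists_hom {r : ℕ} [hr : Fact r.Prime] {Q : Type*} [AddCommGroup Q]
    (hcard : Nat.card Q = r) : ∃ φ : Q →+ ZMod r, Function.Injective φ := by
  haveI : Finite Q := Nat.finite_of_card_ne_zero (by rw [hcard]; exact hr.out.ne_zero)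
  haveI : Nontrivial Q := by
    rw [← Finite.one_lt_card_iff_nontrivial, hcard]
    exact hr.out.one_lt
  obtain ⟨x₁, hx₁⟩ := exists_ne (0 : Q)
  have hrx : ∀ x : Q, r • x = 0 := fun x => by
    rw [← hcard]
    exact card_nsmul_eq_zero'
  let f₀ : {f : ℤ →+ Q // f r = 0} := ⟨zmultiplesHom Q x₁, by
    show (r : ℤ) • x₁ = 0
    rw [natCast_zsmul]
    exact hrx x₁⟩
  let f : ZMod r →+ Q := ZMod.lift r f₀
  have hinj : Function.Injective f := by
    rw [ZMod.lift_injective]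
    intro m hm
    have hm' : m • x₁ = 0 := hm
    rw [ZMod.intCast_zmod_eq_zero_iff_dvd]
    by_contra hnd
    have hcop : IsCoprime (r : ℤ) m :=
      (Nat.prime_iff_prime_int.1 hr.out).coprime_iff_not_dvd.2 hnd
    obtain ⟨a, b, hab⟩ := hcop
    apply hx₁
    have : ((a * (r : ℤ) + b * m : ℤ)) • x₁ = 0 := by
      rw [add_smul, mul_smul, mul_smul, natCast_zsmul, hrx, smul_zero, hm', smul_zero, add_zero]
    rw [hab, one_smul] at this
    exact this
  have hbij : Function.Bijective f :=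
    hinj.bijective_of_nat_card_le (by rw [hcard, Nat.card_zmod])
  let e : ZMod r ≃+ Q := AddEquiv.ofBijective f hbij
  exact ⟨e.symm.toAddMonoidHom, e.symm.injective⟩

/-! ### The character of a cyclotomic step -/

section char

variable {J : Type*} [AddCommGroup J]
  [DistribMulAction (AlgebraicClosure ℚ ≃ₐ[ℚ] AlgebraicClosure ℚ) J]
  {r : ℕ} [hr : Fact r.Prime]

/-- powers of an `r`-th root of unity only depend on the exponent in `ZMod r` -/
theorem seleis_pow_congr {R : Type*} [Monoid R] {z : R} (hz : z ^ r = 1) {a b : ℕ}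
    (h : (a : ZMod r) = (b : ZMod r)) : z ^ a = z ^ b :=
  pow_eq_pow_of_modEq ((ZMod.natCast_eq_natCast_iff a b r).1 h) hz

/-- **the character of a cyclotomic step** -/
theorem seleis_exists_char (χ : (AlgebraicClosure ℚ ≃ₐ[ℚ] AlgebraicClosure ℚ) →* (ZMod r)ˣ)
    (ζ : AlgebraicClosure ℚ) (hζ : IsPrimitiveRoot ζ r)
    (hχ : ∀ σ : AlgebraicClosure ℚ ≃ₐ[ℚ] AlgebraicClosure ℚ, σ ζ = ζ ^ ((χ σ : ZMod r).val))
    (W W' : AddSubgroup J) (hidx : W.relIndex W' = r)
    (hstab : ∀ σ : AlgebraicClosure ℚ ≃ₐ[ℚ] AlgebraicClosure ℚ, ∀ w ∈ W', σ • w ∈ W')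
    (hact : ∀ σ : AlgebraicClosure ℚ ≃ₐ[ℚ] AlgebraicClosure ℚ, ∀ w ∈ W',
      σ • w - ((χ σ : ZMod r).val) • w ∈ W) :
    ∃ ψ : J → AlgebraicClosure ℚ, (∀ u ∈ W', ∀ v ∈ W', ψ (u + v) = ψ u * ψ v) ∧ ψ 0 = 1 ∧
      (∀ σ : AlgebraicClosure ℚ ≃ₐ[ℚ] AlgebraicClosure ℚ, ∀ v ∈ W', ψ (σ • v) = σ (ψ v)) ∧
      ∀ w ∈ W', ψ w = 1 ↔ w ∈ W := by
  classical
  haveI : NeZero r := ⟨hr.out.ne_zero⟩
  set N : AddSubgroup ↥W' := W.addSubgroupOf W' with hN
  have hcard : Nat.card (↥W' ⧸ N) = r := by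
    rw [← AddSubgroup.index_eq_card]
    exact hidx
  obtain ⟨φ, hφ⟩ := seleis_exists_hom hcard
  have hmk0 : ∀ w : ↥W', (QuotientAddGroup.mk w : ↥W' ⧸ N) = 0 ↔ (w : J) ∈ W := by
    intro w
    rw [QuotientAddGroup.eq_zero_iff]
    exact AddSubgroup.mem_addSubgroupOf
  -- the map `W' → ZMod r`
  let ν : ↥W' →+ ZMod r := φ.comp (QuotientAddGroup.mk' N)
  have hν0 : ∀ w : ↥W', ν w = 0 ↔ (w : J) ∈ W := by
    intro w
    show φ (QuotientAddGroup.mk w) = 0 ↔ _
    rw [← hmk0, ← map_zero φ]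
    exact hφ.eq_iff
  have hζr : ζ ^ r = 1 := hζ.pow_eq_one
  refine ⟨fun x => if h : x ∈ W' then ζ ^ (ν ⟨x, h⟩).val else 1, ?_, ?_, ?_, ?_⟩
  · intro u hu v hv
    have huv : u + v ∈ W' := W'.add_mem hu hv
    simp only [dif_pos hu, dif_pos hv, dif_pos huv]
    rw [← pow_add]
    apply seleis_pow_congr hζr
    have e : (⟨u + v, huv⟩ : ↥W') = ⟨u, hu⟩ + ⟨v, hv⟩ := rfl
    rw [e, map_add, Nat.cast_add, ZMod.natCast_zmod_val, ZMod.natCast_zmod_val,
      ZMod.natCast_zmod_val]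
  · simp only [dif_pos W'.zero_mem]
    have e : (⟨0, W'.zero_mem⟩ : ↥W') = 0 := rfl
    rw [e, map_zero, ZMod.val_zero, pow_zero]
  · intro σ v hv
    have hσv : σ • v ∈ W' := hstab σ v hv
    simp only [dif_pos hv, dif_pos hσv]
    rw [map_pow, hχ σ, ← pow_mul]
    apply seleis_pow_congr hζr
    have h1 : ν ⟨σ • v, hσv⟩ = ν (((χ σ : ZMod r).val) • (⟨v, hv⟩ : ↥W')) := by
      rw [← sub_eq_zero, ← map_sub, hν0]
      show σ • v - ((χ σ : ZMod r).val) • v ∈ W
      exact hact σ v hv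
    rw [h1, map_nsmul, Nat.cast_mul, ZMod.natCast_zmod_val, ZMod.natCast_zmod_val,
      ZMod.natCast_zmod_val, nsmul_eq_mul, ZMod.natCast_zmod_val]
  · intro w hw
    simp only [dif_pos hw]
    rw [hζ.pow_eq_one_iff_dvd, ← hν0 ⟨w, hw⟩]
    constructor
    · intro h
      have hlt : (ν ⟨w, hw⟩).val < r := ZMod.val_lt _
      have h0 : (ν ⟨w, hw⟩).val = 0 := Nat.eq_zero_of_dvd_of_lt h hlt
      exact (ZMod.val_eq_zero _).1 h0
    · intro h
      rw [h, ZMod.val_zero]
      exact dvd_zero r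

end char

/-! ### Nilpotency -/

section nilp

variable {J : Type*} [AddCommGroup J]

/-- on a finite set, a pointwise nilpotent endomorphism is uniformly nilpotent -/
theorem seleis_uniform (t : Module.End ℤ J) {V : Set J} (hV : V.Finite)
    (h : ∀ y ∈ V, ∃ m : ℕ, (t ^ m) y = 0) : ∃ n : ℕ, ∀ y ∈ V, (t ^ n) y = 0 := by
  induction V, hV using Set.Finite.induction_on with
  | empty => exact ⟨0, fun y hy => absurd hy (Set.notMem_empty y)⟩
  | @insert a s _ _ ih =>
    obtain ⟨n, hn⟩ := ih (fun y hy => h y (Set.mem_insert_of_mem a hy))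
    obtain ⟨m, hm⟩ := h a (Set.mem_insert a s)
    refine ⟨m + n, fun y hy => ?_⟩
    rcases Set.mem_insert_iff.1 hy with rfl | hy
    · rw [add_comm, pow_add, Module.End.mul_apply, hm, map_zero]
    · rw [pow_add, Module.End.mul_apply, hn y hy, map_zero]

variable {G : Type*} [Group G] [DistribMulAction G J]

/-- `((τ - 1)(τ - q)) ^ n = t ^ n ∘ τ ^ n` on the `M`-torsion, if `(τ - 1)(τ - q) = t ∘ τ` there and
`t` commutes with `τ`. -/
theorem seleis_admE_iterate (τ : G) (q : ℕ) (t : Module.End ℤ J) (M : ℕ)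
    (hcomm : ∀ x : J, t (τ • x) = τ • t x)
    (hE : ∀ x : J, M • x = 0 → admE τ q x = t (τ • x)) :
    ∀ n : ℕ, ∀ x : J, M • x = 0 → (admE τ q)^[n] x = (t ^ n) (τ ^ n • x) := by
  have hpow : ∀ n : ℕ, ∀ x : J, (t ^ n) (τ • x) = τ • (t ^ n) x := by
    intro n
    induction n with
    | zero => intro x; rfl
    | succ n ih =>
      intro x
      rw [pow_succ, Module.End.mul_apply, Module.End.mul_apply, hcomm, ih]
  have htors : ∀ n : ℕ, ∀ x : J, M • x = 0 → M • ((t ^ n) (τ ^ n • x)) = 0 := by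
    intro n x hx
    rw [← map_nsmul, ← smul_comm, hx, smul_zero, map_zero]
  intro n
  induction n with
  | zero => intro x _; simp
  | succ n ih =>
    intro x hx
    rw [Function.iterate_succ_apply', ih x hx, hE _ (htors n x hx), ← hpow, ← mul_smul,
      ← pow_succ', pow_succ' t, Module.End.mul_apply]

end nilp

end Fermat.Agent.S15
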