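/-
S15 / SELMER block, piece **SEL-EIS** (a): the Prop (helper72).

* `StmtSelEisChain` (a): the admissible composition series of `selEisPart N r k`
  (proved in `S15/SelEis.lean`: `stmtSelEisChain`);
The projector half `StmtSelEisProj` is in `S15/SelEisProj.lean` (helper12), the glue
`stmtSelEis : StmtSelEis` in `S15/SelEisFinal.lean`.
-/
import Fermat.Agent.S15.SelPlan

set_option autoImplicit false

noncomputable section

namespace Fermat.Agent.S15

open ModularCurve AlgebraicCurve
open Fermat.Agent.S24 Fermat.Agent.W1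

/-- **SEL-EIS (a)**: the admissible composition series of the Eisenstein part. -/
def StmtSelEisChain : Prop :=
  ∀ (N : ℕ) [NeZero N] (r : ℕ), N.Prime → r.Prime → r ≠ N → ∀ k : ℕ,
    ∃ (L : ℕ) (W : ℕ → AddSubgroup (JZero N)), W 0 = ⊥ ∧ W L = selEisPart N r k ∧
      ∀ i < L, SelStep N r k (W i) (W (i + 1)) ∧
        (SelStepTriv (W i) (W (i + 1)) ∨ SelStepCyc (W i) (W (i + 1)))

end Fermat.Agent.S15
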