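/-
S15 / SELMER block, piece **SEL-EIS** (a) (helper72): the admissible composition series of the
Eisenstein part `G_k = selEisPart N r k` of `J₀(N)[r^k]`.

`stmtSelEisChain : StmtSelEisChain` — a chain `⊥ = W 0 ≤ … ≤ W L = G_k` of `G_ℚ`-stable subgroups
with steps of index `r` of type `SelStepTriv` or `SelStepCyc`.

Inputs: `adm_chain` (ADM), `esk_frob`, `esk_finite`, `esk_galois_hecke` (ES-k), weak Chebotarev
(`Cheb.exists_frobenius_pow_eq`), the mod `r` cyclotomic character (`S42.cycloChar`), finite level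
(`selfl_exists_field_finset`).
-/
import Fermat.Agent.S15.SelEisPlan
import Fermat.Agent.S15.SelEisAbs
import Fermat.Agent.S15.ESk
import Fermat.Agent.S15.SelFL
import Fermat.Agent.Cheb.Final
import Fermat.Agent.S42.Cyclo

set_option autoImplicit false
set_option linter.style.haveILetI false

noncomputable section

namespace Fermat.Agent.S15

open ModularCurve AlgebraicCurve
open Fermat.Agent.S24 Fermat.Agent.W1

/-- the Eisenstein operators commute with `G_ℚ` -/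
theorem seleis_op_smul (N : ℕ) [NeZero N] (q : Nat.Primes) (σ : GalQ) (x : JZero N) :
    selEisOp N q (σ • x) = σ • selEisOp N q x := by
  simp only [selEisOp, LinearMap.sub_apply, LinearMap.smul_apply, Module.End.one_apply, smul_sub]
  rw [esk_galois_hecke N σ q x, natCast_zsmul, natCast_zsmul]
  congr 1
  exact (map_nsmul (DistribSMul.toAddMonoidHom (JZero N) σ) _ x).symm

theorem seleis_op_pow_smul (N : ℕ) [NeZero N] (q : Nat.Primes) (m : ℕ) (σ : GalQ)
    (x : JZero N) : (selEisOp N q ^ m) (σ • x) = σ • (selEisOp N q ^ m) x := by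
  induction m generalizing x with
  | zero => rfl
  | succ m ih => rw [pow_succ, Module.End.mul_apply, Module.End.mul_apply, seleis_op_smul, ih]

/-- the Eisenstein part is `G_ℚ`-stable -/
theorem seleis_stable (N r k : ℕ) [NeZero N] (σ : GalQ) {v : JZero N}
    (hv : v ∈ selEisPart N r k) : σ • v ∈ selEisPart N r k := by
  refine ⟨?_, fun q hq => ?_⟩
  · have h1 : r ^ k • σ • v = σ • (r ^ k • v) :=
      (map_nsmul (DistribSMul.toAddMonoidHom (JZero N) σ) (r ^ k) v).symm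
    have h0 : σ • (0 : JZero N) = 0 := smul_zero (A := JZero N) σ
    rw [h1, hv.1]
    exact h0
  · obtain ⟨m, hm⟩ := hv.2 q hq
    refine ⟨m, ?_⟩
    have h0 : σ • (0 : JZero N) = 0 := smul_zero (A := JZero N) σ
    rw [seleis_op_pow_smul, hm]
    exact h0

/-- Eichler–Shimura: `(τ - 1)(τ - ℓ) = (T_ℓ - (1 + ℓ)) ∘ τ` on `J[r^k]` -/
theorem seleis_admE_eq (N r : ℕ) [NeZero N] (ℓ : ℕ) (hℓ : ℓ.Prime) (hℓNr : ¬ ℓ ∣ N * r)
    (A : ValuationSubring (AlgebraicClosure ℚ)) (hA : A.LiesOverPrime ℓ)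
    (τ : GalQ) (hτ : A.IsFrobeniusAt τ ℓ) (k : ℕ) (x : JZero N) (hx : r ^ k • x = 0) :
    admE τ ℓ x = selEisOp N ⟨ℓ, hℓ⟩ (τ • x) := by
  have h := esk_frob N r ℓ hℓ hℓNr A hA τ hτ k x hx
  simp only [selEisOp, LinearMap.sub_apply, LinearMap.smul_apply, Module.End.one_apply, admE]
  rw [natCast_zsmul]
  have h2 : τ • τ • x + ℓ • x = heckeOperatorBar N ⟨ℓ, hℓ⟩ (τ • x) := by
    have := sub_eq_zero.1 (by rw [← h]; abel :
      τ • τ • x + ℓ • x - heckeOperatorBar N ⟨ℓ, hℓ⟩ (τ • x) = 0)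
    exact this
  rw [← h2]
  abel

/-- **SEL-EIS (a)** -/
theorem stmtSelEisChain : StmtSelEisChain := by
  intro N _ r hN hr hrN k
  classical
  haveI : Fact r.Prime := ⟨hr⟩
  haveI : NeZero r := ⟨hr.ne_zero⟩
  have hrk : r ^ k ≠ 0 := pow_ne_zero k hr.ne_zero
  have hfin : {x : JZero N | r ^ k • x = 0}.Finite := esk_finite N (r ^ k) hrk
  have hVfin : (selEisPart N r k : Set (JZero N)).Finite := hfin.subset (fun x hx => hx.1)
  haveI : Finite ↥(selEisPart N r k) := hVfin.to_subtype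
  have hVG : ∀ σ : GalQ, ∀ v ∈ selEisPart N r k, σ • v ∈ selEisPart N r k :=
    fun σ v hv => seleis_stable N r k σ hv
  have hVr : ∀ v ∈ selEisPart N r k, r ^ k • v = 0 := fun v hv => hv.1
  -- the cyclotomic character
  haveI : NeZero (r : AlgebraicClosure ℚ) := ⟨Nat.cast_ne_zero.mpr hr.ne_zero⟩
  obtain ⟨ζ, hζ⟩ := HasEnoughRootsOfUnity.exists_primitiveRoot (AlgebraicClosure ℚ) r
  have hχ : ∀ σ : GalQ, σ ζ = ζ ^ ((Fermat.Agent.S42.cycloChar r σ : ZMod r).val) :=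
    fun σ => Fermat.Agent.S42.cycloChar_spec r σ hζ
  -- the field of definition
  have hE₁ : FiniteDimensional ℚ (IntermediateField.adjoin ℚ ({ζ} : Set (AlgebraicClosure ℚ))) :=
    IntermediateField.adjoin.finiteDimensional
      (hζ.isIntegral hr.pos).tower_top
  obtain ⟨K₀, hζK, hK₀fin, hK₀gal, hK₀⟩ :=
    selfl_exists_field_finset N hVfin.toFinset
      (IntermediateField.adjoin ℚ ({ζ} : Set (AlgebraicClosure ℚ))) hE₁
  haveI := hK₀fin
  haveI := hK₀gal
  have hζK₀ : ζ ∈ K₀ := hζK (IntermediateField.mem_adjoin_simple_self ℚ ζ)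
  -- the Frobenius relation
  have hfrob : ∀ g : GalQ, ∃ (τ : GalQ) (j m q : ℕ),
      (∀ v ∈ selEisPart N r k, g • v = τ ^ j • v) ∧
      Fermat.Agent.S42.cycloChar r g = Fermat.Agent.S42.cycloChar r τ ^ j ∧
      (q : ZMod r) = (Fermat.Agent.S42.cycloChar r τ : ZMod r) ∧
      ∀ v ∈ selEisPart N r k, (admE τ q)^[m] v = 0 := by
    intro g
    obtain ⟨ℓ, A, τ, m, hℓ, hℓS, hA, hτ, hagree⟩ :=
      Fermat.Agent.Cheb.exists_frobenius_pow_eq K₀ {N, r} g
    have hℓN : ℓ ≠ N := fun h => hℓS (by rw [h]; exact Finset.mem_insert_self _ _)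
    have hℓr : ℓ ≠ r := fun h => hℓS (by
      rw [h]; exact Finset.mem_insert_of_mem (Finset.mem_singleton_self _))
    have hℓNr : ¬ ℓ ∣ N * r := by
      intro h
      rcases (Nat.Prime.dvd_mul hℓ).1 h with h | h
      · exact hℓN ((Nat.prime_dvd_prime_iff_eq hℓ hN).1 h)
      · exact hℓr ((Nat.prime_dvd_prime_iff_eq hℓ hr).1 h)
    obtain ⟨n, hn⟩ := seleis_uniform (selEisOp N ⟨ℓ, hℓ⟩) hVfin
      (fun y hy => hy.2 ⟨ℓ, hℓ⟩ hℓNr)
    refine ⟨τ, m, n, ℓ, ?_, ?_, ?_, ?_⟩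
    · intro v hv
      exact selfl_smul_eq_of_agree N v (hK₀ v (hVfin.mem_toFinset.2 hv)) g (τ ^ m)
        (fun a ha => (hagree a ha).symm)
    · have h1 : Fermat.Agent.S42.cycloChar r (g⁻¹ * τ ^ m) = 1 := by
        apply Fermat.Agent.S42.cycloChar_eq_one r _ hζ
        rw [AlgEquiv.mul_apply, hagree ζ hζK₀, ← AlgEquiv.mul_apply, inv_mul_cancel,
          AlgEquiv.one_apply]
      rw [map_mul, map_inv, map_pow, inv_mul_eq_one] at h1
      exact h1
    · exact (Fermat.Agent.S42.cycloChar_frob r hr ℓ hℓ hℓr A hA τ hτ).symm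
    · intro v hv
      rw [seleis_admE_iterate τ ℓ (selEisOp N ⟨ℓ, hℓ⟩) (r ^ k)
        (fun x => seleis_op_smul N ⟨ℓ, hℓ⟩ τ x)
        (fun x hx => seleis_admE_eq N r ℓ hℓ hℓNr A hA τ hτ k x hx) n v hv.1]
      exact hn _ (seleis_stable N r k (τ ^ n) hv)
  obtain ⟨L, W, hW0, hWL, hmono, hWV, hWG, hidx, hact⟩ :=
    adm_chain (Fermat.Agent.S42.cycloChar r) (selEisPart N r k) hVG k hVr hfrob
  refine ⟨L, W, hW0, hWL, fun i hi => ⟨⟨hmono i hi, fun w hw => hVr w (hWV (i + 1) hi hw),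
    hWG i hi.le, hWG (i + 1) hi, hidx i hi⟩, ?_⟩⟩
  rcases hact i hi with h | h
  · exact Or.inl h
  · exact Or.inr (seleis_exists_char (Fermat.Agent.S42.cycloChar r) ζ hζ hχ (W i) (W (i + 1))
      (hidx i hi) (hWG (i + 1) hi) h)

end Fermat.Agent.S15
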