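/-
S15 / SELMER block, piece **SEL-EIS**, the projector, abstract part (helper72).

`J` an abelian group with an action of `G`, `t i` (`i : ι`) additive endomorphisms of `J` commuting
with `G` and, on the finite group `J[M]`, with each other; `cr` a point killed by every `t i`.
Then there is an endomorphism `E` of `J` (a product of Fitting projectors `1 - (t i) ^ n`) which
commutes with `G`, fixes `cr`, and maps `J[M]` into the common generalised kernel of the `t i`
(`seleis_exists_proj`).
-/
import Mathlib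

set_option autoImplicit false
set_option linter.style.haveILetI false

namespace Fermat.Agent.S15

section proj

variable {J : Type*} [AddCommGroup J]

/-- the `M`-torsion is stable under endomorphisms -/
theorem seleis_tors_apply (t : Module.End ℤ J) {M : ℕ} {x : J} (hx : M • x = 0) :
    M • t x = 0 := by
  rw [← map_nsmul, hx, map_zero]

theorem seleis_tors_pow_apply (t : Module.End ℤ J) {M : ℕ} {x : J} (hx : M • x = 0) (n : ℕ) :
    M • (t ^ n) x = 0 :=
  seleis_tors_apply (t ^ n) hx

/-- **Fitting**: on a finite torsion group some positive power of an endomorphism is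
idempotent. -/
theorem seleis_exists_idem (t : Module.End ℤ J) (M : ℕ) (hfin : {x : J | M • x = 0}.Finite) :
    ∃ n : ℕ, 0 < n ∧ ∀ x : J, M • x = 0 → (t ^ n) ((t ^ n) x) = (t ^ n) x := by
  classical
  haveI : Finite {x : J | M • x = 0} := hfin
  let f : ℕ → ({x : J | M • x = 0} → {x : J | M • x = 0}) := fun i x =>
    ⟨(t ^ i) x.1, seleis_tors_pow_apply t x.2 i⟩
  obtain ⟨i, j, hij, hf⟩ := Finite.exists_ne_map_eq_of_infinite f
  -- wlog `i < j`
  have key : ∀ i j : ℕ, i < j → f i = f j →
      ∃ n : ℕ, 0 < n ∧ ∀ x : J, M • x = 0 → (t ^ n) ((t ^ n) x) = (t ^ n) x := by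
    intro i j hlt hf
    obtain ⟨p, rfl⟩ : ∃ p, j = i + p := ⟨j - i, by omega⟩
    have hp : 0 < p := by omega
    have h1 : ∀ x : J, M • x = 0 → (t ^ (i + p)) x = (t ^ i) x := by
      intro x hx
      have := congrFun hf ⟨x, hx⟩
      exact (congrArg Subtype.val this).symm
    -- `t ^ (a + p) = t ^ a` for `a ≥ i`
    have h2 : ∀ a : ℕ, i ≤ a → ∀ x : J, M • x = 0 → (t ^ (a + p)) x = (t ^ a) x := by
      intro a ha x hx
      obtain ⟨b, rfl⟩ : ∃ b, a = b + i := ⟨a - i, by omega⟩
      rw [add_assoc, pow_add, Module.End.mul_apply, h1 x hx, pow_add, Module.End.mul_apply]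
    have h3 : ∀ c a : ℕ, i ≤ a → ∀ x : J, M • x = 0 → (t ^ (a + c * p)) x = (t ^ a) x := by
      intro c
      induction c with
      | zero => intro a _ x _; simp
      | succ c ih =>
        intro a ha x hx
        have e : a + (c + 1) * p = (a + c * p) + p := by ring
        rw [e, h2 (a + c * p) (by omega) x hx, ih a ha x hx]
    refine ⟨(i + 1) * p, Nat.mul_pos (Nat.succ_pos i) hp, fun x hx => ?_⟩
    have hle : i ≤ (i + 1) * p := by
      calc i ≤ i + 1 := Nat.le_succ i
        _ = (i + 1) * 1 := (mul_one _).symm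
        _ ≤ (i + 1) * p := Nat.mul_le_mul_left _ hp
    rw [← Module.End.mul_apply, ← pow_add]
    exact h3 (i + 1) ((i + 1) * p) hle x hx
  rcases Nat.lt_or_gt_of_ne hij with h | h
  · exact key i j h hf
  · exact key j i h hf.symm

variable {G : Type*} [Group G] [DistribMulAction G J] {ι : Type*}

/-- commutation with powers -/
theorem seleis_comm_pow (a b : Module.End ℤ J) (M : ℕ)
    (h : ∀ x : J, M • x = 0 → a (b x) = b (a x)) (n : ℕ) :
    ∀ x : J, M • x = 0 → a ((b ^ n) x) = (b ^ n) (a x) := by
  induction n with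
  | zero => intro x _; rfl
  | succ n ih =>
    intro x hx
    rw [pow_succ, Module.End.mul_apply, Module.End.mul_apply, ih _ (seleis_tors_apply b hx),
      h x hx]

/-- **the Eisenstein projector, abstract form** -/
theorem seleis_exists_proj (t : ι → Module.End ℤ J) (M : ℕ)
    (hfin : {x : J | M • x = 0}.Finite)
    (hG : ∀ (i : ι) (σ : G) (x : J), t i (σ • x) = σ • t i x)
    (hcomm : ∀ (i j : ι) (x : J), M • x = 0 → t i (t j x) = t j (t i x))
    (cr : J) (hcr : ∀ i : ι, t i cr = 0) (F : Finset ι) :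
    ∃ E : Module.End ℤ J, (∀ (σ : G) (x : J), E (σ • x) = σ • E x) ∧ E cr = cr ∧
      (∀ i ∈ F, ∀ x : J, M • x = 0 → ∃ m : ℕ, (t i ^ m) (E x) = 0) ∧
      (∀ (j : ι) (x : J), M • x = 0 → t j (E x) = E (t j x)) ∧
      E ∈ Algebra.adjoin ℤ (Set.range t) := by
  classical
  induction F using Finset.induction_on with
  | empty =>
    exact ⟨1, fun _ _ => rfl, rfl, fun i hi => absurd hi (Finset.notMem_empty i),
      fun _ _ _ => rfl, Subalgebra.one_mem _⟩
  | insert q F _ ih =>
    obtain ⟨E, hEG, hEcr, hEF, hEc, hEadj⟩ := ih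
    obtain ⟨n, hn, hidem⟩ := seleis_exists_idem (t q) M hfin
    -- powers of `t q` commute with `G`
    have hGpow : ∀ (m : ℕ) (σ : G) (x : J), (t q ^ m) (σ • x) = σ • (t q ^ m) x := by
      intro m
      induction m with
      | zero => intro σ x; rfl
      | succ m ihm =>
        intro σ x
        rw [pow_succ, Module.End.mul_apply, Module.End.mul_apply, hG, ihm]
    have hcrpow : (t q ^ n) cr = 0 := by
      obtain ⟨n', rfl⟩ : ∃ n', n = n' + 1 := ⟨n - 1, by omega⟩
      rw [pow_succ, Module.End.mul_apply, hcr, map_zero]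
    -- `t j` commutes with `(t q) ^ n` on the torsion
    have hcq : ∀ (j : ι) (x : J), M • x = 0 → t j ((t q ^ n) x) = (t q ^ n) (t j x) :=
      fun j => seleis_comm_pow (t j) (t q) M (hcomm j q) n
    refine ⟨(1 - t q ^ n) * E, ?_, ?_, ?_, ?_, ?_⟩
    · intro σ x
      rw [Module.End.mul_apply, Module.End.mul_apply, hEG, LinearMap.sub_apply,
        LinearMap.sub_apply, Module.End.one_apply, Module.End.one_apply, hGpow, smul_sub]
    · rw [Module.End.mul_apply, hEcr, LinearMap.sub_apply, Module.End.one_apply, hcrpow, sub_zero]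
    · intro i hi x hx
      have hEx : M • E x = 0 := seleis_tors_apply E hx
      rcases Finset.mem_insert.1 hi with rfl | hi
      · refine ⟨n, ?_⟩
        rw [Module.End.mul_apply, LinearMap.sub_apply, Module.End.one_apply, map_sub,
          hidem _ hEx, sub_self]
      · obtain ⟨m, hm⟩ := hEF i hi x hx
        refine ⟨m, ?_⟩
        rw [Module.End.mul_apply, LinearMap.sub_apply, Module.End.one_apply, map_sub, hm]
        -- `(t i) ^ m` commutes with `(t q) ^ n` on the torsion
        have h1 : (t i ^ m) ((t q ^ n) (E x)) = (t q ^ n) ((t i ^ m) (E x)) := by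
          have := seleis_comm_pow (t q ^ n) (t i) M (fun y hy => (hcq i y hy).symm) m (E x) hEx
          exact this.symm
        rw [h1, hm, map_zero, sub_zero]
    · intro j x hx
      have hEx : M • E x = 0 := seleis_tors_apply E hx
      rw [Module.End.mul_apply, Module.End.mul_apply, LinearMap.sub_apply,
        LinearMap.sub_apply, Module.End.one_apply, Module.End.one_apply, map_sub, hcq j _ hEx,
        hEc j x hx]
    · exact Subalgebra.mul_mem _ (Subalgebra.sub_mem _ (Subalgebra.one_mem _)
        (Subalgebra.pow_mem _ (Algebra.subset_adjoin (Set.mem_range_self q)) n)) hEadj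

/-- finitely many operators cut out the common generalised kernel in the finite group `J[M]` -/
theorem seleis_exists_finset (t : ι → Module.End ℤ J) (M : ℕ)
    (hfin : {x : J | M • x = 0}.Finite) :
    ∃ F : Finset ι, ∀ x : J, M • x = 0 → (∀ i ∈ F, ∃ m : ℕ, (t i ^ m) x = 0) →
      ∀ i : ι, ∃ m : ℕ, (t i ^ m) x = 0 := by
  classical
  let S : Finset J := hfin.toFinset.filter (fun x => ¬ ∀ i : ι, ∃ m : ℕ, (t i ^ m) x = 0)
  have wit : ∀ x ∈ S, ∃ i : ι, ¬ ∃ m : ℕ, (t i ^ m) x = 0 := fun x hx =>
    not_forall.1 (Finset.mem_filter.1 hx).2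
  refine ⟨S.attach.image (fun x : {x // x ∈ S} => (wit x.1 x.2).choose), fun x hx hF => ?_⟩
  by_contra hbad
  have hxS : x ∈ S := Finset.mem_filter.2 ⟨hfin.mem_toFinset.2 hx, hbad⟩
  apply (wit x hxS).choose_spec
  exact hF _ (Finset.mem_image.2 ⟨⟨x, hxS⟩, Finset.mem_attach _ _, rfl⟩)

end proj

end Fermat.Agent.S15
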