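import Fermat.Agent.ES.Hb
import Fermat.Agent.ES.RiemannGeneric
import Fermat.Agent.S24.PlaceBasic
import Fermat.Prelude.Def_AlgebraicCurve_Correspondence

/-!
# S15 (Mazur chain), piece T-J, abstract part: a correspondence on a totally split/ramified fibre

`φ ψ : F →ₐ[K] F'` two finite maps of function fields over `K` (all places of degree `1`).
If `v` is a place of `F` and `P₁, P₂` are two distinct places of `F'` with
`ord_{Pᵢ} (φ f) = eᵢ · ord_v f`, `ord_{Pᵢ} (ψ f) = dᵢ · ord_v f` and `e₁ + e₂ = [F' : φ F]`, then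
`ψ_* φ^* (v) = (e₁ + e₂) (v)`.

* `tj_restrictAlong_of_ord` : the restriction of a place and its ramification index, read off
  from the order function;
* `tj_pullbackAlong_single` : the pull-back of a place whose fibre is `{P₁, P₂}`;
* `tj_correspondence_single` : the statement above.
-/

set_option autoImplicit false
set_option linter.unusedSectionVars false
set_option linter.style.haveILetI false
set_option linter.unusedVariables false

noncomputable section

namespace Fermat.Agent.S15

open AlgebraicCurve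
open Fermat.Agent.S24

variable {K F F' : Type*} [Field K] [Field F] [Field F'] [Algebra K F] [Algebra K F']

/-- A place has an element of order `1`. -/
theorem tj_exists_ord_eq_one (v : Place K F) : ∃ f : F, f ≠ 0 ∧ v.ord f = 1 := by
  obtain ⟨π, hπ⟩ := IsDiscreteValuationRing.exists_irreducible v.toValuationSubring
  refine ⟨(π : F), ?_, v.ord_coe_irreducible hπ⟩
  simpa [ne_eq, ZeroMemClass.coe_eq_zero] using hπ.ne_zero

/-- The restriction of a place along `φ` and its ramification index, from the order function. -/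
theorem tj_restrictAlong_of_ord (φ : F →ₐ[K] F') (hφ : φ.toRingHom.IsIntegral)
    (P : Place K F') (v : Place K F) (e : ℕ) (he : 0 < e)
    (h : ∀ f : F, P.ord (φ f) = (e : ℤ) * v.ord f) :
    P.restrictAlong φ hφ = v ∧ Place.ramificationIndexAlong φ P = e := by
  have hres : P.restrictAlong φ hφ = v := by
    apply Place.ext
    ext f
    rcases eq_or_ne f 0 with rfl | hf
    · simp
    · have hφf : φ f ≠ 0 := (map_ne_zero φ).mpr hf
      have h1 : f ∈ (P.restrictAlong φ hφ).toValuationSubring ↔ φ f ∈ P.toValuationSubring :=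
        Iff.rfl
      rw [h1, ← PlaceAux.ord_nonneg_iff P hφf, ← PlaceAux.ord_nonneg_iff v hf, h f]
      have he' : (0 : ℤ) < e := by exact_mod_cast he
      constructor
      · intro h2
        by_contra h3
        have h4 : v.ord f < 0 := by omega
        nlinarith
      · intro h2
        positivity
  refine ⟨hres, ?_⟩
  obtain ⟨f, hf0, hf1⟩ := tj_exists_ord_eq_one v
  have h1 := Place.ord_restrictAlong φ hφ P f
  rw [hres, h f, hf1, mul_one, mul_one] at h1
  exact_mod_cast h1.symm

/-- An effective divisor of degree `0` is `0` (all places of degree `1`). -/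
theorem tj_eq_zero_of_degree_eq_zero (hdeg : ∀ P : Place K F, P.deg = 1) (D : Divisor K F)
    (hD : ∀ P, 0 ≤ D P) (h0 : Divisor.degree D = 0) : D = 0 := by
  have h1 : Divisor.degree D = ∑ P ∈ D.support, D P := by
    rw [Divisor.degree, Finsupp.liftAddHom_apply, Finsupp.sum]
    refine Finset.sum_congr rfl fun P _ => ?_
    rw [AddMonoidHom.mulRight_apply, hdeg P]
    simp
  rw [h1] at h0
  have h2 := (Finset.sum_eq_zero_iff_of_nonneg (fun P _ => hD P)).mp h0
  ext P
  by_cases hP : P ∈ D.support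
  · rw [h2 P hP]; rfl
  · rw [Finsupp.notMem_support_iff.mp hP]; rfl

/-- The pull-back of a place whose fibre consists of two known places. -/
theorem tj_pullbackAlong_single [HasPrincipalDivisors K F'] (φ : F →ₐ[K] F')
    (hφ : φ.toRingHom.IsIntegral) (hFI : FundamentalIdentityAlong K φ hφ)
    (hdeg' : ∀ P : Place K F', P.deg = 1) (v : Place K F) (hv : v.deg = 1)
    (P₁ P₂ : Place K F') (hne : P₁ ≠ P₂) (e₁ e₂ : ℕ) (he₁ : 0 < e₁) (he₂ : 0 < e₂)
    (h₁ : ∀ f : F, P₁.ord (φ f) = (e₁ : ℤ) * v.ord f)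
    (h₂ : ∀ f : F, P₂.ord (φ f) = (e₂ : ℤ) * v.ord f)
    (hsum : e₁ + e₂ = finrankAlong K φ) :
    Divisor.pullbackAlong φ hφ (Finsupp.single v 1) =
      Finsupp.single P₁ (e₁ : ℤ) + Finsupp.single P₂ (e₂ : ℤ) := by
  classical
  obtain ⟨hr₁, hi₁⟩ := tj_restrictAlong_of_ord φ hφ P₁ v e₁ he₁ h₁
  obtain ⟨hr₂, hi₂⟩ := tj_restrictAlong_of_ord φ hφ P₂ v e₂ he₂ h₂
  set D' := Divisor.pullbackAlong φ hφ (Finsupp.single v 1) with hD'
  have hval : ∀ P : Place K F', D' P =
      (Place.ramificationIndexAlong φ P : ℤ) * (Finsupp.single v (1 : ℤ)) (P.restrictAlong φ hφ) :=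
    fun P => Divisor.pullbackAlong_apply φ hφ _ P
  have hval₁ : D' P₁ = e₁ := by rw [hval, hr₁, hi₁, Finsupp.single_eq_same, mul_one]
  have hval₂ : D' P₂ = e₂ := by rw [hval, hr₂, hi₂, Finsupp.single_eq_same, mul_one]
  have hnn : ∀ P, 0 ≤ D' P := by
    intro P
    rw [hval]
    refine mul_nonneg (by positivity) ?_
    by_cases hP : v = P.restrictAlong φ hφ
    · rw [← hP, Finsupp.single_eq_same]; exact zero_le_one
    · rw [Finsupp.single_eq_of_ne (Ne.symm hP)]
  set R : Divisor K F' := D' - (Finsupp.single P₁ (e₁ : ℤ) + Finsupp.single P₂ (e₂ : ℤ)) with hR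
  have hRnn : ∀ P, 0 ≤ R P := by
    intro P
    rw [hR, Finsupp.sub_apply, Finsupp.add_apply]
    by_cases hP1 : P = P₁
    · subst hP1
      rw [hval₁, Finsupp.single_eq_same, Finsupp.single_eq_of_ne hne]
      simp
    · by_cases hP2 : P = P₂
      · subst hP2
        rw [hval₂, Finsupp.single_eq_same, Finsupp.single_eq_of_ne (Ne.symm hne)]
        simp
      · rw [Finsupp.single_eq_of_ne hP1, Finsupp.single_eq_of_ne hP2]
        simpa using hnn P
  have hRdeg : Divisor.degree R = 0 := by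
    rw [hR, map_sub, map_add, hD', Divisor.degree_pullbackAlong φ hφ hFI, Divisor.degree_single,
      Divisor.degree_single, Divisor.degree_single, hv, hdeg' P₁, hdeg' P₂, ← hsum]
    push_cast
    ring
  have hR0 := tj_eq_zero_of_degree_eq_zero hdeg' R hRnn hRdeg
  rw [hR, sub_eq_zero] at hR0
  exact hR0

/-- Push-forward of a place of degree `1` (over a field whose places all have residue field `K`). -/
theorem tj_pushforwardAlong_single (ψ : F →ₐ[K] F') (hψ : ψ.toRingHom.IsIntegral)
    (hres' : ∀ w : Place K F', Function.Bijective (algebraMap K w.ResidueField))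
    (P : Place K F') (v : Place K F) (hr : P.restrictAlong ψ hψ = v) (n : ℤ) :
    Divisor.pushforwardAlong ψ hψ (Finsupp.single P n) = Finsupp.single v n := by
  rw [Divisor.pushforwardAlong_single, hr]
  have h1 : P.inertiaDegAlong ψ hψ = 1 := by
    letI := algebraAlong ψ
    haveI := isScalarTower_along ψ
    haveI := isIntegral_along ψ hψ
    exact Fermat.Agent.ES.H.inertiaDeg_eq_one hres' P
  rw [h1]
  simp

/-- **The correspondence `ψ_* φ^*` on a place with a two-point fibre.** -/
theorem tj_correspondence_single [HasPrincipalDivisors K F'] (φ ψ : F →ₐ[K] F')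
    (hφ : φ.toRingHom.IsIntegral) (hψ : ψ.toRingHom.IsIntegral)
    (hFI : FundamentalIdentityAlong K φ hφ)
    (hres' : ∀ w : Place K F', Function.Bijective (algebraMap K w.ResidueField))
    (v : Place K F) (hv : v.deg = 1)
    (P₁ P₂ : Place K F') (hne : P₁ ≠ P₂) (e₁ e₂ d₁ d₂ : ℕ) (he₁ : 0 < e₁) (he₂ : 0 < e₂)
    (hd₁ : 0 < d₁) (hd₂ : 0 < d₂)
    (h₁ : ∀ f : F, P₁.ord (φ f) = (e₁ : ℤ) * v.ord f)
    (h₂ : ∀ f : F, P₂.ord (φ f) = (e₂ : ℤ) * v.ord f)
    (g₁ : ∀ f : F, P₁.ord (ψ f) = (d₁ : ℤ) * v.ord f)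
    (g₂ : ∀ f : F, P₂.ord (ψ f) = (d₂ : ℤ) * v.ord f)
    (hsum : e₁ + e₂ = finrankAlong K φ) :
    Divisor.correspondence φ ψ hφ hψ (Finsupp.single v 1) =
      Finsupp.single v ((e₁ : ℤ) + (e₂ : ℤ)) := by
  have hdeg' : ∀ P : Place K F', P.deg = 1 := fun P =>
    Fermat.Agent.ES.R.place_deg_eq_one P (hres' P)
  rw [Divisor.correspondence_apply,
    tj_pullbackAlong_single φ hφ hFI hdeg' v hv P₁ P₂ hne e₁ e₂ he₁ he₂ h₁ h₂ hsum, map_add,
    tj_pushforwardAlong_single ψ hψ hres' P₁ v (tj_restrictAlong_of_ord ψ hψ P₁ v d₁ hd₁ g₁).1,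
    tj_pushforwardAlong_single ψ hψ hres' P₂ v (tj_restrictAlong_of_ord ψ hψ P₂ v d₂ hd₂ g₂).1,
    ← Finsupp.single_add]

end Fermat.Agent.S15
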