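import Fermat.Agent.S15.Cusp
import Fermat.Agent.S15.TJCore
import Fermat.Agent.ES.HInputs
import Fermat.Agent.ES.G2.Swap
import Fermat.Agent.ES.G2.HeckeDeg
import Fermat.Agent.ES.GaloisHecke
import Fermat.Agent.S28.LaurentRank

/-!
# S15 (Mazur chain), piece T-J: the Hecke operators on the cuspidal class

For a prime `ℓ ∤ N` the prelude Hecke operator `T_ℓ = heckeOperatorBar N ℓ` (the correspondence
`α_* β^*`, `α` the inclusion `F_N ⊂ F_{Nℓ}`, `β : f(q) ↦ f(q^ℓ)`) satisfies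

* `tj_correspondence_cuspInf`  : `T_ℓ (∞) = (ℓ + 1) (∞)` (as divisors);
* `tj_correspondence_cuspZero` : `T_ℓ (0) = (ℓ + 1) (0)` (as divisors);
* `tj_hecke_cuspClass` : `heckeOperatorBar N ℓ (cuspClass N) = (ℓ + 1) • cuspClass N`;
* `tj_galois_hecke` : `T_ℓ` commutes with `G_ℚ` on `JZero N` (= `ES.galois_heckeOperatorBar`).

Proof: the places of `F_{Nℓ}` over `∞` are `∞'` (`e_β = ℓ`, `e_α = 1`) and `w ∞'` (`e_β = 1`,
`e_α = ℓ`), `w` the Atkin–Lehner involution exchanging `α` and `β` (`ES.G2.exists_swap`); there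
are no others because `ℓ + 1 = [F_{Nℓ} : β F_N]`.  For the cusp `0` conjugate by the Fricke
involutions of levels `N` and `Nℓ` (`W' ∘ α = β ∘ W`, `W' ∘ β = α ∘ W`).
-/

set_option autoImplicit false
set_option linter.unusedSectionVars false
set_option linter.style.haveILetI false
set_option linter.unusedVariables false

noncomputable section

namespace Fermat.Agent.S15

open ModularCurve AlgebraicCurve
open Fermat.Agent.S24 Fermat.Agent.ES.M Fermat.Agent.ES.G2 Fermat.Agent.ES.H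

variable (N ℓ : ℕ) [NeZero N] [NeZero ℓ]

/-! ### The degeneracy maps on the generators -/

theorem tj_alpha_jdF (d : ℕ) (hd : d ∣ N) :
    heckeAlphaBar Kb N ℓ (jdF N d hd) = jdF (N * ℓ) d (hd.trans (dvd_mul_right N ℓ)) := by
  apply Subtype.ext
  rfl

theorem tj_beta_jdF (d : ℕ) (hd : d ∣ N) :
    heckeBetaBar Kb N ℓ (jdF N d hd) = jdF (N * ℓ) (d * ℓ) (mul_dvd_mul_right hd ℓ) := by
  have hd0 : d ≠ 0 := fun h0 => NeZero.ne N (by rw [h0, zero_dvd_iff] at hd; exact hd)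
  haveI : NeZero d := ⟨hd0⟩
  haveI : NeZero (d * ℓ) := ⟨Nat.mul_ne_zero hd0 (NeZero.ne ℓ)⟩
  apply Subtype.ext
  rw [jdF_coe (N * ℓ) (d * ℓ)]
  show qExpand Kb ℓ (coeffEmb Kb (qExpand ℚ d jq)) = _
  rw [coeffEmb, ← coeffMap_qExpand, qExpand_qExpand]
  exact congrArg _ (qExpand_congr (mul_comm ℓ d) jq)

variable {N ℓ}

/-- Every generator of `F_{Nℓ}` is in the image of `α` or of `β`. -/
theorem tj_gen_cases (hℓ : ℓ.Prime) (d : ℕ) (hd : d ∣ N * ℓ) :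
    (∃ hd' : d ∣ N, jdF (N * ℓ) d hd = heckeAlphaBar Kb N ℓ (jdF N d hd')) ∨
      ∃ (d' : ℕ) (hd' : d' ∣ N), jdF (N * ℓ) d hd = heckeBetaBar Kb N ℓ (jdF N d' hd') := by
  by_cases h : ℓ ∣ d
  · right
    obtain ⟨d', rfl⟩ := h
    have hd' : d' ∣ N := by
      have h1 : ℓ * d' ∣ ℓ * N := by rwa [mul_comm ℓ N]
      exact (Nat.mul_dvd_mul_iff_left hℓ.pos).mp h1
    refine ⟨d', hd', ?_⟩
    rw [tj_beta_jdF]
    congr 1
    exact mul_comm ℓ d'
  · left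
    have hcop : Nat.Coprime d ℓ := (Nat.Coprime.symm ((Nat.Prime.coprime_iff_not_dvd hℓ).mpr h))
    have hd' : d ∣ N := hcop.dvd_of_dvd_mul_right hd
    exact ⟨hd', (tj_alpha_jdF N ℓ d hd').symm⟩

/-! ### The Atkin–Lehner involution as an automorphism -/

/-- The swap `w` (Atkin–Lehner involution at `ℓ`) is an involutive automorphism of `F_{Nℓ}`. -/
theorem tj_exists_swapEquiv (hℓ : ℓ.Prime) (hℓN : ¬ ℓ ∣ N) :
    ∃ w : FF (N * ℓ) ≃ₐ[Kb] FF (N * ℓ),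
      (∀ x, w (w x) = x) ∧
      (∀ v : FF N, w (heckeAlphaBar Kb N ℓ v) = heckeBetaBar Kb N ℓ v) ∧
      (∀ v : FF N, w (heckeBetaBar Kb N ℓ v) = heckeAlphaBar Kb N ℓ v) := by
  have hcop : Nat.Coprime ℓ N := (Nat.Prime.coprime_iff_not_dvd hℓ).mpr hℓN
  obtain ⟨w, hwα, hwβ⟩ := exists_swap N ℓ hcop
  have hww : w.comp w = AlgHom.id Kb (FF (N * ℓ)) := by
    apply FF_algHom_ext
    intro d hd
    rcases tj_gen_cases hℓ d hd with ⟨hd', h⟩ | ⟨d', hd', h⟩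
    · rw [h, AlgHom.comp_apply, hwα, hwβ, AlgHom.id_apply]
    · rw [h, AlgHom.comp_apply, hwβ, hwα, AlgHom.id_apply]
  refine ⟨AlgEquiv.ofAlgHom w w hww hww, fun x => ?_, hwα, hwβ⟩
  exact congrArg (fun f => f x) hww

/-- `[F_{Nℓ} : β F_N] = ℓ + 1`. -/
theorem tj_finrankAlong_beta (hℓ : ℓ.Prime) (hℓN : ¬ ℓ ∣ N) :
    finrankAlong Kb (heckeBetaBar Kb N ℓ) = ℓ + 1 := by
  obtain ⟨w, -, hwα, -⟩ := tj_exists_swapEquiv hℓ hℓN
  have h1 := hdeg_finrank N ℓ hℓ hℓN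
  rw [← h1]
  unfold finrankAlong
  refine (@Algebra.finrank_eq_of_equiv_equiv (FF N) (FF (N * ℓ)) _ _
    (algebraAlong (heckeAlphaBar Kb N ℓ)) (FF N) (FF (N * ℓ)) _ _
    (algebraAlong (heckeBetaBar Kb N ℓ)) (RingEquiv.refl _) w.toRingEquiv ?_).symm
  refine RingHom.ext fun v => ?_
  exact (hwα v).symm

/-! ### Orders at the cusp `∞'` of `F_{Nℓ}` -/

theorem tj_cuspInf_ord (M : ℕ) [NeZero M] (f : FF M) :
    (cuspInf M).ord f = (f : LaurentSeries Kb).order := by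
  rcases eq_or_ne f 0 with rfl | hf
  · simp
  · exact cuspInf_ord hf

theorem tj_ord_alpha (f : FF N) :
    (cuspInf (N * ℓ)).ord (heckeAlphaBar Kb N ℓ f) = (cuspInf N).ord f := by
  rw [tj_cuspInf_ord, tj_cuspInf_ord, coe_heckeAlphaBar]

theorem tj_ord_beta (f : FF N) :
    (cuspInf (N * ℓ)).ord (heckeBetaBar Kb N ℓ f) = (ℓ : ℤ) * (cuspInf N).ord f := by
  rw [tj_cuspInf_ord, tj_cuspInf_ord, coe_heckeBetaBar, Fermat.Agent.S28.order_qExpand]

/-! ### The correspondence on a place with a marked point of the fibre -/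

/-- If `P` lies over `v` with `e_α = 1` and `e_β = ℓ`, then `T_ℓ (v) = (ℓ + 1) (v)`. -/
theorem tj_correspondence_of_place (hℓ : ℓ.Prime) (hℓN : ¬ ℓ ∣ N)
    (v : Place Kb (FF N)) (P : Place Kb (FF (N * ℓ)))
    (hα : ∀ f : FF N, P.ord (heckeAlphaBar Kb N ℓ f) = v.ord f)
    (hβ : ∀ f : FF N, P.ord (heckeBetaBar Kb N ℓ f) = (ℓ : ℤ) * v.ord f) :
    haveI := hasPrincipalDivisors_FF (N * ℓ)
    Divisor.correspondence (heckeBetaBar Kb N ℓ) (heckeAlphaBar Kb N ℓ)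
      (heckeBetaBarIntegral N ℓ) (heckeAlphaBarIntegral N ℓ) (Finsupp.single v 1) =
        Finsupp.single v ((ℓ : ℤ) + 1) := by
  haveI := hasPrincipalDivisors_FF (N * ℓ)
  obtain ⟨w, hww, hwα, hwβ⟩ := tj_exists_swapEquiv hℓ hℓN
  have hsmul : ∀ x : FF (N * ℓ), (w • P).ord x = P.ord (w x) := by
    intro x
    have h := Place.ord_smul w P (w x)
    rwa [hww] at h
  have hv : v.deg = 1 := Fermat.Agent.ES.R.place_deg_eq_one v (residue_bijective_FF N v)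
  obtain ⟨f₀, hf₀, hf₁⟩ := tj_exists_ord_eq_one v
  have hne : P ≠ w • P := by
    intro h
    have h1 := hβ f₀
    rw [h, hsmul, hwβ, hα, hf₁] at h1
    have h2 : (ℓ : ℤ) = 1 := by linarith
    have h3 : ℓ = 1 := by exact_mod_cast h2
    exact hℓ.one_lt.ne' h3
  have key := tj_correspondence_single (heckeBetaBar Kb N ℓ) (heckeAlphaBar Kb N ℓ)
    (heckeBetaBarIntegral N ℓ) (heckeAlphaBarIntegral N ℓ)
    (fundamentalIdentityAlong_heckeBetaBar N ℓ) (residue_bijective_FF (N * ℓ)) v hv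
    P (w • P) hne ℓ 1 1 ℓ hℓ.pos one_pos one_pos hℓ.pos hβ
    (fun f => by rw [hsmul, hwβ, hα]; simp)
    (fun f => by rw [hα]; simp)
    (fun f => by rw [hsmul, hwα, hβ])
    (tj_finrankAlong_beta hℓ hℓN).symm
  rw [key]
  simp

/-- `T_ℓ (∞) = (ℓ + 1) (∞)`. -/
theorem tj_correspondence_cuspInf (hℓ : ℓ.Prime) (hℓN : ¬ ℓ ∣ N) :
    haveI := hasPrincipalDivisors_FF (N * ℓ)
    Divisor.correspondence (heckeBetaBar Kb N ℓ) (heckeAlphaBar Kb N ℓ)
      (heckeBetaBarIntegral N ℓ) (heckeAlphaBarIntegral N ℓ) (Finsupp.single (cuspInf N) 1) =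
        Finsupp.single (cuspInf N) ((ℓ : ℤ) + 1) :=
  tj_correspondence_of_place hℓ hℓN (cuspInf N) (cuspInf (N * ℓ)) tj_ord_alpha tj_ord_beta

/-! ### The Fricke involutions of levels `N` and `Nℓ` -/

theorem tj_fricke_alpha (hℓ : ℓ.Prime) (hℓN : ¬ ℓ ∣ N) (x : FF N) :
    frickeAut (N * ℓ) (heckeAlphaBar Kb N ℓ x) = heckeBetaBar Kb N ℓ (frickeAut N x) := by
  have h : ((frickeAut (N * ℓ)).toAlgHom.comp (heckeAlphaBar Kb N ℓ)) =
      (heckeBetaBar Kb N ℓ).comp (frickeAut N).toAlgHom := by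
    apply FF_algHom_ext
    intro d hd
    have hd0 : 0 < d := Nat.pos_of_dvd_of_pos hd (Nat.pos_of_ne_zero (NeZero.ne N))
    show frickeAut (N * ℓ) (heckeAlphaBar Kb N ℓ (jdF N d hd)) =
      heckeBetaBar Kb N ℓ (frickeAut N (jdF N d hd))
    rw [tj_alpha_jdF, frickeAut_jdF, frickeAut_jdF, tj_beta_jdF]
    congr 1
    obtain ⟨c, hc⟩ := hd
    rw [hc, mul_assoc, Nat.mul_div_cancel_left _ hd0, Nat.mul_div_cancel_left _ hd0]
  exact congrArg (fun f => f x) h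

theorem tj_fricke_beta (hℓ : ℓ.Prime) (hℓN : ¬ ℓ ∣ N) (x : FF N) :
    frickeAut (N * ℓ) (heckeBetaBar Kb N ℓ x) = heckeAlphaBar Kb N ℓ (frickeAut N x) := by
  have h : ((frickeAut (N * ℓ)).toAlgHom.comp (heckeBetaBar Kb N ℓ)) =
      (heckeAlphaBar Kb N ℓ).comp (frickeAut N).toAlgHom := by
    apply FF_algHom_ext
    intro d hd
    show frickeAut (N * ℓ) (heckeBetaBar Kb N ℓ (jdF N d hd)) =
      heckeAlphaBar Kb N ℓ (frickeAut N (jdF N d hd))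
    rw [tj_beta_jdF, frickeAut_jdF, frickeAut_jdF, tj_alpha_jdF]
    congr 1
    exact Nat.mul_div_mul_right N d hℓ.pos
  exact congrArg (fun f => f x) h

/-- `T_ℓ (0) = (ℓ + 1) (0)`. -/
theorem tj_correspondence_cuspZero (hℓ : ℓ.Prime) (hℓN : ¬ ℓ ∣ N) :
    haveI := hasPrincipalDivisors_FF (N * ℓ)
    Divisor.correspondence (heckeBetaBar Kb N ℓ) (heckeAlphaBar Kb N ℓ)
      (heckeBetaBarIntegral N ℓ) (heckeAlphaBarIntegral N ℓ) (Finsupp.single (cuspZero N) 1) =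
        Finsupp.single (cuspZero N) ((ℓ : ℤ) + 1) := by
  obtain ⟨w, hww, hwα, hwβ⟩ := tj_exists_swapEquiv hℓ hℓN
  have hsmul : ∀ (P : Place Kb (FF (N * ℓ))) (x : FF (N * ℓ)), (w • P).ord x = P.ord (w x) := by
    intro P x
    have h := Place.ord_smul w P (w x)
    rwa [hww] at h
  refine tj_correspondence_of_place hℓ hℓN (cuspZero N)
    (frickeAut (N * ℓ) • (w • cuspInf (N * ℓ))) (fun f => ?_) (fun f => ?_)
  · rw [fr_ord_frickeAut, tj_fricke_alpha hℓ hℓN, hsmul, hwβ, tj_ord_alpha, cuspZero_ord]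
  · rw [fr_ord_frickeAut, tj_fricke_beta hℓ hℓN, hsmul, hwα, tj_ord_beta, cuspZero_ord]

/-! ### The cuspidal class -/

/-- `T_ℓ ((0) − (∞)) = (ℓ + 1) ((0) − (∞))` as divisors. -/
theorem tj_correspondence_cuspDiv (hℓ : ℓ.Prime) (hℓN : ¬ ℓ ∣ N) :
    haveI := hasPrincipalDivisors_FF (N * ℓ)
    Divisor.correspondence (heckeBetaBar Kb N ℓ) (heckeAlphaBar Kb N ℓ)
      (heckeBetaBarIntegral N ℓ) (heckeAlphaBarIntegral N ℓ)
        ((cuspDiv N : Divisor.degZero (K := Kb) (F := FF N)) : Divisor Kb (FF N)) =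
      ((ℓ : ℤ) + 1) • ((cuspDiv N : Divisor.degZero (K := Kb) (F := FF N)) : Divisor Kb (FF N)) := by
  rw [coe_cuspDiv, map_sub, tj_correspondence_cuspInf hℓ hℓN, tj_correspondence_cuspZero hℓ hℓN,
    smul_sub, Finsupp.smul_single, Finsupp.smul_single, smul_eq_mul, mul_one]

/-- **T-J**: `T_ℓ c = (ℓ + 1) c` for the cuspidal class `c = [(0) − (∞)]` and every prime
`ℓ ∤ N`. -/
theorem tj_hecke_cuspClass_int (hℓ : ℓ.Prime) (hℓN : ¬ ℓ ∣ N) :
    heckeOperatorBar N (⟨ℓ, hℓ⟩ : Nat.Primes) (cuspClass N) = ((ℓ : ℤ) + 1) • cuspClass N := by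
  haveI := hasPrincipalDivisors_FF (N * ℓ)
  show heckeOperatorAlong (AlgebraicClosure ℚ) N ℓ (cuspClass N) = _
  rw [heckeOperatorAlong_eq_heckePic0Bar N ℓ]
  have h : Pic0.degZeroCorrespondence (heckeBetaBar Kb N ℓ) (heckeAlphaBar Kb N ℓ)
      (heckeBetaBarIntegral N ℓ) (heckeAlphaBarIntegral N ℓ)
      (fundamentalIdentityAlong_heckeBetaBar N ℓ) (cuspDiv N) = ((ℓ : ℤ) + 1) • cuspDiv N := by
    apply Subtype.ext
    exact (tj_correspondence_cuspDiv hℓ hℓN).trans rfl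
  show Pic0.mk (Pic0.degZeroCorrespondence (heckeBetaBar Kb N ℓ) (heckeAlphaBar Kb N ℓ)
      (heckeBetaBarIntegral N ℓ) (heckeAlphaBarIntegral N ℓ)
      (fundamentalIdentityAlong_heckeBetaBar N ℓ) (cuspDiv N)) = _
  rw [h]
  rfl

/-- **T-J**, `ℕ`-form: `T_ℓ c = (1 + ℓ) • c`. -/
theorem tj_hecke_cuspClass (hℓ : ℓ.Prime) (hℓN : ¬ ℓ ∣ N) :
    heckeOperatorBar N (⟨ℓ, hℓ⟩ : Nat.Primes) (cuspClass N) = (1 + ℓ) • cuspClass N := by
  rw [tj_hecke_cuspClass_int hℓ hℓN, ← natCast_zsmul]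
  congr 1
  push_cast
  ring

/-- **T-J** for prime level: `T_q c = (1 + q) • c` for primes `q ≠ N`. -/
theorem tj_hecke_cuspClass_prime (hN : N.Prime) (q : Nat.Primes) (hq : (q : ℕ) ≠ N) :
    heckeOperatorBar N q (cuspClass N) = (1 + (q : ℕ)) • cuspClass N := by
  haveI : NeZero (q : ℕ) := ⟨q.2.ne_zero⟩
  have hqN : ¬ (q : ℕ) ∣ N := fun h =>
    hq ((Nat.prime_dvd_prime_iff_eq q.2 hN).mp h)
  exact tj_hecke_cuspClass (N := N) (ℓ := (q : ℕ)) q.2 hqN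

/-- `T_q` commutes with `G_ℚ` on `JZero N` (every level, every prime). -/
theorem tj_galois_hecke (N : ℕ) [NeZero N] (σ : Kb ≃ₐ[ℚ] Kb) (q : Nat.Primes) (x : JZero N) :
    σ • heckeOperatorBar N q x = heckeOperatorBar N q (σ • x) :=
  Fermat.Agent.ES.galois_heckeOperatorBar N σ q x

end Fermat.Agent.S15
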