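import Fermat.Agent.S15.SelPlan
import Fermat.Agent.S15.ESk
import Fermat.Agent.S15.TJ
import Fermat.Agent.Common.FrobExists
import Fermat.Agent.S15.SelEisProjAbs

/-!
# S15 / SELMER block, piece SEL-EIS (b): the Eisenstein projector

`stmtSelEisProj : StmtSelEisProj`: for every `k` there is a `G_ℚ`-equivariant endomorphism `E` of
`J₀(N)` (a polynomial in the Hecke operators `T_q`, `q ∤ N r`) with `E cr = cr` and
`E (J[r^k]) ⊂ selEisPart N r k`.

Construction: `S_q := T_q - (1 + q)`.  On the finite group `V = J[r^k]` some power `S_q ^ m`,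
`m ≥ 1`, is idempotent, the `T_q` commute on `V` (`seleisp_comm`, from the Eichler–Shimura
relation `T_q = τ + q τ⁻¹` on `V`), and finitely many `q` cut out the Eisenstein part.
`E := ∏ (1 - S_q ^ m_q)`; the abstract part is `SelEisProjAbs.lean` (helper72).
-/

set_option autoImplicit false
set_option linter.style.haveILetI false

noncomputable section

namespace Fermat.Agent.S15

open ModularCurve AlgebraicCurve
open Fermat.Agent.S24 Fermat.Agent.W1

/-- **SEL-EIS (b)**: the projector. -/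
def StmtSelEisProj : Prop :=
  ∀ (N : ℕ) [NeZero N] (r : ℕ), N.Prime → r.Prime → r ≠ N →
    ∀ cr : JZero N, cr ≠ 0 → r • cr = 0 → (∃ n : ℕ, cr = n • cuspClass N) →
    ∀ k : ℕ, ∃ E : JZero N →+ JZero N, (∀ (σ : GalQ) (x : JZero N), E (σ • x) = σ • E x) ∧
      E cr = cr ∧ ∀ x : JZero N, r ^ k • x = 0 → E x ∈ selEisPart N r k

/-! ## The Hecke operators on `J[r^k]` -/

section Hecke

variable (N r k : ℕ) [NeZero N]

omit [NeZero N] in
theorem seleisp_tors (f : Module.End ℤ (JZero N)) {x : JZero N} (hx : r ^ k • x = 0) :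
    r ^ k • f x = 0 := by
  rw [← map_nsmul, hx, map_zero]

omit [NeZero N] in
theorem seleisp_gal_nsmul (σ : GalQ) (n : ℕ) (x : JZero N) : σ • (n • x) = n • (σ • x) :=
  map_nsmul (DistribSMul.toAddMonoidHom (JZero N) σ) n x

omit [NeZero N] in
theorem seleisp_gal_zsmul (σ : GalQ) (n : ℤ) (x : JZero N) : σ • (n • x) = n • (σ • x) :=
  map_zsmul (DistribSMul.toAddMonoidHom (JZero N) σ) n x

omit [NeZero N] in
theorem seleisp_tors_smul (σ : GalQ) {x : JZero N} (hx : r ^ k • x = 0) :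
    r ^ k • (σ • x) = 0 := by
  rw [← seleisp_gal_nsmul, hx]
  exact smul_zero (A := JZero N) σ

/-- Eichler–Shimura on `J[r^k]`: `T_q = τ + q τ⁻¹`. -/
theorem seleisp_hecke_eq (q : Nat.Primes) (hq : ¬ (q : ℕ) ∣ N * r)
    (A : ValuationSubring Kb) (hA : A.LiesOverPrime q) (τ : GalQ)
    (hτ : A.IsFrobeniusAt τ q) {x : JZero N} (hx : r ^ k • x = 0) :
    heckeOperatorBar N q x = τ • x + (q : ℕ) • (τ⁻¹ • x) := by
  have h := esk_frob N r q q.2 hq A hA τ hτ k (τ⁻¹ • x) (seleisp_tors_smul N r k τ⁻¹ hx)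
  rw [smul_inv_smul] at h
  have h2 : τ • x + (q : ℕ) • (τ⁻¹ • x) - heckeOperatorBar N q x = 0 := by
    rw [← h]
    abel
  exact (sub_eq_zero.mp h2).symm

/-- the Hecke operators commute on `J[r^k]` -/
theorem seleisp_comm (q q' : Nat.Primes) (hq : ¬ (q : ℕ) ∣ N * r) {x : JZero N}
    (hx : r ^ k • x = 0) :
    heckeOperatorBar N q (heckeOperatorBar N q' x)
      = heckeOperatorBar N q' (heckeOperatorBar N q x) := by
  obtain ⟨A, hA⟩ := Fermat.Agent.Common.exists_liesOverPrime q q.2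
  obtain ⟨τ, hτ⟩ := Fermat.Agent.Common.exists_isFrobeniusAt_of_liesOverPrime q q.2 A hA
  rw [seleisp_hecke_eq N r k q hq A hA τ hτ (seleisp_tors N r k (heckeOperatorBar N q') hx),
    seleisp_hecke_eq N r k q hq A hA τ hτ hx, map_add, map_nsmul,
    esk_galois_hecke N τ q' x, esk_galois_hecke N τ⁻¹ q' x]

omit [NeZero N] in
/-- shifting commuting operators by scalars -/
theorem seleisp_comm_shift (a b : Module.End ℤ (JZero N)) (m n : ℤ) (x : JZero N)
    (h : a (b x) = b (a x)) :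
    (a - m • (1 : Module.End ℤ (JZero N))) ((b - n • (1 : Module.End ℤ (JZero N))) x)
      = (b - n • (1 : Module.End ℤ (JZero N))) ((a - m • (1 : Module.End ℤ (JZero N))) x) := by
  simp only [LinearMap.sub_apply, LinearMap.smul_apply, Module.End.one_apply, map_sub,
    map_zsmul, h]
  rw [zsmul_sub, zsmul_sub, ← mul_zsmul, ← mul_zsmul, mul_comm m n]
  abel

/-- the operators `S_q` commute on `J[r^k]` -/
theorem seleisp_comm_op (q q' : Nat.Primes) (hq : ¬ (q : ℕ) ∣ N * r) {x : JZero N}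
    (hx : r ^ k • x = 0) :
    selEisOp N q (selEisOp N q' x) = selEisOp N q' (selEisOp N q x) :=
  seleisp_comm_shift N _ _ _ _ x (seleisp_comm N r k q q' hq hx)

/-- `S_q` kills the multiples of the cuspidal class -/
theorem seleisp_op_cusp (hN : N.Prime) (q : Nat.Primes) (hq : ¬ (q : ℕ) ∣ N * r) (n : ℕ) :
    selEisOp N q (n • cuspClass N) = 0 := by
  have hqN : (q : ℕ) ≠ N := fun h => hq (h ▸ dvd_mul_right _ _)
  have h := tj_hecke_cuspClass_prime hN q hqN
  rw [map_nsmul]
  simp only [selEisOp, LinearMap.sub_apply, LinearMap.smul_apply, Module.End.one_apply]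
  rw [h, natCast_zsmul, sub_self, smul_zero]

/-- `S_q` commutes with the Galois action -/
theorem seleisp_op_galois (q : Nat.Primes) (σ : GalQ) (x : JZero N) :
    selEisOp N q (σ • x) = σ • selEisOp N q x := by
  simp only [selEisOp, LinearMap.sub_apply, LinearMap.smul_apply, Module.End.one_apply]
  rw [← esk_galois_hecke N σ q x, smul_sub, seleisp_gal_zsmul]

end Hecke

/-! ## The projector -/

/-- **SEL-EIS (b)**: the Eisenstein projector exists. -/
theorem stmtSelEisProj : StmtSelEisProj := by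
  intro N _ r hN hr hrN cr _ _ hcrn k
  obtain ⟨n, rfl⟩ := hcrn
  have hrk : r ^ k ≠ 0 := pow_ne_zero _ hr.ne_zero
  have hfin : {x : JZero N | r ^ k • x = 0}.Finite := esk_finite N (r ^ k) hrk
  let ι : Type := {q : Nat.Primes // ¬ (q : ℕ) ∣ N * r}
  let t : ι → Module.End ℤ (JZero N) := fun q => selEisOp N q.1
  obtain ⟨F, hF⟩ := seleis_exists_finset t (r ^ k) hfin
  obtain ⟨E, hEG, hEcr, hEF, -, -⟩ := seleis_exists_proj (G := GalQ) t (r ^ k) hfin
    (fun q σ x => seleisp_op_galois N q.1 σ x)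
    (fun q q' x hx => seleisp_comm_op N r k q.1 q'.1 q.2 hx)
    (n • cuspClass N) (fun q => seleisp_op_cusp N r hN q.1 q.2 n) F
  refine ⟨E.toAddMonoidHom, fun σ x => hEG σ x, hEcr, fun x hx => ?_⟩
  refine mem_selEisPart.2 ⟨seleisp_tors N r k E hx, fun q hq => ?_⟩
  exact hF (E x) (seleisp_tors N r k E hx) (fun i hi => hEF i hi x hx) ⟨q, hq⟩

end Fermat.Agent.S15
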