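/-
S15 / SELMER block, piece **SEL-EIS**: `stmtSelEis : StmtSelEis` (helper72), from
(a) `stmtSelEisChain` (`S15/SelEis.lean`, helper72) and (b) `stmtSelEisProj`
(`S15/SelEisProj.lean`, helper12).
-/
import Fermat.Agent.S15.SelEis
import Fermat.Agent.S15.SelEisProj

set_option autoImplicit false

noncomputable section

namespace Fermat.Agent.S15

open ModularCurve AlgebraicCurve
open Fermat.Agent.S24 Fermat.Agent.W1

/-- glue of the two halves of SEL-EIS -/
theorem stmtSelEis_of (ha : StmtSelEisChain) (hb : StmtSelEisProj) : StmtSelEis := by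
  intro N _ r hN hr hrN cr hcr0 hcr hcrn k
  obtain ⟨L, W, hW0, hWL, hstep⟩ := ha N r hN hr hrN k
  obtain ⟨E, hE1, hE2, hE3⟩ := hb N r hN hr hrN cr hcr0 hcr hcrn k
  exact ⟨⟨E, L, W⟩, ⟨hE1, hE2, hE3, hW0, hWL, hstep⟩⟩

/-- **SEL-EIS** -/
theorem stmtSelEis : StmtSelEis := stmtSelEis_of stmtSelEisChain stmtSelEisProj

end Fermat.Agent.S15
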