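import Fermat.Agent.S15.SelTopTwo
import Fermat.Agent.S15.RealPlan
import Fermat.Agent.S15.SelEisFinal
import Fermat.Agent.S15.FinRedFinal

/-!
# S15 / SELMER block: `StmtFinCoreTwo` from the count `(CNT*)` ("G-two")

* `stmtFinCoreTwo_of : StmtSelEis → StmtFinRed → StmtSelCntStar → StmtFinCoreTwo`;
* `stmtFinCoreTwo_of_star : StmtSelCntStar → StmtFinCoreTwo` (with `stmtSelEis`, `stmtFinRed`).
-/

set_option autoImplicit false

noncomputable section

namespace Fermat.Agent.S15

open ModularCurve AlgebraicCurve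
open Fermat.Agent.S24 Fermat.Agent.W1

/-- **G-two**: the descent at `2` from the uniform count. -/
theorem stmtFinCoreTwo_of (hEis : StmtSelEis) (hFR : StmtFinRed) (hCnt : StmtSelCntStar) :
    StmtFinCoreTwo := by
  intro N _ hNM cr hcr0 hrcr hcrc AN hAN w hw hdiv
  have h2N : 2 ≠ N := by
    intro h
    have := hNM.2
    rw [← h] at this
    simp at this
  exact seltoptwo_core_cc hEis hFR N hNM (selFixC N) (fun _ => mem_selFixC) AN hAN
    (hCnt N 2 hNM.1 Nat.prime_two h2N AN hAN) cr hcr0 hrcr hcrc w hw hdiv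

/-- **G-two**, with the unconditional inputs plugged in. -/
theorem stmtFinCoreTwo_of_star (hCnt : StmtSelCntStar) : StmtFinCoreTwo :=
  stmtFinCoreTwo_of stmtSelEis stmtFinRed hCnt

end Fermat.Agent.S15
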