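import Fermat.Agent.S15.SelFinal
import Fermat.Agent.S15.SelTopTwoFinal
import Fermat.Agent.S15.CntOdd

/-!
# S15 / SELMER block: `StmtFin` from the uniform count `(CNT*)`

`stmtFin_of_star : StmtSelCntStar → StmtFin`: the whole SELMER block (`Plan.StmtFin`) from
`(CNT*) = TORIC × REAL` alone.  G-odd is `stmtSelCntOddCr_of` (helper47), G-two is
`stmtFinCoreTwo_of_star`.
-/

set_option autoImplicit false

namespace Fermat.Agent.S15

/-- the descent for all `r` from the uniform count -/
theorem stmtFinCore_of_star (h : StmtSelCntStar) : StmtFinCore :=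
  stmtFinCore_of_cases
    (stmtFinCoreOdd_of_cnt (stmtSelCntOddCr_of h stmtSelArTrivEt stmtSelEis))
    (stmtFinCoreTwo_of_star h)

/-- **SELMER block**: `StmtFin` from `(CNT*)` -/
theorem stmtFin_of_star (h : StmtSelCntStar) : StmtFin :=
  stmtFin_of_core (stmtFinCore_of_star h)

end Fermat.Agent.S15
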