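import Fermat.Agent.S15.Toric
import Fermat.Agent.UNIP.Glue

/-!
# S15 / CNT / TORIC from the Kummer form of UNIP

`stmtSelToric_of_kummer : UNIP.StmtUnipKummer → StmtSelToric`: the only input of TORIC is the
target `StmtUnipKummer` of the UNIP mountain (`UNIP/Stmt.lean`, `NOTES/S34-plan.md`).
-/

set_option autoImplicit false

namespace Fermat.Agent.S15

open ModularCurve AlgebraicCurve
open Fermat.Agent.S24 Fermat.Agent.W1

/-- `StmtToricUnip` from the Kummer form of UNIP -/
theorem stmtToricUnip_of_kummer (h : Fermat.Agent.UNIP.StmtUnipKummer) : StmtToricUnip :=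
  fun N _ r _ hr _ => Fermat.Agent.UNIP.esUnip_of_stmtUnipKummer h N r hr

/-- **TORIC** from the Kummer form of UNIP -/
theorem stmtSelToric_of_kummer (h : Fermat.Agent.UNIP.StmtUnipKummer) : StmtSelToric :=
  stmtSelToric_of_unip (stmtToricUnip_of_kummer h)

end Fermat.Agent.S15
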