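import Fermat.Agent.S15.Top
import Fermat.Agent.S15.OggCusp
import Fermat.Agent.S15.N3Main
import Fermat.Agent.S15.LocDivFinal
import Fermat.Agent.S15.PkgWire
import Fermat.Agent.S15.PkgTVFibre
import Fermat.Agent.S15.PkgRdivAsm
import Fermat.Agent.S15.PkgUniq
import Fermat.Agent.S15.PkgMinH
import Fermat.Agent.S15.FinRedFinal
import Fermat.Agent.S15.SelFinalStar
import Fermat.Agent.S15.ToricKummer
import Fermat.Agent.S15.RealFinal
import Fermat.Agent.UNIP.MGChartsBeta0All

/-!
# S15: the final wiring (captain helper17)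

All six inputs of `s15_of_inputs` (`S15/Top.lean`) are theorems:

| input | theorem | block |
|---|---|---|
| `StmtCusp`    | `stmtCusp_proved` (OggCusp.lean) | OGG-lite |
| `StmtMod`     | `stmtMod` (N3Main.lean) | MOD + N3 |
| `StmtLocDiv`  | `stmtLocDiv` (LocDivFinal.lean) | LOCDIV |
| `StmtLocDivN` | `s15w_stmtLocDivN` (here: PkgWire, PkgTVFibre, PkgRdivAsm, PkgUniq, PkgMinH) | LOCAL-N + LN-PKG |
| `StmtFinRed`  | `stmtFinRed` (FinRedFinal.lean) | FINRED |
| `StmtFin`     | `s15w_stmtFin` (here: SelFinalStar, ToricKummer + UNIP, RealFinal) | SELMER + CNT |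

`s15w_main : S15Statement` is the frozen statement S15.
-/

set_option autoImplicit false

namespace Fermat.Agent.S15

open Fermat.Agent.S15.LN

/-- **LOCDIV at the level prime** -/
theorem s15w_stmtLocDivN : StmtLocDivN :=
  stmtLocDivN_of_open stmtPkgFibre (stmtPkgRdiv_of (stmtPkgUniq_of stmtPkgMinH stmtPkgFibre))

/-- **TORIC** -/
theorem s15w_stmtSelToric : StmtSelToric :=
  stmtSelToric_of_kummer Fermat.Agent.UNIP.mgcb_stmtUnipKummer

/-- `x ≤ p²` and `x ≤ c q²` with `1 ≤ c` give `x ≤ c p q` -/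
theorem s15w_le_mul_of_le_sq {x p q c : ℕ} (hc : 1 ≤ c) (h1 : x ≤ p ^ 2) (h2 : x ≤ c * q ^ 2) :
    x ≤ c * (p * q) := by
  by_contra h
  have h3 : c * (p * q) < x := Nat.lt_of_not_le h
  have h4 : (c * (p * q)) * (c * (p * q)) < x * x := Nat.mul_self_lt_mul_self h3
  have h5 : x * x ≤ p ^ 2 * (c * q ^ 2) := Nat.mul_le_mul h1 h2
  have h6 : p ^ 2 * (c * q ^ 2) ≤ (c * (p * q)) * (c * (p * q)) := by
    have e1 : p ^ 2 * (c * q ^ 2) = 1 * (c * (p * q) * (p * q)) := by ring
    have e2 : (c * (p * q)) * (c * (p * q)) = c * (c * (p * q) * (p * q)) := by ring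
    rw [e1, e2]
    exact Nat.mul_le_mul_right _ hc
  exact absurd (lt_of_lt_of_le h4 (le_trans h5 h6)) (lt_irrefl _)

/-- **(CNT\*)**: the uniform count, from TORIC and REAL -/
theorem s15w_stmtSelCntStar : StmtSelCntStar := by
  intro N _ r hN hr hrN AN hAN
  obtain ⟨a, ha⟩ := stmtSelReal N r hN hr hrN
  refine ⟨a, fun k => ?_⟩
  have h1 : Nat.card ↥(selEisPart N r k) ≤ Nat.card ↥(selEisPart N r k ⊓ selIF N AN) ^ 2 :=
    s15w_stmtSelToric N r hN hr hrN AN hAN (selEisPart N r k) (toricpre_finite N r k hr)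
      (fun x hx => ⟨k, (mem_selEisPart.1 hx).1⟩)
      (fun σ _ x hx => toricpre_stable N r k σ hx)
  exact s15w_le_mul_of_le_sq (Nat.one_le_pow _ _ hr.pos) h1 (ha k)

/-- **FIN″**: the Eisenstein descent -/
theorem s15w_stmtFin : StmtFin := stmtFin_of_star s15w_stmtSelCntStar

/-- **S15** (Mazur's key step), in the form of the frozen statement -/
theorem s15w_main : S15Statement :=
  s15_of_inputs stmtCusp_proved stmtMod stmtLocDiv s15w_stmtLocDivN stmtFinRed s15w_stmtFin

end Fermat.Agent.S15
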