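import Fermat.Agent.S15.PlanN

/-!
# S15 block LOCAL-N, piece LN-ALG (helper5): what the descent gets from the toric filtration

From `LNPkg.IsLN` (a filtration `J1 ≤ J0 ≤ JZero N` at `A ∣ N`), by pure algebra:

* `ln_torsion_fixed` (**N1**): the `m`-torsion of `J0` is fixed pointwise by inertia;
* `ln_divisible` : `J0` is `m`-divisible (`m` prime to the residue characteristic);
* `ln_exists_root` (**N2**): a `D_A`-fixed `x ∈ J0` has an `m`-th root `R ∈ J0` fixed by inertia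
  with `σ R - R ∈ J0[m]` for every `σ` in the decomposition group;
* `ln_inertia_sub` (**L-N**): for `j ∈ J0` and `σ` in inertia, `σ j - j` lies in `J1`, hence is
  zero as soon as it is torsion of order prime to the residue characteristic.
-/

set_option autoImplicit false

open AlgebraicCurve ModularCurve

namespace Fermat.Agent.S15.LN

open Fermat.Agent.S24

variable {N : ℕ} [NeZero N] {P : LNPkg N} {A : ValuationSubring Kb} {g : ℕ}

omit [NeZero N] in
theorem ln_smul_nsmul (σ : Kb ≃ₐ[ℚ] Kb) (m : ℕ) (x : JZero N) :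
    σ • (m • x) = m • (σ • x) :=
  map_nsmul (DistribSMul.toAddMonoidHom (JZero N) σ) m x

/-- **(L-N)**: for `j ∈ J0` and `σ` in the inertia group, a torsion difference `σ j - j` is
zero. -/
theorem ln_inertia_sub (h : P.IsLN A g) {m : ℕ} (hm : (m : Kb) ∉ A.nonunits)
    {σ : Kb ≃ₐ[ℚ] Kb} (hσ : σ ∈ A.inertiaSubgroupIn ℚ) {y : JZero N} (hy : y ∈ P.J0)
    (hmy : m • (σ • y - y) = 0) : σ • y = y :=
  sub_eq_zero.mp (h.tf m hm _ (h.inertia σ hσ y hy) hmy)

/-- **(N1)**: the `m`-torsion of `J0` is fixed pointwise by the inertia group. -/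
theorem ln_torsion_fixed (h : P.IsLN A g) {m : ℕ} (hm : (m : Kb) ∉ A.nonunits)
    {σ : Kb ≃ₐ[ℚ] Kb} (hσ : σ ∈ A.inertiaSubgroupIn ℚ) {y : JZero N} (hy : y ∈ P.J0)
    (hmy : m • y = 0) : σ • y = y := by
  refine ln_inertia_sub h hm hσ hy ?_
  have h0 : σ • (0 : JZero N) = 0 := map_zero (DistribSMul.toAddMonoidHom (JZero N) σ)
  rw [nsmul_sub, ← ln_smul_nsmul, hmy, h0, sub_zero]

theorem ln_ne_zero_of_not_nonunit {m : ℕ} (hm : (m : Kb) ∉ A.nonunits) : m ≠ 0 := by
  rintro rfl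
  apply hm
  rw [Nat.cast_zero, ValuationSubring.mem_nonunits_iff, map_zero]
  exact zero_lt_one

/-- `J0` is `m`-divisible for `m` prime to the residue characteristic. -/
theorem ln_divisible (h : P.IsLN A g) {m : ℕ} (hm : (m : Kb) ∉ A.nonunits)
    {x : JZero N} (hx : x ∈ P.J0) : ∃ R ∈ P.J0, m • R = x := by
  obtain ⟨R₁, hR₁, h1⟩ := h.quot m (ln_ne_zero_of_not_nonunit hm) x hx
  obtain ⟨y, hy, hym⟩ := h.div1 m hm _ h1
  refine ⟨R₁ + y, P.J0.add_mem hR₁ (h.le hy), ?_⟩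
  rw [nsmul_add, hym]
  abel

/-- **(N2)**: a point of `J0` fixed by the decomposition group has an `m`-th root in `J0`
which is fixed by inertia and moved by the decomposition group inside `J0[m]`. -/
theorem ln_exists_root (h : P.IsLN A g) {m : ℕ} (hm : (m : Kb) ∉ A.nonunits)
    (hID : A.inertiaSubgroupIn ℚ ≤ A.decompositionSubgroup ℚ)
    {x : JZero N} (hx : x ∈ P.J0) (hfix : ∀ σ ∈ A.decompositionSubgroup ℚ, σ • x = x) :
    ∃ R ∈ P.J0, m • R = x ∧ (∀ σ ∈ A.inertiaSubgroupIn ℚ, σ • R = R) ∧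
      ∀ σ ∈ A.decompositionSubgroup ℚ, σ • R - R ∈ P.J0 ∧ m • (σ • R - R) = 0 := by
  obtain ⟨R, hR, hmR⟩ := ln_divisible h hm hx
  have key : ∀ σ ∈ A.decompositionSubgroup ℚ, m • (σ • R - R) = 0 := by
    intro σ hσ
    rw [nsmul_sub, ← ln_smul_nsmul, hmR, hfix σ hσ, sub_self]
  refine ⟨R, hR, hmR, ?_, ?_⟩
  · intro σ hσ
    exact ln_inertia_sub h hm hσ hR (key σ (hID hσ))
  · intro σ hσ
    exact ⟨P.J0.sub_mem (h.decomp0 σ hσ R hR) hR, key σ hσ⟩

end Fermat.Agent.S15.LN
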