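import Fermat.Agent.S15.LNQ

/-!
# S15 block LOCAL-N, piece LN-CNT (helper10): the toric part of the `m`-torsion has `m ^ g`
elements

`stmtTorCount_of : StmtTorTF → StmtTorDiv → StmtTorCount`.

`J⁰[m] → T[m]`, `T = {s : X ∖ {x₀} → k^×}` the torus, is bijective: injective because `J¹` has no
`m`-torsion (LN-TF), surjective because the map `div00 → T` is onto (`ln_q_exists_div`) and `J¹` is
`m`-divisible (LN-DIV).  `#T[m] = m ^ g` because `k` is algebraically closed and `m ≠ 0` in `k`.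
-/

set_option autoImplicit false
set_option linter.unusedSectionVars false
set_option linter.unusedVariables false
set_option linter.style.haveILetI false

noncomputable section

open AlgebraicCurve Module

namespace Fermat.Agent.S15.LN

open Fermat.Agent.W1 Fermat.Agent.S24 Fermat.Agent.ES.R

open scoped Classical

section Roots

variable (k : Type) [Field k]

/-- the `m`-th roots of unity, as elements of `k` -/
def lnMu (m : ℕ) : Type := {z : k // z ^ m = 1}

/-- `lnMu k m` is in bijection with `rootsOfUnity m k` -/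
def lnMuEquiv (m : ℕ) (hm : m ≠ 0) : lnMu k m ≃ ↥(rootsOfUnity m k) where
  toFun z := ⟨Units.mk0 z.1 (fun h0 => by
      have := z.2
      rw [h0, zero_pow hm] at this
      exact zero_ne_one this), by
    rw [mem_rootsOfUnity]
    ext
    rw [Units.val_pow_eq_pow_val, Units.val_mk0, Units.val_one]
    exact z.2⟩
  invFun ζ := ⟨((ζ : kˣ) : k), by
    have := ζ.2
    rw [mem_rootsOfUnity] at this
    have h2 := congrArg Units.val this
    rwa [Units.val_pow_eq_pow_val, Units.val_one] at h2⟩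
  left_inv z := Subtype.ext rfl
  right_inv ζ := Subtype.ext (Units.ext rfl)

theorem ln_cnt_card_mu [IsAlgClosed k] (m : ℕ) (hm : (m : k) ≠ 0) : Nat.card (lnMu k m) = m := by
  have hm0 : m ≠ 0 := by
    rintro rfl
    exact hm Nat.cast_zero
  haveI : NeZero (m : k) := ⟨hm⟩
  haveI : NeZero m := ⟨hm0⟩
  rw [Nat.card_congr (lnMuEquiv k m hm0)]
  exact HasEnoughRootsOfUnity.natCard_rootsOfUnity k m

end Roots

section TR

variable {K F k F₁ F₂ : Type} [Field K] [Field F] [Algebra K F] [Field k]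
  [Field F₁] [Algebra k F₁] [Field F₂] [Algebra k F₂]
variable {A : ValuationSubring K} {R : TRData K F k F₁ F₂ A} {g : ℕ}
variable {x₀ : Place k F₁ × Place k F₂}

theorem ln_cnt_natCast_res (hT : R.IsToric g) {m : ℕ} (hm : (m : K) ∉ A.nonunits) :
    (m : k) ≠ 0 := by
  intro h0
  apply hm
  have h1 : R.res (m : A) = 0 := by rw [map_natCast]; exact h0
  have h2 := (hT.isTR.res_eq_zero_iff (m : A)).mp h1
  simpa using h2

/-- the class in the torus depends only on the class in `Pic⁰` -/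
theorem ln_cnt_tau_congr (hT : R.IsToric g) (hx₀ : x₀ ∈ R.X)
    {D D' : Divisor.degZero (K := K) (F := F)} (hD : (D : Divisor K F) ∈ R.div00)
    (hD' : (D' : Divisor K F) ∈ R.div00) (h : Pic0.mk D = Pic0.mk D')
    {x : Place k F₁ × Place k F₂} (hx : x ∈ R.X) :
    lnTau x₀ (R.push₁ (D : Divisor K F)) (R.push₂ (D : Divisor K F)) x =
      lnTau x₀ (R.push₁ (D' : Divisor K F)) (R.push₂ (D' : Divisor K F)) x := by
  have hp := (ln_mk_eq_iff).mp h
  have h00 : (D' : Divisor K F) - (D : Divisor K F) ∈ R.div00 := R.div00.sub_mem hD' hD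
  have h1 := ln_principal_mem_div1 hT h00 hp
  have h2 := (ln_q_mem_div1_iff hT hx₀ h00).mp h1 x hx
  rw [ln_q_tau_sub hT hx₀ hD' hD hx, div_eq_one_iff_eq (ln_q_tau_ne_zero hT hx₀ hD hx)] at h2
  exact h2.symm

theorem ln_cnt_mk_nsmul (D : Divisor.degZero (K := K) (F := F)) (m : ℕ) :
    m • Pic0.mk D = Pic0.mk (m • D) := by
  show m • pic0Hom K F D = pic0Hom K F (m • D)
  rw [map_nsmul]

theorem ln_cnt_mk_sub (D D' : Divisor.degZero (K := K) (F := F)) :
    Pic0.mk D - Pic0.mk D' = Pic0.mk (D - D') := by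
  show pic0Hom K F D - pic0Hom K F D' = pic0Hom K F (D - D')
  rw [map_sub]

/-- a divisor of type `(0, 0)` whose class is killed by `m` has an `m`-torsion class in the
torus -/
theorem ln_cnt_nsmul_mem_div1 (hT : R.IsToric g)
    {D : Divisor.degZero (K := K) (F := F)} (hD : (D : Divisor K F) ∈ R.div00) {m : ℕ}
    (hm : m • Pic0.mk D = 0) : m • (D : Divisor K F) ∈ R.div1 := by
  have h00 : m • (D : Divisor K F) ∈ R.div00 := R.div00.nsmul_mem hD m
  refine ln_principal_mem_div1 hT h00 ?_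
  rw [ln_cnt_mk_nsmul] at hm
  have h1 : Pic0.mk (0 : Divisor.degZero (K := K) (F := F)) = Pic0.mk (m • D) := by
    rw [hm]; rfl
  have h2 := (ln_mk_eq_iff).mp h1
  rw [AddSubgroup.coe_zero, sub_zero, AddSubgroup.coe_nsmul] at h2
  exact h2

theorem ln_cnt_pow_eq_one (hT : R.IsToric g) (hx₀ : x₀ ∈ R.X)
    {D : Divisor.degZero (K := K) (F := F)} (hD : (D : Divisor K F) ∈ R.div00) {m : ℕ}
    (hm : m • Pic0.mk D = 0) {x : Place k F₁ × Place k F₂} (hx : x ∈ R.X) :
    lnTau x₀ (R.push₁ (D : Divisor K F)) (R.push₂ (D : Divisor K F)) x ^ m = 1 := by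
  have h1 := ln_cnt_nsmul_mem_div1 hT hD hm
  have h2 := (ln_q_mem_div1_iff hT hx₀ (R.div00.nsmul_mem hD m)).mp h1 x hx
  rwa [ln_q_tau_nsmul hT hx₀ hD hx] at h2

theorem ln_cnt_mem_torsion {m : ℕ} {y : Pic0 K F} :
    y ∈ Pic0.torsion K F m ↔ m • y = 0 := by
  rw [Pic0.mem_torsion, natCast_zsmul]

end TR

/-- **LN-CNT**: the toric part of the `m`-torsion has `m ^ g` elements. -/
theorem stmtTorCount_of (hTF : StmtTorTF) (hDiv : StmtTorDiv) : StmtTorCount := by
  intro K F k F₁ F₂ _ _ _ _ _ _ _ _ _ _ A R g hT m hm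
  obtain ⟨x₀, hx₀⟩ := IsToric_X_nonempty hT
  have hmk : (m : k) ≠ 0 := ln_cnt_natCast_res hT hm
  have hm0 : m ≠ 0 := by
    rintro rfl
    exact hmk Nat.cast_zero
  -- representatives
  have hrep : ∀ y : ↥(R.J0 ⊓ Pic0.torsion K F m), ∃ D : Divisor.degZero (K := K) (F := F),
      (D : Divisor K F) ∈ R.div00 ∧ Pic0.mk D = y.1 := fun y => (ln_mem_J0 R).mp y.2.1
  choose Dy hDy hDy' using hrep
  have htors : ∀ y : ↥(R.J0 ⊓ Pic0.torsion K F m), m • Pic0.mk (Dy y) = 0 := fun y => by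
    rw [hDy' y]
    exact ln_cnt_mem_torsion.mp y.2.2
  have hpow : ∀ (y : ↥(R.J0 ⊓ Pic0.torsion K F m)) (x : Place k F₁ × Place k F₂), x ∈ R.X →
      lnTau x₀ (R.push₁ (Dy y : Divisor K F)) (R.push₂ (Dy y : Divisor K F)) x ^ m = 1 :=
    fun y x hx => ln_cnt_pow_eq_one hT hx₀ (hDy y) (htors y) hx
  set Ψ : ↥(R.J0 ⊓ Pic0.torsion K F m) → (↥(R.X.erase x₀) → lnMu k m) := fun y x =>
    ⟨lnTau x₀ (R.push₁ (Dy y : Divisor K F)) (R.push₂ (Dy y : Divisor K F)) x.1,
      hpow y x.1 (Finset.mem_of_mem_erase x.2)⟩ with hΨ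
  have hΨval : ∀ y (x : ↥(R.X.erase x₀)), (Ψ y x).1 =
      lnTau x₀ (R.push₁ (Dy y : Divisor K F)) (R.push₂ (Dy y : Divisor K F)) x.1 :=
    fun y x => rfl
  -- injectivity
  have hinj : Function.Injective Ψ := by
    intro y y' hyy'
    have hτ : ∀ x ∈ R.X,
        lnTau x₀ (R.push₁ (Dy y : Divisor K F)) (R.push₂ (Dy y : Divisor K F)) x =
          lnTau x₀ (R.push₁ (Dy y' : Divisor K F)) (R.push₂ (Dy y' : Divisor K F)) x := by
      intro x hx
      by_cases hxx : x = x₀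
      · rw [hxx, ln_q_tau_base hT hx₀ (hDy y), ln_q_tau_base hT hx₀ (hDy y')]
      · have hx' : x ∈ R.X.erase x₀ := Finset.mem_erase.mpr ⟨hxx, hx⟩
        have := congrArg Subtype.val (congrFun hyy' ⟨x, hx'⟩)
        rwa [hΨval, hΨval] at this
    have h00 : ((Dy y - Dy y' : Divisor.degZero (K := K) (F := F)) : Divisor K F) ∈ R.div00 := by
      rw [AddSubgroup.coe_sub]
      exact R.div00.sub_mem (hDy y) (hDy y')
    have h1 : ((Dy y - Dy y' : Divisor.degZero (K := K) (F := F)) : Divisor K F) ∈ R.div1 := by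
      rw [ln_q_mem_div1_iff hT hx₀ h00]
      intro x hx
      rw [AddSubgroup.coe_sub, ln_q_tau_sub hT hx₀ (hDy y) (hDy y') hx, hτ x hx]
      exact div_self (ln_q_tau_ne_zero hT hx₀ (hDy y') hx)
    have h2 : y.1 - y'.1 ∈ R.J1 := by
      rw [← hDy' y, ← hDy' y', ln_cnt_mk_sub]
      exact (ln_mem_J1 R).mpr ⟨_, h1, rfl⟩
    have h3 : m • (y.1 - y'.1) = 0 := by
      rw [nsmul_sub, ln_cnt_mem_torsion.mp y.2.2, ln_cnt_mem_torsion.mp y'.2.2, sub_zero]
    have h4 := hTF K F k F₁ F₂ A R g hT m hm _ h2 h3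
    exact Subtype.ext (sub_eq_zero.mp h4)
  -- surjectivity
  have hsurj : Function.Surjective Ψ := by
    intro t
    set s : Place k F₁ × Place k F₂ → k := fun x =>
      if h : x ∈ R.X.erase x₀ then (t ⟨x, h⟩).1 else 1 with hs
    have hs₀ : s x₀ = 1 := by
      have : x₀ ∉ R.X.erase x₀ := Finset.notMem_erase x₀ R.X
      simp only [hs]
      rw [dif_neg this]
    have hsm : ∀ x, s x ^ m = 1 := by
      intro x
      simp only [hs]
      by_cases h : x ∈ R.X.erase x₀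
      · rw [dif_pos h]; exact (t ⟨x, h⟩).2
      · rw [dif_neg h, one_pow]
    have hs0 : ∀ x ∈ R.X, s x ≠ 0 := by
      intro x _ h0
      have := hsm x
      rw [h0, zero_pow hm0] at this
      exact zero_ne_one this
    obtain ⟨D, hD, hτ⟩ := ln_q_exists_div hT hx₀ s hs0 hs₀
    have hdeg : D ∈ Divisor.degZero (K := K) (F := F) := ln_q_degree_eq_zero hT hD
    set Dz : Divisor.degZero (K := K) (F := F) := ⟨D, hdeg⟩ with hDz
    have hmD : m • D ∈ R.div1 := by
      rw [ln_q_mem_div1_iff hT hx₀ (R.div00.nsmul_mem hD m)]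
      intro x hx
      rw [ln_q_tau_nsmul hT hx₀ hD hx, hτ x hx, hsm x]
    have hmJ1 : m • Pic0.mk Dz ∈ R.J1 := by
      rw [ln_cnt_mk_nsmul]
      refine (ln_mem_J1 R).mpr ⟨m • Dz, ?_, rfl⟩
      rw [AddSubgroup.coe_nsmul]
      exact hmD
    obtain ⟨h, hh, hmh⟩ := hDiv K F k F₁ F₂ A R g hT m hm _ hmJ1
    obtain ⟨H, hH, rfl⟩ := (ln_mem_J1 R).mp hh
    have hH00 : (H : Divisor K F) ∈ R.div00 := ln_div1_le_div00 R hH
    have hyJ0 : Pic0.mk Dz - Pic0.mk H ∈ R.J0 :=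
      R.J0.sub_mem ((ln_mem_J0 R).mpr ⟨Dz, hD, rfl⟩) (ln_J1_le_J0 R hh)
    have hytors : Pic0.mk Dz - Pic0.mk H ∈ Pic0.torsion K F m := by
      rw [ln_cnt_mem_torsion, nsmul_sub, hmh, sub_self]
    refine ⟨⟨Pic0.mk Dz - Pic0.mk H, hyJ0, hytors⟩, ?_⟩
    funext x
    apply Subtype.ext
    rw [hΨval]
    have hxX : x.1 ∈ R.X := Finset.mem_of_mem_erase x.2
    have hDH00 : ((Dz - H : Divisor.degZero (K := K) (F := F)) : Divisor K F) ∈ R.div00 := by
      rw [AddSubgroup.coe_sub]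
      exact R.div00.sub_mem hD hH00
    have hcls : Pic0.mk (Dy ⟨Pic0.mk Dz - Pic0.mk H, hyJ0, hytors⟩) = Pic0.mk (Dz - H) :=
      (hDy' ⟨Pic0.mk Dz - Pic0.mk H, hyJ0, hytors⟩).trans (ln_cnt_mk_sub Dz H)
    rw [ln_cnt_tau_congr hT hx₀ (hDy _) hDH00 hcls hxX, AddSubgroup.coe_sub,
      ln_q_tau_sub hT hx₀ hD hH00 hxX, (ln_q_mem_div1_iff hT hx₀ hH00).mp hH x.1 hxX, div_one,
      hτ x.1 hxX]
    simp only [hs]
    rw [dif_pos x.2]
  rw [Nat.card_congr (Equiv.ofBijective Ψ ⟨hinj, hsurj⟩), Nat.card_fun, ln_cnt_card_mu k m hmk,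
    Nat.card_eq_fintype_card, Fintype.card_coe, Finset.card_erase_of_mem hx₀, hT.card,
    Nat.add_sub_cancel]

end Fermat.Agent.S15.LN
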