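import Fermat.Agent.S15.LNBasic
import Fermat.Agent.ES.RiemannGeneric

/-!
# S15 block LOCAL-N (helper5): `onto`, `slope`, `glue_unit` from `r_div`, `glue` and degrees

For a two-component reduction `R` with `R.IsToric g`:

* `ln_degree_split` : `deg D = deg r_{1*} D + deg r_{2*} D + Σ_{P of node type} D(P)`;
* `ln_onto₁`, `ln_onto₂` : every smooth point of the special fibre is the reduction of a place;
* `ln_red₂_ne_zero` : a unit `u` of `O₁` in `O₂`, with divisor of smooth type and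
  `deg r_{1*}(div u) = 0`, is a unit of `O₂` (otherwise `ū₁` glues with `0`, so it vanishes at
  every node, and `deg div ū₁ > 0`);
* `ln_slope` : such a `u` is a constant times a unit at both Gauss valuations;
* `ln_glue_unit` : if `u ∈ O₁ ∩ O₂` has no pole of node type and reduces to a glued unit, then
  its zeros are of smooth type;
* `ln_principal_mem_div1`, `ln_mem_div1_of_mk_eq`, `ln_mem_J1_iff_of_rep` : the kernel of
  reduction does not depend on the representative of type `(0, 0)`.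
-/

set_option autoImplicit false

noncomputable section

open AlgebraicCurve Module

namespace Fermat.Agent.S15.LN

open Fermat.Agent.W1 Fermat.Agent.S24 Fermat.Agent.ES.R

open scoped Classical

section Deg

variable {K F : Type} [Field K] [Field F] [Algebra K F]

theorem ln_degree_eq_sum (hdeg : ∀ v : Place K F, v.deg = 1) (D : Divisor K F) :
    Divisor.degree D = ∑ v ∈ D.support, D v := by
  rw [degree_eq_sum, Finsupp.sum]
  refine Finset.sum_congr rfl fun v _ => ?_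
  rw [hdeg v]; simp

theorem ln_degree_pos (hdeg : ∀ v : Place K F, v.deg = 1) {G : Divisor K F} (hG : 0 ≤ G)
    (Q₀ : Place K F) (h : 0 < G Q₀) : 0 < Divisor.degree G := by
  rw [ln_degree_eq_sum hdeg]
  have hmem : Q₀ ∈ G.support := Finsupp.mem_support_iff.mpr (ne_of_gt h)
  have hnn : ∀ v ∈ G.support, 0 ≤ G v := fun v _ => by simpa using Finsupp.le_def.mp hG v
  calc 0 < G Q₀ := h
    _ ≤ ∑ v ∈ G.support, G v := Finset.single_le_sum hnn hmem

end Deg

section TR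

variable {K F k F₁ F₂ : Type} [Field K] [Field F] [Algebra K F] [Field k]
  [Field F₁] [Algebra k F₁] [Field F₂] [Algebra k F₂]
variable {A : ValuationSubring K} (R : TRData K F k F₁ F₂ A)

theorem ln_degree_pt₁ (hdeg₁ : ∀ Q : Place k F₁, Q.deg = 1) (P : Place K F) (n : ℤ) :
    Divisor.degree (R.pt₁ P n) = if ∃ Q, R.r P = some (Sum.inl Q) then n else 0 := by
  unfold TRData.pt₁
  split
  · rename_i Q hQ
    rw [if_pos ⟨Q, hQ⟩, Finsupp.singleAddHom_apply, Divisor.degree_single, hdeg₁ Q]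
    simp
  · rename_i h
    rw [if_neg]
    · simp
    · rintro ⟨Q, hQ⟩
      exact h Q hQ

theorem ln_degree_pt₂ (hdeg₂ : ∀ Q : Place k F₂, Q.deg = 1) (P : Place K F) (n : ℤ) :
    Divisor.degree (R.pt₂ P n) = if ∃ Q, R.r P = some (Sum.inr Q) then n else 0 := by
  unfold TRData.pt₂
  split
  · rename_i Q hQ
    rw [if_pos ⟨Q, hQ⟩, Finsupp.singleAddHom_apply, Divisor.degree_single, hdeg₂ Q]
    simp
  · rename_i h
    rw [if_neg]
    · simp
    · rintro ⟨Q, hQ⟩
      exact h Q hQ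

theorem ln_degree_push₁ (hdeg₁ : ∀ Q : Place k F₁, Q.deg = 1) (D : Divisor K F) :
    Divisor.degree (R.push₁ D) =
      ∑ P ∈ D.support, if ∃ Q, R.r P = some (Sum.inl Q) then D P else 0 := by
  unfold TRData.push₁
  rw [Finsupp.liftAddHom_apply, Finsupp.sum, map_sum]
  exact Finset.sum_congr rfl fun P _ => ln_degree_pt₁ R hdeg₁ P (D P)

theorem ln_degree_push₂ (hdeg₂ : ∀ Q : Place k F₂, Q.deg = 1) (D : Divisor K F) :
    Divisor.degree (R.push₂ D) =
      ∑ P ∈ D.support, if ∃ Q, R.r P = some (Sum.inr Q) then D P else 0 := by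
  unfold TRData.push₂
  rw [Finsupp.liftAddHom_apply, Finsupp.sum, map_sum]
  exact Finset.sum_congr rfl fun P _ => ln_degree_pt₂ R hdeg₂ P (D P)

/-- the degree of a divisor is the sum of the degrees on the two components and of the part
of node type -/
theorem ln_degree_split (hdeg : ∀ P : Place K F, P.deg = 1)
    (hdeg₁ : ∀ Q : Place k F₁, Q.deg = 1) (hdeg₂ : ∀ Q : Place k F₂, Q.deg = 1)
    (D : Divisor K F) :
    Divisor.degree D = Divisor.degree (R.push₁ D) + Divisor.degree (R.push₂ D) +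
      ∑ P ∈ D.support, if R.r P = none then D P else 0 := by
  rw [ln_degree_eq_sum hdeg, ln_degree_push₁ R hdeg₁, ln_degree_push₂ R hdeg₂,
    ← Finset.sum_add_distrib, ← Finset.sum_add_distrib]
  refine Finset.sum_congr rfl fun P _ => ?_
  rcases h : R.r P with _ | (Q | Q)
  · simp
  · simp
  · simp

variable {R}

theorem IsToric_deg {g : ℕ} (hT : R.IsToric g) : ∀ P : Place K F, P.deg = 1 :=
  fun P => place_deg_eq_one P (hT.nice.hres P)

theorem IsToric_deg₁ {g : ℕ} (hT : R.IsToric g) : ∀ Q : Place k F₁, Q.deg = 1 :=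
  fun Q => place_deg_eq_one Q (hT.nice₁.hres Q)

theorem IsToric_deg₂ {g : ℕ} (hT : R.IsToric g) : ∀ Q : Place k F₂, Q.deg = 1 :=
  fun Q => place_deg_eq_one Q (hT.nice₂.hres Q)

theorem IsToric_X_nonempty {g : ℕ} (hT : R.IsToric g) : R.X.Nonempty := by
  rw [← Finset.card_pos, hT.card]
  exact Nat.succ_pos g

/-! ### `onto` -/

theorem ln_onto₁ (hR : R.IsTR) (hpd : HasPrincipalDivisors K F) (Q : Place k F₁)
    (hQ : ∀ x ∈ R.X, x.1 ≠ Q) : ∃ P, R.r P = some (Sum.inl Q) := by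
  obtain ⟨π, hπ⟩ := IsDiscreteValuationRing.exists_irreducible Q.toValuationSubring
  have hord : Q.ord (π : F₁) = 1 := Q.ord_coe_irreducible hπ
  obtain ⟨u, hu⟩ := hR.red₁_surjective (π : F₁)
  have hu0 : R.red₁ u ≠ 0 := by
    rw [hu]
    intro h0
    rw [h0, Place.ord_zero] at hord
    exact zero_ne_one hord
  have hu0' : (u : F) ≠ 0 := ln_ne_zero₁ hR u.2 hu0
  obtain ⟨D, hD, -⟩ := hpd.exists_divisor (u : F) hu0'
  have h1 := hR.r_div₁ u hu0 D hD Q hQ
  rw [hu, hord, ln_push₁_apply] at h1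
  have hne : (∑ P ∈ D.support, if R.r P = some (Sum.inl Q) then D P else 0) ≠ 0 := by
    rw [h1]; exact one_ne_zero
  obtain ⟨P, -, hP2⟩ := Finset.exists_ne_zero_of_sum_ne_zero hne
  by_cases h : R.r P = some (Sum.inl Q)
  · exact ⟨P, h⟩
  · rw [if_neg h] at hP2
    exact absurd rfl hP2

theorem ln_onto₂ (hR : R.IsTR) (hpd : HasPrincipalDivisors K F) (Q : Place k F₂)
    (hQ : ∀ x ∈ R.X, x.2 ≠ Q) : ∃ P, R.r P = some (Sum.inr Q) := by
  obtain ⟨π, hπ⟩ := IsDiscreteValuationRing.exists_irreducible Q.toValuationSubring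
  have hord : Q.ord (π : F₂) = 1 := Q.ord_coe_irreducible hπ
  obtain ⟨u, hu⟩ := hR.red₂_surjective (π : F₂)
  have hu0 : R.red₂ u ≠ 0 := by
    rw [hu]
    intro h0
    rw [h0, Place.ord_zero] at hord
    exact zero_ne_one hord
  have hu0' : (u : F) ≠ 0 := ln_ne_zero₂ hR u.2 hu0
  obtain ⟨D, hD, -⟩ := hpd.exists_divisor (u : F) hu0'
  have h1 := hR.r_div₂ u hu0 D hD Q hQ
  rw [hu, hord, ln_push₂_apply] at h1
  have hne : (∑ P ∈ D.support, if R.r P = some (Sum.inr Q) then D P else 0) ≠ 0 := by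
    rw [h1]; exact one_ne_zero
  obtain ⟨P, -, hP2⟩ := Finset.exists_ne_zero_of_sum_ne_zero hne
  by_cases h : R.r P = some (Sum.inr Q)
  · exact ⟨P, h⟩
  · rw [if_neg h] at hP2
    exact absurd rfl hP2

/-! ### `slope` -/

/-- the divisor of the reduction `ū₁` is `r_{1*}(div u)` plus an effective divisor supported
on the nodes at which `ū₁` vanishes. -/
theorem ln_red₂_ne_zero {g : ℕ} (hT : R.IsToric g) {u : F} (h₁ : u ∈ R.O₁)
    (hu₁ : R.red₁ ⟨u, h₁⟩ ≠ 0) (h₂ : u ∈ R.O₂) (D : Divisor K F) (hD : ∀ P, D P = P.ord u)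
    (hsm : D ∈ R.smDiv) (hdeg : Divisor.degree (R.push₁ D) = 0) :
    R.red₂ ⟨u, h₂⟩ ≠ 0 := by
  intro h0
  have hR := hT.isTR
  have hpd₁ := hT.nice₁.hpd
  set f : F₁ := R.red₁ ⟨u, h₁⟩ with hf
  have hglue := hR.glue u h₁ h₂ (fun P hP => hsm P (by rw [hD]; exact ne_of_lt hP))
  rw [h0] at hglue
  -- `f` vanishes at every node
  have hval : ∀ x ∈ R.X, 0 < x.1.ord f := by
    intro x hx
    obtain ⟨a, ha1, ha2⟩ := hglue x hx
    have ha0 : a = 0 := hasValueAt_unique x.2 ha2 (ln_hasValueAt_zero x.2)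
    rw [ha0] at ha1
    have hne : f - algebraMap k F₁ 0 ≠ 0 := by rwa [map_zero, sub_zero]
    have := (hasValueAt_iff_ord_pos x.1 hne).mp ha1
    rwa [map_zero, sub_zero] at this
  obtain ⟨E, hE, hE0⟩ := hpd₁.exists_divisor f hu₁
  obtain ⟨x₀, hx₀⟩ := IsToric_X_nonempty hT
  have hnn : 0 ≤ E - R.push₁ D := by
    rw [Finsupp.le_def]
    intro Q
    rw [Finsupp.zero_apply, Finsupp.sub_apply, sub_nonneg]
    by_cases hQ : ∀ x ∈ R.X, x.1 ≠ Q
    · rw [hR.r_div₁ ⟨u, h₁⟩ hu₁ D hD Q hQ, hE]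
    · push Not at hQ
      obtain ⟨x, hx, rfl⟩ := hQ
      rw [ln_push₁_cross hR D hx, hE]
      exact (hval x hx).le
  have hpos : 0 < (E - R.push₁ D) x₀.1 := by
    rw [Finsupp.sub_apply, ln_push₁_cross hR D hx₀, sub_zero, hE]
    exact hval x₀ hx₀
  have := ln_degree_pos (IsToric_deg₁ hT) hnn x₀.1 hpos
  rw [map_sub, hE0, hdeg, sub_zero] at this
  exact lt_irrefl _ this

/-- **slope**: a function whose divisor is of smooth type and of degree `0` on `C₁` is a
constant times a unit at both Gauss valuations. -/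
theorem ln_slope {g : ℕ} (hT : R.IsToric g) (u : F) (hu : u ≠ 0) (D : Divisor K F)
    (hD : ∀ P, D P = P.ord u) (hsm : D ∈ R.smDiv) (hdeg : Divisor.degree (R.push₁ D) = 0) :
    ∃ a : K, a ≠ 0 ∧ ∃ (h₁ : algebraMap K F a * u ∈ R.O₁) (h₂ : algebraMap K F a * u ∈ R.O₂),
      R.red₁ ⟨algebraMap K F a * u, h₁⟩ ≠ 0 ∧ R.red₂ ⟨algebraMap K F a * u, h₂⟩ ≠ 0 := by
  have hR := hT.isTR
  obtain ⟨a, ha, h₁, hr₁⟩ := hR.prim₁ u hu
  set w : F := algebraMap K F a * u with hw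
  have hDw : ∀ P, D P = P.ord w := fun P => by rw [hD P, hw, ln_ord_const_mul P ha]
  by_cases h₂ : w ∈ R.O₂
  · exact ⟨a, ha, h₁, h₂, hr₁, ln_red₂_ne_zero hT h₁ hr₁ h₂ D hDw hsm hdeg⟩
  · exfalso
    have hi₂ : w⁻¹ ∈ R.O₂ := (R.O₂.mem_or_inv_mem w).resolve_left h₂
    have hi₁ : w⁻¹ ∈ R.O₁ := ln_inv_mem₁ hR h₁ hr₁
    have hri₁ : R.red₁ ⟨w⁻¹, hi₁⟩ ≠ 0 := by
      rw [ln_red₁_inv hR h₁ hr₁]
      exact inv_ne_zero hr₁
    have hnon : w⁻¹ ∈ R.O₂.nonunits := by
      rw [ValuationSubring.mem_nonunits_iff_or]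
      right
      rwa [inv_inv]
    have h0 : R.red₂ ⟨w⁻¹, hi₂⟩ = 0 := (hR.red₂_eq_zero_iff _).mpr hnon
    refine ln_red₂_ne_zero hT hi₁ hri₁ hi₂ (-D) (fun P => ?_) (R.smDiv.neg_mem hsm) ?_ h0
    · rw [Finsupp.neg_apply, hDw P, Place.ord_inv]
    · rw [map_neg, map_neg, hdeg, neg_zero]

/-! ### `glue_unit` -/

/-- if `u ∈ O₁ ∩ O₂` has no pole of node type and its reductions are a glued unit, then the
zeros of `u` are of smooth type. -/
theorem ln_glue_unit {g : ℕ} (hT : R.IsToric g) (u : F) (h₁ : u ∈ R.O₁) (h₂ : u ∈ R.O₂)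
    (hpole : ∀ P : Place K F, P.ord u < 0 → (R.r P).isSome)
    (hg : R.GluedUnit (R.red₁ ⟨u, h₁⟩) (R.red₂ ⟨u, h₂⟩)) :
    ∀ P : Place K F, 0 < P.ord u → (R.r P).isSome := by
  have hR := hT.isTR
  obtain ⟨x₀, hx₀⟩ := IsToric_X_nonempty hT
  obtain ⟨a₀, ha₀, hv1, hv2⟩ := hg x₀ hx₀
  have hu₁ : R.red₁ ⟨u, h₁⟩ ≠ 0 := ln_ne_zero_of_value hv1 ha₀
  have hu₂ : R.red₂ ⟨u, h₂⟩ ≠ 0 := ln_ne_zero_of_value hv2 ha₀
  have hu0 : u ≠ 0 := ln_ne_zero₁ hR h₁ hu₁
  obtain ⟨D, hD, hD0⟩ := hT.nice.hpd.exists_divisor u hu0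
  obtain ⟨E₁, hE₁, hE₁0⟩ := hT.nice₁.hpd.exists_divisor _ hu₁
  obtain ⟨E₂, hE₂, hE₂0⟩ := hT.nice₂.hpd.exists_divisor _ hu₂
  have hp1 : R.push₁ D = E₁ := by
    ext Q
    rw [hE₁]
    by_cases hQ : ∀ x ∈ R.X, x.1 ≠ Q
    · exact hR.r_div₁ ⟨u, h₁⟩ hu₁ D hD Q hQ
    · push Not at hQ
      obtain ⟨x, hx, rfl⟩ := hQ
      obtain ⟨a, ha, h1, -⟩ := hg x hx
      rw [ln_push₁_cross hR D hx, ln_ord_eq_zero_of_value h1 ha]
  have hp2 : R.push₂ D = E₂ := by
    ext Q
    rw [hE₂]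
    by_cases hQ : ∀ x ∈ R.X, x.2 ≠ Q
    · exact hR.r_div₂ ⟨u, h₂⟩ hu₂ D hD Q hQ
    · push Not at hQ
      obtain ⟨x, hx, rfl⟩ := hQ
      obtain ⟨a, ha, -, h2⟩ := hg x hx
      rw [ln_push₂_cross hR D hx, ln_ord_eq_zero_of_value h2 ha]
  have hsplit := ln_degree_split R (IsToric_deg hT) (IsToric_deg₁ hT) (IsToric_deg₂ hT) D
  rw [hD0, hp1, hp2, hE₁0, hE₂0, zero_add, zero_add] at hsplit
  have hnn : ∀ P ∈ D.support, 0 ≤ (if R.r P = none then D P else 0) := by
    intro P _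
    by_cases h : R.r P = none
    · rw [if_pos h, hD P]
      by_contra hneg
      have := hpole P (not_le.mp hneg)
      rw [h] at this
      exact absurd this (by simp)
    · rw [if_neg h]
  intro P hP
  by_contra hns
  have hnone : R.r P = none := by
    rcases h : R.r P with _ | y
    · rfl
    · rw [h] at hns; exact absurd rfl hns
  have hmem : P ∈ D.support := Finsupp.mem_support_iff.mpr (by rw [hD P]; exact ne_of_gt hP)
  have hle := Finset.single_le_sum hnn hmem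
  rw [← hsplit, if_pos hnone, hD P] at hle
  exact absurd hP (not_lt.mpr hle)

/-! ### The kernel of reduction does not depend on the representative -/

/-- a principal divisor of type `(0, 0)` reduces to a principal divisor of the nodal curve -/
theorem ln_principal_mem_div1 {g : ℕ} (hT : R.IsToric g) {D : Divisor K F} (hD : D ∈ R.div00)
    (hp : D ∈ Divisor.principal (K := K) (F := F)) : D ∈ R.div1 := by
  obtain ⟨u, hu0, hu⟩ := hp
  obtain ⟨hsm, hd1, -⟩ := (ln_mem_div00 R).mp hD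
  obtain ⟨a, ha, h₁, h₂, hr₁, hr₂⟩ := ln_slope hT u hu0 D hu hsm hd1
  refine (ln_mem_div1 R).mpr ⟨hD, ?_⟩
  exact ln_isPrincBar_of_biunit hT.isTR h₁ h₂ hr₁ hr₂ D
    (fun P => by rw [hu P, ln_ord_const_mul P ha]) hsm

/-- the kernel of reduction does not depend on the representative of type `(0, 0)` -/
theorem ln_mem_div1_of_mk_eq {g : ℕ} (hT : R.IsToric g)
    {D D' : Divisor.degZero (K := K) (F := F)}
    (h : Pic0.mk D = Pic0.mk D') (hD : (D : Divisor K F) ∈ R.div1)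
    (hD' : (D' : Divisor K F) ∈ R.div00) : (D' : Divisor K F) ∈ R.div1 := by
  have hp := (ln_mk_eq_iff).mp h
  have h00 : (D' : Divisor K F) - (D : Divisor K F) ∈ R.div00 :=
    R.div00.sub_mem hD' (ln_div1_le_div00 R hD)
  have h1 := ln_principal_mem_div1 hT h00 hp
  have := R.div1.add_mem h1 hD
  rwa [sub_add_cancel] at this

/-- membership in `J1` can be tested on any representative of type `(0, 0)` -/
theorem ln_mem_J1_iff_of_rep {g : ℕ} (hT : R.IsToric g)
    {D : Divisor.degZero (K := K) (F := F)} (hD : (D : Divisor K F) ∈ R.div00) :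
    Pic0.mk D ∈ R.J1 ↔ (D : Divisor K F) ∈ R.div1 := by
  constructor
  · intro h
    obtain ⟨D₁, hD₁, h1⟩ := (ln_mem_J1 R).mp h
    exact ln_mem_div1_of_mk_eq hT h1 hD₁ hD
  · intro h
    exact (ln_mem_J1 R).mpr ⟨D, h, rfl⟩

end TR

end Fermat.Agent.S15.LN
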