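import Fermat.Agent.S15.LNDivAux
import Fermat.Agent.S15.Div1
import Fermat.Agent.S15.Div1Hensel

/-!
# S15 block LOCAL-N, piece LN-DIV (helper5): the kernel of reduction `J¹` is `m`-divisible

`stmtTorDiv : StmtTorDiv`.  Transplant of `S15/Div1.lean` (helper94) to the nodal curve.

`x = [D]`, `D` of smooth type, `r_* D = 0` (`ln_exists_rep`).  `TN`, `TR` disjoint charts of the
first component (`g` smooth points each), `Nd`, `Rd` lifts.  Orthonormal bases `e₁, e₂, e₃, e₄` of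
`L(Nd + Rd)`, `L(D + m Nd)`, `L(m Rd - D)`, `L(m (Nd + Rd))` (all non-special on the nodal curve).
The system: the coordinates of `w ^ m - h h'` in `e₄`, and two normalisations.  It is square,
the point `(α, β, γ)` (lifts of `1, 1, 1`) solves it modulo `𝔪`, and the differential is
injective modulo `𝔪` (`ln_rr_tangent_const` of LN-RR and the normalisations).  `stmtHenselMv`
gives an exact solution and `ln_div1_divisor` the class `y`.
-/

set_option autoImplicit false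
set_option linter.unusedSectionVars false
set_option linter.unusedVariables false
set_option linter.style.haveILetI false

noncomputable section

open AlgebraicCurve Module MvPolynomial

namespace Fermat.Agent.S15.LN

open Fermat.Agent.W1 Fermat.Agent.S24 Fermat.Agent.ES.R Fermat.Agent.S15.Div1

variable {K F k F₁ F₂ : Type} [Field K] [Field F] [Algebra K F] [Field k]
  [Field F₁] [Algebra k F₁] [Field F₂] [Algebra k F₂]
variable {A : ValuationSubring K} {R : TRData K F k F₁ F₂ A} {g : ℕ}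

theorem ln_natCast_res (hR : R.IsTR) {m : ℕ} (hm : (m : K) ∉ A.nonunits) : (m : k) ≠ 0 := by
  intro h0
  apply hm
  have h1 : R.res (m : A) = 0 := by rw [map_natCast]; exact h0
  have h2 := (hR.res_eq_zero_iff (m : A)).mp h1
  simpa using h2

theorem ln_natCast_memO (hR : R.IsTR) (m : ℕ) : (m : F) ∈ R.O₁₂ := by
  have := ln_ob_algebraMap_mem hR (a := (m : K)) (by exact_mod_cast (m : A).2)
  rwa [map_natCast] at this

theorem ln_one_mem_Lbar (hT : R.IsToric g) {D : Divisor K F} (h1 : 0 ≤ R.push₁ D)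
    (h2 : 0 ≤ R.push₂ D) : (1 : F₁ × F₂) ∈ R.Lbar D := by
  rw [ln_rr_Lbar_eq]
  exact ln_rr_one_mem R.X h1 h2

theorem stmtTorDiv_of (hH : StmtHenselMv) : StmtTorDiv := by
  intro K F k F₁ F₂ _ _ _ _ _ _ _ _ _ A R g hT m hm x hx
  classical
  have hR := hT.isTR
  have hpd := hT.nice.hpd
  have hNod := ln_rr_isNodal hT
  have hm0 : m ≠ 0 := by
    rintro rfl
    exact hm (by rw [Nat.cast_zero]; exact zero_mem_nonunits')
  have hmk : (m : k) ≠ 0 := ln_natCast_res hR hm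
  obtain ⟨D, hDdeg, rfl, hDsm, hD1, hD2⟩ := ln_exists_rep hT hx
  -- the two charts
  obtain ⟨TN, hTNcard, -, hTNX, -⟩ := ln_rr_exists_chart₁ hNod (F₂ := F₂) ∅
  obtain ⟨TR, hTRcard, hdisj', hTRX, -⟩ := ln_rr_exists_chart₁ hNod (F₂ := F₂) TN
  have hdisj : Disjoint TN TR := hdisj'.symm
  -- lifts
  obtain ⟨Nd, hNd0, hNdsm, hNd1, hNd2⟩ := ln_rr_exists_lift₁ hT TN hTNX
  obtain ⟨Rd, hRd0, hRdsm, hRd1, hRd2⟩ := ln_rr_exists_lift₁ hT TR hTRX
  obtain ⟨m', rfl⟩ : ∃ m', m = m' + 1 := Nat.exists_eq_succ_of_ne_zero hm0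
  have hdegN : Divisor.degree (gpSum TN) = g := by rw [degree_gpSum hT.nice₁.hres, hTNcard]
  have hdegR : Divisor.degree (gpSum TR) = g := by rw [degree_gpSum hT.nice₁.hres, hTRcard]
  have hg0 : (0 : ℤ) ≤ g := Int.natCast_nonneg g
  have hm'0 : (0 : ℤ) ≤ m' := Int.natCast_nonneg m'
  have hmg : (0 : ℤ) ≤ (m' : ℤ) * g := mul_nonneg hm'0 hg0
  -- the four divisors are of smooth type
  have hBsm : Nd + Rd ∈ R.smDiv := R.smDiv.add_mem hNdsm hRdsm
  have hEsm : D + (m' + 1) • Nd ∈ R.smDiv := R.smDiv.add_mem hDsm (R.smDiv.nsmul_mem hNdsm _)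
  have hE'sm : (m' + 1) • Rd - D ∈ R.smDiv := R.smDiv.sub_mem (R.smDiv.nsmul_mem hRdsm _) hDsm
  have hMsm : (m' + 1) • (Nd + Rd) ∈ R.smDiv := R.smDiv.nsmul_mem hBsm _
  -- their reductions
  have hB1 : R.push₁ (Nd + Rd) = gpSum TN + gpSum TR := by rw [map_add, hNd1, hRd1]
  have hB2 : R.push₂ (Nd + Rd) = 0 := by rw [map_add, hNd2, hRd2, add_zero]
  have hE1 : R.push₁ (D + (m' + 1) • Nd) = (m' + 1) • gpSum TN := by
    rw [map_add, map_nsmul, hD1, hNd1, zero_add]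
  have hE2 : R.push₂ (D + (m' + 1) • Nd) = 0 := by
    rw [map_add, map_nsmul, hD2, hNd2, smul_zero, add_zero]
  have hE'1 : R.push₁ ((m' + 1) • Rd - D) = (m' + 1) • gpSum TR := by
    rw [map_sub, map_nsmul, hD1, hRd1, sub_zero]
  have hE'2 : R.push₂ ((m' + 1) • Rd - D) = 0 := by
    rw [map_sub, map_nsmul, hD2, hRd2, smul_zero, sub_zero]
  have hM1 : R.push₁ ((m' + 1) • (Nd + Rd)) = (m' + 1) • (gpSum TN + gpSum TR) := by
    rw [map_nsmul, hB1]
  have hM2 : R.push₂ ((m' + 1) • (Nd + Rd)) = 0 := by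
    rw [map_nsmul, hB2, smul_zero]
  -- degrees
  have hdB : Divisor.degree (Nd + Rd) = g + g := by
    rw [ln_rr_degree_smDiv hT hBsm, hB1, hB2, map_add, hdegN, hdegR, map_zero, add_zero]
  have hdE : Divisor.degree (D + (m' + 1) • Nd) = (m' + 1) * g := by
    rw [ln_rr_degree_smDiv hT hEsm, hE1, hE2, map_nsmul, hdegN, map_zero, add_zero,
      nsmul_eq_mul]
    push_cast; ring
  have hdE' : Divisor.degree ((m' + 1) • Rd - D) = (m' + 1) * g := by
    rw [ln_rr_degree_smDiv hT hE'sm, hE'1, hE'2, map_nsmul, hdegR, map_zero, add_zero,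
      nsmul_eq_mul]
    push_cast; ring
  have hdM : Divisor.degree ((m' + 1) • (Nd + Rd)) = (m' + 1) * (g + g) := by
    rw [ln_rr_degree_smDiv hT hMsm, hM1, hM2, map_nsmul, map_add, hdegN, hdegR, map_zero,
      add_zero, nsmul_eq_mul]
    push_cast; ring
  -- the four orthonormal bases
  obtain ⟨n₁, e₁, h₁, hn₁⟩ := ln_ob_exists₁ hT hBsm
    (by rw [hB1, map_add, hdegN, hdegR]; linarith) (by rw [hB2, map_zero]; norm_num)
  obtain ⟨n₂, e₂, h₂, hn₂⟩ := ln_ob_exists₁ hT hEsm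
    (by rw [hE1, map_nsmul, hdegN, nsmul_eq_mul]; push_cast; nlinarith)
    (by rw [hE2, map_zero]; norm_num)
  obtain ⟨n₃, e₃, h₃, hn₃⟩ := ln_ob_exists₁ hT hE'sm
    (by rw [hE'1, map_nsmul, hdegR, nsmul_eq_mul]; push_cast; nlinarith)
    (by rw [hE'2, map_zero]; norm_num)
  obtain ⟨n₄, e₄, h₄, hn₄⟩ := ln_ob_exists₁ hT hMsm
    (by rw [hM1, map_nsmul, map_add, hdegN, hdegR, nsmul_eq_mul]; push_cast; nlinarith)
    (by rw [hM2, map_zero]; norm_num)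
  rw [hdB] at hn₁
  rw [hdE] at hn₂
  rw [hdE'] at hn₃
  rw [hdM] at hn₄
  have hcard : Fintype.card (Fin n₄ ⊕ Bool) = Fintype.card (Fin n₁ ⊕ Fin n₂ ⊕ Fin n₃) := by
    simp only [Fintype.card_sum, Fintype.card_fin, Fintype.card_bool]
    have : ((n₄ + 2 : ℕ) : ℤ) = ((n₁ + (n₂ + n₃) : ℕ) : ℤ) := by
      push_cast
      rw [hn₁, hn₂, hn₃, hn₄]
      ring
    exact_mod_cast this
  -- lifts of `1`
  have h1B : (1 : F₁ × F₂) ∈ R.Lbar (Nd + Rd) :=
    ln_one_mem_Lbar hT (by rw [hB1]; exact add_nonneg (gpSum_nonneg _) (gpSum_nonneg _))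
      (by rw [hB2])
  have h1E : (1 : F₁ × F₂) ∈ R.Lbar (D + (m' + 1) • Nd) :=
    ln_one_mem_Lbar hT (by rw [hE1]; exact smul_gpSum_nonneg _ _) (by rw [hE2])
  have h1E' : (1 : F₁ × F₂) ∈ R.Lbar ((m' + 1) • Rd - D) :=
    ln_one_mem_Lbar hT (by rw [hE'1]; exact smul_gpSum_nonneg _ _) (by rw [hE'2])
  obtain ⟨α, hα⟩ := h₁.exists_lift hR h1B
  obtain ⟨β, hβ⟩ := h₂.exists_lift hR h1E
  obtain ⟨γ, hγ⟩ := h₃.exists_lift hR h1E'
  obtain ⟨a₁, ha₁⟩ := h₁.exists_unit_coeff hR α hα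
  obtain ⟨b₁, hb₁⟩ := h₂.exists_unit_coeff hR β hβ
  -- the polynomial system
  have hp : ∀ μ, ∃ c : Fin n₄ → A,
      coeff μ (polyPhi e₁ e₂ e₃ (m' + 1)) = cmb (phiA A F) e₄ c := by
    intro μ
    have hmem := coeff_polyPhi_mem e₁ e₂ e₃ (fun j => lnLatticeSub R (j • (Nd + Rd)))
      (by
        refine ⟨?_, R.O₁₂.one_mem⟩
        rw [zero_smul]; exact gp_one_mem_rr le_rfl)
      (fun i j x hx y hy => ⟨by rw [add_smul]; exact rr_mul_mem hx.1 hy.1,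
        R.O₁₂.mul_mem hx.2 hy.2⟩)
      (fun a => ⟨by rw [one_smul]; exact h₁.mem_rr a, h₁.memO a⟩) (m' + 1)
      (fun b c => ⟨by
        have := rr_mul_mem (h₂.mem_rr b) (h₃.mem_rr c)
        have e : D + (m' + 1) • Nd + ((m' + 1) • Rd - D) = (m' + 1) • (Nd + Rd) := by
          rw [smul_add]; abel
        rwa [e] at this, R.O₁₂.mul_mem (h₂.memO b) (h₃.memO c)⟩) μ
    obtain ⟨c, hc⟩ := h₄.exists_coeff hR hmem.1 hmem.2
    exact ⟨c, by rw [hc, cmb_eq_comb]⟩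
  obtain ⟨q, hq1, hq2⟩ := exists_system (phiA A F) e₁ e₂ e₃ e₄ (m' + 1) hp
  simp only [cmb_eq_comb] at hq1 hq2
  set f : Fin n₄ ⊕ Bool → MvPolynomial (Fin n₁ ⊕ Fin n₂ ⊕ Fin n₃) A := fun i =>
    match i with
    | Sum.inl d => q d
    | Sum.inr false => X (Sum.inl a₁) - C (α a₁)
    | Sum.inr true => X (Sum.inr (Sum.inl b₁)) - C (β b₁) with hf
  set a₀ : Fin n₁ ⊕ Fin n₂ ⊕ Fin n₃ → A := Sum.elim α (Sum.elim β γ) with ha₀
  have hp₁ : pt₁ a₀ = α := rfl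
  have hp₂ : pt₂ a₀ = β := rfl
  have hp₃ : pt₃ a₀ = γ := rfl
  -- (i) the point solves the system modulo `𝔪`
  have hi : ∀ i, ((eval a₀ (f i) : A) : K) ∈ A.nonunits := by
    intro i
    rcases i with d | b
    · have e1 := hq1 a₀
      rw [hp₁, hp₂, hp₃] at e1
      refine h₄.coeff_nonunit hR (fun d => eval a₀ (q d)) ?_ d
      have e2 : (⟨comb e₄ fun d => eval a₀ (q d), h₄.comb_memO hR _⟩ : R.O₁₂)
          = ⟨comb e₁ α, h₁.comb_memO hR α⟩ ^ (m' + 1)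
            - ⟨comb e₂ β, h₂.comb_memO hR β⟩ * ⟨comb e₃ γ, h₃.comb_memO hR γ⟩ :=
        Subtype.ext e1
      rw [e2, map_sub, map_pow, map_mul, hα, hβ, hγ, one_pow, mul_one, sub_self]
    · cases b
      · show ((eval a₀ (X (Sum.inl a₁) - C (α a₁)) : A) : K) ∈ A.nonunits
        rw [eval_X_sub_C]
        have : a₀ (Sum.inl a₁) - α a₁ = 0 := sub_self _
        rw [this]; exact zero_mem_nonunits'
      · show ((eval a₀ (X (Sum.inr (Sum.inl b₁)) - C (β b₁)) : A) : K) ∈ A.nonunits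
        rw [eval_X_sub_C]
        have : a₀ (Sum.inr (Sum.inl b₁)) - β b₁ = 0 := sub_self _
        rw [this]; exact zero_mem_nonunits'
  -- (ii) the differential is injective modulo `𝔪`
  have hii : ∀ v : Fin n₁ ⊕ Fin n₂ ⊕ Fin n₃ → A,
      (∀ i, ((∑ j, eval a₀ (pderiv j (f i)) * v j : A) : K) ∈ A.nonunits) →
      ∀ j, ((v j : A) : K) ∈ A.nonunits := by
    intro v hv
    have hv₁ : ((v (Sum.inl a₁) : A) : K) ∈ A.nonunits := by
      have := hv (Sum.inr false)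
      have e : ∑ j, eval a₀ (pderiv j (f (Sum.inr false))) * v j = v (Sum.inl a₁) :=
        sum_pderiv_X_sub_C _ _ _ _
      rwa [e] at this
    have hv₂ : ((v (Sum.inr (Sum.inl b₁)) : A) : K) ∈ A.nonunits := by
      have := hv (Sum.inr true)
      have e : ∑ j, eval a₀ (pderiv j (f (Sum.inr true))) * v j = v (Sum.inr (Sum.inl b₁)) :=
        sum_pderiv_X_sub_C _ _ _ _
      rwa [e] at this
    have e1 := hq2 a₀ v
    rw [hp₁, hp₂, hp₃] at e1
    have hred0 := h₄.red_eq_zero_of_nonunit hR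
      (fun d => ∑ j, eval a₀ (pderiv j (q d)) * v j) (fun d => hv (Sum.inl d))
    have e2 : (⟨comb e₄ fun d => ∑ j, eval a₀ (pderiv j (q d)) * v j, h₄.comb_memO hR _⟩ : R.O₁₂)
        = ⟨((m' + 1 : ℕ) : F), ln_natCast_memO hR _⟩
            * ⟨comb e₁ α, h₁.comb_memO hR α⟩ ^ (m' + 1 - 1)
            * ⟨comb e₁ (pt₁ v), h₁.comb_memO hR _⟩
          - ⟨comb e₂ (pt₂ v), h₂.comb_memO hR _⟩ * ⟨comb e₃ γ, h₃.comb_memO hR γ⟩
          - ⟨comb e₂ β, h₂.comb_memO hR β⟩ * ⟨comb e₃ (pt₃ v), h₃.comb_memO hR _⟩ :=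
      Subtype.ext e1
    have hmO : (⟨((m' + 1 : ℕ) : F), ln_natCast_memO hR _⟩ : R.O₁₂) = ((m' + 1 : ℕ) : R.O₁₂) :=
      Subtype.ext (by push_cast; rfl)
    rw [e2, map_sub, map_sub, map_mul, map_mul, map_mul, map_mul, map_pow, hα, hβ, hγ, one_pow,
      mul_one, mul_one, one_mul, hmO, map_natCast] at hred0
    have heq : ((m' + 1 : ℕ) : k) • R.red₁₂ ⟨comb e₁ (pt₁ v), h₁.comb_memO hR _⟩
        = R.red₁₂ ⟨comb e₂ (pt₂ v), h₂.comb_memO hR _⟩
          + R.red₁₂ ⟨comb e₃ (pt₃ v), h₃.comb_memO hR _⟩ := by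
      rw [Nat.cast_smul_eq_nsmul, nsmul_eq_mul]
      linear_combination hred0
    have hu := h₁.red_comb_mem hR (pt₁ v)
    have hvv := h₂.red_comb_mem hR (pt₂ v)
    have hhh := h₃.red_comb_mem hR (pt₃ v)
    rw [ln_rr_Lbar_eq, hB1, hB2] at hu
    rw [ln_rr_Lbar_eq, hE1, hE2] at hvv
    rw [ln_rr_Lbar_eq, hE'1, hE'2] at hhh
    obtain ⟨⟨c₁, hc₁⟩, ⟨c₂, hc₂⟩, -⟩ := ln_rr_tangent_const hNod hdisj hTNcard hTRcard hTNX hTRX
      (m' + 1) hmk hu hvv hhh heq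
    have hu0 := h₁.red_eq_zero_of_const hR α (pt₁ v) hα a₁ ha₁ hv₁ c₁ hc₁
    have hv0 := h₂.red_eq_zero_of_const hR β (pt₂ v) hβ b₁ hb₁ hv₂ c₂ hc₂
    have hh0 : R.red₁₂ ⟨comb e₃ (pt₃ v), h₃.comb_memO hR _⟩ = 0 := by
      rw [hu0, hv0, smul_zero, zero_add] at heq
      exact heq.symm
    intro j
    rcases j with a | b | c
    · exact h₁.coeff_nonunit hR (pt₁ v) hu0 a
    · exact h₂.coeff_nonunit hR (pt₂ v) hv0 b
    · exact h₃.coeff_nonunit hR (pt₃ v) hh0 c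
  -- the exact solution
  obtain ⟨b, hb, hfb⟩ := hH K A (Fin n₁ ⊕ Fin n₂ ⊕ Fin n₃) (Fin n₄ ⊕ Bool) hcard f a₀ hi hii
  have hres : ∀ j, R.res (b j) = R.res (a₀ j) := fun j => ln_ob_res_eq_of_sub_nonunit hR (hb j)
  have hw1 : R.red₁₂ ⟨comb e₁ (pt₁ b), h₁.comb_memO hR _⟩ = 1 := by
    rw [← hα, h₁.red_comb hR, h₁.red_comb hR]
    exact Finset.sum_congr rfl fun i _ => by rw [pt₁, hres]; rfl
  have hh1 : R.red₁₂ ⟨comb e₂ (pt₂ b), h₂.comb_memO hR _⟩ = 1 := by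
    rw [← hβ, h₂.red_comb hR, h₂.red_comb hR]
    exact Finset.sum_congr rfl fun i _ => by rw [pt₂, hres]; rfl
  have hh'1 : R.red₁₂ ⟨comb e₃ (pt₃ b), h₃.comb_memO hR _⟩ = 1 := by
    rw [← hγ, h₃.red_comb hR, h₃.red_comb hR]
    exact Finset.sum_congr rfl fun i _ => by rw [pt₃, hres]; rfl
  have heq : comb e₁ (pt₁ b) ^ (m' + 1) = comb e₂ (pt₂ b) * comb e₃ (pt₃ b) := by
    have e1 := hq1 b
    have e2 : (comb e₄ fun d => eval b (q d)) = 0 := by
      unfold comb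
      refine Finset.sum_eq_zero fun d _ => ?_
      have := hfb (Sum.inl d)
      have e3 : eval b (q d) = 0 := this
      show ((eval b (q d) : A) : K) • e₄ d = 0
      rw [e3]; simp
    rw [e2] at e1
    exact (sub_eq_zero.mp e1.symm)
  exact ln_div1_divisor hT hdisj Nd Rd D hNdsm hRdsm hDsm hNd1 hNd2 hRd1 hRd2 hD1 hD2 hDdeg
    (m' + 1) (Nat.succ_ne_zero _)
    _ _ _ (h₁.comb_memO hR _) (h₂.comb_memO hR _) (h₃.comb_memO hR _) hw1 hh1 hh'1
    (h₁.comb_mem_rr _) (h₂.comb_mem_rr _) (h₃.comb_mem_rr _) heq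

/-- **LN-DIV**: the kernel of reduction of a two-component toric reduction is divisible by every
`m` which is a unit of `A`. -/
theorem stmtTorDiv : StmtTorDiv := stmtTorDiv_of stmtHenselMv

end Fermat.Agent.S15.LN
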