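import Fermat.Agent.S15.LNOrth
import Fermat.Agent.S15.Div1Divisor

/-!
# S15 block LOCAL-N, pieces LN-DIV / LN-TF, part 2 (helper5): divisors

* `ln_div_smooth` : the divisor of `u ∈ L(E) ∩ O₁ ∩ O₂`, `E` of smooth type, whose reduction is a
  glued unit, is of smooth type and `r_*(div u) = div(ū)` on both components;
* `ln_exists_lift_pair` : lifting of the elements of `L̄(r_* D)`;
* `ln_exists_rep` : a class of `J¹` has a representative `D` of smooth type with `r_* D = 0`;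
* `ln_mem_J1_of_push_zero` : conversely;
* `ln_le_push₁`, `ln_support_of_push₂_zero` : supports of effective divisors of smooth type;
* `ln_div1_divisor` : from a solution of `w ^ m = h h'` to the class `y` with `m y = [D]`
  (transplant of `Div1.div1_divisor`).
-/

set_option autoImplicit false
set_option linter.unusedSectionVars false
set_option linter.unusedVariables false
set_option linter.style.haveILetI false

noncomputable section

open AlgebraicCurve Module WithZero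

namespace Fermat.Agent.S15.LN

open Fermat.Agent.W1 Fermat.Agent.S24 Fermat.Agent.ES.R Fermat.Agent.S15.Div1

open scoped Classical

variable {K F k F₁ F₂ : Type} [Field K] [Field F] [Algebra K F] [Field k]
  [Field F₁] [Algebra k F₁] [Field F₂] [Algebra k F₂]
variable {A : ValuationSubring K} {R : TRData K F k F₁ F₂ A} {g : ℕ}

theorem ln_ne_zero_of_red₁ {u : F} (h₁ : u ∈ R.O₁) (hu : R.red₁ ⟨u, h₁⟩ ≠ 0) : u ≠ 0 := by
  rintro rfl
  have : (⟨0, h₁⟩ : R.O₁) = 0 := rfl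
  rw [this, map_zero] at hu
  exact hu rfl

theorem ln_ne_zero_of_red_eq_one {u : F} (hu : u ∈ R.O₁₂) (hu1 : R.red₁₂ ⟨u, hu⟩ = 1) :
    u ≠ 0 := by
  refine ln_ne_zero_of_red₁ hu.1 ?_
  have := congrArg Prod.fst hu1
  rw [ln_ob_red_fst] at this
  rw [this]
  exact one_ne_zero

/-- the poles of an element of `L(E)`, `E` of smooth type, are of smooth type -/
theorem ln_pole_smooth {u : F} {E : Divisor K F} (hE : E ∈ R.smDiv)
    (huE : u ∈ riemannRochSpace E) : ∀ P : Place K F, P.ord u < 0 → (R.r P).isSome := by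
  intro P hP
  refine hE P ?_
  rcases mem_riemannRochSpace_iff.mp huE P with h0 | h1
  · rw [h0, Place.ord_zero] at hP
    exact absurd hP (lt_irrefl _)
  · intro h0
    rw [h0, neg_zero] at h1
    omega

/-- the divisor of a function of `L(E) ∩ O₁ ∩ O₂` whose reduction is a glued unit -/
theorem ln_div_smooth (hT : R.IsToric g) {u : F} (hu : u ∈ R.O₁₂)
    {E : Divisor K F} (hE : E ∈ R.smDiv) (huE : u ∈ riemannRochSpace E)
    (hg : R.GluedUnit (R.red₁ ⟨u, hu.1⟩) (R.red₂ ⟨u, hu.2⟩))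
    {Z : Divisor K F} (hZ : ∀ P, Z P = P.ord u) :
    Z ∈ R.smDiv ∧ (∀ Q, R.push₁ Z Q = Q.ord (R.red₁ ⟨u, hu.1⟩)) ∧
      ∀ Q, R.push₂ Z Q = Q.ord (R.red₂ ⟨u, hu.2⟩) := by
  have hR := hT.isTR
  obtain ⟨x₀, hx₀⟩ := IsToric_X_nonempty hT
  obtain ⟨a₀, ha₀, hv1, hv2⟩ := hg x₀ hx₀
  have hu₁ : R.red₁ ⟨u, hu.1⟩ ≠ 0 := ln_ne_zero_of_value hv1 ha₀
  have hu₂ : R.red₂ ⟨u, hu.2⟩ ≠ 0 := ln_ne_zero_of_value hv2 ha₀
  have hpole := ln_pole_smooth hE huE
  have hzero := ln_glue_unit hT u hu.1 hu.2 hpole hg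
  refine ⟨?_, fun Q => ?_, fun Q => ?_⟩
  · intro P hP
    rw [hZ] at hP
    rcases lt_or_gt_of_ne hP with h | h
    · exact hpole P h
    · exact hzero P h
  · by_cases hQ : ∀ x ∈ R.X, x.1 ≠ Q
    · exact hR.r_div₁ ⟨u, hu.1⟩ hu₁ Z hZ Q hQ
    · push Not at hQ
      obtain ⟨x, hx, rfl⟩ := hQ
      obtain ⟨a, ha, h1, -⟩ := hg x hx
      rw [ln_push₁_cross hR Z hx, ln_ord_eq_zero_of_value h1 ha]
  · by_cases hQ : ∀ x ∈ R.X, x.2 ≠ Q
    · exact hR.r_div₂ ⟨u, hu.2⟩ hu₂ Z hZ Q hQ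
    · push Not at hQ
      obtain ⟨x, hx, rfl⟩ := hQ
      obtain ⟨a, ha, -, h2⟩ := hg x hx
      rw [ln_push₂_cross hR Z hx, ln_ord_eq_zero_of_value h2 ha]

/-- the divisor of a function of `L(E) ∩ O₁ ∩ O₂` with reduction `1` -/
theorem ln_div_one (hT : R.IsToric g) {u : F} (hu : u ∈ R.O₁₂)
    {E : Divisor K F} (hE : E ∈ R.smDiv) (huE : u ∈ riemannRochSpace E)
    (hu1 : R.red₁₂ ⟨u, hu⟩ = 1) {Z : Divisor K F} (hZ : ∀ P, Z P = P.ord u) :
    Z ∈ R.smDiv ∧ R.push₁ Z = 0 ∧ R.push₂ Z = 0 := by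
  have e1 : R.red₁ ⟨u, hu.1⟩ = 1 := congrArg Prod.fst hu1
  have e2 : R.red₂ ⟨u, hu.2⟩ = 1 := congrArg Prod.snd hu1
  have hg : R.GluedUnit (R.red₁ ⟨u, hu.1⟩) (R.red₂ ⟨u, hu.2⟩) := by
    rw [e1, e2]; exact ln_gluedUnit_one R
  obtain ⟨h0, h1, h2⟩ := ln_div_smooth hT hu hE huE hg hZ
  refine ⟨h0, ?_, ?_⟩
  · ext Q
    rw [h1 Q, e1, Place.ord_one]; rfl
  · ext Q
    rw [h2 Q, e2, Place.ord_one]; rfl

/-- lifting of the elements of `L̄(r_* D)` -/
theorem ln_exists_lift_pair (hT : R.IsToric g) {D : Divisor K F} (hD : D ∈ R.smDiv)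
    (hd₁ : (g : ℤ) ≤ Divisor.degree (R.push₁ D)) (hd₂ : -1 ≤ Divisor.degree (R.push₂ D))
    {y : F₁ × F₂} (hy : y ∈ R.Lbar D) :
    ∃ (u : F) (hu : u ∈ R.O₁₂), u ∈ riemannRochSpace D ∧ R.red₁₂ ⟨u, hu⟩ = y := by
  obtain ⟨n, e, he, -⟩ := ln_ob_exists₁ hT hD hd₁ hd₂
  obtain ⟨c, hc⟩ := he.exists_lift hT.isTR hy
  exact ⟨comb e c, he.comb_memO hT.isTR c, he.comb_mem_rr c, hc⟩

/-- a divisor of smooth type with `r_* D = 0` is in the kernel of reduction -/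
theorem ln_mem_J1_of_push_zero {D : Divisor K F} (hD : D ∈ R.smDiv) (h1 : R.push₁ D = 0)
    (h2 : R.push₂ D = 0) (hdeg : D ∈ Divisor.degZero (K := K) (F := F)) :
    Pic0.mk ⟨D, hdeg⟩ ∈ R.J1 := by
  refine (ln_mem_J1 R).mpr ⟨⟨D, hdeg⟩, (ln_mem_div1 R).mpr ⟨(ln_mem_div00 R).mpr ⟨hD, ?_, ?_⟩, ?_⟩,
    rfl⟩
  · show Divisor.degree (R.push₁ D) = 0
    rw [h1, map_zero]
  · show Divisor.degree (R.push₂ D) = 0
    rw [h2, map_zero]
  · show R.IsPrincBar (R.push₁ D, R.push₂ D)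
    rw [h1, h2]
    exact ln_isPrincBar_zero R

/-- a class of the kernel of reduction has a representative of smooth type whose reduction
is `0` -/
theorem ln_exists_rep (hT : R.IsToric g) {x : Pic0 K F} (hx : x ∈ R.J1) :
    ∃ (D : Divisor K F) (hD : D ∈ Divisor.degZero (K := K) (F := F)),
      Pic0.mk ⟨D, hD⟩ = x ∧ D ∈ R.smDiv ∧ R.push₁ D = 0 ∧ R.push₂ D = 0 := by
  have hR := hT.isTR
  have hpd := hT.nice.hpd
  obtain ⟨D₀, hD₀, rfl⟩ := (ln_mem_J1 R).mp hx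
  obtain ⟨h00, f₁, f₂, hf₁, hf₂, hgu, hd₁, hd₂⟩ := (ln_mem_div1 R).mp hD₀
  obtain ⟨hsm, hdeg1, hdeg2⟩ := (ln_mem_div00 R).mp h00
  have hd₁' : ∀ Q, R.push₁ (D₀ : Divisor K F) Q = Q.ord f₁ := hd₁
  have hd₂' : ∀ Q, R.push₂ (D₀ : Divisor K F) Q = Q.ord f₂ := hd₂
  have hNod := ln_rr_isNodal hT
  obtain ⟨T, hTcard, -, hTX, -⟩ := ln_rr_exists_chart₁ hNod (F₂ := F₂) ∅
  obtain ⟨Nd, hNd0, hNdsm, hNd1, hNd2⟩ := ln_rr_exists_lift₁ hT T hTX
  set E : Divisor K F := -(D₀ : Divisor K F) + Nd with hEdef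
  have hEsm : E ∈ R.smDiv := R.smDiv.add_mem (R.smDiv.neg_mem hsm) hNdsm
  have hE1 : R.push₁ E = -R.push₁ (D₀ : Divisor K F) + gpSum T := by
    rw [hEdef, map_add, map_neg, hNd1]
  have hE2 : R.push₂ E = -R.push₂ (D₀ : Divisor K F) := by
    rw [hEdef, map_add, map_neg, hNd2, add_zero]
  have hdE1 : (g : ℤ) ≤ Divisor.degree (R.push₁ E) := by
    rw [hE1, map_add, map_neg, hdeg1, degree_gpSum hT.nice₁.hres, hTcard]
    simp
  have hdE2 : -1 ≤ Divisor.degree (R.push₂ E) := by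
    rw [hE2, map_neg, hdeg2]
    simp
  have hy : ((f₁, f₂) : F₁ × F₂) ∈ R.Lbar E := by
    rw [ln_mem_Lbar]
    refine ⟨?_, ?_, ln_gluedUnit_glued R hgu⟩
    · rw [mem_riemannRochSpace_iff]
      intro v
      right
      rw [hE1, Finsupp.add_apply, Finsupp.neg_apply, hd₁' v]
      have := Finsupp.le_def.mp (gpSum_nonneg T) v
      simp only [Finsupp.coe_zero, Pi.zero_apply] at this
      show -(-v.ord f₁ + gpSum T v) ≤ v.ord f₁
      omega
    · rw [mem_riemannRochSpace_iff]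
      intro v
      right
      rw [hE2, Finsupp.neg_apply, hd₂' v]
      show -(-v.ord f₂) ≤ v.ord f₂
      omega
  obtain ⟨u, hu, huE, hured⟩ := ln_exists_lift_pair hT hEsm hdE1 hdE2 hy
  have e1 : R.red₁ ⟨u, hu.1⟩ = f₁ := congrArg Prod.fst hured
  have e2 : R.red₂ ⟨u, hu.2⟩ = f₂ := congrArg Prod.snd hured
  have hu0 : u ≠ 0 := ln_ne_zero_of_red₁ hu.1 (by rw [e1]; exact hf₁)
  obtain ⟨Z, hZ, hZdeg⟩ := HasPrincipalDivisors.exists_divisor (K := K) u hu0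
  have hg : R.GluedUnit (R.red₁ ⟨u, hu.1⟩) (R.red₂ ⟨u, hu.2⟩) := by
    rw [e1, e2]; exact hgu
  obtain ⟨hZsm, hZ1, hZ2⟩ := ln_div_smooth hT hu hEsm huE hg hZ
  have hp1 : R.push₁ Z = R.push₁ (D₀ : Divisor K F) := by
    ext Q
    rw [hZ1 Q, e1, hd₁' Q]
  have hp2 : R.push₂ Z = R.push₂ (D₀ : Divisor K F) := by
    ext Q
    rw [hZ2 Q, e2, hd₂' Q]
  have hdeg : (D₀ : Divisor K F) - Z ∈ Divisor.degZero (K := K) (F := F) := by
    rw [Divisor.mem_degZero, map_sub, hZdeg, Divisor.mem_degZero.mp D₀.2, sub_zero]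
  refine ⟨(D₀ : Divisor K F) - Z, hdeg, ?_, R.smDiv.sub_mem hsm hZsm, ?_, ?_⟩
  · rw [ln_mk_eq_iff]
    have e : ((D₀ : Divisor K F) - ((D₀ : Divisor K F) - Z)) = Z := by abel
    show ((D₀ : Divisor K F) - ((D₀ : Divisor K F) - Z)) ∈ Divisor.principal (K := K) (F := F)
    rw [e]
    exact ⟨u, hu0, hZ⟩
  · rw [map_sub, hp1, sub_self]
  · rw [map_sub, hp2, sub_self]

/-! ### Supports of effective divisors of smooth type -/

theorem ln_le_push₁ {E : Divisor K F} (hE : 0 ≤ E) {P : Place K F} {Q : Place k F₁}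
    (hP : R.r P = some (Sum.inl Q)) : E P ≤ R.push₁ E Q := by
  rw [ln_push₁_apply]
  have hnn : ∀ P' ∈ E.support, (0 : ℤ) ≤ if R.r P' = some (Sum.inl Q) then E P' else 0 := by
    intro P' _
    split_ifs
    · simpa using Finsupp.le_def.mp hE P'
    · exact le_rfl
  by_cases hmem : P ∈ E.support
  · have := Finset.single_le_sum hnn hmem
    rwa [if_pos hP] at this
  · rw [Finsupp.notMem_support_iff.mp hmem]
    exact Finset.sum_nonneg hnn

theorem ln_le_push₂ {E : Divisor K F} (hE : 0 ≤ E) {P : Place K F} {Q : Place k F₂}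
    (hP : R.r P = some (Sum.inr Q)) : E P ≤ R.push₂ E Q := by
  rw [ln_push₂_apply]
  have hnn : ∀ P' ∈ E.support, (0 : ℤ) ≤ if R.r P' = some (Sum.inr Q) then E P' else 0 := by
    intro P' _
    split_ifs
    · simpa using Finsupp.le_def.mp hE P'
    · exact le_rfl
  by_cases hmem : P ∈ E.support
  · have := Finset.single_le_sum hnn hmem
    rwa [if_pos hP] at this
  · rw [Finsupp.notMem_support_iff.mp hmem]
    exact Finset.sum_nonneg hnn

/-- an effective divisor of smooth type with `r_{2*} E = 0` is supported on the places reducing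
to the support of `r_{1*} E` -/
theorem ln_support_of_push₂_zero {E : Divisor K F} (hE : 0 ≤ E) (hsm : E ∈ R.smDiv)
    (h2 : R.push₂ E = 0) {P : Place K F} (hP : E P ≠ 0) :
    ∃ Q, R.r P = some (Sum.inl Q) ∧ R.push₁ E Q ≠ 0 := by
  have hpos : 0 < E P := by
    have : 0 ≤ E P := by simpa using Finsupp.le_def.mp hE P
    omega
  have hs := hsm P hP
  rcases h : R.r P with _ | (Q | Q)
  · rw [h] at hs
    exact absurd hs (by simp)
  · refine ⟨Q, rfl, ?_⟩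
    have := ln_le_push₁ (R := R) hE h
    omega
  · exfalso
    have := ln_le_push₂ (R := R) hE h
    rw [h2] at this
    have h0 : (0 : Divisor k F₂) Q = 0 := rfl
    omega

theorem ln_smul_gpSum_ne_zero {T : Finset (Place k F₁)} {m : ℕ} {Q : Place k F₁}
    (h : (m • gpSum T) Q ≠ 0) : Q ∈ T := by
  by_contra hQ
  exact h (smul_gpSum_apply_of_not_mem m hQ)

/-! ### From the solution to the class -/

theorem ln_div1_divisor (hT : R.IsToric g)
    {TN TR : Finset (Place k F₁)} (hdisj : Disjoint TN TR)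
    (Nd Rd D : Divisor K F) (hNdsm : Nd ∈ R.smDiv) (hRdsm : Rd ∈ R.smDiv) (hDsm : D ∈ R.smDiv)
    (hNd1 : R.push₁ Nd = gpSum TN) (hNd2 : R.push₂ Nd = 0)
    (hRd1 : R.push₁ Rd = gpSum TR) (hRd2 : R.push₂ Rd = 0)
    (hD1 : R.push₁ D = 0) (hD2 : R.push₂ D = 0) (hDdeg : D ∈ Divisor.degZero (K := K) (F := F))
    (m : ℕ) (hm : m ≠ 0) (w h h' : F) (hwO : w ∈ R.O₁₂) (hhO : h ∈ R.O₁₂) (hh'O : h' ∈ R.O₁₂)
    (hw1 : R.red₁₂ ⟨w, hwO⟩ = 1) (hh1 : R.red₁₂ ⟨h, hhO⟩ = 1) (hh'1 : R.red₁₂ ⟨h', hh'O⟩ = 1)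
    (hw : w ∈ riemannRochSpace (Nd + Rd)) (hh : h ∈ riemannRochSpace (D + m • Nd))
    (hh' : h' ∈ riemannRochSpace (m • Rd - D)) (heq : w ^ m = h * h') :
    ∃ y : Pic0 K F, y ∈ R.J1 ∧ m • y = Pic0.mk ⟨D, hDdeg⟩ := by
  have hpd := hT.nice.hpd
  have hw0 := ln_ne_zero_of_red_eq_one hwO hw1
  have hh0 := ln_ne_zero_of_red_eq_one hhO hh1
  have hh'0 := ln_ne_zero_of_red_eq_one hh'O hh'1
  obtain ⟨Zw, hZw, -⟩ := HasPrincipalDivisors.exists_divisor (K := K) w hw0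
  obtain ⟨Zh, hZh, hZhdeg⟩ := HasPrincipalDivisors.exists_divisor (K := K) h hh0
  obtain ⟨Zh', hZh', -⟩ := HasPrincipalDivisors.exists_divisor (K := K) h' hh'0
  have hEsm : D + m • Nd ∈ R.smDiv := R.smDiv.add_mem hDsm (R.smDiv.nsmul_mem hNdsm m)
  have hE'sm : m • Rd - D ∈ R.smDiv := R.smDiv.sub_mem (R.smDiv.nsmul_mem hRdsm m) hDsm
  obtain ⟨hZhsm, hZh1, hZh2⟩ := ln_div_one hT hhO hEsm hh hh1 hZh
  obtain ⟨hZh'sm, hZh'1, hZh'2⟩ := ln_div_one hT hh'O hE'sm hh' hh'1 hZh'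
  -- the three effective divisors
  have hDw : 0 ≤ Zw + (Nd + Rd) := div_add_nonneg hw0 hw hZw
  have hDh : 0 ≤ Zh + (D + m • Nd) := div_add_nonneg hh0 hh hZh
  have hDh' : 0 ≤ Zh' + (m • Rd - D) := div_add_nonneg hh'0 hh' hZh'
  have hZ : m • Zw = Zh + Zh' := by
    ext v
    rw [Finsupp.smul_apply, Finsupp.add_apply, hZw, hZh, hZh', ← v.ord_mul hh0 hh'0, ← heq,
      div1_ord_pow, nsmul_eq_mul]
  have hsum : m • (Zw + (Nd + Rd)) = (Zh + (D + m • Nd)) + (Zh' + (m • Rd - D)) := by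
    rw [smul_add, smul_add, hZ]; abel
  have hDhsm : Zh + (D + m • Nd) ∈ R.smDiv := R.smDiv.add_mem hZhsm hEsm
  have hDh'sm : Zh' + (m • Rd - D) ∈ R.smDiv := R.smDiv.add_mem hZh'sm hE'sm
  have hrDh1 : R.push₁ (Zh + (D + m • Nd)) = m • gpSum TN := by
    rw [map_add, map_add, map_nsmul, hZh1, hD1, hNd1, zero_add, zero_add]
  have hrDh2 : R.push₂ (Zh + (D + m • Nd)) = 0 := by
    rw [map_add, map_add, map_nsmul, hZh2, hD2, hNd2, zero_add, zero_add, smul_zero]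
  have hrDh'1 : R.push₁ (Zh' + (m • Rd - D)) = m • gpSum TR := by
    rw [map_add, map_sub, map_nsmul, hZh'1, hD1, hRd1, zero_add, sub_zero]
  have hrDh'2 : R.push₂ (Zh' + (m • Rd - D)) = 0 := by
    rw [map_add, map_sub, map_nsmul, hZh'2, hD2, hRd2, zero_add, sub_zero, smul_zero]
  -- the divisor `D'`
  set D' : Divisor K F :=
    Finsupp.filter (fun P => ∃ Q ∈ TN, R.r P = some (Sum.inl Q)) (Zw + (Nd + Rd)) with hD'
  have hmD' : m • D' = Zh + (D + m • Nd) := by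
    ext P
    rw [Finsupp.smul_apply, hD', Finsupp.filter_apply]
    by_cases hP : ∃ Q ∈ TN, R.r P = some (Sum.inl Q)
    · rw [if_pos hP]
      obtain ⟨Q, hQ, hPQ⟩ := hP
      have hQR : Q ∉ TR := fun h => Finset.disjoint_left.mp hdisj hQ h
      have h1 : (Zh' + (m • Rd - D)) P = 0 := by
        by_contra hne
        obtain ⟨Q', hPQ', hQ'⟩ := ln_support_of_push₂_zero hDh' hDh'sm hrDh'2 hne
        rw [hPQ] at hPQ'
        have hQQ : Q = Q' := Sum.inl.inj (Option.some.inj hPQ')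
        rw [hrDh'1, ← hQQ] at hQ'
        exact hQR (ln_smul_gpSum_ne_zero hQ')
      have h2 := DFunLike.congr_fun hsum P
      rw [Finsupp.smul_apply, Finsupp.add_apply _ (Zh' + (m • Rd - D)), h1, add_zero] at h2
      exact h2
    · rw [if_neg hP, smul_zero]
      symm
      by_contra hne
      obtain ⟨Q', hPQ', hQ'⟩ := ln_support_of_push₂_zero hDh hDhsm hrDh2 hne
      rw [hrDh1] at hQ'
      exact hP ⟨Q', ln_smul_gpSum_ne_zero hQ', hPQ'⟩
  -- `m (D' - Nd) = D + div h`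
  have hkey : m • (D' - Nd) = D + Zh := by
    rw [smul_sub, hmD']; abel
  have hmZ : (m : ℤ) ≠ 0 := by exact_mod_cast hm
  have hdeg : D' - Nd ∈ Divisor.degZero (K := K) (F := F) := by
    rw [Divisor.mem_degZero]
    have h1 : Divisor.degree (m • (D' - Nd)) = 0 := by
      rw [hkey, map_add, hZhdeg, Divisor.mem_degZero.mp hDdeg, add_zero]
    rw [map_nsmul, nsmul_eq_mul] at h1
    exact (mul_eq_zero.mp h1).resolve_left hmZ
  have hsm' : D' - Nd ∈ R.smDiv := by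
    intro P hP
    have h1 : (D + Zh) P ≠ 0 := by
      rw [← hkey, Finsupp.smul_apply, nsmul_eq_mul]
      exact mul_ne_zero hmZ hP
    exact R.smDiv.add_mem hDsm hZhsm P h1
  have hred1 : R.push₁ (D' - Nd) = 0 := by
    have h1 : m • R.push₁ (D' - Nd) = 0 := by
      rw [← map_nsmul, hkey, map_add, hD1, hZh1, add_zero]
    ext Q
    have h2 := DFunLike.congr_fun h1 Q
    rw [Finsupp.smul_apply, nsmul_eq_mul] at h2
    simpa using (mul_eq_zero.mp h2).resolve_left hmZ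
  have hred2 : R.push₂ (D' - Nd) = 0 := by
    have h1 : m • R.push₂ (D' - Nd) = 0 := by
      rw [← map_nsmul, hkey, map_add, hD2, hZh2, add_zero]
    ext Q
    have h2 := DFunLike.congr_fun h1 Q
    rw [Finsupp.smul_apply, nsmul_eq_mul] at h2
    simpa using (mul_eq_zero.mp h2).resolve_left hmZ
  refine ⟨Pic0.mk ⟨D' - Nd, hdeg⟩, ln_mem_J1_of_push_zero hsm' hred1 hred2 hdeg, ?_⟩
  have h1 : m • Pic0.mk ⟨D' - Nd, hdeg⟩ =
      Pic0.mk (m • (⟨D' - Nd, hdeg⟩ : Divisor.degZero (K := K) (F := F))) := rfl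
  rw [h1]
  unfold Pic0.mk
  rw [QuotientAddGroup.eq, AddSubgroup.mem_addSubgroupOf]
  have h2 : ((-(m • (⟨D' - Nd, hdeg⟩ : Divisor.degZero (K := K) (F := F))) +
      ⟨D, hDdeg⟩ : Divisor.degZero (K := K) (F := F)) : Divisor K F) = -Zh := by
    rw [AddSubgroup.coe_add, AddSubgroup.coe_neg, AddSubgroup.coe_nsmul]
    show -(m • (D' - Nd)) + D = -Zh
    rw [hkey]; abel
  rw [h2]
  exact AddSubgroup.neg_mem _ ⟨h, hh0, hZh⟩

end Fermat.Agent.S15.LN
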