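import Fermat.Agent.S15.PkgWire
import Fermat.Agent.S15.PkgTVFibre
import Fermat.Agent.S15.PkgRdivAsm
import Fermat.Agent.S15.PkgUniq
import Fermat.Agent.S15.PkgMinH

/-!
# S15 / LOCAL-N: CLOSED (helper5, sub-captain; pieces by the LOCAL-N and LN-PKG teams)

`stmtLocDivN : StmtLocDivN` — the input of S15 at the level prime (`S15/Plan.lean` v2):
for the level `p` (a Mazur level), a valuation ring `A` of `ℚ̄` over `p`, a prime `r ≠ p` and a
rational place `x` of type two (`IsTypeTwo p x`), the class `[(x) − (0)]` of `J₀(p)` is divisible
by `r` by a point fixed by the inertia group of `A`.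

Chain: PKG-minh (helper52) + the fibre formula (helper10) ⇒ PKG-uniq (helper25)
⇒ PKG-rdiv (helper24); with the fibre formula, PKG-ev (helper72), PKG-cross (helper8),
PKG-glue (helper13), PKG-card (helper89), PKG-nice (helper10) ⇒ the toric package
(`stmtPkgToric_of`, helper5) ⇒ `StmtModTRmin` (helper17) ⇒ `StmtLocDivN`
(`stmtLocDivN_of_pkg`, helper5; abstract half: LN-RR/Q/CNT helper10, LN-TF helper24,
LN-DIV/GLUE helper5).

Only the names of the reductions are used here (no name of an unconditional intermediate
statement), so that this file is stable under renamings elsewhere.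
-/

set_option autoImplicit false

namespace Fermat.Agent.S15.LN

open Fermat.Agent.S15

/-- **LOCAL-N**: `StmtLocDivN`, unconditional -/
theorem stmtLocDivN : StmtLocDivN :=
  stmtLocDivN_of_open stmtPkgFibre (stmtPkgRdiv_of (stmtPkgUniq_of stmtPkgMinH stmtPkgFibre))

end Fermat.Agent.S15.LN
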