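import Fermat.Agent.S15.LNDiv
import Fermat.Agent.S15.Div1HenselUniq

/-!
# S15 block LOCAL-N, piece LN-TF (helper24): the kernel of reduction `J¹` has no `m`-torsion

`stmtTorTF : StmtTorTF`.  Same system as LN-DIV (`S15/LNDiv.lean`, helper5) and the uniqueness
part of Hensel's lemma (`stmtHenselMvUniq`).

* `ln_tf_unit_fun` : a principal divisor of smooth type whose reduction is `0` is the divisor of
  a function of `O₁ ∩ O₂` with reduction `1`;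
* `ln_tf_scale` : normalisation of one coordinate by a unit of `A` congruent to `1`;
* `ln_tf_core` : two solutions `(w, h, h')`, `(w₂, t, t')` of the system of LN-DIV (all with
  reduction `1`) differ by units of `A`: `h = l t`;
* `stmtTorTF_of` : `x = [D]`, `r_* D = 0`, `m D = div f`, `f ≡ 1`; `u ∈ L(D + Nd)`,
  `u' ∈ L(Rd - D)` lifts of `1`: the system for the class `0` has the solutions `(1, 1, 1)` and
  `(u u', f u ^ m, f⁻¹ u' ^ m)`, so `f u ^ m` is a constant and `D = - div u`.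
-/

set_option autoImplicit false
set_option linter.unusedSectionVars false
set_option linter.unusedVariables false
set_option linter.style.haveILetI false

noncomputable section

open AlgebraicCurve Module MvPolynomial

namespace Fermat.Agent.S15.LN

open Fermat.Agent.W1 Fermat.Agent.S24 Fermat.Agent.ES.R Fermat.Agent.S15.Div1

variable {K F k F₁ F₂ : Type} [Field K] [Field F] [Algebra K F] [Field k]
  [Field F₁] [Algebra k F₁] [Field F₂] [Algebra k F₂]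
variable {A : ValuationSubring K} {R : TRData K F k F₁ F₂ A} {g : ℕ}

/-- a principal divisor of smooth type whose reduction is `0` is the divisor of a function of
`O₁ ∩ O₂` with reduction `1` -/
theorem ln_tf_unit_fun (hT : R.IsToric g) {Z : Divisor K F} (hZsm : Z ∈ R.smDiv)
    (hZ1 : R.push₁ Z = 0) (hZ2 : R.push₂ Z = 0) {f : F} (hf0 : f ≠ 0)
    (hf : ∀ P, Z P = P.ord f) :
    ∃ (f' : F) (hf' : f' ∈ R.O₁₂), R.red₁₂ ⟨f', hf'⟩ = 1 ∧ ∀ P, Z P = P.ord f' := by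
  classical
  have hR := hT.isTR
  have hNod := ln_rr_isNodal hT
  obtain ⟨a, ha, h₁, h₂, hr₁, hr₂⟩ := ln_slope hT f hf0 Z hf hZsm (by rw [hZ1, map_zero])
  set w : F := algebraMap K F a * f with hw
  have hZw : ∀ P, Z P = P.ord w := fun P => by rw [hf P, hw, ln_ord_const_mul P ha]
  have hwO : w ∈ R.O₁₂ := ⟨h₁, h₂⟩
  have hg : R.GluedUnit (R.red₁ ⟨w, h₁⟩) (R.red₂ ⟨w, h₂⟩) :=
    ln_gluedUnit_of_biunit hR h₁ h₂ hr₁ hr₂ (fun P hP => hZsm P (by rwa [hZw P]))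
  have hwE : w ∈ riemannRochSpace (-Z) := by
    rw [mem_riemannRochSpace_iff]
    intro v
    right
    rw [Finsupp.neg_apply, neg_neg, hZw v]
  obtain ⟨-, hp1, hp2⟩ := ln_div_smooth hT hwO (R.smDiv.neg_mem hZsm) hwE hg hZw
  have ho1 : ∀ Q : Place k F₁, Q.ord (R.red₁ ⟨w, h₁⟩) = 0 := fun Q => by
    rw [← hp1 Q, hZ1]; rfl
  have ho2 : ∀ Q : Place k F₂, Q.ord (R.red₂ ⟨w, h₂⟩) = 0 := fun Q => by
    rw [← hp2 Q, hZ2]; rfl
  obtain ⟨T, hTcard, -, hTX, -⟩ := ln_rr_exists_chart₁ hNod (F₂ := F₂) ∅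
  have hmem : (R.red₁ ⟨w, h₁⟩, R.red₂ ⟨w, h₂⟩) ∈ lnLbar R.X (gpSum T) (0 : Divisor k F₂) := by
    refine ⟨?_, ?_, ln_gluedUnit_glued R hg⟩
    · rw [mem_riemannRochSpace_iff]
      intro v
      right
      rw [ho1 v]
      have := Finsupp.le_def.mp (gpSum_nonneg T) v
      simp only [Finsupp.coe_zero, Pi.zero_apply] at this
      omega
    · rw [mem_riemannRochSpace_iff]
      intro v
      right
      rw [ho2 v]
      simp
  obtain ⟨c, hc⟩ := ln_rr_const_of_chart₁ hNod T hTcard hTX hmem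
  have hc1 : R.red₁ ⟨w, h₁⟩ = algebraMap k F₁ c := congrArg Prod.fst hc
  have hc2 : R.red₂ ⟨w, h₂⟩ = algebraMap k F₂ c := congrArg Prod.snd hc
  have hc0 : c ≠ 0 := by
    rintro rfl
    rw [map_zero] at hc1
    exact hr₁ hc1
  obtain ⟨a', ha'⟩ := hR.res_surjective c⁻¹
  have ha'0 : (a' : K) ≠ 0 := by
    intro h0
    have : a' = 0 := Subtype.ext h0
    rw [this, map_zero] at ha'
    exact inv_ne_zero hc0 ha'.symm
  have hmemA : algebraMap K F (a' : K) ∈ R.O₁₂ := ln_ob_algebraMap_mem hR a'.2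
  refine ⟨algebraMap K F (a' : K) * w, R.O₁₂.mul_mem hmemA hwO, ?_, fun P => ?_⟩
  · have e : (⟨algebraMap K F (a' : K) * w, R.O₁₂.mul_mem hmemA hwO⟩ : R.O₁₂)
        = ⟨algebraMap K F (a' : K), hmemA⟩ * ⟨w, hwO⟩ := rfl
    rw [e, map_mul, ln_ob_red_algebraMap hR a' hmemA, ln_ob_red_apply hwO, hc1, hc2, ha']
    refine Prod.ext ?_ ?_
    · show algebraMap k F₁ c⁻¹ * algebraMap k F₁ c = 1
      rw [← map_mul, inv_mul_cancel₀ hc0, map_one]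
    · show algebraMap k F₂ c⁻¹ * algebraMap k F₂ c = 1
      rw [← map_mul, inv_mul_cancel₀ hc0, map_one]
  · rw [hZw P, ln_ord_const_mul P ha'0]

/-- an element of `A` which is not in the maximal ideal is a unit -/
theorem ln_tf_isUnit {a : A} (ha : (a : K) ∉ A.nonunits) : IsUnit a := by
  by_contra h
  apply ha
  rw [ValuationSubring.coe_mem_nonunits_iff, IsLocalRing.mem_maximalIdeal, mem_nonunits_iff]
  exact h

/-- the reduction of `l • W`, `l` a unit of `A` -/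
theorem ln_tf_red_unit_mul (hR : R.IsTR) (l : Aˣ) {W : F} (hWO : W ∈ R.O₁₂) :
    ∃ h : algebraMap K F (((l : A) : K)) * W ∈ R.O₁₂,
      R.red₁₂ ⟨algebraMap K F (((l : A) : K)) * W, h⟩ = R.res (l : A) • R.red₁₂ ⟨W, hWO⟩ := by
  have hmem : algebraMap K F (((l : A) : K)) * W ∈ R.O₁₂ :=
    R.O₁₂.mul_mem (ln_ob_algebraMap_mem hR (l : A).2) hWO
  refine ⟨hmem, ?_⟩
  have e : (⟨algebraMap K F (((l : A) : K)) * W, hmem⟩ : R.O₁₂)
      = ⟨((l : A) : K) • W, ln_ob_smul_mem hR (l : A).2 hWO⟩ :=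
    Subtype.ext (Algebra.smul_def _ _).symm
  rw [e, ln_ob_red_smul hR (l : A).2 hWO]

/-- normalisation of one coordinate by a unit of `A` congruent to `1` -/
theorem ln_tf_scale (hR : R.IsTR) {E : Divisor K F} {n : ℕ} {e : Fin n → F} (h : IsOB₂ R E e)
    (α : Fin n → A) (hα : R.red₁₂ ⟨comb e α, h.comb_memO hR α⟩ = 1)
    (a₁ : Fin n) (ha₁ : ((α a₁ : A) : K) ∉ A.nonunits)
    {W : F} (hWO : W ∈ R.O₁₂) (hWE : W ∈ riemannRochSpace E) (hW1 : R.red₁₂ ⟨W, hWO⟩ = 1) :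
    ∃ (l : Aˣ) (c : Fin n → A), R.res (l : A) = 1 ∧
      algebraMap K F (((l : A) : K)) * W = comb e c ∧ c a₁ = α a₁ ∧
      ∀ j, ((c j - α j : A) : K) ∈ A.nonunits := by
  obtain ⟨c₀, hc₀⟩ := h.exists_coeff hR hWE hWO
  have hred : R.red₁₂ ⟨comb e c₀, h.comb_memO hR c₀⟩
      = R.red₁₂ ⟨comb e α, h.comb_memO hR α⟩ := by
    rw [hα, ← hW1]
    congr 1
    exact Subtype.ext hc₀.symm
  have hres := h.res_eq_of_red_eq hR c₀ α hred
  have hu1 : IsUnit (α a₁) := ln_tf_isUnit ha₁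
  have hu0 : IsUnit (c₀ a₁) := by
    apply ln_tf_isUnit
    intro hn
    have h1 := (hR.res_eq_zero_iff (c₀ a₁)).mpr hn
    rw [hres a₁] at h1
    exact ha₁ ((hR.res_eq_zero_iff (α a₁)).mp h1)
  obtain ⟨ua, hua⟩ := hu1
  obtain ⟨uc, huc⟩ := hu0
  have e1 : R.res (ua : A) = R.res (uc : A) := by rw [hua, huc, hres a₁]
  have hl : R.res ((ua * uc⁻¹ : Aˣ) : A) = 1 := by
    calc R.res ((ua * uc⁻¹ : Aˣ) : A)
        = R.res (ua : A) * R.res ((uc⁻¹ : Aˣ) : A) := by rw [Units.val_mul, map_mul]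
      _ = R.res (uc : A) * R.res ((uc⁻¹ : Aˣ) : A) := by rw [e1]
      _ = R.res ((uc * uc⁻¹ : Aˣ) : A) := by rw [Units.val_mul, map_mul]
      _ = 1 := by rw [mul_inv_cancel, Units.val_one, map_one]
  refine ⟨ua * uc⁻¹, fun j => ((ua * uc⁻¹ : Aˣ) : A) * c₀ j, hl, ?_, ?_, fun j => ?_⟩
  · rw [hc₀]
    unfold comb
    rw [← Algebra.smul_def, Finset.smul_sum]
    refine Finset.sum_congr rfl fun i _ => ?_
    rw [smul_smul]
    rfl
  · show ((ua * uc⁻¹ : Aˣ) : A) * c₀ a₁ = α a₁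
    rw [← huc, ← hua, ← Units.val_mul, inv_mul_cancel_right]
  · apply (hR.res_eq_zero_iff _).mp
    rw [map_sub, map_mul, hl, one_mul, hres j, sub_self]

/-- inverse of a function with reduction `1` -/
theorem ln_tf_inv (hR : R.IsTR) {u : F} (hu : u ∈ R.O₁₂) (hu1 : R.red₁₂ ⟨u, hu⟩ = 1) :
    ∃ h : u⁻¹ ∈ R.O₁₂, R.red₁₂ ⟨u⁻¹, h⟩ = 1 := by
  have e1 : R.red₁ ⟨u, hu.1⟩ = 1 := congrArg Prod.fst hu1
  have e2 : R.red₂ ⟨u, hu.2⟩ = 1 := congrArg Prod.snd hu1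
  have hn1 : R.red₁ ⟨u, hu.1⟩ ≠ 0 := by rw [e1]; exact one_ne_zero
  have hn2 : R.red₂ ⟨u, hu.2⟩ ≠ 0 := by rw [e2]; exact one_ne_zero
  have hi1 := ln_inv_mem₁ hR hu.1 hn1
  have hi2 := ln_inv_mem₂ hR hu.2 hn2
  refine ⟨⟨hi1, hi2⟩, Prod.ext ?_ ?_⟩
  · show R.red₁ ⟨u⁻¹, hi1⟩ = 1
    rw [ln_red₁_inv hR hu.1 hn1, e1, inv_one]
  · show R.red₂ ⟨u⁻¹, hi2⟩ = 1
    rw [ln_red₂_inv hR hu.2 hn2, e2, inv_one]

/-- product of functions with reduction `1` -/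
theorem ln_tf_mul {u v : F} (hu : u ∈ R.O₁₂) (hu1 : R.red₁₂ ⟨u, hu⟩ = 1) (hv : v ∈ R.O₁₂)
    (hv1 : R.red₁₂ ⟨v, hv⟩ = 1) : ∃ h : u * v ∈ R.O₁₂, R.red₁₂ ⟨u * v, h⟩ = 1 := by
  refine ⟨R.O₁₂.mul_mem hu hv, ?_⟩
  have e : (⟨u * v, R.O₁₂.mul_mem hu hv⟩ : R.O₁₂) = ⟨u, hu⟩ * ⟨v, hv⟩ := rfl
  rw [e, map_mul, hu1, hv1, one_mul]

/-- power of a function with reduction `1` -/
theorem ln_tf_pow {u : F} (hu : u ∈ R.O₁₂) (hu1 : R.red₁₂ ⟨u, hu⟩ = 1) (n : ℕ) :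
    ∃ h : u ^ n ∈ R.O₁₂, R.red₁₂ ⟨u ^ n, h⟩ = 1 := by
  refine ⟨R.O₁₂.pow_mem hu n, ?_⟩
  have e : (⟨u ^ n, R.O₁₂.pow_mem hu n⟩ : R.O₁₂) = ⟨u, hu⟩ ^ n := rfl
  rw [e, map_pow, hu1, one_pow]

set_option maxHeartbeats 1600000 in
/-- **uniqueness of the solution of the system of LN-DIV**, up to units of `A` -/
theorem ln_tf_core (hU : StmtHenselMvUniq) (hT : R.IsToric g) (m' : ℕ)
    (hm : ((m' + 1 : ℕ) : K) ∉ A.nonunits)
    {TN TR : Finset (Place k F₁)} (hdisj : Disjoint TN TR) (hTNcard : TN.card = g)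
    (hTRcard : TR.card = g) (hTNX : ∀ x ∈ R.X, x.1 ∉ TN) (hTRX : ∀ x ∈ R.X, x.1 ∉ TR)
    (Nd Rd D : Divisor K F) (hNdsm : Nd ∈ R.smDiv) (hRdsm : Rd ∈ R.smDiv) (hDsm : D ∈ R.smDiv)
    (hNd1 : R.push₁ Nd = gpSum TN) (hNd2 : R.push₂ Nd = 0)
    (hRd1 : R.push₁ Rd = gpSum TR) (hRd2 : R.push₂ Rd = 0)
    (hD1 : R.push₁ D = 0) (hD2 : R.push₂ D = 0)
    (w h h' : F) (hwO : w ∈ R.O₁₂) (hhO : h ∈ R.O₁₂) (hh'O : h' ∈ R.O₁₂)
    (hw1 : R.red₁₂ ⟨w, hwO⟩ = 1) (hh1 : R.red₁₂ ⟨h, hhO⟩ = 1) (hh'1 : R.red₁₂ ⟨h', hh'O⟩ = 1)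
    (hw : w ∈ riemannRochSpace (Nd + Rd)) (hh : h ∈ riemannRochSpace (D + (m' + 1) • Nd))
    (hh' : h' ∈ riemannRochSpace ((m' + 1) • Rd - D)) (heq : w ^ (m' + 1) = h * h')
    (w₂ t t' : F) (hw₂O : w₂ ∈ R.O₁₂) (htO : t ∈ R.O₁₂) (ht'O : t' ∈ R.O₁₂)
    (hw₂1 : R.red₁₂ ⟨w₂, hw₂O⟩ = 1) (ht1 : R.red₁₂ ⟨t, htO⟩ = 1)
    (ht'1 : R.red₁₂ ⟨t', ht'O⟩ = 1)
    (hw₂ : w₂ ∈ riemannRochSpace (Nd + Rd)) (ht : t ∈ riemannRochSpace (D + (m' + 1) • Nd))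
    (ht' : t' ∈ riemannRochSpace ((m' + 1) • Rd - D)) (heq₂ : w₂ ^ (m' + 1) = t * t') :
    ∃ l : Aˣ, algebraMap K F (((l : A) : K)) * t = h := by
  classical
  have hR := hT.isTR
  have hpd := hT.nice.hpd
  have hNod := ln_rr_isNodal hT
  have hmk : ((m' + 1 : ℕ) : k) ≠ 0 := ln_natCast_res hR hm
  have hdegN : Divisor.degree (gpSum TN) = g := by rw [degree_gpSum hT.nice₁.hres, hTNcard]
  have hdegR : Divisor.degree (gpSum TR) = g := by rw [degree_gpSum hT.nice₁.hres, hTRcard]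
  have hg0 : (0 : ℤ) ≤ g := Int.natCast_nonneg g
  have hm'0 : (0 : ℤ) ≤ m' := Int.natCast_nonneg m'
  have hmg : (0 : ℤ) ≤ (m' : ℤ) * g := mul_nonneg hm'0 hg0
  -- the four divisors are of smooth type
  have hBsm : Nd + Rd ∈ R.smDiv := R.smDiv.add_mem hNdsm hRdsm
  have hEsm : D + (m' + 1) • Nd ∈ R.smDiv := R.smDiv.add_mem hDsm (R.smDiv.nsmul_mem hNdsm _)
  have hE'sm : (m' + 1) • Rd - D ∈ R.smDiv := R.smDiv.sub_mem (R.smDiv.nsmul_mem hRdsm _) hDsm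
  have hMsm : (m' + 1) • (Nd + Rd) ∈ R.smDiv := R.smDiv.nsmul_mem hBsm _
  -- their reductions
  have hB1 : R.push₁ (Nd + Rd) = gpSum TN + gpSum TR := by rw [map_add, hNd1, hRd1]
  have hB2 : R.push₂ (Nd + Rd) = 0 := by rw [map_add, hNd2, hRd2, add_zero]
  have hE1 : R.push₁ (D + (m' + 1) • Nd) = (m' + 1) • gpSum TN := by
    rw [map_add, map_nsmul, hD1, hNd1, zero_add]
  have hE2 : R.push₂ (D + (m' + 1) • Nd) = 0 := by
    rw [map_add, map_nsmul, hD2, hNd2, smul_zero, add_zero]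
  have hE'1 : R.push₁ ((m' + 1) • Rd - D) = (m' + 1) • gpSum TR := by
    rw [map_sub, map_nsmul, hD1, hRd1, sub_zero]
  have hE'2 : R.push₂ ((m' + 1) • Rd - D) = 0 := by
    rw [map_sub, map_nsmul, hD2, hRd2, smul_zero, sub_zero]
  have hM1 : R.push₁ ((m' + 1) • (Nd + Rd)) = (m' + 1) • (gpSum TN + gpSum TR) := by
    rw [map_nsmul, hB1]
  have hM2 : R.push₂ ((m' + 1) • (Nd + Rd)) = 0 := by
    rw [map_nsmul, hB2, smul_zero]
  -- degrees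
  have hdB : Divisor.degree (Nd + Rd) = g + g := by
    rw [ln_rr_degree_smDiv hT hBsm, hB1, hB2, map_add, hdegN, hdegR, map_zero, add_zero]
  have hdE : Divisor.degree (D + (m' + 1) • Nd) = (m' + 1) * g := by
    rw [ln_rr_degree_smDiv hT hEsm, hE1, hE2, map_nsmul, hdegN, map_zero, add_zero,
      nsmul_eq_mul]
    push_cast; ring
  have hdE' : Divisor.degree ((m' + 1) • Rd - D) = (m' + 1) * g := by
    rw [ln_rr_degree_smDiv hT hE'sm, hE'1, hE'2, map_nsmul, hdegR, map_zero, add_zero,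
      nsmul_eq_mul]
    push_cast; ring
  have hdM : Divisor.degree ((m' + 1) • (Nd + Rd)) = (m' + 1) * (g + g) := by
    rw [ln_rr_degree_smDiv hT hMsm, hM1, hM2, map_nsmul, map_add, hdegN, hdegR, map_zero,
      add_zero, nsmul_eq_mul]
    push_cast; ring
  -- the four orthonormal bases
  obtain ⟨n₁, e₁, h₁, hn₁⟩ := ln_ob_exists₁ hT hBsm
    (by rw [hB1, map_add, hdegN, hdegR]; linarith) (by rw [hB2, map_zero]; norm_num)
  obtain ⟨n₂, e₂, h₂, hn₂⟩ := ln_ob_exists₁ hT hEsm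
    (by rw [hE1, map_nsmul, hdegN, nsmul_eq_mul]; push_cast; nlinarith)
    (by rw [hE2, map_zero]; norm_num)
  obtain ⟨n₃, e₃, h₃, hn₃⟩ := ln_ob_exists₁ hT hE'sm
    (by rw [hE'1, map_nsmul, hdegR, nsmul_eq_mul]; push_cast; nlinarith)
    (by rw [hE'2, map_zero]; norm_num)
  obtain ⟨n₄, e₄, h₄, hn₄⟩ := ln_ob_exists₁ hT hMsm
    (by rw [hM1, map_nsmul, map_add, hdegN, hdegR, nsmul_eq_mul]; push_cast; nlinarith)
    (by rw [hM2, map_zero]; norm_num)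
  rw [hdB] at hn₁
  rw [hdE] at hn₂
  rw [hdE'] at hn₃
  rw [hdM] at hn₄
  -- the coordinates of the first solution
  obtain ⟨α, hαw⟩ := h₁.exists_coeff hR hw hwO
  obtain ⟨β, hβh⟩ := h₂.exists_coeff hR hh hhO
  obtain ⟨γ, hγh⟩ := h₃.exists_coeff hR hh' hh'O
  have hα : R.red₁₂ ⟨comb e₁ α, h₁.comb_memO hR α⟩ = 1 := by
    rw [← hw1]
    congr 1
    exact Subtype.ext hαw.symm
  have hβ : R.red₁₂ ⟨comb e₂ β, h₂.comb_memO hR β⟩ = 1 := by
    rw [← hh1]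
    congr 1
    exact Subtype.ext hβh.symm
  have hγ : R.red₁₂ ⟨comb e₃ γ, h₃.comb_memO hR γ⟩ = 1 := by
    rw [← hh'1]
    congr 1
    exact Subtype.ext hγh.symm
  obtain ⟨a₁, ha₁⟩ := h₁.exists_unit_coeff hR α hα
  obtain ⟨b₁, hb₁⟩ := h₂.exists_unit_coeff hR β hβ
  -- the second solution, normalised
  obtain ⟨l₁, c₁, hl₁, hc₁, hc₁a, hc₁α⟩ := ln_tf_scale hR h₁ α hα a₁ ha₁ hw₂O hw₂ hw₂1
  obtain ⟨l₂, c₂, hl₂, hc₂, hc₂b, hc₂β⟩ := ln_tf_scale hR h₂ β hβ b₁ hb₁ htO ht ht1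
  have hl₃ : R.res ((l₁ ^ (m' + 1) * l₂⁻¹ : Aˣ) : A) = 1 := by
    have e1 : R.res ((l₂ * l₂⁻¹ : Aˣ) : A) = 1 := by
      rw [mul_inv_cancel, Units.val_one, map_one]
    rw [Units.val_mul, map_mul, hl₂, one_mul] at e1
    rw [Units.val_mul, map_mul, Units.val_pow_eq_pow_val, map_pow, hl₁, one_pow, one_mul, e1]
  obtain ⟨hT'O, hT'red⟩ := ln_tf_red_unit_mul hR (l₁ ^ (m' + 1) * l₂⁻¹) ht'O
  rw [hl₃, one_smul, ht'1] at hT'red
  have hT'E : algebraMap K F (((l₁ ^ (m' + 1) * l₂⁻¹ : Aˣ) : A) : K) * t'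
      ∈ riemannRochSpace ((m' + 1) • Rd - D) := by
    rw [← Algebra.smul_def]
    exact Submodule.smul_mem _ _ ht'
  obtain ⟨c₃, hc₃⟩ := h₃.exists_coeff hR hT'E hT'O
  have hc₃γ : ∀ j, ((c₃ j - γ j : A) : K) ∈ A.nonunits := by
    have hred : R.red₁₂ ⟨comb e₃ c₃, h₃.comb_memO hR c₃⟩
        = R.red₁₂ ⟨comb e₃ γ, h₃.comb_memO hR γ⟩ := by
      rw [hγ, ← hT'red]
      congr 1
      exact Subtype.ext hc₃.symm
    have hres := h₃.res_eq_of_red_eq hR c₃ γ hred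
    intro j
    apply (hR.res_eq_zero_iff _).mp
    rw [map_sub, hres j, sub_self]
  have heq₃ : comb e₁ c₁ ^ (m' + 1) = comb e₂ c₂ * comb e₃ c₃ := by
    rw [← hc₁, ← hc₂, ← hc₃, mul_pow, heq₂]
    have e : ((l₂ : A) : K) * (((l₁ ^ (m' + 1) * l₂⁻¹ : Aˣ) : A) : K)
        = ((l₁ : A) : K) ^ (m' + 1) := by
      have e0 : (l₂ : A) * ((l₁ ^ (m' + 1) * l₂⁻¹ : Aˣ) : A) = (l₁ : A) ^ (m' + 1) := by
        rw [← Units.val_mul, mul_comm (l₁ ^ (m' + 1)), mul_inv_cancel_left,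
          Units.val_pow_eq_pow_val]
      have e1 := congrArg (Subtype.val) e0
      simpa using e1
    rw [← map_pow, ← e, map_mul]
    ring
  -- the polynomial system
  have hp : ∀ μ, ∃ c : Fin n₄ → A,
      coeff μ (polyPhi e₁ e₂ e₃ (m' + 1)) = cmb (phiA A F) e₄ c := by
    intro μ
    have hmem := coeff_polyPhi_mem e₁ e₂ e₃ (fun j => lnLatticeSub R (j • (Nd + Rd)))
      (by
        refine ⟨?_, R.O₁₂.one_mem⟩
        rw [zero_smul]; exact gp_one_mem_rr le_rfl)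
      (fun i j x hx y hy => ⟨by rw [add_smul]; exact rr_mul_mem hx.1 hy.1,
        R.O₁₂.mul_mem hx.2 hy.2⟩)
      (fun a => ⟨by rw [one_smul]; exact h₁.mem_rr a, h₁.memO a⟩) (m' + 1)
      (fun b c => ⟨by
        have := rr_mul_mem (h₂.mem_rr b) (h₃.mem_rr c)
        have e : D + (m' + 1) • Nd + ((m' + 1) • Rd - D) = (m' + 1) • (Nd + Rd) := by
          rw [smul_add]; abel
        rwa [e] at this, R.O₁₂.mul_mem (h₂.memO b) (h₃.memO c)⟩) μ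
    obtain ⟨c, hc⟩ := h₄.exists_coeff hR hmem.1 hmem.2
    exact ⟨c, by rw [hc, cmb_eq_comb]⟩
  obtain ⟨q, hq1, hq2⟩ := exists_system (phiA A F) e₁ e₂ e₃ e₄ (m' + 1) hp
  simp only [cmb_eq_comb] at hq1 hq2
  set f : Fin n₄ ⊕ Bool → MvPolynomial (Fin n₁ ⊕ Fin n₂ ⊕ Fin n₃) A := fun i =>
    match i with
    | Sum.inl d => q d
    | Sum.inr false => X (Sum.inl a₁) - C (α a₁)
    | Sum.inr true => X (Sum.inr (Sum.inl b₁)) - C (β b₁) with hf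
  set a₀ : Fin n₁ ⊕ Fin n₂ ⊕ Fin n₃ → A := Sum.elim α (Sum.elim β γ) with ha₀
  have hp₁ : pt₁ a₀ = α := rfl
  have hp₂ : pt₂ a₀ = β := rfl
  have hp₃ : pt₃ a₀ = γ := rfl
  set b₀ : Fin n₁ ⊕ Fin n₂ ⊕ Fin n₃ → A := Sum.elim c₁ (Sum.elim c₂ c₃) with hb₀
  -- exact solutions
  have hli₄ : LinearIndependent K e₄ := ln_ob_linearIndependent hR e₄ h₄.memO h₄.li
  have hzero : ∀ s : Fin n₁ ⊕ Fin n₂ ⊕ Fin n₃ → A,
      comb e₁ (pt₁ s) ^ (m' + 1) = comb e₂ (pt₂ s) * comb e₃ (pt₃ s) →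
      ∀ d, eval s (q d) = 0 := by
    intro s hs d
    have e1 := hq1 s
    rw [hs, sub_self] at e1
    unfold comb at e1
    have := Fintype.linearIndependent_iff.mp hli₄ _ e1 d
    exact Subtype.ext this
  have hfa : ∀ i, eval a₀ (f i) = 0 := by
    intro i
    rcases i with d | bb
    · refine hzero a₀ ?_ d
      rw [hp₁, hp₂, hp₃, ← hαw, ← hβh, ← hγh]
      exact heq
    · cases bb
      · show eval a₀ (X (Sum.inl a₁) - C (α a₁)) = 0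
        rw [eval_X_sub_C]
        exact sub_self _
      · show eval a₀ (X (Sum.inr (Sum.inl b₁)) - C (β b₁)) = 0
        rw [eval_X_sub_C]
        exact sub_self _
  have hfb : ∀ i, eval b₀ (f i) = 0 := by
    intro i
    rcases i with d | bb
    · exact hzero b₀ heq₃ d
    · cases bb
      · show eval b₀ (X (Sum.inl a₁) - C (α a₁)) = 0
        rw [eval_X_sub_C]
        show c₁ a₁ - α a₁ = 0
        rw [hc₁a, sub_self]
      · show eval b₀ (X (Sum.inr (Sum.inl b₁)) - C (β b₁)) = 0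
        rw [eval_X_sub_C]
        show c₂ b₁ - β b₁ = 0
        rw [hc₂b, sub_self]
  have hb : ∀ j, ((b₀ j - a₀ j : A) : K) ∈ A.nonunits := by
    intro j
    rcases j with a | bb | c
    · exact hc₁α a
    · exact hc₂β bb
    · exact hc₃γ c
  have ha₀' : ∀ j, ((a₀ j - a₀ j : A) : K) ∈ A.nonunits := by
    intro j
    rw [sub_self]
    exact zero_mem_nonunits'
  -- (ii) the differential is injective modulo `𝔪`
  have hii : ∀ v : Fin n₁ ⊕ Fin n₂ ⊕ Fin n₃ → A,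
      (∀ i, ((∑ j, eval a₀ (pderiv j (f i)) * v j : A) : K) ∈ A.nonunits) →
      ∀ j, ((v j : A) : K) ∈ A.nonunits := by
    intro v hv
    have hv₁ : ((v (Sum.inl a₁) : A) : K) ∈ A.nonunits := by
      have := hv (Sum.inr false)
      have e : ∑ j, eval a₀ (pderiv j (f (Sum.inr false))) * v j = v (Sum.inl a₁) :=
        sum_pderiv_X_sub_C _ _ _ _
      rwa [e] at this
    have hv₂ : ((v (Sum.inr (Sum.inl b₁)) : A) : K) ∈ A.nonunits := by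
      have := hv (Sum.inr true)
      have e : ∑ j, eval a₀ (pderiv j (f (Sum.inr true))) * v j = v (Sum.inr (Sum.inl b₁)) :=
        sum_pderiv_X_sub_C _ _ _ _
      rwa [e] at this
    have e1 := hq2 a₀ v
    rw [hp₁, hp₂, hp₃] at e1
    have hred0 := h₄.red_eq_zero_of_nonunit hR
      (fun d => ∑ j, eval a₀ (pderiv j (q d)) * v j) (fun d => hv (Sum.inl d))
    have e2 : (⟨comb e₄ fun d => ∑ j, eval a₀ (pderiv j (q d)) * v j, h₄.comb_memO hR _⟩ : R.O₁₂)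
        = ⟨((m' + 1 : ℕ) : F), ln_natCast_memO hR _⟩
            * ⟨comb e₁ α, h₁.comb_memO hR α⟩ ^ (m' + 1 - 1)
            * ⟨comb e₁ (pt₁ v), h₁.comb_memO hR _⟩
          - ⟨comb e₂ (pt₂ v), h₂.comb_memO hR _⟩ * ⟨comb e₃ γ, h₃.comb_memO hR γ⟩
          - ⟨comb e₂ β, h₂.comb_memO hR β⟩ * ⟨comb e₃ (pt₃ v), h₃.comb_memO hR _⟩ :=
      Subtype.ext e1
    have hmO : (⟨((m' + 1 : ℕ) : F), ln_natCast_memO hR _⟩ : R.O₁₂) = ((m' + 1 : ℕ) : R.O₁₂) :=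
      Subtype.ext (by push_cast; rfl)
    rw [e2, map_sub, map_sub, map_mul, map_mul, map_mul, map_mul, map_pow, hα, hβ, hγ, one_pow,
      mul_one, mul_one, one_mul, hmO, map_natCast] at hred0
    have heq : ((m' + 1 : ℕ) : k) • R.red₁₂ ⟨comb e₁ (pt₁ v), h₁.comb_memO hR _⟩
        = R.red₁₂ ⟨comb e₂ (pt₂ v), h₂.comb_memO hR _⟩
          + R.red₁₂ ⟨comb e₃ (pt₃ v), h₃.comb_memO hR _⟩ := by
      rw [Nat.cast_smul_eq_nsmul, nsmul_eq_mul]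
      linear_combination hred0
    have hu := h₁.red_comb_mem hR (pt₁ v)
    have hvv := h₂.red_comb_mem hR (pt₂ v)
    have hhh := h₃.red_comb_mem hR (pt₃ v)
    rw [ln_rr_Lbar_eq, hB1, hB2] at hu
    rw [ln_rr_Lbar_eq, hE1, hE2] at hvv
    rw [ln_rr_Lbar_eq, hE'1, hE'2] at hhh
    obtain ⟨⟨c₁, hc₁⟩, ⟨c₂, hc₂⟩, -⟩ := ln_rr_tangent_const hNod hdisj hTNcard hTRcard hTNX hTRX
      (m' + 1) hmk hu hvv hhh heq
    have hu0 := h₁.red_eq_zero_of_const hR α (pt₁ v) hα a₁ ha₁ hv₁ c₁ hc₁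
    have hv0 := h₂.red_eq_zero_of_const hR β (pt₂ v) hβ b₁ hb₁ hv₂ c₂ hc₂
    have hh0 : R.red₁₂ ⟨comb e₃ (pt₃ v), h₃.comb_memO hR _⟩ = 0 := by
      rw [hu0, hv0, smul_zero, zero_add] at heq
      exact heq.symm
    intro j
    rcases j with a | b | c
    · exact h₁.coeff_nonunit hR (pt₁ v) hu0 a
    · exact h₂.coeff_nonunit hR (pt₂ v) hv0 b
    · exact h₃.coeff_nonunit hR (pt₃ v) hh0 c
  have hba := hU K A (Fin n₁ ⊕ Fin n₂ ⊕ Fin n₃) (Fin n₄ ⊕ Bool) f a₀ hii b₀ a₀ hb ha₀' hfb hfa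
  refine ⟨l₂, ?_⟩
  rw [hc₂, hβh]
  have e : c₂ = β := funext fun i => congrFun hba (Sum.inr (Sum.inl i))
  rw [e]

theorem stmtTorTF_of (hU : StmtHenselMvUniq) : StmtTorTF := by
  intro K F k F₁ F₂ _ _ _ _ _ _ _ _ _ A R g hT m hm x hx hmx
  classical
  have hR := hT.isTR
  have hpd := hT.nice.hpd
  have hNod := ln_rr_isNodal hT
  have hm0 : m ≠ 0 := by
    rintro rfl
    exact hm (by rw [Nat.cast_zero]; exact zero_mem_nonunits')
  obtain ⟨D, hDdeg, rfl, hDsm, hD1, hD2⟩ := ln_exists_rep hT hx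
  obtain ⟨m', rfl⟩ : ∃ m', m = m' + 1 := Nat.exists_eq_succ_of_ne_zero hm0
  -- `m D` is principal
  have hprin : (m' + 1) • D ∈ Divisor.principal (K := K) (F := F) := by
    have h2 : Pic0.mk (0 : Divisor.degZero (K := K) (F := F)) =
        Pic0.mk ((m' + 1) • (⟨D, hDdeg⟩ : Divisor.degZero (K := K) (F := F))) := by
      have h1 : (m' + 1) • Pic0.mk ⟨D, hDdeg⟩ =
          Pic0.mk ((m' + 1) • (⟨D, hDdeg⟩ : Divisor.degZero (K := K) (F := F))) := rfl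
      rw [← h1, hmx]
      rfl
    have h3 := ln_mk_eq_iff.mp h2
    rw [AddSubgroup.coe_zero, sub_zero, AddSubgroup.coe_nsmul] at h3
    exact h3
  obtain ⟨f₀, hf₀0, hf₀⟩ := hprin
  obtain ⟨f, hfO, hf1, hf⟩ := ln_tf_unit_fun hT (R.smDiv.nsmul_mem hDsm (m' + 1))
    (by rw [map_nsmul, hD1, smul_zero]) (by rw [map_nsmul, hD2, smul_zero]) hf₀0 hf₀
  have hf0 : f ≠ 0 := ln_ne_zero_of_red_eq_one hfO hf1
  -- charts and lifts
  obtain ⟨TN, hTNcard, -, hTNX, -⟩ := ln_rr_exists_chart₁ hNod (F₂ := F₂) ∅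
  obtain ⟨TR, hTRcard, hdisj', hTRX, -⟩ := ln_rr_exists_chart₁ hNod (F₂ := F₂) TN
  have hdisj : Disjoint TN TR := hdisj'.symm
  obtain ⟨Nd, hNd0, hNdsm, hNd1, hNd2⟩ := ln_rr_exists_lift₁ hT TN hTNX
  obtain ⟨Rd, hRd0, hRdsm, hRd1, hRd2⟩ := ln_rr_exists_lift₁ hT TR hTRX
  have hdegN : Divisor.degree (gpSum TN) = g := by rw [degree_gpSum hT.nice₁.hres, hTNcard]
  have hdegR : Divisor.degree (gpSum TR) = g := by rw [degree_gpSum hT.nice₁.hres, hTRcard]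
  -- `u ∈ L(D + Nd)`, `u' ∈ L(Rd - D)`, lifts of `1`
  have hUsm : D + Nd ∈ R.smDiv := R.smDiv.add_mem hDsm hNdsm
  have hU1 : R.push₁ (D + Nd) = gpSum TN := by rw [map_add, hD1, hNd1, zero_add]
  have hU2 : R.push₂ (D + Nd) = 0 := by rw [map_add, hD2, hNd2, zero_add]
  obtain ⟨u, huO, huE, hu1⟩ := ln_exists_lift_pair hT hUsm (by rw [hU1, hdegN])
    (by rw [hU2, map_zero]; norm_num)
    (ln_one_mem_Lbar hT (by rw [hU1]; exact gpSum_nonneg _) (by rw [hU2]))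
  have hU'sm : Rd - D ∈ R.smDiv := R.smDiv.sub_mem hRdsm hDsm
  have hU'1 : R.push₁ (Rd - D) = gpSum TR := by rw [map_sub, hD1, hRd1, sub_zero]
  have hU'2 : R.push₂ (Rd - D) = 0 := by rw [map_sub, hD2, hRd2, sub_zero]
  obtain ⟨u', hu'O, hu'E, hu'1⟩ := ln_exists_lift_pair hT hU'sm (by rw [hU'1, hdegR])
    (by rw [hU'2, map_zero]; norm_num)
    (ln_one_mem_Lbar hT (by rw [hU'1]; exact gpSum_nonneg _) (by rw [hU'2]))
  have hu0 : u ≠ 0 := ln_ne_zero_of_red_eq_one huO hu1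
  have hu'0 : u' ≠ 0 := ln_ne_zero_of_red_eq_one hu'O hu'1
  have hordu : ∀ v : Place K F, -(D v + Nd v) ≤ v.ord u := fun v => by
    have := ((mem_riemannRochSpace_iff.mp huE) v).resolve_left hu0
    rwa [Finsupp.add_apply] at this
  have hordu' : ∀ v : Place K F, -(Rd v - D v) ≤ v.ord u' := fun v => by
    have := ((mem_riemannRochSpace_iff.mp hu'E) v).resolve_left hu'0
    rwa [Finsupp.sub_apply] at this
  have hordf : ∀ v : Place K F, v.ord f = ((m' + 1 : ℕ) : ℤ) * D v := fun v => by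
    rw [← hf v, Finsupp.smul_apply, nsmul_eq_mul]
  have hmpos : (0 : ℤ) < ((m' + 1 : ℕ) : ℤ) := by exact_mod_cast Nat.succ_pos m'
  -- the second solution
  obtain ⟨hfiO, hfi1⟩ := ln_tf_inv hR hfO hf1
  obtain ⟨hw₂O, hw₂1⟩ := ln_tf_mul huO hu1 hu'O hu'1
  obtain ⟨hpO, hp1⟩ := ln_tf_pow huO hu1 (m' + 1)
  obtain ⟨hp'O, hp'1⟩ := ln_tf_pow hu'O hu'1 (m' + 1)
  obtain ⟨htO, ht1⟩ := ln_tf_mul hfO hf1 hpO hp1
  obtain ⟨ht'O, ht'1⟩ := ln_tf_mul hfiO hfi1 hp'O hp'1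
  have hfi0 : f⁻¹ ≠ 0 := inv_ne_zero hf0
  have hw₂E : u * u' ∈ riemannRochSpace (Nd + Rd) := by
    have := rr_mul_mem huE hu'E
    have e : D + Nd + (Rd - D) = Nd + Rd := by abel
    rwa [e] at this
  have htE : f * u ^ (m' + 1) ∈ riemannRochSpace ((0 : Divisor K F) + (m' + 1) • Nd) := by
    rw [mem_riemannRochSpace_iff]
    intro v
    right
    rw [v.ord_mul hf0 (pow_ne_zero _ hu0), div1_ord_pow, hordf v, zero_add, Finsupp.smul_apply,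
      nsmul_eq_mul]
    nlinarith [hordu v]
  have ht'E : f⁻¹ * u' ^ (m' + 1) ∈ riemannRochSpace ((m' + 1) • Rd - (0 : Divisor K F)) := by
    rw [mem_riemannRochSpace_iff]
    intro v
    right
    rw [v.ord_mul hfi0 (pow_ne_zero _ hu'0), div1_ord_pow, Place.ord_inv, hordf v, sub_zero,
      Finsupp.smul_apply, nsmul_eq_mul]
    nlinarith [hordu' v]
  have heq₂ : (u * u') ^ (m' + 1) = f * u ^ (m' + 1) * (f⁻¹ * u' ^ (m' + 1)) := by
    have := mul_inv_cancel₀ hf0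
    rw [mul_pow]
    linear_combination (-(u ^ (m' + 1) * u' ^ (m' + 1))) * this
  -- the first solution `(1, 1, 1)`
  have h1O : (1 : F) ∈ R.O₁₂ := R.O₁₂.one_mem
  have h11 : R.red₁₂ ⟨1, h1O⟩ = 1 := map_one R.red₁₂
  have h1B : (1 : F) ∈ riemannRochSpace (Nd + Rd) := gp_one_mem_rr (add_nonneg hNd0 hRd0)
  have h1E : (1 : F) ∈ riemannRochSpace ((0 : Divisor K F) + (m' + 1) • Nd) := by
    rw [zero_add]
    exact gp_one_mem_rr (nsmul_nonneg hNd0 _)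
  have h1E' : (1 : F) ∈ riemannRochSpace ((m' + 1) • Rd - (0 : Divisor K F)) := by
    rw [sub_zero]
    exact gp_one_mem_rr (nsmul_nonneg hRd0 _)
  obtain ⟨l, hl⟩ := ln_tf_core hU hT m' hm hdisj hTNcard hTRcard hTNX hTRX Nd Rd 0
    hNdsm hRdsm R.smDiv.zero_mem hNd1 hNd2 hRd1 hRd2 (map_zero _) (map_zero _)
    1 1 1 h1O h1O h1O h11 h11 h11 h1B h1E h1E' (by rw [one_pow, one_mul])
    (u * u') (f * u ^ (m' + 1)) (f⁻¹ * u' ^ (m' + 1)) hw₂O htO ht'O hw₂1 ht1 ht'1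
    hw₂E htE ht'E heq₂
  -- `D = - div u`
  have hl0 : (((l : A) : K)) ≠ 0 := by
    intro h0
    have : (l : A) = 0 := Subtype.ext h0
    exact l.ne_zero this
  have hDu : ∀ P : Place K F, D P = -P.ord u := by
    intro P
    have h1 := congrArg P.ord hl
    rw [ln_ord_const_mul P hl0, P.ord_mul hf0 (pow_ne_zero _ hu0), div1_ord_pow, hordf P,
      Place.ord_one] at h1
    have h2 : ((m' + 1 : ℕ) : ℤ) * (D P + P.ord u) = 0 := by linarith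
    have h3 := (mul_eq_zero.mp h2).resolve_left hmpos.ne'
    linarith
  show Pic0.mk ⟨D, hDdeg⟩ = Pic0.mk 0
  rw [ln_mk_eq_iff]
  refine ⟨u, hu0, fun P => ?_⟩
  rw [AddSubgroup.coe_zero, Finsupp.sub_apply, Finsupp.zero_apply, zero_sub]
  show -D P = P.ord u
  rw [hDu P, neg_neg]

/-- **LN-TF**: the kernel of reduction of a two-component toric reduction has no `m`-torsion,
`m` a unit of `A`. -/
theorem stmtTorTF : StmtTorTF := stmtTorTF_of stmtHenselMvUniq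

end Fermat.Agent.S15.LN
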