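import Fermat.Agent.S15.LNGlue
import Fermat.Agent.S15.LNDiv
import Fermat.Agent.S15.LNCnt
import Fermat.Agent.S15.LNTF

/-!
# S15 block LOCAL-N: assembly (helper5)

LN-DIV (`stmtTorDiv`), LN-Q (`stmtTorQuot`, helper10), LN-CNT (`stmtTorCount_of`, helper10) and
LN-GLUE (`stmtLNGlue`), LN-TF (`stmtTorTF`, helper24) are proved.  What remains: the modular
package LN-PKG (`StmtModTR`; for S15 only its pruned form `StmtModTRmin`).

* `ln_isLN_of_tf` : `StmtTorTF →` every modular package gives the interface `LNPkg.IsLN`;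
* `ln_exists_isLN` : `StmtTorTF → StmtModTR →` the interface exists at every prime level
  `N ≥ 5` and every valuation ring `A` over `N`.
-/

set_option autoImplicit false
set_option linter.unusedSectionVars false
set_option linter.unusedVariables false

noncomputable section

open AlgebraicCurve Module ModularCurve

namespace Fermat.Agent.S15.LN

open Fermat.Agent.W1 Fermat.Agent.S24 Fermat.Agent.S15

theorem ln_isLN_of_tf (hTF : StmtTorTF) {N : ℕ} [NeZero N] {A : ValuationSubring Kb} {g : ℕ}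
    {F₁ F₂ : Type} [Field F₁] [Field F₂]
    [Algebra (IsLocalRing.ResidueField A) F₁] [Algebra (IsLocalRing.ResidueField A) F₂]
    {R : TRData Kb (FF N) (IsLocalRing.ResidueField A) F₁ F₂ A} (hM : ModTR N A g R) :
    (lnPkgOf R).IsLN A g :=
  stmtLNGlue hTF stmtTorDiv stmtTorQuot (stmtTorCount_of hTF stmtTorDiv) N A g F₁ F₂ R hM

theorem ln_exists_isLN (hTF : StmtTorTF) (hPkg : StmtModTR) (N : ℕ) [NeZero N] (hN : N.Prime)
    (h5 : 5 ≤ N) (A : ValuationSubring Kb) (hA : A.LiesOverPrime N) :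
    ∃ (g : ℕ) (P : LNPkg N), P.IsLN A g := by
  obtain ⟨g, F₁, F₂, _, _, _, _, R, hM⟩ := hPkg N hN h5 A hA
  exact ⟨g, lnPkgOf R, ln_isLN_of_tf hTF hM⟩

/-- the interface from the modular package alone (LN-TF is proved: `stmtTorTF`, helper24) -/
theorem ln_isLN {N : ℕ} [NeZero N] {A : ValuationSubring Kb} {g : ℕ}
    {F₁ F₂ : Type} [Field F₁] [Field F₂]
    [Algebra (IsLocalRing.ResidueField A) F₁] [Algebra (IsLocalRing.ResidueField A) F₂]
    {R : TRData Kb (FF N) (IsLocalRing.ResidueField A) F₁ F₂ A} (hM : ModTR N A g R) :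
    (lnPkgOf R).IsLN A g :=
  ln_isLN_of_tf stmtTorTF hM

/-- **LN-CNT**, unconditional -/
theorem stmtTorCount : StmtTorCount := stmtTorCount_of stmtTorTF stmtTorDiv

end Fermat.Agent.S15.LN
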