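import Fermat.Agent.S15.LNDivAux
import Fermat.Agent.RED.ResField

/-!
# S15 block LOCAL-N, pieces LN-GLUE and (N3)-geo (helper5)

* `stmtLNGlue : StmtLNGlue` : the abstract pieces LN-TF, LN-DIV, LN-Q, LN-CNT and the modular
  package `ModTR` give the interface `LNPkg.IsLN` consumed by the descent;
* `stmtN3Geo : StmtN3Geo` : two places of smooth type on the same component differ by an element
  of `J⁰`.
-/

set_option autoImplicit false
set_option linter.unusedSectionVars false
set_option linter.unusedVariables false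
set_option linter.style.haveILetI false

noncomputable section

open AlgebraicCurve Module ModularCurve

namespace Fermat.Agent.S15.LN

open Fermat.Agent.W1 Fermat.Agent.S24 Fermat.Agent.S15

section Act

variable {K F k F₁ F₂ : Type} [Field K] [Field F] [Algebra K F] [Field k]
  [Field F₁] [Algebra k F₁] [Field F₂] [Algebra k F₂]
variable {A : ValuationSubring K} {R : TRData K F k F₁ F₂ A}

theorem ln_pt₁_congr {P P' : Place K F} (h : R.r P = R.r P') : R.pt₁ P = R.pt₁ P' := by
  unfold TRData.pt₁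
  rw [h]

theorem ln_pt₂_congr {P P' : Place K F} (h : R.r P = R.r P') : R.pt₂ P = R.pt₂ P' := by
  unfold TRData.pt₂
  rw [h]

theorem ln_push₁_single' (P : Place K F) (n : ℤ) :
    R.push₁ (Finsupp.single P n) = R.pt₁ P n := by
  unfold TRData.push₁
  rw [Finsupp.liftAddHom_apply_single]

theorem ln_push₂_single' (P : Place K F) (n : ℤ) :
    R.push₂ (Finsupp.single P n) = R.pt₂ P n := by
  unfold TRData.push₂
  rw [Finsupp.liftAddHom_apply_single]

/-- a semilinear automorphism which does not move the reductions does not change `r_{1*}` -/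
theorem ln_push₁_smul (s : SemilinearAut K F) (hs : ∀ P : Place K F, R.r (s • P) = R.r P)
    (D : Divisor K F) : R.push₁ (s • D) = R.push₁ D := by
  induction D using Finsupp.induction with
  | zero => rw [smul_zero]
  | single_add v n D _ _ ih =>
    rw [smul_add, map_add, map_add, ih, SemilinearAut.smul_single, ln_push₁_single',
      ln_push₁_single', ln_pt₁_congr (hs v)]

theorem ln_push₂_smul (s : SemilinearAut K F) (hs : ∀ P : Place K F, R.r (s • P) = R.r P)
    (D : Divisor K F) : R.push₂ (s • D) = R.push₂ D := by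
  induction D using Finsupp.induction with
  | zero => rw [smul_zero]
  | single_add v n D _ _ ih =>
    rw [smul_add, map_add, map_add, ih, SemilinearAut.smul_single, ln_push₂_single',
      ln_push₂_single', ln_pt₂_congr (hs v)]

theorem ln_smDiv_smul (s : SemilinearAut K F) (hs : ∀ P : Place K F, R.r (s • P) = R.r P)
    {D : Divisor K F} (hD : D ∈ R.smDiv) : s • D ∈ R.smDiv := by
  intro P hP
  rw [SemilinearAut.divisor_smul_apply] at hP
  have h1 := hD _ hP
  have h2 := hs (s⁻¹ • P)
  rw [smul_inv_smul] at h2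
  rwa [h2]

/-- a semilinear automorphism which does not move the reductions acts trivially on `J⁰ / J¹` -/
theorem ln_smul_sub_mem_J1 (s : SemilinearAut K F) (hs : ∀ P : Place K F, R.r (s • P) = R.r P)
    {x : Pic0 K F} (hx : x ∈ R.J0) : s • x - x ∈ R.J1 := by
  obtain ⟨D, hD, rfl⟩ := (ln_mem_J0 R).mp hx
  obtain ⟨hsm, -, -⟩ := (ln_mem_div00 R).mp hD
  rw [SemilinearAut.pic0_smul_mk]
  have hdeg : s • (D : Divisor K F) - (D : Divisor K F) ∈ Divisor.degZero (K := K) (F := F) :=
    (Divisor.degZero (K := K) (F := F)).sub_mem (SemilinearAut.smul_mem_degZero s D.2) D.2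
  have e : Pic0.mk (SemilinearAut.degZeroSMulHom s D) - Pic0.mk D =
      Pic0.mk ⟨s • (D : Divisor K F) - (D : Divisor K F), hdeg⟩ := rfl
  rw [e]
  refine ln_mem_J1_of_push_zero (R.smDiv.sub_mem (ln_smDiv_smul s hs hsm) hsm) ?_ ?_ hdeg
  · rw [map_sub, ln_push₁_smul s hs, sub_self]
  · rw [map_sub, ln_push₂_smul s hs, sub_self]

/-- two places of smooth type on the first component differ by an element of `J⁰` -/
theorem ln_single_sub_mem_div00₁ (hdeg₁ : ∀ Q : Place k F₁, Q.deg = 1) {P P' : Place K F}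
    {Q Q' : Place k F₁} (hP : R.r P = some (Sum.inl Q)) (hP' : R.r P' = some (Sum.inl Q')) :
    (Finsupp.single P 1 - Finsupp.single P' 1 : Divisor K F) ∈ R.div00 := by
  rw [ln_mem_div00]
  refine ⟨R.smDiv.sub_mem (ln_rr_single_mem_smDiv R (by rw [hP]; rfl) 1)
    (ln_rr_single_mem_smDiv R (by rw [hP']; rfl) 1), ?_, ?_⟩
  · rw [map_sub, ln_rr_push₁_single R hP, ln_rr_push₁_single R hP', map_sub,
      Divisor.degree_single, Divisor.degree_single, hdeg₁ Q, hdeg₁ Q', sub_self]
  · rw [map_sub, ln_rr_push₂_single_inl R hP, ln_rr_push₂_single_inl R hP', sub_self, map_zero]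

/-- two places of smooth type on the second component differ by an element of `J⁰` -/
theorem ln_single_sub_mem_div00₂ (hdeg₂ : ∀ Q : Place k F₂, Q.deg = 1) {P P' : Place K F}
    {Q Q' : Place k F₂} (hP : R.r P = some (Sum.inr Q)) (hP' : R.r P' = some (Sum.inr Q')) :
    (Finsupp.single P 1 - Finsupp.single P' 1 : Divisor K F) ∈ R.div00 := by
  rw [ln_mem_div00]
  refine ⟨R.smDiv.sub_mem (ln_rr_single_mem_smDiv R (by rw [hP]; rfl) 1)
    (ln_rr_single_mem_smDiv R (by rw [hP']; rfl) 1), ?_, ?_⟩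
  · rw [map_sub, ln_rr_push₁_single_inr R hP, ln_rr_push₁_single_inr R hP', sub_self, map_zero]
  · rw [map_sub, ln_rr_push₂_single R hP, ln_rr_push₂_single R hP', map_sub,
      Divisor.degree_single, Divisor.degree_single, hdeg₂ Q, hdeg₂ Q', sub_self]

end Act

/-- **LN-GLUE** -/
theorem stmtLNGlue : StmtLNGlue := by
  intro hTF hDiv hQ hCnt N _ A g F₁ F₂ _ _ _ _ R hM
  haveI : IsAlgClosed (IsLocalRing.ResidueField A) := RED.isAlgClosed_residueField A
  have hT := hM.isToric
  refine ⟨ln_J1_le_J0 R, hM.decomp0, hM.decomp1, ?_, hM.hecke, ?_, ?_, ?_, ?_⟩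
  · intro σ hσ x hx
    rw [galois_smul_pic0_def]
    exact ln_smul_sub_mem_J1 (R := R) (galAct N σ) (fun P => hM.inertia σ hσ P) hx
  · intro m hm x hx hmx
    exact hTF Kb (FF N) (IsLocalRing.ResidueField A) F₁ F₂ A R g hT m hm x hx hmx
  · intro m hm x hx
    exact hDiv Kb (FF N) (IsLocalRing.ResidueField A) F₁ F₂ A R g hT m hm x hx
  · intro m hm x hx
    exact hQ Kb (FF N) (IsLocalRing.ResidueField A) F₁ F₂ A R g hT m hm x hx
  · intro m hm
    exact hCnt Kb (FF N) (IsLocalRing.ResidueField A) F₁ F₂ A R g hT m hm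

/-- **(N3)**, geometric half -/
theorem stmtN3Geo : StmtN3Geo := by
  intro N _ A g F₁ F₂ _ _ _ _ R hM P P' D hD h
  have hT := hM.isToric
  refine (ln_mem_J0 R).mpr ⟨D, ?_, rfl⟩
  rw [hD]
  rcases h with ⟨Q, Q', hP, hP'⟩ | ⟨Q, Q', hP, hP'⟩
  · exact ln_single_sub_mem_div00₁ (IsToric_deg₁ hT) hP hP'
  · exact ln_single_sub_mem_div00₂ (IsToric_deg₂ hT) hP hP'

end Fermat.Agent.S15.LN
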