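import Mathlib

/-!
# S15 / LOCAL-N, piece PKG-card (abstract core): Goursat for the two-component reduction

`k` an algebraically closed field, `q ≥ 2` with `q = 0` in `k`, `R ⊂ k[X] × k[X]` a subalgebra
containing `(X, X ^ q)` and `(X ^ q, X)` (the reductions of `j` and `j_N` on the two components of
the special fibre of `X₀(N)` at `N = q`).

* `lngo_goursat` : there is a finite set `S` of roots of `X ^ (q ^ 2) - X` with
  `R = {(f₁, f₂) | ∀ s ∈ S, f₁ (s) = f₂ (s ^ q)}`: the two affine lines are glued along `S`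
  by `s ↦ s ^ q`, and the crossings are ordinary (the gluing ring is reduced).
* `lngo_finrank_glued` : the glued pairs of degrees `≤ a`, `≤ b` form a space of dimension
  `a + b + 2 - #S` (if `#S ≤ a + 1`).
* `lngo_card` : if `R ∩ (P_a × P_b)` has dimension `a + b + 1 - g` then `#S = g + 1`.
-/

set_option autoImplicit false

open Polynomial

namespace Fermat.Agent.S15.LN

section Goursat

variable {k : Type*} [Field k]

theorem lngo_aeval_pair (u v g : k[X]) :
    aeval ((u, v) : k[X] × k[X]) g = (g.comp u, g.comp v) := by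
  apply Prod.ext
  · have := aeval_algHom_apply (AlgHom.fst k k[X] k[X]) ((u, v) : k[X] × k[X]) g
    rw [comp_eq_aeval]
    exact this.symm
  · have := aeval_algHom_apply (AlgHom.snd k k[X] k[X]) ((u, v) : k[X] × k[X]) g
    rw [comp_eq_aeval]
    exact this.symm

theorem lngo_aeval_mem (R : Subalgebra k (k[X] × k[X])) {x : k[X] × k[X]} (hx : x ∈ R)
    (g : k[X]) : aeval x g ∈ R :=
  (Algebra.adjoin_le (Set.singleton_subset_iff.mpr hx)) (aeval_mem_adjoin_singleton k x)

/-- `(g, g (X ^ q)) ∈ R` -/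
theorem lngo_fst_mem (R : Subalgebra k (k[X] × k[X])) (q : ℕ)
    (ha : ((X, X ^ q) : k[X] × k[X]) ∈ R) (g : k[X]) :
    ((g, g.comp (X ^ q)) : k[X] × k[X]) ∈ R := by
  have h := lngo_aeval_mem R ha g
  rwa [lngo_aeval_pair, comp_X] at h

/-- `(g (X ^ q), g) ∈ R` -/
theorem lngo_snd_mem (R : Subalgebra k (k[X] × k[X])) (q : ℕ)
    (hb : ((X ^ q, X) : k[X] × k[X]) ∈ R) (g : k[X]) :
    ((g.comp (X ^ q), g) : k[X] × k[X]) ∈ R := by
  have h := lngo_aeval_mem R hb g
  rwa [lngo_aeval_pair, comp_X] at h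

/-- the ideal `I₁ = {f | (f, 0) ∈ R}` -/
def lngoIdeal (R : Subalgebra k (k[X] × k[X])) (q : ℕ)
    (ha : ((X, X ^ q) : k[X] × k[X]) ∈ R) : Ideal k[X] where
  carrier := {f | ((f, 0) : k[X] × k[X]) ∈ R}
  add_mem' := by
    intro f g hf hg
    have := R.add_mem hf hg
    rwa [Prod.mk_add_mk, add_zero] at this
  zero_mem' := R.zero_mem
  smul_mem' := by
    intro g f hf
    have := R.mul_mem (lngo_fst_mem R q ha g) hf
    rwa [Prod.mk_mul_mk, mul_zero] at this

theorem lngo_mem_ideal (R : Subalgebra k (k[X] × k[X])) (q : ℕ)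
    (ha : ((X, X ^ q) : k[X] × k[X]) ∈ R) (f : k[X]) :
    f ∈ lngoIdeal R q ha ↔ ((f, 0) : k[X] × k[X]) ∈ R := Iff.rfl

/-- membership in `R` through the ideal `I₁` -/
theorem lngo_mem_iff (R : Subalgebra k (k[X] × k[X])) (q : ℕ)
    (ha : ((X, X ^ q) : k[X] × k[X]) ∈ R) (hb : ((X ^ q, X) : k[X] × k[X]) ∈ R)
    (f : k[X] × k[X]) : f ∈ R ↔ f.1 - f.2.comp (X ^ q) ∈ lngoIdeal R q ha := by
  rw [lngo_mem_ideal]
  have h2 := lngo_snd_mem R q hb f.2
  have heq : ((f.1 - f.2.comp (X ^ q), 0) : k[X] × k[X]) = f - (f.2.comp (X ^ q), f.2) := by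
    apply Prod.ext
    · rfl
    · show (0 : k[X]) = f.2 - f.2
      rw [sub_self]
  rw [heq]
  constructor
  · intro h
    exact R.sub_mem h h2
  · intro h
    have := R.add_mem h h2
    rwa [sub_add_cancel] at this

/-- `X - X ^ (q ^ 2) ∈ I₁` -/
theorem lngo_frob_mem (R : Subalgebra k (k[X] × k[X])) (q : ℕ)
    (ha : ((X, X ^ q) : k[X] × k[X]) ∈ R) (hb : ((X ^ q, X) : k[X] × k[X]) ∈ R) :
    (X - X ^ (q ^ 2) : k[X]) ∈ lngoIdeal R q ha := by
  rw [lngo_mem_ideal]
  have h := R.sub_mem ha (R.pow_mem hb q)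
  have heq : ((X, X ^ q) : k[X] × k[X]) - ((X ^ q, X) : k[X] × k[X]) ^ q =
      ((X - X ^ (q ^ 2), 0) : k[X] × k[X]) := by
    apply Prod.ext
    · show (X : k[X]) - (X ^ q) ^ q = X - X ^ (q ^ 2)
      rw [← pow_mul, sq]
    · show (X : k[X]) ^ q - X ^ q = 0
      rw [sub_self]
  rwa [heq] at h

theorem lngo_frob_separable (q : ℕ) (hq : (q : k) = 0) :
    (X - X ^ (q ^ 2) : k[X]).Separable := by
  rw [separable_def]
  have hder : derivative (X - X ^ (q ^ 2) : k[X]) = 1 := by
    rw [derivative_sub, derivative_X, derivative_X_pow]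
    have : ((q ^ 2 : ℕ) : k[X]) = 0 := by
      rw [← map_natCast (C : k →+* k[X]), Nat.cast_pow, hq, zero_pow (by norm_num), map_zero]
    rw [map_natCast, this, zero_mul, sub_zero]
  rw [hder]
  exact isCoprime_one_right

/-- a separable polynomial over an algebraically closed field divides every polynomial
vanishing at its roots -/
theorem lngo_dvd_of_roots [IsAlgClosed k] {P f : k[X]} (hP : P.Separable)
    (h : ∀ s, P.IsRoot s → f.IsRoot s) : P ∣ f := by
  classical
  rcases eq_or_ne f 0 with rfl | hf0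
  · exact dvd_zero _
  have hP0 : P ≠ 0 := hP.ne_zero
  have hnodup := nodup_roots hP
  have hle : P.roots ≤ f.roots :=
    (Multiset.le_iff_subset hnodup).mpr
      (fun s hs => (mem_roots hf0).mpr (h s ((mem_roots hP0).mp hs)))
  have hdvd := (Multiset.prod_X_sub_C_dvd_iff_le_roots hf0 P.roots).mpr hle
  have hsplit := (IsAlgClosed.splits P).eq_prod_roots
  rw [hsplit]
  have hunit : IsUnit (C P.leadingCoeff : k[X]) :=
    isUnit_C.mpr (IsUnit.mk0 _ (leadingCoeff_ne_zero.mpr hP0))
  exact hunit.mul_left_dvd.mpr hdvd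

/-- **Goursat for the two-component reduction.** -/
theorem lngo_goursat [IsAlgClosed k] (q : ℕ) (hq : (q : k) = 0)
    (R : Subalgebra k (k[X] × k[X])) (ha : ((X, X ^ q) : k[X] × k[X]) ∈ R)
    (hb : ((X ^ q, X) : k[X] × k[X]) ∈ R) :
    ∃ S : Finset k, (∀ s ∈ S, s ^ (q ^ 2) = s) ∧
      ∀ f : k[X] × k[X], f ∈ R ↔ ∀ s ∈ S, f.1.eval s = f.2.eval (s ^ q) := by
  classical
  set I := lngoIdeal R q ha with hI
  have hU : (X - X ^ (q ^ 2) : k[X]) ∈ I := lngo_frob_mem R q ha hb
  have hUsep := lngo_frob_separable (k := k) q hq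
  -- the generator
  set P := Submodule.IsPrincipal.generator I with hP
  have hspan : I = Ideal.span {P} := (Ideal.span_singleton_generator I).symm
  have hPU : P ∣ (X - X ^ (q ^ 2) : k[X]) := by
    rw [hspan] at hU
    exact Ideal.mem_span_singleton.mp hU
  have hPsep : P.Separable := hUsep.of_dvd hPU
  have hP0 : P ≠ 0 := hPsep.ne_zero
  have hmemI : ∀ f : k[X], f ∈ I ↔ ∀ s ∈ P.roots.toFinset, f.eval s = 0 := by
    intro f
    constructor
    · intro hf s hs
      rw [hspan] at hf
      obtain ⟨g, rfl⟩ := Ideal.mem_span_singleton.mp hf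
      have hs' : P.IsRoot s := (mem_roots hP0).mp (Multiset.mem_toFinset.mp hs)
      rw [eval_mul, hs'.eq_zero, zero_mul]
    · intro h
      rw [hspan]
      refine Ideal.mem_span_singleton.mpr (lngo_dvd_of_roots hPsep fun s hs => ?_)
      exact h s (Multiset.mem_toFinset.mpr ((mem_roots hP0).mpr hs))
  refine ⟨P.roots.toFinset, fun s hs => ?_, fun f => ?_⟩
  · have hs' : P.IsRoot s := (mem_roots hP0).mp (Multiset.mem_toFinset.mp hs)
    obtain ⟨g, hg⟩ := hPU
    have := congrArg (eval s) hg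
    rw [eval_mul, hs'.eq_zero, zero_mul, eval_sub, eval_X, eval_pow, eval_X, sub_eq_zero] at this
    exact this.symm
  · rw [lngo_mem_iff R q ha hb f, hmemI]
    refine forall₂_congr fun s _ => ?_
    rw [eval_sub, eval_comp, eval_pow, eval_X, sub_eq_zero]

end Goursat

section Count

variable {k : Type*} [Field k]

/-- the gluing defect `(f₁, f₂) ↦ (f₁ (s) - f₂ (s ^ q))_{s ∈ S}` -/
noncomputable def lngoEv (S : Finset k) (q : ℕ) : (k[X] × k[X]) →ₗ[k] (S → k) where
  toFun f := fun s => f.1.eval (s : k) - f.2.eval ((s : k) ^ q)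
  map_add' := by
    intro f g
    funext s
    simp only [Prod.fst_add, Prod.snd_add, eval_add, Pi.add_apply]
    ring
  map_smul' := by
    intro c f
    funext s
    simp only [Prod.smul_fst, Prod.smul_snd, eval_smul, Pi.smul_apply, smul_eq_mul,
      RingHom.id_apply]
    ring

theorem lngoEv_apply (S : Finset k) (q : ℕ) (f : k[X] × k[X]) (s : S) :
    lngoEv S q f s = f.1.eval (s : k) - f.2.eval ((s : k) ^ q) := rfl

theorem lngoEv_eq_zero_iff (S : Finset k) (q : ℕ) (f : k[X] × k[X]) :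
    lngoEv S q f = 0 ↔ ∀ s ∈ S, f.1.eval s = f.2.eval (s ^ q) := by
  constructor
  · intro h s hs
    have := congrFun h ⟨s, hs⟩
    rw [lngoEv_apply, Pi.zero_apply, sub_eq_zero] at this
    exact this
  · intro h
    funext s
    rw [lngoEv_apply, Pi.zero_apply, sub_eq_zero]
    exact h s s.2

/-- pairs of polynomials of degrees `≤ a`, `≤ b` -/
noncomputable def lngoW (k : Type*) [Field k] (a b : ℕ) : Submodule k (k[X] × k[X]) :=
  (degreeLT k (a + 1)).prod (degreeLT k (b + 1))

theorem lngo_mem_W (a b : ℕ) (f : k[X] × k[X]) :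
    f ∈ lngoW k a b ↔ f.1.degree < (a + 1 : ℕ) ∧ f.2.degree < (b + 1 : ℕ) := by
  rw [lngoW, Submodule.mem_prod, mem_degreeLT, mem_degreeLT]

/-- `P_a × P_b` as a product of modules -/
noncomputable def lngoWEquiv (a b : ℕ) :
    ↥(lngoW k a b) ≃ₗ[k] ↥(degreeLT k (a + 1)) × ↥(degreeLT k (b + 1)) where
  toFun x := (⟨x.1.1, (Submodule.mem_prod.mp x.2).1⟩, ⟨x.1.2, (Submodule.mem_prod.mp x.2).2⟩)
  invFun y := ⟨(y.1.1, y.2.1), Submodule.mem_prod.mpr ⟨y.1.2, y.2.2⟩⟩
  map_add' := fun _ _ => rfl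
  map_smul' := fun _ _ => rfl
  left_inv := fun _ => rfl
  right_inv := fun _ => rfl

theorem lngo_finrank_W (a b : ℕ) : Module.finrank k ↥(lngoW k a b) = a + b + 2 := by
  rw [(lngoWEquiv (k := k) a b).finrank_eq, Module.finrank_prod,
    (degreeLTEquiv k (a + 1)).finrank_eq, (degreeLTEquiv k (b + 1)).finrank_eq,
    Module.finrank_fin_fun, Module.finrank_fin_fun]
  ring

instance lngo_finite_W (a b : ℕ) : Module.Finite k ↥(lngoW k a b) :=
  Module.Finite.equiv (lngoWEquiv (k := k) a b).symm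

/-- the gluing defect is onto on `P_a × 0` if `#S ≤ a + 1` (Lagrange) -/
theorem lngoEv_surjective (S : Finset k) (q a b : ℕ) (hS : S.card ≤ a + 1) :
    Function.Surjective ((lngoEv S q).domRestrict (lngoW k a b)) := by
  classical
  intro c
  set r : k → k := fun x => if h : x ∈ S then c ⟨x, h⟩ else 0 with hr
  have hinj : Set.InjOn (id : k → k) S := Function.injective_id.injOn
  have hdeg : (Lagrange.interpolate S id r).degree < (a + 1 : ℕ) :=
    lt_of_lt_of_le (Lagrange.degree_interpolate_lt r hinj) (by exact_mod_cast hS)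
  refine ⟨⟨(Lagrange.interpolate S id r, 0), ?_⟩, ?_⟩
  · rw [lngo_mem_W]
    refine ⟨hdeg, ?_⟩
    rw [degree_zero]
    exact WithBot.bot_lt_coe _
  · funext s
    rw [LinearMap.domRestrict_apply, lngoEv_apply]
    show eval (s : k) (Lagrange.interpolate S id r) - eval ((s : k) ^ q) 0 = c s
    rw [eval_zero, sub_zero]
    have := Lagrange.eval_interpolate_at_node r hinj s.2
    rw [id] at this
    rw [this, hr]
    simp only [s.2, dite_true, Subtype.coe_eta]

/-- **dimension of the glued pairs**: `dim {(f₁, f₂) ∈ P_a × P_b glued along S} + #S = a + b + 2` -/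
theorem lngo_finrank_glued (S : Finset k) (q a b : ℕ) (hS : S.card ≤ a + 1) :
    Module.finrank k ↥(LinearMap.ker (lngoEv S q) ⊓ lngoW k a b) + S.card = a + b + 2 := by
  classical
  set g := (lngoEv S q).domRestrict (lngoW k a b) with hg
  have hsurj := lngoEv_surjective S q a b hS
  have h1 := LinearMap.finrank_range_add_finrank_ker g
  rw [LinearMap.range_eq_top.mpr hsurj, finrank_top, Module.finrank_fintype_fun_eq_card,
    Fintype.card_coe, lngo_finrank_W] at h1
  have hker : LinearMap.ker g =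
      Submodule.comap (lngoW k a b).subtype (LinearMap.ker (lngoEv S q) ⊓ lngoW k a b) := by
    ext w
    rw [LinearMap.mem_ker, Submodule.mem_comap, Submodule.mem_inf, LinearMap.mem_ker, hg,
      LinearMap.domRestrict_apply]
    constructor
    · intro h
      exact ⟨h, w.2⟩
    · intro h
      exact h.1
  have h2 : Module.finrank k ↥(LinearMap.ker g) =
      Module.finrank k ↥(LinearMap.ker (lngoEv S q) ⊓ lngoW k a b) := by
    rw [hker]
    exact (Submodule.comapSubtypeEquivOfLe
      (inf_le_right : LinearMap.ker (lngoEv S q) ⊓ lngoW k a b ≤ lngoW k a b)).finrank_eq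
  rw [h2] at h1
  omega

/-- **the number of crossing points**: if `R` is glued along `S` and `R ∩ (P_a × P_b)` has
dimension `a + b + 1 - g`, then `#S = g + 1`. -/
theorem lngo_card (R : Subalgebra k (k[X] × k[X])) (S : Finset k) (q : ℕ)
    (hR : ∀ f : k[X] × k[X], f ∈ R ↔ ∀ s ∈ S, f.1.eval s = f.2.eval (s ^ q))
    (a b g : ℕ) (hS : S.card ≤ a + 1)
    (hdim : Module.finrank k ↥(Subalgebra.toSubmodule R ⊓ lngoW k a b) + g = a + b + 1) :
    S.card = g + 1 := by
  have h1 := lngo_finrank_glued S q a b hS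
  have heq : Subalgebra.toSubmodule R ⊓ lngoW k a b =
      LinearMap.ker (lngoEv S q) ⊓ lngoW k a b := by
    ext f
    rw [Submodule.mem_inf, Submodule.mem_inf, LinearMap.mem_ker, lngoEv_eq_zero_iff,
      Subalgebra.mem_toSubmodule, hR]
  rw [heq] at hdim
  omega

/-- the crossing set has at most `q ^ 2` points -/
theorem lngo_card_le (S : Finset k) (q : ℕ) (hq : 2 ≤ q) (hS : ∀ s ∈ S, s ^ (q ^ 2) = s) :
    S.card ≤ q ^ 2 := by
  classical
  have hq2 : 1 < q ^ 2 := by nlinarith
  have hne : (X ^ (q ^ 2) - X : k[X]) ≠ 0 := by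
    intro h
    have h1 := congrArg natDegree h
    rw [natDegree_sub_eq_left_of_natDegree_lt (by rw [natDegree_X_pow, natDegree_X]; exact hq2),
      natDegree_X_pow, natDegree_zero] at h1
    omega
  have hsub : S ⊆ (X ^ (q ^ 2) - X : k[X]).roots.toFinset := by
    intro s hs
    rw [Multiset.mem_toFinset, mem_roots hne, IsRoot.def, eval_sub, eval_pow, eval_X,
      sub_eq_zero]
    exact hS s hs
  calc S.card ≤ (X ^ (q ^ 2) - X : k[X]).roots.toFinset.card := Finset.card_le_card hsub
    _ ≤ Multiset.card (X ^ (q ^ 2) - X : k[X]).roots := Multiset.toFinset_card_le _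
    _ ≤ (X ^ (q ^ 2) - X : k[X]).natDegree := card_roots' _
    _ = q ^ 2 := by
      rw [natDegree_sub_eq_left_of_natDegree_lt
        (by rw [natDegree_X_pow, natDegree_X]; exact hq2), natDegree_X_pow]

end Count

end Fermat.Agent.S15.LN
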