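import Fermat.Agent.S15.LNTorus

/-!
# S15 block LOCAL-N, piece LN-Q (helper10): `J⁰ / J¹` is divisible

`stmtTorQuot : StmtTorQuot` (unconditional).  For `x = [D] ∈ J⁰` the class of `r_* D` in the torus
`(k^×)^X / k^×` is an `m`-th power (`k` algebraically closed); an `m`-th root is the class of
`(0, div g₂)` by interpolation on `C₂`, which lifts to a divisor `D'` of type `(0, 0)`
(`ln_onto₂`); then `D − m D'` reduces to a principal divisor of the nodal curve.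

Also, for LN-CNT:
* `ln_q_isDiv00`, `ln_q_degree_eq_zero`, `ln_q_mem_div1_iff` (`D ∈ div1 ↔ lnTau = 1` on `X`),
  `ln_q_exists_div` (the map `div00 → torus` is onto), `ln_q_tau_add/neg/nsmul/sub`.
-/

set_option autoImplicit false
set_option linter.unusedSectionVars false
set_option linter.unusedVariables false
set_option linter.style.haveILetI false

noncomputable section

open AlgebraicCurve Module

namespace Fermat.Agent.S15.LN

open Fermat.Agent.W1 Fermat.Agent.S24 Fermat.Agent.ES.R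

open scoped Classical

section TR

variable {K F k F₁ F₂ : Type} [Field K] [Field F] [Algebra K F] [Field k]
  [Field F₁] [Algebra k F₁] [Field F₂] [Algebra k F₂]
variable {A : ValuationSubring K} {R : TRData K F k F₁ F₂ A} {g : ℕ}
variable {x₀ : Place k F₁ × Place k F₂}

theorem ln_q_isPrincBar_iff (R : TRData K F k F₁ F₂ A) (E₁ : Divisor k F₁)
    (E₂ : Divisor k F₂) : R.IsPrincBar (E₁, E₂) ↔ lnIsPrinc R.X E₁ E₂ := Iff.rfl

theorem ln_q_isDiv00 (hT : R.IsToric g) {D : Divisor K F} (hD : D ∈ R.div00) :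
    IsDiv00 R.X (R.push₁ D) (R.push₂ D) :=
  ⟨((ln_mem_div00 R).mp hD).2.1, ((ln_mem_div00 R).mp hD).2.2,
    fun x hx => ln_push₁_cross hT.isTR D hx, fun x hx => ln_push₂_cross hT.isTR D hx⟩

theorem ln_q_degree_eq_zero (hT : R.IsToric g) {D : Divisor K F} (hD : D ∈ R.div00) :
    Divisor.degree D = 0 := by
  obtain ⟨h1, h2, h3⟩ := (ln_mem_div00 R).mp hD
  rw [ln_rr_degree_smDiv hT h1, h2, h3, add_zero]

/-- **the kernel of reduction**: `D ∈ div1` iff the class of `r_* D` in the torus is `1` -/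
theorem ln_q_mem_div1_iff (hT : R.IsToric g) (hx₀ : x₀ ∈ R.X) {D : Divisor K F}
    (hD : D ∈ R.div00) :
    D ∈ R.div1 ↔ ∀ x ∈ R.X, lnTau x₀ (R.push₁ D) (R.push₂ D) x = 1 := by
  rw [ln_mem_div1, lnTau_eq_one_iff (ln_rr_isNodal hT) hx₀ (ln_q_isDiv00 hT hD)]
  exact ⟨fun h => h.2, fun h => ⟨hD, h⟩⟩

theorem ln_q_tau_add (hT : R.IsToric g) (hx₀ : x₀ ∈ R.X) {D D' : Divisor K F}
    (hD : D ∈ R.div00) (hD' : D' ∈ R.div00) {x : Place k F₁ × Place k F₂} (hx : x ∈ R.X) :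
    lnTau x₀ (R.push₁ (D + D')) (R.push₂ (D + D')) x =
      lnTau x₀ (R.push₁ D) (R.push₂ D) x * lnTau x₀ (R.push₁ D') (R.push₂ D') x := by
  rw [map_add, map_add]
  exact lnTau_add (ln_rr_isNodal hT) hx₀ (ln_q_isDiv00 hT hD) (ln_q_isDiv00 hT hD') hx

theorem ln_q_tau_neg (hT : R.IsToric g) (hx₀ : x₀ ∈ R.X) {D : Divisor K F}
    (hD : D ∈ R.div00) {x : Place k F₁ × Place k F₂} (hx : x ∈ R.X) :
    lnTau x₀ (R.push₁ (-D)) (R.push₂ (-D)) x = (lnTau x₀ (R.push₁ D) (R.push₂ D) x)⁻¹ := by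
  rw [map_neg, map_neg]
  exact lnTau_neg (ln_rr_isNodal hT) hx₀ (ln_q_isDiv00 hT hD) hx

theorem ln_q_tau_sub (hT : R.IsToric g) (hx₀ : x₀ ∈ R.X) {D D' : Divisor K F}
    (hD : D ∈ R.div00) (hD' : D' ∈ R.div00) {x : Place k F₁ × Place k F₂} (hx : x ∈ R.X) :
    lnTau x₀ (R.push₁ (D - D')) (R.push₂ (D - D')) x =
      lnTau x₀ (R.push₁ D) (R.push₂ D) x / lnTau x₀ (R.push₁ D') (R.push₂ D') x := by
  rw [sub_eq_add_neg, ln_q_tau_add hT hx₀ hD (R.div00.neg_mem hD') hx,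
    ln_q_tau_neg hT hx₀ hD' hx, div_eq_mul_inv]

theorem ln_q_tau_nsmul (hT : R.IsToric g) (hx₀ : x₀ ∈ R.X) {D : Divisor K F}
    (hD : D ∈ R.div00) {x : Place k F₁ × Place k F₂} (hx : x ∈ R.X) (m : ℕ) :
    lnTau x₀ (R.push₁ (m • D)) (R.push₂ (m • D)) x =
      lnTau x₀ (R.push₁ D) (R.push₂ D) x ^ m := by
  rw [map_nsmul, map_nsmul]
  exact lnTau_nsmul (ln_rr_isNodal hT) hx₀ (ln_q_isDiv00 hT hD) hx m

theorem ln_q_tau_ne_zero (hT : R.IsToric g) (hx₀ : x₀ ∈ R.X) {D : Divisor K F}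
    (hD : D ∈ R.div00) {x : Place k F₁ × Place k F₂} (hx : x ∈ R.X) :
    lnTau x₀ (R.push₁ D) (R.push₂ D) x ≠ 0 :=
  lnTau_ne_zero (ln_rr_isNodal hT) hx₀ (ln_q_isDiv00 hT hD) hx

theorem ln_q_tau_base (hT : R.IsToric g) (hx₀ : x₀ ∈ R.X) {D : Divisor K F}
    (hD : D ∈ R.div00) : lnTau x₀ (R.push₁ D) (R.push₂ D) x₀ = 1 :=
  lnTau_base (ln_rr_isNodal hT) hx₀ (ln_q_isDiv00 hT hD)

/-- **the map `div00 → torus` is onto** -/
theorem ln_q_exists_div (hT : R.IsToric g) (hx₀ : x₀ ∈ R.X)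
    (s : Place k F₁ × Place k F₂ → k) (hs : ∀ x ∈ R.X, s x ≠ 0) (hs₀ : s x₀ = 1) :
    ∃ D : Divisor K F, D ∈ R.div00 ∧
      ∀ x ∈ R.X, lnTau x₀ (R.push₁ D) (R.push₂ D) x = s x := by
  obtain ⟨E₂, hE, hτ⟩ := lnTau_surj (ln_rr_isNodal hT) hx₀ s hs hs₀
  obtain ⟨D, hD, h1, h2, -⟩ := ln_rr_exists_lift_div₂ hT E₂ hE.away₂
  refine ⟨D, (ln_mem_div00 R).mpr ⟨hD, by rw [h1]; exact map_zero _, by rw [h2]; exact hE.deg₂⟩,
    fun x hx => ?_⟩
  rw [h1, h2]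
  exact hτ x hx

theorem ln_q_mk_sub_nsmul (D D' : Divisor.degZero (K := K) (F := F)) (m : ℕ) :
    Pic0.mk D - m • Pic0.mk D' = Pic0.mk (D - m • D') := by
  show pic0Hom K F D - m • pic0Hom K F D' = pic0Hom K F (D - m • D')
  rw [map_sub, map_nsmul]

end TR


/-- **LN-Q**: `J⁰ / J¹` is divisible. -/
theorem stmtTorQuot : StmtTorQuot := by
  intro K F k F₁ F₂ _ _ _ _ _ _ _ _ _ _ A R g hT m hm x hx
  obtain ⟨x₀, hx₀⟩ := IsToric_X_nonempty hT
  obtain ⟨D, hD, rfl⟩ := (ln_mem_J0 R).mp hx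
  -- `m`-th roots of the class of `D`
  have hroot : ∀ x : Place k F₁ × Place k F₂,
      ∃ c : k, c ^ m = lnTau x₀ (R.push₁ (D : Divisor K F)) (R.push₂ (D : Divisor K F)) x :=
    fun x => IsAlgClosed.exists_pow_nat_eq _ (Nat.pos_of_ne_zero hm)
  choose c hc using hroot
  set s : Place k F₁ × Place k F₂ → k := fun x => if x = x₀ then 1 else c x with hs
  have hs₀ : s x₀ = 1 := by simp [hs]
  have hsm : ∀ x ∈ R.X,
      s x ^ m = lnTau x₀ (R.push₁ (D : Divisor K F)) (R.push₂ (D : Divisor K F)) x := by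
    intro x hx
    by_cases h : x = x₀
    · rw [h, hs₀, one_pow, ln_q_tau_base hT hx₀ hD]
    · have : s x = c x := by simp [hs, h]
      rw [this, hc]
  have hs0 : ∀ x ∈ R.X, s x ≠ 0 := fun x hx h0 =>
    ln_q_tau_ne_zero hT hx₀ hD hx (by rw [← hsm x hx, h0, zero_pow hm])
  obtain ⟨D', hD', hτ'⟩ := ln_q_exists_div hT hx₀ s hs0 hs₀
  have hdeg' : D' ∈ Divisor.degZero (K := K) (F := F) := ln_q_degree_eq_zero hT hD'
  set D'z : Divisor.degZero (K := K) (F := F) := ⟨D', hdeg'⟩ with hD'z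
  refine ⟨Pic0.mk D'z, (ln_mem_J0 R).mpr ⟨D'z, hD', rfl⟩, ?_⟩
  have hmD' : m • D' ∈ R.div00 := R.div00.nsmul_mem hD' m
  have h1 : (D : Divisor K F) - m • D' ∈ R.div1 := by
    rw [ln_q_mem_div1_iff hT hx₀ (R.div00.sub_mem hD hmD')]
    intro x hx
    rw [ln_q_tau_sub hT hx₀ hD hmD' hx, ln_q_tau_nsmul hT hx₀ hD' hx, hτ' x hx, hsm x hx]
    exact div_self (ln_q_tau_ne_zero hT hx₀ hD hx)
  have key : Pic0.mk D - m • Pic0.mk D'z = Pic0.mk (D - m • D'z) := ln_q_mk_sub_nsmul D D'z m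
  rw [key]
  refine (ln_mem_J1 R).mpr ⟨D - m • D'z, ?_, rfl⟩
  have e : ((D - m • D'z : Divisor.degZero (K := K) (F := F)) : Divisor K F)
      = (D : Divisor K F) - m • D' := by
    rw [AddSubgroup.coe_sub, AddSubgroup.coe_nsmul]
  rw [e]
  exact h1

end Fermat.Agent.S15.LN
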