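import Fermat.Agent.S15.LNGlue
import Fermat.Agent.S15.LNDiv
import Fermat.Agent.S15.LNQ
import Fermat.Agent.S05.FreyArith

/-!
# S15 block LOCAL-N: the local divisibility at the level `p` (helper5)

`ln_locDiv_core` : `StmtTorTF → StmtModTRmin →` for a place `x` of `X₀(p)` fixed by `G_ℚ` and of
type `2` at `A ∣ p` (certificate: `p¹² · oggU p` has at `x` a value `≠ 0` with inverse in `A`),
the class `[(x) − (0)]` is divisible by every power of `r ≠ p` among the points of `J₀(p)` fixed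
by the inertia group of `A`.

Proof: `x` and the cusp `0` are of smooth type on the component `C₂` (`ModTRmin.type₂`,
`ModTRmin.cuspZero`), so `u = [(x) − (0)] ∈ J⁰`; `u` is fixed by `G_ℚ`; `J⁰` is `m`-divisible
(LN-Q `stmtTorQuot` + LN-DIV `stmtTorDiv`), and an `m`-th root `y ∈ J⁰` of a fixed point is fixed
by inertia: `σ y − y ∈ J¹` (`ln_smul_sub_mem_J1`) is killed by `m`, and `J¹` has no `m`-torsion
(LN-TF).
-/

set_option autoImplicit false
set_option linter.unusedSectionVars false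
set_option linter.unusedVariables false
set_option linter.style.haveILetI false

noncomputable section

open AlgebraicCurve Module ModularCurve

namespace Fermat.Agent.S15.LN

open Fermat.Agent.W1 Fermat.Agent.S24 Fermat.Agent.S15

theorem ln_pow_not_nonunit {p r : ℕ} (hp : p.Prime) (hr : r.Prime) (hrp : r ≠ p)
    {A : ValuationSubring Kb} (hA : A.LiesOverPrime p) (k : ℕ) :
    ((r ^ k : ℕ) : Kb) ∉ A.nonunits := by
  rw [S05.natCast_mem_nonunits_iff A hp hA]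
  intro h
  have h1 := hp.dvd_of_dvd_pow h
  exact hrp ((Nat.prime_dvd_prime_iff_eq hp hr).mp h1).symm

/-- the class `[(x) − (0)]` of a `G_ℚ`-fixed place is `G_ℚ`-fixed -/
theorem ln_diff_fixed {N : ℕ} [NeZero N] {x : Place Kb (FF N)}
    (hfix : ∀ σ : Kb ≃ₐ[ℚ] Kb, galAct N σ • x = x)
    {D : Divisor.degZero (K := Kb) (F := FF N)}
    (hD : (D : Divisor Kb (FF N)) = Finsupp.single x 1 - Finsupp.single (cuspZero N) 1)
    (σ : Kb ≃ₐ[ℚ] Kb) : σ • (Pic0.mk D : JZero N) = Pic0.mk D := by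
  rw [galois_smul_pic0_def, SemilinearAut.pic0_smul_mk]
  congr 1
  apply Subtype.ext
  rw [SemilinearAut.coe_degZeroSMulHom, hD, smul_sub, SemilinearAut.smul_single,
    SemilinearAut.smul_single]
  change Finsupp.single (galAct N σ • x) 1 - Finsupp.single (galAct N σ • cuspZero N) 1 = _
  rw [galAct_smul_cuspZero, hfix σ]

/-- roots in `J⁰` of an inertia-fixed point of `J⁰` which are fixed by inertia -/
theorem ln_exists_root_min (hTF : StmtTorTF) {N : ℕ} [NeZero N] {A : ValuationSubring Kb}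
    {g : ℕ} {F₁ F₂ : Type} [Field F₁] [Field F₂]
    [Algebra (IsLocalRing.ResidueField A) F₁] [Algebra (IsLocalRing.ResidueField A) F₂]
    {R : TRData Kb (FF N) (IsLocalRing.ResidueField A) F₁ F₂ A} (hM : ModTRmin N A g R)
    {m : ℕ} (hm : (m : Kb) ∉ A.nonunits) {x : JZero N} (hx : x ∈ R.J0)
    (hfix : ∀ σ ∈ A.inertiaSubgroupIn ℚ, σ • x = x) :
    ∃ y : JZero N, y ∈ R.J0 ∧ (∀ σ ∈ A.inertiaSubgroupIn ℚ, σ • y = y) ∧ m • y = x := by
  haveI : IsAlgClosed (IsLocalRing.ResidueField A) := RED.isAlgClosed_residueField A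
  have hT := hM.isToric
  have hm0 : m ≠ 0 := by
    rintro rfl
    apply hm
    rw [Nat.cast_zero, ValuationSubring.mem_nonunits_iff, map_zero]
    exact zero_lt_one
  obtain ⟨y₁, hy₁, h1⟩ :=
    stmtTorQuot Kb (FF N) (IsLocalRing.ResidueField A) F₁ F₂ A R g hT m hm0 x hx
  obtain ⟨z, hz, hzm⟩ :=
    stmtTorDiv Kb (FF N) (IsLocalRing.ResidueField A) F₁ F₂ A R g hT m hm _ h1
  have hy : m • (y₁ + z) = x := by
    rw [nsmul_add, hzm]; abel
  refine ⟨y₁ + z, R.J0.add_mem hy₁ (ln_J1_le_J0 R hz), ?_, hy⟩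
  intro σ hσ
  have h2 : σ • (y₁ + z) - (y₁ + z) ∈ R.J1 := by
    rw [galois_smul_pic0_def]
    exact ln_smul_sub_mem_J1 (R := R) (galAct N σ) (fun P => hM.inertia σ hσ P)
      (R.J0.add_mem hy₁ (ln_J1_le_J0 R hz))
  have h3 : m • (σ • (y₁ + z) - (y₁ + z)) = 0 := by
    have e : σ • (m • (y₁ + z)) = m • (σ • (y₁ + z)) :=
      map_nsmul (DistribSMul.toAddMonoidHom (JZero N) σ) m (y₁ + z)
    rw [nsmul_sub, ← e, hy, hfix σ hσ, sub_self]
  exact sub_eq_zero.mp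
    (hTF Kb (FF N) (IsLocalRing.ResidueField A) F₁ F₂ A R g hT m hm _ h2 h3)

theorem ln_locDiv_core (hTF : StmtTorTF) (hPkg : StmtModTRmin) (p : ℕ) [NeZero p] (hp : p.Prime)
    (h5 : 5 ≤ p) (r : ℕ) (hr : r.Prime) (hrp : r ≠ p) (A : ValuationSubring Kb)
    (hA : A.LiesOverPrime p) (x : Place Kb (FF p))
    (hfix : ∀ σ : Kb ≃ₐ[ℚ] Kb, galAct p σ • x = x) (d : Kb) (hd : HasValueAt x (oggU p) d)
    (hd0 : d ≠ 0) (hd2 : ((p : Kb) ^ 12 * d)⁻¹ ∈ A)
    (D : Divisor.degZero (K := Kb) (F := FF p))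
    (hD : (D : Divisor Kb (FF p)) = Finsupp.single x 1 - Finsupp.single (cuspZero p) 1)
    (k : ℕ) :
    ∃ y : JZero p, (∀ σ ∈ A.inertiaSubgroupIn ℚ, σ • y = y) ∧ r ^ k • y = Pic0.mk D := by
  obtain ⟨g, F₁, F₂, _, _, _, _, R, hM⟩ := hPkg p hp h5 A hA
  obtain ⟨Q, hQ⟩ := hM.type₂ x d hd hd0 hd2
  obtain ⟨Q', hQ'⟩ := hM.cuspZero
  have hu0 : (Pic0.mk D : JZero p) ∈ R.J0 := by
    refine (ln_mem_J0 R).mpr ⟨D, ?_, rfl⟩
    rw [hD]
    exact ln_single_sub_mem_div00₂ (IsToric_deg₂ hM.isToric) hQ hQ'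
  obtain ⟨y, -, hI, hy⟩ := ln_exists_root_min hTF hM (ln_pow_not_nonunit hp hr hrp hA k) hu0
    (fun σ _ => ln_diff_fixed hfix hD σ)
  exact ⟨y, hI, hy⟩

end Fermat.Agent.S15.LN
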