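import Fermat.Agent.S15.LNLocDiv
import Fermat.Agent.S15.LNTF
import Fermat.Agent.S15.Plan

/-!
# S15 block LOCAL-N: `StmtLocDivN` of `S15/Plan.lean` (helper5)

`stmtLocDivN_of_pkg : StmtModTRmin → StmtLocDivN` (and `stmtLocDivN_of` with `StmtTorTF` as a
hypothesis): for `A ∣ p` and a rational place `x` of
type two, the class `[(x) − (0)]` is infinitely `r`-divisible among the points of `J₀(p)` fixed by
the inertia group of `A` (`r ≠ p`).
-/

set_option autoImplicit false
set_option linter.unusedSectionVars false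
set_option linter.unusedVariables false
set_option linter.style.haveILetI false

noncomputable section

open AlgebraicCurve Module ModularCurve

namespace Fermat.Agent.S15.LN

open Fermat.Agent.W1 Fermat.Agent.S24 Fermat.Agent.S15

/-- a rational number of nonnegative `p`-adic valuation lies in every valuation ring over `p` -/
theorem ln_rat_mem {p : ℕ} (hp : p.Prime) {A : ValuationSubring Kb} (hA : A.LiesOverPrime p)
    (q : ℚ) (hq : 0 ≤ padicValRat p q) : algebraMap ℚ Kb q ∈ A := by
  haveI : Fact p.Prime := ⟨hp⟩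
  have hden : ¬ p ∣ q.den := by
    intro hdvd
    have h1 : 1 ≤ padicValNat p q.den := one_le_padicValNat_of_dvd q.den_ne_zero hdvd
    have h2 : padicValInt p q.num = 0 := by
      apply padicValInt.eq_zero_of_not_dvd
      intro hnum
      have h4 : p ∣ q.num.natAbs := Int.natCast_dvd.mp hnum
      have h5 : p ∣ Nat.gcd q.num.natAbs q.den := Nat.dvd_gcd h4 hdvd
      rw [Nat.Coprime.gcd_eq_one q.reduced] at h5
      exact hp.one_lt.ne' (Nat.dvd_one.mp h5)
    have h3 : padicValRat p q = (padicValInt p q.num : ℤ) - (padicValNat p q.den : ℤ) := rfl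
    rw [h3, h2] at hq
    omega
  have hunit : ((q.den : ℕ) : Kb) ∉ A.nonunits := by
    rw [S05.natCast_mem_nonunits_iff A hp hA]
    exact hden
  have hden0 : ((q.den : ℕ) : Kb) ≠ 0 := by
    exact_mod_cast q.den_ne_zero
  have hinv : (((q.den : ℕ) : Kb))⁻¹ ∈ A := by
    rw [ValuationSubring.mem_nonunits_iff, not_lt] at hunit
    rw [← A.valuation_le_one_iff, map_inv₀]
    exact inv_le_one_of_one_le₀ hunit
  have hq' : algebraMap ℚ Kb q = ((q.num : ℤ) : Kb) * (((q.den : ℕ) : Kb))⁻¹ := by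
    have h1 : q = (q.num : ℚ) * ((q.den : ℕ) : ℚ)⁻¹ := by
      rw [← div_eq_mul_inv, Rat.num_div_den]
    conv_lhs => rw [h1]
    rw [map_mul, map_inv₀, map_intCast, map_natCast]
  rw [hq']
  exact A.mul_mem _ _ (intCast_mem A q.num) hinv

theorem ln_five_le_of_mazurLevel {p : ℕ} (h : IsMazurLevel p) : 5 ≤ p := by
  obtain ⟨hp, hn⟩ := h
  have h2 := hp.two_le
  by_contra hlt
  push Not at hlt
  have : p = 2 ∨ p = 3 ∨ p = 4 := by omega
  rcases this with rfl | rfl | rfl
  · exact hn (by decide)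
  · exact hn (by decide)
  · exact absurd hp (by decide)

/-- **LOCDIV at the level prime**, from LN-TF and the modular package LN-PKG. -/
theorem stmtLocDivN_of (hTF : StmtTorTF) (hPkg : StmtModTRmin) : StmtLocDivN := by
  intro p _ hML r hr hrp A hA x a c hx hx2 u hu
  have hp : p.Prime := hML.1
  obtain ⟨d, hd0, hd, hdv⟩ := hx2
  obtain ⟨D, hD, rfl⟩ := hu
  have hpQ : (p : ℚ) ≠ 0 := Nat.cast_ne_zero.mpr hp.ne_zero
  haveI : Fact p.Prime := ⟨hp⟩
  have hmem : ((p : Kb) ^ 12 * algebraMap ℚ Kb d)⁻¹ ∈ A := by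
    have h1 : ((p : Kb) ^ 12 * algebraMap ℚ Kb d)⁻¹ = algebraMap ℚ Kb (((p : ℚ) ^ 12 * d)⁻¹) := by
      rw [map_inv₀, map_mul, map_pow, map_natCast]
    rw [h1]
    refine ln_rat_mem hp hA _ ?_
    rw [padicValRat.inv, padicValRat.mul (pow_ne_zero 12 hpQ) hd0, padicValRat.pow,
      padicValRat.self hp.one_lt]
    push_cast
    linarith
  have hd0' : algebraMap ℚ Kb d ≠ 0 := (map_ne_zero _).mpr hd0
  intro k
  exact ln_locDiv_core hTF hPkg p hp (ln_five_le_of_mazurLevel hML) r hr hrp A hA x hx.fixed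
    (algebraMap ℚ Kb d) hd hd0' hmem D hD k

/-- **LOCDIV at the level prime**, from the (pruned) modular package LN-PKG alone: the abstract
pieces LN-TF (`stmtTorTF`, helper24), LN-DIV (`stmtTorDiv`), LN-Q (`stmtTorQuot`, helper10) are
proved. -/
theorem stmtLocDivN_of_pkg (hPkg : StmtModTRmin) : StmtLocDivN :=
  stmtLocDivN_of stmtTorTF hPkg

end Fermat.Agent.S15.LN
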