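import Fermat.Agent.S15.LNRR2
import Fermat.Agent.S15.Div1Aux

/-!
# S15 block LOCAL-N, pieces LN-DIV / LN-TF, part 1 (helper5): orthonormal bases on the nodal curve

Transplant of `S15/Div1Orth.lean`, `W1/GeoOrthApprox.lean` (helper94) to a two-component
reduction `R : TRData K F k F₁ F₂ A`:

* `R.O₁₂ = O₁ ∩ O₂` (a subring of `F`), `R.red₁₂ : O₁ ∩ O₂ →+* F₁ × F₂`;
* `ln_ob_coeff_mem`, `ln_ob_linearIndependent`, `ln_ob_red_sum` : orthonormal families;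
* `IsOB₂ R D e` : `e` is a basis of `L(D)` in `O₁ ∩ O₂` whose reductions are a basis of
  `L̄(r_* D) = R.Lbar D`; `exists_isOB₂` (from `Orth` and the nodal Riemann–Roch of LN-RR);
* the API `IsOB₂.red_comb`, `exists_coeff`, `exists_lift`, `coeff_nonunit`, … .
-/

set_option autoImplicit false
set_option linter.unusedSectionVars false
set_option linter.unusedVariables false
set_option linter.style.haveILetI false

noncomputable section

open AlgebraicCurve Module WithZero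

namespace Fermat.Agent.S15.LN

open Fermat.Agent.W1 Fermat.Agent.S24 Fermat.Agent.ES.R Fermat.Agent.S15.Div1

variable {K F k F₁ F₂ : Type} [Field K] [Field F] [Algebra K F] [Field k]
  [Field F₁] [Algebra k F₁] [Field F₂] [Algebra k F₂]
variable {A : ValuationSubring K} {R : TRData K F k F₁ F₂ A} {g : ℕ}

/-! ### `O₁ ∩ O₂` and its reduction -/

/-- `O₁ ∩ O₂` -/
def TRData.O₁₂ (R : TRData K F k F₁ F₂ A) : Subring F := R.O₁.toSubring ⊓ R.O₂.toSubring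

theorem ln_ob_mem {u : F} : u ∈ R.O₁₂ ↔ u ∈ R.O₁ ∧ u ∈ R.O₂ := Iff.rfl

/-- the reduction `O₁ ∩ O₂ → F₁ × F₂` -/
def TRData.red₁₂ (R : TRData K F k F₁ F₂ A) : R.O₁₂ →+* F₁ × F₂ where
  toFun x := (R.red₁ ⟨x.1, x.2.1⟩, R.red₂ ⟨x.1, x.2.2⟩)
  map_one' := Prod.ext (map_one R.red₁) (map_one R.red₂)
  map_mul' x y := Prod.ext (map_mul R.red₁ ⟨x.1, x.2.1⟩ ⟨y.1, y.2.1⟩)
    (map_mul R.red₂ ⟨x.1, x.2.2⟩ ⟨y.1, y.2.2⟩)
  map_zero' := Prod.ext (map_zero R.red₁) (map_zero R.red₂)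
  map_add' x y := Prod.ext (map_add R.red₁ ⟨x.1, x.2.1⟩ ⟨y.1, y.2.1⟩)
    (map_add R.red₂ ⟨x.1, x.2.2⟩ ⟨y.1, y.2.2⟩)

theorem ln_ob_red_apply {u : F} (h : u ∈ R.O₁₂) :
    R.red₁₂ ⟨u, h⟩ = (R.red₁ ⟨u, h.1⟩, R.red₂ ⟨u, h.2⟩) := rfl

theorem ln_ob_red_fst {u : F} (h : u ∈ R.O₁₂) : (R.red₁₂ ⟨u, h⟩).1 = R.red₁ ⟨u, h.1⟩ := rfl

theorem ln_ob_red_snd {u : F} (h : u ∈ R.O₁₂) : (R.red₁₂ ⟨u, h⟩).2 = R.red₂ ⟨u, h.2⟩ := rfl

theorem ln_ob_algebraMap_mem (hR : R.IsTR) {a : K} (ha : a ∈ A) : algebraMap K F a ∈ R.O₁₂ :=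
  ⟨(hR.algebraMap_mem_iff₁ a).mpr ha, (hR.algebraMap_mem_iff₂ a).mpr ha⟩

theorem ln_ob_smul_mem (hR : R.IsTR) {a : K} (ha : a ∈ A) {u : F} (hu : u ∈ R.O₁₂) :
    a • u ∈ R.O₁₂ := by
  rw [Algebra.smul_def]
  exact R.O₁₂.mul_mem (ln_ob_algebraMap_mem hR ha) hu

theorem ln_ob_red_algebraMap (hR : R.IsTR) (a : A) (h : algebraMap K F (a : K) ∈ R.O₁₂) :
    R.red₁₂ ⟨algebraMap K F (a : K), h⟩ = (algebraMap k F₁ (R.res a), algebraMap k F₂ (R.res a)) :=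
  Prod.ext (hR.red₁_algebraMap a h.1) (hR.red₂_algebraMap a h.2)

theorem ln_ob_red_smul (hR : R.IsTR) {a : K} (ha : a ∈ A) {u : F} (hu : u ∈ R.O₁₂)
    (h : a • u ∈ R.O₁₂) :
    R.red₁₂ ⟨a • u, h⟩ = R.res ⟨a, ha⟩ • R.red₁₂ ⟨u, hu⟩ := by
  have h1 : (⟨a • u, h⟩ : R.O₁₂) =
      ⟨algebraMap K F a, ln_ob_algebraMap_mem hR ha⟩ * ⟨u, hu⟩ := by
    apply Subtype.ext
    simp [Algebra.smul_def]
  rw [h1, map_mul, ln_ob_red_algebraMap hR ⟨a, ha⟩]
  refine Prod.ext ?_ ?_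
  · rw [Prod.fst_mul, Prod.smul_fst, Algebra.smul_def]
  · rw [Prod.snd_mul, Prod.smul_snd, Algebra.smul_def]

theorem ln_ob_red_smul_nonunit (hR : R.IsTR) {a : K} (ha : a ∈ A.nonunits) {u : F}
    (hu : u ∈ R.O₁₂) (h : a • u ∈ R.O₁₂) : R.red₁₂ ⟨a • u, h⟩ = 0 := by
  have haA : a ∈ A := A.nonunits_subset ha
  rw [ln_ob_red_smul hR haA hu]
  have h1 : R.res ⟨a, haA⟩ = 0 := (hR.res_eq_zero_iff ⟨a, haA⟩).mpr ha
  rw [h1, zero_smul]

theorem ln_ob_red_sum (hR : R.IsTR) {ι : Type*} [Fintype ι] (a : ι → K) (ha : ∀ j, a j ∈ A)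
    (u : ι → F) (hu : ∀ j, u j ∈ R.O₁₂) (h : ∑ j, a j • u j ∈ R.O₁₂) :
    R.red₁₂ ⟨∑ j, a j • u j, h⟩ = ∑ j, R.res ⟨a j, ha j⟩ • R.red₁₂ ⟨u j, hu j⟩ := by
  have h1 : (⟨∑ j, a j • u j, h⟩ : R.O₁₂) =
      ∑ j, (⟨a j • u j, ln_ob_smul_mem hR (ha j) (hu j)⟩ : R.O₁₂) := by
    apply Subtype.ext
    rw [AddSubmonoidClass.coe_finsetSum]
  rw [h1, map_sum]
  exact Finset.sum_congr rfl fun j _ => ln_ob_red_smul hR (ha j) (hu j) _

/-- If the reductions of the `u j` are linearly independent, `b j ∈ A` and `b j₀ = 1`, then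
`Σ b j • u j` has a non-zero reduction. -/
theorem ln_ob_red_ne_zero (hR : R.IsTR) {ι : Type*} [Fintype ι] (u : ι → F)
    (hu : ∀ j, u j ∈ R.O₁₂) (hli : LinearIndependent k fun j => R.red₁₂ ⟨u j, hu j⟩)
    (b : ι → K) (hb : ∀ j, b j ∈ A) (j₀ : ι) (hj₀ : b j₀ = 1) (h : ∑ j, b j • u j ∈ R.O₁₂) :
    R.red₁₂ ⟨∑ j, b j • u j, h⟩ ≠ 0 := by
  intro h0
  rw [ln_ob_red_sum hR b hb u hu h] at h0
  have h1 := Fintype.linearIndependent_iff.mp hli _ h0 j₀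
  have h2 : (⟨b j₀, hb j₀⟩ : A) = 1 := Subtype.ext hj₀
  rw [h2, map_one] at h1
  exact one_ne_zero h1

/-- The coefficients of an element of `O₁ ∩ O₂` with respect to an orthonormal family lie in
`A`. -/
theorem ln_ob_coeff_mem (hR : R.IsTR) {ι : Type*} [Fintype ι] (u : ι → F)
    (hu : ∀ j, u j ∈ R.O₁₂) (hli : LinearIndependent k fun j => R.red₁₂ ⟨u j, hu j⟩)
    (a : ι → K) (h : ∑ j, a j • u j ∈ R.O₁₂) : ∀ j, a j ∈ A := by
  by_contra hne
  rw [not_forall] at hne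
  obtain ⟨j₁, hj₁⟩ := hne
  obtain ⟨j₀, h10, hmax⟩ := gao_normalise (A := A) a j₁
  have hj₀ : 1 < A.valuation (a j₀) :=
    lt_of_lt_of_le (by rwa [← not_le, A.valuation_le_one_iff]) h10
  have hpos : 0 < A.valuation (a j₀) := zero_lt_one.trans hj₀
  have ha0 : a j₀ ≠ 0 := (Valuation.ne_zero_iff _).mp hpos.ne'
  have hb : ∀ j, a j / a j₀ ∈ A := fun j => gao_div_mem (hmax j)
  have hsum := gao_sum_div a (a j₀) u
  have hinv : (a j₀)⁻¹ ∈ A.nonunits := by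
    rw [A.mem_nonunits_iff, map_inv₀]; exact inv_lt_one_of_one_lt₀ hj₀
  have hmem : ∑ j, (a j / a j₀) • u j ∈ R.O₁₂ :=
    sum_mem fun j _ => ln_ob_smul_mem hR (hb j) (hu j)
  refine ln_ob_red_ne_zero hR u hu hli _ hb j₀ (div_self ha0) hmem ?_
  have h1 : (⟨∑ j, (a j / a j₀) • u j, hmem⟩ : R.O₁₂) =
      ⟨(a j₀)⁻¹ • ∑ j, a j • u j, hsum ▸ hmem⟩ := Subtype.ext hsum
  rw [h1]
  exact ln_ob_red_smul_nonunit hR hinv h _

/-- An orthonormal family is linearly independent over `K`. -/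
theorem ln_ob_linearIndependent (hR : R.IsTR) {ι : Type*} [Fintype ι] (u : ι → F)
    (hu : ∀ j, u j ∈ R.O₁₂) (hli : LinearIndependent k fun j => R.red₁₂ ⟨u j, hu j⟩) :
    LinearIndependent K u := by
  rw [Fintype.linearIndependent_iff]
  intro a ha
  by_contra hne
  rw [not_forall] at hne
  obtain ⟨j₁, hj₁⟩ := hne
  obtain ⟨j₀, h10, hmax⟩ := gao_normalise (A := A) a j₁
  have hpos : 0 < A.valuation (a j₀) :=
    lt_of_lt_of_le (zero_lt_iff.mpr ((Valuation.ne_zero_iff _).mpr hj₁)) h10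
  have ha0 : a j₀ ≠ 0 := (Valuation.ne_zero_iff _).mp hpos.ne'
  have hb : ∀ j, a j / a j₀ ∈ A := fun j => gao_div_mem (hmax j)
  have hsum : ∑ j, (a j / a j₀) • u j = 0 := by
    rw [gao_sum_div, ha, smul_zero]
  have hmem : ∑ j, (a j / a j₀) • u j ∈ R.O₁₂ := hsum ▸ R.O₁₂.zero_mem
  refine ln_ob_red_ne_zero hR u hu hli _ hb j₀ (div_self ha0) hmem ?_
  have h1 : (⟨∑ j, (a j / a j₀) • u j, hmem⟩ : R.O₁₂) = 0 := Subtype.ext hsum
  rw [h1, map_zero]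

/-! ### Orthonormal bases whose reductions span -/

/-- an orthonormal basis of `L(D)` whose reductions are a basis of `L̄(r_* D)` -/
structure IsOB₂ (R : TRData K F k F₁ F₂ A) (D : Divisor K F) {n : ℕ} (e : Fin n → F) : Prop where
  memO : ∀ i, e i ∈ R.O₁₂
  span : Submodule.span K (Set.range e) = riemannRochSpace D
  li : LinearIndependent k (fun i => R.red₁₂ ⟨e i, memO i⟩)
  redMem : ∀ i, R.red₁₂ ⟨e i, memO i⟩ ∈ R.Lbar D
  redSpan : ∀ y ∈ R.Lbar D, ∃ c : Fin n → k, y = ∑ i, c i • R.red₁₂ ⟨e i, memO i⟩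

theorem exists_isOB₂ (hT : R.IsToric g) {D : Divisor K F} (hD : D ∈ R.smDiv)
    (hdim : (finrank k ↥(R.Lbar D) : ℤ) ≤ Divisor.degree D + 1 - g) :
    ∃ (n : ℕ) (e : Fin n → F), IsOB₂ R D e ∧ n = finrank k ↥(R.Lbar D) := by
  classical
  obtain ⟨n, e, h₁, h₂, hspan, hli, hmem⟩ := hT.orth D hD
  have he : ∀ i, e i ∈ R.O₁₂ := fun i => ⟨h₁ i, h₂ i⟩
  have hfin := ln_rr_Lbar_finite hT D
  have hli' : LinearIndependent k (fun i => R.red₁₂ ⟨e i, he i⟩) := hli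
  -- `n = dim L(D)`
  have hliK : LinearIndependent K e := ln_ob_linearIndependent hT.isTR e he hli'
  have hn : finrank K ↥(riemannRochSpace D) = n := by
    rw [← hspan, finrank_span_eq_card hliK, Fintype.card_fin]
  have hlow := hT.nice.lower D
  rw [hn] at hlow
  -- the reductions, in the subtype
  set eb : Fin n → ↥(R.Lbar D) := fun i => ⟨R.red₁₂ ⟨e i, he i⟩, hmem i⟩ with heb
  have hli'' : LinearIndependent k eb := by
    apply LinearIndependent.of_comp (Submodule.subtype _)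
    exact hli'
  have hle : n ≤ finrank k ↥(R.Lbar D) := by
    have := hli''.fintype_card_le_finrank
    simpa using this
  have hcard : n = finrank k ↥(R.Lbar D) := by
    have : (finrank k ↥(R.Lbar D) : ℤ) ≤ n := by linarith
    omega
  have htop : Submodule.span k (Set.range eb) = ⊤ :=
    hli''.span_eq_top_of_card_eq_finrank' (by rw [Fintype.card_fin]; exact hcard)
  refine ⟨n, e, ⟨he, hspan, hli', hmem, ?_⟩, hcard⟩
  intro y hy
  have hy' : (⟨y, hy⟩ : ↥(R.Lbar D)) ∈ Submodule.span k (Set.range eb) := by rw [htop]; trivial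
  obtain ⟨c, hc⟩ := (Submodule.mem_span_range_iff_exists_fun k).mp hy'
  refine ⟨c, ?_⟩
  have := congrArg Subtype.val hc
  simp only [heb, Submodule.coe_sum, Submodule.coe_smul] at this
  exact this.symm

namespace IsOB₂

variable {D : Divisor K F} {n : ℕ} {e : Fin n → F}

theorem mem_rr (h : IsOB₂ R D e) (i : Fin n) : e i ∈ riemannRochSpace D := by
  rw [← h.span]
  exact Submodule.subset_span ⟨i, rfl⟩

theorem comb_memO (hR : R.IsTR) (h : IsOB₂ R D e) (c : Fin n → A) : comb e c ∈ R.O₁₂ :=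
  sum_mem fun i _ => ln_ob_smul_mem hR (c i).2 (h.memO i)

theorem comb_mem_rr (h : IsOB₂ R D e) (c : Fin n → A) : comb e c ∈ riemannRochSpace D :=
  Submodule.sum_mem _ fun i _ => Submodule.smul_mem _ _ (h.mem_rr i)

theorem red_comb (hR : R.IsTR) (h : IsOB₂ R D e) (c : Fin n → A) :
    R.red₁₂ ⟨comb e c, h.comb_memO hR c⟩ = ∑ i, R.res (c i) • R.red₁₂ ⟨e i, h.memO i⟩ :=
  ln_ob_red_sum hR (fun i => ((c i : A) : K)) (fun i => (c i).2) e h.memO _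

theorem red_comb_mem (hR : R.IsTR) (h : IsOB₂ R D e) (c : Fin n → A) :
    R.red₁₂ ⟨comb e c, h.comb_memO hR c⟩ ∈ R.Lbar D := by
  rw [h.red_comb hR]
  exact Submodule.sum_mem _ fun i _ => Submodule.smul_mem _ _ (h.redMem i)

/-- the coefficients of an element of `L(D) ∩ O₁ ∩ O₂` are in `A` -/
theorem exists_coeff (hR : R.IsTR) (h : IsOB₂ R D e) {x : F} (hx : x ∈ riemannRochSpace D)
    (hxO : x ∈ R.O₁₂) : ∃ c : Fin n → A, x = comb e c := by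
  rw [← h.span] at hx
  obtain ⟨a, ha⟩ := (Submodule.mem_span_range_iff_exists_fun K).mp hx
  have hA : ∀ j, a j ∈ A := ln_ob_coeff_mem hR e h.memO h.li a (by rw [ha]; exact hxO)
  exact ⟨fun j => ⟨a j, hA j⟩, ha.symm⟩

/-- lifting an element of `L̄(r_* D)` -/
theorem exists_lift (hR : R.IsTR) (h : IsOB₂ R D e) {y : F₁ × F₂} (hy : y ∈ R.Lbar D) :
    ∃ c : Fin n → A, R.red₁₂ ⟨comb e c, h.comb_memO hR c⟩ = y := by
  obtain ⟨cb, hcb⟩ := h.redSpan y hy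
  choose c hc using fun i => hR.res_surjective (cb i)
  refine ⟨c, ?_⟩
  rw [h.red_comb hR, hcb]
  exact Finset.sum_congr rfl fun i _ => by rw [hc i]

/-- the reduction determines the coefficients modulo `𝔪` -/
theorem res_eq_of_red_eq (hR : R.IsTR) (h : IsOB₂ R D e) (c c' : Fin n → A)
    (hcc : R.red₁₂ ⟨comb e c, h.comb_memO hR c⟩ = R.red₁₂ ⟨comb e c', h.comb_memO hR c'⟩) :
    ∀ i, R.res (c i) = R.res (c' i) := by
  rw [h.red_comb hR, h.red_comb hR] at hcc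
  have h0 : ∑ i, (R.res (c i) - R.res (c' i)) • R.red₁₂ ⟨e i, h.memO i⟩ = 0 := by
    simp only [sub_smul, Finset.sum_sub_distrib, hcc, sub_self]
  intro i
  have := Fintype.linearIndependent_iff.mp h.li _ h0 i
  exact sub_eq_zero.mp this

/-- if the reduction vanishes, the coefficients are in `𝔪` -/
theorem coeff_nonunit (hR : R.IsTR) (h : IsOB₂ R D e) (c : Fin n → A)
    (h0 : R.red₁₂ ⟨comb e c, h.comb_memO hR c⟩ = 0) : ∀ i, ((c i : A) : K) ∈ A.nonunits := by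
  rw [h.red_comb hR] at h0
  intro i
  have := Fintype.linearIndependent_iff.mp h.li _ h0 i
  exact (hR.res_eq_zero_iff (c i)).mp this

/-- conversely -/
theorem red_eq_zero_of_nonunit (hR : R.IsTR) (h : IsOB₂ R D e) (c : Fin n → A)
    (hc : ∀ i, ((c i : A) : K) ∈ A.nonunits) : R.red₁₂ ⟨comb e c, h.comb_memO hR c⟩ = 0 := by
  rw [h.red_comb hR]
  refine Finset.sum_eq_zero fun i _ => ?_
  rw [(hR.res_eq_zero_iff (c i)).mpr (hc i), zero_smul]

/-- normalisation: if `red (comb α) = 1`, `α a₁` is a unit, `v a₁ ∈ 𝔪` and `red (comb v)` is a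
constant, then `red (comb v) = 0`. -/
theorem red_eq_zero_of_const (hR : R.IsTR) (h : IsOB₂ R D e) (α v : Fin n → A)
    (hα : R.red₁₂ ⟨comb e α, h.comb_memO hR α⟩ = 1)
    (a₁ : Fin n) (ha₁ : ((α a₁ : A) : K) ∉ A.nonunits) (hv₁ : ((v a₁ : A) : K) ∈ A.nonunits)
    (c : k) (hc : R.red₁₂ ⟨comb e v, h.comb_memO hR v⟩ = (algebraMap k F₁ c, algebraMap k F₂ c)) :
    R.red₁₂ ⟨comb e v, h.comb_memO hR v⟩ = 0 := by
  have hc' : R.red₁₂ ⟨comb e v, h.comb_memO hR v⟩ = c • (1 : F₁ × F₂) := by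
    rw [hc]
    exact Prod.ext (Algebra.algebraMap_eq_smul_one c) (Algebra.algebraMap_eq_smul_one c)
  have h1 : ∑ i, (R.res (v i) - c * R.res (α i)) • R.red₁₂ ⟨e i, h.memO i⟩ = 0 := by
    have e1 := h.red_comb hR v
    have e2 := h.red_comb hR α
    rw [hc'] at e1
    rw [hα] at e2
    simp only [sub_smul, mul_smul, Finset.sum_sub_distrib, ← Finset.smul_sum, ← e1, ← e2]
    rw [sub_self]
  have h2 := Fintype.linearIndependent_iff.mp h.li _ h1 a₁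
  rw [(hR.res_eq_zero_iff (v a₁)).mpr hv₁, zero_sub, neg_eq_zero] at h2
  have h3 : R.res (α a₁) ≠ 0 := fun h0 => ha₁ ((hR.res_eq_zero_iff (α a₁)).mp h0)
  have hc0 : c = 0 := (mul_eq_zero.mp h2).resolve_right h3
  rw [hc', hc0, zero_smul]

/-- a combination with reduction `1` has a unit coefficient -/
theorem exists_unit_coeff (hR : R.IsTR) (h : IsOB₂ R D e) (α : Fin n → A)
    (hα : R.red₁₂ ⟨comb e α, h.comb_memO hR α⟩ = 1) :
    ∃ a₁ : Fin n, ((α a₁ : A) : K) ∉ A.nonunits := by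
  by_contra hne
  rw [not_exists] at hne
  have := h.red_eq_zero_of_nonunit hR α fun i => not_not.mp (hne i)
  rw [hα] at this
  exact one_ne_zero this

end IsOB₂

/-- `L(D) ∩ O₁ ∩ O₂` -/
def lnLatticeSub (R : TRData K F k F₁ F₂ A) (D : Divisor K F) : AddSubgroup F where
  carrier := {x | x ∈ riemannRochSpace D ∧ x ∈ R.O₁₂}
  zero_mem' := ⟨Submodule.zero_mem _, R.O₁₂.zero_mem⟩
  add_mem' := fun hx hy => ⟨Submodule.add_mem _ hx.1 hy.1, R.O₁₂.add_mem hx.2 hy.2⟩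
  neg_mem' := fun hx => ⟨Submodule.neg_mem _ hx.1, R.O₁₂.neg_mem hx.2⟩

theorem ln_ob_res_eq_of_sub_nonunit (hR : R.IsTR) {a b : A}
    (h : ((b - a : A) : K) ∈ A.nonunits) : R.res b = R.res a := by
  have := (hR.res_eq_zero_iff (b - a)).mpr h
  rwa [map_sub, sub_eq_zero] at this

/-- orthonormal bases for the divisors of smooth type with `deg r_{1*} D ≥ g`,
`deg r_{2*} D ≥ −1` (they are non-special on the nodal curve) -/
theorem ln_ob_exists₁ (hT : R.IsToric g) {D : Divisor K F} (hD : D ∈ R.smDiv)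
    (hd₁ : (g : ℤ) ≤ Divisor.degree (R.push₁ D)) (hd₂ : -1 ≤ Divisor.degree (R.push₂ D)) :
    ∃ (n : ℕ) (e : Fin n → F), IsOB₂ R D e ∧ (n : ℤ) = Divisor.degree D + 1 - g := by
  have h1 := ln_rr_Lbar_finrank_smDiv₁ hT hD hd₁ hd₂
  obtain ⟨n, e, he, hn⟩ := exists_isOB₂ hT hD h1.le
  exact ⟨n, e, he, by rw [hn, h1]⟩

end Fermat.Agent.S15.LN
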