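import Fermat.Agent.S15.LNBasic

/-!
# S15 block LOCAL-N, piece LN-RR (helper10): Riemann–Roch on the nodal curve

`k` a field, `F₁`, `F₂` two function fields of genus `0` over `k` (`IsNiceCurve k F_i 0`),
`X` a finite set of pairs (point of `C₁`, point of `C₂`): the crossing points of the nodal curve
`C₁ ∪ C₂`, of arithmetic genus `g = #X − 1`.

* `lnVal P f` : the value of `f` at the place `P` (`0` if `f` has a pole);
  `lnEvalRR` : evaluation at `P` as a linear form on `L(E)`, `E P ≤ 0`.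
* `ln_rr_finrank_genus0` : `dim L(E) = deg E + 1` for `deg E ≥ −1` on a curve of genus `0`.
* `ln_rr_mem_sub_gpSum` : `L(E − ΣS)` = the functions of `L(E)` vanishing on `S`.
* `ln_rr_interp` : **Lagrange interpolation** on a curve of genus `0`: prescribed values on `S`
  inside `L(E)`, if `E = 0` on `S` and `#S ≤ deg E + 1`.
* `lnLbar X E₁ E₂` : the glued Riemann–Roch space `L̄(E₁, E₂)`; `ln_rr_Lbar_eq` :
  `R.Lbar D = lnLbar R.X (r_{1*} D) (r_{2*} D)`.
* `IsNodal X g` : the hypotheses; `ln_rr_isNodal` : they hold for `R.IsToric g`.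
* `ln_rr_finite`, `ln_rr_lower` : `deg E₁ + deg E₂ + 1 − g ≤ dim L̄(E)` (`E` away from `X`);
* `ln_rr_upper₁`, `ln_rr_upper₂`, `ln_rr_finrank₁`, `ln_rr_finrank₂` : equality if
  `deg E₁ ≥ g`, `deg E₂ ≥ −1` (resp. with the components exchanged).
-/

set_option autoImplicit false
set_option linter.unusedSectionVars false
set_option linter.unusedVariables false
set_option linter.style.haveILetI false

noncomputable section

open AlgebraicCurve Module

namespace Fermat.Agent.S15.LN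

open Fermat.Agent.W1 Fermat.Agent.S24 Fermat.Agent.ES.R

open scoped Classical

/-! ### One curve -/

section Curve

variable {k F : Type} [Field k] [Field F] [Algebra k F]

theorem ln_rr_single_nonneg (v₀ : Place k F) (n : ℕ) :
    (0 : Divisor k F) ≤ Finsupp.single v₀ (n : ℤ) := by
  rw [Finsupp.le_def]
  intro v
  by_cases hv : v = v₀
  · subst hv; simp
  · simp [Finsupp.single_eq_of_ne (Ne.symm (Ne.symm hv))]

/-- on a curve with places of degree one: `dim L(E) ≤ deg E + 1` if `deg E ≥ -1` -/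
theorem ln_rr_finrank_le_degree [HasPrincipalDivisors k F]
    (hres : ∀ v : Place k F, Function.Bijective (algebraMap k v.ResidueField))
    (v₀ : Place k F) (E : Divisor k F) (hE : -1 ≤ Divisor.degree E) :
    (finrank k ↥(riemannRochSpace E) : ℤ) ≤ Divisor.degree E + 1 := by
  set n : ℕ := (Divisor.degree E + 1).toNat with hn
  have hn' : (n : ℤ) = Divisor.degree E + 1 := Int.toNat_of_nonneg (by linarith)
  set A : Divisor k F := E - Finsupp.single v₀ (n : ℤ) with hA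
  have hAE : A ≤ E := by
    rw [hA]
    exact sub_le_self _ (ln_rr_single_nonneg v₀ n)
  have hdegA : Divisor.degree A = -1 := by
    rw [hA, map_sub, Divisor.degree_single, place_deg_eq_one v₀ (hres v₀), hn']
    push_cast
    ring
  have h0 : riemannRochSpace A = ⊥ := rr_eq_bot_of_degree_neg (by rw [hdegA]; norm_num)
  have h1 := rr_finrank_le hres hAE
  rw [h0, finrank_bot, hdegA] at h1
  push_cast at h1
  linarith

/-- **Riemann–Roch in genus `0`**: `dim L(E) = deg E + 1` if `deg E ≥ -1` -/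
theorem ln_rr_finrank_genus0 (hF : IsNiceCurve k F 0) (E : Divisor k F)
    (hE : -1 ≤ Divisor.degree E) :
    (finrank k ↥(riemannRochSpace E) : ℤ) = Divisor.degree E + 1 := by
  haveI := hF.hpd
  obtain ⟨v₀, -⟩ := hF.infinite.nonempty
  have h1 := ln_rr_finrank_le_degree hF.hres v₀ E hE
  have h2 := hF.lower E
  push_cast at h2
  linarith

theorem ln_rr_finite_genus0 (hF : IsNiceCurve k F 0) (E : Divisor k F) :
    Module.Finite k ↥(riemannRochSpace E) := by
  haveI := hF.hpd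
  obtain ⟨v₀, -⟩ := hF.infinite.nonempty
  exact rr_finite v₀ hF.hres E

/-! #### Values -/

/-- the value of `f` at `P` (`0` if there is none) -/
def lnVal (P : Place k F) (f : F) : k :=
  if h : ∃ a : k, HasValueAt P f a then h.choose else 0

theorem ln_rr_val_eq {P : Place k F} {f : F} {a : k} (h : HasValueAt P f a) :
    lnVal P f = a := by
  unfold lnVal
  have h' : ∃ a : k, HasValueAt P f a := ⟨a, h⟩
  rw [dif_pos h']
  exact hasValueAt_unique P h'.choose_spec h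

theorem ln_rr_hasValueAt_val {P : Place k F}
    (hres : Function.Bijective (algebraMap k P.ResidueField)) {f : F}
    (hf : f ∈ P.toValuationSubring) : HasValueAt P f (lnVal P f) := by
  obtain ⟨a, ha⟩ := ge_exists_value P hres hf
  rw [ln_rr_val_eq ha]
  exact ha

theorem ln_rr_mem_of_rr {P : Place k F} {E : Divisor k F} (hE : E P ≤ 0) {f : F}
    (hf : f ∈ riemannRochSpace E) : f ∈ P.toValuationSubring := by
  rcases mem_riemannRochSpace_iff.mp hf P with h | h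
  · rw [h]; exact zero_mem _
  · exact PlaceAux.mem_of_ord_nonneg P (by linarith)

theorem ln_rr_hasValueAt_of_rr {P : Place k F}
    (hres : Function.Bijective (algebraMap k P.ResidueField)) {E : Divisor k F} (hE : E P ≤ 0)
    {f : F} (hf : f ∈ riemannRochSpace E) : HasValueAt P f (lnVal P f) :=
  ln_rr_hasValueAt_val hres (ln_rr_mem_of_rr hE hf)

/-- evaluation at `P` as a linear form on `L(E)`, `E P ≤ 0` -/
def lnEvalRR (P : Place k F) (hres : Function.Bijective (algebraMap k P.ResidueField))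
    (E : Divisor k F) (hE : E P ≤ 0) : ↥(riemannRochSpace E) →ₗ[k] k where
  toFun f := lnVal P (f : F)
  map_add' f g := ln_rr_val_eq (ln_hasValueAt_add (ln_rr_hasValueAt_of_rr hres hE f.2)
    (ln_rr_hasValueAt_of_rr hres hE g.2))
  map_smul' c f := ln_rr_val_eq (ln_hasValueAt_smul c (ln_rr_hasValueAt_of_rr hres hE f.2))

theorem lnEvalRR_apply (P : Place k F) (hres : Function.Bijective (algebraMap k P.ResidueField))
    (E : Divisor k F) (hE : E P ≤ 0) (f : ↥(riemannRochSpace E)) :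
    lnEvalRR P hres E hE f = lnVal P (f : F) := rfl

theorem ln_rr_hasValueAt_zero_iff (P : Place k F) {f : F} :
    HasValueAt P f 0 ↔ f = 0 ∨ 0 < P.ord f := by
  unfold HasValueAt
  rw [map_zero, sub_zero]
  constructor
  · intro h
    by_cases hf : f = 0
    · exact Or.inl hf
    · exact Or.inr ((PlaceAux.ord_pos_iff_mem_nonunits P hf).mpr h)
  · rintro (rfl | h)
    · exact ge_zero_mem_nonunits _
    · have hf : f ≠ 0 := by
        rintro rfl
        simp at h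
      exact (PlaceAux.ord_pos_iff_mem_nonunits P hf).mp h

/-- `L(E − ΣS)` is the space of the functions of `L(E)` vanishing on `S` (`E = 0` on `S`) -/
theorem ln_rr_mem_sub_gpSum {E : Divisor k F} {S : Finset (Place k F)}
    (hE : ∀ s ∈ S, E s = 0) {f : F} :
    f ∈ riemannRochSpace (E - gpSum S) ↔
      f ∈ riemannRochSpace E ∧ ∀ s ∈ S, HasValueAt s f 0 := by
  constructor
  · intro h
    refine ⟨rr_mono (sub_le_self _ (gpSum_nonneg S)) h, fun s hs => ?_⟩
    rw [ln_rr_hasValueAt_zero_iff]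
    rcases mem_riemannRochSpace_iff.mp h s with h0 | h1
    · exact Or.inl h0
    · right
      rw [Finsupp.sub_apply, hE s hs, gpSum_apply_of_mem hs] at h1
      linarith
  · rintro ⟨h, hS⟩
    rw [mem_riemannRochSpace_iff]
    intro v
    by_cases hv : v ∈ S
    · rcases (ln_rr_hasValueAt_zero_iff v).mp (hS v hv) with h0 | h1
      · exact Or.inl h0
      · right
        rw [Finsupp.sub_apply, hE v hv, gpSum_apply_of_mem hv]
        linarith
    · rcases mem_riemannRochSpace_iff.mp h v with h0 | h1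
      · exact Or.inl h0
      · right
        rw [Finsupp.sub_apply, gpSum_apply_of_not_mem hv, sub_zero]
        exact h1

/-! #### Interpolation -/

/-- the evaluation map `L(E) → k^S` -/
def lnEvalS (hres : ∀ v : Place k F, Function.Bijective (algebraMap k v.ResidueField))
    (E : Divisor k F) (S : Finset (Place k F)) (hE : ∀ s ∈ S, E s = 0) :
    ↥(riemannRochSpace E) →ₗ[k] (↥S → k) :=
  LinearMap.pi fun s => lnEvalRR s.1 (hres s.1) E (le_of_eq (hE s.1 s.2))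

theorem ln_rr_ker_evalS (hres : ∀ v : Place k F, Function.Bijective (algebraMap k v.ResidueField))
    (E : Divisor k F) (S : Finset (Place k F)) (hE : ∀ s ∈ S, E s = 0) :
    (LinearMap.ker (lnEvalS hres E S hE)).map (riemannRochSpace E).subtype =
      riemannRochSpace (E - gpSum S) := by
  ext f
  rw [Submodule.mem_map, ln_rr_mem_sub_gpSum hE]
  constructor
  · rintro ⟨y, hy, rfl⟩
    refine ⟨y.2, fun s hs => ?_⟩
    rw [LinearMap.mem_ker] at hy
    have h1 : lnEvalS hres E S hE y ⟨s, hs⟩ = 0 := by rw [hy]; rfl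
    have h2 := ln_rr_hasValueAt_of_rr (hres s) (le_of_eq (hE s hs)) y.2
    have h3 : lnVal s (y : F) = 0 := h1
    rw [h3] at h2
    exact h2
  · rintro ⟨hf, hS⟩
    refine ⟨⟨f, hf⟩, ?_, rfl⟩
    rw [LinearMap.mem_ker]
    funext s
    show lnVal s.1 f = 0
    exact ln_rr_val_eq (hS s.1 s.2)

/-- **Lagrange interpolation** on a curve of genus `0` -/
theorem ln_rr_interp (hF : IsNiceCurve k F 0) (E : Divisor k F) (S : Finset (Place k F))
    (hE : ∀ s ∈ S, E s = 0) (hdeg : (S.card : ℤ) ≤ Divisor.degree E + 1) (c : Place k F → k) :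
    ∃ f ∈ riemannRochSpace E, ∀ s ∈ S, HasValueAt s f (c s) := by
  haveI := hF.hpd
  haveI := ln_rr_finite_genus0 hF E
  set Φ := lnEvalS hF.hres E S hE with hΦ
  have hdS : Divisor.degree (gpSum S) = S.card := degree_gpSum hF.hres S
  have h1 := ln_rr_finrank_genus0 hF E (by
    have : (0 : ℤ) ≤ S.card := Int.natCast_nonneg _
    linarith)
  have h2 := ln_rr_finrank_genus0 hF (E - gpSum S) (by rw [map_sub, hdS]; linarith)
  rw [map_sub, hdS] at h2
  have h3 : finrank k ↥(LinearMap.ker Φ) = finrank k ↥(riemannRochSpace (E - gpSum S)) := by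
    rw [← ln_rr_ker_evalS hF.hres E S hE, Submodule.finrank_map_subtype_eq]
  have h4 := LinearMap.finrank_range_add_finrank_ker Φ
  have h5 : finrank k ↥(LinearMap.range Φ) = S.card := by
    have : ((finrank k ↥(LinearMap.range Φ) : ℕ) : ℤ) = S.card := by
      have h4' : ((finrank k ↥(LinearMap.range Φ) : ℕ) : ℤ) + finrank k ↥(LinearMap.ker Φ)
          = finrank k ↥(riemannRochSpace E) := by exact_mod_cast h4
      rw [h3, h2, h1] at h4'
      linarith
    exact_mod_cast this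
  have h6 : LinearMap.range Φ = ⊤ := by
    apply Submodule.eq_top_of_finrank_eq
    rw [h5, Module.finrank_fintype_fun_eq_card, Fintype.card_coe]
  have h7 : (fun s : ↥S => c s.1) ∈ LinearMap.range Φ := by rw [h6]; exact Submodule.mem_top
  obtain ⟨f, hf⟩ := h7
  refine ⟨f.1, f.2, fun s hs => ?_⟩
  have h8 := ln_rr_hasValueAt_of_rr (hF.hres s) (le_of_eq (hE s hs)) f.2
  have h9 : lnVal s (f : F) = c s := congrFun hf ⟨s, hs⟩
  rw [h9] at h8
  exact h8

end Curve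

/-! ### The nodal curve -/

section Nodal

variable {k F₁ F₂ : Type} [Field k] [Field F₁] [Algebra k F₁] [Field F₂] [Algebra k F₂]

/-- regular at every crossing point with the same value on both branches
(`R.Glued` is `lnGlued R.X`) -/
def lnGlued (X : Finset (Place k F₁ × Place k F₂)) (f₁ : F₁) (f₂ : F₂) : Prop :=
  ∀ x ∈ X, ∃ a : k, HasValueAt x.1 f₁ a ∧ HasValueAt x.2 f₂ a

/-- the glued Riemann–Roch space `L̄(E₁, E₂)` of the nodal curve -/
def lnLbar (X : Finset (Place k F₁ × Place k F₂)) (E₁ : Divisor k F₁) (E₂ : Divisor k F₂) :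
    Submodule k (F₁ × F₂) where
  carrier := {f | f.1 ∈ riemannRochSpace E₁ ∧ f.2 ∈ riemannRochSpace E₂ ∧ lnGlued X f.1 f.2}
  zero_mem' := ⟨Submodule.zero_mem _, Submodule.zero_mem _,
    fun x _ => ⟨0, ln_hasValueAt_zero x.1, ln_hasValueAt_zero x.2⟩⟩
  add_mem' := by
    rintro f f' ⟨h1, h2, h3⟩ ⟨h1', h2', h3'⟩
    refine ⟨Submodule.add_mem _ h1 h1', Submodule.add_mem _ h2 h2', fun x hx => ?_⟩
    obtain ⟨a, ha1, ha2⟩ := h3 x hx
    obtain ⟨b, hb1, hb2⟩ := h3' x hx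
    exact ⟨a + b, ln_hasValueAt_add ha1 hb1, ln_hasValueAt_add ha2 hb2⟩
  smul_mem' := by
    rintro c f ⟨h1, h2, h3⟩
    refine ⟨Submodule.smul_mem _ c h1, Submodule.smul_mem _ c h2, fun x hx => ?_⟩
    obtain ⟨a, ha1, ha2⟩ := h3 x hx
    exact ⟨c * a, ln_hasValueAt_smul c ha1, ln_hasValueAt_smul c ha2⟩

theorem ln_rr_mem_lnLbar {X : Finset (Place k F₁ × Place k F₂)} {E₁ : Divisor k F₁}
    {E₂ : Divisor k F₂} {f : F₁ × F₂} :
    f ∈ lnLbar X E₁ E₂ ↔ f.1 ∈ riemannRochSpace E₁ ∧ f.2 ∈ riemannRochSpace E₂ ∧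
      ∀ x ∈ X, ∃ a : k, HasValueAt x.1 f.1 a ∧ HasValueAt x.2 f.2 a := Iff.rfl

/-- the hypotheses on the nodal curve: two components of genus `0` crossing at `g + 1` points -/
structure IsNodal (X : Finset (Place k F₁ × Place k F₂)) (g : ℕ) : Prop where
  nice₁ : IsNiceCurve k F₁ 0
  nice₂ : IsNiceCurve k F₂ 0
  inj₁ : ∀ x ∈ X, ∀ y ∈ X, x.1 = y.1 → x = y
  inj₂ : ∀ x ∈ X, ∀ y ∈ X, x.2 = y.2 → x = y
  card : X.card = g + 1

/-- the crossing points on the first component -/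
def lnX₁ (X : Finset (Place k F₁ × Place k F₂)) : Finset (Place k F₁) := X.image Prod.fst

/-- the crossing points on the second component -/
def lnX₂ (X : Finset (Place k F₁ × Place k F₂)) : Finset (Place k F₂) := X.image Prod.snd

theorem ln_rr_mem_X₁ {X : Finset (Place k F₁ × Place k F₂)} {Q : Place k F₁} :
    Q ∈ lnX₁ X ↔ ∃ x ∈ X, x.1 = Q := by
  unfold lnX₁
  rw [Finset.mem_image]

theorem ln_rr_mem_X₂ {X : Finset (Place k F₁ × Place k F₂)} {Q : Place k F₂} :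
    Q ∈ lnX₂ X ↔ ∃ x ∈ X, x.2 = Q := by
  unfold lnX₂
  rw [Finset.mem_image]

variable {X : Finset (Place k F₁ × Place k F₂)} {g : ℕ}

theorem IsNodal.card_X₁ (h : IsNodal X g) : (lnX₁ X).card = g + 1 := by
  unfold lnX₁
  rw [Finset.card_image_of_injOn, h.card]
  intro x hx y hy hxy
  exact h.inj₁ x hx y hy hxy

theorem IsNodal.card_X₂ (h : IsNodal X g) : (lnX₂ X).card = g + 1 := by
  unfold lnX₂
  rw [Finset.card_image_of_injOn, h.card]
  intro x hx y hy hxy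
  exact h.inj₂ x hx y hy hxy

theorem IsNodal.symm (h : IsNodal X g) :
    IsNodal (X.map ⟨Prod.swap, Prod.swap_injective⟩) g where
  nice₁ := h.nice₂
  nice₂ := h.nice₁
  inj₁ := by
    intro x hx y hy hxy
    rw [Finset.mem_map] at hx hy
    obtain ⟨x', hx', rfl⟩ := hx
    obtain ⟨y', hy', rfl⟩ := hy
    have := h.inj₂ x' hx' y' hy' hxy
    rw [this]
  inj₂ := by
    intro x hx y hy hxy
    rw [Finset.mem_map] at hx hy
    obtain ⟨x', hx', rfl⟩ := hx
    obtain ⟨y', hy', rfl⟩ := hy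
    have := h.inj₁ x' hx' y' hy' hxy
    rw [this]
  card := by rw [Finset.card_map, h.card]

/-- exchanging the two components -/
def lnSwap (k F₁ F₂ : Type) [Field k] [Field F₁] [Algebra k F₁] [Field F₂] [Algebra k F₂] :
    (F₁ × F₂) ≃ₗ[k] (F₂ × F₁) :=
  LinearEquiv.prodComm k F₁ F₂

theorem ln_rr_map_swap (X : Finset (Place k F₁ × Place k F₂)) (E₁ : Divisor k F₁)
    (E₂ : Divisor k F₂) :
    (lnLbar X E₁ E₂).map (lnSwap k F₁ F₂).toLinearMap =
      lnLbar (X.map ⟨Prod.swap, Prod.swap_injective⟩) E₂ E₁ := by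
  ext f
  rw [Submodule.mem_map]
  constructor
  · rintro ⟨y, ⟨h1, h2, h3⟩, rfl⟩
    refine ⟨h2, h1, fun x hx => ?_⟩
    rw [Finset.mem_map] at hx
    obtain ⟨x', hx', rfl⟩ := hx
    obtain ⟨a, ha1, ha2⟩ := h3 x' hx'
    exact ⟨a, ha2, ha1⟩
  · rintro ⟨h1, h2, h3⟩
    refine ⟨(f.2, f.1), ⟨h2, h1, fun x hx => ?_⟩, rfl⟩
    obtain ⟨a, ha1, ha2⟩ := h3 (Prod.swap x) (by
      rw [Finset.mem_map]
      exact ⟨x, hx, rfl⟩)
    exact ⟨a, ha2, ha1⟩

theorem ln_rr_finrank_swap (X : Finset (Place k F₁ × Place k F₂)) (E₁ : Divisor k F₁)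
    (E₂ : Divisor k F₂) :
    finrank k ↥(lnLbar (X.map ⟨Prod.swap, Prod.swap_injective⟩) E₂ E₁) =
      finrank k ↥(lnLbar X E₁ E₂) := by
  rw [← ln_rr_map_swap]
  exact (Submodule.equivMapOfInjective _ (lnSwap k F₁ F₂).injective _).finrank_eq.symm

/-- the embedding of `L(E₁) × L(E₂)` -/
def lnIncl (E₁ : Divisor k F₁) (E₂ : Divisor k F₂) :
    (↥(riemannRochSpace E₁) × ↥(riemannRochSpace E₂)) →ₗ[k] (F₁ × F₂) :=
  (riemannRochSpace E₁).subtype.prodMap (riemannRochSpace E₂).subtype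

theorem lnIncl_injective (E₁ : Divisor k F₁) (E₂ : Divisor k F₂) :
    Function.Injective (lnIncl E₁ E₂) := by
  intro a b hab
  have h1 : (a.1 : F₁) = b.1 := congrArg Prod.fst hab
  have h2 : (a.2 : F₂) = b.2 := congrArg Prod.snd hab
  exact Prod.ext (Subtype.ext h1) (Subtype.ext h2)

/-- the difference of the values at the crossing points, on `L(E₁) × L(E₂)` -/
def lnDiff (hres₁ : ∀ v : Place k F₁, Function.Bijective (algebraMap k v.ResidueField))
    (hres₂ : ∀ v : Place k F₂, Function.Bijective (algebraMap k v.ResidueField))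
    (X : Finset (Place k F₁ × Place k F₂)) (E₁ : Divisor k F₁) (E₂ : Divisor k F₂)
    (h₁ : ∀ x ∈ X, E₁ x.1 ≤ 0) (h₂ : ∀ x ∈ X, E₂ x.2 ≤ 0) :
    (↥(riemannRochSpace E₁) × ↥(riemannRochSpace E₂)) →ₗ[k] (↥X → k) :=
  LinearMap.pi fun x =>
    (lnEvalRR x.1.1 (hres₁ _) E₁ (h₁ x.1 x.2)).comp (LinearMap.fst k _ _) -
      (lnEvalRR x.1.2 (hres₂ _) E₂ (h₂ x.1 x.2)).comp (LinearMap.snd k _ _)

theorem lnDiff_apply (hres₁ : ∀ v : Place k F₁, Function.Bijective (algebraMap k v.ResidueField))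
    (hres₂ : ∀ v : Place k F₂, Function.Bijective (algebraMap k v.ResidueField))
    (X : Finset (Place k F₁ × Place k F₂)) (E₁ : Divisor k F₁) (E₂ : Divisor k F₂)
    (h₁ : ∀ x ∈ X, E₁ x.1 ≤ 0) (h₂ : ∀ x ∈ X, E₂ x.2 ≤ 0)
    (f : ↥(riemannRochSpace E₁) × ↥(riemannRochSpace E₂)) (x : ↥X) :
    lnDiff hres₁ hres₂ X E₁ E₂ h₁ h₂ f x = lnVal x.1.1 (f.1 : F₁) - lnVal x.1.2 (f.2 : F₂) :=
  rfl

theorem ln_rr_ker_diff
    (hres₁ : ∀ v : Place k F₁, Function.Bijective (algebraMap k v.ResidueField))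
    (hres₂ : ∀ v : Place k F₂, Function.Bijective (algebraMap k v.ResidueField))
    (X : Finset (Place k F₁ × Place k F₂)) (E₁ : Divisor k F₁) (E₂ : Divisor k F₂)
    (h₁ : ∀ x ∈ X, E₁ x.1 ≤ 0) (h₂ : ∀ x ∈ X, E₂ x.2 ≤ 0) :
    (LinearMap.ker (lnDiff hres₁ hres₂ X E₁ E₂ h₁ h₂)).map (lnIncl E₁ E₂) = lnLbar X E₁ E₂ := by
  ext f
  rw [Submodule.mem_map]
  constructor
  · rintro ⟨y, hy, rfl⟩
    refine ⟨y.1.2, y.2.2, fun x hx => ?_⟩
    rw [LinearMap.mem_ker] at hy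
    have h := congrFun hy ⟨x, hx⟩
    rw [lnDiff_apply] at h
    have h' : lnVal x.1 (y.1 : F₁) = lnVal x.2 (y.2 : F₂) := sub_eq_zero.mp h
    refine ⟨lnVal x.1 (y.1 : F₁), ln_rr_hasValueAt_of_rr (hres₁ _) (h₁ x hx) y.1.2, ?_⟩
    rw [h']
    exact ln_rr_hasValueAt_of_rr (hres₂ _) (h₂ x hx) y.2.2
  · rintro ⟨hf1, hf2, hg⟩
    refine ⟨(⟨f.1, hf1⟩, ⟨f.2, hf2⟩), ?_, rfl⟩
    rw [LinearMap.mem_ker]
    funext x
    rw [lnDiff_apply]
    obtain ⟨a, ha1, ha2⟩ := hg x.1 x.2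
    show lnVal x.1.1 f.1 - lnVal x.1.2 f.2 = 0
    rw [ln_rr_val_eq ha1, ln_rr_val_eq ha2, sub_self]

theorem ln_rr_Lbar_le_prod (X : Finset (Place k F₁ × Place k F₂)) (E₁ : Divisor k F₁)
    (E₂ : Divisor k F₂) :
    lnLbar X E₁ E₂ ≤ LinearMap.range (lnIncl E₁ E₂) := by
  rintro f ⟨h1, h2, -⟩
  exact ⟨(⟨f.1, h1⟩, ⟨f.2, h2⟩), rfl⟩

theorem ln_rr_finite (h : IsNodal X g) (E₁ : Divisor k F₁) (E₂ : Divisor k F₂) :
    Module.Finite k ↥(lnLbar X E₁ E₂) := by
  haveI := ln_rr_finite_genus0 h.nice₁ E₁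
  haveI := ln_rr_finite_genus0 h.nice₂ E₂
  haveI : Module.Finite k ↥(LinearMap.range (lnIncl (k := k) E₁ E₂)) :=
    Module.Finite.range _
  exact Submodule.finiteDimensional_of_le (ln_rr_Lbar_le_prod X E₁ E₂)

/-- **Riemann's inequality on the nodal curve** -/
theorem ln_rr_lower (h : IsNodal X g) (E₁ : Divisor k F₁) (E₂ : Divisor k F₂)
    (h₁ : ∀ x ∈ X, E₁ x.1 ≤ 0) (h₂ : ∀ x ∈ X, E₂ x.2 ≤ 0) :
    Divisor.degree E₁ + Divisor.degree E₂ + 1 - g ≤ (finrank k ↥(lnLbar X E₁ E₂) : ℤ) := by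
  haveI := ln_rr_finite_genus0 h.nice₁ E₁
  haveI := ln_rr_finite_genus0 h.nice₂ E₂
  set Φ := lnDiff h.nice₁.hres h.nice₂.hres X E₁ E₂ h₁ h₂ with hΦ
  have h3 : finrank k ↥(lnLbar X E₁ E₂) = finrank k ↥(LinearMap.ker Φ) := by
    rw [← ln_rr_ker_diff h.nice₁.hres h.nice₂.hres X E₁ E₂ h₁ h₂]
    exact (Submodule.equivMapOfInjective _ (lnIncl_injective E₁ E₂) _).finrank_eq.symm
  have h4 := LinearMap.finrank_range_add_finrank_ker Φ
  rw [Module.finrank_prod] at h4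
  have h5 : finrank k ↥(LinearMap.range Φ) ≤ g + 1 := by
    have := Submodule.finrank_le (LinearMap.range Φ)
    rw [Module.finrank_fintype_fun_eq_card, Fintype.card_coe, h.card] at this
    exact this
  have h6 := h.nice₁.lower E₁
  have h7 := h.nice₂.lower E₂
  push_cast at h6 h7
  rw [h3]
  have h4' : ((finrank k ↥(LinearMap.range Φ) : ℕ) : ℤ) + finrank k ↥(LinearMap.ker Φ)
      = finrank k ↥(riemannRochSpace E₁) + finrank k ↥(riemannRochSpace E₂) := by
    exact_mod_cast h4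
  have h5' : ((finrank k ↥(LinearMap.range Φ) : ℕ) : ℤ) ≤ g + 1 := by exact_mod_cast h5
  linarith

/-- the functions of `L̄(E₁, E₂)` with `f₂ = 0` -/
theorem ln_rr_fst_mem_of_snd_eq_zero (h : IsNodal X g) {E₁ : Divisor k F₁} {E₂ : Divisor k F₂}
    (h₁ : ∀ x ∈ X, E₁ x.1 = 0) {f : F₁ × F₂} (hf : f ∈ lnLbar X E₁ E₂) (hf2 : f.2 = 0) :
    f.1 ∈ riemannRochSpace (E₁ - gpSum (lnX₁ X)) := by
  obtain ⟨hf1, -, hg⟩ := hf
  rw [ln_rr_mem_sub_gpSum (fun s hs => by
    obtain ⟨x, hx, rfl⟩ := ln_rr_mem_X₁.mp hs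
    exact h₁ x hx)]
  refine ⟨hf1, fun s hs => ?_⟩
  obtain ⟨x, hx, rfl⟩ := ln_rr_mem_X₁.mp hs
  obtain ⟨a, ha1, ha2⟩ := hg x hx
  rw [hf2] at ha2
  have ha : a = 0 := hasValueAt_unique x.2 ha2 (ln_hasValueAt_zero x.2)
  rw [ha] at ha1
  exact ha1

/-- **the upper bound**: `dim L̄(E₁, E₂) ≤ dim L(E₁ − ΣX₁) + dim L(E₂)` -/
theorem ln_rr_finrank_le_add (h : IsNodal X g) (E₁ : Divisor k F₁) (E₂ : Divisor k F₂)
    (h₁ : ∀ x ∈ X, E₁ x.1 = 0) :
    finrank k ↥(lnLbar X E₁ E₂) ≤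
      finrank k ↥(riemannRochSpace (E₁ - gpSum (lnX₁ X))) + finrank k ↥(riemannRochSpace E₂) := by
  haveI := ln_rr_finite_genus0 h.nice₁ (E₁ - gpSum (lnX₁ X))
  haveI := ln_rr_finite_genus0 h.nice₂ E₂
  haveI := ln_rr_finite h E₁ E₂
  -- the projection to the second component
  set ψ : ↥(lnLbar X E₁ E₂) →ₗ[k] ↥(riemannRochSpace E₂) :=
    LinearMap.codRestrict (riemannRochSpace E₂)
      ((LinearMap.snd k F₁ F₂).comp (lnLbar X E₁ E₂).subtype) (fun f => f.2.2.1) with hψ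
  -- the kernel injects into `L(E₁ − ΣX₁)`
  set θ : ↥(LinearMap.ker ψ) →ₗ[k] ↥(riemannRochSpace (E₁ - gpSum (lnX₁ X))) :=
    LinearMap.codRestrict (riemannRochSpace (E₁ - gpSum (lnX₁ X)))
      ((LinearMap.fst k F₁ F₂).comp ((lnLbar X E₁ E₂).subtype.comp (LinearMap.ker ψ).subtype))
      (fun f => by
        have hf2 : (f.1 : F₁ × F₂).2 = 0 := by
          have := f.2
          rw [LinearMap.mem_ker] at this
          exact congrArg Subtype.val this
        exact ln_rr_fst_mem_of_snd_eq_zero h h₁ f.1.2 hf2) with hθ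
  have hθinj : Function.Injective θ := by
    intro a b hab
    have h1 : ((a.1 : F₁ × F₂)).1 = ((b.1 : F₁ × F₂)).1 := congrArg Subtype.val hab
    have ha2 : (a.1 : F₁ × F₂).2 = 0 := by
      have := a.2
      rw [LinearMap.mem_ker] at this
      exact congrArg Subtype.val this
    have hb2 : (b.1 : F₁ × F₂).2 = 0 := by
      have := b.2
      rw [LinearMap.mem_ker] at this
      exact congrArg Subtype.val this
    exact Subtype.ext (Subtype.ext (Prod.ext h1 (ha2.trans hb2.symm)))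
  have h3 := LinearMap.finrank_le_finrank_of_injective hθinj
  have h4 := LinearMap.finrank_range_add_finrank_ker ψ
  have h5 := Submodule.finrank_le (LinearMap.range ψ)
  omega

/-- **Riemann–Roch on the nodal curve, upper bound**: `deg E₁ ≥ g`, `deg E₂ ≥ −1` -/
theorem ln_rr_upper₁ (h : IsNodal X g) (E₁ : Divisor k F₁) (E₂ : Divisor k F₂)
    (h₁ : ∀ x ∈ X, E₁ x.1 = 0) (hd₁ : (g : ℤ) ≤ Divisor.degree E₁)
    (hd₂ : -1 ≤ Divisor.degree E₂) :
    (finrank k ↥(lnLbar X E₁ E₂) : ℤ) ≤ Divisor.degree E₁ + Divisor.degree E₂ + 1 - g := by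
  have h3 := ln_rr_finrank_le_add h E₁ E₂ h₁
  have hdX : Divisor.degree (gpSum (lnX₁ X)) = g + 1 := by
    rw [degree_gpSum h.nice₁.hres, h.card_X₁]
    push_cast
    rfl
  have h4 := ln_rr_finrank_genus0 h.nice₁ (E₁ - gpSum (lnX₁ X)) (by
    rw [map_sub, hdX]; linarith)
  have h5 := ln_rr_finrank_genus0 h.nice₂ E₂ hd₂
  rw [map_sub, hdX] at h4
  have h3' : (finrank k ↥(lnLbar X E₁ E₂) : ℤ) ≤
      finrank k ↥(riemannRochSpace (E₁ - gpSum (lnX₁ X))) + finrank k ↥(riemannRochSpace E₂) := by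
    exact_mod_cast h3
  linarith

/-- **Riemann–Roch on the nodal curve**: `deg E₁ ≥ g`, `deg E₂ ≥ −1`, `E` away from `X` -/
theorem ln_rr_finrank₁ (h : IsNodal X g) (E₁ : Divisor k F₁) (E₂ : Divisor k F₂)
    (h₁ : ∀ x ∈ X, E₁ x.1 = 0) (h₂ : ∀ x ∈ X, E₂ x.2 ≤ 0) (hd₁ : (g : ℤ) ≤ Divisor.degree E₁)
    (hd₂ : -1 ≤ Divisor.degree E₂) :
    (finrank k ↥(lnLbar X E₁ E₂) : ℤ) = Divisor.degree E₁ + Divisor.degree E₂ + 1 - g :=
  le_antisymm (ln_rr_upper₁ h E₁ E₂ h₁ hd₁ hd₂)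
    (ln_rr_lower h E₁ E₂ (fun x hx => le_of_eq (h₁ x hx)) h₂)

/-- the upper bound with the components exchanged: `deg E₂ ≥ g`, `deg E₁ ≥ −1` -/
theorem ln_rr_upper₂ (h : IsNodal X g) (E₁ : Divisor k F₁) (E₂ : Divisor k F₂)
    (h₂ : ∀ x ∈ X, E₂ x.2 = 0) (hd₁ : -1 ≤ Divisor.degree E₁)
    (hd₂ : (g : ℤ) ≤ Divisor.degree E₂) :
    (finrank k ↥(lnLbar X E₁ E₂) : ℤ) ≤ Divisor.degree E₁ + Divisor.degree E₂ + 1 - g := by
  rw [← ln_rr_finrank_swap]
  have := ln_rr_upper₁ h.symm E₂ E₁ (by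
    intro x hx
    rw [Finset.mem_map] at hx
    obtain ⟨x', hx', rfl⟩ := hx
    exact h₂ x' hx') hd₂ hd₁
  linarith

/-- Riemann–Roch on the nodal curve with the components exchanged -/
theorem ln_rr_finrank₂ (h : IsNodal X g) (E₁ : Divisor k F₁) (E₂ : Divisor k F₂)
    (h₁ : ∀ x ∈ X, E₁ x.1 ≤ 0) (h₂ : ∀ x ∈ X, E₂ x.2 = 0) (hd₁ : -1 ≤ Divisor.degree E₁)
    (hd₂ : (g : ℤ) ≤ Divisor.degree E₂) :
    (finrank k ↥(lnLbar X E₁ E₂) : ℤ) = Divisor.degree E₁ + Divisor.degree E₂ + 1 - g :=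
  le_antisymm (ln_rr_upper₂ h E₁ E₂ h₂ hd₁ hd₂)
    (ln_rr_lower h E₁ E₂ h₁ (fun x hx => le_of_eq (h₂ x hx)))

end Nodal

end Fermat.Agent.S15.LN
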