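import Fermat.Agent.S15.LNRR
import Fermat.Agent.S15.LNDerived
import Fermat.Agent.S15.Div1Tangent

/-!
# S15 block LOCAL-N, piece LN-RR part 2 (helper10): charts, tangent, wrappers for `TRData`

Notation of `S15/LNRR.lean`.  A CHART is a set `T` of `g` smooth points of the first component
`C₁`; it is automatically non-special: `L̄(ΣT, 0) = k · (1, 1)`.

* `ln_rr_chart₁` : `dim L̄(ΣT, 0) = 1`; `ln_rr_const_of_chart₁` : its elements are constants;
* `ln_rr_exists_chart₁` : charts exist outside any finite set;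
* `ln_rr_finrank_chart_add₁` : `dim L̄(ΣT + A₁, A₂) = deg A₁ + deg A₂ + 1` for `A ≥ 0` away from
  `X`;
* `ln_rr_tangent_const` : the tangent computation of DIV¹ on the nodal curve;
* `ln_rr_isNodal`, `ln_rr_Lbar_eq`, `ln_rr_Lbar_finite`, `ln_rr_Lbar_lower`,
  `ln_rr_Lbar_finrank₁/₂`, `ln_rr_Lbar_finrank_smDiv₁` : the statements for `R.Lbar D`;
* `ln_rr_exists_lift₁/₂`, `ln_rr_exists_lift_div₁/₂` : lifts of (sums of) smooth points of the
  special fibre to divisors of smooth type.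
-/

set_option autoImplicit false
set_option linter.unusedSectionVars false
set_option linter.unusedVariables false
set_option linter.style.haveILetI false

noncomputable section

open AlgebraicCurve Module WithZero

namespace Fermat.Agent.S15.LN

open Fermat.Agent.W1 Fermat.Agent.S24 Fermat.Agent.ES.R Fermat.Agent.S15.Div1

open scoped Classical

/-! ### Charts -/

section Chart

variable {k F₁ F₂ : Type} [Field k] [Field F₁] [Algebra k F₁] [Field F₂] [Algebra k F₂]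
variable {X : Finset (Place k F₁ × Place k F₂)} {g : ℕ}

theorem ln_rr_one_mem (X : Finset (Place k F₁ × Place k F₂)) {E₁ : Divisor k F₁}
    {E₂ : Divisor k F₂} (h₁ : 0 ≤ E₁) (h₂ : 0 ≤ E₂) :
    ((1 : F₁), (1 : F₂)) ∈ lnLbar X E₁ E₂ :=
  ⟨gp_one_mem_rr h₁, gp_one_mem_rr h₂,
    fun x _ => ⟨1, ln_hasValueAt_one x.1, ln_hasValueAt_one x.2⟩⟩

theorem ln_rr_const_mem (X : Finset (Place k F₁ × Place k F₂)) {E₁ : Divisor k F₁}
    {E₂ : Divisor k F₂} (h₁ : 0 ≤ E₁) (h₂ : 0 ≤ E₂) (c : k) :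
    (algebraMap k F₁ c, algebraMap k F₂ c) ∈ lnLbar X E₁ E₂ := by
  have h := (lnLbar X E₁ E₂).smul_mem c (ln_rr_one_mem X h₁ h₂)
  have e : c • ((1 : F₁), (1 : F₂)) = (algebraMap k F₁ c, algebraMap k F₂ c) := by
    rw [Prod.smul_mk, Algebra.algebraMap_eq_smul_one, Algebra.algebraMap_eq_smul_one]
  rwa [e] at h

/-- if `dim L̄(E) ≤ 1`, `E ≥ 0`, then `L̄(E)` consists of constants -/
theorem ln_rr_const_of_finrank_le_one (h : IsNodal X g) {E₁ : Divisor k F₁} {E₂ : Divisor k F₂}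
    (h₁ : 0 ≤ E₁) (h₂ : 0 ≤ E₂) (hd : finrank k ↥(lnLbar X E₁ E₂) ≤ 1) {f : F₁ × F₂}
    (hf : f ∈ lnLbar X E₁ E₂) : ∃ c : k, f = (algebraMap k F₁ c, algebraMap k F₂ c) := by
  haveI := ln_rr_finite h E₁ E₂
  rw [finrank_le_one_iff] at hd
  obtain ⟨w, hw⟩ := hd
  obtain ⟨c₁, hc₁⟩ := hw ⟨((1 : F₁), (1 : F₂)), ln_rr_one_mem X h₁ h₂⟩
  obtain ⟨c₂, hc₂⟩ := hw ⟨f, hf⟩
  have hc₁0 : c₁ ≠ 0 := by
    rintro rfl
    rw [zero_smul] at hc₁
    have h0 : ((1 : F₁), (1 : F₂)) = 0 := (congrArg Subtype.val hc₁).symm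
    exact one_ne_zero (congrArg Prod.fst h0)
  refine ⟨c₂ * c₁⁻¹, ?_⟩
  have e1 : (w : F₁ × F₂) = c₁⁻¹ • ((1 : F₁), (1 : F₂)) := by
    have h1 : c₁ • (w : F₁ × F₂) = ((1 : F₁), (1 : F₂)) := congrArg Subtype.val hc₁
    rw [← h1, smul_smul, inv_mul_cancel₀ hc₁0, one_smul]
  have e2 : f = c₂ • (w : F₁ × F₂) := (congrArg Subtype.val hc₂).symm
  rw [e2, e1, smul_smul, Prod.smul_mk, Algebra.algebraMap_eq_smul_one,
    Algebra.algebraMap_eq_smul_one]

/-- **charts are non-special**: `dim L̄(ΣT, 0) = 1` for `g` smooth points of `C₁` -/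
theorem ln_rr_chart₁ (h : IsNodal X g) (T : Finset (Place k F₁)) (hT : T.card = g)
    (hTX : ∀ x ∈ X, x.1 ∉ T) :
    finrank k ↥(lnLbar X (gpSum T) (0 : Divisor k F₂)) = 1 := by
  have h1 := ln_rr_finrank₁ h (gpSum T) (0 : Divisor k F₂)
    (fun x hx => gpSum_apply_of_not_mem (hTX x hx)) (fun x hx => by simp)
    (by rw [degree_gpSum h.nice₁.hres, hT]) (by simp)
  rw [degree_gpSum h.nice₁.hres, hT, map_zero] at h1
  have h2 : (finrank k ↥(lnLbar X (gpSum T) (0 : Divisor k F₂)) : ℤ) = 1 := by linarith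
  exact_mod_cast h2

/-- the elements of `L̄(ΣT, 0)` are the constants -/
theorem ln_rr_const_of_chart₁ (h : IsNodal X g) (T : Finset (Place k F₁)) (hT : T.card = g)
    (hTX : ∀ x ∈ X, x.1 ∉ T) {f : F₁ × F₂} (hf : f ∈ lnLbar X (gpSum T) (0 : Divisor k F₂)) :
    ∃ c : k, f = (algebraMap k F₁ c, algebraMap k F₂ c) :=
  ln_rr_const_of_finrank_le_one h (gpSum_nonneg T) le_rfl (ln_rr_chart₁ h T hT hTX).le hf

/-- charts exist outside any finite set -/
theorem ln_rr_exists_chart₁ (h : IsNodal X g) (S : Finset (Place k F₁)) :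
    ∃ T : Finset (Place k F₁), T.card = g ∧ Disjoint T S ∧ (∀ x ∈ X, x.1 ∉ T) ∧
      finrank k ↥(lnLbar X (gpSum T) (0 : Divisor k F₂)) = 1 := by
  have hinf : (Set.univ \ (↑(S ∪ lnX₁ X) : Set (Place k F₁))).Infinite :=
    h.nice₁.infinite.sdiff (Finset.finite_toSet _)
  obtain ⟨T, hTsub, hTcard⟩ := hinf.exists_subset_card_eq g
  have hT1 : ∀ Q ∈ T, Q ∉ S ∪ lnX₁ X := fun Q hQ => by
    have := hTsub hQ
    exact fun hmem => this.2 (Finset.mem_coe.mpr hmem)
  have hTX : ∀ x ∈ X, x.1 ∉ T := fun x hx hxT =>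
    hT1 x.1 hxT (Finset.mem_union_right _ (ln_rr_mem_X₁.mpr ⟨x, hx, rfl⟩))
  refine ⟨T, hTcard, ?_, hTX, ln_rr_chart₁ h T hTcard hTX⟩
  rw [Finset.disjoint_left]
  intro Q hQ hQS
  exact hT1 Q hQ (Finset.mem_union_left _ hQS)

/-- `dim L̄(ΣT + A₁, A₂) = deg A₁ + deg A₂ + 1` for a chart `T` and `A ≥ 0` away from `X` -/
theorem ln_rr_finrank_chart_add₁ (h : IsNodal X g) (T : Finset (Place k F₁)) (hT : T.card = g)
    (hTX : ∀ x ∈ X, x.1 ∉ T) {A₁ : Divisor k F₁} {A₂ : Divisor k F₂} (hA₁ : 0 ≤ A₁)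
    (hA₂ : 0 ≤ A₂) (hX₁ : ∀ x ∈ X, A₁ x.1 = 0) (hX₂ : ∀ x ∈ X, A₂ x.2 = 0) :
    (finrank k ↥(lnLbar X (gpSum T + A₁) A₂) : ℤ) =
      Divisor.degree A₁ + Divisor.degree A₂ + 1 := by
  haveI := h.nice₁.hpd
  haveI := h.nice₂.hpd
  have hd₁ := degree_nonneg hA₁
  have hd₂ := degree_nonneg hA₂
  have h1 := ln_rr_finrank₁ h (gpSum T + A₁) A₂
    (fun x hx => by
      rw [Finsupp.add_apply, gpSum_apply_of_not_mem (hTX x hx), hX₁ x hx, add_zero])
    (fun x hx => le_of_eq (hX₂ x hx))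
    (by rw [map_add, degree_gpSum h.nice₁.hres, hT]; linarith) (by linarith)
  rw [map_add, degree_gpSum h.nice₁.hres, hT] at h1
  linarith

/-! ### The tangent computation -/

/-- the first step of the tangent computation, on one curve -/
theorem ln_rr_tangent_step {F : Type} [Field F] [Algebra k F] {TN TR : Finset (Place k F)}
    (hdisj : Disjoint TN TR) (m : ℕ) {du dv dh : F}
    (hu : du ∈ riemannRochSpace (gpSum TN + gpSum TR))
    (hv : dv ∈ riemannRochSpace (m • gpSum TN))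
    (hh : dh ∈ riemannRochSpace (m • gpSum TR))
    (heq : (m : F) * du = dv + dh) :
    dv ∈ riemannRochSpace (gpSum TN) ∧ dh ∈ riemannRochSpace (gpSum TR) := by
  have hmu : ∀ v : Place k F, v.adicValuation ((m : F) * du) ≤ v.adicValuation du := by
    intro v
    rw [map_mul, natCast_eq_algebraMap (K := k)]
    exact mul_le_of_le_one_left' (v.adicValuation_algebraMap_le_one _)
  have h01 : exp (0 : ℤ) ≤ (exp (1 : ℤ) : ℤᵐ⁰) := exp_le_exp.mpr (by norm_num)
  constructor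
  · refine mem_rr_gpSum_of_simple m hv fun v hvN => ?_
    have hvR : v ∉ TR := fun h => Finset.disjoint_left.mp hdisj hvN h
    have e1 : dv = (m : F) * du - dh := by rw [heq]; ring
    rw [e1]
    refine (Valuation.map_sub _ _ _).trans (max_le ?_ ?_)
    · refine (hmu v).trans ?_
      have := hu v
      rwa [Finsupp.add_apply, gpSum_apply_of_mem hvN, gpSum_apply_of_not_mem hvR,
        add_zero] at this
    · have := hh v
      rw [smul_gpSum_apply_of_not_mem m hvR] at this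
      exact this.trans h01
  · refine mem_rr_gpSum_of_simple m hh fun v hvR => ?_
    have hvN : v ∉ TN := fun h => Finset.disjoint_left.mp hdisj h hvR
    have e1 : dh = (m : F) * du - dv := by rw [heq]; ring
    rw [e1]
    refine (Valuation.map_sub _ _ _).trans (max_le ?_ ?_)
    · refine (hmu v).trans ?_
      have := hu v
      rwa [Finsupp.add_apply, gpSum_apply_of_mem hvR, gpSum_apply_of_not_mem hvN,
        zero_add] at this
    · have := hv v
      rw [smul_gpSum_apply_of_not_mem m hvN] at this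
      exact this.trans h01

/-- **the tangent computation on the nodal curve**: `TN`, `TR` disjoint charts on `C₁`, `m`
invertible in `k`; if `m · δu = δv + δh` with `δu ∈ L̄(ΣTN + ΣTR, 0)`, `δv ∈ L̄(m ΣTN, 0)`,
`δh ∈ L̄(m ΣTR, 0)`, then `δu`, `δv`, `δh` are constants. -/
theorem ln_rr_tangent_const (h : IsNodal X g) {TN TR : Finset (Place k F₁)}
    (hdisj : Disjoint TN TR) (hN : TN.card = g) (hR : TR.card = g)
    (hNX : ∀ x ∈ X, x.1 ∉ TN) (hRX : ∀ x ∈ X, x.1 ∉ TR) (m : ℕ) (hm : (m : k) ≠ 0)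
    {du dv dh : F₁ × F₂}
    (hu : du ∈ lnLbar X (gpSum TN + gpSum TR) (0 : Divisor k F₂))
    (hv : dv ∈ lnLbar X (m • gpSum TN) (0 : Divisor k F₂))
    (hh : dh ∈ lnLbar X (m • gpSum TR) (0 : Divisor k F₂))
    (heq : (m : k) • du = dv + dh) :
    (∃ c : k, du = (algebraMap k F₁ c, algebraMap k F₂ c)) ∧
      (∃ c : k, dv = (algebraMap k F₁ c, algebraMap k F₂ c)) ∧
      ∃ c : k, dh = (algebraMap k F₁ c, algebraMap k F₂ c) := by
  have heq1 : (m : F₁) * du.1 = dv.1 + dh.1 := by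
    have := congrArg Prod.fst heq
    rw [Prod.smul_fst, Prod.fst_add, Algebra.smul_def, map_natCast] at this
    exact this
  obtain ⟨hv1, hh1⟩ := ln_rr_tangent_step hdisj m hu.1 hv.1 hh.1 heq1
  obtain ⟨c₂, hc₂⟩ := ln_rr_const_of_chart₁ h TN hN hNX (f := dv) ⟨hv1, hv.2.1, hv.2.2⟩
  obtain ⟨c₃, hc₃⟩ := ln_rr_const_of_chart₁ h TR hR hRX (f := dh) ⟨hh1, hh.2.1, hh.2.2⟩
  refine ⟨⟨(m : k)⁻¹ * (c₂ + c₃), ?_⟩, ⟨c₂, hc₂⟩, ⟨c₃, hc₃⟩⟩
  have e1 : du = (m : k)⁻¹ • (dv + dh) := by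
    rw [← heq, smul_smul, inv_mul_cancel₀ hm, one_smul]
  rw [e1, hc₂, hc₃, Prod.mk_add_mk, Prod.smul_mk, ← map_add, ← map_add, Algebra.smul_def,
    Algebra.smul_def, ← map_mul, ← map_mul]

end Chart

/-! ### The statements for a two-component reduction -/

section TR

variable {K F k F₁ F₂ : Type} [Field K] [Field F] [Algebra K F] [Field k]
  [Field F₁] [Algebra k F₁] [Field F₂] [Algebra k F₂]
variable {A : ValuationSubring K} {R : TRData K F k F₁ F₂ A} {g : ℕ}

theorem ln_rr_isNodal (hT : R.IsToric g) : IsNodal R.X g :=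
  ⟨hT.nice₁, hT.nice₂, hT.isTR.cross_inj₁, hT.isTR.cross_inj₂, hT.card⟩

theorem ln_rr_Lbar_eq (R : TRData K F k F₁ F₂ A) (D : Divisor K F) :
    R.Lbar D = lnLbar R.X (R.push₁ D) (R.push₂ D) := by
  ext f
  rw [ln_mem_Lbar]
  rfl

theorem ln_rr_Lbar_finite (hT : R.IsToric g) (D : Divisor K F) :
    Module.Finite k ↥(R.Lbar D) := by
  rw [ln_rr_Lbar_eq]
  exact ln_rr_finite (ln_rr_isNodal hT) _ _

/-- Riemann's inequality for `L̄(r_* D)` -/
theorem ln_rr_Lbar_lower (hT : R.IsToric g) (D : Divisor K F) :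
    Divisor.degree (R.push₁ D) + Divisor.degree (R.push₂ D) + 1 - g ≤
      (finrank k ↥(R.Lbar D) : ℤ) := by
  rw [ln_rr_Lbar_eq]
  exact ln_rr_lower (ln_rr_isNodal hT) _ _
    (fun x hx => le_of_eq (ln_push₁_cross hT.isTR D hx))
    (fun x hx => le_of_eq (ln_push₂_cross hT.isTR D hx))

/-- Riemann–Roch for `L̄(r_* D)`: `deg r_{1*} D ≥ g`, `deg r_{2*} D ≥ −1` -/
theorem ln_rr_Lbar_finrank₁ (hT : R.IsToric g) (D : Divisor K F)
    (hd₁ : (g : ℤ) ≤ Divisor.degree (R.push₁ D)) (hd₂ : -1 ≤ Divisor.degree (R.push₂ D)) :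
    (finrank k ↥(R.Lbar D) : ℤ) =
      Divisor.degree (R.push₁ D) + Divisor.degree (R.push₂ D) + 1 - g := by
  rw [ln_rr_Lbar_eq]
  exact ln_rr_finrank₁ (ln_rr_isNodal hT) _ _
    (fun x hx => ln_push₁_cross hT.isTR D hx)
    (fun x hx => le_of_eq (ln_push₂_cross hT.isTR D hx)) hd₁ hd₂

/-- Riemann–Roch for `L̄(r_* D)`: `deg r_{1*} D ≥ −1`, `deg r_{2*} D ≥ g` -/
theorem ln_rr_Lbar_finrank₂ (hT : R.IsToric g) (D : Divisor K F)
    (hd₁ : -1 ≤ Divisor.degree (R.push₁ D)) (hd₂ : (g : ℤ) ≤ Divisor.degree (R.push₂ D)) :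
    (finrank k ↥(R.Lbar D) : ℤ) =
      Divisor.degree (R.push₁ D) + Divisor.degree (R.push₂ D) + 1 - g := by
  rw [ln_rr_Lbar_eq]
  exact ln_rr_finrank₂ (ln_rr_isNodal hT) _ _
    (fun x hx => le_of_eq (ln_push₁_cross hT.isTR D hx))
    (fun x hx => ln_push₂_cross hT.isTR D hx) hd₁ hd₂

/-- the degree of a divisor of smooth type is the sum of the degrees on the components -/
theorem ln_rr_degree_smDiv (hT : R.IsToric g) {D : Divisor K F} (hD : D ∈ R.smDiv) :
    Divisor.degree D = Divisor.degree (R.push₁ D) + Divisor.degree (R.push₂ D) := by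
  rw [ln_degree_split R (IsToric_deg hT) (IsToric_deg₁ hT) (IsToric_deg₂ hT) D]
  have h0 : ∑ P ∈ D.support, (if R.r P = none then D P else 0) = 0 := by
    refine Finset.sum_eq_zero fun P hP => ?_
    rw [if_neg]
    intro hnone
    have := hD P (Finsupp.mem_support_iff.mp hP)
    rw [hnone] at this
    exact absurd this (by simp)
  rw [h0, add_zero]

/-- Riemann–Roch for `L̄(r_* D)`, `D` of smooth type: `dim L̄(r_* D) = deg D + 1 − g` if
`deg r_{1*} D ≥ g`, `deg r_{2*} D ≥ −1` -/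
theorem ln_rr_Lbar_finrank_smDiv₁ (hT : R.IsToric g) {D : Divisor K F} (hD : D ∈ R.smDiv)
    (hd₁ : (g : ℤ) ≤ Divisor.degree (R.push₁ D)) (hd₂ : -1 ≤ Divisor.degree (R.push₂ D)) :
    (finrank k ↥(R.Lbar D) : ℤ) = Divisor.degree D + 1 - g := by
  rw [ln_rr_Lbar_finrank₁ hT D hd₁ hd₂, ln_rr_degree_smDiv hT hD]

/-! #### Lifts -/

theorem ln_rr_push₁_single (R : TRData K F k F₁ F₂ A) {P : Place K F} {Q : Place k F₁}
    (hP : R.r P = some (Sum.inl Q)) (n : ℤ) :
    R.push₁ (Finsupp.single P n) = Finsupp.single Q n := by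
  unfold TRData.push₁
  rw [Finsupp.liftAddHom_apply_single]
  unfold TRData.pt₁
  rw [hP]
  rfl

theorem ln_rr_push₂_single_inl (R : TRData K F k F₁ F₂ A) {P : Place K F} {Q : Place k F₁}
    (hP : R.r P = some (Sum.inl Q)) (n : ℤ) :
    R.push₂ (Finsupp.single P n) = 0 := by
  unfold TRData.push₂
  rw [Finsupp.liftAddHom_apply_single]
  unfold TRData.pt₂
  rw [hP]
  rfl

theorem ln_rr_push₂_single (R : TRData K F k F₁ F₂ A) {P : Place K F} {Q : Place k F₂}
    (hP : R.r P = some (Sum.inr Q)) (n : ℤ) :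
    R.push₂ (Finsupp.single P n) = Finsupp.single Q n := by
  unfold TRData.push₂
  rw [Finsupp.liftAddHom_apply_single]
  unfold TRData.pt₂
  rw [hP]
  rfl

theorem ln_rr_push₁_single_inr (R : TRData K F k F₁ F₂ A) {P : Place K F} {Q : Place k F₂}
    (hP : R.r P = some (Sum.inr Q)) (n : ℤ) :
    R.push₁ (Finsupp.single P n) = 0 := by
  unfold TRData.push₁
  rw [Finsupp.liftAddHom_apply_single]
  unfold TRData.pt₁
  rw [hP]
  rfl

theorem ln_rr_single_mem_smDiv (R : TRData K F k F₁ F₂ A) {P : Place K F}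
    (hP : (R.r P).isSome) (n : ℤ) : Finsupp.single P n ∈ R.smDiv := by
  intro P' hP'
  by_cases h : P' = P
  · rw [h]; exact hP
  · exact absurd (Finsupp.single_eq_of_ne (Ne.symm (Ne.symm h))) hP'

/-- a divisor supported on the smooth points of `C₁` lifts to a divisor of smooth type -/
theorem ln_rr_exists_lift_div₁ (hT : R.IsToric g) (E : Divisor k F₁)
    (hE : ∀ x ∈ R.X, E x.1 = 0) :
    ∃ D : Divisor K F, D ∈ R.smDiv ∧ R.push₁ D = E ∧ R.push₂ D = 0 ∧ (0 ≤ E → 0 ≤ D) := by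
  induction E using Finsupp.induction with
  | zero =>
    exact ⟨0, R.smDiv.zero_mem, map_zero _, map_zero _, fun _ => le_rfl⟩
  | single_add Q n E hQ hn ih =>
    have hEQ : E Q = 0 := Finsupp.notMem_support_iff.mp hQ
    have hQX : ∀ x ∈ R.X, x.1 ≠ Q := by
      intro x hx hxQ
      have := hE x hx
      rw [Finsupp.add_apply, hxQ, Finsupp.single_eq_same, hEQ, add_zero] at this
      exact hn this
    have hE' : ∀ x ∈ R.X, E x.1 = 0 := by
      intro x hx
      have := hE x hx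
      rwa [Finsupp.add_apply, Finsupp.single_eq_of_ne (hQX x hx), zero_add] at this
    obtain ⟨D, hD, h1, h2, h3⟩ := ih hE'
    obtain ⟨P, hP⟩ := ln_onto₁ hT.isTR hT.nice.hpd Q hQX
    refine ⟨Finsupp.single P n + D,
      R.smDiv.add_mem (ln_rr_single_mem_smDiv R (by rw [hP]; rfl) n) hD, ?_, ?_, ?_⟩
    · rw [map_add, ln_rr_push₁_single R hP, h1]
    · rw [map_add, ln_rr_push₂_single_inl R hP, h2, add_zero]
    · intro hnn
      have hn0 : 0 ≤ n := by
        have := Finsupp.le_def.mp hnn Q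
        rwa [Finsupp.coe_zero, Pi.zero_apply, Finsupp.add_apply, Finsupp.single_eq_same, hEQ,
          add_zero] at this
      have hE0 : 0 ≤ E := by
        rw [Finsupp.le_def]
        intro v
        by_cases hv : v = Q
        · rw [hv, hEQ]; rfl
        · have := Finsupp.le_def.mp hnn v
          rwa [Finsupp.coe_zero, Pi.zero_apply, Finsupp.add_apply,
            Finsupp.single_eq_of_ne (Ne.symm (Ne.symm hv)), zero_add] at this
      refine add_nonneg ?_ (h3 hE0)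
      rw [Finsupp.le_def]
      intro v
      by_cases hv : v = P
      · rw [hv, Finsupp.single_eq_same]; exact hn0
      · rw [Finsupp.single_eq_of_ne (Ne.symm (Ne.symm hv))]; rfl

/-- a divisor supported on the smooth points of `C₂` lifts to a divisor of smooth type -/
theorem ln_rr_exists_lift_div₂ (hT : R.IsToric g) (E : Divisor k F₂)
    (hE : ∀ x ∈ R.X, E x.2 = 0) :
    ∃ D : Divisor K F, D ∈ R.smDiv ∧ R.push₁ D = 0 ∧ R.push₂ D = E ∧ (0 ≤ E → 0 ≤ D) := by
  induction E using Finsupp.induction with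
  | zero =>
    exact ⟨0, R.smDiv.zero_mem, map_zero _, map_zero _, fun _ => le_rfl⟩
  | single_add Q n E hQ hn ih =>
    have hEQ : E Q = 0 := Finsupp.notMem_support_iff.mp hQ
    have hQX : ∀ x ∈ R.X, x.2 ≠ Q := by
      intro x hx hxQ
      have := hE x hx
      rw [Finsupp.add_apply, hxQ, Finsupp.single_eq_same, hEQ, add_zero] at this
      exact hn this
    have hE' : ∀ x ∈ R.X, E x.2 = 0 := by
      intro x hx
      have := hE x hx
      rwa [Finsupp.add_apply, Finsupp.single_eq_of_ne (hQX x hx), zero_add] at this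
    obtain ⟨D, hD, h1, h2, h3⟩ := ih hE'
    obtain ⟨P, hP⟩ := ln_onto₂ hT.isTR hT.nice.hpd Q hQX
    refine ⟨Finsupp.single P n + D,
      R.smDiv.add_mem (ln_rr_single_mem_smDiv R (by rw [hP]; rfl) n) hD, ?_, ?_, ?_⟩
    · rw [map_add, ln_rr_push₁_single_inr R hP, h1, add_zero]
    · rw [map_add, ln_rr_push₂_single R hP, h2]
    · intro hnn
      have hn0 : 0 ≤ n := by
        have := Finsupp.le_def.mp hnn Q
        rwa [Finsupp.coe_zero, Pi.zero_apply, Finsupp.add_apply, Finsupp.single_eq_same, hEQ,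
          add_zero] at this
      have hE0 : 0 ≤ E := by
        rw [Finsupp.le_def]
        intro v
        by_cases hv : v = Q
        · rw [hv, hEQ]; rfl
        · have := Finsupp.le_def.mp hnn v
          rwa [Finsupp.coe_zero, Pi.zero_apply, Finsupp.add_apply,
            Finsupp.single_eq_of_ne (Ne.symm (Ne.symm hv)), zero_add] at this
      refine add_nonneg ?_ (h3 hE0)
      rw [Finsupp.le_def]
      intro v
      by_cases hv : v = P
      · rw [hv, Finsupp.single_eq_same]; exact hn0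
      · rw [Finsupp.single_eq_of_ne (Ne.symm (Ne.symm hv))]; rfl

/-- a chart lifts to an effective divisor of smooth type -/
theorem ln_rr_exists_lift₁ (hT : R.IsToric g) (T : Finset (Place k F₁))
    (hTX : ∀ x ∈ R.X, x.1 ∉ T) :
    ∃ Nd : Divisor K F, 0 ≤ Nd ∧ Nd ∈ R.smDiv ∧ R.push₁ Nd = gpSum T ∧ R.push₂ Nd = 0 := by
  obtain ⟨D, hD, h1, h2, h3⟩ := ln_rr_exists_lift_div₁ hT (gpSum T)
    (fun x hx => gpSum_apply_of_not_mem (hTX x hx))
  exact ⟨D, h3 (gpSum_nonneg T), hD, h1, h2⟩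

end TR

end Fermat.Agent.S15.LN
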