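import Fermat.Agent.S15.LNRR2

/-!
# S15 block LOCAL-N (helper10): the torus of the nodal curve

`Pic⁰` of the nodal curve `C₁ ∪ C₂` (two curves of genus `0` crossing at `X`) is the torus
`(k^×)^X / k^×`.  We describe it by an explicit map, normalised at a base point `x₀ ∈ X`.

* `ln_rr_principal_genus0` : on a curve of genus `0` every divisor of degree `0` is principal;
* `lnNorm Q₀ E` : THE function with divisor `E` and value `1` at `Q₀` (`deg E = 0`, `E Q₀ = 0`);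
  `lnNorm_spec`, `lnNorm_unique`, `lnNorm_add`, `lnNorm_zero`, `lnNorm_neg`, `lnNorm_nsmul`;
* `lnTau x₀ E₁ E₂ x = f₁(x.1) / f₂(x.2)`, `f_i = lnNorm x₀.i E_i` : the class of `(E₁, E₂)` in the
  torus; `lnTau_ne_zero`, `lnTau_base`, `lnTau_add`, `lnTau_neg`, `lnTau_nsmul`;
* `lnTau_eq_one_iff` : `(E₁, E₂)` is principal on the nodal curve iff `lnTau = 1` on `X`;
* `lnTau_surj` : every `s : X → k^×` with `s x₀ = 1` is `lnTau x₀ 0 E₂`.
-/

set_option autoImplicit false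
set_option linter.unusedSectionVars false
set_option linter.unusedVariables false
set_option linter.style.haveILetI false

noncomputable section

open AlgebraicCurve Module

namespace Fermat.Agent.S15.LN

open Fermat.Agent.W1 Fermat.Agent.S24 Fermat.Agent.ES.R

open scoped Classical

/-! ### One curve of genus `0` -/

section Genus0

variable {k F : Type} [Field k] [Field F] [Algebra k F]

/-- an effective divisor of degree `0` is `0` -/
theorem ln_tor_eq_zero_of_nonneg (hdeg : ∀ v : Place k F, v.deg = 1) {G : Divisor k F}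
    (hG : 0 ≤ G) (h0 : Divisor.degree G = 0) : G = 0 := by
  ext Q
  by_contra hne
  have hQ : 0 ≤ G Q := by simpa using Finsupp.le_def.mp hG Q
  have hpos : 0 < G Q := lt_of_le_of_ne hQ (Ne.symm hne)
  have := ln_degree_pos hdeg hG Q hpos
  omega

/-- on a curve of genus `0` every divisor of degree `0` is principal -/
theorem ln_rr_principal_genus0 (hF : IsNiceCurve k F 0) (E : Divisor k F)
    (hE : Divisor.degree E = 0) : ∃ f : F, f ≠ 0 ∧ ∀ Q : Place k F, E Q = Q.ord f := by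
  haveI := hF.hpd
  haveI := ln_rr_finite_genus0 hF (-E)
  have h1 := ln_rr_finrank_genus0 hF (-E) (by rw [map_neg, hE]; norm_num)
  rw [map_neg, hE] at h1
  have h2 : 0 < finrank k ↥(riemannRochSpace (-E)) := by
    have : (finrank k ↥(riemannRochSpace (-E)) : ℤ) = 1 := by simpa using h1
    omega
  obtain ⟨⟨f, hf⟩, hf0⟩ := Module.finrank_pos_iff_exists_ne_zero.mp h2
  have hf0' : f ≠ 0 := fun h => hf0 (Subtype.ext h)
  obtain ⟨D, hD, hDdeg⟩ := HasPrincipalDivisors.exists_divisor (K := k) f hf0'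
  have hG : 0 ≤ D - E := by
    rw [Finsupp.le_def]
    intro Q
    rcases mem_riemannRochSpace_iff.mp hf Q with h | h
    · exact absurd h hf0'
    · rw [Finsupp.neg_apply, neg_neg] at h
      rw [Finsupp.coe_zero, Pi.zero_apply, Finsupp.sub_apply, hD]
      linarith
  have hG0 := ln_tor_eq_zero_of_nonneg (fun v => place_deg_eq_one v (hF.hres v)) hG
    (by rw [map_sub, hDdeg, hE, sub_zero])
  refine ⟨f, hf0', fun Q => ?_⟩
  have := DFunLike.congr_fun hG0 Q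
  rw [Finsupp.sub_apply, hD, Finsupp.coe_zero, Pi.zero_apply] at this
  linarith

/-- a function without zero or pole at `Q` has a nonzero value at `Q` -/
theorem ln_tor_exists_value (hres : ∀ v : Place k F, Function.Bijective (algebraMap k v.ResidueField))
    {Q : Place k F} {f : F} (hf : f ≠ 0) (hord : Q.ord f = 0) :
    ∃ a : k, a ≠ 0 ∧ HasValueAt Q f a := by
  have hmem : f ∈ Q.toValuationSubring := PlaceAux.mem_of_ord_nonneg Q (le_of_eq hord.symm)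
  obtain ⟨a, ha⟩ := ge_exists_value Q (hres Q) hmem
  refine ⟨a, ?_, ha⟩
  rintro rfl
  rcases (ln_rr_hasValueAt_zero_iff Q).mp ha with h | h
  · exact hf h
  · omega

theorem ln_tor_val_ne_zero (hres : ∀ v : Place k F, Function.Bijective (algebraMap k v.ResidueField))
    {Q : Place k F} {f : F} (hf : f ≠ 0) (hord : Q.ord f = 0) :
    lnVal Q f ≠ 0 ∧ HasValueAt Q f (lnVal Q f) := by
  obtain ⟨a, ha, hv⟩ := ln_tor_exists_value hres hf hord
  rw [ln_rr_val_eq hv]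
  exact ⟨ha, hv⟩

/-- a function without zeros and poles is constant (genus `0`; true in general) -/
theorem ln_tor_const_of_ord_eq_zero (hF : IsNiceCurve k F 0) {u : F}
    (hu : ∀ Q : Place k F, Q.ord u = 0) : ∃ c : k, u = algebraMap k F c := by
  haveI := hF.hpd
  obtain ⟨v₀, -⟩ := hF.infinite.nonempty
  have h1 := ln_rr_finrank_genus0 hF (0 : Divisor k F) (by simp)
  rw [map_zero] at h1
  have h2 : finrank k ↥(riemannRochSpace (0 : Divisor k F)) ≤ 1 := by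
    have : (finrank k ↥(riemannRochSpace (0 : Divisor k F)) : ℤ) = 1 := by simpa using h1
    omega
  refine c1_const_of_finrank_le_one hF.hres v₀ le_rfl h2 ?_
  rw [mem_riemannRochSpace_iff]
  intro v
  right
  rw [hu v]
  simp

/-- two functions with the same divisor and the same nonzero value at one point are equal -/
theorem ln_tor_eq_of_same_div (hF : IsNiceCurve k F 0) {f f' : F} (hf : f ≠ 0) (hf' : f' ≠ 0)
    (h : ∀ Q : Place k F, Q.ord f = Q.ord f') {Q₀ : Place k F} {a : k} (ha : a ≠ 0)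
    (hv : HasValueAt Q₀ f a) (hv' : HasValueAt Q₀ f' a) : f = f' := by
  obtain ⟨c, hc⟩ := ln_tor_const_of_ord_eq_zero hF (u := f' * f⁻¹) (fun Q => by
    rw [Q.ord_mul hf' (inv_ne_zero hf), Q.ord_inv, h Q]
    ring)
  have e : f' = algebraMap k F c * f := by
    rw [← hc]
    field_simp
  have hv2 : HasValueAt Q₀ f' (c * a) := by
    rw [e]
    exact ln_hasValueAt_mul (ln_hasValueAt_const Q₀ c) hv
  have hca : c * a = a := hasValueAt_unique Q₀ hv2 hv'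
  have hc1 : c = 1 := by
    have : (c - 1) * a = 0 := by rw [sub_mul, hca, one_mul, sub_self]
    rcases mul_eq_zero.mp this with h1 | h1
    · exact sub_eq_zero.mp h1
    · exact absurd h1 ha
  rw [e, hc1, map_one, one_mul]

/-- the property defining `lnNorm` -/
def IsNormFn (Q₀ : Place k F) (E : Divisor k F) (f : F) : Prop :=
  f ≠ 0 ∧ (∀ Q : Place k F, E Q = Q.ord f) ∧ HasValueAt Q₀ f 1

/-- THE function with divisor `E` and value `1` at `Q₀` -/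
def lnNorm (Q₀ : Place k F) (E : Divisor k F) : F :=
  if h : ∃ f : F, IsNormFn Q₀ E f then h.choose else 1

theorem lnNorm_exists (hF : IsNiceCurve k F 0) (Q₀ : Place k F) (E : Divisor k F)
    (hE : Divisor.degree E = 0) (hQ₀ : E Q₀ = 0) : ∃ f : F, IsNormFn Q₀ E f := by
  obtain ⟨f, hf0, hf⟩ := ln_rr_principal_genus0 hF E hE
  obtain ⟨a, ha, hva⟩ := ln_tor_exists_value hF.hres hf0 (by rw [← hf, hQ₀])
  refine ⟨algebraMap k F a⁻¹ * f, mul_ne_zero ((map_ne_zero _).mpr (inv_ne_zero ha)) hf0,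
    fun Q => ?_, ?_⟩
  · rw [ln_ord_const_mul Q (inv_ne_zero ha), hf]
  · have := ln_hasValueAt_mul (ln_hasValueAt_const Q₀ a⁻¹) hva
    rwa [inv_mul_cancel₀ ha] at this

theorem lnNorm_spec (hF : IsNiceCurve k F 0) (Q₀ : Place k F) (E : Divisor k F)
    (hE : Divisor.degree E = 0) (hQ₀ : E Q₀ = 0) : IsNormFn Q₀ E (lnNorm Q₀ E) := by
  unfold lnNorm
  rw [dif_pos (lnNorm_exists hF Q₀ E hE hQ₀)]
  exact (lnNorm_exists hF Q₀ E hE hQ₀).choose_spec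

theorem lnNorm_unique (hF : IsNiceCurve k F 0) {Q₀ : Place k F} {E : Divisor k F} {f : F}
    (hf : IsNormFn Q₀ E f) : lnNorm Q₀ E = f := by
  have hex : ∃ f : F, IsNormFn Q₀ E f := ⟨f, hf⟩
  have hs : IsNormFn Q₀ E (lnNorm Q₀ E) := by
    unfold lnNorm
    rw [dif_pos hex]
    exact hex.choose_spec
  exact ln_tor_eq_of_same_div hF hs.1 hf.1 (fun Q => by rw [← hs.2.1 Q, hf.2.1 Q]) one_ne_zero
    hs.2.2 hf.2.2

theorem IsNormFn.mul {Q₀ : Place k F} {E E' : Divisor k F} {f f' : F} (h : IsNormFn Q₀ E f)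
    (h' : IsNormFn Q₀ E' f') : IsNormFn Q₀ (E + E') (f * f') := by
  refine ⟨mul_ne_zero h.1 h'.1, fun Q => ?_, ?_⟩
  · rw [Finsupp.add_apply, h.2.1, h'.2.1, Q.ord_mul h.1 h'.1]
  · have := ln_hasValueAt_mul h.2.2 h'.2.2
    rwa [one_mul] at this

theorem IsNormFn.inv {Q₀ : Place k F} {E : Divisor k F} {f : F} (h : IsNormFn Q₀ E f) :
    IsNormFn Q₀ (-E) f⁻¹ := by
  refine ⟨inv_ne_zero h.1, fun Q => ?_, ?_⟩
  · rw [Finsupp.neg_apply, h.2.1, Q.ord_inv]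
  · have := ln_hasValueAt_inv h.2.2 one_ne_zero
    rwa [inv_one] at this

theorem IsNormFn.one (Q₀ : Place k F) : IsNormFn Q₀ (0 : Divisor k F) (1 : F) :=
  ⟨one_ne_zero, fun Q => by simp, ln_hasValueAt_one Q₀⟩

theorem IsNormFn.pow {Q₀ : Place k F} {E : Divisor k F} {f : F} (h : IsNormFn Q₀ E f)
    (m : ℕ) : IsNormFn Q₀ (m • E) (f ^ m) := by
  induction m with
  | zero =>
    rw [zero_smul, pow_zero]
    exact IsNormFn.one Q₀
  | succ n ih =>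
    rw [succ_nsmul, pow_succ]
    exact ih.mul h

theorem lnNorm_zero (hF : IsNiceCurve k F 0) (Q₀ : Place k F) :
    lnNorm Q₀ (0 : Divisor k F) = 1 :=
  lnNorm_unique hF (IsNormFn.one Q₀)

theorem lnNorm_add (hF : IsNiceCurve k F 0) (Q₀ : Place k F) {E E' : Divisor k F}
    (hE : Divisor.degree E = 0) (hQ₀ : E Q₀ = 0) (hE' : Divisor.degree E' = 0)
    (hQ₀' : E' Q₀ = 0) : lnNorm Q₀ (E + E') = lnNorm Q₀ E * lnNorm Q₀ E' :=
  lnNorm_unique hF ((lnNorm_spec hF Q₀ E hE hQ₀).mul (lnNorm_spec hF Q₀ E' hE' hQ₀'))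

theorem lnNorm_neg (hF : IsNiceCurve k F 0) (Q₀ : Place k F) {E : Divisor k F}
    (hE : Divisor.degree E = 0) (hQ₀ : E Q₀ = 0) : lnNorm Q₀ (-E) = (lnNorm Q₀ E)⁻¹ :=
  lnNorm_unique hF (lnNorm_spec hF Q₀ E hE hQ₀).inv

theorem lnNorm_nsmul (hF : IsNiceCurve k F 0) (Q₀ : Place k F) {E : Divisor k F}
    (hE : Divisor.degree E = 0) (hQ₀ : E Q₀ = 0) (m : ℕ) :
    lnNorm Q₀ (m • E) = lnNorm Q₀ E ^ m :=
  lnNorm_unique hF ((lnNorm_spec hF Q₀ E hE hQ₀).pow m)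

/-- the value of `lnNorm` at a point outside the support -/
theorem lnNorm_val (hF : IsNiceCurve k F 0) (Q₀ : Place k F) {E : Divisor k F}
    (hE : Divisor.degree E = 0) (hQ₀ : E Q₀ = 0) {Q : Place k F} (hQ : E Q = 0) :
    lnVal Q (lnNorm Q₀ E) ≠ 0 ∧ HasValueAt Q (lnNorm Q₀ E) (lnVal Q (lnNorm Q₀ E)) := by
  have hs := lnNorm_spec hF Q₀ E hE hQ₀
  exact ln_tor_val_ne_zero hF.hres hs.1 (by rw [← hs.2.1, hQ])

theorem lnNorm_val_base (hF : IsNiceCurve k F 0) (Q₀ : Place k F) {E : Divisor k F}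
    (hE : Divisor.degree E = 0) (hQ₀ : E Q₀ = 0) : lnVal Q₀ (lnNorm Q₀ E) = 1 :=
  ln_rr_val_eq (lnNorm_spec hF Q₀ E hE hQ₀).2.2

end Genus0

/-! ### The torus of the nodal curve -/

section Torus

variable {k F₁ F₂ : Type} [Field k] [Field F₁] [Algebra k F₁] [Field F₂] [Algebra k F₂]
variable {X : Finset (Place k F₁ × Place k F₂)} {g : ℕ}

/-- pairs of divisors of degree `(0, 0)` supported away from the crossing points -/
structure IsDiv00 (X : Finset (Place k F₁ × Place k F₂)) (E₁ : Divisor k F₁)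
    (E₂ : Divisor k F₂) : Prop where
  deg₁ : Divisor.degree E₁ = 0
  deg₂ : Divisor.degree E₂ = 0
  away₁ : ∀ x ∈ X, E₁ x.1 = 0
  away₂ : ∀ x ∈ X, E₂ x.2 = 0

theorem IsDiv00.zero (X : Finset (Place k F₁ × Place k F₂)) :
    IsDiv00 X (0 : Divisor k F₁) (0 : Divisor k F₂) :=
  ⟨map_zero _, map_zero _, fun _ _ => rfl, fun _ _ => rfl⟩

theorem IsDiv00.add {E₁ E₁' : Divisor k F₁} {E₂ E₂' : Divisor k F₂} (h : IsDiv00 X E₁ E₂)
    (h' : IsDiv00 X E₁' E₂') : IsDiv00 X (E₁ + E₁') (E₂ + E₂') :=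
  ⟨by rw [map_add, h.deg₁, h'.deg₁, add_zero], by rw [map_add, h.deg₂, h'.deg₂, add_zero],
    fun x hx => by rw [Finsupp.add_apply, h.away₁ x hx, h'.away₁ x hx, add_zero],
    fun x hx => by rw [Finsupp.add_apply, h.away₂ x hx, h'.away₂ x hx, add_zero]⟩

theorem IsDiv00.neg {E₁ : Divisor k F₁} {E₂ : Divisor k F₂} (h : IsDiv00 X E₁ E₂) :
    IsDiv00 X (-E₁) (-E₂) :=
  ⟨by rw [map_neg, h.deg₁, neg_zero], by rw [map_neg, h.deg₂, neg_zero],
    fun x hx => by rw [Finsupp.neg_apply, h.away₁ x hx, neg_zero],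
    fun x hx => by rw [Finsupp.neg_apply, h.away₂ x hx, neg_zero]⟩

theorem IsDiv00.nsmul {E₁ : Divisor k F₁} {E₂ : Divisor k F₂} (h : IsDiv00 X E₁ E₂) (m : ℕ) :
    IsDiv00 X (m • E₁) (m • E₂) :=
  ⟨by rw [map_nsmul, h.deg₁, smul_zero], by rw [map_nsmul, h.deg₂, smul_zero],
    fun x hx => by rw [Finsupp.smul_apply, h.away₁ x hx, smul_zero],
    fun x hx => by rw [Finsupp.smul_apply, h.away₂ x hx, smul_zero]⟩

/-- the class of `(E₁, E₂)` in the torus, normalised at the crossing point `x₀` -/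
def lnTau (x₀ : Place k F₁ × Place k F₂) (E₁ : Divisor k F₁) (E₂ : Divisor k F₂)
    (x : Place k F₁ × Place k F₂) : k :=
  lnVal x.1 (lnNorm x₀.1 E₁) / lnVal x.2 (lnNorm x₀.2 E₂)

variable {x₀ : Place k F₁ × Place k F₂}

theorem lnTau_ne_zero (h : IsNodal X g) (hx₀ : x₀ ∈ X) {E₁ : Divisor k F₁} {E₂ : Divisor k F₂}
    (hE : IsDiv00 X E₁ E₂) {x : Place k F₁ × Place k F₂} (hx : x ∈ X) :
    lnTau x₀ E₁ E₂ x ≠ 0 := by
  unfold lnTau
  exact div_ne_zero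
    (lnNorm_val h.nice₁ x₀.1 hE.deg₁ (hE.away₁ x₀ hx₀) (hE.away₁ x hx)).1
    (lnNorm_val h.nice₂ x₀.2 hE.deg₂ (hE.away₂ x₀ hx₀) (hE.away₂ x hx)).1

theorem lnTau_base (h : IsNodal X g) (hx₀ : x₀ ∈ X) {E₁ : Divisor k F₁} {E₂ : Divisor k F₂}
    (hE : IsDiv00 X E₁ E₂) : lnTau x₀ E₁ E₂ x₀ = 1 := by
  unfold lnTau
  rw [lnNorm_val_base h.nice₁ x₀.1 hE.deg₁ (hE.away₁ x₀ hx₀),
    lnNorm_val_base h.nice₂ x₀.2 hE.deg₂ (hE.away₂ x₀ hx₀), div_one]

theorem lnTau_zero (h : IsNodal X g) (x₀ x : Place k F₁ × Place k F₂) :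
    lnTau x₀ (0 : Divisor k F₁) (0 : Divisor k F₂) x = 1 := by
  unfold lnTau
  rw [lnNorm_zero h.nice₁, lnNorm_zero h.nice₂, ln_rr_val_eq (ln_hasValueAt_one x.1),
    ln_rr_val_eq (ln_hasValueAt_one x.2), div_one]

theorem lnTau_add (h : IsNodal X g) (hx₀ : x₀ ∈ X) {E₁ E₁' : Divisor k F₁}
    {E₂ E₂' : Divisor k F₂} (hE : IsDiv00 X E₁ E₂) (hE' : IsDiv00 X E₁' E₂')
    {x : Place k F₁ × Place k F₂} (hx : x ∈ X) :
    lnTau x₀ (E₁ + E₁') (E₂ + E₂') x = lnTau x₀ E₁ E₂ x * lnTau x₀ E₁' E₂' x := by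
  unfold lnTau
  rw [lnNorm_add h.nice₁ x₀.1 hE.deg₁ (hE.away₁ x₀ hx₀) hE'.deg₁ (hE'.away₁ x₀ hx₀),
    lnNorm_add h.nice₂ x₀.2 hE.deg₂ (hE.away₂ x₀ hx₀) hE'.deg₂ (hE'.away₂ x₀ hx₀)]
  have a1 := lnNorm_val h.nice₁ x₀.1 hE.deg₁ (hE.away₁ x₀ hx₀) (hE.away₁ x hx)
  have a2 := lnNorm_val h.nice₂ x₀.2 hE.deg₂ (hE.away₂ x₀ hx₀) (hE.away₂ x hx)
  have b1 := lnNorm_val h.nice₁ x₀.1 hE'.deg₁ (hE'.away₁ x₀ hx₀) (hE'.away₁ x hx)
  have b2 := lnNorm_val h.nice₂ x₀.2 hE'.deg₂ (hE'.away₂ x₀ hx₀) (hE'.away₂ x hx)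
  rw [ln_rr_val_eq (ln_hasValueAt_mul a1.2 b1.2), ln_rr_val_eq (ln_hasValueAt_mul a2.2 b2.2)]
  have := a2.1
  have := b2.1
  field_simp

theorem lnTau_neg (h : IsNodal X g) (hx₀ : x₀ ∈ X) {E₁ : Divisor k F₁} {E₂ : Divisor k F₂}
    (hE : IsDiv00 X E₁ E₂) {x : Place k F₁ × Place k F₂} (hx : x ∈ X) :
    lnTau x₀ (-E₁) (-E₂) x = (lnTau x₀ E₁ E₂ x)⁻¹ := by
  have h1 := lnTau_add h hx₀ hE hE.neg hx
  rw [add_neg_cancel, add_neg_cancel, lnTau_zero h] at h1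
  exact eq_inv_of_mul_eq_one_right h1.symm

theorem lnTau_nsmul (h : IsNodal X g) (hx₀ : x₀ ∈ X) {E₁ : Divisor k F₁} {E₂ : Divisor k F₂}
    (hE : IsDiv00 X E₁ E₂) {x : Place k F₁ × Place k F₂} (hx : x ∈ X) (m : ℕ) :
    lnTau x₀ (m • E₁) (m • E₂) x = lnTau x₀ E₁ E₂ x ^ m := by
  induction m with
  | zero => rw [zero_smul, zero_smul, pow_zero, lnTau_zero h]
  | succ n ih =>
    rw [succ_nsmul, succ_nsmul, lnTau_add h hx₀ (hE.nsmul n) hE hx, ih, pow_succ]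

/-- `(E₁, E₂)` is the divisor of a function on the nodal curve which is a unit at the crossing
points (`R.IsPrincBar (E₁, E₂)` for `X = R.X`) -/
def lnIsPrinc (X : Finset (Place k F₁ × Place k F₂)) (E₁ : Divisor k F₁) (E₂ : Divisor k F₂) :
    Prop :=
  ∃ (f₁ : F₁) (f₂ : F₂), f₁ ≠ 0 ∧ f₂ ≠ 0 ∧
    (∀ x ∈ X, ∃ a : k, a ≠ 0 ∧ HasValueAt x.1 f₁ a ∧ HasValueAt x.2 f₂ a) ∧
    (∀ Q, E₁ Q = Q.ord f₁) ∧ ∀ Q, E₂ Q = Q.ord f₂

/-- **the kernel of the map to the torus**: `(E₁, E₂)` is principal on the nodal curve iff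
`lnTau = 1` -/
theorem lnTau_eq_one_iff (h : IsNodal X g) (hx₀ : x₀ ∈ X) {E₁ : Divisor k F₁}
    {E₂ : Divisor k F₂} (hE : IsDiv00 X E₁ E₂) :
    (∀ x ∈ X, lnTau x₀ E₁ E₂ x = 1) ↔ lnIsPrinc X E₁ E₂ := by
  have s1 := lnNorm_spec h.nice₁ x₀.1 E₁ hE.deg₁ (hE.away₁ x₀ hx₀)
  have s2 := lnNorm_spec h.nice₂ x₀.2 E₂ hE.deg₂ (hE.away₂ x₀ hx₀)
  constructor
  · intro hτ
    refine ⟨lnNorm x₀.1 E₁, lnNorm x₀.2 E₂, s1.1, s2.1, fun x hx => ?_, s1.2.1, s2.2.1⟩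
    have a1 := lnNorm_val h.nice₁ x₀.1 hE.deg₁ (hE.away₁ x₀ hx₀) (hE.away₁ x hx)
    have a2 := lnNorm_val h.nice₂ x₀.2 hE.deg₂ (hE.away₂ x₀ hx₀) (hE.away₂ x hx)
    have h1 := hτ x hx
    unfold lnTau at h1
    have h2 : lnVal x.1 (lnNorm x₀.1 E₁) = lnVal x.2 (lnNorm x₀.2 E₂) := by
      rw [div_eq_one_iff_eq a2.1] at h1
      exact h1
    refine ⟨lnVal x.1 (lnNorm x₀.1 E₁), a1.1, a1.2, ?_⟩
    rw [h2]
    exact a2.2
  · rintro ⟨f₁, f₂, hf₁, hf₂, hg, hd₁, hd₂⟩ x hx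
    obtain ⟨a₀, ha₀, hv₁, hv₂⟩ := hg x₀ hx₀
    -- `f_i = a₀ · lnNorm`
    have e1 : lnNorm x₀.1 E₁ = algebraMap k F₁ a₀⁻¹ * f₁ := by
      refine lnNorm_unique h.nice₁ ⟨mul_ne_zero ((map_ne_zero _).mpr (inv_ne_zero ha₀)) hf₁,
        fun Q => ?_, ?_⟩
      · rw [ln_ord_const_mul Q (inv_ne_zero ha₀), hd₁]
      · have := ln_hasValueAt_mul (ln_hasValueAt_const x₀.1 a₀⁻¹) hv₁
        rwa [inv_mul_cancel₀ ha₀] at this
    have e2 : lnNorm x₀.2 E₂ = algebraMap k F₂ a₀⁻¹ * f₂ := by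
      refine lnNorm_unique h.nice₂ ⟨mul_ne_zero ((map_ne_zero _).mpr (inv_ne_zero ha₀)) hf₂,
        fun Q => ?_, ?_⟩
      · rw [ln_ord_const_mul Q (inv_ne_zero ha₀), hd₂]
      · have := ln_hasValueAt_mul (ln_hasValueAt_const x₀.2 a₀⁻¹) hv₂
        rwa [inv_mul_cancel₀ ha₀] at this
    obtain ⟨a, ha, hw₁, hw₂⟩ := hg x hx
    unfold lnTau
    rw [e1, e2, ln_rr_val_eq (ln_hasValueAt_mul (ln_hasValueAt_const x.1 a₀⁻¹) hw₁),
      ln_rr_val_eq (ln_hasValueAt_mul (ln_hasValueAt_const x.2 a₀⁻¹) hw₂)]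
    exact div_self (mul_ne_zero (inv_ne_zero ha₀) ha)

/-- **the map to the torus is onto** -/
theorem lnTau_surj (h : IsNodal X g) (hx₀ : x₀ ∈ X) (s : Place k F₁ × Place k F₂ → k)
    (hs : ∀ x ∈ X, s x ≠ 0) (hs₀ : s x₀ = 1) :
    ∃ E₂ : Divisor k F₂, IsDiv00 X (0 : Divisor k F₁) E₂ ∧
      ∀ x ∈ X, lnTau x₀ (0 : Divisor k F₁) E₂ x = s x := by
  haveI := h.nice₂.hpd
  -- a smooth point of `C₂`
  have hinf : (Set.univ \ (↑(lnX₂ X) : Set (Place k F₂))).Infinite :=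
    h.nice₂.infinite.sdiff (Finset.finite_toSet _)
  obtain ⟨Q₂, hQ₂⟩ := hinf.nonempty
  have hQ₂X : Q₂ ∉ lnX₂ X := fun hmem => hQ₂.2 (Finset.mem_coe.mpr hmem)
  -- the values to interpolate
  set c : Place k F₂ → k := fun Q =>
    if hQ : ∃ x ∈ X, x.2 = Q then (s hQ.choose)⁻¹ else 0 with hc
  have hcx : ∀ x ∈ X, c x.2 = (s x)⁻¹ := by
    intro x hx
    have hQ : ∃ y ∈ X, y.2 = x.2 := ⟨x, hx, rfl⟩
    have hy := hQ.choose_spec
    have : hQ.choose = x := h.inj₂ _ hy.1 x hx hy.2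
    simp only [hc]
    rw [dif_pos hQ, this]
  set E : Divisor k F₂ := Finsupp.single Q₂ (g : ℤ) with hEdef
  have hEX : ∀ s' ∈ lnX₂ X, E s' = 0 := by
    intro s' hs'
    rw [hEdef, Finsupp.single_eq_of_ne]
    rintro rfl
    exact hQ₂X hs'
  have hEdeg : Divisor.degree E = g := by
    rw [hEdef, Divisor.degree_single, place_deg_eq_one Q₂ (h.nice₂.hres Q₂)]
    push_cast
    ring
  obtain ⟨f, -, hfv⟩ := ln_rr_interp h.nice₂ E (lnX₂ X) hEX (by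
    rw [h.card_X₂, hEdeg]
    push_cast
    rfl) c
  have hfx : ∀ x ∈ X, HasValueAt x.2 f (s x)⁻¹ := by
    intro x hx
    have := hfv x.2 (ln_rr_mem_X₂.mpr ⟨x, hx, rfl⟩)
    rwa [hcx x hx] at this
  have hf0 : f ≠ 0 := ln_ne_zero_of_value (hfx x₀ hx₀) (inv_ne_zero (hs x₀ hx₀))
  obtain ⟨E₂, hE₂, hE₂deg⟩ := HasPrincipalDivisors.exists_divisor (K := k) f hf0
  have hE00 : IsDiv00 X (0 : Divisor k F₁) E₂ :=
    ⟨map_zero _, hE₂deg, fun _ _ => rfl, fun x hx => by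
      rw [hE₂, ln_ord_eq_zero_of_value (hfx x hx) (inv_ne_zero (hs x hx))]⟩
  refine ⟨E₂, hE00, fun x hx => ?_⟩
  have e2 : lnNorm x₀.2 E₂ = f := by
    refine lnNorm_unique h.nice₂ ⟨hf0, hE₂, ?_⟩
    have := hfx x₀ hx₀
    rwa [hs₀, inv_one] at this
  unfold lnTau
  rw [lnNorm_zero h.nice₁, e2, ln_rr_val_eq (ln_hasValueAt_one x.1), ln_rr_val_eq (hfx x hx),
    one_div, inv_inv]

end Torus

end Fermat.Agent.S15.LN
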