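import Fermat.Agent.S15.LocDivPlan
import Fermat.Agent.S15.RedPkg

/-!
# S15 block RED — the package for LOCDIV: `s15red_stmtLdPkg : StmtLdPkg`
-/

set_option autoImplicit false
set_option synthInstance.maxHeartbeats 400000
set_option maxHeartbeats 1600000

open ModularCurve AlgebraicCurve

namespace Fermat.Agent.S15

open Fermat.Agent.S24 Fermat.Agent.ES.M Fermat.Agent.W1 Fermat.Agent.DEU

/-- a natural number which is a unit of `A ∣ ℓ` is prime to `ℓ` -/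
theorem s15red_not_dvd_of_unit {A : ValuationSubring Kb} {ℓ : ℕ} (hA : A.LiesOverPrime ℓ)
    {m : ℕ} (hm : (m : Kb) ∉ A.nonunits) : ¬ ℓ ∣ m := by
  rintro ⟨c, rfl⟩
  apply hm
  have hℓ : (ℓ : Kb) ∈ A.nonunits := hA
  have hc : ((c : ℕ) : Kb) ∈ A := natCast_mem A c
  rw [Nat.cast_mul]
  rw [ValuationSubring.mem_nonunits_iff_exists_mem_maximalIdeal] at hℓ ⊢
  obtain ⟨hℓA, hℓm⟩ := hℓ
  refine ⟨A.mul_mem _ _ hℓA hc, ?_⟩
  have : (⟨(ℓ : Kb) * (c : Kb), A.mul_mem _ _ hℓA hc⟩ : A) = ⟨(ℓ : Kb), hℓA⟩ * ⟨(c : Kb), hc⟩ :=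
    rfl
  rw [this]
  exact Ideal.mul_mem_right _ _ hℓm

/-- **the package for LOCDIV** -/
theorem s15red_stmtLdPkg : StmtLdPkg := by
  intro N _ ℓ hℓ hℓN hcase A hA
  obtain ⟨r, sp, Pinf, Qinf, h⟩ := s15red_exists_pkg N ℓ hℓ hℓN hcase A hA
  refine ⟨gN N, modPRData N A (stmtRedF N A ℓ hℓ hℓN hA) r, ?_⟩
  exact
    { modPR := h.modPR
      mem_iff := fun _ => Iff.rfl
      red_spec := fun x =>
        (deuValRed_iff N A (stmtRedF N A ℓ hℓ hℓN hA) (x : FF N) _).mpr ⟨x.2, rfl⟩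
      tf := fun m hm y hy hmy =>
        h.s18 m (s15red_not_dvd_of_unit hA hm) y hmy ((h.sp_eq_zero_iff y).mpr hy) }

end Fermat.Agent.S15
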