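import Fermat.Agent.S15.LocDivBridge
import Fermat.Agent.S15.RedLdPkg

/-!
# S15 / LOCDIV: `StmtLocDiv` from the Fricke product

`stmtLocDiv_of : StmtModFricke → StmtModFricke0 → StmtLocDiv`  (the package `StmtLdPkg` is
unconditional: `s15red_stmtLdPkg`, helper89).

For `A ∣ v ≠ p` and a prime `r ≠ v` choose `ℓ' ∈ {2, 3}` with `v ∤ p ℓ'`, `(5 − v) ∣ p ℓ'` if
`v < 5`, `r ∤ ℓ' + 1`, and a package `R` of `X₀(p ℓ')` at `A`.  The detecting function is the Fricke
product `Π₀` (a unit at the cusp `∞`, zero at the cusp `0`, poles over `j = 1728`).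

* `Π₀(x)` a unit: `ld_case` with the coordinate `t = j` at `P₀ = ∞`;
* `Π₀(x)` a non-unit: `ld_bridge` gives `j_p(x) ∉ A`, then `ld_case` with `t = j_p` at `P₀ = 0`.
-/

set_option autoImplicit false
set_option linter.unusedSectionVars false
set_option linter.style.haveILetI false
set_option synthInstance.maxHeartbeats 400000
set_option maxHeartbeats 1600000

noncomputable section

namespace Fermat.Agent.S15

open ModularCurve AlgebraicCurve
open Fermat.Agent.S24 Fermat.Agent.ES Fermat.Agent.ES.M Fermat.Agent.W1 Fermat.Agent.S15.LD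

/-- **LOCDIV** from the package and the Fricke product. -/
theorem stmtLocDiv_of_pkg (hPkg : StmtLdPkg) (hF : StmtModFricke) (hF0 : StmtModFricke0) :
    StmtLocDiv := by
  intro p _ hML v hv hvp r hr hrv A hA x a c hx ha hc
  have hp : p.Prime := hML.1
  have hp2 : p ≠ 2 := fun h => hML.2 (by rw [h]; decide)
  have hp3 : p ≠ 3 := fun h => hML.2 (by rw [h]; decide)
  obtain ⟨ℓ', hℓ', hℓ'p, hvN, hcase, hrn⟩ := lda_exists_level hp hp2 hp3 hv hvp hr hrv
  haveI : NeZero ℓ' := ⟨hℓ'.ne_zero⟩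
  obtain ⟨g, R, hP⟩ := hPkg (p * ℓ') v hv hvN hcase A hA
  -- the Fricke product
  obtain ⟨f, hfF, -⟩ := hF p hp 0
  obtain ⟨⟨Y, hY, hYint, hY0⟩, hfpoles, hfzero⟩ := hF0 p hp f hfF
  have hxc : HasValueAt x f (algebraMap ℚ Kb c) := hx.val_pi f hfF
  have hfinf : HasValueAt (cuspInf p) f (algebraMap ℚ Kb (PowerSeries.coeff 0 Y)) :=
    ldc_hv_cuspInf p f Y hY
  obtain ⟨-, hc₀⟩ := lda_unit_of_sq hv hA hp hvp (PowerSeries.coeff 0 Y) hY0
  have hf0 : HasValueAt (cuspZero p) f 0 := ld_hv_zero_of_ord_pos _ hfzero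
  have hfmem : ldφ p ℓ' f ∈ R.O := by
    refine ldnc_mem_of_int hP (ldφ p ℓ' f) Y ?_ (fun n => lda_int_mem hv hA hp hvp _ (hYint n))
    rw [ldφ_coe, hY]
  have h1728 : ((1728 : ℕ) : Kb) ∈ A := by
    rw [← map_natCast (algebraMap ℤ Kb)]
    simpa using A.toSubring.natCast_mem 1728
  have hpoles_f : ∀ P : Place Kb (FF p), P.ord f < 0 →
      ∃ a₀ : A, HasValueAt P (jF p) (a₀ : Kb) := by
    intro P hP'
    refine ⟨⟨((1728 : ℕ) : Kb), h1728⟩, ?_⟩
    have := hfpoles P hP'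
    simpa using this
  constructor
  · -- the cusp `0`
    intro hcnon u hu
    obtain ⟨b, hb, hbA⟩ := ld_bridge hp hℓ' hℓ'p hv hA hvN hP f hfmem x _ _ _ ha hx.val_j hxc
      hcnon hpoles_f hfinf hc₀ hf0
    refine ld_case hℓ' hℓ'p hv hA hvN hP hr hrv hrn (jdF p p dvd_rfl) f (cuspZero p) x b
      (algebraMap ℚ Kb c) ?_ (fun σ => galAct_smul_cuspZero σ) (fun σ _ => hx.fixed σ) ?_ hfmem hbA hb hxc
      (fun P h => ld_pole_jdF P p dvd_rfl h) hpoles_f ?_ u hu
    · rw [cuspZero_ord_jdF, Nat.div_self hp.pos]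
      rfl
    · rw [ldφ_jdF]
      exact ldnc_mem_jdF hP p (dvd_mul_right p ℓ')
    · intro P hP' hne
      rcases ogg_pole_cases p hp P (ld_pole_jdF P p dvd_rfl hP') with h | h
      · refine ⟨_, h ▸ hfinf, fun hiff => hc₀ (hiff.mpr hcnon)⟩
      · exact absurd h hne
  · -- the cusp `∞`
    intro hcunit z hz
    refine ld_case hℓ' hℓ'p hv hA hvN hP hr hrv hrn (jF p) f (cuspInf p) x (algebraMap ℚ Kb a)
      (algebraMap ℚ Kb c) (cuspInf_ord_jF p) (fun σ => galAct_smul_cuspInf σ) (fun σ _ => hx.fixed σ) ?_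
      hfmem ha hx.val_j hxc (fun P h => h) hpoles_f ?_ z hz
    · rw [ldφ_jF]
      exact hP.modPR.good.1
    · intro P hP' hne
      rcases ogg_pole_cases p hp P hP' with h | h
      · exact absurd h hne
      · refine ⟨0, h ▸ hf0, fun hiff => hcunit (hiff.mp (ge_zero_mem_nonunits _))⟩

/-- **LOCDIV**, with the package of helper89. -/
theorem stmtLocDiv_of (hF : StmtModFricke) (hF0 : StmtModFricke0) : StmtLocDiv :=
  stmtLocDiv_of_pkg s15red_stmtLdPkg hF hF0

end Fermat.Agent.S15
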