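import Fermat.Agent.S15.LocDivVal
import Fermat.Agent.S15.Cusp
import Fermat.Agent.ES.I2.E
import Fermat.Agent.S18.CuspPlace

/-!
# S15 / LOCDIV, piece LD-CUSP: values at the two cusps of `X₀(N)` (`q`-expansions only)

* `ldc_hv_cuspInf` : a function whose `q`-expansion is a power series `Y` has the value `Y(0)` at
  the cusp `∞`;
* `ldc_hv_cuspZero_iff` : `f(0) = c ↔ (w_N f)(∞) = c`;
* `ldc_hv_cuspInf_ratio` : `(j^N / j_N)(∞) = 1`;
* `ldc_hv_cuspZero_ratio` : `(j_N^N / j)(0) = 1`.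
-/

set_option autoImplicit false
set_option linter.unusedSectionVars false
set_option linter.style.haveILetI false

noncomputable section

namespace Fermat.Agent.S15.LD

open ModularCurve AlgebraicCurve HahnSeries
open Fermat.Agent.S24 Fermat.Agent.ES.M Fermat.Agent.W1 Fermat.Agent.S15

variable (N : ℕ) [NeZero N]

/-- a nonzero Laurent series whose coefficients vanish in degrees `≤ n` has order `> n` -/
theorem ldc_lt_order {R : Type*} [Zero R] {x : HahnSeries ℤ R} (hx : x ≠ 0) {n : ℤ}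
    (h : ∀ m : ℤ, m ≤ n → x.coeff m = 0) : n < x.order := by
  by_contra hle
  exact hx (HahnSeries.coeff_order_eq_zero.mp (h _ (not_lt.mp hle)))

/-- a function with positive `q`-order of `f - c` has the value `c` at the cusp `∞` -/
theorem ldc_hv_cuspInf_of_coeff (f : FF N) (c : Kb)
    (h : ∀ m : ℤ, m ≤ 0 →
      ((f - algebraMap Kb (FF N) c : FF N) : LaurentSeries Kb).coeff m = 0) :
    HasValueAt (cuspInf N) f c := by
  rcases eq_or_ne (f - algebraMap Kb (FF N) c) 0 with h0 | h0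
  · exact hasValueAt_of_eq _ h0
  · rw [hasValueAt_iff_ord_pos _ h0, cuspInf_ord h0]
    exact ldc_lt_order (fun hz => h0 (Subtype.ext hz)) h

/-- **value at `∞`** of a function whose `q`-expansion is a power series -/
theorem ldc_hv_cuspInf (f : FF N) (Y : PowerSeries ℚ)
    (hf : (f : LaurentSeries Kb) = coeffEmb Kb (HahnSeries.ofPowerSeries ℤ ℚ Y)) :
    HasValueAt (cuspInf N) f (algebraMap ℚ Kb (PowerSeries.coeff 0 Y)) := by
  refine ldc_hv_cuspInf_of_coeff N f _ fun m hm => ?_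
  have e : ((f - algebraMap Kb (FF N) (algebraMap ℚ Kb (PowerSeries.coeff 0 Y)) : FF N) :
      LaurentSeries Kb) = (f : LaurentSeries Kb) -
        HahnSeries.C (algebraMap ℚ Kb (PowerSeries.coeff 0 Y)) := by
    rw [AddSubgroupClass.coe_sub, Fermat.Agent.S18.coe_algebraMap_eq_C]
  rw [e, HahnSeries.coeff_sub, hf, coeffEmb_coeff, HahnSeries.C_apply]
  rcases hm.lt_or_eq with hlt | heq
  · rw [ofPowerSeries_coeff_of_neg _ hlt, map_zero, HahnSeries.coeff_single_of_ne hlt.ne,
      sub_zero]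
  · subst heq
    have h0 : (HahnSeries.ofPowerSeries ℤ ℚ Y).coeff ((0 : ℕ) : ℤ) = PowerSeries.coeff 0 Y :=
      HahnSeries.ofPowerSeries_apply_coeff Y 0
    rw [Nat.cast_zero] at h0
    rw [h0, HahnSeries.coeff_single_same, sub_self]

/-- **value at `0`**: `f(0) = c ↔ (w_N f)(∞) = c` -/
theorem ldc_hv_cuspZero_iff (f : FF N) (c : Kb) :
    HasValueAt (cuspZero N) f c ↔ HasValueAt (cuspInf N) (frickeAut N f) c := by
  have e : frickeAut N (f - algebraMap Kb (FF N) c) =
      frickeAut N f - algebraMap Kb (FF N) c := by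
    rw [map_sub, AlgEquiv.commutes]
  rcases eq_or_ne (f - algebraMap Kb (FF N) c) 0 with h0 | h0
  · have h0' : frickeAut N f - algebraMap Kb (FF N) c = 0 := by
      rw [← e, h0, map_zero]
    exact ⟨fun _ => hasValueAt_of_eq _ h0', fun _ => hasValueAt_of_eq _ h0⟩
  · have h0' : frickeAut N f - algebraMap Kb (FF N) c ≠ 0 := by
      rw [← e]
      exact (map_ne_zero_iff _ (frickeAut N).injective).mpr h0
    rw [hasValueAt_iff_ord_pos _ h0, hasValueAt_iff_ord_pos _ h0', cuspZero_ord, e]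

/-- the `q`-expansion of `j^N - j_N` has no terms of degree `≤ -N` -/
theorem ldc_coeff_pow_sub (m : ℤ) (hm : m ≤ -(N : ℤ)) :
    ((jF N ^ N - jdF N N dvd_rfl : FF N) : LaurentSeries Kb).coeff m = 0 := by
  have e : ((jF N ^ N - jdF N N dvd_rfl : FF N) : LaurentSeries Kb) =
      jqModC Kb ^ N - qExpand Kb N (jqModC Kb) := by
    rw [AddSubgroupClass.coe_sub, SubmonoidClass.coe_pow, Fermat.Agent.ES.I2.i2e_jF_coe,
      Fermat.Agent.ES.I2.i2e_jdF_coe]
  rw [e, HahnSeries.coeff_sub]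
  rcases hm.lt_or_eq with hlt | heq
  · rw [coeff_jqModC_pow_of_lt Kb hlt, zero_sub, neg_eq_zero]
    by_cases hd : (N : ℤ) ∣ m
    · obtain ⟨k, rfl⟩ := hd
      rw [qExpand_coeff_mul]
      apply coeff_jqModC_of_lt
      have hN : (0 : ℤ) < N := by exact_mod_cast Nat.pos_of_ne_zero (NeZero.ne N)
      by_contra hk
      have hk' : -1 ≤ k := not_lt.mp hk
      have := mul_le_mul_of_nonneg_left hk' hN.le
      linarith
    · exact qExpand_coeff_of_not_dvd N _ hd
  · subst heq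
    have h1 : (qExpand Kb N (jqModC Kb)).coeff (-(N : ℤ)) = (jqModC Kb).coeff (-1) := by
      have := qExpand_coeff_mul N (jqModC Kb) (-1)
      rwa [mul_neg_one] at this
    rw [coeff_jqModC_pow_self, h1, coeff_jqModC_neg_one, sub_self]

/-- **`(j^N / j_N)(∞) = 1`** -/
theorem ldc_hv_cuspInf_ratio :
    HasValueAt (cuspInf N) (jF N ^ N / jdF N N dvd_rfl) 1 := by
  have hjN : jdF N N dvd_rfl ≠ 0 := fr_jdF_ne_zero N dvd_rfl
  have e : jF N ^ N / jdF N N dvd_rfl - algebraMap Kb (FF N) 1 =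
      (jF N ^ N - jdF N N dvd_rfl) * (jdF N N dvd_rfl)⁻¹ := by
    rw [map_one]
    field_simp
  rcases eq_or_ne (jF N ^ N - jdF N N dvd_rfl) 0 with h0 | h0
  · refine hasValueAt_of_eq _ ?_
    rw [e, h0, zero_mul]
  · have hne : jF N ^ N / jdF N N dvd_rfl - algebraMap Kb (FF N) 1 ≠ 0 := by
      rw [e]
      exact mul_ne_zero h0 (inv_ne_zero hjN)
    rw [hasValueAt_iff_ord_pos _ hne, e, Place.ord_mul _ h0 (inv_ne_zero hjN), Place.ord_inv,
      cuspInf_ord_jdF, cuspInf_ord h0]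
    have := ldc_lt_order (fun hz => h0 (Subtype.ext hz)) (ldc_coeff_pow_sub N)
    omega

/-- **`(j_N^N / j)(0) = 1`** -/
theorem ldc_hv_cuspZero_ratio :
    HasValueAt (cuspZero N) (jdF N N dvd_rfl ^ N / jF N) 1 := by
  rw [ldc_hv_cuspZero_iff]
  have e : frickeAut N (jdF N N dvd_rfl ^ N / jF N) = jF N ^ N / jdF N N dvd_rfl := by
    rw [map_div₀, map_pow, frickeAut_jF, ← frickeAut_jF, frickeAut_frickeAut]
  rw [e]
  exact ldc_hv_cuspInf_ratio N

end Fermat.Agent.S15.LD
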