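import Fermat.Agent.S15.LocDivCase
import Fermat.Agent.S15.LocDivCusp
import Fermat.Agent.S15.LocDivAux
import Fermat.Agent.S15.OggDiv
import Fermat.Agent.ES.M.FrickePlaces

/-!
# S15 / LOCDIV: the bridge `Π₀(x)` non-unit `⇒ j_p(x) ∉ A`

`ld_bridge` : at the level `p ℓ'` with a package `R`; `f` a detecting function on `X₀(p)` (unit at
the cusp `∞`, zero at the cusp `0`, poles where `j ∈ A`), `x` a place of `F_p` with `j(x) ∉ A` and
`f(x)` a non-unit.  Then `x` is not a pole of `j_p` and `j_p(x) ∉ A`.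

Proof: a place `w` over `x` reduces to the reduction of a cusp `c'` over the cusp `0`; the function
`G = j_p^p / j` has the value `1` at the cusp `0` and its poles (zeros of `j`, the cusp `∞`) do not
reduce to `r(c')`, so `G(x) = j_p(x)^p / j(x)` is a unit of `A`.
-/

set_option autoImplicit false
set_option linter.unusedSectionVars false
set_option linter.style.haveILetI false
set_option synthInstance.maxHeartbeats 400000
set_option maxHeartbeats 1600000

noncomputable section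

namespace Fermat.Agent.S15.LD

open ModularCurve AlgebraicCurve AlgebraicCurve.SemilinearAut
open Fermat.Agent.S24 Fermat.Agent.ES Fermat.Agent.ES.M Fermat.Agent.W1 Fermat.Agent.STB
  Fermat.Agent.S15 Fermat.Agent.DEU

variable {p ℓ' : ℕ} [NeZero p] [NeZero ℓ']

theorem ldφ_jdF : ldφ p ℓ' (jdF p p dvd_rfl) = jdF (p * ℓ') p (dvd_mul_right p ℓ') :=
  Subtype.ext (ldφ_coe p ℓ' _)

/-- the poles of `j_p` are poles of `j` -/
theorem ld_pole_jdF {N : ℕ} [NeZero N] (P : Place Kb (FF N)) (d : ℕ) (hd : d ∣ N)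
    (h : P.ord (jdF N d hd) < 0) : P.ord (jF N) < 0 := by
  by_contra hn
  have hj : jF N ∈ P.toValuationSubring := ge_mem_of_not_ord_neg P hn
  have := ge_ord_nonneg_of_mem P (fr_jdF_mem P.toValuationSubring hj d hd)
  omega

/-- **the bridge** -/
theorem ld_bridge (hp : p.Prime) (hℓ' : ℓ'.Prime) (hℓ'p : ¬ ℓ' ∣ p)
    {A : ValuationSubring Kb} {v : ℕ} (hv : v.Prime) (hA : A.LiesOverPrime v)
    (hvN : ¬ v ∣ p * ℓ') {g : ℕ}
    {R : PRData Kb (FF (p * ℓ')) (kA A) ↥(modularFunctionFieldFullC (kA A) (p * ℓ')) A}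
    (hP : LdPkg (p * ℓ') A g R)
    (f : FF p) (hf : ldφ p ℓ' f ∈ R.O) (x : Place Kb (FF p)) (a c c₀ : Kb)
    (ha : a ∉ A) (hxa : HasValueAt x (jF p) a) (hxc : HasValueAt x f c)
    (hc : c ∈ A.nonunits)
    (hpoles_f : ∀ P : Place Kb (FF p), P.ord f < 0 → ∃ a₀ : A, HasValueAt P (jF p) (a₀ : Kb))
    (hfinf : HasValueAt (cuspInf p) f c₀) (hc₀ : c₀ ∉ A.nonunits)
    (hfzero : HasValueAt (cuspZero p) f 0) :
    ∃ b : Kb, HasValueAt x (jdF p p dvd_rfl) b ∧ b ∉ A := by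
  haveI := H.hasPrincipalDivisors_FF (p * ℓ')
  have hR := hP.modPR.isPR
  have hn := hP.modPR.nice
  have hnk := hP.modPR.nice_k
  have hφ := ldφ_integral p ℓ'
  have hjmem : jF (p * ℓ') ∈ R.O := hP.modPR.good.1
  have ha0 : a ≠ 0 := fun h => ha (h ▸ A.zero_mem)
  -- poles of `φ f` do not meet poles of `j`
  have hno_f : ∀ P' c' : Place Kb (FF (p * ℓ')), P'.ord (ldφ p ℓ' f) < 0 →
      c'.ord (jF (p * ℓ')) < 0 → R.r P' ≠ R.r c' := by
    intro P' c' hP' hc'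
    obtain ⟨a₀, ha₀⟩ := hpoles_f _ ((ld_ord_map_neg_iff (ldφ p ℓ') hφ P' f).mp hP')
    have h1 : HasValueAt P' (jF (p * ℓ')) (a₀ : Kb) := by
      rw [← ldφ_jF p ℓ']
      exact (ld_hasValueAt_map (ldφ p ℓ') hφ P' (jF p) a₀).mpr ha₀
    exact ldnc_no_meet hv hvN hA hP a₀ P' c' h1 hc'
  -- Step 1: the value `b`
  have hj : jF p ∈ x.toValuationSubring := HasValueAt.mem x hxa
  have hjp : jdF p p dvd_rfl ∈ x.toValuationSubring := fr_jdF_mem x.toValuationSubring hj p dvd_rfl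
  obtain ⟨b, hb⟩ := ge_exists_value x (H.residue_bijective_FF p x) hjp
  refine ⟨b, hb, ?_⟩
  -- Step 2: a place over `x`
  have hfr : finrankAlong Kb (ldφ p ℓ') = ℓ' + 1 := G2.hdeg_finrank p ℓ' hℓ' hℓ'p
  obtain ⟨w, hw⟩ := lda_exists_over (ldφ p ℓ') hφ (ldφ_fundamentalIdentity p ℓ')
    (by rw [hfr]; exact Nat.succ_ne_zero _) x
    (by rw [Fermat.Agent.ES.R.place_deg_eq_one x (H.residue_bijective_FF p x)]; exact one_ne_zero)
  -- Step 3: it reduces to the reduction of a cusp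
  have hwa : HasValueAt w (jF (p * ℓ')) a := by
    rw [← ldφ_jF p ℓ']
    refine (ld_hasValueAt_map (ldφ p ℓ') hφ w (jF p) a).mpr ?_
    rw [hw]; exact hxa
  obtain ⟨c', hc'pole, hc'r⟩ := ld_exists_pole hR hn hnk ⟨jF (p * ℓ'), hjmem⟩ w a ha hwa
  have hc'pole' : c'.ord (jF (p * ℓ')) < 0 := hc'pole
  have hQpole : (c'.restrictAlong (ldφ p ℓ') hφ).ord (jF p) < 0 := by
    refine (ld_ord_map_neg_iff (ldφ p ℓ') hφ c' (jF p)).mp ?_
    rw [ldφ_jF]; exact hc'pole'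
  have hwc : HasValueAt w (ldφ p ℓ' f) c := by
    refine (ld_hasValueAt_map (ldφ p ℓ') hφ w f c).mpr ?_
    rw [hw]; exact hxc
  -- Step 4: the cusp lies over the cusp `0`
  have hQ : c'.restrictAlong (ldφ p ℓ') hφ = cuspZero p := by
    rcases ogg_pole_cases p hp _ hQpole with hQ | hQ
    · exfalso
      have h1 : HasValueAt c' (ldφ p ℓ' f) c₀ := by
        refine (ld_hasValueAt_map (ldφ p ℓ') hφ c' f c₀).mpr ?_
        rw [hQ]; exact hfinf
      have h3 := ld_unit_iff hR hn hnk ⟨ldφ p ℓ' f, hf⟩ c' w hc'r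
        (fun P' hP' => hno_f P' c' hP' hc'pole') c₀ c h1 hwc
      exact hc₀ (h3.2.2.mpr hc)
    · exact hQ
  have hc'f : HasValueAt c' (ldφ p ℓ' f) 0 := by
    refine (ld_hasValueAt_map (ldφ p ℓ') hφ c' f 0).mpr ?_
    rw [hQ]; exact hfzero
  -- Step 5: the function `G`
  set G : FF p := jdF p p dvd_rfl ^ p / jF p with hG
  have hjinv : (jF (p * ℓ'))⁻¹ ∈ R.O := by
    by_contra h
    have h1 : jF (p * ℓ') ∈ R.O.nonunits :=
      (ValuationSubring.mem_nonunits_iff_or _).mpr (Or.inr h)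
    have h2 := (hR.red_eq_zero_iff ⟨jF (p * ℓ'), hjmem⟩).mpr h1
    rw [ldnc_red_jF hP hjmem] at h2
    exact deuGood_transcendental_jk (kA A) (p * ℓ') (h2 ▸ isAlgebraic_zero)
  have hGmem : ldφ p ℓ' G ∈ R.O := by
    rw [hG, map_div₀, map_pow, ldφ_jF, ldφ_jdF, div_eq_mul_inv]
    exact mul_mem (pow_mem (ldnc_mem_jdF hP p (dvd_mul_right p ℓ')) p) hjinv
  -- Step 6: values of `G`
  have hGc' : HasValueAt c' (ldφ p ℓ' G) 1 := by
    refine (ld_hasValueAt_map (ldφ p ℓ') hφ c' G 1).mpr ?_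
    rw [hQ]; exact ldc_hv_cuspZero_ratio p
  have hGx : HasValueAt x G (b ^ p / a) := ld_hv_div x (ld_hv_pow x hb p) hxa ha0
  have hGw : HasValueAt w (ldφ p ℓ' G) (b ^ p / a) := by
    refine (ld_hasValueAt_map (ldφ p ℓ') hφ w G _).mpr ?_
    rw [hw]; exact hGx
  -- Step 7: the poles of `φ G` do not reduce to `r c'`
  have hjF0 : jF p ≠ 0 := fr_jF_ne_zero
  have hjd0 : jdF p p dvd_rfl ≠ 0 := fr_jdF_ne_zero p dvd_rfl
  have hordG : ∀ Q : Place Kb (FF p), Q.ord G = (p : ℤ) * Q.ord (jdF p p dvd_rfl) -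
      Q.ord (jF p) := by
    intro Q
    rw [hG, div_eq_mul_inv, Q.ord_mul (pow_ne_zero _ hjd0) (inv_ne_zero hjF0), Q.ord_inv]
    have := Q.ord_zpow (jdF p p dvd_rfl) (p : ℤ)
    rw [zpow_natCast] at this
    rw [this]; ring
  have hnoG : ∀ P' : Place Kb (FF (p * ℓ')), P'.ord (ldφ p ℓ' G) < 0 → R.r P' ≠ R.r c' := by
    intro P' hP'
    have hQ' : (P'.restrictAlong (ldφ p ℓ') hφ).ord G < 0 :=
      (ld_ord_map_neg_iff (ldφ p ℓ') hφ P' G).mp hP'
    rw [hordG] at hQ'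
    by_cases hj0 : 0 < (P'.restrictAlong (ldφ p ℓ') hφ).ord (jF p)
    · have h1 : HasValueAt P' (jF (p * ℓ')) (((0 : A) : A) : Kb) := by
        rw [← ldφ_jF p ℓ']
        refine (ld_hasValueAt_map (ldφ p ℓ') hφ P' (jF p) _).mpr ?_
        exact ld_hv_zero_of_ord_pos _ hj0
      exact ldnc_no_meet hv hvN hA hP 0 P' c' h1 hc'pole'
    · have hp0 : (0 : ℤ) < p := by exact_mod_cast hp.pos
      have hjdneg : (P'.restrictAlong (ldφ p ℓ') hφ).ord (jdF p p dvd_rfl) < 0 := by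
        by_contra hcon
        have : 0 ≤ (p : ℤ) * (P'.restrictAlong (ldφ p ℓ') hφ).ord (jdF p p dvd_rfl) :=
          mul_nonneg hp0.le (not_lt.mp hcon)
        omega
      rcases ogg_pole_cases p hp _ (ld_pole_jdF _ p dvd_rfl hjdneg) with hc | hc
      · intro hr
        have h1 : HasValueAt P' (ldφ p ℓ' f) c₀ := by
          refine (ld_hasValueAt_map (ldφ p ℓ') hφ P' f c₀).mpr ?_
          rw [hc]; exact hfinf
        have h3 := ld_unit_iff hR hn hnk ⟨ldφ p ℓ' f, hf⟩ P' c' hr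
          (fun P'' hP'' => by rw [hr]; exact hno_f P'' c' hP'' hc'pole') c₀ 0 h1 hc'f
        exact hc₀ (h3.2.2.mpr (ge_zero_mem_nonunits _))
      · exfalso
        rw [hc, cuspZero_ord_jdF, cuspZero_ord_jF, Nat.div_self hp.pos] at hQ'
        push_cast at hQ'
        omega
  -- Step 8: `G(x)` is a unit
  have h8 := ld_unit_iff hR hn hnk ⟨ldφ p ℓ' G, hGmem⟩ c' w hc'r
    (fun P' hP' => hnoG P' hP') 1 (b ^ p / a) hGc' hGw
  obtain ⟨-, hyA, hyiff⟩ := h8
  have h1non : (1 : Kb) ∉ A.nonunits := by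
    rw [ValuationSubring.mem_nonunits_iff_or]
    push Not
    exact ⟨one_ne_zero, by rw [inv_one]; exact A.one_mem⟩
  have hynon : b ^ p / a ∉ A.nonunits := fun h => h1non (hyiff.mpr h)
  rw [ValuationSubring.mem_nonunits_iff_or] at hynon
  push Not at hynon
  obtain ⟨hy0, hyinv⟩ := hynon
  intro hbA
  apply ha
  have hb0 : b ^ p ≠ 0 := by
    intro h
    rw [h, zero_div] at hy0
    exact hy0 rfl
  have e : a = b ^ p * (b ^ p / a)⁻¹ := by
    field_simp
  rw [e]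
  exact A.mul_mem _ _ (pow_mem hbA p) hyinv

end Fermat.Agent.S15.LD
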