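import Fermat.Agent.S15.LocDivCore
import Fermat.Agent.S15.LocDivNC

/-!
# S15 / LOCDIV: the core theorem `ld_case`

See `LocDivCore.lean` for the setting.  `ld_case` is the common part of the two cases of
`StmtLocDiv` (coordinate `t = j` at the cusp `∞`, `t = j_p` at the cusp `0`).
-/

set_option autoImplicit false
set_option linter.unusedSectionVars false
set_option linter.style.haveILetI false
set_option synthInstance.maxHeartbeats 400000
set_option maxHeartbeats 1600000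

noncomputable section

namespace Fermat.Agent.S15.LD

open ModularCurve AlgebraicCurve AlgebraicCurve.SemilinearAut
open Fermat.Agent.S24 Fermat.Agent.ES Fermat.Agent.ES.M Fermat.Agent.W1 Fermat.Agent.STB
  Fermat.Agent.S15

/-- a prime different from the residue characteristic is a unit of `A` -/
theorem ld_prime_unit {A : ValuationSubring Kb} {v : ℕ} (hv : v.Prime) (hA : A.LiesOverPrime v)
    {r : ℕ} (hr : r.Prime) (hrv : r ≠ v) : (r : Kb) ∉ A.nonunits := by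
  rw [Fermat.Agent.S05.natCast_mem_nonunits_iff A hv hA r]
  intro h
  exact hrv ((Nat.prime_dvd_prime_iff_eq hv hr).mp h).symm

theorem ld_pow_unit {A : ValuationSubring Kb} {r : ℕ} (hr : (r : Kb) ∉ A.nonunits) (k : ℕ) :
    ((r ^ k : ℕ) : Kb) ∉ A.nonunits := by
  rw [A.mem_nonunits_iff, not_lt] at hr ⊢
  rw [Nat.cast_pow, map_pow]
  exact one_le_pow₀ hr

/-- the class `[(x) − (P₀)]` is fixed by every `σ` fixing `x` and `P₀` -/
theorem ld_diffClass_fixed {N : ℕ} [NeZero N] {x P₀ : Place Kb (FF N)} {u : JZero N}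
    (hu : IsDiffClass N x P₀ u) (σ : GalQ) (hx : galAct N σ • x = x)
    (hP₀ : galAct N σ • P₀ = P₀) : σ • u = u := by
  obtain ⟨D, hD, rfl⟩ := hu
  rw [galois_smul_pic0_def, SemilinearAut.pic0_smul_mk]
  congr 1
  apply Subtype.ext
  rw [SemilinearAut.coe_degZeroSMulHom, hD, smul_sub, SemilinearAut.smul_single,
    SemilinearAut.smul_single]
  change Finsupp.single (galAct N σ • x) 1 - Finsupp.single (galAct N σ • P₀) 1 = _
  rw [hx, hP₀]

variable {p ℓ' : ℕ} [NeZero p] [NeZero ℓ']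

/-- **LOCDIV, core.** -/
theorem ld_case (hℓ' : ℓ'.Prime) (hℓ'p : ¬ ℓ' ∣ p)
    {A : ValuationSubring Kb} {v : ℕ} (hv : v.Prime) (hA : A.LiesOverPrime v)
    (hvN : ¬ v ∣ p * ℓ') {g : ℕ}
    {R : PRData Kb (FF (p * ℓ')) (kA A) ↥(modularFunctionFieldFullC (kA A) (p * ℓ')) A}
    (hP : LdPkg (p * ℓ') A g R)
    {r : ℕ} (hr : r.Prime) (hrv : r ≠ v) (hrn : Nat.Coprime r (ℓ' + 1))
    (t f : FF p) (P₀ x : Place Kb (FF p)) (a c : Kb)
    (hP₀ : P₀.ord t = -1) (hP₀fix : ∀ σ : GalQ, galAct p σ • P₀ = P₀)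
    (hxfix : ∀ σ ∈ A.decompositionSubgroup ℚ, galAct p σ • x = x)
    (ht : ldφ p ℓ' t ∈ R.O) (hf : ldφ p ℓ' f ∈ R.O)
    (ha : a ∉ A) (hxa : HasValueAt x t a) (hxc : HasValueAt x f c)
    (hpoles_t : ∀ P : Place Kb (FF p), P.ord t < 0 → P.ord (jF p) < 0)
    (hpoles_f : ∀ P : Place Kb (FF p), P.ord f < 0 → ∃ a₀ : A, HasValueAt P (jF p) (a₀ : Kb))
    (hdet : ∀ P : Place Kb (FF p), P.ord t < 0 → P ≠ P₀ →
      ∃ cP : Kb, HasValueAt P f cP ∧ ¬ (cP ∈ A.nonunits ↔ c ∈ A.nonunits))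
    (u : JZero p) (hu : IsDiffClass p x P₀ u) :
    LocDivAbs (A.decompositionSubgroup ℚ) r u := by
  haveI := H.hasPrincipalDivisors_FF (p * ℓ')
  have hR := hP.modPR.isPR
  have hn := hP.modPR.nice
  have hnk := hP.modPR.nice_k
  have hφ := ldφ_integral p ℓ'
  -- poles of `φ f` do not meet poles of `φ t`
  have hno : ∀ P' c' : Place Kb (FF (p * ℓ')), P'.ord (ldφ p ℓ' f) < 0 →
      c'.ord (ldφ p ℓ' t) < 0 → R.r P' ≠ R.r c' := by
    intro P' c' hP' hc'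
    obtain ⟨a₀, ha₀⟩ := hpoles_f _ ((ld_ord_map_neg_iff (ldφ p ℓ') hφ P' f).mp hP')
    have h1 : HasValueAt P' (jF (p * ℓ')) (a₀ : Kb) := by
      rw [← ldφ_jF p ℓ']
      exact (ld_hasValueAt_map (ldφ p ℓ') hφ P' (jF p) a₀).mpr ha₀
    have h2 : c'.ord (jF (p * ℓ')) < 0 := by
      rw [← ldφ_jF p ℓ']
      exact (ld_ord_map_neg_iff (ldφ p ℓ') hφ c' (jF p)).mpr
        (hpoles_t _ ((ld_ord_map_neg_iff (ldφ p ℓ') hφ c' t).mp hc'))
    exact ldnc_no_meet hv hvN hA hP a₀ P' c' h1 h2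
  have hsep := ld_sep hR hn hnk (ldφ p ℓ') hφ t f hf P₀ x c hxc hno hdet
  have hcount := ld_count hR (H.residue_bijective_FF p) (H.residue_bijective_FF (p * ℓ'))
    hnk.hres (ldφ p ℓ') hφ (ldφ_fundamentalIdentity p ℓ') t ht P₀ x hP₀ a ha hxa hsep
  -- the pull-back of `u` lies in `J1`
  have huJ : ldPull p ℓ' u ∈ R.J1 := by
    obtain ⟨D, hD, rfl⟩ := hu
    refine ⟨lvlDegZero (ldφ p ℓ') hφ (ldφ_fundamentalIdentity p ℓ') D, rfl, ?_⟩
    rw [coe_lvlDegZero, hD, hcount]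
    exact AddSubgroup.zero_mem _
  have hrunit : (r : Kb) ∉ A.nonunits := ld_prime_unit hv hA hr hrv
  refine ld_locDivAbs (A.decompositionSubgroup ℚ) r (ℓ' + 1) hrn (ldPull p ℓ') (ldPush p ℓ')
    (fun σ _ x => ldPull_smul p ℓ' σ x) (fun σ _ y => ldPush_smul p ℓ' σ y)
    (ldPush_pull p ℓ' hℓ' hℓ'p) R.J1 ?_ ?_ ?_ u ?_ huJ
  · intro σ hσ y hy
    obtain ⟨σb, h1, h2⟩ := hP.modPR.decomp σ hσ
    rw [galois_smul_pic0_def]
    exact kc_smul_mem_J1 _ σb h1 h2 hy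
  · intro k y hy
    exact div1_pow hR hn hnk hP.modPR.orth hrunit k hy
  · intro k y hy h
    exact hP.tf (r ^ k) (ld_pow_unit hrunit k) y hy h
  · intro σ hσ
    exact ld_diffClass_fixed hu σ (hxfix σ hσ) (hP₀fix σ)

end Fermat.Agent.S15.LD
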