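import Fermat.Agent.S15.Glue

/-!
# S15 / LOCDIV, abstract part 2: the group theory

`J`, `J'` abelian groups with an action of `G`, `D ≤ G`; `pull : J → J'`, `push : J' → J`
`D`-equivariant with `push ∘ pull = n`; `J1 ≤ J'` a `D`-stable subgroup which is `r`-divisible and
has no `r`-torsion.  If `u ∈ J` is `D`-fixed with `pull u ∈ J1` and `r ∤ n`, then `u` is infinitely
`r`-divisible among the `D`-fixed points of `J` (`ld_locDivAbs`).
-/

set_option autoImplicit false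

namespace Fermat.Agent.S15.LD

variable {J J' G : Type*} [AddCommGroup J] [AddCommGroup J'] [Group G] [DistribMulAction G J]
  [DistribMulAction G J']

/-- uniqueness of roots in `J1` makes them `D`-fixed -/
theorem ld_root_fixed (D : Subgroup G) (J1 : AddSubgroup J')
    (hstab : ∀ σ ∈ D, ∀ y ∈ J1, σ • y ∈ J1) (m : ℕ)
    (htf : ∀ y ∈ J1, m • y = 0 → y = 0)
    (w z : J') (hw : ∀ σ ∈ D, σ • w = w) (hz : z ∈ J1) (hzw : m • z = w) :
    ∀ σ ∈ D, σ • z = z := by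
  intro σ hσ
  have h1 : σ • z - z ∈ J1 := J1.sub_mem (hstab σ hσ z hz) hz
  have h2 : m • (σ • z - z) = 0 := by
    rw [smul_sub, smul_comm, hzw, hw σ hσ, sub_self]
  exact sub_eq_zero.mp (htf _ h1 h2)

/-- **LOCDIV, abstract.** -/
theorem ld_locDivAbs (D : Subgroup G) (r n : ℕ) (hrn : Nat.Coprime r n)
    (pull : J →+ J') (push : J' →+ J)
    (hpull : ∀ σ ∈ D, ∀ x : J, pull (σ • x) = σ • pull x)
    (hpush : ∀ σ ∈ D, ∀ y : J', push (σ • y) = σ • push y)
    (hpp : ∀ x : J, push (pull x) = n • x)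
    (J1 : AddSubgroup J') (hstab : ∀ σ ∈ D, ∀ y ∈ J1, σ • y ∈ J1)
    (hdiv : ∀ k : ℕ, ∀ y ∈ J1, ∃ z ∈ J1, r ^ k • z = y)
    (htf : ∀ k : ℕ, ∀ y ∈ J1, r ^ k • y = 0 → y = 0)
    (u : J) (hu : ∀ σ ∈ D, σ • u = u) (huJ : pull u ∈ J1) :
    LocDivAbs D r u := by
  intro k
  obtain ⟨z, hz, hzu⟩ := hdiv k (pull u) huJ
  have hzfix : ∀ σ ∈ D, σ • z = z :=
    ld_root_fixed D J1 hstab (r ^ k) (htf k) (pull u) z
      (fun σ hσ => by rw [← hpull σ hσ, hu σ hσ]) hz hzu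
  have hcop : IsCoprime ((r ^ k : ℕ) : ℤ) (n : ℤ) :=
    Nat.isCoprime_iff_coprime.mpr (Nat.Coprime.pow_left k hrn)
  obtain ⟨s, t, hst⟩ := hcop
  refine ⟨s • u + t • push z, ?_, ?_⟩
  · intro σ hσ
    rw [smul_add, smul_comm σ s u, smul_comm σ t (push z), hu σ hσ, ← hpush σ hσ, hzfix σ hσ]
  · have h1 : r ^ k • push z = n • u := by
      rw [← map_nsmul, hzu, hpp]
    have h1' : ((r ^ k : ℕ) : ℤ) • push z = (n : ℤ) • u := by
      rw [natCast_zsmul, natCast_zsmul]; exact h1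
    have h2 : ((r ^ k : ℕ) : ℤ) • (s • u + t • push z) = u := by
      rw [smul_add, smul_comm _ t (push z), h1', smul_smul, smul_smul, ← add_smul]
      have : ((r ^ k : ℕ) : ℤ) * s + t * (n : ℤ) = 1 := by
        rw [← hst]; ring
      rw [this, one_smul]
    rw [← natCast_zsmul]
    exact h2

end Fermat.Agent.S15.LD
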