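import Fermat.Agent.W1.LevelUpGen
import Fermat.Agent.STB.PushCore
import Fermat.Agent.ES.GaloisCorr
import Fermat.Agent.ES.RiemannGeneric

/-!
# S15 / LOCDIV, abstract part 3: `φ_* ∘ φ^* = deg φ` and the equivariance of `φ_*`

`φ : F → F'` a finite map of function fields over `K` (all places of degree one).

* `ld_push_pull_divisor` : `φ_* (φ^* D) = [F' : F] • D` on divisors;
* `ld_push_pull` : `φ_* (φ^* x) = [F' : F] • x` on `Pic⁰`;
* `ld_push_smul` : `φ_*` is equivariant for semilinear automorphisms intertwined by `φ`.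
-/

set_option autoImplicit false
set_option linter.unusedSectionVars false
set_option linter.style.haveILetI false

open AlgebraicCurve AlgebraicCurve.SemilinearAut Module

namespace Fermat.Agent.S15.LD

open Fermat.Agent.ES Fermat.Agent.W1 Fermat.Agent.STB

variable {K F F' : Type*} [Field K] [Field F] [Field F'] [Algebra K F] [Algebra K F']
  [HasPrincipalDivisors K F']

/-- `φ_* (φ^* D) = [F' : F] • D` -/
theorem ld_push_pull_divisor
    (hres : ∀ v : Place K F, Function.Bijective (algebraMap K v.ResidueField))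
    (hres' : ∀ v : Place K F', Function.Bijective (algebraMap K v.ResidueField))
    (φ : F →ₐ[K] F') (hφ : φ.toRingHom.IsIntegral) (hFI : FundamentalIdentityAlong K φ hφ)
    (D : Divisor K F) :
    Divisor.pushforwardAlong φ hφ (Divisor.pullbackAlong φ hφ D) = finrankAlong K φ • D := by
  classical
  letI := algebraAlong φ
  haveI := isScalarTower_along φ
  haveI := isIntegral_along φ hφ
  haveI : FundamentalIdentity K F F' := hFI
  induction D using Finsupp.induction with
  | zero => simp
  | single_add v n D _ _ ih =>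
    rw [map_add, map_add, ih, smul_add]
    congr 1
    rw [Divisor.pullbackAlong_single, map_sum]
    have h1 : ∀ W ∈ Place.fiberAlong φ hφ v,
        Divisor.pushforwardAlong φ hφ (Finsupp.single W (n * (W.ramificationIndexAlong φ : ℤ)))
          = Finsupp.single v (n * (W.ramificationIndexAlong φ : ℤ)) := by
      intro W hW
      rw [Divisor.pushforwardAlong_single, Place.mem_fiberAlong.mp hW]
      have hdeg : (W.restrict F).deg * W.inertiaDeg F = W.deg :=
        W.deg_restrict_mul_inertiaDeg (F := F)
      rw [Fermat.Agent.ES.R.place_deg_eq_one W (hres' W), Fermat.Agent.ES.R.place_deg_eq_one _ (hres _), one_mul] at hdeg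
      have : Place.inertiaDegAlong φ hφ W = 1 := hdeg
      rw [this]
      simp
    rw [Finset.sum_congr rfl h1, ← Finsupp.single_finsetSum, ← Finset.mul_sum]
    have h2 := FundamentalIdentity.sum_ramificationIndex_mul_deg (K := K) (F := F) (F' := F') v
    rw [Fermat.Agent.ES.R.place_deg_eq_one v (hres v)] at h2
    have h3 : ∑ W ∈ Place.fiberAlong φ hφ v, (W.ramificationIndexAlong φ : ℤ)
        = (finrankAlong K φ : ℤ) := by
      have : ∑ w ∈ v.fiber F', (w.ramificationIndex F : ℤ) * (w.deg : ℤ)
          = ∑ w ∈ v.fiber F', (w.ramificationIndex F : ℤ) := by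
        refine Finset.sum_congr rfl fun w _ => ?_
        rw [Fermat.Agent.ES.R.place_deg_eq_one w (hres' w)]
        simp
      rw [this] at h2
      have h4 : ∑ w ∈ v.fiber F', (w.ramificationIndex F : ℤ) = (Module.finrank F F' : ℤ) := by
        simpa using h2
      exact h4
    rw [h3, Finsupp.smul_single, nsmul_eq_mul, mul_comm]

/-- `φ_* (φ^* x) = [F' : F] • x` on `Pic⁰` -/
theorem ld_push_pull
    (hres : ∀ v : Place K F, Function.Bijective (algebraMap K v.ResidueField))
    (hres' : ∀ v : Place K F', Function.Bijective (algebraMap K v.ResidueField))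
    (φ : F →ₐ[K] F') (hφ : φ.toRingHom.IsIntegral) (hFI : FundamentalIdentityAlong K φ hφ)
    (hfin : FiniteAlong K φ) (hN : NormFormulaAlong K φ hfin) (x : Pic0 K F) :
    stbPush φ hφ hfin hN (lvlPic0 φ hφ hFI x) = finrankAlong K φ • x := by
  obtain ⟨D, rfl⟩ := Pic0.mk_surjective x
  rw [lvlPic0_mk, stbPush_mk]
  have : finrankAlong K φ • Pic0.mk D = Pic0.mk (finrankAlong K φ • D) := rfl
  rw [this]
  refine congrArg Pic0.mk (Subtype.ext ?_)
  rw [coe_stbPushDegZero, coe_lvlDegZero, ld_push_pull_divisor hres hres' φ hφ hFI]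
  rfl

/-- `φ_*` is equivariant -/
theorem ld_push_smul (φ : F →ₐ[K] F') (hφ : φ.toRingHom.IsIntegral)
    (hfin : FiniteAlong K φ) (hN : NormFormulaAlong K φ hfin)
    {g : SemilinearAut K F} {g' : SemilinearAut K F'}
    (h : IntertwinesAlong (φ : F →+* F') g g') (y : Pic0 K F') :
    stbPush φ hφ hfin hN (g' • y) = g • stbPush φ hφ hfin hN y := by
  obtain ⟨D, rfl⟩ := Pic0.mk_surjective y
  rw [SemilinearAut.pic0_smul_mk, stbPush_mk, stbPush_mk, SemilinearAut.pic0_smul_mk]
  refine congrArg Pic0.mk (Subtype.ext ?_)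
  rw [coe_stbPushDegZero, SemilinearAut.coe_degZeroSMulHom, SemilinearAut.coe_degZeroSMulHom,
    coe_stbPushDegZero]
  exact pushforwardAlong_smul φ hφ h (D : Divisor K F')

end Fermat.Agent.S15.LD
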