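import Fermat.Agent.S15.LocDivPlan
import Fermat.Agent.S15.LocDivCount
import Fermat.Agent.S15.LocDivGroup
import Fermat.Agent.S15.LocDivPush
import Fermat.Agent.S15.LocDivVal
import Fermat.Agent.S15.Div1Final
import Fermat.Agent.W1.GeoKCAbs
import Fermat.Agent.ES.HInputs
import Fermat.Agent.ES.GaloisHecke
import Fermat.Agent.ES.G2.HeckeDeg
import Fermat.Agent.S05.FreyArith

/-!
# S15 / LOCDIV: the core theorem at the level `N' = p ℓ'`

`ld_case` : `p` a prime, `ℓ'` a prime `≠ p`, `A ∣ v ∤ p ℓ'`, `R` a package (`LdPkg`) of `X₀(p ℓ')`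
at `A`, `φ = heckeAlphaBar : F_p → F_{pℓ'}`.  Let `t ∈ F_p` be a coordinate with a simple pole at a
`G_ℚ`-fixed place `P₀` and poles only at the cusps, `f ∈ F_p` a detecting function, `x` a
`D_A`-fixed place with `t(x) ∉ A`.  Then `[(x) − (P₀)]` is infinitely `r`-divisible among the
`D_A`-fixed points of `J₀(p)`, for every prime `r ≠ v` with `r ∤ ℓ' + 1`.
-/

set_option autoImplicit false
set_option linter.unusedSectionVars false
set_option linter.style.haveILetI false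
set_option synthInstance.maxHeartbeats 400000
set_option maxHeartbeats 1600000

noncomputable section

namespace Fermat.Agent.S15.LD

open ModularCurve AlgebraicCurve AlgebraicCurve.SemilinearAut
open Fermat.Agent.S24 Fermat.Agent.ES Fermat.Agent.ES.M Fermat.Agent.W1 Fermat.Agent.STB
  Fermat.Agent.S15

variable (p ℓ' : ℕ) [NeZero p] [NeZero ℓ']

/-- the inclusion `α : F_p → F_{p ℓ'}` -/
abbrev ldφ : FF p →ₐ[Kb] FF (p * ℓ') := heckeAlphaBar Kb p ℓ'

theorem ldφ_integral : (ldφ p ℓ').toRingHom.IsIntegral := H.heckeAlphaBarIntegral p ℓ'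

theorem ldφ_coe (x : FF p) : ((ldφ p ℓ' x : FF (p * ℓ')) : LaurentSeries Kb) = (x : LaurentSeries Kb) :=
  coe_heckeAlphaBar p ℓ' x

theorem ldφ_jF : ldφ p ℓ' (jF p) = jF (p * ℓ') := Subtype.ext (ldφ_coe p ℓ' _)

/-- The fundamental identity along `α`. -/
theorem ldφ_fundamentalIdentity :
    haveI := H.hasPrincipalDivisors_FF (p * ℓ')
    FundamentalIdentityAlong Kb (ldφ p ℓ') (ldφ_integral p ℓ') := by
  have hP := H.hasPrincipalDivisors_FF (p * ℓ')
  refine H.fundamentalIdentityAlong_of_sumRamificationInertia (heckeAlphaBar Kb p ℓ')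
    (H.heckeAlphaBarIntegral p ℓ') ?_
  let _ := algebraAlong (heckeAlphaBar Kb p ℓ')
  have := isScalarTower_along (heckeAlphaBar Kb p ℓ')
  have : FiniteDimensional (FF p) (FF (p * ℓ')) := H.finiteAlong_heckeAlphaBar p ℓ'
  exact H.sumRamificationInertia (H.residue_bijective_FF p) (H.residue_bijective_FF (p * ℓ'))

/-- the pull-back `α^* : J₀(p) → J₀(p ℓ')` -/
def ldPull : JZero p →+ JZero (p * ℓ') :=
  haveI := H.hasPrincipalDivisors_FF (p * ℓ')
  lvlPic0 (ldφ p ℓ') (ldφ_integral p ℓ') (ldφ_fundamentalIdentity p ℓ')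

/-- the push-forward `α_* : J₀(p ℓ') → J₀(p)` -/
def ldPush : JZero (p * ℓ') →+ JZero p :=
  stbPush (ldφ p ℓ') (ldφ_integral p ℓ') (H.finiteAlong_heckeAlphaBar p ℓ')
    (H.normFormulaAlong_heckeAlphaBar p ℓ')

theorem ldPull_smul (σ : GalQ) (x : JZero p) : ldPull p ℓ' (σ • x) = σ • ldPull p ℓ' x := by
  haveI := H.hasPrincipalDivisors_FF (p * ℓ')
  rw [galois_smul_pic0_def, galois_smul_pic0_def]
  exact lvlPic0_smul (ldφ p ℓ') (ldφ_integral p ℓ') (ldφ_fundamentalIdentity p ℓ')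
    (intertwines_heckeAlphaBar p ℓ' σ) x

theorem ldPush_smul (σ : GalQ) (y : JZero (p * ℓ')) : ldPush p ℓ' (σ • y) = σ • ldPush p ℓ' y := by
  haveI := H.hasPrincipalDivisors_FF (p * ℓ')
  rw [galois_smul_pic0_def, galois_smul_pic0_def]
  exact ld_push_smul (ldφ p ℓ') (ldφ_integral p ℓ') (H.finiteAlong_heckeAlphaBar p ℓ')
    (H.normFormulaAlong_heckeAlphaBar p ℓ') (intertwines_heckeAlphaBar p ℓ' σ) y

theorem ldPush_pull (hℓ' : ℓ'.Prime) (hℓ'p : ¬ ℓ' ∣ p) (x : JZero p) :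
    ldPush p ℓ' (ldPull p ℓ' x) = (ℓ' + 1) • x := by
  haveI := H.hasPrincipalDivisors_FF (p * ℓ')
  have h := ld_push_pull (H.residue_bijective_FF p) (H.residue_bijective_FF (p * ℓ'))
    (ldφ p ℓ') (ldφ_integral p ℓ') (ldφ_fundamentalIdentity p ℓ')
    (H.finiteAlong_heckeAlphaBar p ℓ') (H.normFormulaAlong_heckeAlphaBar p ℓ') x
  have hd : finrankAlong Kb (ldφ p ℓ') = ℓ' + 1 := G2.hdeg_finrank p ℓ' hℓ' hℓ'p
  rw [hd] at h
  exact h

end Fermat.Agent.S15.LD
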