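import Fermat.Agent.S15.Plan
import Fermat.Agent.S15.ModPlan
import Fermat.Agent.W1.PlanGeo4
import Fermat.Agent.ES.M.Plan

/-!
# S15 / LOCDIV — interface (helper94)

`StmtLocDiv` (of `Plan.lean`) is proved in `LocDiv.lean` from

* `StmtModFricke`, `StmtModFricke0` (`ModPlan.lean`, MOD-FRICKE): existence and `q`-expansion of the
  Fricke product `Π₀`;
* `StmtLdPkg` (this file, pieces GEO-PR + S18-J1, helper89): at every level `N` and every
  `A ∣ ℓ ∤ N` with `ℓ ≥ 5` or `(5 − ℓ) ∣ N` there is a reduction package `R` of `X₀(N)` at `A`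
  (`W1.ModPR`) whose valuation ring is the Gauss ring, whose residue map is the coefficientwise
  reduction, and whose kernel of reduction `R.J1` has no torsion prime to `ℓ`.

Route (all `v` uniformly, level `N' = p ℓ'` with `ℓ' ∈ {2, 3}`, `ℓ' ≠ v`, `r ∤ ℓ' + 1`):
`φ = heckeAlphaBar : F_p → F_{N'}`;  `φ^* [(x) − (P₀)] ∈ J1'` by the counting lemma
(`LocDivCount.lean`: `ld_count`, `ld_sep` with the detecting function `Π₀`, coordinate `t = j` at
`P₀ = ∞`, `t = j_p` at `P₀ = 0`);  DIV¹ + S18-J1 give a `D_A`-fixed `r^k`-th root in `J1'`;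
`φ_* φ^* = ℓ' + 1` is prime to `r` (`LocDivGroup.lean`, `LocDivPush.lean`).
-/

set_option autoImplicit false

noncomputable section

namespace Fermat.Agent.S15

open ModularCurve AlgebraicCurve
open Fermat.Agent.S24 Fermat.Agent.ES.M Fermat.Agent.W1

/-- the reduction package needed by LOCDIV: `ModPR` + Gauss compatibility + (S18-J1) -/
structure LdPkg (N : ℕ) [NeZero N] (A : ValuationSubring Kb) (g : ℕ)
    (R : PRData Kb (FF N) (kA A) ↥(modularFunctionFieldFullC (kA A) N) A) : Prop where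
  modPR : ModPR N A g R (jF N)
  mem_iff : ∀ x : FF N, x ∈ R.O ↔ GaussInt N A x
  red_spec : ∀ x : R.O, GaussRed N A (x : FF N)
    ((R.red x : ↥(modularFunctionFieldFullC (kA A) N)) : LaurentSeries (kA A))
  tf : ∀ m : ℕ, (m : Kb) ∉ A.nonunits → ∀ y : JZero N, y ∈ R.J1 → m • y = 0 → y = 0

/-- **GEO-PR + S18-J1**: the package exists. -/
def StmtLdPkg : Prop :=
  ∀ (N : ℕ) [NeZero N] (ℓ : ℕ), ℓ.Prime → ¬ ℓ ∣ N → (5 ≤ ℓ ∨ (5 - ℓ) ∣ N) →
    ∀ A : ValuationSubring Kb, A.LiesOverPrime ℓ →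
      ∃ (g : ℕ) (R : PRData Kb (FF N) (kA A) ↥(modularFunctionFieldFullC (kA A) N) A),
        LdPkg N A g R

end Fermat.Agent.S15
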