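import Fermat.Agent.S15.Plan

/-!
# S15 / MOD-ASM — the split of the assembly (sub-captain helper51)

The output of MOD is `StmtModC` = `Plan.StmtMod` with the extra hypothesis that `W` has a prime of
multiplicative reduction (so `c₄ c₆ ≠ 0`; available in `S15`, where `2` is such a prime; without
it the place of `(E, ⟨Q⟩)` may lie over `j = 1728`, where the Fricke product has a pole).

* `StmtModAsmE` (curve side: XI + UNIF + G0): `(W, Q)` gives `τ₀`, `a = j(E)`, `c t = Π_t(τ₀) ∈ ℚ`,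
  the `Γ₀(p)`-criterion at `τ₀`, and the reduction statement for `a`, `c 0`.
* `StmtModAsmP` (place side: PLACE + FRICKE): such analytic data give a rational place.
* `stmtModC_of : StmtModAsmE → StmtModAsmP → StmtModC`.
-/

set_option autoImplicit false
set_option linter.unusedSectionVars false
set_option synthInstance.maxHeartbeats 400000

noncomputable section

namespace Fermat.Agent.S15

open UpperHalfPlane AlgebraicCurve ModularCurve PeriodPair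
open Fermat.Agent.S24 Fermat.Agent.S28 Fermat.Agent.W1 Fermat.Agent.ES.M
open scoped MatrixGroups WeierstrassCurve.Affine

/-- **MOD-ASM-P** (place side).  `τ₀` a point with rational `j`-invariant `a`, at which `g₃` does
not vanish (also at its translates), whose Fricke products `Π_t(τ₀) = c t` are rational for all
`t ∈ ℤ` and satisfy the `Γ₀(N)`-criterion: then the place of `F_N` at `τ₀` is rational. -/
def StmtModAsmP : Prop :=
  ∀ (N : ℕ) [NeZero N], N.Prime → ∀ (τ₀ : ℍ) (a : ℚ) (c : ℤ → ℚ),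
    Jfun τ₀ = embC (algebraMap ℚ Kb a) →
    (∀ γ : SL(2, ℤ), (modLat (γ • τ₀)).g₃ ≠ 0) →
    (∀ t : ℤ, modPiAn N (t : ℂ) τ₀ = embC (algebraMap ℚ Kb (c t))) →
    (∀ γ : SL(2, ℤ), (∀ t : ℤ, modPiAn N (t : ℂ) (γ • τ₀) = modPiAn N (t : ℂ) τ₀) →
      γ ∈ CongruenceSubgroup.Gamma0 N) →
    ∃ x : Place Kb (FF N), IsRatPlace N x a (c 0)

/-- **MOD-ASM-E** (curve side). -/
def StmtModAsmE : Prop :=
  ∀ (p : ℕ), p.Prime → 5 ≤ p → ∀ (W : WeierstrassCurve ℤ), W.Δ ≠ 0 →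
    (∃ ℓ : ℕ, ℓ.Prime ∧ (ℓ : ℤ) ∣ W.Δ ∧ ¬ (ℓ : ℤ) ∣ W.c₄) →
    ∀ Q : ((W.map (Int.castRingHom ℚ))⁄(AlgebraicClosure ℚ)).Point,
      (∀ σ : AlgebraicClosure ℚ ≃ₐ[ℚ] AlgebraicClosure ℚ, σ • Q = Q) → addOrderOf Q = p →
      ∃ (τ₀ : ℍ) (a : ℚ) (c : ℤ → ℚ),
        Jfun τ₀ = embC (algebraMap ℚ Kb a) ∧
        (∀ γ : SL(2, ℤ), (modLat (γ • τ₀)).g₃ ≠ 0) ∧
        (∀ t : ℤ, modPiAn p (t : ℂ) τ₀ = embC (algebraMap ℚ Kb (c t))) ∧
        (∀ γ : SL(2, ℤ), (∀ t : ℤ, modPiAn p (t : ℂ) (γ • τ₀) = modPiAn p (t : ℂ) τ₀) →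
          γ ∈ CongruenceSubgroup.Gamma0 p) ∧
        ∀ v : ℕ, v.Prime → v ≠ p → (v : ℤ) ∣ W.Δ → ¬ (v : ℤ) ∣ W.c₄ →
          ∀ A : ValuationSubring (AlgebraicClosure ℚ), A.LiesOverPrime v →
            algebraMap ℚ Kb a ∉ A ∧ algebraMap ℚ Kb (c 0) ∈ A ∧
              (W.InZeroComponentAt A Q ↔ algebraMap ℚ Kb (c 0) ∉ A.nonunits)

/-- **MOD** (output): `Plan.StmtMod` for curves with a prime of multiplicative reduction. -/
def StmtModC : Prop :=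
  ∀ (p : ℕ) [NeZero p], IsMazurLevel p → ∀ (W : WeierstrassCurve ℤ), W.Δ ≠ 0 →
    (∃ ℓ : ℕ, ℓ.Prime ∧ (ℓ : ℤ) ∣ W.Δ ∧ ¬ (ℓ : ℤ) ∣ W.c₄) →
    ∀ Q : ((W.map (Int.castRingHom ℚ))⁄(AlgebraicClosure ℚ)).Point,
      (∀ σ : AlgebraicClosure ℚ ≃ₐ[ℚ] AlgebraicClosure ℚ, σ • Q = Q) → addOrderOf Q = p →
      ∃ (x : Place Kb (FF p)) (a c : ℚ), IsRatPlace p x a c ∧
        ∀ v : ℕ, v.Prime → v ≠ p → (v : ℤ) ∣ W.Δ → ¬ (v : ℤ) ∣ W.c₄ →
          ∀ A : ValuationSubring (AlgebraicClosure ℚ), A.LiesOverPrime v →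
            algebraMap ℚ Kb a ∉ A ∧ algebraMap ℚ Kb c ∈ A ∧
              (W.InZeroComponentAt A Q ↔ algebraMap ℚ Kb c ∉ A.nonunits)

theorem modasm_five_le {p : ℕ} (hp : IsMazurLevel p) : 5 ≤ p := by
  obtain ⟨hp1, hp2⟩ := hp
  have h2 := hp1.two_le
  by_contra h
  have : p = 2 ∨ p = 3 ∨ p = 4 := by omega
  rcases this with rfl | rfl | rfl
  · exact hp2 (by decide)
  · exact hp2 (by decide)
  · exact absurd hp1 (by decide)

/-- The assembly of MOD. -/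
theorem stmtModC_of (hE : StmtModAsmE) (hP : StmtModAsmP) : StmtModC := by
  intro p _ hp W hΔ hmult Q hfix hord
  obtain ⟨τ₀, a, c, hJ, hg₃, hc, hG0, hred⟩ := hE p hp.1 (modasm_five_le hp) W hΔ hmult Q hfix hord
  obtain ⟨x, hx⟩ := hP p hp.1 τ₀ a c hJ hg₃ hc hG0
  exact ⟨x, a, c 0, hx, hred⟩

end Fermat.Agent.S15
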