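import Fermat.Agent.S15.ModDefs

/-!
# S15 / MOD-G0 — homogeneity of the analytic `ξ°` and the `Γ₀(N)`-criterion (helper56)

Mathlib + `S15/ModDefs.lean` only.

* `modg0_xi_smul` : `ξ°(z; γτ) = ξ°((cτ+d) z; τ)` for `γ ∈ SL₂(ℤ)`
  (`Λ_{γτ} = (cτ+d)⁻¹ Λ_τ`, so `℘`, `g₂`, `g₃` have weights `2, 4, 6`; `ξ°` has weight `0`).
* `modg0_main` : if the Fricke products `Π_t(γτ) = Π_t(τ)` for all `t ∈ ℤ` and `ξ°(·; τ)` is
  injective modulo `±` and the lattice, then `γ ∈ Γ₀(N)`.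
-/

set_option autoImplicit false

noncomputable section

namespace Fermat.Agent.S15

open Complex PeriodPair
open UpperHalfPlane hiding I
open scoped MatrixGroups

/-- the automorphy factor `c τ + d` -/
def modg0J (γ : SL(2, ℤ)) (τ : ℍ) : ℂ := ((γ 1 0 : ℤ) : ℂ) * (τ : ℂ) + ((γ 1 1 : ℤ) : ℂ)

theorem modg0J_ne_zero (γ : SL(2, ℤ)) (τ : ℍ) : modg0J γ τ ≠ 0 := by
  have h := UpperHalfPlane.denom_ne_zero γ τ
  rwa [ModularGroup.denom_apply] at h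

theorem modg0_coe_smul (γ : SL(2, ℤ)) (τ : ℍ) :
    ((γ • τ : ℍ) : ℂ) = (((γ 0 0 : ℤ) : ℂ) * τ + ((γ 0 1 : ℤ) : ℂ)) / modg0J γ τ := by
  rw [UpperHalfPlane.coe_specialLinearGroup_apply]
  simp [modg0J]

theorem modg0_det (γ : SL(2, ℤ)) : γ 0 0 * γ 1 1 - γ 0 1 * γ 1 0 = 1 := by
  have h := γ.2
  rw [Matrix.det_fin_two] at h
  exact h

theorem modg0_det_complex (γ : SL(2, ℤ)) :
    ((γ 0 0 : ℤ) : ℂ) * ((γ 1 1 : ℤ) : ℂ) - ((γ 0 1 : ℤ) : ℂ) * ((γ 1 0 : ℤ) : ℂ) = 1 := by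
  have h := modg0_det γ
  exact_mod_cast h

/-- `(cτ+d) · Λ_{γτ} ⊆ Λ_τ` -/
theorem modg0_mul_mem (γ : SL(2, ℤ)) (τ : ℍ) {l : ℂ} (hl : l ∈ (modLat (γ • τ)).lattice) :
    modg0J γ τ * l ∈ (modLat τ).lattice := by
  rw [PeriodPair.mem_lattice] at hl ⊢
  obtain ⟨m, n, rfl⟩ := hl
  refine ⟨m * γ 0 0 + n * γ 1 0, m * γ 0 1 + n * γ 1 1, ?_⟩
  have hj := modg0J_ne_zero γ τ
  simp only [modLat_ω₁, modLat_ω₂, mul_one]
  rw [modg0_coe_smul]
  push_cast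
  field_simp
  unfold modg0J
  ring

/-- `(cτ+d)⁻¹ · Λ_τ ⊆ Λ_{γτ}` -/
theorem modg0_div_mem (γ : SL(2, ℤ)) (τ : ℍ) {l : ℂ} (hl : l ∈ (modLat τ).lattice) :
    l / modg0J γ τ ∈ (modLat (γ • τ)).lattice := by
  rw [PeriodPair.mem_lattice] at hl ⊢
  obtain ⟨m, n, rfl⟩ := hl
  refine ⟨m * γ 1 1 - n * γ 1 0, -(m * γ 0 1) + n * γ 0 0, ?_⟩
  have hj := modg0J_ne_zero γ τ
  have hdet := modg0_det_complex γ
  simp only [modLat_ω₁, modLat_ω₂, mul_one]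
  rw [modg0_coe_smul]
  push_cast
  field_simp
  unfold modg0J
  linear_combination ((m : ℂ) * τ + n) * hdet

/-- multiplication by `cτ+d` as a bijection `Λ_{γτ} ≃ Λ_τ` -/
def modg0Equiv (γ : SL(2, ℤ)) (τ : ℍ) : (modLat (γ • τ)).lattice ≃ (modLat τ).lattice where
  toFun l := ⟨modg0J γ τ * l.1, modg0_mul_mem γ τ l.2⟩
  invFun l := ⟨l.1 / modg0J γ τ, modg0_div_mem γ τ l.2⟩
  left_inv l := by
    apply Subtype.ext
    have hj := modg0J_ne_zero γ τ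
    simp only
    field_simp
  right_inv l := by
    apply Subtype.ext
    have hj := modg0J_ne_zero γ τ
    simp only
    field_simp

@[simp] theorem modg0Equiv_apply (γ : SL(2, ℤ)) (τ : ℍ) (l : (modLat (γ • τ)).lattice) :
    ((modg0Equiv γ τ l : (modLat τ).lattice) : ℂ) = modg0J γ τ * (l : ℂ) := rfl

/-- the Eisenstein sums have weight `n` -/
theorem modg0_G (γ : SL(2, ℤ)) (τ : ℍ) (n : ℕ) :
    (modLat (γ • τ)).G n = modg0J γ τ ^ n * (modLat τ).G n := by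
  have hj := modg0J_ne_zero γ τ
  unfold PeriodPair.G
  rw [← (modg0Equiv γ τ).tsum_eq, ← tsum_mul_left]
  refine tsum_congr fun l => ?_
  rw [modg0Equiv_apply, mul_pow, mul_inv, ← mul_assoc, mul_inv_cancel₀ (pow_ne_zero n hj),
    one_mul]

theorem modg0_g₂ (γ : SL(2, ℤ)) (τ : ℍ) :
    (modLat (γ • τ)).g₂ = modg0J γ τ ^ 4 * (modLat τ).g₂ := by
  unfold PeriodPair.g₂
  rw [modg0_G]
  ring

theorem modg0_g₃ (γ : SL(2, ℤ)) (τ : ℍ) :
    (modLat (γ • τ)).g₃ = modg0J γ τ ^ 6 * (modLat τ).g₃ := by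
  unfold PeriodPair.g₃
  rw [modg0_G]
  ring

/-- `℘` has weight `2` -/
theorem modg0_P (γ : SL(2, ℤ)) (τ : ℍ) (z : ℂ) :
    ℘[modLat (γ • τ)] z = modg0J γ τ ^ 2 * ℘[modLat τ] (modg0J γ τ * z) := by
  have hj := modg0J_ne_zero γ τ
  unfold PeriodPair.weierstrassP
  rw [← (modg0Equiv γ τ).tsum_eq, ← tsum_mul_left]
  refine tsum_congr fun l => ?_
  rw [modg0Equiv_apply, ← mul_sub, mul_pow, mul_pow]
  by_cases h1 : (z - (l : ℂ)) ^ 2 = 0
  · by_cases h2 : ((l : ℂ)) ^ 2 = 0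
    · simp [h1, h2]
    · rw [h1]
      field_simp
  · by_cases h2 : ((l : ℂ)) ^ 2 = 0
    · rw [h2]
      field_simp
    · field_simp

/-- **MOD-G0 (1).** homogeneity of the analytic `ξ°` under `SL₂(ℤ)` -/
theorem modg0_xi_smul (τ : ℍ) (γ : SL(2, ℤ)) (z : ℂ) :
    modXiAn (γ • τ) z = modXiAn τ ((((γ 1 0 : ℤ) : ℂ) * (τ : ℂ) + ((γ 1 1 : ℤ) : ℂ)) * z) := by
  have hj := modg0J_ne_zero γ τ
  unfold modXiAn
  rw [modg0_g₂, modg0_g₃, modg0_P]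
  show _ = (modLat τ).g₂ / (18 * (modLat τ).g₃) * ℘[modLat τ] (modg0J γ τ * z) + 1 / 12
  by_cases hg : (modLat τ).g₃ = 0
  · simp [hg]
  · field_simp


/-! ## The `Γ₀(N)`-criterion -/

/-- coordinates of a lattice point of the form `(cτ+d)/N` -/
theorem modg0_lattice_coord (τ : ℍ) (N : ℕ) (hN : N ≠ 0) (c d : ℤ)
    (h : ((c : ℂ) * τ + d) / N ∈ (modLat τ).lattice) : (N : ℤ) ∣ c ∧ (N : ℤ) ∣ d := by
  rw [PeriodPair.mem_lattice] at h
  obtain ⟨m, n, hmn⟩ := h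
  simp only [modLat_ω₁, modLat_ω₂, mul_one] at hmn
  have hN' : (N : ℂ) ≠ 0 := by exact_mod_cast hN
  have h1 : ((N : ℂ) * m - c) * τ + ((N : ℂ) * n - d) = 0 := by
    have h2 : ((m : ℂ) * τ + n) * N = (c : ℂ) * τ + d := by
      rw [hmn]
      field_simp
    linear_combination h2
  have him := congrArg Complex.im h1
  have hre := congrArg Complex.re h1
  simp only [add_im, mul_im, sub_re, mul_re, natCast_re, intCast_re, natCast_im, intCast_im,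
    mul_zero, sub_zero, sub_im, zero_mul, add_zero, UpperHalfPlane.coe_im, zero_im, sub_self,
    add_re, UpperHalfPlane.coe_re, zero_re] at him hre
  have hc : (N : ℝ) * m - c = 0 := by
    rcases mul_eq_zero.mp him with h | h
    · exact h
    · exact absurd h τ.im_ne_zero
  rw [hc, zero_mul, zero_add] at hre
  constructor
  · refine ⟨m, ?_⟩
    have : ((N : ℤ) * m : ℤ) = c := by
      have h3 : ((N : ℝ) * m : ℝ) = c := by linarith
      exact_mod_cast h3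
    exact this.symm
  · refine ⟨n, ?_⟩
    have : ((N : ℤ) * n : ℤ) = d := by
      have h3 : ((N : ℝ) * n : ℝ) = d := by linarith
      exact_mod_cast h3
    exact this.symm

/-- the Fricke polynomial `∏ (X - ξ°(k/N; τ))` -/
def modg0Poly (N : ℕ) (τ : ℍ) : Polynomial ℂ :=
  ∏ k ∈ Finset.Ico 1 N, (Polynomial.X - Polynomial.C (modXiAn τ ((k : ℂ) / (N : ℂ))))

theorem modg0Poly_eval (N : ℕ) (τ : ℍ) (t : ℂ) :
    (modg0Poly N τ).eval t = modPiAn N t τ := by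
  unfold modg0Poly modPiAn
  rw [Polynomial.eval_prod]
  refine Finset.prod_congr rfl fun k _ => ?_
  simp

/-- **MOD-G0 (2).** the `Γ₀(N)`-criterion -/
theorem modg0_main (N : ℕ) (hN : 2 ≤ N) (τ : ℍ) (γ : SL(2, ℤ))
    (hinj : ∀ z₁ z₂ : ℂ, z₁ ∉ (modLat τ).lattice → z₂ ∉ (modLat τ).lattice →
      modXiAn τ z₁ = modXiAn τ z₂ →
        z₁ - z₂ ∈ (modLat τ).lattice ∨ z₁ + z₂ ∈ (modLat τ).lattice)
    (h : ∀ t : ℤ, modPiAn N t (γ • τ) = modPiAn N t τ) :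
    γ ∈ CongruenceSubgroup.Gamma0 N := by
  have hN0 : N ≠ 0 := by omega
  have hNC : (N : ℂ) ≠ 0 := by exact_mod_cast hN0
  -- the two Fricke polynomials agree
  have hpoly : modg0Poly N (γ • τ) = modg0Poly N τ := by
    refine Polynomial.eq_of_infinite_eval_eq _ _ ?_
    refine Set.infinite_of_injective_forall_mem (f := fun t : ℤ => (t : ℂ))
      Int.cast_injective (fun t => ?_)
    show (modg0Poly N (γ • τ)).eval (t : ℂ) = (modg0Poly N τ).eval (t : ℂ)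
    rw [modg0Poly_eval, modg0Poly_eval]
    exact h t
  -- `ξ°(1/N; γτ)` is a root
  have h1mem : 1 ∈ Finset.Ico 1 N := by
    rw [Finset.mem_Ico]
    omega
  have hroot : (modg0Poly N (γ • τ)).eval (modXiAn (γ • τ) (((1 : ℕ) : ℂ) / (N : ℂ))) = 0 := by
    rw [modg0Poly_eval]
    unfold modPiAn
    exact Finset.prod_eq_zero h1mem (sub_self _)
  rw [hpoly, modg0Poly_eval] at hroot
  unfold modPiAn at hroot
  obtain ⟨k, hk, hk0⟩ := Finset.prod_eq_zero_iff.mp hroot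
  rw [Finset.mem_Ico] at hk
  have hxi : modXiAn τ ((((γ 1 0 : ℤ) : ℂ) * (τ : ℂ) + ((γ 1 1 : ℤ) : ℂ)) *
      (((1 : ℕ) : ℂ) / (N : ℂ))) = modXiAn τ ((k : ℂ) / (N : ℂ)) := by
    rw [← modg0_xi_smul]
    exact sub_eq_zero.mp hk0
  -- the two points are not in the lattice
  have hz₂ : ((k : ℂ) / (N : ℂ)) ∉ (modLat τ).lattice := by
    intro hmem
    have h2 : (((0 : ℤ) : ℂ) * τ + ((k : ℤ) : ℂ)) / N ∈ (modLat τ).lattice := by
      simpa using hmem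
    obtain ⟨-, hd⟩ := modg0_lattice_coord τ N hN0 0 k h2
    have h3 : N ∣ k := by exact_mod_cast hd
    have := Nat.le_of_dvd (by omega) h3
    omega
  have hz₁ : ((((γ 1 0 : ℤ) : ℂ) * (τ : ℂ) + ((γ 1 1 : ℤ) : ℂ)) *
      (((1 : ℕ) : ℂ) / (N : ℂ))) ∉ (modLat τ).lattice := by
    intro hmem
    have h2 : (((γ 1 0 : ℤ) : ℂ) * τ + ((γ 1 1 : ℤ) : ℂ)) / N ∈ (modLat τ).lattice := by
      have e : (((γ 1 0 : ℤ) : ℂ) * τ + ((γ 1 1 : ℤ) : ℂ)) / N =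
          (((γ 1 0 : ℤ) : ℂ) * (τ : ℂ) + ((γ 1 1 : ℤ) : ℂ)) * (((1 : ℕ) : ℂ) / (N : ℂ)) := by
        push_cast
        ring
      rw [e]
      exact hmem
    obtain ⟨hc, hd⟩ := modg0_lattice_coord τ N hN0 _ _ h2
    have hdet := modg0_det γ
    have h3 : (N : ℤ) ∣ 1 := by
      rw [← hdet]
      exact dvd_sub (Dvd.dvd.mul_left hd _) (Dvd.dvd.mul_left hc _)
    have h4 : N ∣ 1 := by exact_mod_cast h3
    have := Nat.le_of_dvd one_pos h4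
    omega
  -- injectivity
  have hc : (N : ℤ) ∣ γ 1 0 := by
    rcases hinj _ _ hz₁ hz₂ hxi with hm | hm
    · have h2 : (((γ 1 0 : ℤ) : ℂ) * τ + ((γ 1 1 - k : ℤ) : ℂ)) / N ∈ (modLat τ).lattice := by
        have e : (((γ 1 0 : ℤ) : ℂ) * τ + ((γ 1 1 - k : ℤ) : ℂ)) / N =
            (((γ 1 0 : ℤ) : ℂ) * (τ : ℂ) + ((γ 1 1 : ℤ) : ℂ)) * (((1 : ℕ) : ℂ) / (N : ℂ))
              - (k : ℂ) / (N : ℂ) := by
          push_cast
          ring
        rw [e]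
        exact hm
      exact (modg0_lattice_coord τ N hN0 _ _ h2).1
    · have h2 : (((γ 1 0 : ℤ) : ℂ) * τ + ((γ 1 1 + k : ℤ) : ℂ)) / N ∈ (modLat τ).lattice := by
        have e : (((γ 1 0 : ℤ) : ℂ) * τ + ((γ 1 1 + k : ℤ) : ℂ)) / N =
            (((γ 1 0 : ℤ) : ℂ) * (τ : ℂ) + ((γ 1 1 : ℤ) : ℂ)) * (((1 : ℕ) : ℂ) / (N : ℂ))
              + (k : ℂ) / (N : ℂ) := by
          push_cast
          ring
        rw [e]
        exact hm
      exact (modg0_lattice_coord τ N hN0 _ _ h2).1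
  rw [CongruenceSubgroup.Gamma0_mem]
  exact (ZMod.intCast_zmod_eq_zero_iff_dvd _ N).mpr hc

end Fermat.Agent.S15
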