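/-
S15 / MOD-ASM-E (helper13): the curve side of the assembly of MOD.

`stmtModAsmE_of : StmtModAdd → StmtModAsmE`.

From `(W, Q)` (`W` over `ℤ` with a prime of multiplicative reduction, `Q` a `G_ℚ`-fixed point of
order `p`): `Q_ℂ` the image of `Q` in `W(ℂ)` under the fixed embedding `embC`; MOD-UNIF gives
`τ₀` and `θ : ℂ / Λ_{τ₀} ≅ W(ℂ)` with `θ (1/p) = Q_ℂ`, respecting `ξ°`.  Then
`a = c₄³ / Δ`, `c t = Π_t(W, Q) ∈ ℚ` (MOD-XI, `modpi_rat`), `Π_t(τ₀) = embC (c t)`, the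
`Γ₀(p)`-criterion is `modg0_main` (MOD-G0), and the reduction clause is `modpi_val_lt_one_iff`.
-/
import Fermat.Agent.S15.ModAsmPlan
import Fermat.Agent.S15.ModXi
import Fermat.Agent.S15.ModUnif
import Fermat.Agent.S15.ModG0

set_option autoImplicit false
set_option linter.unusedSectionVars false
set_option synthInstance.maxHeartbeats 400000

noncomputable section

namespace Fermat.Agent.S15

open UpperHalfPlane PeriodPair WeierstrassCurve WeierstrassCurve.Affine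
open Fermat.Agent.S24 Fermat.Agent.S05
open scoped MatrixGroups

/-- `ℚ̄` -/
local notation "Qb" => AlgebraicClosure ℚ

/-- the fixed embedding `ℚ̄ → ℂ` as a `ℚ`-algebra homomorphism -/
def modasmeEmb : Qb →ₐ[ℚ] ℂ := embC.toRatAlgHom

theorem modasmeEmb_apply (x : Qb) : modasmeEmb x = embC x := rfl

/-! ### Generic compatibility of `ξ°` with field maps -/

section Generic

variable {F K : Type*} [Field F] [Field K] [Algebra ℚ F] [Algebra ℚ K]

theorem modasme_c₄ (W : WeierstrassCurve ℤ) :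
    ((W.map (Int.castRingHom ℚ)).baseChange K).c₄ = ((W.c₄ : ℤ) : K) := by
  simp only [WeierstrassCurve.baseChange, WeierstrassCurve.map_c₄, eq_intCast, map_intCast]

theorem modasme_c₆ (W : WeierstrassCurve ℤ) :
    ((W.map (Int.castRingHom ℚ)).baseChange K).c₆ = ((W.c₆ : ℤ) : K) := by
  simp only [WeierstrassCurve.baseChange, WeierstrassCurve.map_c₆, eq_intCast, map_intCast]

theorem modasme_Δ (W : WeierstrassCurve ℤ) :
    ((W.map (Int.castRingHom ℚ)).baseChange K).Δ = ((W.Δ : ℤ) : K) := by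
  simp only [WeierstrassCurve.baseChange, WeierstrassCurve.map_Δ, eq_intCast, map_intCast]

theorem modasme_xi (W : WeierstrassCurve ℤ) (f : F →ₐ[ℚ] K) (x : F) :
    modXi ((W.map (Int.castRingHom ℚ)).baseChange K) (f x) =
      f (modXi ((W.map (Int.castRingHom ℚ)).baseChange F) x) := by
  simp only [modXi, WeierstrassCurve.baseChange, WeierstrassCurve.map_c₄,
    WeierstrassCurve.map_c₆, WeierstrassCurve.map_b₂, WeierstrassCurve.map_b₄,
    WeierstrassCurve.map_b₆, eq_intCast, map_intCast, map_div₀, map_sub, map_add, map_mul,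
    map_ofNat]

end Generic

/-! ### The assembly -/

/-- **MOD-ASM-E.** -/
theorem stmtModAsmE_of (hAdd : StmtModAdd) : StmtModAsmE := by
  intro p hp hp5 W hΔ hmult Q hfix hord
  obtain ⟨ℓ, hℓ, hℓΔ, hℓc₄⟩ := hmult
  have hc₄ : W.c₄ ≠ 0 := fun h => hℓc₄ (h ▸ dvd_zero _)
  have hc₆ : W.c₆ ≠ 0 := fun h => modxi_not_dvd_c₆ W hℓ hℓΔ hℓc₄ (h ▸ dvd_zero _)
  have hΔC : ((W.map (Int.castRingHom ℚ)).baseChange ℂ).Δ ≠ 0 := by
    rw [modasme_Δ]
    exact_mod_cast hΔ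
  have hc₄C : ((W.map (Int.castRingHom ℚ)).baseChange ℂ).c₄ ≠ 0 := by
    rw [modasme_c₄]
    exact_mod_cast hc₄
  have hc₆C : ((W.map (Int.castRingHom ℚ)).baseChange ℂ).c₆ ≠ 0 := by
    rw [modasme_c₆]
    exact_mod_cast hc₆
  let QC : ((W.map (Int.castRingHom ℚ))⁄ℂ).Point := Point.map modasmeEmb Q
  have hordC : addOrderOf QC = p := by
    rw [← hord]
    exact addOrderOf_injective (Point.map modasmeEmb) (Point.map_injective modasmeEmb) Q
  obtain ⟨τ, θ, hJ, hg₃, hker, hsurj, hθQ, hval⟩ :=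
    stmtModUnif_of_add hAdd _ hΔC hc₄C hc₆C p hp.two_le QC hordC
  -- the values of `ξ°` at the multiples of `Q`
  have hkey : ∀ k ∈ Finset.Ico 1 p,
      modXiAn τ ((k : ℂ) / (p : ℂ)) =
        embC (modXi ((W.map (Int.castRingHom ℚ)).baseChange Qb) (modPtX (k • Q))) := by
    intro k hk
    obtain ⟨x, y, h, hkQ, -⟩ := modpi_exists_some Q hord hk
    have h1 : θ ((k : ℂ) / (p : ℂ)) = Point.map modasmeEmb (k • Q) := by
      rw [map_nsmul]
      have h2 : Point.map modasmeEmb Q = θ ((p : ℂ)⁻¹) := hθQ.symm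
      rw [h2, ← map_nsmul]
      congr 1
      rw [nsmul_eq_mul, div_eq_mul_inv]
    rw [hkQ, Point.map_some] at h1
    have hnot : ((k : ℂ) / (p : ℂ)) ∉ (modLat τ).lattice := by
      intro hmem
      have h3 := (hker _).2 hmem
      rw [h1] at h3
      exact Point.some_ne_zero _ h3
    obtain ⟨x', y', h', hθ', hxi⟩ := hval _ hnot
    rw [h1] at hθ'
    have hx : modasmeEmb x = x' := (Point.some.inj hθ').1
    rw [hkQ, modPtX_some, ← hxi, ← hx, modasme_xi]
    rfl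
  -- the rational numbers `c t`
  have hcspec : ∀ t : ℤ, ∃ r : ℚ, algebraMap ℚ Qb r =
      modPiAlg ((W.map (Int.castRingHom ℚ)).baseChange Qb) Q p ((t : ℤ) : Qb) := by
    intro t
    obtain ⟨r, hr⟩ := modpi_rat Q hfix p (t : ℚ)
    refine ⟨r, ?_⟩
    rw [hr, map_intCast]
  choose c hc using hcspec
  have hPi : ∀ t : ℤ, modPiAn p (t : ℂ) τ = embC (algebraMap ℚ Kb (c t)) := by
    intro t
    rw [hc t]
    unfold modPiAn modPiAlg
    rw [map_prod]
    refine Finset.prod_congr rfl fun k hk => ?_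
    rw [map_sub, map_intCast, hkey k hk]
  have hJ' : Jfun τ = embC (algebraMap ℚ Kb ((W.c₄ : ℚ) ^ 3 / (W.Δ : ℚ))) := by
    rw [modasme_Δ, modasme_c₄] at hJ
    have hΔ' : ((W.Δ : ℤ) : ℂ) ≠ 0 := by exact_mod_cast hΔ
    rw [map_div₀, map_div₀, map_pow, map_pow, map_intCast, map_intCast, map_intCast,
      map_intCast, eq_div_iff hΔ']
    exact hJ
  -- injectivity of `ξ°` modulo `±` and the lattice
  have hinj : ∀ z₁ z₂ : ℂ, z₁ ∉ (modLat τ).lattice → z₂ ∉ (modLat τ).lattice →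
      modXiAn τ z₁ = modXiAn τ z₂ →
        z₁ - z₂ ∈ (modLat τ).lattice ∨ z₁ + z₂ ∈ (modLat τ).lattice := by
    intro z₁ z₂ hz₁ hz₂ hxi
    obtain ⟨x₁, y₁, h₁, hθ₁, hxi₁⟩ := hval z₁ hz₁
    obtain ⟨x₂, y₂, h₂, hθ₂, hxi₂⟩ := hval z₂ hz₂
    have hx : x₁ = x₂ := modXi_inj hc₄C hc₆C (by rw [hxi₁, hxi₂, hxi])
    subst hx
    rcases Affine.Y_eq_of_X_eq h₁.1 h₂.1 rfl with hy | hy
    · left
      subst hy
      rw [← hker, map_sub, hθ₁, hθ₂]
      exact sub_self _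
    · right
      rw [← hker, map_add, hθ₁, hθ₂]
      exact Point.add_of_Y_eq rfl hy
  refine ⟨τ, (W.c₄ : ℚ) ^ 3 / (W.Δ : ℚ), c, hJ', ?_, hPi, ?_, ?_⟩
  · intro γ
    rw [modg0_g₃]
    exact mul_ne_zero (pow_ne_zero 6 (modg0J_ne_zero γ τ)) hg₃
  · intro γ h
    exact modg0_main p hp.two_le τ γ hinj h
  · intro v hv hvp hvΔ hvc₄ A hA
    have hc0 : algebraMap ℚ Kb (c 0) =
        modPiAlg ((W.map (Int.castRingHom ℚ)).baseChange Qb) Q p 0 := by
      rw [hc 0, Int.cast_zero]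
    refine ⟨?_, ?_, ?_⟩
    · intro hmem
      have h1 : A.valuation (algebraMap ℚ Kb ((W.c₄ : ℚ) ^ 3 / (W.Δ : ℚ))) ≤ 1 :=
        (A.valuation_le_one_iff _).2 hmem
      have h2 : A.valuation ((W.Δ : ℤ) : Qb) < 1 :=
        (valuation_intCast_lt_one_iff A hv hA _).2 hvΔ
      have h3 : A.valuation ((W.c₄ : ℤ) : Qb) = 1 :=
        (valuation_intCast_eq_one_iff A hv hA _).2 hvc₄
      have hΔ' : ((W.Δ : ℤ) : Qb) ≠ 0 := by exact_mod_cast hΔ
      have h4 : algebraMap ℚ Kb ((W.c₄ : ℚ) ^ 3 / (W.Δ : ℚ)) * ((W.Δ : ℤ) : Qb) =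
          ((W.c₄ : ℤ) : Qb) ^ 3 := by
        rw [map_div₀, map_pow, map_intCast, map_intCast, div_mul_cancel₀ _ hΔ']
      have h5 := congrArg A.valuation h4
      rw [map_mul, map_pow, h3, one_pow] at h5
      have h6 : A.valuation (algebraMap ℚ Kb ((W.c₄ : ℚ) ^ 3 / (W.Δ : ℚ))) *
          A.valuation ((W.Δ : ℤ) : Qb) < 1 := by
        calc _ ≤ 1 * A.valuation ((W.Δ : ℤ) : Qb) := mul_le_mul' h1 le_rfl
          _ = A.valuation ((W.Δ : ℤ) : Qb) := one_mul _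
          _ < 1 := h2
      rw [h5] at h6
      exact lt_irrefl _ h6
    · rw [hc0, ← A.valuation_le_one_iff]
      exact modpi_val_le hp hv hvp hA hvΔ hvc₄ Q hord (t := 0) (zero_mem _)
    · rw [hc0, ValuationSubring.mem_nonunits_iff,
        modpi_val_lt_one_iff hp hv hvp hA hvΔ hvc₄ Q hord, not_not]

end Fermat.Agent.S15
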