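import Fermat.Agent.S15.ModPlaceVal
import Fermat.Agent.S15.ModAsmPlan

/-!
# S15 / MOD-ASM-P — the place side of the assembly of MOD (helper8)

`stmtModAsmP_of : StmtModFricke → StmtModAsmP`.

* `modasmp_converse` : the converse of `IsPlaceAt` for the canonical place `modPlace N τ c₀ h`:
  if `f` has the value `c` there and `f = a / b` with `a`, `b` holomorphic modular functions,
  `b τ ≠ 0`, then `a τ = embC c * b τ`.
* `modasmp_value` / `modasmp_value_conv` : the same for `IsAnalyticOn N f φ` at a point where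
  `g₃ ≠ 0`: `f(x_τ) = c ↔ φ τ = embC c`.
* the place `x = modPlace N τ₀ a hJ` is `G_ℚ`-fixed: `σ x` lies over `j = a`, so `σ x` is the place
  at `γ • τ₀`; the rational Fricke products `f_t` have the same rational values at `x` and at
  `σ x`, so `Π_t(γ τ₀) = Π_t(τ₀)` for all `t`, hence `γ ∈ Γ₀(N)` and `σ x = x`.
-/

set_option autoImplicit false
set_option linter.unusedSectionVars false
set_option linter.style.haveILetI false

noncomputable section

open UpperHalfPlane AlgebraicCurve ModularCurve IntermediateField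
open scoped MatrixGroups Manifold

namespace Fermat.Agent.S15

open Fermat.Agent.S24 Fermat.Agent.S28 Fermat.Agent.S23 Fermat.Agent.ES.RC Fermat.Agent.W1
open Fermat.Agent.ES.G2 Fermat.Agent.ES.M

attribute [local instance] algKbC

variable {N : ℕ} [NeZero N]

/-- the `q`-expansion of `a - c b` -/
theorem modasmp_sub_rep {f : FF N} {a b : ℍ → ℂ} (ha : IsModFun N a) (hb : IsModFun N b)
    (hab : coeffMap embC (f : LaurentSeries Kb) * laurentOf b = laurentOf a) (c : Kb) :
    IsModFun N (a - (fun _ : ℍ => embC c) * b) ∧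
      coeffMap embC ((f - algebraMap Kb (FF N) c : FF N) : LaurentSeries Kb) * laurentOf b =
        laurentOf (a - (fun _ : ℍ => embC c) * b) := by
  have hc' : IsModFun N (fun _ : ℍ => embC c) := isModFun_const N _
  refine ⟨ha.sub (hc'.mul hb), ?_⟩
  have e1 : ((f - algebraMap Kb (FF N) c : FF N) : LaurentSeries Kb) =
      (f : LaurentSeries Kb) - algebraMap Kb (LaurentSeries Kb) c := rfl
  have e2 : a - (fun _ : ℍ => embC c) * b = a + (fun _ : ℍ => -embC c) * b := by
    funext z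
    simp only [Pi.sub_apply, Pi.mul_apply, Pi.add_apply]
    ring
  rw [e2, laurentOf_add ha.isMerInf ((isModFun_const N _).isMerInf.mul hb.isMerInf),
    laurentOf_mul (isModFun_const N _).isMerInf hb.isMerInf, laurentOf_const, e1, map_sub,
    sub_mul, hab, algebraMap_laurentSeries_eq_single, coeffMap_single, map_neg]
  have : (HahnSeries.single 0 (embC c) : LaurentSeries ℂ) = HahnSeries.C (embC c) := rfl
  rw [this]
  ring

/-- **converse of `IsPlaceAt`** for the canonical place at `τ₀`. -/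
theorem modasmp_converse {τ₀ : ℍ} {c₀ : Kb} (h : Jfun τ₀ = embC c₀) {f : FF N} {c : Kb}
    (hv : HasValueAt (modPlace N τ₀ c₀ h) f c) {a b : ℍ → ℂ} (ha : IsModFun N a)
    (hb : IsModFun N b) (hab : coeffMap embC (f : LaurentSeries Kb) * laurentOf b = laurentOf a)
    (hb0 : b τ₀ ≠ 0) : a τ₀ = embC c * b τ₀ := by
  obtain ⟨ha', hab'⟩ := modasmp_sub_rep ha hb hab c
  have hv' : f - algebraMap Kb (FF N) c ∈ (modPlace N τ₀ c₀ h).toValuationSubring.nonunits := hv
  set g : FF N := f - algebraMap Kb (FF N) c with hg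
  have hbd : MDiff b := rc_mdiff_of_isModFun hb
  have ha'd := rc_mdiff_of_isModFun ha'
  suffices hz : (a - (fun _ : ℍ => embC c) * b) τ₀ = 0 by
    simp only [Pi.sub_apply, Pi.mul_apply] at hz
    exact sub_eq_zero.1 hz
  rcases eq_or_ne g 0 with h0 | h0
  · -- `f` is the constant `c`
    rw [h0] at hab'
    have h1 : laurentOf (a - (fun _ : ℍ => embC c) * b) = laurentOf (fun _ : ℍ => (0 : ℂ)) := by
      rw [← hab', laurentOf_const]
      simp
    have h2 := laurentOf_injective ha'.isMerInf (isModFun_const N 0).isMerInf h1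
    rw [h2]
  obtain ⟨P, Q, hQ, hPQ⟩ := modplace_exists_rep N g
  have key := modplace_bridge hPQ ha' hb hab'
  have hP0 : MvPolynomial.aeval (jFfam N) P ≠ 0 := by
    rw [← hPQ]
    exact mul_ne_zero h0 hQ
  set A : Ban N := MvPolynomial.aeval (JdBanfam N) P with hA
  set B : Ban N := MvPolynomial.aeval (JdBanfam N) Q with hB
  have hAM : algebraMap (Ban N) (Man N) A ≠ 0 := by
    rw [← modplace_phi_aeval]
    exact (map_ne_zero (phi N)).2 hP0
  have hBM : algebraMap (Ban N) (Man N) B ≠ 0 := by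
    rw [← modplace_phi_aeval]
    exact (map_ne_zero (phi N)).2 hQ
  have hA0 : A ≠ 0 := fun h1 => hAM (by rw [h1, map_zero])
  have hB0 : B ≠ 0 := fun h1 => hBM (by rw [h1, map_zero])
  have hphi : phi N g = algebraMap (Ban N) (Man N) A / algebraMap (Ban N) (Man N) B := by
    rw [eq_div_iff hBM, ← modplace_phi_aeval, ← modplace_phi_aeval, ← map_mul, hPQ]
  have hg0 : phi N g ≠ 0 := (map_ne_zero (phi N)).2 h0
  rw [← PlaceAux.ord_pos_iff_mem_nonunits _ h0, modPlace_ord_pos_iff,
    modPlaceMan_ord_pos_iff h hg0, hphi, vord_valMan_div τ₀ hA0 hB0] at hv'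
  have hAd : MDiff (A : ℍ → ℂ) := mdifferentiable_of_mem_Ban A.2
  have hBd : MDiff (B : ℍ → ℂ) := mdifferentiable_of_mem_Ban B.2
  have hkey : (A : ℍ → ℂ) * b = (a - (fun _ : ℍ => embC c) * b) * (B : ℍ → ℂ) := by
    rw [hA, hB, modplace_coe_aeval_JdBanfam, modplace_coe_aeval_JdBanfam]
    exact key
  have hord := congrArg (ordAt τ₀) hkey
  rw [ordAt_mul hAd hbd, ordAt_mul ha'd hBd, modplace_ordAt_eq_zero hbd hb0, add_zero] at hord
  have hA1 := coe_ordBan τ₀ hA0
  have hB1 := coe_ordBan τ₀ hB0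
  rw [← hA1, ← hB1] at hord
  by_contra hne
  have h1 : ordAt τ₀ (a - (fun _ : ℍ => embC c) * b) = 0 := modplace_ordAt_eq_zero ha'd hne
  rw [h1, zero_add] at hord
  have h3 : ordBan N τ₀ A = ordBan N τ₀ B := by exact_mod_cast hord
  omega

/-- the value at the place at `τ` of an element of `F_N` given analytically by `φ` -/
theorem modasmp_value {τ : ℍ} {c₀ : Kb} (h : Jfun τ = embC c₀) {f : FF N} {φ : ℍ → ℂ}
    (hf : IsAnalyticOn N f φ) (hg : (modLat τ).g₃ ≠ 0) {c : Kb} (hc : φ τ = embC c) :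
    HasValueAt (modPlace N τ c₀ h) f c := by
  obtain ⟨a, b, hab, hτ⟩ := hf
  obtain ⟨hb0, hφ⟩ := hτ τ hg
  refine modplace_isPlaceAt h f a b hab hb0 c ?_
  rw [hφ, hc]

/-- converse: the analytic value is the value at the place -/
theorem modasmp_value_conv {τ : ℍ} {c₀ : Kb} (h : Jfun τ = embC c₀) {f : FF N} {φ : ℍ → ℂ}
    (hf : IsAnalyticOn N f φ) (hg : (modLat τ).g₃ ≠ 0) {c : Kb}
    (hv : HasValueAt (modPlace N τ c₀ h) f c) : φ τ = embC c := by
  obtain ⟨a, b, hab, hτ⟩ := hf
  obtain ⟨hb0, hφ⟩ := hτ τ hg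
  have h1 := modasmp_converse h hv a.2 b.2 hab hb0
  rw [hφ] at h1
  exact mul_right_cancel₀ hb0 h1

/-- **MOD-ASM-P.** -/
theorem stmtModAsmP_of (hF : StmtModFricke) : StmtModAsmP := by
  intro N _ hN τ₀ a c hJ hg₃ hc hG0
  have hg0 : (modLat τ₀).g₃ ≠ 0 := by
    have := hg₃ 1
    rwa [one_smul] at this
  set j₀ : Kb := algebraMap ℚ Kb a with hj₀
  set x : Place Kb (FF N) := modPlace N τ₀ j₀ hJ with hx
  have hvj : HasValueAt x (jF N) j₀ :=
    (modplace_hasValueAt_jF_iff x j₀).2 (modPlace_ord_jF_sub_pos hJ)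
  refine ⟨x, ⟨?_, hvj, ?_⟩⟩
  · intro σ
    have hσj : σ j₀ = j₀ := σ.commutes a
    have hy := modplace_hasValueAt_jF_galAct σ hσj hvj
    obtain ⟨γ, hγ⟩ := modplace_fibre hJ (galAct N σ • x)
      ((modplace_hasValueAt_jF_iff _ j₀).1 hy)
    have hmem : γ ∈ CongruenceSubgroup.Gamma0 N := by
      apply hG0 γ
      intro t
      obtain ⟨f, hf, hfix⟩ := hF N hN t
      have h1 : HasValueAt x f (algebraMap ℚ Kb (c t)) := modasmp_value hJ hf hg0 (hc t)
      have h2 : HasValueAt (galAct N σ • x) f (algebraMap ℚ Kb (c t)) :=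
        modplace_hasValueAt_galAct_of_fixed σ (hfix σ) (σ.commutes (c t)) h1
      rw [hγ] at h2
      rw [modasmp_value_conv (modplace_Jfun_smul hJ γ) hf (hg₃ γ) h2, hc t]
    rw [hγ]
    exact modplace_smul_gamma0 hJ hmem
  · intro f hf
    exact modasmp_value hJ hf hg0 (hc 0)

end Fermat.Agent.S15
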