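import Fermat.Agent.S15.ModFrickePlan
import Fermat.Agent.S23.Descent

/-!
# S15 / MOD-FRICKE, piece **FR-RAT** (helper56): `stmtFrRat : StmtFrRat`.

For `A, B ∈ ℤ[[q]]`, `N` prime, the product `N^{2(N-1)} ∏_{k=1}^{N-1} (A + B · S(ζ_N^k))`
(`S = mfrSeries`) lies in `ℤ[[q]]`, and if `A(0) = 0`, `B(0) = 1` its constant term is
`± N^{2(N-2)}`.

Proof.  The product is `∏_μ G(μ)` over the primitive `N`-th roots of unity, `G(μ) = N²(A + B S(μ))`.
* integrality: `N / (1 - μ) = ∏_{μ' ≠ μ} (1 - μ')` is an algebraic integer, so all coefficients of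
  `G(μ)` are algebraic integers (`mfrratInt_G`);
* rationality: every `σ ∈ Aut ℂ` permutes the `μ` and `σ(G(μ)) = G(σ μ)`, so the coefficients of
  the product are fixed by `Aut ℂ`, hence rational (`S23.descent_exists_rat_of_fixed`);
* `ℤ` is integrally closed;
* constant term: `∏ (1 - μ) = N` (cyclotomic polynomial at `1`) and `(∏ μ)² = 1`.
-/

set_option autoImplicit false
set_option linter.style.haveILetI false

noncomputable section

namespace Fermat.Agent.S15

open Complex Polynomial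

/-! ## roots of unity -/

theorem mfrrat_exp_eq (N k : ℕ) :
    Complex.exp (2 * Real.pi * Complex.I * ((k : ℂ) / (N : ℂ)))
      = Complex.exp (2 * Real.pi * Complex.I / N) ^ k := by
  rw [← Complex.exp_nat_mul]
  congr 1
  ring

theorem mfrrat_image (N : ℕ) (hN : N.Prime) :
    (Finset.Ico 1 N).image (fun k : ℕ => Complex.exp (2 * Real.pi * Complex.I * ((k : ℂ) / (N : ℂ))))
      = primitiveRoots N ℂ := by
  have hζ := Complex.isPrimitiveRoot_exp N hN.ne_zero
  apply Finset.eq_of_subset_of_card_le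
  · intro u hu
    rw [Finset.mem_image] at hu
    obtain ⟨k, hk, rfl⟩ := hu
    rw [Finset.mem_Ico] at hk
    rw [mem_primitiveRoots hN.pos, mfrrat_exp_eq]
    refine hζ.pow_of_coprime k ?_
    rw [Nat.coprime_comm, Nat.Prime.coprime_iff_not_dvd hN]
    intro hdvd
    have := Nat.le_of_dvd (by omega) hdvd
    omega
  · rw [Complex.card_primitiveRoots, Nat.totient_prime hN, Finset.card_image_of_injOn]
    · simp
    · intro i hi j hj hij
      simp only [Finset.coe_Ico, Set.mem_Ico] at hi hj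
      simp only [mfrrat_exp_eq] at hij
      exact hζ.pow_inj hi.2 hj.2 hij

theorem mfrrat_injOn (N : ℕ) (hN : N.Prime) :
    Set.InjOn (fun k : ℕ => Complex.exp (2 * Real.pi * Complex.I * ((k : ℂ) / (N : ℂ))))
      (Finset.Ico 1 N : Finset ℕ) := by
  have hζ := Complex.isPrimitiveRoot_exp N hN.ne_zero
  intro i hi j hj hij
  simp only [Finset.coe_Ico, Set.mem_Ico] at hi hj
  simp only [mfrrat_exp_eq] at hij
  exact hζ.pow_inj hi.2 hj.2 hij

/-- products over `k = 1, …, N-1` are products over the primitive `N`-th roots of unity -/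
theorem mfrrat_prod_eq {M : Type*} [CommMonoid M] (N : ℕ) (hN : N.Prime) (g : ℂ → M) :
    ∏ k ∈ Finset.Ico 1 N, g (Complex.exp (2 * Real.pi * Complex.I * ((k : ℂ) / (N : ℂ))))
      = ∏ μ ∈ primitiveRoots N ℂ, g μ := by
  rw [← mfrrat_image N hN, Finset.prod_image (mfrrat_injOn N hN)]

/-- field automorphisms permute the primitive roots -/
theorem mfrrat_prod_aut {M : Type*} [CommMonoid M] (N : ℕ) (hN : N.Prime) (g : ℂ → M)
    (σ : ℂ ≃+* ℂ) :
    ∏ μ ∈ primitiveRoots N ℂ, g (σ μ) = ∏ μ ∈ primitiveRoots N ℂ, g μ := by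
  refine Finset.prod_nbij' (fun μ => σ μ) (fun μ => σ.symm μ) ?_ ?_ ?_ ?_ ?_
  · intro μ hμ
    rw [mem_primitiveRoots hN.pos] at hμ ⊢
    exact hμ.map_of_injective σ.injective
  · intro μ hμ
    rw [mem_primitiveRoots hN.pos] at hμ ⊢
    exact hμ.map_of_injective σ.symm.injective
  · intro μ _
    simp
  · intro μ _
    simp
  · intro μ _
    rfl

/-- `∏ (1 - μ) = N` -/
theorem mfrrat_prod_one_sub (N : ℕ) (hN : N.Prime) :
    ∏ μ ∈ primitiveRoots N ℂ, (1 - μ) = (N : ℂ) := by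
  have : Fact N.Prime := ⟨hN⟩
  have hζ := Complex.isPrimitiveRoot_exp N hN.ne_zero
  have h1 := Polynomial.cyclotomic_eq_prod_X_sub_primitiveRoots hζ
  have h2 : (cyclotomic N ℂ).eval 1 = (N : ℂ) := Polynomial.eval_one_cyclotomic_prime
  rw [h1, Polynomial.eval_prod] at h2
  simpa using h2


/-! ## power series with integral coefficients -/

/-- all coefficients are algebraic integers -/
def mfrratInt (f : PowerSeries ℂ) : Prop := ∀ e, IsIntegral ℤ (PowerSeries.coeff e f)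

theorem mfrratInt_mul {f g : PowerSeries ℂ} (hf : mfrratInt f) (hg : mfrratInt g) :
    mfrratInt (f * g) := by
  intro e
  rw [PowerSeries.coeff_mul]
  exact IsIntegral.sum _ fun x _ => (hf x.1).mul (hg x.2)

theorem mfrratInt_add {f g : PowerSeries ℂ} (hf : mfrratInt f) (hg : mfrratInt g) :
    mfrratInt (f + g) := by
  intro e
  rw [map_add]
  exact (hf e).add (hg e)

theorem mfrratInt_one : mfrratInt 1 := by
  intro e
  rw [PowerSeries.coeff_one]
  split_ifs
  · exact isIntegral_one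
  · exact isIntegral_zero

theorem mfrratInt_prod {ι : Type*} (s : Finset ι) (f : ι → PowerSeries ℂ)
    (h : ∀ i ∈ s, mfrratInt (f i)) : mfrratInt (∏ i ∈ s, f i) :=
  Finset.prod_induction f mfrratInt (fun _ _ => mfrratInt_mul) mfrratInt_one h

theorem mfrratInt_map (A : PowerSeries ℤ) : mfrratInt (A.map (Int.castRingHom ℂ)) := by
  intro e
  rw [PowerSeries.coeff_map]
  exact isIntegral_algebraMap (R := ℤ) (A := ℂ) (x := PowerSeries.coeff e A)

theorem mfrratInt_C {a : ℂ} (ha : IsIntegral ℤ a) : mfrratInt (PowerSeries.C a) := by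
  intro e
  rw [PowerSeries.coeff_C]
  split_ifs
  · exact ha
  · exact isIntegral_zero

/-! ## integrality of Tate's series at a primitive root -/

theorem mfrrat_isIntegral_root {N : ℕ} (hN : N.Prime) {μ : ℂ} (hμ : μ ∈ primitiveRoots N ℂ) :
    IsIntegral ℤ μ := by
  rw [mem_primitiveRoots hN.pos] at hμ
  refine IsIntegral.of_pow hN.pos ?_
  rw [hμ.pow_eq_one]
  exact isIntegral_one

theorem mfrrat_isIntegral_inv {N : ℕ} (hN : N.Prime) {μ : ℂ} (hμ : μ ∈ primitiveRoots N ℂ) :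
    IsIntegral ℤ μ⁻¹ := by
  have h := hμ
  rw [mem_primitiveRoots hN.pos] at h
  have h1 : μ⁻¹ = μ ^ (N - 1) := by
    have hne : μ ≠ 0 := h.ne_zero hN.ne_zero
    have h2 : μ * μ ^ (N - 1) = 1 := by
      rw [← pow_succ', Nat.sub_add_cancel hN.one_le, h.pow_eq_one]
    exact inv_eq_of_mul_eq_one_right h2
  rw [h1]
  exact (mfrrat_isIntegral_root hN hμ).pow _

theorem mfrrat_one_sub_ne {N : ℕ} (hN : N.Prime) {μ : ℂ} (hμ : μ ∈ primitiveRoots N ℂ) :
    1 - μ ≠ 0 := by
  rw [mem_primitiveRoots hN.pos] at hμ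
  intro h
  have h1 : μ = 1 := by linear_combination -h
  exact hμ.ne_one hN.one_lt h1

/-- `N / (1 - μ)` is integral -/
theorem mfrrat_isIntegral_div {N : ℕ} (hN : N.Prime) {μ : ℂ} (hμ : μ ∈ primitiveRoots N ℂ) :
    IsIntegral ℤ ((N : ℂ) / (1 - μ)) := by
  have h := mfrrat_prod_one_sub N hN
  rw [← Finset.mul_prod_erase _ _ hμ] at h
  have hne := mfrrat_one_sub_ne hN hμ
  have h2 : (N : ℂ) / (1 - μ) = ∏ x ∈ (primitiveRoots N ℂ).erase μ, (1 - x) := by
    rw [← h]
    field_simp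
  rw [h2]
  refine IsIntegral.prod _ fun x hx => ?_
  exact isIntegral_one.sub (mfrrat_isIntegral_root hN (Finset.mem_of_mem_erase hx))

theorem mfrratInt_series {N : ℕ} (hN : N.Prime) {μ : ℂ} (hμ : μ ∈ primitiveRoots N ℂ) :
    mfrratInt (PowerSeries.C ((N : ℂ) ^ 2) * mfrSeries μ) := by
  intro e
  rw [PowerSeries.coeff_C_mul]
  unfold mfrSeries
  rw [PowerSeries.coeff_mk]
  have hNint : IsIntegral ℤ ((N : ℂ)) := by
    have : (N : ℂ) = algebraMap ℤ ℂ (N : ℤ) := by simp
    rw [this]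
    exact isIntegral_algebraMap
  split_ifs with he
  · have hne := mfrrat_one_sub_ne hN hμ
    have h2 : (N : ℂ) ^ 2 * (μ / (1 - μ) ^ 2) = μ * ((N : ℂ) / (1 - μ)) ^ 2 := by
      field_simp
    rw [h2]
    exact (mfrrat_isIntegral_root hN hμ).mul ((mfrrat_isIntegral_div hN hμ).pow 2)
  · refine (hNint.pow 2).mul (IsIntegral.sum _ fun m _ => ?_)
    have hm : IsIntegral ℤ ((m : ℂ)) := by
      have : (m : ℂ) = algebraMap ℤ ℂ (m : ℤ) := by simp
      rw [this]
      exact isIntegral_algebraMap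
    have h2 : IsIntegral ℤ ((2 : ℂ)) := by
      have : (2 : ℂ) = algebraMap ℤ ℂ (2 : ℤ) := by simp
      rw [this]
      exact isIntegral_algebraMap
    exact hm.mul ((((mfrrat_isIntegral_root hN hμ).pow m).add
      ((mfrrat_isIntegral_inv hN hμ).pow m)).sub h2)

/-! ## the action of `Aut ℂ` -/

theorem mfrrat_map_series (σ : ℂ ≃+* ℂ) (u : ℂ) :
    PowerSeries.map (σ : ℂ →+* ℂ) (mfrSeries u) = mfrSeries (σ u) := by
  ext e
  rw [PowerSeries.coeff_map]
  unfold mfrSeries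
  rw [PowerSeries.coeff_mk, PowerSeries.coeff_mk]
  split_ifs with he
  · simp
  · have h2 : σ 2 = 2 := map_ofNat σ 2
    simp [h2]

theorem mfrrat_map_int (σ : ℂ ≃+* ℂ) (A : PowerSeries ℤ) :
    PowerSeries.map (σ : ℂ →+* ℂ) (A.map (Int.castRingHom ℂ)) = A.map (Int.castRingHom ℂ) := by
  ext e
  simp


/-! ## the factors and the product -/

/-- the factor `N² (A + B · S(μ))` -/
def mfrratG (N : ℕ) (A B : PowerSeries ℤ) (μ : ℂ) : PowerSeries ℂ :=
  PowerSeries.C ((N : ℂ) ^ 2) *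
    (A.map (Int.castRingHom ℂ) + B.map (Int.castRingHom ℂ) * mfrSeries μ)

theorem mfrrat_isIntegral_natCast (n : ℕ) : IsIntegral ℤ ((n : ℂ)) := by
  have : (n : ℂ) = algebraMap ℤ ℂ (n : ℤ) := by simp
  rw [this]
  exact isIntegral_algebraMap

theorem mfrratInt_G {N : ℕ} (hN : N.Prime) (A B : PowerSeries ℤ) {μ : ℂ}
    (hμ : μ ∈ primitiveRoots N ℂ) : mfrratInt (mfrratG N A B μ) := by
  have e : mfrratG N A B μ = PowerSeries.C ((N : ℂ) ^ 2) * A.map (Int.castRingHom ℂ)
      + B.map (Int.castRingHom ℂ) * (PowerSeries.C ((N : ℂ) ^ 2) * mfrSeries μ) := by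
    unfold mfrratG
    ring
  rw [e]
  exact mfrratInt_add
    (mfrratInt_mul (mfrratInt_C ((mfrrat_isIntegral_natCast N).pow 2)) (mfrratInt_map A))
    (mfrratInt_mul (mfrratInt_map B) (mfrratInt_series hN hμ))

theorem mfrrat_map_G (N : ℕ) (A B : PowerSeries ℤ) (σ : ℂ ≃+* ℂ) (μ : ℂ) :
    PowerSeries.map (σ : ℂ →+* ℂ) (mfrratG N A B μ) = mfrratG N A B (σ μ) := by
  unfold mfrratG
  rw [map_mul, map_add, map_mul, mfrrat_map_int, mfrrat_map_int, mfrrat_map_series,
    PowerSeries.map_C]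
  congr 2
  simp

theorem mfrrat_F_eq (N : ℕ) (hN : N.Prime) (A B : PowerSeries ℤ) :
    PowerSeries.C ((N : ℂ) ^ (2 * (N - 1))) *
      ∏ k ∈ Finset.Ico 1 N,
        (A.map (Int.castRingHom ℂ) + B.map (Int.castRingHom ℂ) *
          mfrSeries (Complex.exp (2 * Real.pi * Complex.I * ((k : ℂ) / (N : ℂ)))))
      = ∏ μ ∈ primitiveRoots N ℂ, mfrratG N A B μ := by
  rw [mfrrat_prod_eq N hN (fun u => A.map (Int.castRingHom ℂ) +
    B.map (Int.castRingHom ℂ) * mfrSeries u)]
  unfold mfrratG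
  rw [Finset.prod_mul_distrib, Finset.prod_const, Complex.card_primitiveRoots,
    Nat.totient_prime hN, ← map_pow, ← pow_mul]

/-- the coefficients of the product are integers -/
theorem mfrrat_coeff_int (N : ℕ) (hN : N.Prime) (A B : PowerSeries ℤ) (e : ℕ) :
    ∃ n : ℤ, PowerSeries.coeff e (∏ μ ∈ primitiveRoots N ℂ, mfrratG N A B μ) = (n : ℂ) := by
  have hint : IsIntegral ℤ (PowerSeries.coeff e (∏ μ ∈ primitiveRoots N ℂ, mfrratG N A B μ)) :=
    mfrratInt_prod _ _ (fun μ hμ => mfrratInt_G hN A B hμ) e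
  have hfix : ∀ σ : ℂ ≃+* ℂ,
      σ (PowerSeries.coeff e (∏ μ ∈ primitiveRoots N ℂ, mfrratG N A B μ))
        = PowerSeries.coeff e (∏ μ ∈ primitiveRoots N ℂ, mfrratG N A B μ) := by
    intro σ
    have h1 : PowerSeries.map (σ : ℂ →+* ℂ) (∏ μ ∈ primitiveRoots N ℂ, mfrratG N A B μ)
        = ∏ μ ∈ primitiveRoots N ℂ, mfrratG N A B μ := by
      rw [map_prod]
      simp_rw [mfrrat_map_G]
      exact mfrrat_prod_aut N hN (fun u => mfrratG N A B u) σ
    have h2 := congrArg (PowerSeries.coeff e) h1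
    rw [PowerSeries.coeff_map] at h2
    exact h2
  obtain ⟨r, hr⟩ := Fermat.Agent.S23.descent_exists_rat_of_fixed _ hfix
  rw [hr] at hint ⊢
  have hint' : IsIntegral ℤ r := by
    have h3 : ((r : ℚ) : ℂ) = algebraMap ℚ ℂ r := rfl
    rw [h3] at hint
    exact (isIntegral_algebraMap_iff (algebraMap ℚ ℂ).injective).mp hint
  obtain ⟨n, hn⟩ := IsIntegrallyClosed.isIntegral_iff.mp hint'
  refine ⟨n, ?_⟩
  rw [← hn]
  simp

/-- `(∏ μ)² = 1` -/
theorem mfrrat_prod_root_sq (N : ℕ) (hN : N.Prime) :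
    (∏ μ ∈ primitiveRoots N ℂ, μ) ^ 2 = 1 := by
  have h1 : ∏ μ ∈ primitiveRoots N ℂ, μ⁻¹ = ∏ μ ∈ primitiveRoots N ℂ, μ := by
    refine Finset.prod_nbij' (fun μ => μ⁻¹) (fun μ => μ⁻¹) ?_ ?_ ?_ ?_ ?_
    · intro μ hμ
      rw [mem_primitiveRoots hN.pos] at hμ ⊢
      exact hμ.inv
    · intro μ hμ
      rw [mem_primitiveRoots hN.pos] at hμ ⊢
      exact hμ.inv
    · intro μ _
      simp
    · intro μ _
      simp
    · intro μ _
      rfl
  rw [Finset.prod_inv_distrib] at h1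
  have hne : ∏ μ ∈ primitiveRoots N ℂ, μ ≠ 0 := by
    rw [Finset.prod_ne_zero_iff]
    intro μ hμ
    rw [mem_primitiveRoots hN.pos] at hμ
    exact hμ.ne_zero hN.ne_zero
  rw [pow_two]
  nth_rewrite 1 [← h1]
  exact inv_mul_cancel₀ hne

/-- **FR-RAT.** -/
theorem stmtFrRat : StmtFrRat := by
  intro N hN A B
  have hF := mfrrat_F_eq N hN A B
  choose c hc using mfrrat_coeff_int N hN A B
  refine ⟨PowerSeries.mk c, ?_, ?_⟩
  · rw [hF]
    ext e
    rw [PowerSeries.coeff_map, PowerSeries.coeff_mk, hc e]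
    simp
  · intro hA hB
    have h0 : ((c 0 : ℤ) : ℂ)
        = PowerSeries.constantCoeff (∏ μ ∈ primitiveRoots N ℂ, mfrratG N A B μ) := by
      rw [← PowerSeries.coeff_zero_eq_constantCoeff_apply, hc]
    rw [map_prod] at h0
    have h1 : ∀ μ ∈ primitiveRoots N ℂ, PowerSeries.constantCoeff (mfrratG N A B μ)
        = (N : ℂ) ^ 2 * (μ / (1 - μ) ^ 2) := by
      intro μ _
      unfold mfrratG mfrSeries
      rw [map_mul, map_add, map_mul, PowerSeries.constantCoeff_C,
        ← PowerSeries.coeff_zero_eq_constantCoeff_apply,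
        ← PowerSeries.coeff_zero_eq_constantCoeff_apply,
        ← PowerSeries.coeff_zero_eq_constantCoeff_apply, PowerSeries.coeff_map,
        PowerSeries.coeff_map, PowerSeries.coeff_mk, PowerSeries.coeff_zero_eq_constantCoeff_apply,
        PowerSeries.coeff_zero_eq_constantCoeff_apply, hA, hB]
      simp
    rw [Finset.prod_congr rfl h1, Finset.prod_mul_distrib, Finset.prod_const,
      Complex.card_primitiveRoots, Nat.totient_prime hN, Finset.prod_div_distrib,
      Finset.prod_pow, mfrrat_prod_one_sub N hN] at h0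
    have hN0 : (N : ℂ) ≠ 0 := by exact_mod_cast hN.ne_zero
    have hsq := mfrrat_prod_root_sq N hN
    have h2 : (((c 0 : ℤ) : ℂ)) ^ 2 = ((((N : ℤ) ^ (2 * (N - 2)) : ℤ) : ℂ)) ^ 2 := by
      rw [h0, mul_pow, div_pow, hsq]
      obtain ⟨m, rfl⟩ : ∃ m, N = m + 2 := ⟨N - 2, by have := hN.two_le; omega⟩
      have hm2 : ((m : ℂ) + 2) ≠ 0 := by
        have := hN0
        push_cast at this
        exact this
      push_cast
      generalize (m : ℂ) + 2 = x at hm2 ⊢
      field_simp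
      ring
    have h3 : PowerSeries.constantCoeff (PowerSeries.mk c) = c 0 := by
      rw [← PowerSeries.coeff_zero_eq_constantCoeff_apply, PowerSeries.coeff_mk]
    rw [h3]
    exact_mod_cast h2

end Fermat.Agent.S15
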