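import Fermat.Agent.S15.ModDefs

/-!
# S15 / MOD-TATE — the `q`-expansion of the Weierstrass `℘` function (helper56)

Mathlib only.  `mtateS w = ∑_{n ∈ ℤ} 1/(w+n)² = (2πi)² e(w)/(1-e(w))²` for every `w ∉ ℤ`
(`mtateS_eq`: upper half plane by `EisensteinSeries.qExpansion_identity`, lower half plane by
`w ↦ -w`, real axis by continuity); the lattice sum of `℘` is summed by rows (`mtate_rows`), and
the rows `±k` together give the `k`-th term of the series of Tate (`mtate_pair`, `mtate_main`).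
-/

set_option autoImplicit false

noncomputable section

namespace Fermat.Agent.S15

open Complex Filter Topology
open UpperHalfPlane hiding I
open scoped Real
open PeriodPair

/-- `x / (1 - x)²` -/
def mtateG (x : ℂ) : ℂ := x / (1 - x) ^ 2

theorem mtateG_inv (x : ℂ) : mtateG x⁻¹ = mtateG x := by
  unfold mtateG
  by_cases hx : x = 0
  · simp [hx]
  by_cases h1 : 1 - x = 0
  · have : x = 1 := by linear_combination -h1
    simp [this]
  have h3 : 1 - x⁻¹ = -(1 - x) / x := by field_simp; ring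
  rw [h3]
  field_simp

/-- the row sum `∑ 1/(w+n)²` -/
def mtateS (w : ℂ) : ℂ := ∑' n : ℤ, 1 / (w + n) ^ 2

theorem mtate_summable (w : ℂ) : Summable fun n : ℤ => 1 / (w + n) ^ 2 := by
  have := EisensteinSeries.linear_right_summable w 1 (k := 2) le_rfl
  refine this.congr fun n => ?_
  simp [zpow_ofNat]

theorem mtateS_upper (w : ℍ) :
    mtateS (w : ℂ) = (2 * π * I) ^ 2 * mtateG (cexp (2 * π * I * w)) := by
  have h := EisensteinSeries.qExpansion_identity (k := 1) le_rfl w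
  have hn : ‖cexp (2 * π * I * w)‖ < 1 := by
    simpa using UpperHalfPlane.norm_exp_two_pi_I_lt_one w
  have h2 := tsum_coe_mul_geometric_of_norm_lt_one hn
  unfold mtateS mtateG
  simp only [one_add_one_eq_two, pow_one, Nat.factorial_one, Nat.cast_one, div_one] at h
  rw [h, h2]
  ring

theorem mtateS_neg (w : ℂ) : mtateS (-w) = mtateS w := by
  unfold mtateS
  rw [← (Equiv.neg ℤ).tsum_eq]
  refine tsum_congr fun n => ?_
  simp only [Equiv.neg_apply, Int.cast_neg]
  congr 1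
  ring

theorem mtateS_lower (w : ℂ) (hw : w.im < 0) :
    mtateS w = (2 * π * I) ^ 2 * mtateG (cexp (2 * π * I * w)) := by
  have h := mtateS_upper ⟨-w, by simpa using hw⟩
  rw [← mtateS_neg, ← mtateG_inv, ← Complex.exp_neg]
  simpa using h

theorem mtate_exp_ne_one {w : ℂ} (hw : w ∈ Complex.integerComplement) :
    cexp (2 * π * I * w) ≠ 1 := by
  intro h
  rw [Complex.exp_eq_one_iff] at h
  obtain ⟨n, hn⟩ := h
  apply hw
  refine ⟨n, ?_⟩
  have h2 : (2 * π * I : ℂ) ≠ 0 := by simp [Real.pi_ne_zero]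
  apply mul_left_cancel₀ h2
  rw [hn]; ring

theorem mtateS_continuousAt {w₀ : ℂ} (hw : w₀ ∈ Complex.integerComplement) :
    ContinuousAt mtateS w₀ := by
  obtain ⟨ε, hε, hball⟩ := Metric.isOpen_iff.mp Complex.isOpen_compl_range_intCast w₀ hw
  have hge : ∀ n : ℤ, ε ≤ ‖w₀ + n‖ := by
    intro n
    by_contra hlt
    push Not at hlt
    have hmem : ((-n : ℤ) : ℂ) ∈ Metric.ball w₀ ε := by
      rw [Metric.mem_ball, dist_comm, dist_eq_norm]
      simpa [sub_neg_eq_add] using hlt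
    exact hball hmem ⟨-n, rfl⟩
  have hcont : ContinuousOn mtateS (Metric.ball w₀ (ε / 2)) := by
    unfold mtateS
    refine continuousOn_tsum (u := fun n : ℤ => 4 * ‖1 / (w₀ + n) ^ 2‖) ?_ ?_ ?_
    · intro n
      have hne : ∀ w ∈ Metric.ball w₀ (ε / 2), (w + n) ^ 2 ≠ 0 := by
        intro w hwb h0
        have h1 : w + n = 0 := by simpa using h0
        have hmem : ((-n : ℤ) : ℂ) ∈ Metric.ball w₀ ε := by
          have : w = ((-n : ℤ) : ℂ) := by push_cast; linear_combination h1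
          rw [← this]
          exact Metric.ball_subset_ball (by linarith) hwb
        exact hball hmem ⟨-n, rfl⟩
      exact ContinuousOn.div continuousOn_const (by fun_prop) hne
    · exact ((mtate_summable w₀).norm).mul_left 4
    · intro n w hwb
      have h1 : ‖w - w₀‖ < ε / 2 := by simpa [dist_eq_norm] using hwb
      have h2 : ‖w₀ + n‖ / 2 ≤ ‖w + n‖ := by
        have h3 : ‖w₀ + n‖ ≤ ‖w + n‖ + ‖w - w₀‖ := by
          have : w₀ + n = (w + n) - (w - w₀) := by ring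
          rw [this]
          exact norm_sub_le _ _
        have := hge n
        linarith
      have h0 : 0 < ‖w₀ + n‖ := lt_of_lt_of_le hε (hge n)
      have h4 : 0 < ‖w + n‖ := by linarith
      simp only [one_div]
      rw [norm_inv, norm_inv, norm_pow, norm_pow, ← div_eq_mul_inv, inv_eq_one_div,
        div_le_div_iff₀ (by positivity) (by positivity)]
      nlinarith [sq_nonneg (‖w + n‖ - ‖w₀ + n‖ / 2), norm_nonneg (w + n)]
  exact hcont.continuousAt (Metric.ball_mem_nhds w₀ (by positivity))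

theorem mtateS_eq {w : ℂ} (hw : w ∈ Complex.integerComplement) :
    mtateS w = (2 * π * I) ^ 2 * mtateG (cexp (2 * π * I * w)) := by
  rcases lt_trichotomy w.im 0 with h | h | h
  · exact mtateS_lower w h
  · -- continuity
    have hc1 : ContinuousAt mtateS w := mtateS_continuousAt hw
    have hc2 : ContinuousAt (fun w : ℂ => (2 * π * I) ^ 2 * mtateG (cexp (2 * π * I * w))) w := by
      unfold mtateG
      refine ContinuousAt.mul continuousAt_const (ContinuousAt.div (by fun_prop) (by fun_prop) ?_)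
      have := mtate_exp_ne_one hw
      intro h0
      apply this
      have : 1 - cexp (2 * π * I * w) = 0 := by simpa using h0
      linear_combination -this
    have hpath : Tendsto (fun t : ℝ => w + t * I) (𝓝[>] 0) (𝓝 w) := by
      have : ContinuousAt (fun t : ℝ => w + t * I) 0 := by fun_prop
      have h2 := this.tendsto
      simp only [ofReal_zero, zero_mul, add_zero] at h2
      exact h2.mono_left nhdsWithin_le_nhds
    have h1 := hc1.tendsto.comp hpath
    have h2 := hc2.tendsto.comp hpath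
    refine tendsto_nhds_unique (h1.congr' ?_) h2
    refine eventually_nhdsWithin_of_forall fun t ht => ?_
    have hpos : 0 < (w + t * I).im := by
      have ht' : 0 < t := ht
      simpa [h] using ht'
    exact mtateS_upper ⟨w + t * I, hpos⟩
  · exact mtateS_upper ⟨w, h⟩


/-! ## `∑ 1/n² = π²/3` over `ℤ` -/

theorem mtate_zeta_two : HasSum (fun n : ℤ => 1 / ((n : ℂ)) ^ 2) ((π : ℂ) ^ 2 / 3) := by
  have h0 : HasSum (fun n : ℕ => 1 / ((n : ℂ)) ^ 2) ((π : ℂ) ^ 2 / 6) := by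
    have h := Complex.hasSum_ofReal.mpr hasSum_zeta_two
    simpa using h
  have h1 : HasSum (fun n : ℕ => 1 / (((n : ℤ) : ℂ)) ^ 2) ((π : ℂ) ^ 2 / 6) := by
    simpa using h0
  have h2 : HasSum (fun n : ℕ => 1 / (((-(n : ℤ) : ℤ) : ℂ)) ^ 2) ((π : ℂ) ^ 2 / 6) := by
    simpa using h0
  have h3 := HasSum.of_nat_of_neg (f := fun n : ℤ => 1 / ((n : ℂ)) ^ 2) h1 h2
  have hv : (π : ℂ) ^ 2 / 3 = (π : ℂ) ^ 2 / 6 + (π : ℂ) ^ 2 / 6 - 1 / (((0 : ℤ) : ℂ)) ^ 2 := by
    simp
    ring
  rw [hv]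
  exact h3

theorem mtateS_zero : mtateS 0 = (π : ℂ) ^ 2 / 3 := by
  unfold mtateS
  rw [← mtate_zeta_two.tsum_eq]
  simp

theorem mtate_hasSum_sub (w : ℂ) : HasSum (fun n : ℤ => 1 / (w - n) ^ 2) (mtateS w) := by
  have h := (mtate_summable w).hasSum
  have h2 := (Equiv.neg ℤ).hasSum_iff.mpr h
  refine (h2.congr_fun ?_ : _)
  intro n
  simp [sub_eq_add_neg]

/-! ## the rows of the lattice sum -/

theorem mtate_row (τ z : ℂ) (m : ℤ) :
    HasSum (fun n : ℤ => 1 / (z - ((m : ℂ) * τ + (n : ℂ))) ^ 2 - 1 / ((m : ℂ) * τ + (n : ℂ)) ^ 2)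
      (mtateS (z - (m : ℂ) * τ) - mtateS ((m : ℂ) * τ)) := by
  have h1 := mtate_hasSum_sub (z - (m : ℂ) * τ)
  have h2 := (mtate_summable ((m : ℂ) * τ)).hasSum
  refine ((h1.sub h2).congr_fun ?_ : _)
  intro n
  simp only [sub_sub]

theorem mtate_rows (τ : ℍ) (z : ℂ) :
    HasSum (fun m : ℤ => mtateS (z - (m : ℂ) * τ) - mtateS ((m : ℂ) * τ)) (℘[modLat τ] z) := by
  have h := (modLat τ).hasSum_weierstrassP z
  have h2 := ((modLat τ).latticeEquivProd.symm.toEquiv.hasSum_iff).mpr h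
  have h3 : HasSum (fun p : ℤ × ℤ =>
      1 / (z - ((p.1 : ℂ) * τ + (p.2 : ℂ))) ^ 2 - 1 / ((p.1 : ℂ) * τ + (p.2 : ℂ)) ^ 2)
      (℘[modLat τ] z) := by
    refine (h2.congr_fun ?_ : _)
    intro p
    simp only [Function.comp_apply, LinearEquiv.coe_toEquiv]
    rw [(modLat τ).latticeEquiv_symm_apply p]
    simp
  exact h3.prod_fiberwise fun m => mtate_row τ z m


/-! ## assembling the rows -/

theorem mtate_int_mul_mem (τ : ℍ) (m : ℤ) (hm : m ≠ 0) :
    (m : ℂ) * (τ : ℂ) ∈ Complex.integerComplement := by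
  rw [Complex.mem_integerComplement_iff]
  rintro ⟨n, hn⟩
  have him := congrArg Complex.im hn
  simp only [intCast_im, mul_im, intCast_re, zero_mul, add_zero, UpperHalfPlane.coe_im] at him
  rcases mul_eq_zero.mp him.symm with h | h
  · exact hm (by exact_mod_cast h)
  · exact τ.im_ne_zero h

theorem mtate_sub_mem (τ : ℍ) (z : ℂ) (hz : z ∉ (modLat τ).lattice) (m : ℤ) :
    z - (m : ℂ) * (τ : ℂ) ∈ Complex.integerComplement := by
  rw [Complex.mem_integerComplement_iff]
  rintro ⟨n, hn⟩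
  apply hz
  rw [PeriodPair.mem_lattice]
  refine ⟨m, n, ?_⟩
  simp only [modLat_ω₁, modLat_ω₂, mul_one]
  rw [hn]
  ring

theorem mtate_exp_nat (τ : ℂ) (k : ℕ) :
    cexp (2 * π * I * ((k : ℂ) * τ)) = cexp (2 * π * I * τ) ^ k := by
  rw [← Complex.exp_nat_mul]
  congr 1
  ring

/-- the value of the pair of rows `±k`, `k ≥ 1` -/
theorem mtate_pair (τ : ℍ) (z : ℂ) (hz : z ∉ (modLat τ).lattice) (k : ℕ) (hk : k ≠ 0) :
    (mtateS (z - ((k : ℤ) : ℂ) * τ) - mtateS (((k : ℤ) : ℂ) * τ))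
      + (mtateS (z - ((-(k : ℤ) : ℤ) : ℂ) * τ) - mtateS (((-(k : ℤ) : ℤ) : ℂ) * τ))
      = (2 * π * I) ^ 2 *
        (mtateG (cexp (2 * π * I * τ) ^ k * cexp (2 * π * I * z))
          + mtateG (cexp (2 * π * I * τ) ^ k * (cexp (2 * π * I * z))⁻¹)
          - 2 * mtateG (cexp (2 * π * I * τ) ^ k)) := by
  have hk' : (k : ℤ) ≠ 0 := by exact_mod_cast hk
  have h1 := mtateS_eq (mtate_sub_mem τ z hz k)
  have h2 := mtateS_eq (mtate_int_mul_mem τ k hk')
  have h3 := mtateS_eq (mtate_sub_mem τ z hz (-(k : ℤ)))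
  have h4 : mtateS (((-(k : ℤ) : ℤ) : ℂ) * τ) = mtateS (((k : ℤ) : ℂ) * τ) := by
    rw [← mtateS_neg]
    congr 1
    push_cast
    ring
  have e1 : cexp (2 * π * I * (z - ((k : ℤ) : ℂ) * τ))
      = (cexp (2 * π * I * τ) ^ k * (cexp (2 * π * I * z))⁻¹)⁻¹ := by
    rw [← mtate_exp_nat, ← Complex.exp_neg, ← Complex.exp_add, ← Complex.exp_neg]
    congr 1
    push_cast
    ring
  have e2 : cexp (2 * π * I * (((k : ℤ) : ℂ) * τ)) = cexp (2 * π * I * τ) ^ k := by
    rw [← mtate_exp_nat]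
    simp
  have e3 : cexp (2 * π * I * (z - ((-(k : ℤ) : ℤ) : ℂ) * τ))
      = cexp (2 * π * I * τ) ^ k * cexp (2 * π * I * z) := by
    rw [← mtate_exp_nat, ← Complex.exp_add]
    congr 1
    push_cast
    ring
  rw [h4, h1, h2, h3, e1, e2, e3, mtateG_inv]
  ring

theorem mtate_const_ne_zero : ((2 * π * I) ^ 2 : ℂ) ≠ 0 := by
  simp [Real.pi_ne_zero]

/-- **Tate's series**, as a `HasSum`. -/
theorem mtate_main (τ : ℍ) (z : ℂ) (hz : z ∉ (modLat τ).lattice) :
    HasSum (fun n : ℕ =>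
        mtateG (cexp (2 * π * I * τ) ^ (n + 1) * cexp (2 * π * I * z))
          + mtateG (cexp (2 * π * I * τ) ^ (n + 1) * (cexp (2 * π * I * z))⁻¹)
          - 2 * mtateG (cexp (2 * π * I * τ) ^ (n + 1)))
      (℘[modLat τ] z / (2 * π * I) ^ 2 - 1 / 12 - mtateG (cexp (2 * π * I * z))) := by
  have hR := mtate_rows τ z
  have h1 := hR.nat_add_neg
  have h2 := (hasSum_nat_add_iff' 1).mpr h1
  have hz0 : z ∈ Complex.integerComplement := by
    simpa using mtate_sub_mem τ z hz 0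
  have hR0 := mtateS_eq hz0
  have h3 : HasSum (fun n : ℕ => (2 * π * I) ^ 2 *
        (mtateG (cexp (2 * π * I * τ) ^ (n + 1) * cexp (2 * π * I * z))
          + mtateG (cexp (2 * π * I * τ) ^ (n + 1) * (cexp (2 * π * I * z))⁻¹)
          - 2 * mtateG (cexp (2 * π * I * τ) ^ (n + 1))))
      (℘[modLat τ] z - ((2 * π * I) ^ 2 * mtateG (cexp (2 * π * I * z)) - (π : ℂ) ^ 2 / 3)) := by
    have hv : ℘[modLat τ] z - ((2 * π * I) ^ 2 * mtateG (cexp (2 * π * I * z)) - (π : ℂ) ^ 2 / 3)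
        = ℘[modLat τ] z + (mtateS (z - ((0 : ℤ) : ℂ) * τ) - mtateS (((0 : ℤ) : ℂ) * τ))
          - ∑ i ∈ Finset.range 1,
            ((mtateS (z - (((i : ℕ) : ℤ) : ℂ) * τ) - mtateS ((((i : ℕ) : ℤ) : ℂ) * τ))
              + (mtateS (z - ((-((i : ℕ) : ℤ) : ℤ) : ℂ) * τ)
                - mtateS (((-((i : ℕ) : ℤ) : ℤ) : ℂ) * τ))) := by
      simp only [Finset.range_one, Finset.sum_singleton, Nat.cast_zero, Int.cast_zero, neg_zero,
        zero_mul, sub_zero, mtateS_zero, hR0]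
      ring
    rw [hv]
    refine (h2.congr_fun ?_ : _)
    intro n
    have := mtate_pair τ z hz (n + 1) (Nat.succ_ne_zero n)
    simpa using this.symm
  have h4 := h3.mul_left ((2 * π * I) ^ 2)⁻¹
  have hc := mtate_const_ne_zero
  have hv2 : ((2 * π * I) ^ 2)⁻¹ *
      (℘[modLat τ] z - ((2 * π * I) ^ 2 * mtateG (cexp (2 * π * I * z)) - (π : ℂ) ^ 2 / 3))
      = ℘[modLat τ] z / (2 * π * I) ^ 2 - 1 / 12 - mtateG (cexp (2 * π * I * z)) := by
    have hπ : (π : ℂ) ≠ 0 := by exact_mod_cast Real.pi_ne_zero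
    have hI : (2 * π * I) ^ 2 = -(4 * (π : ℂ) ^ 2) := by
      rw [mul_pow, mul_pow, Complex.I_sq]; ring
    rw [hI]
    field_simp
    ring
  rw [hv2] at h4
  refine (h4.congr_fun ?_ : _)
  intro n
  field_simp

end Fermat.Agent.S15
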