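import Fermat.Agent.S15.ModPlan
import Fermat.Agent.S15.ModTateAux

/-!
# S15 / MOD-TATE — `StmtModTate` (helper56)

The `q`-expansion of Mathlib's `℘` for the lattice `ℤτ + ℤ`:
`℘(z) = (2πi)² (1/12 + u/(1-u)² + ∑_{n ≥ 1} (qⁿu/(1-qⁿu)² + qⁿu⁻¹/(1-qⁿu⁻¹)² - 2qⁿ/(1-qⁿ)²))`.
The proof (in `ModTateAux.lean`) does not use the hypothesis `|Im z| < Im τ`.
-/

set_option autoImplicit false

noncomputable section

namespace Fermat.Agent.S15

open Complex
open scoped Real
open PeriodPair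

/-- `modTateTerm` in terms of `mtateG`. -/
theorem mtate_term_eq (q u : ℂ) (n : ℕ) :
    modTateTerm q u n
      = mtateG (q ^ (n + 1) * u) + mtateG (q ^ (n + 1) * u⁻¹) - 2 * mtateG (q ^ (n + 1)) := by
  unfold modTateTerm mtateG
  ring

/-- Tate's series as a `HasSum` of `modTateTerm`. -/
theorem mtate_hasSum (τ : UpperHalfPlane) (z : ℂ) (hz : z ∉ (modLat τ).lattice) :
    HasSum (modTateTerm (cexp (2 * π * I * τ)) (cexp (2 * π * I * z)))
      (℘[modLat τ] z / (2 * π * I) ^ 2 - 1 / 12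
        - cexp (2 * π * I * z) / (1 - cexp (2 * π * I * z)) ^ 2) := by
  refine ((mtate_main τ z hz).congr_fun ?_ : _)
  intro n
  exact mtate_term_eq _ _ n

/-- **MOD-TATE.** -/
theorem stmtModTate : StmtModTate := by
  intro τ z hz _
  have h := mtate_hasSum τ z hz
  refine ⟨h.summable, ?_⟩
  rw [h.tsum_eq]
  have hc := mtate_const_ne_zero
  field_simp
  ring

end Fermat.Agent.S15
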