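import Fermat.Agent.S15.ModFrickeEst
import Fermat.Agent.S15.ModFrickePlan
import Fermat.Agent.S15.ModTate

/-!
# S15 / MOD-FRICKE (3): the division values `P_{a,b}` are holomorphic and bounded at `i∞`

From Tate's series (`mtate_hasSum`, helper56):
* `mfrP_hasSum`, `mfrP_eq_mfrTate` : `P_{a,b}(τ) = 1/12 + U(u) + ∑ₙ (U(qⁿu) + U(qⁿu⁻¹) - 2U(qⁿ))`;
* `mfrP_mdiff` : `P_{a,b}` is holomorphic on `ℍ`;
* `mfrP_isBoundedAtImInfty` : `P_{a,b}` is bounded at `i∞`;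
* `mfrP_tendsto` : `P_{a,b} → 1/12` at `i∞` if `N ∤ a`.
-/

set_option autoImplicit false

noncomputable section

namespace Fermat.Agent.S15

open UpperHalfPlane PeriodPair Complex Filter Topology
open Fermat.Agent.S23
open scoped Real MatrixGroups Manifold

theorem mfrTerm_eq_modTateTerm (q u : ℂ) (n : ℕ) : mfrTerm q u n = modTateTerm q u n := by
  unfold mfrTerm modTateTerm mfrU
  ring

/-- Tate's formula for `P_{a,b}` -/
theorem mfrP_hasSum (N : ℕ) [NeZero N] (a b : ℤ) (hab : ¬ ((N : ℤ) ∣ a ∧ (N : ℤ) ∣ b))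
    (τ : ℍ) :
    HasSum (mfrTerm (mfrQ τ) (mfrUu N a b τ))
      (mfrP N a b τ - 1 / 12 - mfrU (mfrUu N a b τ)) := by
  have h := mtate_hasSum τ _ (mfr_notMem_lattice N a b hab τ)
  have h2 : mfrTerm (mfrQ τ) (mfrUu N a b τ) =
      modTateTerm (cexp (2 * π * Complex.I * τ))
        (cexp (2 * π * Complex.I * (((a : ℂ) * τ + (b : ℂ)) / (N : ℂ)))) :=
    funext fun n => mfrTerm_eq_modTateTerm _ _ n
  rw [h2]
  exact h

theorem mfrUu_ne_one (N : ℕ) [NeZero N] (a b : ℤ) (hab : ¬ ((N : ℤ) ∣ a ∧ (N : ℤ) ∣ b))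
    (τ : ℍ) : mfrUu N a b τ ≠ 1 := by
  intro h
  unfold mfrUu at h
  rw [Complex.exp_eq_one_iff] at h
  obtain ⟨n, hn⟩ := h
  have h2 : (2 * π * Complex.I : ℂ) ≠ 0 := by
    simp [Real.pi_ne_zero]
  have hz : ((a : ℂ) * τ + (b : ℂ)) / (N : ℂ) = n := by
    have : (2 * π * Complex.I) * (((a : ℂ) * τ + (b : ℂ)) / (N : ℂ)) = (2 * π * Complex.I) * n := by
      rw [hn]; ring
    exact mul_left_cancel₀ h2 this
  apply mfr_notMem_lattice N a b hab τ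
  rw [hz]
  exact mem_lattice.mpr ⟨0, n, by simp⟩

/-- Tate's function of `τ ∈ ℂ` -/
def mfrTate (N : ℕ) (a b : ℤ) (τ : ℂ) : ℂ :=
  1 / 12 + mfrU (mfrUu N a b τ) + ∑' n, mfrTerm (mfrQ τ) (mfrUu N a b τ) n

theorem mfrP_eq_mfrTate (N : ℕ) [NeZero N] (a b : ℤ) (hab : ¬ ((N : ℤ) ∣ a ∧ (N : ℤ) ∣ b))
    (τ : ℍ) : mfrP N a b τ = mfrTate N a b τ := by
  rw [mfrTate, (mfrP_hasSum N a b hab τ).tsum_eq]
  ring

theorem mfr_pow_mul_norm_le {q v : ℂ} {ρ : ℝ} (hρ0 : 0 ≤ ρ) (hq : ‖q‖ ≤ ρ) (hqv : ‖q * v‖ ≤ ρ)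
    (n : ℕ) : ‖q ^ (n + 1) * v‖ ≤ ρ ^ (n + 1) := by
  have hqn : ‖q ^ n‖ ≤ ρ ^ n := by
    rw [norm_pow]; exact pow_le_pow_left₀ (norm_nonneg q) hq n
  rw [pow_succ, mul_assoc, norm_mul, pow_succ]
  exact mul_le_mul hqn hqv (norm_nonneg _) (by positivity)

theorem mfrTerm_differentiableAt {f g : ℂ → ℂ} {τ : ℂ} (n : ℕ) (hf : DifferentiableAt ℂ f τ)
    (hg : DifferentiableAt ℂ g τ) (hg0 : g τ ≠ 0)
    (h1 : ‖f τ ^ (n + 1) * g τ‖ < 1) (h2 : ‖f τ ^ (n + 1) * (g τ)⁻¹‖ < 1)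
    (h3 : ‖f τ ^ (n + 1)‖ < 1) :
    DifferentiableAt ℂ (fun τ => mfrTerm (f τ) (g τ) n) τ := by
  have ne_one : ∀ {w : ℂ}, ‖w‖ < 1 → w ≠ 1 := by
    intro w hw h
    rw [h, norm_one] at hw
    exact lt_irrefl _ hw
  unfold mfrTerm
  have hfn : DifferentiableAt ℂ (fun τ => f τ ^ (n + 1)) τ := hf.pow (n + 1)
  have e1 : DifferentiableAt ℂ (fun τ => mfrU (f τ ^ (n + 1) * g τ)) τ :=
    DifferentiableAt.comp (g := mfrU) (f := fun τ => f τ ^ (n + 1) * g τ) τ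
      (mfrU_differentiableAt (ne_one h1)) (hfn.mul hg)
  have e2 : DifferentiableAt ℂ (fun τ => mfrU (f τ ^ (n + 1) * (g τ)⁻¹)) τ :=
    DifferentiableAt.comp (g := mfrU) (f := fun τ => f τ ^ (n + 1) * (g τ)⁻¹) τ
      (mfrU_differentiableAt (ne_one h2)) (hfn.mul (hg.inv hg0))
  have e3 : DifferentiableAt ℂ (fun τ => mfrU (f τ ^ (n + 1))) τ :=
    DifferentiableAt.comp (g := mfrU) (f := fun τ => f τ ^ (n + 1)) τ
      (mfrU_differentiableAt (ne_one h3)) hfn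
  exact (e1.add e2).sub (e3.const_mul 2)

theorem mfrTate_differentiableOn (N : ℕ) [NeZero N] (a b : ℤ) (ha0 : 0 ≤ a) (haN : a < N)
    (hab : ¬ ((N : ℤ) ∣ a ∧ (N : ℤ) ∣ b)) :
    DifferentiableOn ℂ (mfrTate N a b) {τ | 0 < τ.im} := by
  intro τ₀ hτ₀
  have hτ₀' : 0 < τ₀.im := hτ₀
  set A : ℝ := τ₀.im / 2 with hAdef
  have hA : 0 < A := by positivity
  set S : Set ℂ := {τ | A < τ.im} with hSdef
  have hS : IsOpen S := isOpen_lt continuous_const Complex.continuous_im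
  have hmem : τ₀ ∈ S := by
    show A < τ₀.im
    rw [hAdef]; linarith
  set ρ : ℝ := Real.exp (-(2 * π * A / N)) with hρdef
  have hρ0 : 0 ≤ ρ := (Real.exp_pos _).le
  have hρ1 : ρ < 1 := mfr_rho_lt_one N hA
  have hpos : ∀ τ ∈ S, 0 < τ.im := fun τ hτ => lt_trans hA hτ
  suffices h : DifferentiableOn ℂ (mfrTate N a b) S from
    (h.differentiableAt (hS.mem_nhds hmem)).differentiableWithinAt
  unfold mfrTate
  refine ((differentiableOn_const _).add ?_).add ?_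
  · intro τ hτ
    have hne : mfrUu N a b τ ≠ 1 := mfrUu_ne_one N a b hab ⟨τ, hpos τ hτ⟩
    have : DifferentiableAt ℂ (fun τ => mfrU (mfrUu N a b τ)) τ :=
      (mfrU_differentiableAt hne).comp τ (mfrUu_differentiable N a b τ)
    exact this.differentiableWithinAt
  · refine differentiableOn_tsum_of_summable_norm (mfr_summable_bound hρ0 hρ1) ?_ hS ?_
    · intro n τ hτ
      obtain ⟨b1, b2, b3⟩ := mfr_norm_bounds N a b ha0 haN hA (le_of_lt hτ)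
      have hρn : ρ ^ (n + 1) < 1 := pow_lt_one₀ hρ0 hρ1 (by omega)
      have h1 := mfr_pow_mul_norm_le hρ0 b1 b2 n
      have h2 := mfr_pow_mul_norm_le hρ0 b1 b3 n
      have h3 : ‖mfrQ τ ^ (n + 1)‖ ≤ ρ ^ (n + 1) := by
        rw [norm_pow]; exact pow_le_pow_left₀ (norm_nonneg _) b1 (n + 1)
      exact (mfrTerm_differentiableAt n (mfrQ_differentiable τ) (mfrUu_differentiable N a b τ)
        (mfrUu_ne_zero N a b τ) (lt_of_le_of_lt h1 hρn) (lt_of_le_of_lt h2 hρn)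
        (lt_of_le_of_lt h3 hρn)).differentiableWithinAt
    · intro n τ hτ
      obtain ⟨b1, b2, b3⟩ := mfr_norm_bounds N a b ha0 haN hA (le_of_lt hτ)
      exact norm_mfrTerm_le hρ0 hρ1 b1 b2 b3 n

/-- reduction of `a` modulo `N` -/
theorem mfrP_emod (N : ℕ) [NeZero N] (a b : ℤ) : mfrP N a b = mfrP N (a % N) b :=
  funext fun τ => mfrP_congr N (Int.mod_modEq a N).symm (Int.ModEq.refl b) τ

theorem mfr_emod_cond (N : ℕ) (a b : ℤ) (hab : ¬ ((N : ℤ) ∣ a ∧ (N : ℤ) ∣ b)) :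
    ¬ ((N : ℤ) ∣ a % N ∧ (N : ℤ) ∣ b) := by
  rintro ⟨h1, h2⟩
  refine hab ⟨?_, h2⟩
  have h3 : a % N % N = 0 := Int.emod_eq_zero_of_dvd h1
  rw [Int.emod_emod_of_dvd a (dvd_refl _)] at h3
  exact Int.dvd_of_emod_eq_zero h3

/-- `P_{a,b}` is holomorphic on `ℍ` -/
theorem mfrP_mdiff (N : ℕ) [NeZero N] (a b : ℤ) (hab : ¬ ((N : ℤ) ∣ a ∧ (N : ℤ) ∣ b)) :
    MDiff (mfrP N a b) := by
  have hNpos : (0 : ℤ) < N := by exact_mod_cast Nat.pos_of_ne_zero (NeZero.ne N)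
  have key : ∀ a b : ℤ, 0 ≤ a → a < N → ¬ ((N : ℤ) ∣ a ∧ (N : ℤ) ∣ b) →
      MDiff (mfrP N a b) := by
    intro a b ha0 haN hab
    rw [UpperHalfPlane.mdifferentiable_iff]
    refine (mfrTate_differentiableOn N a b ha0 haN hab).congr ?_
    intro τ hτ
    have hτ' : 0 < τ.im := hτ
    simp only [Function.comp_apply]
    rw [ofComplex_apply_of_im_pos hτ']
    exact mfrP_eq_mfrTate N a b hab ⟨τ, hτ'⟩
  rw [mfrP_emod]
  exact key (a % N) b (Int.emod_nonneg _ hNpos.ne') (Int.emod_lt_of_pos _ hNpos)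
    (mfr_emod_cond N a b hab)

/-- bound for `P_{a,b} - 1/12 - U(u)` -/
theorem mfrP_norm_sub_le (N : ℕ) [NeZero N] (a b : ℤ) (ha0 : 0 ≤ a) (haN : a < N)
    (hab : ¬ ((N : ℤ) ∣ a ∧ (N : ℤ) ∣ b)) {A : ℝ} (hA : 0 < A) (τ : ℍ) (hτ : A ≤ τ.im) :
    ‖mfrP N a b τ - 1 / 12 - mfrU (mfrUu N a b τ)‖ ≤
      4 * Real.exp (-(2 * π * A / N)) / (1 - Real.exp (-(2 * π * A / N))) ^ 3 := by
  have hρ0 : 0 ≤ Real.exp (-(2 * π * A / N)) := (Real.exp_pos _).le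
  have hρ1 := mfr_rho_lt_one N hA
  obtain ⟨b1, b2, b3⟩ := mfr_norm_bounds N a b ha0 haN hA (τ := (τ : ℂ)) hτ
  rw [← (mfrP_hasSum N a b hab τ).tsum_eq]
  exact norm_tsum_mfrTerm_le hρ0 hρ1 b1 b2 b3

/-- `‖U(u)‖` is small if `0 < a` -/
theorem mfrU_norm_le (N : ℕ) [NeZero N] (a b : ℤ) (ha0 : 0 < a) {A : ℝ} (hA : 0 < A) (τ : ℍ)
    (hτ : A ≤ τ.im) :
    ‖mfrU (mfrUu N a b τ)‖ ≤
      Real.exp (-(2 * π * A / N)) / (1 - Real.exp (-(2 * π * A / N))) ^ 2 := by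
  have hNpos : (0 : ℝ) < N := Nat.cast_pos.mpr (Nat.pos_of_ne_zero (NeZero.ne N))
  have hρ1 := mfr_rho_lt_one N hA
  have ha1 : (1 : ℝ) ≤ a := by exact_mod_cast ha0
  have hu : ‖mfrUu N a b τ‖ ≤ Real.exp (-(2 * π * A / N)) := by
    rw [norm_mfrUu, Real.exp_le_exp]
    have hπ := Real.pi_pos
    have h1 : A / N ≤ (a : ℝ) * (τ : ℂ).im / N := by
      apply div_le_div_of_nonneg_right _ hNpos.le
      calc A ≤ (τ : ℂ).im := hτ
        _ = 1 * (τ : ℂ).im := (one_mul _).symm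
        _ ≤ (a : ℝ) * (τ : ℂ).im := by
          apply mul_le_mul_of_nonneg_right ha1
          exact le_trans hA.le hτ
    have h2 := mul_le_mul_of_nonneg_left h1 (by positivity : (0 : ℝ) ≤ 2 * π)
    have h3 : 2 * π * A / N = 2 * π * (A / N) := by ring
    rw [h3]
    linarith
  refine (norm_mfrU_le hρ1 hu).trans ?_
  apply div_le_div_of_nonneg_right hu
  have : 0 < 1 - Real.exp (-(2 * π * A / N)) := by linarith
  positivity

theorem mfrUu_zero_const (N : ℕ) (b : ℤ) (τ : ℂ) : mfrUu N 0 b τ = mfrUu N 0 b 0 := by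
  unfold mfrUu
  simp

/-- `P_{a,b}` is bounded at `i∞` -/
theorem mfrP_isBoundedAtImInfty (N : ℕ) [NeZero N] (a b : ℤ)
    (hab : ¬ ((N : ℤ) ∣ a ∧ (N : ℤ) ∣ b)) : IsBoundedAtImInfty (mfrP N a b) := by
  have hNpos : (0 : ℤ) < N := by exact_mod_cast Nat.pos_of_ne_zero (NeZero.ne N)
  have key : ∀ a b : ℤ, 0 ≤ a → a < N → ¬ ((N : ℤ) ∣ a ∧ (N : ℤ) ∣ b) →
      IsBoundedAtImInfty (mfrP N a b) := by
    intro a b ha0 haN hab
    rw [isBoundedAtImInfty_iff]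
    set ρ : ℝ := Real.exp (-(2 * π * 1 / N)) with hρdef
    refine ⟨1 / 12 + (‖mfrU (mfrUu N 0 b 0)‖ + ρ / (1 - ρ) ^ 2) + 4 * ρ / (1 - ρ) ^ 3, 1, ?_⟩
    intro τ hτ
    have hρ1 : ρ < 1 := mfr_rho_lt_one N one_pos
    have hρ0 : 0 ≤ ρ := (Real.exp_pos _).le
    have h1 := mfrP_norm_sub_le N a b ha0 haN hab one_pos τ hτ
    have h2 : ‖mfrU (mfrUu N a b τ)‖ ≤ ‖mfrU (mfrUu N 0 b 0)‖ + ρ / (1 - ρ) ^ 2 := by
      rcases eq_or_lt_of_le ha0 with h0 | h0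
      · rw [← h0, mfrUu_zero_const]
        have : 0 ≤ ρ / (1 - ρ) ^ 2 := by
          have : 0 < 1 - ρ := by linarith
          positivity
        linarith
      · have := mfrU_norm_le N a b h0 one_pos τ hτ
        have h3 := norm_nonneg (mfrU (mfrUu N 0 b 0))
        linarith
    have h3 : mfrP N a b τ = 1 / 12 + mfrU (mfrUu N a b τ) +
        (mfrP N a b τ - 1 / 12 - mfrU (mfrUu N a b τ)) := by ring
    rw [h3]
    refine (norm_add_le _ _).trans (add_le_add ((norm_add_le _ _).trans (add_le_add ?_ h2)) h1)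
    rw [norm_div, norm_one]
    simp
  rw [mfrP_emod]
  exact key (a % N) b (Int.emod_nonneg _ hNpos.ne') (Int.emod_lt_of_pos _ hNpos)
    (mfr_emod_cond N a b hab)

/-- `P_{a,b} → 1/12` at `i∞` for `0 < a < N` -/
theorem mfrP_tendsto (N : ℕ) [NeZero N] (a b : ℤ) (ha0 : 0 < a) (haN : a < N) :
    Tendsto (mfrP N a b) atImInfty (𝓝 (1 / 12)) := by
  have hNpos : (0 : ℝ) < N := Nat.cast_pos.mpr (Nat.pos_of_ne_zero (NeZero.ne N))
  have hab : ¬ ((N : ℤ) ∣ a ∧ (N : ℤ) ∣ b) := by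
    rintro ⟨h1, -⟩
    have := Int.le_of_dvd ha0 h1
    omega
  rw [tendsto_iff_norm_sub_tendsto_zero]
  set G : ℝ → ℝ := fun ρ => ρ / (1 - ρ) ^ 2 + 4 * ρ / (1 - ρ) ^ 3 with hG
  have hGc : ContinuousAt G 0 := by
    have h1 : ((1 : ℝ) - 0) ^ 2 ≠ 0 := by norm_num
    have h2 : ((1 : ℝ) - 0) ^ 3 ≠ 0 := by norm_num
    have c1 : ContinuousAt (fun ρ : ℝ => (1 - ρ) ^ 2) 0 := by fun_prop
    have c2 : ContinuousAt (fun ρ : ℝ => (1 - ρ) ^ 3) 0 := by fun_prop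
    have c3 : ContinuousAt (fun ρ : ℝ => 4 * ρ) 0 := by fun_prop
    exact (continuousAt_id.div c1 h1).add (c3.div c2 h2)
  have hG0 : G 0 = 0 := by simp [hG]
  have hρt : Tendsto (fun τ : ℍ => Real.exp (-(2 * π * τ.im / N))) atImInfty (𝓝 0) := by
    have h1 : Tendsto (fun τ : ℍ => τ.im) atImInfty atTop := tendsto_comap
    have h2 : Tendsto (fun τ : ℍ => 2 * π * τ.im / N) atImInfty atTop := by
      have hc : 0 < 2 * π / N := by positivity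
      have := (tendsto_const_mul_atTop_of_pos hc).mpr h1
      refine this.congr fun τ => ?_
      ring
    exact Real.tendsto_exp_neg_atTop_nhds_zero.comp h2
  have hGt : Tendsto (fun τ : ℍ => G (Real.exp (-(2 * π * τ.im / N)))) atImInfty (𝓝 0) := by
    have := hGc.tendsto.comp hρt
    rwa [hG0] at this
  refine squeeze_zero (fun τ => norm_nonneg _) (fun τ => ?_) hGt
  have hA : 0 < τ.im := τ.im_pos
  have h1 := mfrP_norm_sub_le N a b ha0.le haN hab hA τ le_rfl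
  have h2 := mfrU_norm_le N a b ha0 hA τ le_rfl
  have h3 : mfrP N a b τ - 1 / 12 = mfrU (mfrUu N a b τ) +
      (mfrP N a b τ - 1 / 12 - mfrU (mfrUu N a b τ)) := by ring
  rw [h3]
  exact (norm_add_le _ _).trans (add_le_add h2 h1)

end Fermat.Agent.S15
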