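import Mathlib
import Fermat.Agent.S15.ModDefs
import Fermat.Agent.S23.ThetaSlash

/-!
# S15 / MOD-FRICKE (1): the division values `P_{a,b}(τ) = ℘((aτ + b)/N; ℤτ + ℤ) / (2πi)²`

* `mfr_weierstrassP_scale` : `℘[L'] z = s² ℘[L] (s z)` if `L = s L'`;
* `mfr_weierstrassP_smul` : `℘(z; γτ) = (cτ + d)² ℘((cτ + d) z; τ)` for `γ ∈ SL(2, ℤ)`;
* `mfrP N a b τ`, `mfrP_smul` : `P_{a,b}(γ τ) = (cτ + d)² P_{(a,b)γ}(τ)`;
* `mfrP_add_mul`, `mfrP_neg`, `mfrP_congr` : `P_{a,b}` depends only on `±(a, b) mod N`.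
-/

set_option autoImplicit false

noncomputable section

namespace Fermat.Agent.S15

open UpperHalfPlane PeriodPair Complex
open Fermat.Agent.S23
open scoped MatrixGroups Real

/-- scaling of `℘`: if `L = s · L'` then `℘[L'] z = s² ℘[L] (s z)`. -/
theorem mfr_weierstrassP_scale (L L' : PeriodPair) (s : ℂ) (hs : s ≠ 0)
    (h : ∀ x : ℂ, x ∈ L'.lattice ↔ s * x ∈ L.lattice) (z : ℂ) :
    ℘[L'] z = s ^ 2 * ℘[L] (s * z) := by
  unfold weierstrassP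
  let e : L'.lattice ≃ L.lattice :=
    { toFun := fun x => ⟨s * x, (h x).mp x.2⟩
      invFun := fun y => ⟨s⁻¹ * y, (h _).mpr (by rw [mul_inv_cancel_left₀ hs]; exact y.2)⟩
      left_inv := fun x => by
        apply Subtype.ext
        show s⁻¹ * (s * (x : ℂ)) = x
        rw [inv_mul_cancel_left₀ hs]
      right_inv := fun y => by
        apply Subtype.ext
        show s * (s⁻¹ * (y : ℂ)) = y
        rw [mul_inv_cancel_left₀ hs] }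
  rw [← e.tsum_eq, ← tsum_mul_left]
  refine tsum_congr fun x => ?_
  show 1 / (z - (x : ℂ)) ^ 2 - 1 / (x : ℂ) ^ 2 =
    s ^ 2 * (1 / (s * z - s * (x : ℂ)) ^ 2 - 1 / (s * (x : ℂ)) ^ 2)
  have h2 : s ^ 2 ≠ 0 := pow_ne_zero 2 hs
  have key : ∀ y : ℂ, s ^ 2 * (1 / (s * y) ^ 2) = 1 / y ^ 2 := by
    intro y
    rw [mul_pow, one_div, one_div, mul_inv, ← mul_assoc, mul_inv_cancel₀ h2, one_mul]
  rw [mul_sub, ← mul_sub s z, key, key]

/-- the lattice of `γ τ` -/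
theorem mfr_mem_lattice_smul (γ : SL(2, ℤ)) (τ : ℍ) (x : ℂ) :
    x ∈ (modLat (γ • τ)).lattice ↔
      ((γ 1 0 : ℂ) * τ + (γ 1 1 : ℂ)) * x ∈ (modLat τ).lattice := by
  have hden := P8_denom_ne_zero γ τ
  have hdet : (γ 0 0 : ℂ) * (γ 1 1 : ℂ) - (γ 0 1 : ℂ) * (γ 1 0 : ℂ) = 1 := by
    have h := γ.det_coe
    rw [Matrix.det_fin_two] at h
    exact_mod_cast h
  rw [mem_lattice, mem_lattice]
  simp only [modLat_ω₁, modLat_ω₂, P8_coe_smul, mul_one]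
  constructor
  · rintro ⟨m, n, rfl⟩
    refine ⟨m * γ 0 0 + n * γ 1 0, m * γ 0 1 + n * γ 1 1, ?_⟩
    push_cast
    field_simp
    ring
  · rintro ⟨m', n', h⟩
    refine ⟨m' * γ 1 1 - n' * γ 1 0, -m' * γ 0 1 + n' * γ 0 0, ?_⟩
    have hx : x = ((m' : ℂ) * τ + n') / ((γ 1 0 : ℂ) * τ + (γ 1 1 : ℂ)) := by
      rw [eq_div_iff hden, mul_comm x]
      exact h.symm
    rw [hx]
    push_cast
    field_simp
    linear_combination ((m' : ℂ) * τ + n') * hdet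

/-- `℘(z; γ τ) = (c τ + d)² ℘((c τ + d) z; τ)` -/
theorem mfr_weierstrassP_smul (γ : SL(2, ℤ)) (τ : ℍ) (z : ℂ) :
    ℘[modLat (γ • τ)] z =
      ((γ 1 0 : ℂ) * τ + (γ 1 1 : ℂ)) ^ 2 *
        ℘[modLat τ] (((γ 1 0 : ℂ) * τ + (γ 1 1 : ℂ)) * z) :=
  mfr_weierstrassP_scale (modLat τ) (modLat (γ • τ)) _ (P8_denom_ne_zero γ τ)
    (mfr_mem_lattice_smul γ τ) z

/-- the division value `P_{a,b}(τ) = ℘((a τ + b)/N; ℤτ + ℤ) / (2πi)²` -/
def mfrP (N : ℕ) (a b : ℤ) (τ : ℍ) : ℂ :=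
  ℘[modLat τ] (((a : ℂ) * τ + (b : ℂ)) / (N : ℂ)) / (2 * π * Complex.I) ^ 2

/-- `P_{a,b}(γ τ) = (c τ + d)² P_{(a,b)γ}(τ)` -/
theorem mfrP_smul (N : ℕ) (a b : ℤ) (γ : SL(2, ℤ)) (τ : ℍ) :
    mfrP N a b (γ • τ) = ((γ 1 0 : ℂ) * τ + (γ 1 1 : ℂ)) ^ 2 *
      mfrP N (a * γ 0 0 + b * γ 1 0) (a * γ 0 1 + b * γ 1 1) τ := by
  have hden := P8_denom_ne_zero γ τ
  unfold mfrP
  rw [mfr_weierstrassP_smul, mul_div_assoc]
  congr 3
  rw [P8_coe_smul]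
  push_cast
  field_simp
  ring

theorem mfrP_add_mul (N : ℕ) [NeZero N] (a b m n : ℤ) (τ : ℍ) :
    mfrP N (a + N * m) (b + N * n) τ = mfrP N a b τ := by
  have hN : (N : ℂ) ≠ 0 := Nat.cast_ne_zero.mpr (NeZero.ne N)
  unfold mfrP
  have hl : (m : ℂ) * τ + (n : ℂ) ∈ (modLat τ).lattice :=
    mem_lattice.mpr ⟨m, n, by simp⟩
  have h1 : (((a + N * m : ℤ) : ℂ) * τ + ((b + N * n : ℤ) : ℂ)) / (N : ℂ) =
      ((a : ℂ) * τ + (b : ℂ)) / (N : ℂ) + ((⟨_, hl⟩ : (modLat τ).lattice) : ℂ) := by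
    push_cast
    field_simp
    ring
  rw [h1, weierstrassP_add_coe]

theorem mfrP_neg (N : ℕ) (a b : ℤ) (τ : ℍ) : mfrP N (-a) (-b) τ = mfrP N a b τ := by
  unfold mfrP
  have h1 : (((-a : ℤ) : ℂ) * τ + ((-b : ℤ) : ℂ)) / (N : ℂ) =
      -(((a : ℂ) * τ + (b : ℂ)) / (N : ℂ)) := by
    push_cast
    ring
  rw [h1, weierstrassP_neg]

theorem mfrP_congr (N : ℕ) [NeZero N] {a a' b b' : ℤ} (ha : a ≡ a' [ZMOD N])
    (hb : b ≡ b' [ZMOD N]) (τ : ℍ) : mfrP N a b τ = mfrP N a' b' τ := by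
  obtain ⟨m, hm⟩ := ha.symm.dvd
  obtain ⟨n, hn⟩ := hb.symm.dvd
  have h1 : a = a' + N * m := by linarith
  have h2 : b = b' + N * n := by linarith
  rw [h1, h2, mfrP_add_mul]

/-- the argument of `P_{a,b}` is not a lattice point unless `N ∣ a` and `N ∣ b` -/
theorem mfr_notMem_lattice (N : ℕ) [NeZero N] (a b : ℤ) (h : ¬ ((N : ℤ) ∣ a ∧ (N : ℤ) ∣ b))
    (τ : ℍ) : ((a : ℂ) * τ + (b : ℂ)) / (N : ℂ) ∉ (modLat τ).lattice := by
  have hN : (N : ℂ) ≠ 0 := Nat.cast_ne_zero.mpr (NeZero.ne N)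
  intro hmem
  obtain ⟨m, n, hmn⟩ := mem_lattice.mp hmem
  simp only [modLat_ω₁, modLat_ω₂, mul_one] at hmn
  rw [eq_div_iff hN] at hmn
  have h0 : ((N * m - a : ℤ) : ℂ) * τ + ((N * n - b : ℤ) : ℂ) = 0 := by
    push_cast
    linear_combination hmn
  have him := congrArg Complex.im h0
  simp only [Complex.add_im, Complex.mul_im, Complex.intCast_re, Complex.intCast_im, zero_mul,
    add_zero, Complex.zero_im, UpperHalfPlane.coe_im] at him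
  have ha : ((N * m - a : ℤ) : ℝ) = 0 := by
    rcases mul_eq_zero.mp him with h | h
    · exact h
    · exact absurd h τ.im_pos.ne'
  have ha' : N * m - a = 0 := by exact_mod_cast ha
  rw [ha'] at h0
  simp only [Int.cast_zero, zero_mul, zero_add] at h0
  have hb' : N * n - b = 0 := by exact_mod_cast h0
  exact h ⟨⟨m, by linarith⟩, ⟨n, by linarith⟩⟩

end Fermat.Agent.S15
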