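import Mathlib
import Fermat.Agent.S15.ModFrickeP

/-!
# S15 / MOD-FRICKE (2): estimates for Tate's series (Mathlib only)

`U(w) = w / (1 - w)²`; Tate's general term is
`U(qⁿ u) + U(qⁿ u⁻¹) - 2 U(qⁿ)`.  For `‖q‖, ‖q u‖, ‖q u⁻¹‖ ≤ ρ < 1` it is bounded by
`4 ρⁿ / (1 - ρ)²`.
-/

set_option autoImplicit false

noncomputable section

namespace Fermat.Agent.S15

open Complex Filter Topology
open scoped Real

/-- `U(w) = w / (1 - w)²` -/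
def mfrU (w : ℂ) : ℂ := w / (1 - w) ^ 2

/-- Tate's general term in terms of `U` (same expression as `modTateTerm` of `ModPlan`). -/
def mfrTerm (q u : ℂ) (n : ℕ) : ℂ :=
  mfrU (q ^ (n + 1) * u) + mfrU (q ^ (n + 1) * u⁻¹) - 2 * mfrU (q ^ (n + 1))

theorem mfr_one_sub_ne_zero {w : ℂ} (hw : ‖w‖ < 1) : (1 : ℂ) - w ≠ 0 := by
  intro h
  have : w = 1 := by linear_combination -h
  rw [this, norm_one] at hw
  exact lt_irrefl _ hw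

theorem norm_mfrU_le {w : ℂ} {ρ : ℝ} (hρ : ρ < 1) (hw : ‖w‖ ≤ ρ) :
    ‖mfrU w‖ ≤ ‖w‖ / (1 - ρ) ^ 2 := by
  have h1 : 0 < 1 - ρ := by linarith
  have h2 : 1 - ρ ≤ ‖(1 : ℂ) - w‖ := by
    have := norm_sub_norm_le (1 : ℂ) w
    rw [norm_one] at this
    linarith
  unfold mfrU
  rw [norm_div, norm_pow]
  apply div_le_div_of_nonneg_left (norm_nonneg w) (by positivity)
  exact pow_le_pow_left₀ h1.le h2 2

theorem norm_mfrTerm_le {q u : ℂ} {ρ : ℝ} (hρ0 : 0 ≤ ρ) (hρ : ρ < 1) (hq : ‖q‖ ≤ ρ)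
    (hqu : ‖q * u‖ ≤ ρ) (hqu' : ‖q * u⁻¹‖ ≤ ρ) (n : ℕ) :
    ‖mfrTerm q u n‖ ≤ 4 * ρ ^ (n + 1) / (1 - ρ) ^ 2 := by
  have h1 : 0 < 1 - ρ := by linarith
  have hρn : ρ ^ (n + 1) ≤ ρ := by
    calc ρ ^ (n + 1) ≤ ρ ^ 1 := pow_le_pow_of_le_one hρ0 hρ.le (by omega)
      _ = ρ := pow_one ρ
  have hqn : ‖q ^ n‖ ≤ ρ ^ n := by
    rw [norm_pow]; exact pow_le_pow_left₀ (norm_nonneg q) hq n
  have ha : ‖q ^ (n + 1) * u‖ ≤ ρ ^ (n + 1) := by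
    rw [pow_succ, mul_assoc, norm_mul, pow_succ]
    exact mul_le_mul hqn hqu (norm_nonneg _) (by positivity)
  have hb : ‖q ^ (n + 1) * u⁻¹‖ ≤ ρ ^ (n + 1) := by
    rw [pow_succ, mul_assoc, norm_mul, pow_succ]
    exact mul_le_mul hqn hqu' (norm_nonneg _) (by positivity)
  have hc : ‖q ^ (n + 1)‖ ≤ ρ ^ (n + 1) := by
    rw [norm_pow]; exact pow_le_pow_left₀ (norm_nonneg q) hq (n + 1)
  have hUa := norm_mfrU_le hρ (ha.trans hρn)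
  have hUb := norm_mfrU_le hρ (hb.trans hρn)
  have hUc := norm_mfrU_le hρ (hc.trans hρn)
  have hd : 0 < (1 - ρ) ^ 2 := by positivity
  have hUa' : ‖mfrU (q ^ (n + 1) * u)‖ ≤ ρ ^ (n + 1) / (1 - ρ) ^ 2 :=
    hUa.trans (div_le_div_of_nonneg_right ha hd.le)
  have hUb' : ‖mfrU (q ^ (n + 1) * u⁻¹)‖ ≤ ρ ^ (n + 1) / (1 - ρ) ^ 2 :=
    hUb.trans (div_le_div_of_nonneg_right hb hd.le)
  have hUc' : ‖mfrU (q ^ (n + 1))‖ ≤ ρ ^ (n + 1) / (1 - ρ) ^ 2 :=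
    hUc.trans (div_le_div_of_nonneg_right hc hd.le)
  unfold mfrTerm
  calc ‖mfrU (q ^ (n + 1) * u) + mfrU (q ^ (n + 1) * u⁻¹) - 2 * mfrU (q ^ (n + 1))‖
      ≤ ‖mfrU (q ^ (n + 1) * u)‖ + ‖mfrU (q ^ (n + 1) * u⁻¹)‖ + 2 * ‖mfrU (q ^ (n + 1))‖ := by
        refine (norm_sub_le _ _).trans ?_
        refine add_le_add (norm_add_le _ _) ?_
        rw [norm_mul]
        simp
    _ ≤ ρ ^ (n + 1) / (1 - ρ) ^ 2 + ρ ^ (n + 1) / (1 - ρ) ^ 2 +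
          2 * (ρ ^ (n + 1) / (1 - ρ) ^ 2) := by
        gcongr
    _ = 4 * ρ ^ (n + 1) / (1 - ρ) ^ 2 := by ring

theorem mfr_summable_bound {ρ : ℝ} (hρ0 : 0 ≤ ρ) (hρ : ρ < 1) :
    Summable fun n : ℕ => 4 * ρ ^ (n + 1) / (1 - ρ) ^ 2 := by
  have h := (summable_geometric_of_lt_one hρ0 hρ).mul_left (4 * ρ / (1 - ρ) ^ 2)
  refine h.congr fun n => ?_
  rw [pow_succ]
  ring

theorem mfr_tsum_bound {ρ : ℝ} (hρ0 : 0 ≤ ρ) (hρ : ρ < 1) :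
    ∑' n : ℕ, 4 * ρ ^ (n + 1) / (1 - ρ) ^ 2 = 4 * ρ / (1 - ρ) ^ 3 := by
  have h1 : 0 < 1 - ρ := by linarith
  have h : ∀ n : ℕ, 4 * ρ ^ (n + 1) / (1 - ρ) ^ 2 = 4 * ρ / (1 - ρ) ^ 2 * ρ ^ n := by
    intro n
    rw [pow_succ]
    ring
  simp_rw [h]
  rw [tsum_mul_left, tsum_geometric_of_lt_one hρ0 hρ]
  field_simp

theorem mfr_summable_mfrTerm {q u : ℂ} {ρ : ℝ} (hρ0 : 0 ≤ ρ) (hρ : ρ < 1) (hq : ‖q‖ ≤ ρ)
    (hqu : ‖q * u‖ ≤ ρ) (hqu' : ‖q * u⁻¹‖ ≤ ρ) : Summable (mfrTerm q u) :=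
  Summable.of_norm_bounded (mfr_summable_bound hρ0 hρ) (norm_mfrTerm_le hρ0 hρ hq hqu hqu')

theorem norm_tsum_mfrTerm_le {q u : ℂ} {ρ : ℝ} (hρ0 : 0 ≤ ρ) (hρ : ρ < 1) (hq : ‖q‖ ≤ ρ)
    (hqu : ‖q * u‖ ≤ ρ) (hqu' : ‖q * u⁻¹‖ ≤ ρ) :
    ‖∑' n, mfrTerm q u n‖ ≤ 4 * ρ / (1 - ρ) ^ 3 := by
  rw [← mfr_tsum_bound hρ0 hρ]
  exact tsum_of_norm_bounded (mfr_summable_bound hρ0 hρ).hasSum
    (norm_mfrTerm_le hρ0 hρ hq hqu hqu')

theorem mfrU_differentiableAt {w : ℂ} (hw : w ≠ 1) : DifferentiableAt ℂ mfrU w := by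
  unfold mfrU
  refine DifferentiableAt.div differentiableAt_id ?_ ?_
  · exact ((differentiableAt_const _).sub differentiableAt_id).pow 2
  · exact pow_ne_zero 2 (sub_ne_zero.mpr hw.symm)

/-! ### the functions `q(τ) = e^{2πiτ}` and `u(τ) = e^{2πi(aτ+b)/N}` -/

/-- `q(τ) = e^{2πiτ}` -/
def mfrQ (τ : ℂ) : ℂ := cexp (2 * π * I * τ)

/-- `u(τ) = e^{2πi(aτ + b)/N}` -/
def mfrUu (N : ℕ) (a b : ℤ) (τ : ℂ) : ℂ := cexp (2 * π * I * (((a : ℂ) * τ + (b : ℂ)) / (N : ℂ)))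

theorem norm_mfrQ (τ : ℂ) : ‖mfrQ τ‖ = Real.exp (-(2 * π * τ.im)) := by
  unfold mfrQ
  rw [Complex.norm_exp]
  congr 1
  simp [Complex.mul_re]

theorem norm_mfrUu (N : ℕ) (a b : ℤ) (τ : ℂ) :
    ‖mfrUu N a b τ‖ = Real.exp (-(2 * π * ((a : ℝ) * τ.im / (N : ℝ)))) := by
  unfold mfrUu
  rw [Complex.norm_exp]
  congr 1
  have h : (((a : ℂ) * τ + (b : ℂ)) / (N : ℂ)).im = (a : ℝ) * τ.im / (N : ℝ) := by
    have hN : ((N : ℂ)) = ((N : ℝ) : ℂ) := by push_cast; rfl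
    rw [hN, Complex.div_ofReal_im]
    simp [Complex.add_im, Complex.mul_im]
  rw [Complex.mul_re, h]
  simp

theorem mfrQ_differentiable : Differentiable ℂ mfrQ := by
  unfold mfrQ
  fun_prop

theorem mfrUu_differentiable (N : ℕ) (a b : ℤ) : Differentiable ℂ (mfrUu N a b) := by
  unfold mfrUu
  fun_prop

theorem mfrUu_ne_zero (N : ℕ) (a b : ℤ) (τ : ℂ) : mfrUu N a b τ ≠ 0 := Complex.exp_ne_zero _

theorem mfrUu_inv_differentiable (N : ℕ) (a b : ℤ) :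
    Differentiable ℂ (fun τ => (mfrUu N a b τ)⁻¹) := fun τ =>
  (mfrUu_differentiable N a b τ).inv (mfrUu_ne_zero N a b τ)

/-- the three norm bounds, for `0 ≤ a < N` and `A ≤ Im τ` -/
theorem mfr_norm_bounds (N : ℕ) [NeZero N] (a b : ℤ) (ha0 : 0 ≤ a) (haN : a < N) {A : ℝ}
    (hA : 0 < A) {τ : ℂ} (hτ : A ≤ τ.im) :
    ‖mfrQ τ‖ ≤ Real.exp (-(2 * π * A / N)) ∧
    ‖mfrQ τ * mfrUu N a b τ‖ ≤ Real.exp (-(2 * π * A / N)) ∧
    ‖mfrQ τ * (mfrUu N a b τ)⁻¹‖ ≤ Real.exp (-(2 * π * A / N)) := by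
  have hNpos : (0 : ℝ) < N := Nat.cast_pos.mpr (Nat.pos_of_ne_zero (NeZero.ne N))
  have hN1 : (1 : ℝ) ≤ N := by exact_mod_cast Nat.pos_of_ne_zero (NeZero.ne N)
  have ha0' : (0 : ℝ) ≤ a := by exact_mod_cast ha0
  have haN' : (a : ℝ) + 1 ≤ N := by exact_mod_cast haN
  have hπ := Real.pi_pos
  have hτ0 : 0 < τ.im := lt_of_lt_of_le hA hτ
  have hAN : A / N ≤ τ.im := by
    calc A / N ≤ A := div_le_self hA.le hN1
      _ ≤ τ.im := hτ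
  refine ⟨?_, ?_, ?_⟩
  · rw [norm_mfrQ, Real.exp_le_exp]
    have : 2 * π * A / N = 2 * π * (A / N) := by ring
    rw [this]
    have := mul_le_mul_of_nonneg_left hAN (by positivity : (0 : ℝ) ≤ 2 * π)
    linarith
  · rw [norm_mul, norm_mfrQ, norm_mfrUu, ← Real.exp_add, Real.exp_le_exp]
    have h1 : 2 * π * A / N = 2 * π * (A / N) := by ring
    rw [h1]
    have h2 := mul_le_mul_of_nonneg_left hAN (by positivity : (0 : ℝ) ≤ 2 * π)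
    have h3 : 0 ≤ 2 * π * ((a : ℝ) * τ.im / N) := by positivity
    linarith
  · rw [norm_mul, norm_inv, norm_mfrQ, norm_mfrUu, ← Real.exp_neg, ← Real.exp_add,
      Real.exp_le_exp]
    have h1 : -(2 * π * τ.im) + - -(2 * π * ((a : ℝ) * τ.im / N)) =
        -(2 * π * (τ.im * ((N - a) / N))) := by
      field_simp
      ring
    rw [h1]
    have h2 : A / N ≤ τ.im * ((N - a) / N) := by
      rw [div_le_iff₀ hNpos]
      have : τ.im * ((N - a) / N) * N = τ.im * (N - a) := by field_simp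
      rw [this]
      calc A ≤ τ.im := hτ
        _ = τ.im * 1 := (mul_one _).symm
        _ ≤ τ.im * (N - a) := by
          apply mul_le_mul_of_nonneg_left _ hτ0.le
          linarith
    have h3 : 2 * π * A / N = 2 * π * (A / N) := by ring
    rw [h3]
    have := mul_le_mul_of_nonneg_left h2 (by positivity : (0 : ℝ) ≤ 2 * π)
    linarith

theorem mfr_rho_lt_one (N : ℕ) [NeZero N] {A : ℝ} (hA : 0 < A) :
    Real.exp (-(2 * π * A / N)) < 1 := by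
  have hNpos : (0 : ℝ) < N := Nat.cast_pos.mpr (Nat.pos_of_ne_zero (NeZero.ne N))
  rw [Real.exp_lt_one_iff]
  have := Real.pi_pos
  have : 0 < 2 * π * A / N := by positivity
  linarith

end Fermat.Agent.S15
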