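import Fermat.Agent.S15.ModFrickeQ
import Fermat.Agent.S15.ModUnifLat
import Fermat.Agent.ES.I2.MFAnalytic
import Fermat.Agent.S28.NormPoly

/-!
# S15 / MOD-FRICKE (5): the modular form `∏_k ((t - 1/12) E₆² + E₄ E₆ P_{0,k})`

* `mfrW N t a b = (t - 1/12) E₆² + E₄ E₆ P_{a,b}` (weight `12`), `mfrW_smul`;
* `mfrF N t = ∏_{k=1}^{N-1} mfrW N t 0 k`, `mfrF_smul`, `mfrF_smul_Gamma0`;
* `mfrForm N hN t : ModularForm (G0 N) (12 (N - 1))`;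
* `mfrA N t = mfrF N t / Δ^{N-1}`, `mfrBf N = (E₆²/Δ)^{N-1}`: modular functions of level `N`, and
  `mfrA_eq` : `mfrA N t τ = modPiAn N t τ * mfrBf N τ` where `g₃ ≠ 0`.
-/

set_option autoImplicit false

noncomputable section

namespace Fermat.Agent.S15

open UpperHalfPlane PeriodPair Complex Filter Topology ModularForm EisensteinSeries
  CongruenceSubgroup
open Fermat.Agent.S23 Fermat.Agent.S24 Fermat.Agent.S28 Fermat.Agent.ES.I2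
open scoped Real MatrixGroups Manifold

local notation "Δ" => ModularForm.discriminant

theorem mfr_denom (γ : SL(2, ℤ)) (τ : ℍ) :
    denom γ τ = (γ 1 0 : ℂ) * τ + (γ 1 1 : ℂ) := by
  simp [UpperHalfPlane.denom]

theorem mfr_E4_smul (γ : SL(2, ℤ)) (τ : ℍ) :
    E₄ (γ • τ) = ((γ 1 0 : ℂ) * τ + (γ 1 1 : ℂ)) ^ 4 * E₄ τ := by
  have hγ : (γ : GL (Fin 2) ℝ) ∈ 𝒮ℒ := ⟨γ, rfl⟩
  have h4 : E₄ (γ • τ) = (denom γ τ) ^ (4 : ℤ) * E₄ τ :=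
    SlashInvariantForm.slash_action_eqn'' E₄ hγ τ
  rw [h4, mfr_denom, zpow_ofNat]

theorem mfr_E6_smul (γ : SL(2, ℤ)) (τ : ℍ) :
    E₆ (γ • τ) = ((γ 1 0 : ℂ) * τ + (γ 1 1 : ℂ)) ^ 6 * E₆ τ := by
  have hγ : (γ : GL (Fin 2) ℝ) ∈ 𝒮ℒ := ⟨γ, rfl⟩
  have h6 : E₆ (γ • τ) = (denom γ τ) ^ (6 : ℤ) * E₆ τ :=
    SlashInvariantForm.slash_action_eqn'' E₆ hγ τ
  rw [h6, mfr_denom, zpow_ofNat]

theorem mfr_disc_smul (γ : SL(2, ℤ)) (τ : ℍ) :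
    Δ (γ • τ) = ((γ 1 0 : ℂ) * τ + (γ 1 1 : ℂ)) ^ 12 * Δ τ :=
  P8_discriminant_smul γ τ

/-- the weight `12` factor `(t - 1/12) E₆² + E₄ E₆ P_{a,b}` -/
def mfrW (N : ℕ) (t : ℂ) (a b : ℤ) (τ : ℍ) : ℂ :=
  (t - 1 / 12) * E₆ τ ^ 2 + E₄ τ * E₆ τ * mfrP N a b τ

theorem mfrW_smul (N : ℕ) (t : ℂ) (a b : ℤ) (γ : SL(2, ℤ)) (τ : ℍ) :
    mfrW N t a b (γ • τ) = ((γ 1 0 : ℂ) * τ + (γ 1 1 : ℂ)) ^ 12 *
      mfrW N t (a * γ 0 0 + b * γ 1 0) (a * γ 0 1 + b * γ 1 1) τ := by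
  unfold mfrW
  rw [mfr_E4_smul, mfr_E6_smul, mfrP_smul]
  ring

theorem mfrW_congr (N : ℕ) [NeZero N] (t : ℂ) {a a' b b' : ℤ} (ha : a ≡ a' [ZMOD N])
    (hb : b ≡ b' [ZMOD N]) (τ : ℍ) : mfrW N t a b τ = mfrW N t a' b' τ := by
  unfold mfrW
  rw [mfrP_congr N ha hb]

theorem mfr_isBdd_E4 : IsBoundedAtImInfty (E₄ : ℍ → ℂ) := bridge_isHPB_E4.2.2

theorem mfr_isHPB_E6 : IsHPB (E₆ : ℍ → ℂ) := by
  have h : IsMF (G0 1) 6 (E₆ : ℍ → ℂ) := IsMF.of_levelOne ⟨E₆, rfl⟩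
  exact h.isHPB

theorem mfr_isBdd_E6 : IsBoundedAtImInfty (E₆ : ℍ → ℂ) := mfr_isHPB_E6.2.2

theorem mfrW_isBoundedAtImInfty (N : ℕ) [NeZero N] (t : ℂ) (a b : ℤ)
    (hab : ¬ ((N : ℤ) ∣ a ∧ (N : ℤ) ∣ b)) : IsBoundedAtImInfty (mfrW N t a b) := by
  have h1 : IsBoundedAtImInfty (fun _ : ℍ => (t - 1 / 12 : ℂ)) :=
    Filter.const_boundedAtFilter _ _
  have h2 := (h1.mul (mfr_isBdd_E6.mul mfr_isBdd_E6)).add
    ((mfr_isBdd_E4.mul mfr_isBdd_E6).mul (mfrP_isBoundedAtImInfty N a b hab))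
  have e : mfrW N t a b = (fun _ : ℍ => (t - 1 / 12 : ℂ)) * ((E₆ : ℍ → ℂ) * (E₆ : ℍ → ℂ)) +
      (E₄ : ℍ → ℂ) * (E₆ : ℍ → ℂ) * mfrP N a b := by
    funext τ
    simp only [mfrW, Pi.add_apply, Pi.mul_apply]
    ring
  rw [e]
  exact h2

theorem mfrW_mdiff (N : ℕ) [NeZero N] (t : ℂ) (a b : ℤ)
    (hab : ¬ ((N : ℤ) ∣ a ∧ (N : ℤ) ∣ b)) : MDiff (mfrW N t a b) := by
  have h4 : MDiff (E₄ : ℍ → ℂ) := ModularFormClass.holo E₄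
  have h6 : MDiff (E₆ : ℍ → ℂ) := ModularFormClass.holo E₆
  have hc : MDiff (fun _ : ℍ => (t - 1 / 12 : ℂ)) := mdifferentiable_const
  have h2 := (hc.mul (h6.mul h6)).add ((h4.mul h6).mul (mfrP_mdiff N a b hab))
  have e : mfrW N t a b = (fun _ : ℍ => (t - 1 / 12 : ℂ)) * ((E₆ : ℍ → ℂ) * (E₆ : ℍ → ℂ)) +
      (E₄ : ℍ → ℂ) * (E₆ : ℍ → ℂ) * mfrP N a b := by
    funext τ
    simp only [mfrW, Pi.add_apply, Pi.mul_apply]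
    ring
  rw [e]
  exact h2

/-! ### reindexing -/

/-- `∏_{k=1}^{N-1} f(k d) = ∏_{k=1}^{N-1} f(k)` for `f` periodic mod `N`, `d` a unit mod `N` -/
theorem mfr_prod_reindex {M : Type*} [CommMonoid M] (N : ℕ) [NeZero N] (f : ℤ → M)
    (hf : ∀ x y : ℤ, x ≡ y [ZMOD N] → f x = f y) (d : ℤ) (hd : IsUnit (d : ZMod N)) :
    ∏ k ∈ Finset.Ico 1 N, f ((k : ℤ) * d) = ∏ k ∈ Finset.Ico 1 N, f k := by
  classical
  -- the function on `ZMod N`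
  let g : ZMod N → M := fun x => f (x.val : ℤ)
  have hg : ∀ y : ℤ, f y = g (y : ZMod N) := by
    intro y
    apply hf
    rw [← ZMod.intCast_eq_intCast_iff]
    simp
  have key : ∀ g' : ZMod N → M,
      ∏ k ∈ Finset.Ico 1 N, g' ((k : ℕ) : ZMod N) = ∏ x ∈ (Finset.univ.erase (0 : ZMod N)), g' x := by
    intro g'
    refine Finset.prod_bij (fun k _ => ((k : ℕ) : ZMod N)) ?_ ?_ ?_ ?_
    · intro k hk
      rw [Finset.mem_Ico] at hk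
      rw [Finset.mem_erase]
      refine ⟨?_, Finset.mem_univ _⟩
      rw [Ne, ZMod.natCast_eq_zero_iff]
      intro hdvd
      have := Nat.le_of_dvd (by omega) hdvd
      omega
    · intro k₁ hk₁ k₂ hk₂ h12
      rw [Finset.mem_Ico] at hk₁ hk₂
      have h1 := congrArg ZMod.val h12
      rwa [ZMod.val_natCast_of_lt hk₁.2, ZMod.val_natCast_of_lt hk₂.2] at h1
    · intro x hx
      rw [Finset.mem_erase] at hx
      refine ⟨x.val, ?_, by simp⟩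
      rw [Finset.mem_Ico]
      refine ⟨?_, ZMod.val_lt x⟩
      have : x.val ≠ 0 := fun h0 => hx.1 ((ZMod.val_eq_zero x).mp h0)
      omega
    · intro k _
      rfl
  have e1 : ∏ k ∈ Finset.Ico 1 N, f ((k : ℤ) * d) =
      ∏ k ∈ Finset.Ico 1 N, (fun x : ZMod N => g (x * (d : ZMod N))) ((k : ℕ) : ZMod N) := by
    refine Finset.prod_congr rfl fun k _ => ?_
    rw [hg]
    push_cast
    rfl
  have e2 : ∏ k ∈ Finset.Ico 1 N, f (k : ℤ) =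
      ∏ k ∈ Finset.Ico 1 N, g ((k : ℕ) : ZMod N) := by
    refine Finset.prod_congr rfl fun k _ => ?_
    rw [hg]
    push_cast
    rfl
  rw [e1, e2, key (fun x : ZMod N => g (x * (d : ZMod N))), key g]
  obtain ⟨u, hu⟩ := hd
  refine Finset.prod_nbij' (fun x => x * (u : ZMod N)) (fun x => x * ((u⁻¹ : (ZMod N)ˣ) : ZMod N))
    ?_ ?_ ?_ ?_ ?_
  · intro x hx
    rw [Finset.mem_erase] at hx ⊢
    refine ⟨fun h0 => hx.1 ?_, Finset.mem_univ _⟩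
    simpa using h0
  · intro x hx
    rw [Finset.mem_erase] at hx ⊢
    refine ⟨fun h0 => hx.1 ?_, Finset.mem_univ _⟩
    simpa using h0
  · intro x _
    simp [mul_assoc]
  · intro x _
    simp [mul_assoc]
  · intro x _
    rw [hu]

/-! ### the product -/

/-- the product `∏_{k=1}^{N-1} ((t - 1/12) E₆² + E₄ E₆ P_{0,k})` -/
def mfrF (N : ℕ) (t : ℂ) (τ : ℍ) : ℂ := ∏ k ∈ Finset.Ico 1 N, mfrW N t 0 (k : ℤ) τ

theorem mfrF_smul (N : ℕ) (t : ℂ) (γ : SL(2, ℤ)) (τ : ℍ) :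
    mfrF N t (γ • τ) = ((γ 1 0 : ℂ) * τ + (γ 1 1 : ℂ)) ^ (12 * (N - 1)) *
      ∏ k ∈ Finset.Ico 1 N, mfrW N t ((k : ℤ) * γ 1 0) ((k : ℤ) * γ 1 1) τ := by
  unfold mfrF
  have h : ∀ k ∈ Finset.Ico 1 N, mfrW N t 0 (k : ℤ) (γ • τ) =
      ((γ 1 0 : ℂ) * τ + (γ 1 1 : ℂ)) ^ 12 *
        mfrW N t ((k : ℤ) * γ 1 0) ((k : ℤ) * γ 1 1) τ := by
    intro k _
    rw [mfrW_smul]
    congr 2 <;> ring
  rw [Finset.prod_congr rfl h, Finset.prod_mul_distrib, Finset.prod_const, Nat.card_Ico,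
    ← pow_mul]

theorem mfr_isUnit_of_mem_Gamma0 (N : ℕ) (γ : SL(2, ℤ)) (hγ : γ ∈ Gamma0 N) :
    IsUnit ((γ 1 1 : ℤ) : ZMod N) := by
  have hc : ((γ 1 0 : ℤ) : ZMod N) = 0 := Gamma0_mem.mp hγ
  have hdet : ((γ 0 0 : ℤ) : ZMod N) * ((γ 1 1 : ℤ) : ZMod N) = 1 := by
    have h := γ.det_coe
    rw [Matrix.det_fin_two] at h
    have h2 : (((γ 0 0 * γ 1 1 - γ 0 1 * γ 1 0 : ℤ)) : ZMod N) = 1 := by
      rw [h]; simp
    push_cast at h2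
    rw [hc, mul_zero, sub_zero] at h2
    exact h2
  exact IsUnit.of_mul_eq_one _ (by rw [mul_comm]; exact hdet)

theorem mfrF_smul_Gamma0 (N : ℕ) [NeZero N] (t : ℂ) (γ : SL(2, ℤ)) (hγ : γ ∈ Gamma0 N) (τ : ℍ) :
    ∏ k ∈ Finset.Ico 1 N, mfrW N t ((k : ℤ) * γ 1 0) ((k : ℤ) * γ 1 1) τ = mfrF N t τ := by
  have hc : ((γ 1 0 : ℤ) : ZMod N) = 0 := Gamma0_mem.mp hγ
  have hdvd : (N : ℤ) ∣ γ 1 0 := (ZMod.intCast_zmod_eq_zero_iff_dvd _ _).mp hc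
  have h1 : ∀ k ∈ Finset.Ico 1 N, mfrW N t ((k : ℤ) * γ 1 0) ((k : ℤ) * γ 1 1) τ =
      (fun x : ℤ => mfrW N t 0 x τ) ((k : ℤ) * γ 1 1) := by
    intro k _
    apply mfrW_congr N t _ (Int.ModEq.refl _)
    exact (Int.modEq_zero_iff_dvd.mpr (Dvd.dvd.mul_left hdvd _))
  rw [Finset.prod_congr rfl h1]
  exact mfr_prod_reindex N (fun x : ℤ => mfrW N t 0 x τ)
    (fun x y hxy => mfrW_congr N t (Int.ModEq.refl _) hxy τ) (γ 1 1)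
    (mfr_isUnit_of_mem_Gamma0 N γ hγ)

theorem mfr_not_dvd_pair {N : ℕ} (hN : N.Prime) (γ : SL(2, ℤ)) {k : ℕ}
    (hk : k ∈ Finset.Ico 1 N) :
    ¬ ((N : ℤ) ∣ (k : ℤ) * γ 1 0 ∧ (N : ℤ) ∣ (k : ℤ) * γ 1 1) := by
  rw [Finset.mem_Ico] at hk
  have hp : Prime (N : ℤ) := Nat.prime_iff_prime_int.mp hN
  have hk' : ¬ (N : ℤ) ∣ (k : ℤ) := by
    intro h
    have := Int.natCast_dvd_natCast.mp h
    have := Nat.le_of_dvd (by omega) this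
    omega
  rintro ⟨h1, h2⟩
  have hc := (hp.dvd_or_dvd h1).resolve_left hk'
  have hd := (hp.dvd_or_dvd h2).resolve_left hk'
  have hdet := γ.det_coe
  rw [Matrix.det_fin_two] at hdet
  have h3 : (N : ℤ) ∣ 1 := by
    rw [← hdet]
    exact dvd_sub (Dvd.dvd.mul_left hd _) (Dvd.dvd.mul_left hc _)
  have := Int.natCast_dvd_natCast.mp (by simpa using h3 : ((N : ℕ) : ℤ) ∣ ((1 : ℕ) : ℤ))
  have := Nat.le_of_dvd one_pos this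
  have := hN.two_le
  omega

theorem mfr_isBdd_prod {ι : Type*} (s : Finset ι) (f : ι → ℍ → ℂ)
    (h : ∀ i ∈ s, IsBoundedAtImInfty (f i)) :
    IsBoundedAtImInfty (fun τ => ∏ i ∈ s, f i τ) := by
  have := Subalgebra.prod_mem (boundedAtImInftySubalgebra ℂ) (t := s) (f := f) h
  have e : (fun τ => ∏ i ∈ s, f i τ) = ∏ i ∈ s, f i := by
    funext τ
    rw [Finset.prod_apply]
  rw [e]
  exact this

theorem mfr_mdiff_prod {ι : Type*} (s : Finset ι) (f : ι → ℍ → ℂ)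
    (h : ∀ i ∈ s, MDiff (f i)) : MDiff (fun τ => ∏ i ∈ s, f i τ) := by
  rw [UpperHalfPlane.mdifferentiable_iff]
  have h' : ∀ i ∈ s, DifferentiableOn ℂ (f i ∘ ofComplex) {z | 0 < z.im} := fun i hi =>
    (UpperHalfPlane.mdifferentiable_iff.mp (h i hi))
  have := DifferentiableOn.finsetProd h'
  refine this.congr ?_
  intro z _
  simp

theorem mfrF_slash_bdd (N : ℕ) [NeZero N] (hN : N.Prime) (t : ℂ) (γ : SL(2, ℤ)) :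
    IsBoundedAtImInfty
      (fun τ => ∏ k ∈ Finset.Ico 1 N, mfrW N t ((k : ℤ) * γ 1 0) ((k : ℤ) * γ 1 1) τ) :=
  mfr_isBdd_prod _ _ fun _ hk => mfrW_isBoundedAtImInfty N t _ _ (mfr_not_dvd_pair hN γ hk)

theorem mfr_not_dvd_zero {N : ℕ} {k : ℕ} (hk : k ∈ Finset.Ico 1 N) :
    ¬ ((N : ℤ) ∣ 0 ∧ (N : ℤ) ∣ (k : ℤ)) := by
  rw [Finset.mem_Ico] at hk
  rintro ⟨-, h⟩
  have := Int.natCast_dvd_natCast.mp h
  have := Nat.le_of_dvd (by omega) this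
  omega

theorem mfrF_mdiff (N : ℕ) [NeZero N] (t : ℂ) : MDiff (mfrF N t) :=
  mfr_mdiff_prod _ _ fun k hk => mfrW_mdiff N t 0 k (mfr_not_dvd_zero hk)

theorem mfr_slash_of_smul {F G : ℍ → ℂ} {k : ℕ} (γ : SL(2, ℤ))
    (h : ∀ τ, F (γ • τ) = ((γ 1 0 : ℂ) * τ + (γ 1 1 : ℂ)) ^ k * G τ) :
    F ∣[(k : ℤ)] γ = G := by
  ext τ
  rw [SL_slash_apply, h τ, mfr_denom]
  have hne : (γ 1 0 : ℂ) * τ + (γ 1 1 : ℂ) ≠ 0 := P8_denom_ne_zero γ τ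
  rw [zpow_neg, zpow_natCast, mul_comm, ← mul_assoc, inv_mul_cancel₀ (pow_ne_zero k hne), one_mul]

/-- the modular form `∏_k ((t - 1/12) E₆² + E₄ E₆ P_{0,k})` of weight `12 (N - 1)` on `Γ₀(N)` -/
def mfrForm (N : ℕ) [NeZero N] (hN : N.Prime) (t : ℂ) :
    ModularForm (G0 N) (((12 * (N - 1) : ℕ) : ℤ)) where
  toFun := mfrF N t
  slash_action_eq' := by
    rintro _ ⟨γ, hγ, rfl⟩
    change mfrF N t ∣[(((12 * (N - 1) : ℕ) : ℤ))] γ = _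
    apply mfr_slash_of_smul
    intro τ
    rw [mfrF_smul, mfrF_smul_Gamma0 N t γ hγ]
  holo' := mfrF_mdiff N t
  bdd_at_cusps' := by
    intro c hc
    rw [Subgroup.IsArithmetic.isCusp_iff_isCusp_SL2Z] at hc
    rw [OnePoint.isBoundedAt_iff_forall_SL2Z hc]
    intro δ _
    have h := mfr_slash_of_smul (k := 12 * (N - 1)) δ (mfrF_smul N t δ)
    rw [h]
    exact mfrF_slash_bdd N hN t δ

theorem mfrForm_coe (N : ℕ) [NeZero N] (hN : N.Prime) (t : ℂ) :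
    (⇑(mfrForm N hN t) : ℍ → ℂ) = mfrF N t := rfl

/-! ### the modular functions `a₀`, `b₀` -/

/-- `a₀ = ∏_k (…) / Δ^{N-1}` -/
def mfrA (N : ℕ) (t : ℂ) : ℍ → ℂ := fun τ => mfrF N t τ / Δ τ ^ (N - 1)

/-- `b₀ = (E₆²)^{N-1} / Δ^{N-1}` -/
def mfrBf (N : ℕ) : ℍ → ℂ := fun τ => (E₆ τ ^ 2) ^ (N - 1) / Δ τ ^ (N - 1)

theorem isMF_mfrF (N : ℕ) [NeZero N] (hN : N.Prime) (t : ℂ) :
    IsMF (G0 N) (12 * ((N - 1 : ℕ) : ℤ)) (mfrF N t) := by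
  have h : IsMF (G0 N) (((12 * (N - 1) : ℕ) : ℤ)) (mfrF N t) := ⟨mfrForm N hN t, rfl⟩
  exact h.of_weight_eq (by push_cast; ring)

theorem isMF_E6_pow (N : ℕ) [NeZero N] :
    IsMF (G0 N) (12 * ((N - 1 : ℕ) : ℤ)) (fun τ => (E₆ τ ^ 2) ^ (N - 1)) := by
  have h := ((mf_isMF_E6.pow 2).pow (N - 1))
  have h2 : IsMF (G0 N) _ _ := IsMF.of_levelOne h
  have h3 := h2.of_weight_eq (show ((N - 1 : ℕ) : ℤ) * (((2 : ℕ) : ℤ) * 6) = 12 * ((N - 1 : ℕ) : ℤ) by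
    push_cast; ring)
  exact h3

theorem isModFun_mfrA (N : ℕ) [NeZero N] (hN : N.Prime) (t : ℂ) : IsModFun N (mfrA N t) :=
  isModFun_div (isMF_mfrF N hN t)

theorem isModFun_mfrBf (N : ℕ) [NeZero N] : IsModFun N (mfrBf N) :=
  isModFun_div (isMF_E6_pow N)

theorem mfr_xi_eq (N : ℕ) (t : ℂ) (k : ℕ) (τ : ℍ) (h6 : E₆ τ ≠ 0) :
    t - modXiAn τ ((k : ℂ) / (N : ℂ)) = mfrW N t 0 (k : ℤ) τ / E₆ τ ^ 2 := by
  have hπ : (π : ℂ) ≠ 0 := by exact_mod_cast Real.pi_ne_zero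
  have hI : Complex.I ^ 2 = -1 := Complex.I_sq
  unfold modXiAn mfrW mfrP
  rw [modunif_g₂_tau, modunif_g₃_tau]
  have harg : (((0 : ℤ) : ℂ) * (τ : ℂ) + ((k : ℤ) : ℂ)) / (N : ℂ) = (k : ℂ) / (N : ℂ) := by
    push_cast; ring
  rw [harg]
  have h2 : (2 * (π : ℂ) * Complex.I) ^ 2 = -4 * (π : ℂ) ^ 2 := by
    rw [mul_pow, mul_pow, hI]; ring
  rw [h2]
  field_simp
  ring

theorem mfrA_eq (N : ℕ) [NeZero N] (t : ℂ) (τ : ℍ) (h : (modLat τ).g₃ ≠ 0) :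
    mfrBf N τ ≠ 0 ∧ mfrA N t τ = modPiAn N t τ * mfrBf N τ := by
  have h6 : E₆ τ ≠ 0 := by
    intro h0
    apply h
    rw [modunif_g₃_tau, h0, mul_zero]
  have hΔ : Δ τ ≠ 0 := discriminant_ne_zero τ
  have hB : (E₆ τ ^ 2) ^ (N - 1) ≠ 0 := pow_ne_zero _ (pow_ne_zero 2 h6)
  refine ⟨div_ne_zero hB (pow_ne_zero _ hΔ), ?_⟩
  unfold mfrA mfrBf modPiAn
  rw [Finset.prod_congr rfl (fun k _ => mfr_xi_eq N t k τ h6), Finset.prod_div_distrib,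
    Finset.prod_const, Nat.card_Ico]
  unfold mfrF
  field_simp

end Fermat.Agent.S15
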