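import Fermat.Agent.S15.ModFrickeForm
import Fermat.Agent.S15.ModFrRat
import Fermat.Agent.ES.I2.MFFormal
import Fermat.Agent.S28.ModUnit

/-!
# S15 / MOD-FRICKE (6): the Laurent expansions of `a₀`, `b₀` at `i∞`

* `mfr_qExp_prod` : `q`-expansions of finite products of holomorphic periodic bounded functions;
* `mfrAt t`, `mfrBt` : the integral series `A = t + (E₄ - E₆)/(12 E₆)`, `B = E₄/E₆`;
* `mfr_qExp_mfrF` : `qExpansion (mfrF N t) = E₆^{2(N-1)} ∏_k (A + B · S(ζ^k))`;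
* `mfr_laurent` : `N^{2(N-1)} · laurentOf a₀ = Y · laurentOf b₀` with `Y ∈ ℤ[[q]]` (FR-RAT).
-/

set_option autoImplicit false

noncomputable section

namespace Fermat.Agent.S15

open UpperHalfPlane PeriodPair Complex Filter Topology ModularForm EisensteinSeries ModularCurve
open Fermat.Agent.S23 Fermat.Agent.S24 Fermat.Agent.S28 Fermat.Agent.ES.I2 Fermat.Agent.INJ.HM
open scoped Real MatrixGroups Manifold

local notation "Δ" => ModularForm.discriminant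

/-- `q`-expansions of finite products -/
theorem mfr_qExp_prod {ι : Type*} (s : Finset ι) (f : ι → ℍ → ℂ) (h : ∀ i ∈ s, IsHPB (f i)) :
    IsHPB (fun τ => ∏ i ∈ s, f i τ) ∧
      qExpansion 1 (fun τ => ∏ i ∈ s, f i τ) = ∏ i ∈ s, qExpansion 1 (f i) := by
  classical
  induction s using Finset.induction_on with
  | empty =>
    simp only [Finset.prod_empty]
    exact ⟨qring_isHPB_const 1, qExpansion_one 1⟩
  | insert a s ha ih =>
    have hs : ∀ i ∈ s, IsHPB (f i) := fun i hi => h i (Finset.mem_insert_of_mem hi)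
    have hfa : IsHPB (f a) := h a (Finset.mem_insert_self a s)
    obtain ⟨h1, h2⟩ := ih hs
    have e : (fun τ => ∏ i ∈ insert a s, f i τ) = f a * (fun τ => ∏ i ∈ s, f i τ) := by
      funext τ
      rw [Finset.prod_insert ha]
      rfl
    rw [e, Finset.prod_insert ha]
    refine ⟨hfa.mul h1, ?_⟩
    rw [qExpansion_mul hfa.analyticAt h1.analyticAt, h2]

/-! ### the integral series -/

theorem mfr_constantCoeff_mfE6 : PowerSeries.constantCoeff mfE6 = ((1 : ℤˣ) : ℤ) := by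
  rw [← PowerSeries.coeff_zero_eq_constantCoeff_apply, mfE6, PowerSeries.coeff_mk]
  simp

/-- `E₆⁻¹ ∈ ℤ[[q]]` -/
def mfrE6inv : PowerSeries ℤ := mfE6.invOfUnit 1

theorem mfrE6_mul_inv : mfE6 * mfrE6inv = 1 :=
  PowerSeries.mul_invOfUnit mfE6 1 mfr_constantCoeff_mfE6

/-- `(E₄ - E₆)/12 ∈ ℤ[[q]]` -/
def mfrD12 : PowerSeries ℤ :=
  PowerSeries.mk fun n => if n = 0 then 0
    else 20 * ∑ d ∈ n.divisors, (d : ℤ) ^ 3 + 42 * ∑ d ∈ n.divisors, (d : ℤ) ^ 5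

theorem mfrD12_eq : PowerSeries.C (12 : ℤ) * mfrD12 = eisenstein4 - mfE6 := by
  ext n
  rw [PowerSeries.coeff_C_mul, map_sub, mfrD12, eisenstein4, mfE6, PowerSeries.coeff_mk,
    PowerSeries.coeff_mk, PowerSeries.coeff_mk]
  by_cases hn : n = 0
  · simp [hn]
  · simp only [if_neg hn]
    ring

theorem mfr_constantCoeff_D12 : PowerSeries.constantCoeff mfrD12 = 0 := by
  rw [← PowerSeries.coeff_zero_eq_constantCoeff_apply, mfrD12, PowerSeries.coeff_mk]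
  simp

/-- `A_t = t + (E₄ - E₆)/(12 E₆)` -/
def mfrAt (t : ℤ) : PowerSeries ℤ := PowerSeries.C t + mfrD12 * mfrE6inv

/-- `B = E₄ / E₆` -/
def mfrBt : PowerSeries ℤ := eisenstein4 * mfrE6inv

theorem mfr_constantCoeff_At : PowerSeries.constantCoeff (mfrAt 0) = 0 := by
  rw [mfrAt, map_add, map_mul, mfr_constantCoeff_D12]
  simp

theorem mfr_constantCoeff_Bt : PowerSeries.constantCoeff mfrBt = 1 := by
  rw [mfrBt, map_mul, constantCoeff_eisenstein4, mfrE6inv, PowerSeries.constantCoeff_invOfUnit]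
  simp

/-- the key identity of formal series -/
theorem mfr_factor_eq (t : ℤ) (S : PowerSeries ℂ) :
    PowerSeries.C ((t : ℂ) - 1 / 12) * hmC mfE6 ^ 2 +
        hmC eisenstein4 * hmC mfE6 * (PowerSeries.C (1 / 12 : ℂ) + S) =
      hmC mfE6 ^ 2 * (hmC (mfrAt t) + hmC mfrBt * S) := by
  have h1 : hmC mfE6 * hmC mfrE6inv = 1 := by
    rw [← map_mul, mfrE6_mul_inv, map_one]
  have h2 : PowerSeries.C (12 : ℂ) * hmC mfrD12 = hmC eisenstein4 - hmC mfE6 := by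
    have := congrArg hmC mfrD12_eq
    rw [map_mul, map_sub] at this
    rw [← this]
    congr 1
    rw [hmC, PowerSeries.map_C]
    simp
  have h3 : PowerSeries.C (1 / 12 : ℂ) * PowerSeries.C (12 : ℂ) = 1 := by
    rw [← map_mul]
    norm_num
  have h4 : hmC (mfrAt t) = PowerSeries.C (t : ℂ) + hmC mfrD12 * hmC mfrE6inv := by
    rw [mfrAt, map_add, map_mul]
    congr 1
    rw [hmC, PowerSeries.map_C]
    simp
  have h5 : hmC mfrBt = hmC eisenstein4 * hmC mfrE6inv := by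
    rw [mfrBt, map_mul]
  have h6 : PowerSeries.C ((t : ℂ) - 1 / 12) = PowerSeries.C (t : ℂ) - PowerSeries.C (1 / 12 : ℂ) :=
    map_sub _ _ _
  rw [h4, h5, h6]
  linear_combination (-(hmC eisenstein4 * hmC mfE6 * S) - hmC mfE6 * hmC mfrD12) * h1 -
    PowerSeries.C (1 / 12 : ℂ) * hmC mfE6 * h2 + hmC mfE6 * hmC mfrD12 * h3

/-! ### the `q`-expansion of the product -/

theorem mfrW_isHPB (N : ℕ) [NeZero N] (t : ℂ) (k : ℤ) (hk : ¬ (N : ℤ) ∣ k) :
    IsHPB (mfrW N t 0 k) := by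
  have hP := mfrP_zero_isHPB N k hk
  have hc : IsHPB (fun _ : ℍ => (t - 1 / 12 : ℂ)) := qring_isHPB_const _
  have h := (hc.mul (mfr_isHPB_E6.mul mfr_isHPB_E6)).add ((bridge_isHPB_E4.mul mfr_isHPB_E6).mul hP)
  have e : mfrW N t 0 k = (fun _ : ℍ => (t - 1 / 12 : ℂ)) * ((E₆ : ℍ → ℂ) * (E₆ : ℍ → ℂ)) +
      (E₄ : ℍ → ℂ) * (E₆ : ℍ → ℂ) * mfrP N 0 k := by
    funext τ
    simp only [mfrW, Pi.add_apply, Pi.mul_apply]
    ring
  rw [e]
  exact h

theorem mfr_qExp_const (c : ℂ) : qExpansion 1 (fun _ : ℍ => c) = PowerSeries.C c := by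
  have h := (qExpHom : HPB →ₐ[ℂ] PowerSeries ℂ).commutes c
  rw [qExpHom_apply] at h
  exact h

theorem mfr_qExp_mfrW (N : ℕ) [NeZero N] (t : ℂ) (k : ℤ) (hk : ¬ (N : ℤ) ∣ k) :
    qExpansion 1 (mfrW N t 0 k) =
      PowerSeries.C (t - 1 / 12) * hmC mfE6 ^ 2 +
        hmC eisenstein4 * hmC mfE6 *
          (PowerSeries.C (1 / 12 : ℂ) + mfrSeries (mfrUu N 0 k 0)) := by
  have hP := mfrP_zero_isHPB N k hk
  have hc : IsHPB (fun _ : ℍ => (t - 1 / 12 : ℂ)) := qring_isHPB_const _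
  have h66 := mfr_isHPB_E6.mul mfr_isHPB_E6
  have h46 := bridge_isHPB_E4.mul mfr_isHPB_E6
  have e : mfrW N t 0 k = (fun _ : ℍ => (t - 1 / 12 : ℂ)) * ((E₆ : ℍ → ℂ) * (E₆ : ℍ → ℂ)) +
      (E₄ : ℍ → ℂ) * (E₆ : ℍ → ℂ) * mfrP N 0 k := by
    funext τ
    simp only [mfrW, Pi.add_apply, Pi.mul_apply]
    ring
  rw [e, qExpansion_add (hc.mul h66).analyticAt (h46.mul hP).analyticAt,
    qExpansion_mul hc.analyticAt h66.analyticAt,
    qExpansion_mul mfr_isHPB_E6.analyticAt mfr_isHPB_E6.analyticAt,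
    qExpansion_mul h46.analyticAt hP.analyticAt,
    qExpansion_mul bridge_isHPB_E4.analyticAt mfr_isHPB_E6.analyticAt,
    mfr_qExp_const, mf_qExp_E6, hm_qExp_E4, mfrP_zero_qExpansion N k hk]
  ring

theorem mfr_not_dvd_of_mem {N : ℕ} {k : ℕ} (hk : k ∈ Finset.Ico 1 N) : ¬ (N : ℤ) ∣ (k : ℤ) :=
  fun h => mfr_not_dvd_zero hk ⟨dvd_zero _, h⟩

theorem mfrF_isHPB (N : ℕ) [NeZero N] (t : ℂ) : IsHPB (mfrF N t) :=
  (mfr_qExp_prod (Finset.Ico 1 N) (fun k => mfrW N t 0 (k : ℤ))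
    (fun k hk => mfrW_isHPB N t k (mfr_not_dvd_of_mem hk))).1

theorem mfrUu_eq_exp (N : ℕ) (k : ℕ) :
    mfrUu N 0 (k : ℤ) 0 = Complex.exp (2 * Real.pi * Complex.I * ((k : ℂ) / (N : ℂ))) := by
  unfold mfrUu
  congr 2
  push_cast
  ring

/-- **the `q`-expansion of the product** -/
theorem mfr_qExp_mfrF (N : ℕ) [NeZero N] (t : ℤ) :
    qExpansion 1 (mfrF N (t : ℂ)) = (hmC mfE6 ^ 2) ^ (N - 1) *
      ∏ k ∈ Finset.Ico 1 N, (hmC (mfrAt t) + hmC mfrBt *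
        mfrSeries (Complex.exp (2 * Real.pi * Complex.I * ((k : ℂ) / (N : ℂ))))) := by
  have h := (mfr_qExp_prod (Finset.Ico 1 N) (fun k => mfrW N (t : ℂ) 0 (k : ℤ))
    (fun k hk => mfrW_isHPB N t k (mfr_not_dvd_of_mem hk))).2
  have e : mfrF N (t : ℂ) = fun τ => ∏ k ∈ Finset.Ico 1 N, mfrW N (t : ℂ) 0 (k : ℤ) τ := rfl
  rw [e, h]
  have h2 : ∀ k ∈ Finset.Ico 1 N, qExpansion 1 (mfrW N (t : ℂ) 0 (k : ℤ)) =
      hmC mfE6 ^ 2 * (hmC (mfrAt t) + hmC mfrBt *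
        mfrSeries (Complex.exp (2 * Real.pi * Complex.I * ((k : ℂ) / (N : ℂ))))) := by
    intro k hk
    rw [mfr_qExp_mfrW N t k (mfr_not_dvd_of_mem hk), mfr_factor_eq, mfrUu_eq_exp]
  rw [Finset.prod_congr rfl h2, Finset.prod_mul_distrib, Finset.prod_const, Nat.card_Ico]

/-! ### Laurent expansions -/

theorem mfrA_mul (N : ℕ) (t : ℂ) :
    (fun z => mfrA N t z * Δ z ^ (N - 1)) = mfrF N t := by
  funext z
  simp only [mfrA]
  rw [div_mul_cancel₀ _ (pow_ne_zero _ (discriminant_ne_zero z))]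

theorem mfrBf_mul (N : ℕ) :
    (fun z => mfrBf N z * Δ z ^ (N - 1)) = fun z => (E₆ z ^ 2) ^ (N - 1) := by
  funext z
  simp only [mfrBf]
  rw [div_mul_cancel₀ _ (pow_ne_zero _ (discriminant_ne_zero z))]

theorem mfr_laurentOf_A (N : ℕ) [NeZero N] (t : ℂ) :
    laurentOf (mfrA N t) =
      HahnSeries.ofPowerSeries ℤ ℂ (qExpansion 1 (mfrF N t)) * (deltaL ^ (N - 1))⁻¹ := by
  have h : IsHPB (fun z => mfrA N t z * Δ z ^ (N - 1)) := by
    rw [mfrA_mul]; exact mfrF_isHPB N t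
  rw [laurentOf_eq h, mfrA_mul]

theorem mfr_isHPB_E6sq : IsHPB (fun z => (E₆ : ℍ → ℂ) z ^ 2) := bridge_isHPB_pow mfr_isHPB_E6 2

theorem mfr_laurentOf_B (N : ℕ) [NeZero N] :
    laurentOf (mfrBf N) =
      HahnSeries.ofPowerSeries ℤ ℂ ((hmC mfE6 ^ 2) ^ (N - 1)) * (deltaL ^ (N - 1))⁻¹ := by
  have h0 : IsHPB (fun z => (fun z => (E₆ : ℍ → ℂ) z ^ 2) z ^ (N - 1)) :=
    bridge_isHPB_pow mfr_isHPB_E6sq (N - 1)
  have h : IsHPB (fun z => mfrBf N z * Δ z ^ (N - 1)) := by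
    rw [mfrBf_mul]; exact h0
  rw [laurentOf_eq h, mfrBf_mul]
  have e1 := bridge_ofPowerSeries_pow mfr_isHPB_E6sq (N - 1)
  have e2 := bridge_ofPowerSeries_pow mfr_isHPB_E6 2
  rw [mf_qExp_E6] at e2
  rw [e1, e2, map_pow, map_pow]

theorem mfr_laurentOf_B_ne_zero (N : ℕ) [NeZero N] : laurentOf (mfrBf N) ≠ 0 := by
  rw [mfr_laurentOf_B]
  apply mul_ne_zero
  · intro h
    have h1 : (hmC mfE6 ^ 2) ^ (N - 1) = 0 :=
      HahnSeries.ofPowerSeries_injective (by rw [h, map_zero])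
    have h2 : hmC mfE6 = 0 := by
      by_cases hN : N - 1 = 0
      · rw [hN, pow_zero] at h1
        exact absurd h1 one_ne_zero
      · exact pow_eq_zero_iff (two_ne_zero) |>.mp (pow_eq_zero_iff hN |>.mp h1)
    have h3 := congrArg (PowerSeries.coeff 0) h2
    rw [hmC, PowerSeries.coeff_map, mfE6, PowerSeries.coeff_mk] at h3
    simp at h3
  · exact inv_ne_zero (pow_ne_zero _ deltaL_ne_zero)

/-- **the Laurent expansions of `a₀` and `b₀`** -/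
theorem mfr_laurent (N : ℕ) [NeZero N] (hN : N.Prime) (t : ℤ) :
    ∃ Y : PowerSeries ℤ,
      HahnSeries.C ((N : ℂ) ^ (2 * (N - 1))) * laurentOf (mfrA N (t : ℂ)) =
        HahnSeries.ofPowerSeries ℤ ℂ (hmC Y) * laurentOf (mfrBf N) ∧
      (t = 0 → PowerSeries.constantCoeff Y ^ 2 = ((N : ℤ) ^ (2 * (N - 2))) ^ 2) := by
  obtain ⟨Y, hY, hY0⟩ := stmtFrRat N hN (mfrAt t) mfrBt
  refine ⟨Y, ?_, ?_⟩
  · rw [mfr_laurentOf_A, mfr_laurentOf_B, mfr_qExp_mfrF]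
    have hY' : hmC Y = PowerSeries.C ((N : ℂ) ^ (2 * (N - 1))) *
        ∏ k ∈ Finset.Ico 1 N, (hmC (mfrAt t) + hmC mfrBt *
          mfrSeries (Complex.exp (2 * Real.pi * Complex.I * ((k : ℂ) / (N : ℂ))))) := hY
    rw [hY', map_mul, map_mul, HahnSeries.ofPowerSeries_C]
    ring
  · intro ht
    subst ht
    exact hY0 mfr_constantCoeff_At mfr_constantCoeff_Bt

end Fermat.Agent.S15
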