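import Fermat.Agent.S15.ModFrickeAn
import Fermat.Agent.S24.EtaExp
import Fermat.Agent.S23.QRing

/-!
# S15 / MOD-FRICKE (4): the `q`-expansion of `P_{0,k}`

* `mfrP_zero_hasSum` : `P_{0,k}(τ) - 1/12 = ∑_e coeff_e(S(ζ^k)) q^e`, `S = mfrSeries`;
* `mfrP_zero_isHPB`, `mfrP_zero_qExpansion`.
-/

set_option autoImplicit false

noncomputable section

namespace Fermat.Agent.S15

open UpperHalfPlane PeriodPair Complex Filter Topology
open Fermat.Agent.S23 Fermat.Agent.S24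
open scoped Real MatrixGroups Manifold

local notation "𝕢" => Function.Periodic.qParam

/-- `U(x) = ∑_{m ≥ 1} m x^m` -/
theorem mfr_hasSum_mfrU {x : ℂ} (hx : ‖x‖ < 1) :
    HasSum (fun m : ℕ+ => (m : ℂ) * x ^ (m : ℕ)) (mfrU x) := by
  have h := hasSum_coe_mul_geometric_of_norm_lt_one hx
  refine (Function.Injective.hasSum_iff (f := fun m : ℕ => (m : ℂ) * x ^ m)
    PNat.coe_injective ?_).mpr h
  intro m hm
  have hm0 : m = 0 := by
    by_contra h0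
    exact hm ⟨⟨m, Nat.pos_of_ne_zero h0⟩, rfl⟩
  simp [hm0]

/-- the coefficient function `b(m) = m (u^m + u^{-m} - 2)` -/
def mfrB (u : ℂ) (m : ℕ) : ℂ := (m : ℂ) * (u ^ m + (u⁻¹) ^ m - 2)

theorem norm_mfrB_le {u : ℂ} (hu : ‖u‖ = 1) (m : ℕ) : ‖mfrB u m‖ ≤ 4 * m := by
  unfold mfrB
  rw [norm_mul, Complex.norm_natCast, mul_comm]
  apply mul_le_mul_of_nonneg_right _ (Nat.cast_nonneg m)
  calc ‖u ^ m + (u⁻¹) ^ m - 2‖ ≤ ‖u ^ m + (u⁻¹) ^ m‖ + ‖(2 : ℂ)‖ := norm_sub_le _ _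
    _ ≤ ‖u ^ m‖ + ‖(u⁻¹) ^ m‖ + ‖(2 : ℂ)‖ := by gcongr; exact norm_add_le _ _
    _ = 4 := by
      rw [norm_pow, norm_pow, norm_inv, hu]
      norm_num

/-- Tate's general term as a power series in `q` -/
theorem mfr_hasSum_mfrTerm {q u : ℂ} (hq : ‖q‖ < 1) (hu : ‖u‖ = 1) (n : ℕ) :
    HasSum (fun m : ℕ+ => mfrB u m * q ^ ((n + 1) * (m : ℕ))) (mfrTerm q u n) := by
  have hqn : ‖q ^ (n + 1)‖ < 1 := by
    rw [norm_pow]; exact pow_lt_one₀ (norm_nonneg q) hq (by omega)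
  have h1 : ‖q ^ (n + 1) * u‖ < 1 := by rw [norm_mul, hu, mul_one]; exact hqn
  have h2 : ‖q ^ (n + 1) * u⁻¹‖ < 1 := by rw [norm_mul, norm_inv, hu, inv_one, mul_one]; exact hqn
  have e1 := mfr_hasSum_mfrU h1
  have e2 := mfr_hasSum_mfrU h2
  have e3 := (mfr_hasSum_mfrU hqn).mul_left 2
  have := (e1.add e2).sub e3
  unfold mfrTerm
  refine this.congr_fun ?_
  intro m
  unfold mfrB
  rw [pow_mul, mul_pow, mul_pow]
  ring

theorem mfr_summable_prod {q u : ℂ} (hq : ‖q‖ < 1) (hu : ‖u‖ = 1) :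
    Summable fun c : ℕ+ × ℕ+ => mfrB u c.2 * q ^ (c.1 * c.2 : ℕ) := by
  have h := (summable_prod_mul_pow (𝕜 := ℝ) 1 (r := ‖q‖) (by simpa using hq)).mul_left 4
  refine Summable.of_norm_bounded h fun c => ?_
  rw [norm_mul, norm_pow]
  have := norm_mfrB_le hu c.2
  calc ‖mfrB u c.2‖ * ‖q‖ ^ (c.1 * c.2 : ℕ) ≤ (4 * (c.2 : ℕ)) * ‖q‖ ^ (c.1 * c.2 : ℕ) := by
        apply mul_le_mul_of_nonneg_right this
        positivity
    _ = 4 * ((c.2 : ℝ) ^ 1 * ‖q‖ ^ (c.1 * c.2 : ℕ)) := by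
        rw [pow_one]; ring

/-- the divisor sum coefficient -/
def mfrC (u : ℂ) (e : ℕ) : ℂ := ∑ m ∈ e.divisors, mfrB u m

theorem mfr_sigma_term {q u : ℂ} (n : ℕ+) :
    ∑' x : Nat.divisorsAntidiagonal n,
      (fun c : ℕ+ × ℕ+ => mfrB u c.2 * q ^ (c.1 * c.2 : ℕ)) (sigmaAntidiagonalEquivProd ⟨n, x⟩) =
      mfrC u n * q ^ (n : ℕ) := by
  rw [tsum_fintype, Finset.univ_eq_attach]
  have h1 : ∀ x : Nat.divisorsAntidiagonal n,
      (fun c : ℕ+ × ℕ+ => mfrB u c.2 * q ^ (c.1 * c.2 : ℕ))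
        (sigmaAntidiagonalEquivProd ⟨n, x⟩) =
      (fun y : ℕ × ℕ => mfrB u y.2 * q ^ (y.1 * y.2)) x.1 := by
    intro x
    simp [sigmaAntidiagonalEquivProd, divisorsAntidiagonalFactors]
  simp_rw [h1]
  rw [(n : ℕ).divisorsAntidiagonal.sum_attach
    (fun y : ℕ × ℕ => mfrB u y.2 * q ^ (y.1 * y.2))]
  rw [Nat.sum_divisorsAntidiagonal (fun x y => mfrB u y * q ^ (x * y))]
  unfold mfrC
  rw [Finset.sum_mul, ← Nat.sum_div_divisors (n : ℕ) (fun m => mfrB u m * q ^ (n : ℕ))]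
  refine Finset.sum_congr rfl fun i hi => ?_
  rw [Nat.mul_div_cancel' (Nat.dvd_of_mem_divisors hi)]

/-- the rearranged series over `ℕ+` -/
theorem mfr_hasSum_pnat {q u : ℂ} (hq : ‖q‖ < 1) (hu : ‖u‖ = 1) :
    HasSum (fun e : ℕ+ => mfrC u e * q ^ (e : ℕ)) (∑' n : ℕ, mfrTerm q u n) := by
  have hs := mfr_summable_prod (u := u) hq hu
  have hs' : Summable fun x : (Σ n : ℕ+, Nat.divisorsAntidiagonal n) =>
      (fun c : ℕ+ × ℕ+ => mfrB u c.2 * q ^ (c.1 * c.2 : ℕ)) (sigmaAntidiagonalEquivProd x) :=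
    sigmaAntidiagonalEquivProd.summable_iff.mpr hs
  -- the total sum
  have htot : ∑' c : ℕ+ × ℕ+, mfrB u c.2 * q ^ (c.1 * c.2 : ℕ) = ∑' n : ℕ, mfrTerm q u n := by
    rw [hs.tsum_prod (f := fun c : ℕ+ × ℕ+ => mfrB u c.2 * q ^ (c.1 * c.2 : ℕ))]
    rw [tsum_pnat_eq_tsum_succ (f := fun d : ℕ => ∑' m : ℕ+, mfrB u m * q ^ (d * (m : ℕ)))]
    refine tsum_congr fun n => ?_
    exact (mfr_hasSum_mfrTerm hq hu n).tsum_eq
  have h3 := hs'.hasSum.sigma (fun n => (hs'.sigma_factor n).hasSum)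
  rw [sigmaAntidiagonalEquivProd.tsum_eq
    (fun c : ℕ+ × ℕ+ => mfrB u c.2 * q ^ (c.1 * c.2 : ℕ)), htot] at h3
  refine h3.congr_fun ?_
  intro n
  exact (mfr_sigma_term (q := q) (u := u) n).symm

/-- the rearranged series over `ℕ`, with the coefficients of `mfrSeries` -/
theorem mfr_hasSum_series {q u : ℂ} (hq : ‖q‖ < 1) (hu : ‖u‖ = 1) :
    HasSum (fun e : ℕ => PowerSeries.coeff e (mfrSeries u) * q ^ e)
      (mfrU u + ∑' n : ℕ, mfrTerm q u n) := by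
  have h1 : HasSum (fun e : ℕ => if e = 0 then mfrU u else 0) (mfrU u) := hasSum_ite_eq 0 (mfrU u)
  have h2 : HasSum (fun e : ℕ => if e = 0 then 0 else mfrC u e * q ^ e) (∑' n : ℕ, mfrTerm q u n) := by
    refine (Function.Injective.hasSum_iff
      (f := fun e : ℕ => if e = 0 then 0 else mfrC u e * q ^ e) PNat.coe_injective ?_).mp ?_
    · intro m hm
      have hm0 : m = 0 := by
        by_contra h0
        exact hm ⟨⟨m, Nat.pos_of_ne_zero h0⟩, rfl⟩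
      simp [hm0]
    · refine (mfr_hasSum_pnat hq hu).congr_fun ?_
      intro e
      simp only [Function.comp_apply]
      rw [if_neg e.pos.ne']
  refine (h1.add h2).congr_fun ?_
  intro e
  rw [mfrSeries, PowerSeries.coeff_mk]
  by_cases he : e = 0
  · subst he
    simp [mfrU]
  · rw [if_neg he, if_neg he, if_neg he, zero_add]
    rfl

theorem norm_mfrUu_zero (N : ℕ) (k : ℤ) (τ : ℂ) : ‖mfrUu N 0 k τ‖ = 1 := by
  rw [norm_mfrUu]
  simp

theorem mfrQ_eq_qParam (τ : ℍ) : mfrQ τ = 𝕢 1 τ := by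
  unfold mfrQ Function.Periodic.qParam
  congr 1
  simp

theorem norm_mfrQ_lt_one (τ : ℍ) : ‖mfrQ τ‖ < 1 := by
  rw [norm_mfrQ, Real.exp_lt_one_iff]
  have := τ.im_pos
  have hπ := Real.pi_pos
  have : 0 < 2 * π * (τ : ℂ).im := by
    have : (τ : ℂ).im = τ.im := rfl
    rw [this]; positivity
  linarith

/-- **the `q`-expansion of `P_{0,k}`** -/
theorem mfrP_zero_hasSum (N : ℕ) [NeZero N] (k : ℤ) (hk : ¬ (N : ℤ) ∣ k) (τ : ℍ) :
    HasSum (fun e : ℕ => PowerSeries.coeff e (mfrSeries (mfrUu N 0 k 0)) * 𝕢 1 τ ^ e)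
      (mfrP N 0 k τ - 1 / 12) := by
  have hab : ¬ ((N : ℤ) ∣ 0 ∧ (N : ℤ) ∣ k) := fun h => hk h.2
  have h := mfr_hasSum_series (norm_mfrQ_lt_one τ) (norm_mfrUu_zero N k 0)
  rw [← mfrUu_zero_const N k τ, (mfrP_hasSum N 0 k hab τ).tsum_eq, mfrQ_eq_qParam,
    mfrUu_zero_const N k τ] at h
  convert h using 1
  ring

end Fermat.Agent.S15

namespace Fermat.Agent.S15

open UpperHalfPlane PeriodPair Complex Filter Topology
open Fermat.Agent.S23 Fermat.Agent.S24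
open scoped Real MatrixGroups Manifold

local notation "𝕢" => Function.Periodic.qParam

theorem mfrQ_add_natCast (w : ℂ) (n : ℕ) : mfrQ (w + n) = mfrQ w := by
  unfold mfrQ
  have h : 2 * π * Complex.I * (w + n) = 2 * π * Complex.I * w + n * (2 * π * Complex.I) := by ring
  rw [h, Complex.exp_add, Complex.exp_nat_mul_two_pi_mul_I, mul_one]

theorem mfrTate_zero_add_one (N : ℕ) (k : ℤ) (w : ℂ) :
    mfrTate N 0 k (w + 1) = mfrTate N 0 k w := by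
  unfold mfrTate
  have h := mfrQ_add_natCast w 1
  rw [Nat.cast_one] at h
  rw [mfrUu_zero_const N k (w + 1), mfrUu_zero_const N k w, h]

/-- a function which is given on `ℍ` by a `1`-periodic function on `ℂ` -/
theorem mfr_periodic_of_eq {f : ℍ → ℂ} {g : ℂ → ℂ} (hfg : ∀ τ : ℍ, f τ = g τ)
    (hg : ∀ w : ℂ, g (w + 1) = g w) : Function.Periodic (f ∘ ofComplex) 1 := by
  intro w
  simp only [Function.comp_apply]
  by_cases hw : 0 < w.im
  · have hw1 : 0 < (w + 1).im := by simpa using hw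
    rw [ofComplex_apply_of_im_pos hw, ofComplex_apply_of_im_pos hw1, hfg, hfg]
    exact hg w
  · have hw1 : ¬ 0 < (w + 1).im := by simpa using hw
    rw [ofComplex_apply_of_im_nonpos (not_lt.mp hw), ofComplex_apply_of_im_nonpos (not_lt.mp hw1)]

theorem mfrP_zero_isHPB (N : ℕ) [NeZero N] (k : ℤ) (hk : ¬ (N : ℤ) ∣ k) :
    IsHPB (mfrP N 0 k) := by
  have hab : ¬ ((N : ℤ) ∣ 0 ∧ (N : ℤ) ∣ k) := fun h => hk h.2
  refine ⟨mfrP_mdiff N 0 k hab, ?_, mfrP_isBoundedAtImInfty N 0 k hab⟩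
  exact mfr_periodic_of_eq (fun τ => mfrP_eq_mfrTate N 0 k hab τ) (mfrTate_zero_add_one N k)

/-- the `q`-expansion of `P_{0,k}` is `1/12 + S(ζ^k)` -/
theorem mfrP_zero_qExpansion (N : ℕ) [NeZero N] (k : ℤ) (hk : ¬ (N : ℤ) ∣ k) :
    qExpansion 1 (mfrP N 0 k) =
      PowerSeries.C (1 / 12 : ℂ) + mfrSeries (mfrUu N 0 k 0) := by
  ext e
  refine qExpansion_coeff_unique_fun
    (c := fun e => PowerSeries.coeff e (PowerSeries.C (1 / 12 : ℂ) + mfrSeries (mfrUu N 0 k 0)))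
    one_pos (mfrP_zero_isHPB N k hk).analyticAt (fun τ => ?_) e
  have h1 : HasSum (fun e : ℕ => if e = 0 then (1 / 12 : ℂ) else 0) (1 / 12 : ℂ) :=
    hasSum_ite_eq 0 _
  have h2 := mfrP_zero_hasSum N k hk τ
  have h3 := h1.add h2
  have h4 : (1 / 12 : ℂ) + (mfrP N 0 k τ - 1 / 12) = mfrP N 0 k τ := by ring
  rw [h4] at h3
  refine h3.congr_fun ?_
  intro e
  rw [map_add, PowerSeries.coeff_C]
  by_cases he : e = 0
  · subst he
    simp
  · simp only [if_neg he]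
    ring

/-! ### the Fricke side: `τ ↦ P_{k,0}(N τ)` -/

theorem mfrTate_scale_add_one (N : ℕ) [NeZero N] (k : ℤ) (w : ℂ) :
    mfrTate N k 0 ((N : ℂ) * (w + 1)) = mfrTate N k 0 ((N : ℂ) * w) := by
  have hN : (N : ℂ) ≠ 0 := Nat.cast_ne_zero.mpr (NeZero.ne N)
  unfold mfrTate
  have h1 : mfrQ ((N : ℂ) * (w + 1)) = mfrQ ((N : ℂ) * w) := by
    have : (N : ℂ) * (w + 1) = (N : ℂ) * w + N := by ring
    rw [this, mfrQ_add_natCast]
  have h2 : mfrUu N k 0 ((N : ℂ) * (w + 1)) = mfrUu N k 0 ((N : ℂ) * w) := by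
    unfold mfrUu
    have : 2 * π * Complex.I * (((k : ℂ) * ((N : ℂ) * (w + 1)) + ((0 : ℤ) : ℂ)) / (N : ℂ)) =
        2 * π * Complex.I * (((k : ℂ) * ((N : ℂ) * w) + ((0 : ℤ) : ℂ)) / (N : ℂ)) +
          k * (2 * π * Complex.I) := by
      field_simp
      ring
    rw [this, Complex.exp_add, Complex.exp_int_mul_two_pi_mul_I, mul_one]
  rw [h1, h2]

theorem mfrP_scale_isHPB (N : ℕ) [NeZero N] (k : ℤ) (hk : ¬ (N : ℤ) ∣ k) :
    IsHPB (fun τ => mfrP N k 0 (scaleN N τ)) := by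
  have hab : ¬ ((N : ℤ) ∣ k ∧ (N : ℤ) ∣ 0) := fun h => hk h.1
  refine ⟨Fermat.Agent.S28.mdiff_comp_scaleN N (mfrP_mdiff N k 0 hab), ?_,
    (mfrP_isBoundedAtImInfty N k 0 hab).comp_tendsto (P7_tendsto_scaleN_atImInfty N)⟩
  refine mfr_periodic_of_eq (g := fun w => mfrTate N k 0 ((N : ℂ) * w)) (fun τ => ?_)
    (mfrTate_scale_add_one N k)
  rw [mfrP_eq_mfrTate N k 0 hab, coe_scaleN]

theorem mfrP_scale_tendsto (N : ℕ) [NeZero N] (k : ℤ) (hk0 : 0 < k) (hkN : k < N) :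
    Tendsto (fun τ => mfrP N k 0 (scaleN N τ)) atImInfty (𝓝 (1 / 12)) :=
  (mfrP_tendsto N k 0 hk0 hkN).comp (P7_tendsto_scaleN_atImInfty N)

end Fermat.Agent.S15
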