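import Fermat.Agent.S15.ModAsmPlan
import Fermat.Agent.S15.ModAdd
import Fermat.Agent.S15.ModAsmE
import Fermat.Agent.S15.ModAsmP

/-!
# S15 / MOD — the output (sub-captain helper51)

`stmtModC_of_fricke : StmtModFricke → StmtModC` : the rational place of `(E, ⟨Q⟩)` on `X₀(p)`,
with `j(x) = j(E)` and `Π₀(x) = ∏_{k=1}^{p-1} ξ°(k•Q)`, and the reduction statement at the primes
of multiplicative reduction.  The only open input is MOD-FRICKE (the Fricke products are rational
modular functions).

Pieces: MOD-XI, MOD-UNIF, MOD-ASM-E (helper13), MOD-TATE, MOD-G0 (helper56),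
MOD-PLACE, MOD-ASM-P (helper8), MOD-ADD (helper51).
-/

set_option autoImplicit false

noncomputable section

namespace Fermat.Agent.S15

/-- **MOD**, up to MOD-FRICKE. -/
theorem stmtModC_of_fricke (hF : StmtModFricke) : StmtModC :=
  stmtModC_of (stmtModAsmE_of stmtModAdd) (stmtModAsmP_of hF)

end Fermat.Agent.S15
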