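import Fermat.Agent.S24.LocFinite
import Fermat.Agent.S24.GaloisCount
import Fermat.Agent.S24.Bridge
import Fermat.Agent.S24.Fixed
import Fermat.Agent.S24.Places
import Fermat.Agent.S24.Transc
import Fermat.Agent.S24.Stab
import Fermat.Agent.ES.HModular

/-!
# S15 / MOD-PLACE (helper8): the place of `F_N = FF N` at an algebraic point `τ₀ ∈ ℍ`

`τ₀ ∈ ℍ` with `J(τ₀) = ι c₀`, `c₀ ∈ ℚ̄` (`ι = embC`).

* `modPlaceMan N τ₀ c₀ h : Place ℚ̄ (Man N)` — the place "order at `τ₀`" of the analytic model;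
* `modPlace N τ₀ c₀ h : Place ℚ̄ (FF N)` — its restriction along `phi N : FF N → Man N`;
* `modVal x f : ℚ̄` — the value of `f` at a place `x` (residue class, junk `0` at poles);
* `modplace_val_*` — `ι (modVal x f) = f^an(τ₀)`;
* `modplace_fibre` — every place over `j = c₀` is `modPlace N (γ • τ₀)` for some `γ ∈ SL₂(ℤ)`;
* `modVal_galAct`, `modplace_galAct` — the Galois action.
-/

set_option autoImplicit false
set_option linter.unusedSectionVars false
set_option linter.style.haveILetI false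

noncomputable section

open UpperHalfPlane AlgebraicCurve ModularCurve IntermediateField
open scoped MatrixGroups Manifold

namespace Fermat.Agent.S15

open Fermat.Agent.S24

attribute [local instance] algKbC

variable (N : ℕ) [NeZero N]

/-! ### The place of the analytic model at `τ₀` -/

/-- `J - c₀` as an element of `Ban N`. -/
def modJSub (c₀ : Kb) : Ban N := jBan N - algebraMap Kb (Ban N) c₀

theorem modJSub_apply (c₀ : Kb) (τ : ℍ) : (modJSub N c₀ : ℍ → ℂ) τ = Jfun τ - embC c₀ := rfl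

theorem modJSub_ne_zero (c₀ : Kb) : modJSub N c₀ ≠ 0 := by
  intro h
  obtain ⟨τ, hτ⟩ := Jfun_surjective (embC c₀ + 1)
  have h1 := congrArg (fun f : Ban N => (f : ℍ → ℂ) τ) h
  simp only [modJSub_apply, hτ] at h1
  have h2 : ((0 : Ban N) : ℍ → ℂ) τ = 0 := rfl
  rw [h2] at h1
  simp at h1

theorem modplace_ordBan_pos_iff {τ₀ : ℍ} {f : Ban N} (hf : f ≠ 0) :
    0 < ordBan N τ₀ f ↔ (f : ℍ → ℂ) τ₀ = 0 := by
  have hmd : MDiff (f : ℍ → ℂ) := mdifferentiable_of_mem_Ban f.2
  have han := ordAt_analyticAt hmd τ₀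
  have hne : ordAt τ₀ (f : ℍ → ℂ) ≠ ⊤ := ordAt_ne_top hmd (Ban_coe_ne_zero hf) τ₀
  have h0 : ordAt τ₀ (f : ℍ → ℂ) ≠ 0 ↔ (f : ℍ → ℂ) τ₀ = 0 := by
    rw [ordAt, han.analyticOrderAt_ne_zero]
    simp
  rw [← h0, ordBan]
  constructor
  · intro h hz
    rw [hz] at h
    simp at h
  · intro h
    rcases Nat.eq_zero_or_pos (ordAt τ₀ (f : ℍ → ℂ)).toNat with hz | hz
    · exfalso
      rw [ENat.toNat_eq_zero] at hz
      rcases hz with hz | hz
      · exact h hz
      · exact hne hz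
    · exact hz

theorem modJSub_apply_self {τ₀ : ℍ} {c₀ : Kb} (h : Jfun τ₀ = embC c₀) :
    (modJSub N c₀ : ℍ → ℂ) τ₀ = 0 := by
  rw [modJSub_apply, h, sub_self]

/-- existence of the place of `Man N` at `τ₀` -/
theorem modplace_exists_Man (τ₀ : ℍ) (c₀ : Kb) (h : Jfun τ₀ = embC c₀) :
    ∃ (w : Place Kb (Man N)) (e₀ : ℤ), 0 < e₀ ∧
      w.toValuationSubring = (valMan N τ₀).valuationSubring ∧
      ∀ m : Man N, m ≠ 0 → vord (valMan N τ₀) m = e₀ * w.ord m := by
  have hx0 := modJSub_ne_zero N c₀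
  have hxM := algebraMap_Ban_Man_ne_zero hx0
  refine exists_place_of_valuation (K := Kb) (valMan N τ₀) (valMan_algebraMap_Kb_le_one τ₀)
    ⟨algebraMap (Ban N) (Man N) (modJSub N c₀), hxM, ?_⟩
  rw [lt_one_iff_vord_pos _ hxM, vord_valMan_algebraMap τ₀ hx0]
  exact_mod_cast (modplace_ordBan_pos_iff N hx0).2 (modJSub_apply_self N h)

/-- The place "order at `τ₀`" of the analytic model `Man N`. -/
def modPlaceMan (τ₀ : ℍ) (c₀ : Kb) (h : Jfun τ₀ = embC c₀) : Place Kb (Man N) :=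
  (modplace_exists_Man N τ₀ c₀ h).choose

variable {N}

section Man

variable {τ₀ : ℍ} {c₀ : Kb} (h : Jfun τ₀ = embC c₀)

theorem modPlaceMan_spec : ∃ e₀ : ℤ, 0 < e₀ ∧
    (modPlaceMan N τ₀ c₀ h).toValuationSubring = (valMan N τ₀).valuationSubring ∧
    ∀ m : Man N, m ≠ 0 → vord (valMan N τ₀) m = e₀ * (modPlaceMan N τ₀ c₀ h).ord m :=
  (modplace_exists_Man N τ₀ c₀ h).choose_spec

theorem mem_modPlaceMan_iff (m : Man N) :
    m ∈ (modPlaceMan N τ₀ c₀ h).toValuationSubring ↔ valMan N τ₀ m ≤ 1 := by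
  obtain ⟨e₀, _, h1, _⟩ := modPlaceMan_spec (N := N) h
  rw [h1, Valuation.mem_valuationSubring_iff]

theorem modPlaceMan_ord_nonneg_iff {m : Man N} (hm : m ≠ 0) :
    0 ≤ (modPlaceMan N τ₀ c₀ h).ord m ↔ 0 ≤ vord (valMan N τ₀) m := by
  obtain ⟨e₀, he₀, _, h2⟩ := modPlaceMan_spec (N := N) h
  rw [h2 m hm]
  constructor
  · intro h3
    exact mul_nonneg he₀.le h3
  · intro h3
    by_contra h4
    have := mul_neg_of_pos_of_neg he₀ (not_le.mp h4)
    omega

theorem modPlaceMan_ord_pos_iff {m : Man N} (hm : m ≠ 0) :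
    0 < (modPlaceMan N τ₀ c₀ h).ord m ↔ 0 < vord (valMan N τ₀) m := by
  obtain ⟨e₀, he₀, _, h2⟩ := modPlaceMan_spec (N := N) h
  rw [h2 m hm]
  constructor
  · intro h3
    exact mul_pos he₀ h3
  · intro h3
    by_contra h4
    have := mul_nonpos_of_nonneg_of_nonpos he₀.le (not_lt.mp h4)
    omega

/-- order of a holomorphic element: positive iff it vanishes at `τ₀` -/
theorem modPlaceMan_ord_algebraMap_pos_iff {a : Ban N} (ha : a ≠ 0) :
    0 < (modPlaceMan N τ₀ c₀ h).ord (algebraMap (Ban N) (Man N) a) ↔ (a : ℍ → ℂ) τ₀ = 0 := by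
  rw [modPlaceMan_ord_pos_iff h (algebraMap_Ban_Man_ne_zero ha), vord_valMan_algebraMap τ₀ ha,
    ← modplace_ordBan_pos_iff N ha]
  exact_mod_cast Iff.rfl

theorem modPlaceMan_ord_algebraMap_nonneg (a : Ban N) :
    0 ≤ (modPlaceMan N τ₀ c₀ h).ord (algebraMap (Ban N) (Man N) a) := by
  rcases eq_or_ne a 0 with rfl | ha
  · simp
  rw [modPlaceMan_ord_nonneg_iff h (algebraMap_Ban_Man_ne_zero ha), vord_valMan_algebraMap τ₀ ha]
  exact_mod_cast Nat.zero_le _

theorem modPlaceMan_ord_algebraMap_eq_zero {a : Ban N} (ha : (a : ℍ → ℂ) τ₀ ≠ 0) :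
    (modPlaceMan N τ₀ c₀ h).ord (algebraMap (Ban N) (Man N) a) = 0 := by
  have ha0 : a ≠ 0 := by
    rintro rfl
    exact ha rfl
  have h1 := modPlaceMan_ord_algebraMap_nonneg h a
  have h2 := (modPlaceMan_ord_algebraMap_pos_iff h ha0).not.2 ha
  omega

theorem modPlaceMan_ord_jSub_pos :
    0 < (modPlaceMan N τ₀ c₀ h).ord (jMan N - algebraMap Kb (Man N) c₀) := by
  rw [← algebraMap_jBan_sub]
  exact (modPlaceMan_ord_algebraMap_pos_iff h (modJSub_ne_zero N c₀)).2 (modJSub_apply_self N h)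

end Man

/-! ### The place of `F_N` at `τ₀` -/

variable (N)

theorem modplace_phi_jF_sub (c₀ : Kb) :
    phi N (jF N - algebraMap Kb (FF N) c₀) = jMan N - algebraMap Kb (Man N) c₀ := by
  rw [map_sub, phi_jF, AlgHom.commutes]

/-- **The place of `F_N` at the point `τ₀`**, `J(τ₀) = ι c₀`. -/
def modPlace (τ₀ : ℍ) (c₀ : Kb) (h : Jfun τ₀ = embC c₀) : Place Kb (FF N) :=
  comapPlace (phi N) (modPlaceMan N τ₀ c₀ h)
    ⟨jF N - algebraMap Kb (FF N) c₀, by
      rw [modplace_phi_jF_sub]; exact modPlaceMan_ord_jSub_pos h⟩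

variable {N}

section FF

variable {τ₀ : ℍ} {c₀ : Kb} (h : Jfun τ₀ = embC c₀)

theorem mem_modPlace_iff (f : FF N) :
    f ∈ (modPlace N τ₀ c₀ h).toValuationSubring ↔
      phi N f ∈ (modPlaceMan N τ₀ c₀ h).toValuationSubring := Iff.rfl

theorem modPlace_ord : ∃ e : ℤ, 0 < e ∧ ∀ f : FF N,
    (modPlaceMan N τ₀ c₀ h).ord (phi N f) = e * (modPlace N τ₀ c₀ h).ord f :=
  comapPlace_ord (phi N) (modPlaceMan N τ₀ c₀ h) _

theorem modPlace_ord_pos_iff (f : FF N) :
    0 < (modPlace N τ₀ c₀ h).ord f ↔ 0 < (modPlaceMan N τ₀ c₀ h).ord (phi N f) := by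
  obtain ⟨e, he, h1⟩ := modPlace_ord (N := N) h
  rw [h1 f]
  constructor
  · intro h3
    exact mul_pos he h3
  · intro h3
    by_contra h4
    have := mul_nonpos_of_nonneg_of_nonpos he.le (not_lt.mp h4)
    omega

theorem modPlace_ord_nonneg_iff (f : FF N) :
    0 ≤ (modPlace N τ₀ c₀ h).ord f ↔ 0 ≤ (modPlaceMan N τ₀ c₀ h).ord (phi N f) := by
  obtain ⟨e, he, h1⟩ := modPlace_ord (N := N) h
  rw [h1 f]
  constructor
  · intro h3
    exact mul_nonneg he.le h3
  · intro h3
    by_contra h4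
    have := mul_neg_of_pos_of_neg he (not_le.mp h4)
    omega

/-- the place `modPlace N τ₀ c₀ h` lies over `j = c₀` -/
theorem modPlace_ord_jF_sub_pos :
    0 < (modPlace N τ₀ c₀ h).ord (jF N - algebraMap Kb (FF N) c₀) := by
  rw [modPlace_ord_pos_iff, modplace_phi_jF_sub]
  exact modPlaceMan_ord_jSub_pos h

end FF

/-! ### Values at a place -/

section Val

variable (x : Place Kb (FF N))

/-- the residue field of a place of `F_N` is `ℚ̄` -/
def modResEquiv : Kb ≃+* x.ResidueField :=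
  RingEquiv.ofBijective (algebraMap Kb x.ResidueField)
    (Fermat.Agent.ES.H.residue_bijective_FF N x)

/-- the residue map `O_x → ℚ̄` -/
def modRes : x.toValuationSubring →+* Kb :=
  ((modResEquiv x).symm : x.ResidueField →+* Kb).comp (IsLocalRing.residue x.toValuationSubring)

theorem modRes_algebraMap (c : Kb) : modRes x (algebraMap Kb x.toValuationSubring c) = c := by
  show (modResEquiv x).symm (IsLocalRing.residue x.toValuationSubring
    (algebraMap Kb x.toValuationSubring c)) = c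
  rw [RingEquiv.symm_apply_eq]
  rfl

theorem modRes_eq_zero_iff (a : x.toValuationSubring) :
    modRes x a = 0 ↔ a ∈ IsLocalRing.maximalIdeal x.toValuationSubring := by
  show (modResEquiv x).symm (IsLocalRing.residue x.toValuationSubring a) = 0 ↔ _
  rw [map_eq_zero_iff _ (modResEquiv x).symm.injective, IsLocalRing.residue_eq_zero_iff]

theorem modRes_eq_zero_iff_nonunits (a : x.toValuationSubring) :
    modRes x a = 0 ↔ (a : FF N) ∈ x.toValuationSubring.nonunits := by
  rw [modRes_eq_zero_iff, ValuationSubring.mem_nonunits_iff_exists_mem_maximalIdeal]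
  constructor
  · intro h
    exact ⟨a.2, h⟩
  · rintro ⟨_, h⟩
    exact h

theorem modRes_eq_zero_iff_ord {a : x.toValuationSubring} (ha : a ≠ 0) :
    modRes x a = 0 ↔ 0 < x.ord (a : FF N) := by
  have ha' : (a : FF N) ≠ 0 := fun h0 => ha (Subtype.ext h0)
  rw [modRes_eq_zero_iff_nonunits, PlaceAux.ord_pos_iff_mem_nonunits x ha']

theorem modRes_eq_iff (a : x.toValuationSubring) (c : Kb) :
    modRes x a = c ↔
      (a : FF N) - algebraMap Kb (FF N) c ∈ x.toValuationSubring.nonunits := by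
  have h1 := modRes_eq_zero_iff_nonunits x (a - algebraMap Kb x.toValuationSubring c)
  rw [map_sub, modRes_algebraMap, sub_eq_zero] at h1
  exact h1

/-- the value of `f` at the place `x` (junk value `0` at a pole) -/
def modVal (f : FF N) : Kb :=
  open Classical in if hf : f ∈ x.toValuationSubring then modRes x ⟨f, hf⟩ else 0

theorem modVal_of_mem {f : FF N} (hf : f ∈ x.toValuationSubring) :
    modVal x f = modRes x ⟨f, hf⟩ := by
  classical
  exact dif_pos hf

theorem modVal_of_not_mem {f : FF N} (hf : f ∉ x.toValuationSubring) : modVal x f = 0 := by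
  classical
  exact dif_neg hf

theorem modVal_algebraMap (c : Kb) : modVal x (algebraMap Kb (FF N) c) = c := by
  rw [modVal_of_mem x (x.algebraMap_mem' c)]
  exact modRes_algebraMap x c

theorem modVal_add {f g : FF N} (hf : f ∈ x.toValuationSubring) (hg : g ∈ x.toValuationSubring) :
    modVal x (f + g) = modVal x f + modVal x g := by
  rw [modVal_of_mem x hf, modVal_of_mem x hg, modVal_of_mem x (x.toValuationSubring.add_mem _ _ hf hg),
    ← map_add]
  rfl

theorem modVal_mul {f g : FF N} (hf : f ∈ x.toValuationSubring) (hg : g ∈ x.toValuationSubring) :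
    modVal x (f * g) = modVal x f * modVal x g := by
  rw [modVal_of_mem x hf, modVal_of_mem x hg, modVal_of_mem x (x.toValuationSubring.mul_mem _ _ hf hg),
    ← map_mul]
  rfl

theorem modVal_neg {f : FF N} (hf : f ∈ x.toValuationSubring) :
    modVal x (-f) = -modVal x f := by
  rw [modVal_of_mem x hf, modVal_of_mem x (x.toValuationSubring.neg_mem _ hf), ← map_neg]
  rfl

theorem modVal_sub {f g : FF N} (hf : f ∈ x.toValuationSubring) (hg : g ∈ x.toValuationSubring) :
    modVal x (f - g) = modVal x f - modVal x g := by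
  rw [sub_eq_add_neg, modVal_add x hf (x.toValuationSubring.neg_mem _ hg), modVal_neg x hg,
    sub_eq_add_neg]

theorem modVal_eq_iff {f : FF N} (hf : f ∈ x.toValuationSubring) (c : Kb) :
    modVal x f = c ↔ f - algebraMap Kb (FF N) c ∈ x.toValuationSubring.nonunits := by
  rw [modVal_of_mem x hf]
  exact modRes_eq_iff x ⟨f, hf⟩ c

theorem modVal_sub_mem_nonunits {f : FF N} (hf : f ∈ x.toValuationSubring) :
    f - algebraMap Kb (FF N) (modVal x f) ∈ x.toValuationSubring.nonunits :=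
  (modVal_eq_iff x hf _).1 rfl

theorem modVal_eq_zero_iff {f : FF N} (hf : f ∈ x.toValuationSubring) (hf0 : f ≠ 0) :
    modVal x f = 0 ↔ 0 < x.ord f := by
  rw [modVal_eq_iff x hf, map_zero, sub_zero, PlaceAux.ord_pos_iff_mem_nonunits x hf0]

/-- the value at `x` is a unit iff the order is `0` -/
theorem modVal_ne_zero_iff {f : FF N} (hf : f ∈ x.toValuationSubring) (hf0 : f ≠ 0) :
    modVal x f ≠ 0 ↔ x.ord f = 0 := by
  rw [Ne, modVal_eq_zero_iff x hf hf0]
  have := (PlaceAux.ord_nonneg_iff x hf0).2 hf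
  omega

end Val

/-! ### Translation by `SL₂(ℤ)` -/

section Translate

theorem modplace_ordBan_actBan (τ₀ : ℍ) (γ : SL(2, ℤ)) (f : Ban N) :
    ordBan N τ₀ (actBan N γ f) = ordBan N (γ⁻¹ • τ₀) f := by
  have h1 : ((actBan N γ f : Ban N) : ℍ → ℂ) = fun τ => (f : ℍ → ℂ) (γ⁻¹ • τ) := rfl
  rw [ordBan, h1, ordAt_comp_smul]
  rfl

theorem modplace_valBan_actBan (τ₀ : ℍ) (γ : SL(2, ℤ)) (f : Ban N) :
    valBan N τ₀ (actBan N γ f) = valBan N (γ⁻¹ • τ₀) f := by
  rcases eq_or_ne f 0 with rfl | hf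
  · simp
  · have hf' : actBan N γ f ≠ 0 := by
      intro h
      apply hf
      have := congrArg (actBan N γ).symm h
      simpa using this
    rw [valBan_apply τ₀ hf', valBan_apply _ hf, modplace_ordBan_actBan]

theorem modplace_valMan_act (τ₀ : ℍ) (γ : SL(2, ℤ)) (m : Man N) :
    valMan N τ₀ (act N γ m) = valMan N (γ⁻¹ • τ₀) m := by
  obtain ⟨a, b, hb, rfl⟩ := IsFractionRing.div_surjective (A := Ban N) m
  simp only [map_div₀, act_algebraMap, valMan_algebraMap, modplace_valBan_actBan]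

variable {τ₀ : ℍ} {c₀ : Kb}

theorem modplace_Jfun_smul (h : Jfun τ₀ = embC c₀) (γ : SL(2, ℤ)) : Jfun (γ • τ₀) = embC c₀ := by
  rw [Jfun_smul_SL, h]

theorem modplace_act_phi_jF_sub (γ : SL(2, ℤ)) :
    act N γ (phi N (jF N - algebraMap Kb (FF N) c₀)) =
      phi N (jF N - algebraMap Kb (FF N) c₀) := by
  rw [modplace_phi_jF_sub, map_sub, act_jMan, AlgEquiv.commutes]

theorem modplace_hw (h : Jfun τ₀ = embC c₀) :
    0 < (modPlaceMan N τ₀ c₀ h).ord (phi N (jF N - algebraMap Kb (FF N) c₀)) := by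
  rw [modplace_phi_jF_sub]
  exact modPlaceMan_ord_jSub_pos h

/-- the `restrPlace` of S24 is the place at the translated point -/
theorem modplace_restrPlace_eq (h : Jfun τ₀ = embC c₀) (γ : SL(2, ℤ)) :
    restrPlace (phi N) (act N) (modPlaceMan N τ₀ c₀ h) (modplace_hw h)
        (modplace_act_phi_jF_sub (N := N)) γ =
      modPlace N (γ⁻¹ • τ₀) c₀ (modplace_Jfun_smul h γ⁻¹) := by
  apply Place.ext
  ext f
  rw [mem_restrPlace, mem_modPlace_iff, mem_modPlaceMan_iff, mem_modPlaceMan_iff,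
    modplace_valMan_act]

/-- **fibre.**  Every place of `F_N` over `j = c₀` is the place at `γ • τ₀` for some
`γ ∈ SL₂(ℤ)`. -/
theorem modplace_fibre (h : Jfun τ₀ = embC c₀) (y : Place Kb (FF N))
    (hy : 0 < y.ord (jF N - algebraMap Kb (FF N) c₀)) :
    ∃ γ : SL(2, ℤ), y = modPlace N (γ • τ₀) c₀ (modplace_Jfun_smul h γ) := by
  haveI : Finite (act N).range := finite_range_act N
  haveI hfd : FiniteDimensional Kb⟮jF N - algebraMap Kb (FF N) c₀⟯ (FF N) :=
    finiteDimensional_adjoin_jF_sub N c₀ (Fermat.Agent.ES.H.finiteDimensional_adjoin_jF N)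
  have hfixed : ∀ m : Man N, (∀ γ, act N γ m = m) → m ∈ Kb⟮phi N (jF N)⟯ := by
    intro m hm
    rw [phi_jF]
    exact fixed_mem_adjoin_jMan N m hm
  obtain ⟨g, hg⟩ := exists_restrPlace_eq (phi N) (act N) hfixed (modPlaceMan N τ₀ c₀ h)
    (jF_mem_adjoin_sub N c₀) (modplace_hw h) (modplace_act_phi_jF_sub (N := N))
    (fun v S hv hvS hS =>
      exists_ord_neg (jF N - algebraMap Kb (FF N) c₀) (transcendental_jF_sub N c₀) v S hv hvS hS)
    y hy
  refine ⟨g⁻¹, ?_⟩
  rw [← hg, modplace_restrPlace_eq h]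

/-- **invariance.**  The place at `δ • τ₀` is the place at `τ₀` for `δ ∈ Γ₀(N)`. -/
theorem modplace_smul_gamma0 (h : Jfun τ₀ = embC c₀) {δ : SL(2, ℤ)} (hδ : δ ∈ CongruenceSubgroup.Gamma0 N) :
    modPlace N (δ • τ₀) c₀ (modplace_Jfun_smul h δ) = modPlace N τ₀ c₀ h := by
  apply Place.ext
  ext f
  rw [mem_modPlace_iff, mem_modPlace_iff, mem_modPlaceMan_iff, mem_modPlaceMan_iff]
  have h1 := modplace_valMan_act (N := N) τ₀ δ⁻¹ (phi N f)
  rw [inv_inv] at h1
  rw [← h1]
  have h2 : act N δ⁻¹ (phi N f) = phi N f :=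
    (stab_iff_of_phi N (phi N) (phi_jdF N) δ⁻¹).2
      ((CongruenceSubgroup.Gamma0 N).inv_mem hδ) f
  rw [h2]

end Translate

end Fermat.Agent.S15
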