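import Fermat.Agent.S15.ModPlace
import Fermat.Agent.S15.ModPlan
import Fermat.Agent.S28.Bridge
import Fermat.Agent.S28.IntegralJd
import Fermat.Agent.ES.RC.FracField
import Fermat.Agent.ES.RC.PlacePt
import Fermat.Agent.ES.G2.SwapAnalytic

/-!
# S15 / MOD-PLACE (helper8), part 2: values of `f ∈ F_N` at the place at `τ₀`

Bridge between the two analytic frameworks: S24 (`Ban N`, `Man N`, `phi N`) and S28 / ES-RC
(`modFunAlg N`, `laurentOf`).

* `modAn N P` : the analytic function `P(J(dτ))_d` of a polynomial `P` over `ℚ̄`;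
  `modAn_isModFun`, `modAn_laurentOf`.
* `modplace_exists_rep` : every `f ∈ F_N` is `P(j_d) / Q(j_d)`.
* `modplace_isPlaceAt` : `IsPlaceAt N τ₀ (modPlace N τ₀ c₀ h)`.
-/

set_option autoImplicit false
set_option linter.unusedSectionVars false
set_option linter.style.haveILetI false

noncomputable section

open UpperHalfPlane AlgebraicCurve ModularCurve IntermediateField
open scoped MatrixGroups Manifold

namespace Fermat.Agent.S15

open Fermat.Agent.S24 Fermat.Agent.S28 Fermat.Agent.S23 Fermat.Agent.ES.RC Fermat.Agent.W1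
open Fermat.Agent.ES.G2

attribute [local instance] algKbC

variable (N : ℕ) [NeZero N]

/-! ### The analytic function of a polynomial in the `j(q^d)` -/

/-- the analytic function `P(J(dτ))_{d ∣ N}` -/
def modAn (P : MvPolynomial (Dv N) Kb) : ℍ → ℂ := MvPolynomial.aeval (R := Kb) (Jdfam N) P

theorem modAn_C (a : Kb) : modAn N (MvPolynomial.C a) = fun _ => embC a := by
  rw [modAn, MvPolynomial.aeval_C]
  rfl

theorem modAn_X (d : Dv N) : modAn N (MvPolynomial.X d) = Jd d.1 := by
  rw [modAn, MvPolynomial.aeval_X]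
  rfl

theorem modAn_add (P Q : MvPolynomial (Dv N) Kb) : modAn N (P + Q) = modAn N P + modAn N Q := by
  rw [modAn, map_add]
  rfl

theorem modAn_mul (P Q : MvPolynomial (Dv N) Kb) : modAn N (P * Q) = modAn N P * modAn N Q := by
  rw [modAn, map_mul]
  rfl

theorem modplace_Jd_eq (d : Dv N) :
    haveI : NeZero d.1 := ⟨fun h => NeZero.ne N (by have := d.2; rw [h] at this; simpa using this)⟩
    Jd d.1 = fun z => Jfun (scaleN d.1 z) := by
  haveI : NeZero d.1 := ⟨fun h => NeZero.ne N (by have := d.2; rw [h] at this; simpa using this)⟩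
  funext z
  exact swap_Jd_eq (NeZero.ne d.1) z (scaleN d.1 z) (coe_scaleN d.1 z)

theorem modplace_isModFun_Jd (d : Dv N) : IsModFun N (Jd d.1) := by
  haveI : NeZero d.1 := ⟨fun h => NeZero.ne N (by have := d.2; rw [h] at this; simpa using this)⟩
  rw [modplace_Jd_eq]
  exact rc_isModFun_Jfun_scaleN d.2

theorem modAn_isModFun (P : MvPolynomial (Dv N) Kb) : IsModFun N (modAn N P) := by
  induction P using MvPolynomial.induction_on with
  | C a => rw [modAn_C]; exact isModFun_const N _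
  | add p q hp hq => rw [modAn_add]; exact hp.add hq
  | mul_X p i hp => rw [modAn_mul, modAn_X]; exact hp.mul (modplace_isModFun_Jd N i)

theorem modplace_coeffMap_jBfam (d : Dv N) :
    coeffMap embC (jBfam N d) = laurentOf (Jd d.1) := by
  haveI : NeZero d.1 := ⟨fun h => NeZero.ne N (by have := d.2; rw [h] at this; simpa using this)⟩
  rw [modplace_Jd_eq, laurentOf_Jfun_scaleN]
  show coeffMap embC ((jdF N d.1 d.2 : FF N) : LaurentSeries Kb) = _
  rw [jdF_coe, ← jqModC_rat, ← intJd_eq, coeffEmb, coeffMap_intJd, coeffMap_intJd, intJd_eq]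
  rfl

theorem modAn_laurentOf (P : MvPolynomial (Dv N) Kb) :
    laurentOf (modAn N P) = coeffMap embC (MvPolynomial.aeval (jBfam N) P) := by
  induction P using MvPolynomial.induction_on with
  | C a =>
    rw [modAn_C, laurentOf_const, MvPolynomial.aeval_C, algebraMap_laurentSeries_eq_single,
      coeffMap_single]
    rfl
  | add p q hp hq =>
    rw [modAn_add, laurentOf_add (modAn_isModFun N p).isMerInf (modAn_isModFun N q).isMerInf,
      hp, hq, map_add, map_add]
  | mul_X p i hp =>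
    rw [modAn_mul, modAn_X, laurentOf_mul (modAn_isModFun N p).isMerInf
      (modplace_isModFun_Jd N i).isMerInf, hp, map_mul, map_mul, MvPolynomial.aeval_X,
      modplace_coeffMap_jBfam]

/-! ### Representation of the elements of `F_N` -/

theorem modplace_coe_aeval_jFfam (P : MvPolynomial (Dv N) Kb) :
    ((MvPolynomial.aeval (jFfam N) P : FF N) : LaurentSeries Kb) =
      MvPolynomial.aeval (jBfam N) P := by
  have h := MvPolynomial.comp_aeval_apply (jFfam N) (modularFunctionFieldBar N).val P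
  exact h

theorem modplace_phi_aeval (P : MvPolynomial (Dv N) Kb) :
    phi N (MvPolynomial.aeval (jFfam N) P) =
      algebraMap (Ban N) (Man N) (MvPolynomial.aeval (JdBanfam N) P) := by
  rw [← aeval_JdManfam]
  have h := MvPolynomial.comp_aeval_apply (jFfam N) (phi N) P
  rw [h]
  congr 2
  funext d
  exact phi_jdF N d.1 d.2

theorem modplace_coe_aeval_JdBanfam (P : MvPolynomial (Dv N) Kb) :
    ((MvPolynomial.aeval (JdBanfam N) P : Ban N) : ℍ → ℂ) = modAn N P :=
  coe_aeval_JdBanfam N P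

/-- every element of `F_N` is a quotient of polynomials in the `j(q^d)`, `d ∣ N` -/
theorem modplace_exists_rep (f : FF N) : ∃ P Q : MvPolynomial (Dv N) Kb,
    MvPolynomial.aeval (jFfam N) Q ≠ 0 ∧
      f * MvPolynomial.aeval (jFfam N) Q = MvPolynomial.aeval (jFfam N) P := by
  have hf : f ∈ (⊤ : IntermediateField Kb (FF N)) := IntermediateField.mem_top
  rw [FF_eq_adjoin_range, IntermediateField.mem_adjoin_range_iff] at hf
  obtain ⟨r, s, hrs⟩ := hf
  by_cases hs : MvPolynomial.aeval (jFfam N) s = 0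
  · refine ⟨0, 1, ?_, ?_⟩
    · rw [map_one]; exact one_ne_zero
    · rw [hrs, hs, div_zero, zero_mul, map_zero]
  · exact ⟨r, s, hs, by rw [hrs, div_mul_cancel₀ _ hs]⟩

/-! ### The comparison of two representations -/

variable {N}

/-- **bridge.**  If `f = P(j)/Q(j)` in `F_N` and `f = a / b` with `a`, `b` holomorphic modular
functions, then `P(J) · b = a · Q(J)` as functions on `ℍ`. -/
theorem modplace_bridge {f : FF N} {P Q : MvPolynomial (Dv N) Kb}
    (hPQ : f * MvPolynomial.aeval (jFfam N) Q = MvPolynomial.aeval (jFfam N) P)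
    {a b : ℍ → ℂ} (ha : IsModFun N a) (hb : IsModFun N b)
    (hab : coeffMap embC (f : LaurentSeries Kb) * laurentOf b = laurentOf a) :
    modAn N P * b = a * modAn N Q := by
  have hP := (modAn_isModFun N P).isMerInf
  have hQ := (modAn_isModFun N Q).isMerInf
  apply laurentOf_injective (hP.mul hb.isMerInf) (ha.isMerInf.mul hQ)
  rw [laurentOf_mul hP hb.isMerInf, laurentOf_mul ha.isMerInf hQ, modAn_laurentOf,
    modAn_laurentOf, ← modplace_coe_aeval_jFfam, ← modplace_coe_aeval_jFfam, ← hPQ, ← hab]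
  have : ((f * MvPolynomial.aeval (jFfam N) Q : FF N) : LaurentSeries Kb) =
      (f : LaurentSeries Kb) * ((MvPolynomial.aeval (jFfam N) Q : FF N) : LaurentSeries Kb) := rfl
  rw [this, map_mul]
  ring

/-! ### `IsPlaceAt` -/

theorem modplace_ordAt_ne_zero_iff {f : ℍ → ℂ} (hf : MDiff f) (τ₀ : ℍ) :
    ordAt τ₀ f ≠ 0 ↔ f τ₀ = 0 := by
  have han := ordAt_analyticAt hf τ₀
  rw [ordAt, han.analyticOrderAt_ne_zero]
  simp

theorem modplace_ordAt_eq_zero {f : ℍ → ℂ} (hf : MDiff f) {τ₀ : ℍ} (h : f τ₀ ≠ 0) :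
    ordAt τ₀ f = 0 := by
  by_contra h1
  exact h ((modplace_ordAt_ne_zero_iff hf τ₀).1 h1)

/-- **values.**  The place `modPlace N τ₀ c₀ h` is the place of `F_N` at the point `τ₀`. -/
theorem modplace_isPlaceAt {τ₀ : ℍ} {c₀ : Kb} (h : Jfun τ₀ = embC c₀) :
    IsPlaceAt N τ₀ (modPlace N τ₀ c₀ h) := by
  intro f a b hab hb c hc
  show f - algebraMap Kb (FF N) c ∈ (modPlace N τ₀ c₀ h).toValuationSubring.nonunits
  set g : FF N := f - algebraMap Kb (FF N) c with hg
  rcases eq_or_ne g 0 with h0 | h0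
  · rw [h0]
    exact (modPlace N τ₀ c₀ h).toValuationSubring.nonunits.zero_mem
  obtain ⟨P, Q, hQ, hPQ⟩ := modplace_exists_rep N g
  -- the analytic numerator of `g`
  have hc' : IsModFun N (fun _ : ℍ => embC c) := isModFun_const N _
  have ha' : IsModFun N ((a : ℍ → ℂ) - (fun _ : ℍ => embC c) * (b : ℍ → ℂ)) :=
    a.2.sub (hc'.mul b.2)
  have hab' : coeffMap embC (g : LaurentSeries Kb) * laurentOf (b : ℍ → ℂ) =
      laurentOf ((a : ℍ → ℂ) - (fun _ : ℍ => embC c) * (b : ℍ → ℂ)) := by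
    have e1 : ((g : FF N) : LaurentSeries Kb) =
        (f : LaurentSeries Kb) - algebraMap Kb (LaurentSeries Kb) c := rfl
    have e2 : (a : ℍ → ℂ) - (fun _ : ℍ => embC c) * (b : ℍ → ℂ) =
        (a : ℍ → ℂ) + (fun _ : ℍ => -embC c) * (b : ℍ → ℂ) := by
      funext z
      simp only [Pi.sub_apply, Pi.mul_apply, Pi.add_apply]
      ring
    rw [e2, laurentOf_add a.2.isMerInf ((isModFun_const N _).isMerInf.mul b.2.isMerInf),
      laurentOf_mul (isModFun_const N _).isMerInf b.2.isMerInf, laurentOf_const, e1, map_sub,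
      sub_mul, hab, algebraMap_laurentSeries_eq_single, coeffMap_single, map_neg]
    have : (HahnSeries.single 0 (embC c) : LaurentSeries ℂ) = HahnSeries.C (embC c) := rfl
    rw [this]
    ring
  have key := modplace_bridge hPQ ha' b.2 hab'
  -- the algebraic numerator and denominator
  have hP0 : MvPolynomial.aeval (jFfam N) P ≠ 0 := by
    rw [← hPQ]
    exact mul_ne_zero h0 hQ
  set A : Ban N := MvPolynomial.aeval (JdBanfam N) P with hA
  set B : Ban N := MvPolynomial.aeval (JdBanfam N) Q with hB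
  have hAM : algebraMap (Ban N) (Man N) A ≠ 0 := by
    rw [← modplace_phi_aeval]
    exact (map_ne_zero (phi N)).2 hP0
  have hBM : algebraMap (Ban N) (Man N) B ≠ 0 := by
    rw [← modplace_phi_aeval]
    exact (map_ne_zero (phi N)).2 hQ
  have hA0 : A ≠ 0 := fun h1 => hAM (by rw [h1, map_zero])
  have hB0 : B ≠ 0 := fun h1 => hBM (by rw [h1, map_zero])
  have hphi : phi N g = algebraMap (Ban N) (Man N) A / algebraMap (Ban N) (Man N) B := by
    rw [eq_div_iff hBM, ← modplace_phi_aeval, ← modplace_phi_aeval, ← map_mul, hPQ]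
  have hg0 : phi N g ≠ 0 := (map_ne_zero (phi N)).2 h0
  rw [← PlaceAux.ord_pos_iff_mem_nonunits _ h0, modPlace_ord_pos_iff,
    modPlaceMan_ord_pos_iff h hg0, hphi, vord_valMan_div τ₀ hA0 hB0]
  -- orders of the analytic functions
  have hAd : MDiff (A : ℍ → ℂ) := mdifferentiable_of_mem_Ban A.2
  have hBd : MDiff (B : ℍ → ℂ) := mdifferentiable_of_mem_Ban B.2
  have hbd : MDiff (b : ℍ → ℂ) := rc_mdiff_of_isModFun b.2
  have ha'd := rc_mdiff_of_isModFun ha'
  have hkey : (A : ℍ → ℂ) * (b : ℍ → ℂ) =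
      ((a : ℍ → ℂ) - (fun _ : ℍ => embC c) * (b : ℍ → ℂ)) * (B : ℍ → ℂ) := by
    rw [hA, hB, modplace_coe_aeval_JdBanfam, modplace_coe_aeval_JdBanfam]
    exact key
  have hord := congrArg (ordAt τ₀) hkey
  rw [ordAt_mul hAd hbd, ordAt_mul ha'd hBd, modplace_ordAt_eq_zero hbd hb, add_zero] at hord
  have hA1 := coe_ordBan τ₀ hA0
  have hB1 := coe_ordBan τ₀ hB0
  have ha1 : ordAt τ₀ ((a : ℍ → ℂ) - (fun _ : ℍ => embC c) * (b : ℍ → ℂ)) ≠ 0 := by
    rw [modplace_ordAt_ne_zero_iff ha'd]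
    simp only [Pi.sub_apply, Pi.mul_apply]
    rw [hc, sub_self]
  rw [← hA1, ← hB1] at hord
  have h1 : 1 ≤ ordAt τ₀ ((a : ℍ → ℂ) - (fun _ : ℍ => embC c) * (b : ℍ → ℂ)) :=
    Order.one_le_iff_ne_zero.2 ha1
  have h2 : ((ordBan N τ₀ B : ℕ) : ℕ∞) + 1 ≤ (ordBan N τ₀ A : ℕ) := by
    rw [hord, add_comm]
    exact add_le_add_left h1 _
  have h3 : ordBan N τ₀ B + 1 ≤ ordBan N τ₀ A := by exact_mod_cast h2
  omega

/-! ### The statement `MOD-PLACE` -/

theorem modPlace_congr {τ τ' : ℍ} {c₀ : Kb} (h : Jfun τ = embC c₀) (h' : Jfun τ' = embC c₀)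
    (e : τ = τ') : modPlace N τ c₀ h = modPlace N τ' c₀ h' := by
  subst e
  rfl

theorem modplace_hasValueAt_jF_iff (y : Place Kb (FF N)) (c₀ : Kb) :
    HasValueAt y (jF N) c₀ ↔ 0 < y.ord (jF N - algebraMap Kb (FF N) c₀) :=
  (PlaceAux.ord_pos_iff_mem_nonunits y (jF_sub_ne_zero N c₀)).symm

/-- `HasValueAt` is `modVal` -/
theorem modplace_hasValueAt_iff (x : Place Kb (FF N)) (f : FF N) (c : Kb) :
    HasValueAt x f c ↔ f ∈ x.toValuationSubring ∧ modVal x f = c := by
  constructor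
  · intro h
    have hf : f ∈ x.toValuationSubring := by
      have h1 : f - algebraMap Kb (FF N) c ∈ x.toValuationSubring :=
        (ValuationSubring.mem_nonunits_iff_exists_mem_maximalIdeal.1 h).1
      have h2 := x.toValuationSubring.add_mem _ _ h1 (x.algebraMap_mem' c)
      rwa [sub_add_cancel] at h2
    exact ⟨hf, (modVal_eq_iff x hf c).2 h⟩
  · rintro ⟨hf, h⟩
    exact (modVal_eq_iff x hf c).1 h

/-- **MOD-PLACE** (form agreed with the sub-captain, 20:36Z): the canonical places `X γ` at the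
points `γ • τ` of the fibre of `j` over `j₀ = J(τ)`. -/
def StmtModPlaceX : Prop :=
  ∀ (N : ℕ) [NeZero N] (τ : ℍ) (j₀ : Kb), Jfun τ = embC j₀ →
    ∃ X : SL(2, ℤ) → Place Kb (FF N),
      (∀ γ, IsPlaceAt N (γ • τ) (X γ)) ∧
      (∀ γ δ, δ ∈ CongruenceSubgroup.Gamma0 N → X (δ * γ) = X γ) ∧
      ∀ y : Place Kb (FF N), HasValueAt y (jF N) j₀ → ∃ γ, y = X γ

/-- **MOD-PLACE.** -/
theorem stmtModPlaceX : StmtModPlaceX := by
  intro N _ τ j₀ h
  refine ⟨fun γ => modPlace N (γ • τ) j₀ (modplace_Jfun_smul h γ), ?_, ?_, ?_⟩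
  · intro γ
    exact modplace_isPlaceAt _
  · intro γ δ hδ
    show modPlace N ((δ * γ) • τ) j₀ _ = modPlace N (γ • τ) j₀ _
    rw [modPlace_congr (modplace_Jfun_smul h (δ * γ))
      (modplace_Jfun_smul (modplace_Jfun_smul h γ) δ) (mul_smul δ γ τ)]
    exact modplace_smul_gamma0 (modplace_Jfun_smul h γ) hδ
  · intro y hy
    exact modplace_fibre h y ((modplace_hasValueAt_jF_iff y j₀).1 hy)

/-! ### The Galois action on values -/

/-- `f(x) = c ⇒ (σ f)(σ x) = σ c`. -/
theorem modplace_hasValueAt_galAct (σ : Kb ≃ₐ[ℚ] Kb) {x : Place Kb (FF N)} {f : FF N} {c : Kb}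
    (h : HasValueAt x f c) : HasValueAt (galAct N σ • x) (galAct N σ • f) (σ c) := by
  show galAct N σ • f - algebraMap Kb (FF N) (σ c) ∈ (galAct N σ • x).toValuationSubring.nonunits
  have e : galAct N σ • f - algebraMap Kb (FF N) (σ c) =
      galAct N σ • (f - algebraMap Kb (FF N) c) := by
    rw [smul_sub, galAct_algebraMap]
  rw [e]
  rcases eq_or_ne (f - algebraMap Kb (FF N) c) 0 with h0 | h0
  · rw [h0, smul_zero]
    exact (galAct N σ • x).toValuationSubring.nonunits.zero_mem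
  · rw [← PlaceAux.ord_pos_iff_mem_nonunits _ (galAct_smul_ne_zero σ h0),
      SemilinearAut.ord_smul]
    exact (PlaceAux.ord_pos_iff_mem_nonunits x h0).2 h

/-- for a rational function `f` and a rational value `c`: `f(x) = c ⇒ f(σ x) = c`. -/
theorem modplace_hasValueAt_galAct_of_fixed (σ : Kb ≃ₐ[ℚ] Kb) {x : Place Kb (FF N)} {f : FF N}
    {c : Kb} (hf : galAct N σ • f = f) (hc : σ c = c) (h : HasValueAt x f c) :
    HasValueAt (galAct N σ • x) f c := by
  have := modplace_hasValueAt_galAct σ h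
  rwa [hf, hc] at this

/-- `σ x` lies over `j = j₀` if `x` does and `j₀` is `σ`-fixed -/
theorem modplace_hasValueAt_jF_galAct (σ : Kb ≃ₐ[ℚ] Kb) {x : Place Kb (FF N)} {j₀ : Kb}
    (hc : σ j₀ = j₀) (h : HasValueAt x (jF N) j₀) : HasValueAt (galAct N σ • x) (jF N) j₀ := by
  refine modplace_hasValueAt_galAct_of_fixed σ ?_ hc h
  have := galAct_jdF (N := N) σ 1 (one_dvd N)
  rwa [jdF_one] at this

/-- uniqueness of values -/
theorem modplace_hasValueAt_unique {x : Place Kb (FF N)} {f : FF N} {c c' : Kb}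
    (h : HasValueAt x f c) (h' : HasValueAt x f c') : c = c' := by
  rw [modplace_hasValueAt_iff] at h h'
  rw [← h.2, ← h'.2]

end Fermat.Agent.S15
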