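import Fermat.Agent.S15.ModPlan
import Fermat.Agent.W1.GeoEval

/-!
# S15 / MOD-RED : the reduction criterion (`StmtModRed` of `S15/ModPlan.lean`)

Pure W1 (`W1/GeoEval.lean`: `stmtEval`, `hasValueAt_unique`).  `R` a reduction package with a good
function `t` (= `j`) such that `1 / (t - a)` is good for all `a ∈ A`, the poles of `t` being `P∞`
and `P₀`; `f ∈ O` with poles only over `t = a₁` (`a₁ ∈ A`), with a unit value at `P∞` and a zero at
`P₀`.  If `t(x) ∉ A` then `f(x) ∈ A`, and `x` reduces to `r(P∞)` if `f(x)` is a unit, to `r(P₀)` if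
not.

* `modred_no_common` : a place over `t = a` (`a ∈ A`) and a pole of `t` have different reductions.
* `modred_exists_pole` : a place `x` with `t(x) ∉ A` reduces to the reduction of a pole of `t`.
* `modred_abstract` : the criterion for an abstract package.
* `stmtModRed : StmtModRed`.
-/

set_option autoImplicit false
set_option synthInstance.maxHeartbeats 400000

noncomputable section

namespace Fermat.Agent.S15

open AlgebraicCurve ModularCurve Fermat.Agent.S24 Fermat.Agent.W1

section Abstract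

variable {K F k Fk : Type} [Field K] [Field F] [Algebra K F] [Field k] [Field Fk] [Algebra k Fk]
  {A : ValuationSubring K} {R : PRData K F k Fk A}

/-- a place over `t = a`, `a ∈ A`, and a pole of `t` have different reductions, if `t` and
`1 / (t - a)` are good functions -/
theorem modred_no_common (hR : R.IsPR) {t : F} (ht : R.GoodFn t) (a : A)
    (hta : R.GoodFn ((t - algebraMap K F (a : K))⁻¹)) (P P' : Place K F)
    (hP : P.ord t < 0) (hP' : HasValueAt P' t (a : K)) : R.r P' ≠ R.r P := by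
  intro heq
  obtain ⟨ht1, ht2⟩ := ht
  obtain ⟨hs1, hs2⟩ := hta
  have hne : t - algebraMap K F (a : K) ≠ 0 := by
    intro h0
    have h1 : t = algebraMap K F (a : K) := sub_eq_zero.mp h0
    rw [h1] at hP
    exact absurd (ge_ord_nonneg_of_mem P (P.algebraMap_mem' _)) (not_le.mpr hP)
  have hpole : P'.ord ((t - algebraMap K F (a : K))⁻¹) < 0 := by
    rw [Place.ord_inv]
    have h1 := (hasValueAt_iff_ord_pos P' hne).1 hP'
    omega
  have h1 := hs2 P' hpole
  have h2 := ht2 P hP
  rw [heq] at h1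
  have hmem : t - algebraMap K F (a : K) ∈ R.O := sub_mem ht1 (hR.algebraMap_mem a)
  have hprod : R.red ⟨t - algebraMap K F (a : K), hmem⟩ *
      R.red ⟨(t - algebraMap K F (a : K))⁻¹, hs1⟩ = 1 := by
    rw [← map_mul, ← map_one R.red]
    congr 1
    apply Subtype.ext
    exact mul_inv_cancel₀ hne
  have hsub : R.red ⟨t - algebraMap K F (a : K), hmem⟩ =
      R.red ⟨t, ht1⟩ - algebraMap k Fk (R.res a) := by
    rw [← hR.red_const a, ← map_sub]
    rfl
  have hnt : R.red ⟨t, ht1⟩ ∉ (R.r P).toValuationSubring := fun h =>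
    absurd (ge_ord_nonneg_of_mem (R.r P) h) (not_le.mpr h2)
  have hns : R.red ⟨(t - algebraMap K F (a : K))⁻¹, hs1⟩ ∉ (R.r P).toValuationSubring := fun h =>
    absurd (ge_ord_nonneg_of_mem (R.r P) h) (not_le.mpr h1)
  have hnd : R.red ⟨t, ht1⟩ - algebraMap k Fk (R.res a) ∉ (R.r P).toValuationSubring := by
    intro h
    apply hnt
    have h3 := add_mem h ((R.r P).algebraMap_mem' (R.res a))
    simpa using h3
  rw [hsub] at hprod
  have hinv : R.red ⟨(t - algebraMap K F (a : K))⁻¹, hs1⟩ =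
      (R.red ⟨t, ht1⟩ - algebraMap k Fk (R.res a))⁻¹ := eq_inv_of_mul_eq_one_right hprod
  rw [hinv] at hns
  exact hns (((R.r P).toValuationSubring.mem_or_inv_mem _).resolve_left hnd)

/-- a place at which the good function `t` takes a value outside `A` reduces to the reduction of a
pole of `t` -/
theorem modred_exists_pole (hR : R.IsPR) (g : ℕ) (hF : IsNiceCurve K F g)
    (hk : IsNiceCurve k Fk g) {t : F} (ht : R.GoodFn t) (x : Place K F) (j₀ : K)
    (hxj : HasValueAt x t j₀) (hj₀ : j₀ ∉ A) : ∃ P : Place K F, P.ord t < 0 ∧ R.r P = R.r x := by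
  by_contra hcon
  push Not at hcon
  obtain ⟨ht1, -⟩ := ht
  obtain ⟨a, ha, -⟩ := stmtEval K F k Fk A R g hR hF hk ⟨t, ht1⟩ x hcon
  have h1 : j₀ = (a : K) := hasValueAt_unique x hxj ha
  exact hj₀ (h1 ▸ a.2)

/-- **the reduction criterion, abstract form** -/
theorem modred_abstract (hR : R.IsPR) (g : ℕ) (hF : IsNiceCurve K F g)
    (hk : IsNiceCurve k Fk g) {t : F} (ht : R.GoodFn t) (a₁ : A)
    (hta : R.GoodFn ((t - algebraMap K F (a₁ : K))⁻¹))
    (Pinf Pzero : Place K F) (hpoles : ∀ P : Place K F, P.ord t < 0 → P = Pinf ∨ P = Pzero)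
    (f : F) (hf : f ∈ R.O) (hfpoles : ∀ P : Place K F, P.ord f < 0 → HasValueAt P t (a₁ : K))
    (c₀ : K) (hc₀ : HasValueAt Pinf f c₀) (hc₀u : c₀ ∉ A.nonunits)
    (hzero : 0 < Pzero.ord f)
    (x : Place K F) (j₀ c : K) (hxj : HasValueAt x t j₀) (hj₀ : j₀ ∉ A)
    (hxf : HasValueAt x f c) :
    c ∈ A ∧ (c ∉ A.nonunits → R.r x = R.r Pinf) ∧ (c ∈ A.nonunits → R.r x = R.r Pzero) := by
  -- no pole of `f` reduces to the reduction of a pole of `t`
  have hno : ∀ P : Place K F, P.ord t < 0 → ∀ P' : Place K F, P'.ord f < 0 → R.r P' ≠ R.r P :=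
    fun P hP P' hP' => modred_no_common hR ht a₁ hta P P' hP (hfpoles P' hP')
  obtain ⟨P, hP, hPx⟩ := modred_exists_pole hR g hF hk ht x j₀ hxj hj₀
  -- the value of `f` at `x`
  obtain ⟨a, hxa, hrxa⟩ := stmtEval K F k Fk A R g hR hF hk ⟨f, hf⟩ x
    (fun P' hP' => hPx ▸ hno P hP P' hP')
  have hca : c = (a : K) := hasValueAt_unique x hxf hxa
  refine ⟨hca ▸ a.2, ?_, ?_⟩
  · intro hcu
    rcases hpoles P hP with rfl | rfl
    · exact hPx.symm
    · exfalso
      -- `f` vanishes at `Pzero`, so `f̄` vanishes at `r x = r Pzero`, so `res c = 0`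
      have hf0 : f ≠ 0 := by
        rintro rfl
        rw [Place.ord_zero] at hzero
        exact lt_irrefl 0 hzero
      have hv0 : HasValueAt P f 0 := by
        unfold HasValueAt
        rw [map_zero, sub_zero]
        exact (PlaceAux.ord_pos_iff_mem_nonunits P hf0).1 hzero
      obtain ⟨a', h1, h2⟩ := stmtEval K F k Fk A R g hR hF hk ⟨f, hf⟩ P (hno P hP)
      have ha' : (0 : K) = (a' : K) := hasValueAt_unique P hv0 h1
      rw [hPx] at h2
      have hres : R.res a = R.res a' := hasValueAt_unique (R.r x) hrxa h2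
      have ha'0 : R.res a' = 0 := by
        rw [hR.res_eq_zero_iff, ← ha']
        exact ge_zero_mem_nonunits A
      rw [ha'0, hR.res_eq_zero_iff, ← hca] at hres
      exact hcu hres
  · intro hcn
    rcases hpoles P hP with rfl | rfl
    · exfalso
      obtain ⟨a', h1, h2⟩ := stmtEval K F k Fk A R g hR hF hk ⟨f, hf⟩ P (hno P hP)
      have ha' : c₀ = (a' : K) := hasValueAt_unique P hc₀ h1
      rw [hPx] at h2
      have hres : R.res a = R.res a' := hasValueAt_unique (R.r x) hrxa h2
      have ha0 : R.res a = 0 := by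
        rw [hR.res_eq_zero_iff, ← hca]
        exact hcn
      rw [ha0, eq_comm, hR.res_eq_zero_iff, ← ha'] at hres
      exact hc₀u hres
    · exact hPx.symm

end Abstract

/-- **MOD-RED.** -/
theorem stmtModRed : StmtModRed := by
  intro N _ _ A g R hM hgood hpoles f hf hfpoles hc hzero x j₀ c hxj hj₀ hxf
  obtain ⟨c₀, hc₀, -, hc₀u⟩ := hc
  have h1728 : (1728 : Kb) ∈ A := ofNat_mem A 1728
  exact modred_abstract hM.isPR g hM.nice hM.nice_k hM.good ⟨1728, h1728⟩ (hgood ⟨1728, h1728⟩)
    (cuspInf N) (cuspZero N) hpoles f hf hfpoles c₀ hc₀ hc₀u hzero x j₀ c hxj hj₀ hxf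

end Fermat.Agent.S15
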