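/-
Item 15 (Mazur chain), piece `MOD-XI` (helper13): `stmtModXi : StmtModXi` (interface of
`ModPlan.lean`), from `ModXi.lean`.
-/
import Fermat.Agent.S15.ModPlan
import Fermat.Agent.S15.ModXi

set_option autoImplicit false

namespace Fermat.Agent.S15

open WeierstrassCurve WeierstrassCurve.Affine

/-- **MOD-XI.** -/
theorem stmtModXi : StmtModXi := by
  intro W ℓ hℓ hℓΔ hℓc₄ A hA P n hn htors hP0
  rcases P with _ | ⟨x, y, h⟩
  · exact absurd rfl hP0
  · have hx : x ∈ A := modxi_mem_of_torsion hℓ hA hn h htors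
    have hle := modxi_val_le hℓ hA hℓΔ hℓc₄ hx
    refine ⟨x, y, h, rfl, hx, ?_, ?_⟩
    · exact (A.valuation_le_one_iff _).1 hle
    · have key := modxi_inZero_iff hℓ hA hℓΔ hℓc₄ h hx
      rw [ValuationSubring.mem_nonunits_iff, not_lt]
      exact ⟨fun hz => (key.1 hz).ge, fun h1 => key.2 (le_antisymm hle h1)⟩

end Fermat.Agent.S15
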