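import Fermat.Agent.S15.ModAsmE
import Fermat.Agent.S15.N3Plan

/-!
# S15 / N3-ASM-E2 — the curve side of MOD with the value of the modular unit (helper51)

`stmtModAsmE2_of : StmtModAdd → StmtN3EC → StmtModAsmE2`.

The proof of `stmtModAsmE_of` (helper13) with one more output: the rational number
`d = Δ(W)^{p-1} / (p¹² ∏_k ψ₂²(x(kQ))²)`.  No uniformisation of the `y`-coordinate is needed:
`η² = ψ₂²(x)` is a function of `x`, and `ψ₂²(x)² / Δ` is a universal function of `j` and `ξ°`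
(`n3_key_alg`), so `ψ₂²(x(θ z))² Δ(Λ) = ℘'(z)⁴ Δ(W)` follows from MOD-UNIF.
-/

set_option autoImplicit false
set_option linter.unusedSectionVars false
set_option synthInstance.maxHeartbeats 400000

noncomputable section

namespace Fermat.Agent.S15

open UpperHalfPlane PeriodPair WeierstrassCurve WeierstrassCurve.Affine
open Fermat.Agent.S24 Fermat.Agent.S05
open scoped MatrixGroups

/-- `ℚ̄` -/
local notation "Qb" => AlgebraicClosure ℚ

/-! ### Algebra -/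

section Alg

variable {K : Type*} [Field K] [CharZero K]

/-- `ψ₂²` in the short coordinate `X = x + b₂/12` -/
theorem n3Psi_short (W : WeierstrassCurve K) (x : K) :
    n3Psi W x = 4 * (x + W.b₂ / 12) ^ 3 - W.c₄ / 12 * (x + W.b₂ / 12) - W.c₆ / 216 := by
  simp only [n3Psi, WeierstrassCurve.c₄, WeierstrassCurve.c₆]
  ring

/-- `ξ°` in the short coordinate -/
theorem n3_modXi_short (W : WeierstrassCurve K) (h6 : W.c₆ ≠ 0) (x : K) :
    modXi W x * W.c₆ = W.c₄ * (x + W.b₂ / 12) + W.c₆ / 12 := by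
  unfold modXi
  rw [div_mul_cancel₀ _ h6]
  simp only [WeierstrassCurve.c₄, WeierstrassCurve.c₆]
  ring

/-- the universal identity: two curves `(c₄, c₆, Δ)`, `(12 G₂, 216 G₃, G₂³ - 27 G₃²)` with the
same `j` and points with the same `ξ°` have the same `ψ₂²(x)² / Δ`. -/
theorem n3_key_alg (c₄ c₆ Δ G₂ G₃ X P : K) (hc₄ : c₄ ≠ 0) (hG₃ : G₃ ≠ 0)
    (hrel : 1728 * Δ = c₄ ^ 3 - c₆ ^ 2)
    (hJ : c₄ ^ 3 * (G₂ ^ 3 - 27 * G₃ ^ 2) = 1728 * G₂ ^ 3 * Δ)
    (hξ : 18 * G₃ * c₄ * X = G₂ * c₆ * P) :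
    (4 * X ^ 3 - c₄ / 12 * X - c₆ / 216) ^ 2 * (G₂ ^ 3 - 27 * G₃ ^ 2) =
      (4 * P ^ 3 - G₂ * P - G₃) ^ 2 * Δ := by
  -- `c₆² G₂³ = 27 G₃² c₄³`
  have h4 : c₆ ^ 2 * G₂ ^ 3 = 27 * G₃ ^ 2 * c₄ ^ 3 := by
    linear_combination G₂ ^ 3 * hrel + hJ
  have h5 : (G₂ ^ 3 - 27 * G₃ ^ 2) * c₆ ^ 2 = 46656 * G₃ ^ 2 * Δ := by
    linear_combination (G₂ ^ 3 - 27 * G₃ ^ 2) * hrel + hJ
  have hG₂ : G₂ ≠ 0 := by
    rintro rfl
    have h : 27 * G₃ ^ 2 * c₄ ^ 3 = 0 := by rw [← h4]; ring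
    exact (mul_ne_zero (mul_ne_zero (by norm_num) (pow_ne_zero 2 hG₃)) (pow_ne_zero 3 hc₄)) h
  have h18 : 18 * G₃ * c₄ ≠ 0 := mul_ne_zero (mul_ne_zero (by norm_num) hG₃) hc₄
  obtain ⟨lam, hlam'⟩ : ∃ lam : K, lam * (18 * G₃ * c₄) = G₂ * c₆ :=
    ⟨G₂ * c₆ / (18 * G₃ * c₄), div_mul_cancel₀ _ h18⟩
  have hX : X = lam * P := by
    apply mul_left_cancel₀ h18
    linear_combination hξ - P * hlam'
  have ha : 12 * G₂ * lam ^ 2 = c₄ := by
    apply mul_left_cancel₀ (pow_ne_zero 2 h18)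
    linear_combination (12 * G₂ * (lam * (18 * G₃ * c₄) + G₂ * c₆)) * hlam' + 12 * h4
  have hb : 216 * G₃ * lam ^ 3 = c₆ := by
    apply mul_left_cancel₀ (mul_ne_zero h18 hG₂)
    linear_combination (324 * G₃ ^ 2 * c₄ * lam) * ha + (18 * G₃ * c₄) * hlam'
  have hc : (G₂ ^ 3 - 27 * G₃ ^ 2) * lam ^ 6 = Δ := by
    apply mul_left_cancel₀ (mul_ne_zero (by norm_num : (46656 : K) ≠ 0) (pow_ne_zero 2 hG₃))
    linear_combination ((G₂ ^ 3 - 27 * G₃ ^ 2) * (216 * G₃ * lam ^ 3 + c₆)) * hb + h5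
  have hψ : 4 * X ^ 3 - c₄ / 12 * X - c₆ / 216 = lam ^ 3 * (4 * P ^ 3 - G₂ * P - G₃) := by
    rw [hX, ← ha, ← hb]
    ring
  rw [hψ]
  linear_combination ((4 * P ^ 3 - G₂ * P - G₃) ^ 2) * hc

end Alg

/-! ### The analytic key -/

/-- MOD-UNIF for `ψ₂²`: if `x` is the `x`-coordinate of the point of `W` attached to `z`
(same `ξ°`) and `j(τ) = j(W)`, then `ψ₂²(x)² Δ(ℤτ + ℤ) = ℘'(z)⁴ Δ(W)`. -/
theorem n3_key (W : WeierstrassCurve ℂ) (hc₄ : W.c₄ ≠ 0) (hc₆ : W.c₆ ≠ 0) (τ : ℍ)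
    (hJ : Jfun τ * W.Δ = W.c₄ ^ 3) (hg₃ : (modLat τ).g₃ ≠ 0) {z : ℂ}
    (hz : z ∉ (modLat τ).lattice) {x : ℂ} (hxi : modXi W x = modXiAn τ z) :
    (n3Psi W x) ^ 2 * n3Disc (modLat τ) = (℘'[modLat τ] z) ^ 4 * W.Δ := by
  have hD := modunif_disc_ne_zero τ
  have hJτ := modunif_Jfun_tau τ
  have hode := (modLat τ).derivWeierstrassP_sq z hz
  have hshort := n3_modXi_short W hc₆ x
  rw [hxi] at hshort
  unfold modXiAn at hshort
  have h18 : (18 : ℂ) * (modLat τ).g₃ ≠ 0 := mul_ne_zero (by norm_num) hg₃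
  have hξ : 18 * (modLat τ).g₃ * W.c₄ * (x + W.b₂ / 12) =
      (modLat τ).g₂ * W.c₆ * ℘[modLat τ] z := by
    have h1 : (modLat τ).g₂ / (18 * (modLat τ).g₃) * (18 * (modLat τ).g₃) = (modLat τ).g₂ :=
      div_mul_cancel₀ _ h18
    linear_combination (-(18 * (modLat τ).g₃)) * hshort + (℘[modLat τ] z * W.c₆) * h1
  have hJ' : W.c₄ ^ 3 * ((modLat τ).g₂ ^ 3 - 27 * (modLat τ).g₃ ^ 2) =
      1728 * (modLat τ).g₂ ^ 3 * W.Δ := by
    linear_combination (-((modLat τ).g₂ ^ 3 - 27 * (modLat τ).g₃ ^ 2)) * hJ + W.Δ * hJτ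
  have hkey := n3_key_alg W.c₄ W.c₆ W.Δ (modLat τ).g₂ (modLat τ).g₃ (x + W.b₂ / 12)
    (℘[modLat τ] z) hc₄ hg₃ W.c_relation hJ' hξ
  rw [n3Psi_short, n3Disc, hkey, ← hode]
  ring

/-! ### The curve side -/

section Curve

variable {F : Type*} [Field F] [DecidableEq F]

/-- on the curve `ψ₂²(x) = (y - negY)²` -/
theorem n3Psi_eq_sq (W : WeierstrassCurve F) {x y : F} (h : W.toAffine.Equation x y) :
    n3Psi W x = (y - W.toAffine.negY x y) ^ 2 := by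
  rw [WeierstrassCurve.Affine.equation_iff] at h
  simp only [n3Psi, WeierstrassCurve.Affine.negY, WeierstrassCurve.b₂, WeierstrassCurve.b₄,
    WeierstrassCurve.b₆]
  linear_combination (-4 : F) * h

/-- a point at which `ψ₂²` vanishes is of order `2` -/
theorem n3Psi_add_self (W : WeierstrassCurve F) {x y : F} (h : W.toAffine.Nonsingular x y)
    (h0 : n3Psi W x = 0) :
    (Point.some x y h : W.toAffine.Point) + Point.some x y h = 0 := by
  rw [n3Psi_eq_sq W h.1] at h0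
  have h1 : y = W.toAffine.negY x y := sub_eq_zero.1 ((pow_eq_zero_iff (two_ne_zero)).1 h0)
  exact Point.add_self_of_Y_eq h1

end Curve

section Generic

variable {F K : Type*} [Field F] [Field K] [Algebra ℚ F] [Algebra ℚ K]

theorem n3Psi_map (W : WeierstrassCurve ℤ) (f : F →ₐ[ℚ] K) (x : F) :
    n3Psi ((W.map (Int.castRingHom ℚ)).baseChange K) (f x) =
      f (n3Psi ((W.map (Int.castRingHom ℚ)).baseChange F) x) := by
  simp only [n3Psi, WeierstrassCurve.baseChange, WeierstrassCurve.map_b₂,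
    WeierstrassCurve.map_b₄, WeierstrassCurve.map_b₆, eq_intCast, map_intCast, map_add,
    map_mul, map_pow, map_ofNat]

theorem n3Psi_mem_range (W : WeierstrassCurve ℤ) {x : K}
    (hx : x ∈ (algebraMap ℚ K).fieldRange) :
    n3Psi ((W.map (Int.castRingHom ℚ)).baseChange K) x ∈ (algebraMap ℚ K).fieldRange := by
  simp only [n3Psi, WeierstrassCurve.baseChange, WeierstrassCurve.map_b₂,
    WeierstrassCurve.map_b₄, WeierstrassCurve.map_b₆, eq_intCast, map_intCast]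
  have h4 : (4 : K) ∈ (algebraMap ℚ K).fieldRange := ⟨4, by simp⟩
  have h2 : (2 : K) ∈ (algebraMap ℚ K).fieldRange := ⟨2, by simp⟩
  exact add_mem (add_mem (add_mem (mul_mem h4 (pow_mem hx 3))
    (mul_mem (intCast_mem _ _) (pow_mem hx 2))) (mul_mem (mul_mem h2 (intCast_mem _ _)) hx))
    (intCast_mem _ _)

end Generic

variable {W : WeierstrassCurve ℤ} {p : ℕ}

/-- `ψ₂²` does not vanish at the multiples `k • Q`, `0 < k < p`, of a point of odd prime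
order `p`. -/
theorem n3Psi_ne_zero (hp : p.Prime) (hp5 : 5 ≤ p)
    (Q : ((W.map (Int.castRingHom ℚ))⁄Qb).Point) (hord : addOrderOf Q = p) {k : ℕ}
    (hk : k ∈ Finset.Ico 1 p) :
    n3Psi ((W.map (Int.castRingHom ℚ)).baseChange Qb) (modPtX (k • Q)) ≠ 0 := by
  obtain ⟨x, y, h, hkQ, -⟩ := modpi_exists_some Q hord hk
  rw [hkQ, modPtX_some]
  intro h0
  have h1 := n3Psi_add_self _ h h0
  rw [← hkQ, ← two_nsmul, ← mul_nsmul'] at h1
  have h2 := addOrderOf_dvd_of_nsmul_eq_zero h1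
  rw [hord] at h2
  rw [Finset.mem_Ico] at hk
  rcases (Nat.Prime.dvd_mul hp).1 h2 with h3 | h3
  · exact absurd (Nat.le_of_dvd (by omega) h3) (by omega)
  · exact absurd (Nat.le_of_dvd (by omega) h3) (by omega)

/-! ### The assembly -/

/-- **N3-ASM-E2.** -/
theorem stmtModAsmE2_of (hAdd : StmtModAdd) (hEC : StmtN3EC) : StmtModAsmE2 := by
  intro p hp hp5 W hΔ hmult Q hfix hord
  obtain ⟨ℓ, hℓ, hℓΔ, hℓc₄⟩ := hmult
  have hc₄ : W.c₄ ≠ 0 := fun h => hℓc₄ (h ▸ dvd_zero _)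
  have hc₆ : W.c₆ ≠ 0 := fun h => modxi_not_dvd_c₆ W hℓ hℓΔ hℓc₄ (h ▸ dvd_zero _)
  have hΔC : ((W.map (Int.castRingHom ℚ)).baseChange ℂ).Δ ≠ 0 := by
    rw [modasme_Δ]
    exact_mod_cast hΔ
  have hc₄C : ((W.map (Int.castRingHom ℚ)).baseChange ℂ).c₄ ≠ 0 := by
    rw [modasme_c₄]
    exact_mod_cast hc₄
  have hc₆C : ((W.map (Int.castRingHom ℚ)).baseChange ℂ).c₆ ≠ 0 := by
    rw [modasme_c₆]
    exact_mod_cast hc₆
  let QC : ((W.map (Int.castRingHom ℚ))⁄ℂ).Point := Point.map modasmeEmb Q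
  have hordC : addOrderOf QC = p := by
    rw [← hord]
    exact addOrderOf_injective (Point.map modasmeEmb) (Point.map_injective modasmeEmb) Q
  obtain ⟨τ, θ, hJ, hg₃, hker, hsurj, hθQ, hval⟩ :=
    stmtModUnif_of_add hAdd _ hΔC hc₄C hc₆C p hp.two_le QC hordC
  -- the multiples of `1/p` are not in the lattice
  have hnotk : ∀ k ∈ Finset.Ico 1 p, ((k : ℂ) / (p : ℂ)) ∉ (modLat τ).lattice := by
    intro k hk
    obtain ⟨x, y, h, hkQ, -⟩ := modpi_exists_some Q hord hk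
    have h1 : θ ((k : ℂ) / (p : ℂ)) = Point.map modasmeEmb (k • Q) := by
      rw [map_nsmul]
      have h2 : Point.map modasmeEmb Q = θ ((p : ℂ)⁻¹) := hθQ.symm
      rw [h2, ← map_nsmul]
      congr 1
      rw [nsmul_eq_mul, div_eq_mul_inv]
    rw [hkQ, Point.map_some] at h1
    intro hmem
    have h3 := (hker _).2 hmem
    rw [h1] at h3
    exact Point.some_ne_zero _ h3
  -- the values of `ξ°` at the multiples of `Q`
  have hkey : ∀ k ∈ Finset.Ico 1 p,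
      modXiAn τ ((k : ℂ) / (p : ℂ)) =
        embC (modXi ((W.map (Int.castRingHom ℚ)).baseChange Qb) (modPtX (k • Q))) := by
    intro k hk
    obtain ⟨x, y, h, hkQ, -⟩ := modpi_exists_some Q hord hk
    have h1 : θ ((k : ℂ) / (p : ℂ)) = Point.map modasmeEmb (k • Q) := by
      rw [map_nsmul]
      have h2 : Point.map modasmeEmb Q = θ ((p : ℂ)⁻¹) := hθQ.symm
      rw [h2, ← map_nsmul]
      congr 1
      rw [nsmul_eq_mul, div_eq_mul_inv]
    rw [hkQ, Point.map_some] at h1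
    obtain ⟨x', y', h', hθ', hxi⟩ := hval _ (hnotk k hk)
    rw [h1] at hθ'
    have hx : modasmeEmb x = x' := (Point.some.inj hθ').1
    rw [hkQ, modPtX_some, ← hxi, ← hx, modasme_xi]
    rfl
  -- the rational numbers `c t`
  have hcspec : ∀ t : ℤ, ∃ r : ℚ, algebraMap ℚ Qb r =
      modPiAlg ((W.map (Int.castRingHom ℚ)).baseChange Qb) Q p ((t : ℤ) : Qb) := by
    intro t
    obtain ⟨r, hr⟩ := modpi_rat Q hfix p (t : ℚ)
    refine ⟨r, ?_⟩
    rw [hr, map_intCast]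
  choose c hc using hcspec
  have hPi : ∀ t : ℤ, modPiAn p (t : ℂ) τ = embC (algebraMap ℚ Kb (c t)) := by
    intro t
    rw [hc t]
    unfold modPiAn modPiAlg
    rw [map_prod]
    refine Finset.prod_congr rfl fun k hk => ?_
    rw [map_sub, map_intCast, hkey k hk]
  have hJ' : Jfun τ = embC (algebraMap ℚ Kb ((W.c₄ : ℚ) ^ 3 / (W.Δ : ℚ))) := by
    rw [modasme_Δ, modasme_c₄] at hJ
    have hΔ' : ((W.Δ : ℤ) : ℂ) ≠ 0 := by exact_mod_cast hΔ
    rw [map_div₀, map_div₀, map_pow, map_pow, map_intCast, map_intCast, map_intCast,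
      map_intCast, eq_div_iff hΔ']
    exact hJ
  -- injectivity of `ξ°` modulo `±` and the lattice
  have hinj : ∀ z₁ z₂ : ℂ, z₁ ∉ (modLat τ).lattice → z₂ ∉ (modLat τ).lattice →
      modXiAn τ z₁ = modXiAn τ z₂ →
        z₁ - z₂ ∈ (modLat τ).lattice ∨ z₁ + z₂ ∈ (modLat τ).lattice := by
    intro z₁ z₂ hz₁ hz₂ hxi
    obtain ⟨x₁, y₁, h₁, hθ₁, hxi₁⟩ := hval z₁ hz₁
    obtain ⟨x₂, y₂, h₂, hθ₂, hxi₂⟩ := hval z₂ hz₂
    have hx : x₁ = x₂ := modXi_inj hc₄C hc₆C (by rw [hxi₁, hxi₂, hxi])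
    subst hx
    rcases Affine.Y_eq_of_X_eq h₁.1 h₂.1 rfl with hy | hy
    · left
      subst hy
      rw [← hker, map_sub, hθ₁, hθ₂]
      exact sub_self _
    · right
      rw [← hker, map_add, hθ₁, hθ₂]
      exact Point.add_of_Y_eq rfl hy
  -- the rational number `d`
  set S : Qb := ∏ k ∈ Finset.Ico 1 p,
    (n3Psi ((W.map (Int.castRingHom ℚ)).baseChange Qb) (modPtX (k • Q))) ^ 2 with hS
  have hS0 : S ≠ 0 :=
    Finset.prod_ne_zero_iff.2 fun k hk => pow_ne_zero 2 (n3Psi_ne_zero hp hp5 Q hord hk)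
  have hSmem : S ∈ (algebraMap ℚ Qb).fieldRange := by
    refine prod_mem fun k _ => pow_mem (n3Psi_mem_range W ?_) 2
    obtain ⟨r, hr⟩ := modpi_ptX_rat Q hfix k
    exact ⟨r, hr⟩
  have hp0 : (p : Qb) ≠ 0 := Nat.cast_ne_zero.2 hp.ne_zero
  have hΔQ : ((W.Δ : ℤ) : Qb) ≠ 0 := by exact_mod_cast hΔ
  have hDmem : ((W.Δ : ℤ) : Qb) ^ (p - 1) / ((p : Qb) ^ 12 * S) ∈
      (algebraMap ℚ Qb).fieldRange :=
    div_mem (pow_mem (intCast_mem _ _) _) (mul_mem (pow_mem (natCast_mem _ _) _) hSmem)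
  obtain ⟨d, hd⟩ := hDmem
  have hrelAlg : N3RelAlg p W Q d := by
    unfold N3RelAlg
    rw [hd, ← hS]
    field_simp
  have hd0 : d ≠ 0 := by
    rintro rfl
    rw [map_zero] at hd
    have := hd.symm
    rw [div_eq_zero_iff] at this
    rcases this with h | h
    · exact pow_ne_zero _ hΔQ h
    · exact mul_ne_zero (pow_ne_zero 12 hp0) hS0 h
  -- the analytic relation
  have hrel : N3Rel p τ (embC (algebraMap ℚ Kb d)) := by
    unfold N3Rel
    have hΔ' : ((W.Δ : ℤ) : ℂ) ≠ 0 := by exact_mod_cast hΔ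
    have hk1 : ∀ k ∈ Finset.Ico 1 p,
        (embC (n3Psi ((W.map (Int.castRingHom ℚ)).baseChange Qb) (modPtX (k • Q)))) ^ 2 *
            n3Disc (modLat τ) =
          (℘'[modLat τ] ((k : ℂ) / (p : ℂ))) ^ 4 * ((W.Δ : ℤ) : ℂ) := by
      intro k hk
      have hxi : modXi ((W.map (Int.castRingHom ℚ)).baseChange ℂ)
          (modasmeEmb (modPtX (k • Q))) = modXiAn τ ((k : ℂ) / (p : ℂ)) := by
        rw [modasme_xi, hkey k hk]
        rfl
      have h1 := n3_key _ hc₄C hc₆C τ hJ hg₃ (hnotk k hk) hxi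
      rw [n3Psi_map, modasme_Δ] at h1
      exact h1
    have hprod := Finset.prod_congr (rfl : Finset.Ico 1 p = Finset.Ico 1 p) hk1
    rw [Finset.prod_mul_distrib, Finset.prod_mul_distrib, Finset.prod_const, Finset.prod_const,
      Nat.card_Ico] at hprod
    have halg := congrArg embC hrelAlg
    rw [map_mul, map_mul, map_pow, map_natCast, map_prod, map_pow, map_intCast] at halg
    simp only [map_pow] at halg
    generalize (∏ k ∈ Finset.Ico 1 p, (℘'[modLat τ] ((k : ℂ) / (p : ℂ))) ^ 4) = PP at hprod ⊢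
    generalize (∏ k ∈ Finset.Ico 1 p,
      (embC (n3Psi ((W.map (Int.castRingHom ℚ)).baseChange Qb) (modPtX (k • Q)))) ^ 2) = PS
      at hprod halg
    apply mul_right_cancel₀ (pow_ne_zero (p - 1) hΔ')
    linear_combination (-(embC (algebraMap ℚ Kb d) * (p : ℂ) ^ 12)) * hprod +
      (n3Disc (modLat τ) ^ (p - 1)) * halg
  refine ⟨τ, (W.c₄ : ℚ) ^ 3 / (W.Δ : ℚ), c, d, hJ', ?_, hPi, ?_, ?_, hd0, hrel,
    hEC p hp hp5 W hΔ Q hfix hord d hrelAlg⟩
  · intro γ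
    rw [modg0_g₃]
    exact mul_ne_zero (pow_ne_zero 6 (modg0J_ne_zero γ τ)) hg₃
  · intro γ h
    exact modg0_main p hp.two_le τ γ hinj h
  · intro v hv hvp hvΔ hvc₄ A hA
    have hc0 : algebraMap ℚ Kb (c 0) =
        modPiAlg ((W.map (Int.castRingHom ℚ)).baseChange Qb) Q p 0 := by
      rw [hc 0, Int.cast_zero]
    refine ⟨?_, ?_, ?_⟩
    · intro hmem
      have h1 : A.valuation (algebraMap ℚ Kb ((W.c₄ : ℚ) ^ 3 / (W.Δ : ℚ))) ≤ 1 :=
        (A.valuation_le_one_iff _).2 hmem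
      have h2 : A.valuation ((W.Δ : ℤ) : Qb) < 1 :=
        (valuation_intCast_lt_one_iff A hv hA _).2 hvΔ
      have h3 : A.valuation ((W.c₄ : ℤ) : Qb) = 1 :=
        (valuation_intCast_eq_one_iff A hv hA _).2 hvc₄
      have hΔ' : ((W.Δ : ℤ) : Qb) ≠ 0 := by exact_mod_cast hΔ
      have h4 : algebraMap ℚ Kb ((W.c₄ : ℚ) ^ 3 / (W.Δ : ℚ)) * ((W.Δ : ℤ) : Qb) =
          ((W.c₄ : ℤ) : Qb) ^ 3 := by
        rw [map_div₀, map_pow, map_intCast, map_intCast, div_mul_cancel₀ _ hΔ']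
      have h5 := congrArg A.valuation h4
      rw [map_mul, map_pow, h3, one_pow] at h5
      have h6 : A.valuation (algebraMap ℚ Kb ((W.c₄ : ℚ) ^ 3 / (W.Δ : ℚ))) *
          A.valuation ((W.Δ : ℤ) : Qb) < 1 := by
        calc _ ≤ 1 * A.valuation ((W.Δ : ℤ) : Qb) := mul_le_mul' h1 le_rfl
          _ = A.valuation ((W.Δ : ℤ) : Qb) := one_mul _
          _ < 1 := h2
      rw [h5] at h6
      exact lt_irrefl _ h6
    · rw [hc0, ← A.valuation_le_one_iff]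
      exact modpi_val_le hp hv hvp hA hvΔ hvc₄ Q hord (t := 0) (zero_mem _)
    · rw [hc0, ValuationSubring.mem_nonunits_iff,
        modpi_val_lt_one_iff hp hv hvp hA hvΔ hvc₄ Q hord, not_not]

end Fermat.Agent.S15
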