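import Fermat.Agent.S15.ModAsmP
import Fermat.Agent.S15.N3Plan

/-!
# S15 / N3-ASM-P2 — the place side of MOD with the value of the modular unit (helper51)

`stmtModAsmP2_of : StmtModFricke → StmtN3F → StmtModAsmP2`: the proof of `stmtModAsmP_of`
(helper8) for the canonical place `modPlace N τ₀ a hJ`, which is a place at `τ₀`
(`modplace_isPlaceAt`), so `StmtN3F` gives the value of `oggU N` there.
-/

set_option autoImplicit false
set_option linter.unusedSectionVars false
set_option linter.style.haveILetI false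

noncomputable section

open UpperHalfPlane AlgebraicCurve ModularCurve IntermediateField
open scoped MatrixGroups Manifold

namespace Fermat.Agent.S15

open Fermat.Agent.S24 Fermat.Agent.S28 Fermat.Agent.S23 Fermat.Agent.ES.RC Fermat.Agent.W1
open Fermat.Agent.ES.G2 Fermat.Agent.ES.M

attribute [local instance] algKbC

/-- **N3-ASM-P2.** -/
theorem stmtModAsmP2_of (hF : StmtModFricke) (h3 : StmtN3F) : StmtModAsmP2 := by
  intro N _ hN hN5 τ₀ a c d hJ hg₃ hc hG0 hrel
  have hg0 : (modLat τ₀).g₃ ≠ 0 := by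
    have := hg₃ 1
    rwa [one_smul] at this
  set j₀ : Kb := algebraMap ℚ Kb a with hj₀
  set x : Place Kb (FF N) := modPlace N τ₀ j₀ hJ with hx
  have hvj : HasValueAt x (jF N) j₀ :=
    (modplace_hasValueAt_jF_iff x j₀).2 (modPlace_ord_jF_sub_pos hJ)
  refine ⟨x, ⟨?_, hvj, ?_⟩, ?_⟩
  · intro σ
    have hσj : σ j₀ = j₀ := σ.commutes a
    have hy := modplace_hasValueAt_jF_galAct σ hσj hvj
    obtain ⟨γ, hγ⟩ := modplace_fibre hJ (galAct N σ • x)
      ((modplace_hasValueAt_jF_iff _ j₀).1 hy)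
    have hmem : γ ∈ CongruenceSubgroup.Gamma0 N := by
      apply hG0 γ
      intro t
      obtain ⟨f, hf, hfix⟩ := hF N hN t
      have h1 : HasValueAt x f (algebraMap ℚ Kb (c t)) := modasmp_value hJ hf hg0 (hc t)
      have h2 : HasValueAt (galAct N σ • x) f (algebraMap ℚ Kb (c t)) :=
        modplace_hasValueAt_galAct_of_fixed σ (hfix σ) (σ.commutes (c t)) h1
      rw [hγ] at h2
      rw [modasmp_value_conv (modplace_Jfun_smul hJ γ) hf (hg₃ γ) h2, hc t]
    rw [hγ]
    exact modplace_smul_gamma0 hJ hmem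
  · intro f hf
    exact modasmp_value hJ hf hg0 (hc 0)
  · exact h3 N hN hN5 τ₀ j₀ hJ hg0 x (modplace_isPlaceAt hJ) (algebraMap ℚ Kb d) hrel

end Fermat.Agent.S15
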