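import Fermat.Agent.S15.N3EqVal
import Fermat.Agent.S15.OggUnit
import Fermat.Agent.W1.GeoEval

/-!
# S15 / N3-EQ (4): the modular equation of `g = N¹² · oggU N` in `F_N`, values at a place

* `n3eq_modEq` : `W(j, N¹² u_N) = 0` in `F_N` (`W = s36tuW N hN ∈ ℤ[j][X]`);
* `n3eq_value_eq` : a relation `Φ(f, g) = 0`, `Φ ∈ ℤ[Y][X]`, specialises to the values at a place;
* `n3eq_value` : `j(P) = a`, `u_N(P) = d` ⟹ `W(a, N¹² d) = 0` in `ℚ̄`;  `n3eq_value_rat` in `ℚ`;
* `n3eq_main` : **N3-EQ** — (MB) and (DICH) for the rational values `a = j(P)`, `d = u_N(P)` at the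
  level prime `N`.
-/

set_option autoImplicit false

noncomputable section

namespace Fermat.Agent.S15

open ModularCurve AlgebraicCurve Polynomial
open Fermat.Agent.S24 Fermat.Agent.S28 Fermat.Agent.ES.M Fermat.Agent.W1 Fermat.Agent.S36

/-- The modular equation of `g = N¹² u_N` over `ℤ[j]`, in `F_N`. -/
theorem n3eq_modEq (N : ℕ) [NeZero N] (hN : N.Prime) :
    (s36tuW N hN).eval₂ (evalInt (jF N)) (algebraMap Kb (FF N) ((N : Kb) ^ 12) * oggU N) = 0 := by
  apply Subtype.ext
  have h := map_eval₂_evalInt (algebraMap (FF N) (LaurentSeries Kb)) (s36tuW N hN) (jF N)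
    (algebraMap Kb (FF N) ((N : Kb) ^ 12) * oggU N)
  have e1 : algebraMap (FF N) (LaurentSeries Kb) (jF N) = jqModC Kb := by
    rw [← ogg_jBar_eq]; rfl
  have e2 : algebraMap (FF N) (LaurentSeries Kb) (algebraMap Kb (FF N) ((N : Kb) ^ 12) * oggU N) =
      HahnSeries.C ((N : Kb) ^ 12) * uS Kb N := by
    rw [map_mul]
    congr 1
    rw [← LaurentSeries.algebraMap_apply]
    rfl
  rw [e1, e2, s36tuW_series] at h
  exact h

section Value

variable {K F : Type} [Field K] [Field F] [Algebra K F]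

/-- A relation `Φ(f, g) = 0` with `Φ ∈ ℤ[Y][X]` specialises to the values at a place. -/
theorem n3eq_value_eq (P : Place K F) (Φ : Polynomial (Polynomial ℤ)) {f g : F} {a b : K}
    (hf : HasValueAt P f a) (hg : HasValueAt P g b) (h : Φ.eval₂ (evalInt f) g = 0) :
    Φ.eval₂ (evalInt a) b = 0 := by
  have haB : algebraMap K F a ∈ P.toValuationSubring := P.algebraMap_mem' a
  have hbB : algebraMap K F b ∈ P.toValuationSubring := P.algebraMap_mem' b
  unfold HasValueAt at hf hg
  rw [ValuationSubring.mem_nonunits_iff_exists_mem_maximalIdeal] at hf hg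
  obtain ⟨hf1, hf2⟩ := hf
  obtain ⟨hg1, hg2⟩ := hg
  have hfB : f ∈ P.toValuationSubring := by
    have := P.toValuationSubring.add_mem _ _ hf1 haB
    rwa [sub_add_cancel] at this
  have hgB : g ∈ P.toValuationSubring := by
    have := P.toValuationSubring.add_mem _ _ hg1 hbB
    rwa [sub_add_cancel] at this
  let res : P.toValuationSubring →+* IsLocalRing.ResidueField P.toValuationSubring :=
    IsLocalRing.residue P.toValuationSubring
  have rf : res ⟨f, hfB⟩ = res ⟨algebraMap K F a, haB⟩ := by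
    rw [← sub_eq_zero, ← map_sub]
    exact (IsLocalRing.residue_eq_zero_iff _).mpr hf2
  have rg : res ⟨g, hgB⟩ = res ⟨algebraMap K F b, hbB⟩ := by
    rw [← sub_eq_zero, ← map_sub]
    exact (IsLocalRing.residue_eq_zero_iff _).mpr hg2
  -- the relation in `B`
  have hB : Φ.eval₂ (evalInt (⟨f, hfB⟩ : P.toValuationSubring)) ⟨g, hgB⟩ = 0 := by
    apply Subtype.ext
    have := map_eval₂_evalInt P.toValuationSubring.subtype Φ (⟨f, hfB⟩ : P.toValuationSubring)
      ⟨g, hgB⟩
    exact this.trans h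
  have h1 := congrArg res hB
  rw [map_eval₂_evalInt, map_zero, rf, rg] at h1
  -- the constants
  let ι : K →+* P.toValuationSubring :=
    (algebraMap K F).codRestrict P.toValuationSubring.toSubring P.algebraMap_mem'
  have h2 := map_eval₂_evalInt (res.comp ι) Φ a b
  have e1 : (res.comp ι) a = res ⟨algebraMap K F a, haB⟩ := rfl
  have e2 : (res.comp ι) b = res ⟨algebraMap K F b, hbB⟩ := rfl
  rw [e1, e2, h1] at h2
  exact (map_eq_zero (res.comp ι)).mp h2

theorem n3eq_hasValueAt_const_mul (P : Place K F) (c : K) {g : F} {b : K}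
    (hg : HasValueAt P g b) : HasValueAt P (algebraMap K F c * g) (c * b) := by
  unfold HasValueAt at hg ⊢
  have e : algebraMap K F c * g - algebraMap K F (c * b) =
      algebraMap K F c * (g - algebraMap K F b) := by
    rw [map_mul]; ring
  rw [e]
  exact ge_nonunits_mul_mem (P.algebraMap_mem' c) hg

end Value

/-- `j(P) = a`, `u_N(P) = d` ⟹ `W(a, N¹² d) = 0`. -/
theorem n3eq_value (N : ℕ) [NeZero N] (hN : N.Prime) (P : Place Kb (FF N)) {a d : Kb}
    (ha : HasValueAt P (jF N) a) (hd : HasValueAt P (oggU N) d) :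
    (s36tuW N hN).eval₂ (evalInt a) ((N : Kb) ^ 12 * d) = 0 :=
  n3eq_value_eq P (s36tuW N hN) ha (n3eq_hasValueAt_const_mul P _ hd) (n3eq_modEq N hN)

/-- The same for rational values. -/
theorem n3eq_value_rat (N : ℕ) [NeZero N] (hN : N.Prime) (P : Place Kb (FF N)) {a d : ℚ}
    (ha : HasValueAt P (jF N) (algebraMap ℚ Kb a))
    (hd : HasValueAt P (oggU N) (algebraMap ℚ Kb d)) :
    (s36tuW N hN).eval₂ (evalInt a) ((N : ℚ) ^ 12 * d) = 0 := by
  have h := n3eq_value N hN P ha hd
  have h2 := map_eval₂_evalInt (algebraMap ℚ Kb) (s36tuW N hN) a ((N : ℚ) ^ 12 * d)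
  rw [map_mul, map_pow, map_natCast, h] at h2
  exact (map_eq_zero (algebraMap ℚ Kb)).mp h2

/-- **N3-EQ**: (MB) and (DICH) at the level prime `N` for the rational values `a = j(P)` and
`d = u_N(P)` (`g = N¹² d`, `v_N(g) = v_N(d) + 12`). -/
theorem n3eq_main (N : ℕ) [NeZero N] (hN : N.Prime) (P : Place Kb (FF N)) (a d : ℚ)
    (ha : HasValueAt P (jF N) (algebraMap ℚ Kb a))
    (hd : HasValueAt P (oggU N) (algebraMap ℚ Kb d)) :
    (0 ≤ padicValRat N a → -12 ≤ padicValRat N d ∧ padicValRat N d ≤ 0) ∧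
    (padicValRat N a < 0 →
      padicValRat N d = -(((N : ℤ) - 1) * padicValRat N a) ∨
      (N : ℤ) * (padicValRat N d + 12) = ((N : ℤ) - 1) * padicValRat N a) := by
  have : Fact N.Prime := ⟨hN⟩
  have hNQ : (N : ℚ) ≠ 0 := Nat.cast_ne_zero.mpr hN.ne_zero
  have h := n3eq_value_rat N hN P ha hd
  have hg : (N : ℚ) ^ 12 * d ≠ 0 := n3eq_root_ne_zero N hN h hNQ
  have hd0 : d ≠ 0 := right_ne_zero_of_mul hg
  have hvN : padicValRat N (N : ℚ) = 1 := padicValRat.self hN.one_lt
  have hv : padicValRat N ((N : ℚ) ^ 12 * d) = padicValRat N d + 12 := by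
    rw [padicValRat.mul (pow_ne_zero _ hNQ) hd0, padicValRat.pow, hvN]
    ring
  constructor
  · intro ha0
    have := n3eq_mb_padic N hN N h ha0
    rw [hv, hvN] at this
    constructor <;> omega
  · intro ha0
    have := n3eq_dich_padic N hN N h ha0
    rw [hv, hvN] at this
    rcases this with h1 | h1
    · right; exact h1
    · left; linarith

end Fermat.Agent.S15
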