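import Fermat.Agent.S15.N3Plan
import Fermat.Agent.S15.N3EqPlace

/-!
# S15 / N3-EQ: `stmtN3Eq : StmtN3Eq` (the interface of `N3Plan.lean`), from `n3eq_main`.
-/

set_option autoImplicit false

namespace Fermat.Agent.S15

/-- **N3-EQ**: the modular equation of `g = N¹² u_N` over `ℤ[j]` and its Newton polygon at `N`. -/
theorem stmtN3Eq : StmtN3Eq := by
  intro N _ hN P a d _ ha hd
  obtain ⟨h1, h2⟩ := n3eq_main N hN P a d ha hd
  exact ⟨fun h => (h1 h).2, h2⟩

end Fermat.Agent.S15
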