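import Fermat.Agent.S36.ThinUnitInt
import Fermat.Agent.ES.Kronecker
import Fermat.Agent.S28.Transfer

/-!
# S15 / N3-EQ (1): the coefficients of the modular equation of `g = N¹² Δ(Q^N)/Δ(Q)`

`N` a prime, `W = S36.s36tuW N hN ∈ ℤ[Y][X]` the monic polynomial of `X`-degree `N + 1` with
`W(N¹² u_N, j) = 0` and `W(u_N⁻¹, j(Q^N)) = 0`.  Over `K((Q))`, `K ∋ ζ` a primitive `N`-th root of
unity, the polynomial `W(X, j(Q^N))` has the `N + 1` distinct roots `N¹² u_N(Q^N)` (order
`N (N - 1)`) and `u_N⁻¹(ζ^b Q)`, `b < N` (order `1 - N`), hence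

* `n3eq_natDegree_coeff_le : 1 ≤ k → k ≤ N → (W.coeff k).natDegree ≤ N - k`;
* `n3eq_natDegree_coeff_one : (W.coeff 1).natDegree = N - 1`, with leading coefficient `± 1`;
* `n3eq_coeff_zero : W.coeff 0 = C (± N¹²)`.
-/

set_option autoImplicit false
set_option linter.unusedSectionVars false
set_option linter.style.haveILetI false

noncomputable section

namespace Fermat.Agent.S15

open ModularCurve Polynomial Fermat.Agent.S28 Fermat.Agent.ES Fermat.Agent.S36

/-! ### Scaling the roots of a product of linear factors -/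

section Scaling

variable {L : Type*} [CommRing L] [Nontrivial L]

/-- If `t r ∈ O` for every root `r`, then `t ^ i` times the coefficient of `X ^ k` of
`∏ (X - r)` lies in `O` whenever `i + k` is the number of roots. -/
theorem n3eq_coeff_prod_mem [DecidableEq L] (O : Subring L) (t : L) (s : Finset L)
    (hs : ∀ r ∈ s, t * r ∈ O) :
    ∀ i k : ℕ, i + k = s.card → t ^ i * (∏ r ∈ s, (X - C r)).coeff k ∈ O := by
  induction s using Finset.induction_on with
  | empty =>
    intro i k hik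
    have hi : i = 0 := by simpa using (Nat.add_eq_zero_iff.mp hik).1
    have hk : k = 0 := by simpa using (Nat.add_eq_zero_iff.mp hik).2
    subst hi hk
    simp only [Finset.prod_empty, pow_zero, one_mul, coeff_one_zero]
    exact O.one_mem
  | insert a s ha ih =>
    intro i k hik
    rw [Finset.card_insert_of_notMem ha] at hik
    rw [Finset.prod_insert ha]
    have ih' := ih (fun r hr => hs r (Finset.mem_insert_of_mem hr))
    have hta := hs a (Finset.mem_insert_self a s)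
    cases k with
    | zero =>
      rw [mul_coeff_zero]
      have h1 : (X - C a : L[X]).coeff 0 = -a := by simp
      rw [h1]
      obtain rfl : i = s.card + 1 := by omega
      have h2 := ih' s.card 0 (by omega)
      have e : t ^ (s.card + 1) * (-a * (∏ r ∈ s, (X - C r)).coeff 0) =
          -((t * a) * (t ^ s.card * (∏ r ∈ s, (X - C r)).coeff 0)) := by ring
      rw [e]
      exact O.neg_mem (O.mul_mem hta h2)
    | succ k =>
      rw [coeff_X_sub_C_mul, mul_sub]
      refine O.sub_mem (ih' i k (by omega)) ?_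
      cases i with
      | zero =>
        have hdeg : (∏ r ∈ s, (X - C r)).natDegree = s.card :=
          natDegree_finsetProd_X_sub_C_eq_card s (fun r => r)
        rw [coeff_eq_zero_of_natDegree_lt (by omega), mul_zero, mul_zero]
        exact O.zero_mem
      | succ i =>
        have h2 := ih' i (k + 1) (by omega)
        have e : t ^ (i + 1) * (a * (∏ r ∈ s, (X - C r)).coeff (k + 1)) =
            (t * a) * (t ^ i * (∏ r ∈ s, (X - C r)).coeff (k + 1)) := by ring
        rw [e]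
        exact O.mul_mem hta h2

end Scaling

/-! ### The ring of power series inside the Laurent series -/

section PowerSeries

variable (K : Type*) [Field K]

/-- The subring of Laurent series without polar part. -/
def n3eqO : Subring (LaurentSeries K) where
  carrier := {x | 0 ≤ x.orderTop}
  zero_mem' := by simp
  one_mem' := by
    show (0 : WithTop ℤ) ≤ (1 : LaurentSeries K).orderTop
    rw [HahnSeries.orderTop_one]
  add_mem' := by
    intro x y hx hy
    have hx' : (0 : WithTop ℤ) ≤ x.orderTop := hx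
    have hy' : (0 : WithTop ℤ) ≤ y.orderTop := hy
    show (0 : WithTop ℤ) ≤ (x + y).orderTop
    have h := HahnSeries.min_orderTop_le_orderTop_add (x := x) (y := y)
    rcases min_choice x.orderTop y.orderTop with h1 | h1
    · rw [h1] at h; exact le_trans hx' h
    · rw [h1] at h; exact le_trans hy' h
  neg_mem' := by
    intro x hx
    show (0 : WithTop ℤ) ≤ (-x).orderTop
    rw [HahnSeries.orderTop_neg]
    exact hx
  mul_mem' := by
    intro x y hx hy
    have hx' : (0 : WithTop ℤ) ≤ x.orderTop := hx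
    have hy' : (0 : WithTop ℤ) ≤ y.orderTop := hy
    show (0 : WithTop ℤ) ≤ (x * y).orderTop
    have h := HahnSeries.orderTop_add_le_mul (x := x) (y := y)
    have h2 : (0 : WithTop ℤ) ≤ x.orderTop + y.orderTop := add_nonneg hx' hy'
    exact le_trans h2 h

variable {K}

theorem n3eq_mem_O_iff {x : LaurentSeries K} : x ∈ n3eqO K ↔ (0 : WithTop ℤ) ≤ x.orderTop :=
  Iff.rfl

theorem n3eq_mem_O_of_order {x : LaurentSeries K} (hx : 0 ≤ x.order) : x ∈ n3eqO K :=
  HahnSeries.zero_le_orderTop_iff.mpr hx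

theorem n3eq_order_of_mem_O {x : LaurentSeries K} (hx : x ∈ n3eqO K) : 0 ≤ x.order :=
  HahnSeries.zero_le_orderTop_iff.mp hx

/-- `Q^m x ∈ O` gives `-m ≤ ord x` (for `x ≠ 0`). -/
theorem n3eq_order_ge_of_mul_mem {x : LaurentSeries K} (hx : x ≠ 0) {m : ℤ}
    (h : HahnSeries.single m (1 : K) * x ∈ n3eqO K) : -m ≤ x.order := by
  have h1 := n3eq_order_of_mem_O h
  have hs : (HahnSeries.single m (1 : K) : LaurentSeries K) ≠ 0 :=
    HahnSeries.single_ne_zero one_ne_zero
  rw [HahnSeries.order_mul hs hx, HahnSeries.order_single one_ne_zero] at h1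
  linarith

end PowerSeries

/-! ### The roots of `W(X, j(Q^N))` -/

section Roots

variable (K : Type*) [Field K] [CharZero K] (N : ℕ) [NeZero N] (hN : N.Prime)
  (ζ : Kˣ) (hζ : IsPrimitiveRoot ζ N)

/-- `j(Q^N)`. -/
def n3eqJN : LaurentSeries K := qExpand K N (jqModC K)

/-- `W(X, j(Q^N)) ∈ K((Q))[X]`. -/
def n3eqP : Polynomial (LaurentSeries K) := (s36tuW N hN).map (evalInt (n3eqJN K N))

/-- The root `N¹² u_N(Q^N)`. -/
def n3eqRInf : LaurentSeries K := qExpand K N (HahnSeries.C ((N : K) ^ 12) * uS K N)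

/-- The roots `u_N⁻¹(ζ^b Q)`. -/
def n3eqRb (b : ℕ) : LaurentSeries K := kronRot (ζ ^ b) (uInvS K N)

theorem n3eqP_monic : (n3eqP K N hN).Monic := (s36tuW_monic N hN).map _

theorem n3eqP_natDegree : (n3eqP K N hN).natDegree = N + 1 := by
  rw [n3eqP, (s36tuW_monic N hN).natDegree_map, s36tuW_natDegree]

theorem n3eqP_coeff (k : ℕ) :
    (n3eqP K N hN).coeff k = evalInt (n3eqJN K N) ((s36tuW N hN).coeff k) := by
  rw [n3eqP, coeff_map]

theorem n3eq_isRoot_rInf : (n3eqP K N hN).IsRoot (n3eqRInf K N) := by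
  rw [IsRoot, n3eqP, eval_map]
  have h := congrArg (qExpand K N) (s36tuW_series N hN K)
  rw [map_eval₂_evalInt, map_zero] at h
  exact h

include hζ in
theorem n3eq_kronRot_JN (b : ℕ) : kronRot (ζ ^ b) (n3eqJN K N) = n3eqJN K N := by
  rw [n3eqJN, qExpand_kronRot_pow, ← pow_mul, mul_comm, pow_mul, hζ.pow_eq_one, one_pow,
    kronRot_one]

include hζ in
theorem n3eq_isRoot_rb (b : ℕ) : (n3eqP K N hN).IsRoot (n3eqRb K N ζ b) := by
  rw [IsRoot, n3eqP, eval_map]
  have h := congrArg (kronRot (ζ ^ b)) (s36tuW_series' N hN K)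
  rw [map_eval₂_evalInt, map_zero] at h
  rw [← n3eqJN, n3eq_kronRot_JN K N ζ hζ b] at h
  exact h

/-! #### orders and leading coefficients -/

theorem n3eq_leadingCoeff_qExpand (x : LaurentSeries K) :
    (qExpand K N x).leadingCoeff = x.leadingCoeff := by
  rw [HahnSeries.leadingCoeff_eq, HahnSeries.leadingCoeff_eq, order_qExpand, qExpand_coeff_mul]

theorem n3eq_leadingCoeff_uS : (uS K N).leadingCoeff = 1 := by
  rw [uS_eq_qExpand_mul, HahnSeries.leadingCoeff_mul, n3eq_leadingCoeff_qExpand,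
    ← HahnSeries.leadingCoeff_mul, deltaS_mul_deltaInvS, HahnSeries.leadingCoeff_one]

theorem n3eq_leadingCoeff_uInvS : (uInvS K N).leadingCoeff = 1 := by
  have h := congrArg HahnSeries.leadingCoeff (uS_mul_uInvS K N)
  rw [HahnSeries.leadingCoeff_mul, n3eq_leadingCoeff_uS, one_mul,
    HahnSeries.leadingCoeff_one] at h
  exact h

theorem n3eq_coeff_uInvS : (uInvS K N).coeff (1 - (N : ℤ)) = 1 := by
  have h := n3eq_leadingCoeff_uInvS K N
  rw [HahnSeries.leadingCoeff_eq, order_uInvS] at h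
  exact h

theorem n3eq_kronRot_ne_zero (c : Kˣ) {f : LaurentSeries K} (hf : f ≠ 0) : kronRot c f ≠ 0 := by
  intro h
  apply HahnSeries.coeff_order_eq_zero.not.mpr hf
  have h1 := congrArg (fun z : LaurentSeries K => z.coeff f.order) h
  simp only [kronRot_coeff, HahnSeries.coeff_zero] at h1
  exact (Units.mul_right_eq_zero _).mp h1

theorem n3eq_order_kronRot (c : Kˣ) (f : LaurentSeries K) : (kronRot c f).order = f.order := by
  rcases eq_or_ne f 0 with rfl | hf
  · simp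
  have hk := n3eq_kronRot_ne_zero K c hf
  apply le_antisymm
  · apply HahnSeries.order_le_of_coeff_ne_zero
    rw [kronRot_coeff]
    exact fun h => HahnSeries.coeff_order_eq_zero.not.mpr hf ((Units.mul_right_eq_zero _).mp h)
  · apply HahnSeries.order_le_of_coeff_ne_zero
    have h1 := HahnSeries.coeff_order_eq_zero.not.mpr hk
    rw [kronRot_coeff] at h1
    exact fun h => h1 (by rw [h, mul_zero])

theorem n3eqRb_ne_zero (b : ℕ) : n3eqRb K N ζ b ≠ 0 :=
  n3eq_kronRot_ne_zero K _ (uInvS_ne_zero N K)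

theorem n3eqRb_order (b : ℕ) : (n3eqRb K N ζ b).order = 1 - (N : ℤ) := by
  rw [n3eqRb, n3eq_order_kronRot, order_uInvS]

include hζ in
theorem n3eqRb_coeff (b : ℕ) : (n3eqRb K N ζ b).coeff (1 - (N : ℤ)) = ((ζ ^ b : Kˣ) : K) := by
  rw [n3eqRb, kronRot_coeff, n3eq_coeff_uInvS, mul_one]
  congr 1
  rw [zpow_sub, zpow_one, zpow_natCast, ← pow_mul, mul_comm b N, pow_mul, hζ.pow_eq_one, one_pow,
    inv_one, mul_one]

include hζ in
theorem n3eqRb_leadingCoeff (b : ℕ) :
    (n3eqRb K N ζ b).leadingCoeff = ((ζ ^ b : Kˣ) : K) := by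
  rw [HahnSeries.leadingCoeff_eq, n3eqRb_order, n3eqRb_coeff K N ζ hζ]

theorem n3eqRInf_ne_zero : n3eqRInf K N ≠ 0 := by
  rw [n3eqRInf]
  refine qExpand_ne_zero (mul_ne_zero ?_ (uS_ne_zero N K))
  exact HahnSeries.C_ne_zero (pow_ne_zero _ (Nat.cast_ne_zero.mpr (NeZero.ne N)))

theorem n3eqRInf_order : (n3eqRInf K N).order = (N : ℤ) * ((N : ℤ) - 1) := by
  have hC : (HahnSeries.C ((N : K) ^ 12) : LaurentSeries K) ≠ 0 :=
    HahnSeries.C_ne_zero (pow_ne_zero _ (Nat.cast_ne_zero.mpr (NeZero.ne N)))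
  rw [n3eqRInf, order_qExpand, HahnSeries.order_mul hC (uS_ne_zero N K), HahnSeries.order_C,
    zero_add, order_uS]

theorem n3eqRInf_leadingCoeff : (n3eqRInf K N).leadingCoeff = (N : K) ^ 12 := by
  rw [n3eqRInf, n3eq_leadingCoeff_qExpand, HahnSeries.leadingCoeff_mul, n3eq_leadingCoeff_uS,
    mul_one, HahnSeries.C_apply, HahnSeries.leadingCoeff_of_single]

theorem n3eqRInf_mem : n3eqRInf K N ∈ n3eqO K := by
  apply n3eq_mem_O_of_order
  rw [n3eqRInf_order]
  have h1 : (1 : ℤ) ≤ N := by exact_mod_cast Nat.one_le_iff_ne_zero.mpr (NeZero.ne N)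
  nlinarith

include hN in
theorem n3eqRb_not_mem (b : ℕ) : n3eqRb K N ζ b ∉ n3eqO K := by
  intro h
  have h1 := n3eq_order_of_mem_O h
  rw [n3eqRb_order] at h1
  have h2 : (2 : ℤ) ≤ N := by exact_mod_cast hN.two_le
  omega

/-- `Q^{N-1}`. -/
def n3eqT : LaurentSeries K := HahnSeries.single ((N : ℤ) - 1) (1 : K)

theorem n3eqT_mem : n3eqT K N ∈ n3eqO K := by
  apply n3eq_mem_O_of_order
  rw [n3eqT, HahnSeries.order_single one_ne_zero]
  have h1 : (1 : ℤ) ≤ N := by exact_mod_cast Nat.one_le_iff_ne_zero.mpr (NeZero.ne N)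
  omega

theorem n3eqT_mul_rb_mem (b : ℕ) : n3eqT K N * n3eqRb K N ζ b ∈ n3eqO K := by
  apply n3eq_mem_O_of_order
  rw [n3eqT, HahnSeries.order_mul (HahnSeries.single_ne_zero one_ne_zero) (n3eqRb_ne_zero K N ζ b),
    HahnSeries.order_single one_ne_zero, n3eqRb_order]
  omega

/-! #### the factorisation -/

/-- The set of the `N` roots of order `1 - N`. -/
def n3eqS : Finset (LaurentSeries K) :=
  haveI := Classical.decEq (LaurentSeries K)
  (Finset.range N).image (n3eqRb K N ζ)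

include hζ in
theorem n3eqRb_injOn : Set.InjOn (n3eqRb K N ζ) (Finset.range N : Set ℕ) := by
  intro b hb b' hb' h
  have h1 := congrArg (fun z : LaurentSeries K => z.coeff (1 - (N : ℤ))) h
  simp only [n3eqRb_coeff K N ζ hζ] at h1
  have h2 : ζ ^ b = ζ ^ b' := Units.ext h1
  exact hζ.pow_inj (Finset.mem_range.mp hb) (Finset.mem_range.mp hb') h2

include hζ in
theorem n3eqS_card : (n3eqS K N ζ).card = N := by
  classical
  rw [n3eqS, Finset.card_image_of_injOn (n3eqRb_injOn K N ζ hζ), Finset.card_range]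

include hN in
theorem n3eqRInf_not_mem_S : n3eqRInf K N ∉ n3eqS K N ζ := by
  classical
  intro h
  rw [n3eqS, Finset.mem_image] at h
  obtain ⟨b, -, hb⟩ := h
  exact n3eqRb_not_mem K N hN ζ b (hb ▸ n3eqRInf_mem K N)

/-- The product of the linear factors of the roots of order `1 - N`. -/
def n3eqR : Polynomial (LaurentSeries K) := ∏ r ∈ n3eqS K N ζ, (X - C r)

include hζ in
/-- **Factorisation** of `W(X, j(Q^N))` over `K((Q))`. -/
theorem n3eqP_eq : n3eqP K N hN = (X - C (n3eqRInf K N)) * n3eqR K N ζ := by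
  classical
  set S : Finset (LaurentSeries K) := insert (n3eqRInf K N) (n3eqS K N ζ) with hS
  have hP0 : n3eqP K N hN ≠ 0 := (n3eqP_monic K N hN).ne_zero
  have hScard : S.card = N + 1 := by
    rw [hS, Finset.card_insert_of_notMem (n3eqRInf_not_mem_S K N hN ζ), n3eqS_card K N ζ hζ]
  have hsub : S.val ≤ (n3eqP K N hN).roots := by
    rw [Multiset.le_iff_subset S.nodup]
    intro x hx
    rw [mem_roots hP0]
    have hx' : x ∈ S := hx
    rw [hS, Finset.mem_insert] at hx'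
    rcases hx' with rfl | hx'
    · exact n3eq_isRoot_rInf K N hN
    · rw [n3eqS, Finset.mem_image] at hx'
      obtain ⟨b, -, rfl⟩ := hx'
      exact n3eq_isRoot_rb K N hN ζ hζ b
  have hcard : Multiset.card (n3eqP K N hN).roots ≤ Multiset.card S.val := by
    refine (card_roots' _).trans ?_
    rw [n3eqP_natDegree]
    exact hScard.ge
  have heq : S.val = (n3eqP K N hN).roots := Multiset.eq_of_le_of_card_le hsub hcard
  have h1 := prod_multiset_X_sub_C_of_monic_of_roots_card_eq (n3eqP_monic K N hN)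
    (by rw [← heq, n3eqP_natDegree]; exact hScard)
  rw [← h1, ← heq]
  show ∏ r ∈ S, (X - C r) = _
  rw [hS, Finset.prod_insert (n3eqRInf_not_mem_S K N hN ζ)]
  rfl

end Roots

/-! ### The coefficients -/

section Coeff

variable (K : Type*) [Field K] [CharZero K] (N : ℕ) [NeZero N] (hN : N.Prime)
  (ζ : Kˣ) (hζ : IsPrimitiveRoot ζ N)

theorem n3eq_evalInt_eq (c : Polynomial ℤ) :
    evalInt (n3eqJN K N) c = Polynomial.aeval (n3eqJN K N) (c.map (Int.castRingHom K)) := by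
  rw [evalInt, Polynomial.coe_eval₂RingHom, Polynomial.aeval_def, Polynomial.eval₂_map]
  congr 1
  exact RingHom.ext_int _ _

theorem n3eqJN_order : (n3eqJN K N).order = -(N : ℤ) := by
  rw [n3eqJN, order_qExpand, Fermat.Agent.S28.order_jqModC]
  ring

theorem n3eqJN_leadingCoeff : (n3eqJN K N).leadingCoeff = 1 := by
  rw [n3eqJN, n3eq_leadingCoeff_qExpand, HahnSeries.leadingCoeff_eq,
    Fermat.Agent.S28.order_jqModC, coeff_jqModC_neg_one]

/-- Order and leading coefficient of `c(j(Q^N))`, `0 ≠ c ∈ ℤ[Y]`. -/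
theorem n3eq_order_evalInt {c : Polynomial ℤ} (hc : c ≠ 0) :
    evalInt (n3eqJN K N) c ≠ 0 ∧
    (evalInt (n3eqJN K N) c).order = -((N : ℤ) * c.natDegree) ∧
    (evalInt (n3eqJN K N) c).leadingCoeff = (c.leadingCoeff : K) := by
  have hinj : Function.Injective (Int.castRingHom K) := RingHom.injective_int _
  have hcK : c.map (Int.castRingHom K) ≠ 0 := (Polynomial.map_ne_zero_iff hinj).mpr hc
  have hj : (n3eqJN K N).order < 0 := by
    rw [n3eqJN_order]
    have h1 : (1 : ℤ) ≤ N := by exact_mod_cast Nat.one_le_iff_ne_zero.mpr (NeZero.ne N)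
    omega
  rw [n3eq_evalInt_eq]
  refine ⟨aeval_ne_zero_of_order_neg hj hcK, ?_, ?_⟩
  · rw [order_aeval_of_order_neg hj hcK, natDegree_map_eq_of_injective hinj, n3eqJN_order]
    ring
  · rw [leadingCoeff_aeval_of_order_neg hj hcK, n3eqJN_leadingCoeff, one_pow, mul_one,
      leadingCoeff_map_of_injective hinj]
    simp

theorem n3eq_evalInt_zero_iff (c : Polynomial ℤ) : evalInt (n3eqJN K N) c = 0 ↔ c = 0 := by
  constructor
  · intro h
    by_contra hc
    exact (n3eq_order_evalInt K N hc).1 h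
  · rintro rfl
    simp

theorem n3eqT_pow (i : ℕ) :
    n3eqT K N ^ i = HahnSeries.single ((i : ℤ) * ((N : ℤ) - 1)) (1 : K) := by
  rw [n3eqT, HahnSeries.single_pow, one_pow, nsmul_eq_mul]

theorem n3eqS_mul_mem : ∀ r ∈ n3eqS K N ζ, n3eqT K N * r ∈ n3eqO K := by
  classical
  intro r hr
  rw [n3eqS, Finset.mem_image] at hr
  obtain ⟨b, -, rfl⟩ := hr
  exact n3eqT_mul_rb_mem K N ζ b

include hζ in
/-- `t^i · (coefficient of X^k of ∏_b (X - r_b)) ∈ O` for `i + k = N`. -/
theorem n3eqR_coeff_mem (i k : ℕ) (hik : i + k = N) :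
    n3eqT K N ^ i * (n3eqR K N ζ).coeff k ∈ n3eqO K := by
  classical
  rw [n3eqR]
  exact n3eq_coeff_prod_mem (n3eqO K) (n3eqT K N) (n3eqS K N ζ) (n3eqS_mul_mem K N ζ) i k
    (by rw [n3eqS_card K N ζ hζ]; exact hik)

include hζ in
/-- `t^i · (coefficient of X^k of W(X, j(Q^N))) ∈ O` for `i + k = N + 1`, `k ≥ 1`. -/
theorem n3eqP_coeff_mem (i k : ℕ) (hk : 1 ≤ k) (hik : i + k = N + 1) :
    n3eqT K N ^ i * (n3eqP K N hN).coeff k ∈ n3eqO K := by
  obtain ⟨k, rfl⟩ : ∃ k', k = k' + 1 := ⟨k - 1, by omega⟩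
  rw [n3eqP_eq K N hN ζ hζ, coeff_X_sub_C_mul, mul_sub]
  refine (n3eqO K).sub_mem (n3eqR_coeff_mem K N ζ hζ i k (by omega)) ?_
  cases i with
  | zero =>
    have hdeg : (n3eqR K N ζ).natDegree = N := by
      classical
      rw [n3eqR, natDegree_finsetProd_X_sub_C_eq_card, n3eqS_card K N ζ hζ]
    rw [coeff_eq_zero_of_natDegree_lt (by omega), mul_zero, mul_zero]
    exact (n3eqO K).zero_mem
  | succ i =>
    have h2 := n3eqR_coeff_mem K N ζ hζ i (k + 1) (by omega)
    have e : n3eqT K N ^ (i + 1) * (n3eqRInf K N * (n3eqR K N ζ).coeff (k + 1)) =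
        (n3eqT K N * n3eqRInf K N) * (n3eqT K N ^ i * (n3eqR K N ζ).coeff (k + 1)) := by ring
    rw [e]
    exact (n3eqO K).mul_mem ((n3eqO K).mul_mem (n3eqT_mem K N) (n3eqRInf_mem K N)) h2

include hζ in
/-- **Degrees of the coefficients**: for `1 ≤ k ≤ N` the coefficient of `X^k` of `W` has degree
`≤ N - k` in `j`. -/
theorem n3eq_natDegree_coeff_le (k : ℕ) (hk1 : 1 ≤ k) (hkN : k ≤ N) :
    ((s36tuW N hN).coeff k).natDegree ≤ N - k := by
  rcases eq_or_ne ((s36tuW N hN).coeff k) 0 with h0 | hc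
  · rw [h0]; simp
  obtain ⟨hne, hord, -⟩ := n3eq_order_evalInt K N hc
  have h := n3eqP_coeff_mem K N hN ζ hζ (N + 1 - k) k hk1 (by omega)
  rw [n3eqP_coeff, n3eqT_pow] at h
  have h2 := n3eq_order_ge_of_mul_mem hne h
  rw [hord] at h2
  have hN1 : (1 : ℤ) ≤ N := by exact_mod_cast Nat.one_le_iff_ne_zero.mpr (NeZero.ne N)
  have hcast : ((N + 1 - k : ℕ) : ℤ) = (N : ℤ) + 1 - k := by
    rw [Nat.cast_sub (by omega)]; push_cast; ring
  rw [hcast] at h2
  have hk' : (k : ℤ) ≤ N := by exact_mod_cast hkN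
  have hd : (((s36tuW N hN).coeff k).natDegree : ℤ) ≤ (N : ℤ) - k := by
    by_contra hcon
    push Not at hcon
    have h3 : (N : ℤ) - k + 1 ≤ (((s36tuW N hN).coeff k).natDegree : ℤ) := by omega
    nlinarith
  omega

/-! #### the constant term of `∏_b (X - r_b)` -/

/-- `∏_{b < n} (- r_b)`. -/
def n3eqM (n : ℕ) : LaurentSeries K := ∏ b ∈ Finset.range n, (-(n3eqRb K N ζ b))

include hζ in
theorem n3eqM_spec (n : ℕ) :
    n3eqM K N ζ n ≠ 0 ∧ (n3eqM K N ζ n).order = (n : ℤ) * (1 - (N : ℤ)) ∧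
    (n3eqM K N ζ n).leadingCoeff = ∏ b ∈ Finset.range n, (-((ζ ^ b : Kˣ) : K)) := by
  induction n with
  | zero =>
    refine ⟨by simp [n3eqM], by simp [n3eqM], ?_⟩
    simp [n3eqM, HahnSeries.leadingCoeff_one]
  | succ n ih =>
    obtain ⟨h1, h2, h3⟩ := ih
    have hb : -(n3eqRb K N ζ n) ≠ 0 := neg_ne_zero.mpr (n3eqRb_ne_zero K N ζ n)
    have e : n3eqM K N ζ (n + 1) = n3eqM K N ζ n * (-(n3eqRb K N ζ n)) := by
      rw [n3eqM, Finset.prod_range_succ]
      rfl
    refine ⟨by rw [e]; exact mul_ne_zero h1 hb, ?_, ?_⟩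
    · rw [e, HahnSeries.order_mul h1 hb, h2, HahnSeries.order_neg, n3eqRb_order]
      push_cast
      ring
    · rw [e, HahnSeries.leadingCoeff_mul, h3, HahnSeries.leadingCoeff_neg,
        n3eqRb_leadingCoeff K N ζ hζ, Finset.prod_range_succ]

include hζ in
theorem n3eqR_coeff_zero : (n3eqR K N ζ).coeff 0 = n3eqM K N ζ N := by
  classical
  rw [n3eqR, coeff_zero_eq_eval_zero, eval_prod, n3eqS,
    Finset.prod_image (fun b hb b' hb' h => n3eqRb_injOn K N ζ hζ hb hb' h), n3eqM]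
  refine Finset.prod_congr rfl fun b _ => ?_
  simp

/-- the sign `ε = ∏_{b < N} (- ζ^b)`, `ε² = 1`. -/
def n3eqEps : K := ∏ b ∈ Finset.range N, (-((ζ ^ b : Kˣ) : K))

include hζ in
theorem n3eqEps_sq : n3eqEps K N ζ ^ 2 = 1 := by
  rw [n3eqEps, ← Finset.prod_pow]
  have h1 : ∀ b ∈ Finset.range N, (-((ζ ^ b : Kˣ) : K)) ^ 2 = ((ζ ^ (2 * b) : Kˣ) : K) := by
    intro b _
    rw [neg_sq, ← Units.val_pow_eq_pow_val, ← pow_mul, mul_comm]
  rw [Finset.prod_congr rfl h1]
  have h2 : ∏ b ∈ Finset.range N, ((ζ ^ (2 * b) : Kˣ) : K) =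
      ((ζ ^ (∑ b ∈ Finset.range N, 2 * b) : Kˣ) : K) := by
    rw [← Finset.prod_pow_eq_pow_sum]
    simp
  rw [h2]
  have h3 : ∑ b ∈ Finset.range N, 2 * b = N * (N - 1) := by
    rw [← Finset.mul_sum, mul_comm, Finset.sum_range_id_mul_two]
  rw [h3, pow_mul, hζ.pow_eq_one, one_pow, Units.val_one]

include hζ in
/-- **The constant term**: `W(0, Y) = ± N¹²`. -/
theorem n3eq_coeff_zero :
    ∃ ε : ℤ, (ε = 1 ∨ ε = -1) ∧ (s36tuW N hN).coeff 0 = C (ε * (N : ℤ) ^ 12) := by
  obtain ⟨hM0, hMord, hMlc⟩ := n3eqM_spec K N ζ hζ N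
  have hP0 : (n3eqP K N hN).coeff 0 = -(n3eqRInf K N) * n3eqM K N ζ N := by
    rw [n3eqP_eq K N hN ζ hζ, mul_coeff_zero, n3eqR_coeff_zero K N ζ hζ]
    simp
  have hr : -(n3eqRInf K N) ≠ 0 := neg_ne_zero.mpr (n3eqRInf_ne_zero K N)
  have hne : (n3eqP K N hN).coeff 0 ≠ 0 := by rw [hP0]; exact mul_ne_zero hr hM0
  have hord : ((n3eqP K N hN).coeff 0).order = 0 := by
    rw [hP0, HahnSeries.order_mul hr hM0, HahnSeries.order_neg, n3eqRInf_order, hMord]
    ring
  have hlc : ((n3eqP K N hN).coeff 0).leadingCoeff = -((N : K) ^ 12) * n3eqEps K N ζ := by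
    rw [hP0, HahnSeries.leadingCoeff_mul, HahnSeries.leadingCoeff_neg, n3eqRInf_leadingCoeff,
      hMlc, n3eqEps]
  rw [n3eqP_coeff] at hne hord hlc
  have hc : (s36tuW N hN).coeff 0 ≠ 0 := fun h => hne (by rw [h, map_zero])
  obtain ⟨-, hord', hlc'⟩ := n3eq_order_evalInt K N hc
  rw [hord] at hord'
  rw [hlc] at hlc'
  have hN0 : (N : ℤ) ≠ 0 := Nat.cast_ne_zero.mpr (NeZero.ne N)
  have hdeg : ((s36tuW N hN).coeff 0).natDegree = 0 := by
    have : (N : ℤ) * (((s36tuW N hN).coeff 0).natDegree : ℤ) = 0 := by linarith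
    rcases mul_eq_zero.mp this with h | h
    · exact absurd h hN0
    · exact_mod_cast h
  set a : ℤ := ((s36tuW N hN).coeff 0).leadingCoeff with ha
  have hCa : (s36tuW N hN).coeff 0 = C a := by
    rw [ha, Polynomial.leadingCoeff, hdeg]
    exact Polynomial.eq_C_of_natDegree_eq_zero hdeg
  have hsq : ((a ^ 2 : ℤ) : K) = (((N : ℤ) ^ 12) ^ 2 : ℤ) := by
    push_cast
    rw [← hlc', mul_pow, neg_sq, n3eqEps_sq K N ζ hζ, mul_one]
  have hsq' : a ^ 2 = ((N : ℤ) ^ 12) ^ 2 := by exact_mod_cast hsq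
  rcases sq_eq_sq_iff_eq_or_eq_neg.mp hsq' with h | h
  · exact ⟨1, Or.inl rfl, by rw [hCa, h, one_mul]⟩
  · exact ⟨-1, Or.inr rfl, by rw [hCa, h]; ring_nf⟩

include hζ in
/-- **The coefficient of `X`**: degree `N - 1` in `j`, leading coefficient `± 1`. -/
theorem n3eq_coeff_one :
    ((s36tuW N hN).coeff 1).natDegree = N - 1 ∧
    (((s36tuW N hN).coeff 1).leadingCoeff = 1 ∨ ((s36tuW N hN).coeff 1).leadingCoeff = -1) := by
  obtain ⟨hM0, hMord, hMlc⟩ := n3eqM_spec K N ζ hζ N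
  have hN2 : (2 : ℤ) ≤ N := by exact_mod_cast hN.two_le
  have hP1 : (n3eqP K N hN).coeff 1 =
      n3eqM K N ζ N - n3eqRInf K N * (n3eqR K N ζ).coeff 1 := by
    rw [n3eqP_eq K N hN ζ hζ, show (1 : ℕ) = 0 + 1 from rfl, coeff_X_sub_C_mul,
      n3eqR_coeff_zero K N ζ hζ]
  -- the second term has larger order
  have hlt : (n3eqM K N ζ N).orderTop <
      (n3eqRInf K N * (n3eqR K N ζ).coeff 1).orderTop := by
    rcases eq_or_ne ((n3eqR K N ζ).coeff 1) 0 with h0 | h0
    · rw [h0, mul_zero, HahnSeries.orderTop_zero]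
      exact WithTop.lt_top_iff_ne_top.mpr (HahnSeries.orderTop_ne_top.mpr hM0)
    · have hy : n3eqRInf K N * (n3eqR K N ζ).coeff 1 ≠ 0 :=
        mul_ne_zero (n3eqRInf_ne_zero K N) h0
      have h1 := n3eqR_coeff_mem K N ζ hζ (N - 1) 1 (by have := hN.two_le; omega)
      rw [n3eqT_pow] at h1
      have h2 := n3eq_order_ge_of_mul_mem h0 h1
      have hcast : ((N - 1 : ℕ) : ℤ) = (N : ℤ) - 1 := by
        rw [Nat.cast_sub (by have := hN.two_le; omega)]; simp
      rw [hcast] at h2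
      rw [HahnSeries.orderTop_of_ne_zero hM0, HahnSeries.orderTop_of_ne_zero hy,
        WithTop.coe_lt_coe, ← HahnSeries.order_of_ne hM0, ← HahnSeries.order_of_ne hy,
        HahnSeries.order_mul (n3eqRInf_ne_zero K N) h0, hMord, n3eqRInf_order]
      nlinarith
  have hne : (n3eqP K N hN).coeff 1 ≠ 0 := by
    rw [hP1]
    intro h
    have h1 := HahnSeries.orderTop_sub hlt
    rw [h, HahnSeries.orderTop_zero] at h1
    exact HahnSeries.orderTop_ne_top.mpr hM0 h1.symm
  have hord : ((n3eqP K N hN).coeff 1).order = (N : ℤ) * (1 - (N : ℤ)) := by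
    have h1 := HahnSeries.orderTop_sub hlt
    rw [← hP1] at h1
    have h2 : (((n3eqP K N hN).coeff 1).order : WithTop ℤ) = ((n3eqM K N ζ N).order : WithTop ℤ) := by
      rw [HahnSeries.order_eq_orderTop_of_ne_zero hne,
        HahnSeries.order_eq_orderTop_of_ne_zero hM0]
      exact h1
    rw [← hMord]
    exact_mod_cast h2
  have hlc : ((n3eqP K N hN).coeff 1).leadingCoeff = n3eqEps K N ζ := by
    rw [hP1, HahnSeries.leadingCoeff_sub hlt, hMlc, n3eqEps]
  rw [n3eqP_coeff] at hne hord hlc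
  have hc : (s36tuW N hN).coeff 1 ≠ 0 := fun h => hne (by rw [h, map_zero])
  obtain ⟨-, hord', hlc'⟩ := n3eq_order_evalInt K N hc
  rw [hord] at hord'
  rw [hlc] at hlc'
  have hN0 : (N : ℤ) ≠ 0 := Nat.cast_ne_zero.mpr (NeZero.ne N)
  constructor
  · have h1 : (N : ℤ) * ((((s36tuW N hN).coeff 1).natDegree : ℤ) - ((N : ℤ) - 1)) = 0 := by
      linarith
    rcases mul_eq_zero.mp h1 with h | h
    · exact absurd h hN0
    · have := hN.two_le
      omega
  · set a : ℤ := ((s36tuW N hN).coeff 1).leadingCoeff with ha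
    have hsq : ((a ^ 2 : ℤ) : K) = ((1 : ℤ) : K) := by
      push_cast
      rw [← hlc', n3eqEps_sq K N ζ hζ]
    have hsq' : a ^ 2 = 1 := by exact_mod_cast hsq
    have hsq'' : a ^ 2 = (1 : ℤ) ^ 2 := by rw [one_pow]; exact hsq'
    exact sq_eq_sq_iff_eq_or_eq_neg.mp hsq''

end Coeff

/-! ### Unconditional statements -/

section Main

variable (N : ℕ) [NeZero N] (hN : N.Prime)

theorem n3eq_exists_primitiveRoot : ∃ ζ : ℂˣ, IsPrimitiveRoot ζ N := by
  have h := Complex.isPrimitiveRoot_exp N (NeZero.ne N)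
  exact ⟨(h.isUnit (NeZero.ne N)).unit, IsPrimitiveRoot.coe_units_iff.mp h⟩

/-- **Degrees of the coefficients** of the modular equation `W` of `N¹² Δ(Q^N)/Δ(Q)`:
for `1 ≤ k ≤ N` the coefficient of `X^k` has degree `≤ N - k` in `j`. -/
theorem n3eq_W_natDegree_coeff_le (k : ℕ) (hk1 : 1 ≤ k) (hkN : k ≤ N) :
    ((s36tuW N hN).coeff k).natDegree ≤ N - k := by
  obtain ⟨ζ, hζ⟩ := n3eq_exists_primitiveRoot N
  exact n3eq_natDegree_coeff_le ℂ N hN ζ hζ k hk1 hkN

/-- The coefficient of `X` of `W` has degree `N - 1` in `j` and leading coefficient `± 1`. -/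
theorem n3eq_W_coeff_one :
    ((s36tuW N hN).coeff 1).natDegree = N - 1 ∧
    (((s36tuW N hN).coeff 1).leadingCoeff = 1 ∨ ((s36tuW N hN).coeff 1).leadingCoeff = -1) := by
  obtain ⟨ζ, hζ⟩ := n3eq_exists_primitiveRoot N
  exact n3eq_coeff_one ℂ N hN ζ hζ

/-- The constant term of `W` is `± N¹²`. -/
theorem n3eq_W_coeff_zero :
    ∃ ε : ℤ, (ε = 1 ∨ ε = -1) ∧ (s36tuW N hN).coeff 0 = C (ε * (N : ℤ) ^ 12) := by
  obtain ⟨ζ, hζ⟩ := n3eq_exists_primitiveRoot N
  exact n3eq_coeff_zero ℂ N hN ζ hζ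

end Main

end Fermat.Agent.S15
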