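import Mathlib

/-!
# S15 / N3-EQ (2): the Newton polygon of the modular equation, abstract form

`v : Valuation F Γ₀`, `G ∈ F[Y]` monic of degree `N + 1`, `y` a root.

* `n3eq_val_eval_le`, `n3eq_val_eval_eq` : valuations of the values of a polynomial with integral
  coefficients at a point `a` with `v a ≥ 1`;
* `n3eq_newton_mb` : **(MB)** integral coefficients, `v (G.coeff 0) = κ ≠ 0` ⟹ `κ ≤ v y ≤ 1`;
* `n3eq_newton_dich` : **(DICH)** `1 < A`, `v (G.coeff k) ≤ A ^ (N - k)` (`1 ≤ k ≤ N`),
  `v (G.coeff 1) = A ^ (N - 1)`, `v (G.coeff 0) = κ`, `0 < κ ≤ 1`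
  ⟹ `v y ^ N = A ^ (N - 1)` or `v y * A ^ (N - 1) = κ`.
-/

set_option autoImplicit false

namespace Fermat.Agent.S15

open Polynomial

section Newton

variable {F Γ₀ : Type*} [Field F] [LinearOrderedCommGroupWithZero Γ₀] (v : Valuation F Γ₀)

/-- `v (c(a)) ≤ A ^ m` for `c` with integral coefficients of degree `≤ m`, `v a ≤ A`, `1 ≤ A`. -/
theorem n3eq_val_eval_le (c : Polynomial F) (hc : ∀ j, v (c.coeff j) ≤ 1) {a : F} {A : Γ₀}
    (hA1 : 1 ≤ A) (ha : v a ≤ A) {m : ℕ} (hm : c.natDegree ≤ m) : v (c.eval a) ≤ A ^ m := by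
  rw [Polynomial.eval_eq_sum_range]
  apply Valuation.map_sum_le
  intro j hj
  rw [map_mul, map_pow]
  have hj' : j ≤ m := (Nat.lt_succ_iff.mp (Finset.mem_range.mp hj)).trans hm
  calc v (c.coeff j) * v a ^ j ≤ 1 * A ^ j :=
        mul_le_mul' (hc j) (pow_le_pow_left₀ zero_le ha j)
    _ = A ^ j := one_mul _
    _ ≤ A ^ m := pow_le_pow_right₀ hA1 hj'

/-- `v (c(a)) = A ^ deg c` for `c` with integral coefficients and unit leading coefficient,
`v a = A > 1`. -/
theorem n3eq_val_eval_eq (c : Polynomial F) (hc : ∀ j, v (c.coeff j) ≤ 1)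
    (hlc : v c.leadingCoeff = 1) {a : F} {A : Γ₀} (hA1 : 1 < A) (ha : v a = A) :
    v (c.eval a) = A ^ c.natDegree := by
  have hA0 : A ≠ 0 := (lt_trans zero_lt_one hA1).ne'
  rw [Polynomial.eval_eq_sum_range, Finset.sum_range_succ]
  have htop : v (c.coeff c.natDegree * a ^ c.natDegree) = A ^ c.natDegree := by
    rw [map_mul, map_pow, ha, ← Polynomial.leadingCoeff, hlc, one_mul]
  have hrest : v (∑ j ∈ Finset.range c.natDegree, c.coeff j * a ^ j) < A ^ c.natDegree := by
    apply Valuation.map_sum_lt v (pow_ne_zero _ hA0)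
    intro j hj
    rw [map_mul, map_pow, ha]
    calc v (c.coeff j) * A ^ j ≤ 1 * A ^ j := mul_le_mul' (hc j) le_rfl
      _ = A ^ j := one_mul _
      _ < A ^ c.natDegree := pow_lt_pow_right₀ hA1 (Finset.mem_range.mp hj)
  rw [← htop] at hrest ⊢
  exact Valuation.map_add_eq_of_lt_right v hrest

/-- **(MB)**: a root of a monic polynomial with integral coefficients and constant term of
valuation `κ` has valuation between `κ` and `1`. -/
theorem n3eq_newton_mb (G : Polynomial F) (hmonic : G.Monic) {κ : Γ₀}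
    (hint : ∀ k, v (G.coeff k) ≤ 1) (h0 : v (G.coeff 0) = κ)
    {y : F} (hy : G.eval y = 0) : κ ≤ v y ∧ v y ≤ 1 := by
  have hy1 : v y ≤ 1 := by
    by_contra hcon
    push Not at hcon
    have hY0 : v y ≠ 0 := (lt_trans zero_lt_one hcon).ne'
    rw [Polynomial.eval_eq_sum_range, Finset.sum_range_succ] at hy
    have htop : v (G.coeff G.natDegree * y ^ G.natDegree) = v y ^ G.natDegree := by
      rw [map_mul, map_pow, ← Polynomial.leadingCoeff, hmonic.leadingCoeff, map_one, one_mul]
    have hrest : v (∑ j ∈ Finset.range G.natDegree, G.coeff j * y ^ j) < v y ^ G.natDegree := by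
      apply Valuation.map_sum_lt v (pow_ne_zero _ hY0)
      intro j hj
      rw [map_mul, map_pow]
      calc v (G.coeff j) * v y ^ j ≤ 1 * v y ^ j := mul_le_mul' (hint j) le_rfl
        _ = v y ^ j := one_mul _
        _ < v y ^ G.natDegree := pow_lt_pow_right₀ hcon (Finset.mem_range.mp hj)
    rw [← htop] at hrest
    have h1 := Valuation.map_add_eq_of_lt_right v hrest
    rw [hy, map_zero, htop] at h1
    exact pow_ne_zero _ hY0 h1.symm
  refine ⟨?_, hy1⟩
  have hsplit : G.eval y = G.divX.eval y * y + G.coeff 0 := by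
    conv_lhs => rw [← Polynomial.divX_mul_X_add G]
    simp
  rw [hsplit] at hy
  have h2 : G.coeff 0 = -(G.divX.eval y * y) := by linear_combination hy
  have hB : v (G.divX.eval y) ≤ 1 := by
    have := n3eq_val_eval_le v G.divX (fun j => by rw [Polynomial.coeff_divX]; exact hint _)
      le_rfl hy1 (m := G.divX.natDegree) le_rfl
    simpa using this
  rw [← h0, h2, Valuation.map_neg, map_mul]
  calc v (G.divX.eval y) * v y ≤ 1 * v y := mul_le_mul' hB le_rfl
    _ = v y := one_mul _

/-- **(DICH)**: the Newton polygon of the modular equation at a place where `j` has a pole. -/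
theorem n3eq_newton_dich (G : Polynomial F) (N : ℕ) (hN : 1 ≤ N) (hmonic : G.Monic)
    (hdeg : G.natDegree = N + 1) {A κ : Γ₀} (hA : 1 < A) (hκ0 : κ ≠ 0) (hκ1 : κ ≤ 1)
    (hmid : ∀ k, 1 ≤ k → k ≤ N → v (G.coeff k) ≤ A ^ (N - k))
    (h1 : v (G.coeff 1) = A ^ (N - 1)) (h0 : v (G.coeff 0) = κ)
    {y : F} (hy : G.eval y = 0) :
    v y ^ N = A ^ (N - 1) ∨ v y * A ^ (N - 1) = κ := by
  have hA0 : A ≠ 0 := (lt_trans zero_lt_one hA).ne'
  have hA1 : 1 ≤ A := hA.le
  -- `y ≠ 0`
  have hy0 : y ≠ 0 := by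
    rintro rfl
    rw [← Polynomial.coeff_zero_eq_eval_zero] at hy
    rw [hy, map_zero] at h0
    exact hκ0 h0.symm
  have hY0 : v y ≠ 0 := (Valuation.ne_zero_iff v).mpr hy0
  have hYpos : 0 < v y := zero_lt_iff.mpr hY0
  have hcN : G.coeff (N + 1) = 1 := by
    rw [← hdeg]; exact hmonic.coeff_natDegree
  rw [Polynomial.eval_eq_sum_range, hdeg] at hy
  rcases lt_trichotomy (v y ^ N) (A ^ (N - 1)) with hlt | heq | hgt
  · -- the term `c_1 y` dominates
    right
    have hYA : v y < A := by
      have h2 : v y ^ N < A ^ N :=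
        lt_of_lt_of_le hlt (pow_le_pow_right₀ hA1 (Nat.sub_le N 1))
      exact lt_of_pow_lt_pow_left₀ N zero_le h2
    have hB0 : A ^ (N - 1) * v y ≠ 0 := mul_ne_zero (pow_ne_zero _ hA0) hY0
    -- split off `k = 0` and `k = 1`
    rw [Finset.sum_range_succ', Finset.sum_range_succ'] at hy
    simp only [pow_zero, mul_one, zero_add, pow_one] at hy
    have hrest : v (∑ k ∈ Finset.range N, G.coeff (k + 1 + 1) * y ^ (k + 1 + 1))
        < A ^ (N - 1) * v y := by
      apply Valuation.map_sum_lt v hB0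
      intro k hk
      have hkN : k < N := Finset.mem_range.mp hk
      rw [map_mul, map_pow]
      have hpowlt : v y ^ (k + 1) < A ^ (k + 1) :=
        pow_lt_pow_left₀ hYA zero_le (Nat.succ_ne_zero k)
      rcases Nat.lt_or_ge (k + 1) N with hk2 | hk2
      · -- `k + 2 ≤ N`
        have hc := hmid (k + 1 + 1) (by omega) (by omega)
        have e1 : A ^ (N - 1) = A ^ (N - (k + 1 + 1)) * A ^ (k + 1) := by
          rw [← pow_add]; congr 1; omega
        calc v (G.coeff (k + 1 + 1)) * v y ^ (k + 1 + 1)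
            ≤ A ^ (N - (k + 1 + 1)) * v y ^ (k + 1 + 1) := mul_le_mul' hc le_rfl
          _ = A ^ (N - (k + 1 + 1)) * v y ^ (k + 1) * v y := by rw [pow_succ, mul_assoc]
          _ < A ^ (N - (k + 1 + 1)) * A ^ (k + 1) * v y := by
              apply mul_lt_mul_of_pos_right _ hYpos
              exact mul_lt_mul_of_pos_left hpowlt (pow_pos (zero_lt_iff.mpr hA0) _)
          _ = A ^ (N - 1) * v y := by rw [e1]
      · -- `k + 2 = N + 1`
        have hkeq : k + 1 = N := by omega
        rw [hkeq, hcN, map_one, one_mul, pow_succ]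
        exact mul_lt_mul_of_pos_right hlt hYpos
    have hone : v (G.coeff 1 * y) = A ^ (N - 1) * v y := by rw [map_mul, h1]
    rw [← hone] at hrest
    have hsum := Valuation.map_add_eq_of_lt_right v hrest
    have hc0 : G.coeff 0 = -(∑ k ∈ Finset.range N, G.coeff (k + 1 + 1) * y ^ (k + 1 + 1)
        + G.coeff 1 * y) := by
      linear_combination hy
    rw [← h0, hc0, Valuation.map_neg, hsum, hone, mul_comm]
  · left; exact heq
  · exfalso
    have hY1 : 1 < v y := by
      by_contra hcon
      push Not at hcon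
      have : v y ^ N ≤ 1 := pow_le_one₀ zero_le hcon
      exact absurd (lt_of_lt_of_le hgt this) (not_lt.mpr (one_le_pow₀ hA1))
    rw [Finset.sum_range_succ] at hy
    have htop : v (G.coeff (N + 1) * y ^ (N + 1)) = v y ^ (N + 1) := by
      rw [hcN, one_mul, map_pow]
    have hT0 : v y ^ (N + 1) ≠ 0 := pow_ne_zero _ hY0
    have hrest : v (∑ k ∈ Finset.range (N + 1), G.coeff k * y ^ k) < v y ^ (N + 1) := by
      apply Valuation.map_sum_lt v hT0
      intro k hk
      have hkN : k ≤ N := Nat.lt_succ_iff.mp (Finset.mem_range.mp hk)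
      rw [map_mul, map_pow]
      rcases Nat.eq_zero_or_pos k with hk0 | hk0
      · subst hk0
        rw [pow_zero, mul_one, h0]
        exact lt_of_le_of_lt hκ1 (one_lt_pow₀ hY1 (Nat.succ_ne_zero N))
      · have hc := hmid k hk0 hkN
        -- `A ^ (N - k) < v y ^ (N + 1 - k)`
        have hkey : A ^ (N - k) < v y ^ (N - k + 1) := by
          by_contra hcon
          push Not at hcon
          rcases le_or_gt (v y) A with hle | hlt'
          · have e2 : v y ^ N = v y ^ (N - k + 1) * v y ^ (k - 1) := by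
              rw [← pow_add]; congr 1; omega
            have e3 : A ^ (N - 1) = A ^ (N - k) * A ^ (k - 1) := by
              rw [← pow_add]; congr 1; omega
            have : v y ^ N ≤ A ^ (N - 1) := by
              rw [e2, e3]
              exact mul_le_mul' hcon (pow_le_pow_left₀ zero_le hle _)
            exact absurd hgt (not_lt.mpr this)
          · have h3 : A ^ (N - k + 1) < v y ^ (N - k + 1) :=
              pow_lt_pow_left₀ hlt' zero_le (Nat.succ_ne_zero _)
            have h4 : A ^ (N - k) ≤ A ^ (N - k + 1) := pow_le_pow_right₀ hA1 (Nat.le_succ _)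
            exact absurd (lt_of_le_of_lt h4 h3) (not_lt.mpr hcon)
        have e4 : v y ^ (N + 1) = v y ^ (N - k + 1) * v y ^ k := by
          rw [← pow_add]; congr 1; omega
        calc v (G.coeff k) * v y ^ k ≤ A ^ (N - k) * v y ^ k := mul_le_mul' hc le_rfl
          _ < v y ^ (N - k + 1) * v y ^ k :=
              mul_lt_mul_of_pos_right hkey (pow_pos hYpos _)
          _ = v y ^ (N + 1) := e4.symm
    rw [← htop] at hrest
    have hsum := Valuation.map_add_eq_of_lt_right v hrest
    rw [hy, map_zero, htop] at hsum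
    exact hT0 hsum.symm

end Newton

end Fermat.Agent.S15
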