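import Fermat.Agent.S15.N3EqCoeff
import Fermat.Agent.S15.N3EqNewton

/-!
# S15 / N3-EQ (3): (MB) and (DICH) for the modular equation of `g = N¹² Δ(Nτ)/Δ(τ)`

`W = s36tuW N hN ∈ ℤ[j][X]` is the modular equation of `g` (`S36/ThinUnitInt.lean`), with the
coefficient facts of `N3EqCoeff.lean`.  For ANY valued field `(F, v)` and `a, g ∈ F` with
`W(a, g) = 0` (`W.eval₂ (evalInt a) g = 0`):

* `n3eq_mb`   : `v a ≤ 1` ⟹ `v N ^ 12 ≤ v g ≤ 1`;
* `n3eq_dich` : `1 < v a`, `N ≠ 0` in `F` ⟹ `v g ^ N = v a ^ (N - 1)` (disc of the cusp `0`)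
                or `v g * v a ^ (N - 1) = v N ^ 12` (disc of the cusp `∞`).

For `F = ℚ` and the `r`-adic valuation (`r` ANY prime), in additive form:

* `n3eq_mb_padic`   : `0 ≤ v_r(a)` ⟹ `0 ≤ v_r(g) ≤ 12 v_r(N)`;
* `n3eq_dich_padic` : `v_r(a) < 0` ⟹ `N v_r(g) = (N - 1) v_r(a)` or
                      `v_r(g) = 12 v_r(N) - (N - 1) v_r(a)`.
-/

set_option autoImplicit false

noncomputable section

namespace Fermat.Agent.S15

open Polynomial Fermat.Agent.S28 Fermat.Agent.S36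

section Val

variable {F Γ₀ : Type*} [Field F] [LinearOrderedCommGroupWithZero Γ₀] (v : Valuation F Γ₀)

theorem n3eq_val_natCast_le_one (n : ℕ) : v (n : F) ≤ 1 := by
  induction n with
  | zero => simp
  | succ n ih =>
    rw [Nat.cast_succ]
    exact (v.map_add _ _).trans (max_le ih (by rw [map_one]))

theorem n3eq_val_intCast_le_one (n : ℤ) : v (n : F) ≤ 1 := by
  rcases Int.natAbs_eq n with h | h
  · rw [h, Int.cast_natCast]
    exact n3eq_val_natCast_le_one v _
  · rw [h, Int.cast_neg, Int.cast_natCast, Valuation.map_neg]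
    exact n3eq_val_natCast_le_one v _

theorem n3eq_evalInt_eq_eval (a : F) (c : Polynomial ℤ) :
    evalInt a c = (c.map (Int.castRingHom F)).eval a := by
  rw [evalInt, Polynomial.coe_eval₂RingHom, Polynomial.eval_map]

theorem n3eq_val_coeff_map_le_one (c : Polynomial ℤ) (j : ℕ) :
    v ((c.map (Int.castRingHom F)).coeff j) ≤ 1 := by
  rw [Polynomial.coeff_map]
  exact n3eq_val_intCast_le_one v _

/-- integrality of `c(a)`, `c ∈ ℤ[Y]`, `v a ≤ 1` -/
theorem n3eq_val_evalInt_le_one (c : Polynomial ℤ) {a : F} (ha : v a ≤ 1) :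
    v (evalInt a c) ≤ 1 := by
  rw [n3eq_evalInt_eq_eval]
  have h := n3eq_val_eval_le v (c.map (Int.castRingHom F)) (n3eq_val_coeff_map_le_one v c)
    (A := 1) le_rfl ha (m := (c.map (Int.castRingHom F)).natDegree) le_rfl
  simpa using h

variable (N : ℕ) [NeZero N] (hN : N.Prime)

/-- the modular equation of `g` specialised at `j = a` -/
def n3eqG (a : F) : Polynomial F := (s36tuW N hN).map (evalInt a)

theorem n3eqG_monic (a : F) : (n3eqG N hN a).Monic := (s36tuW_monic N hN).map _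

theorem n3eqG_natDegree (a : F) : (n3eqG N hN a).natDegree = N + 1 := by
  rw [n3eqG, (s36tuW_monic N hN).natDegree_map, s36tuW_natDegree]

theorem n3eqG_coeff (a : F) (k : ℕ) :
    (n3eqG N hN a).coeff k = evalInt a ((s36tuW N hN).coeff k) := by
  rw [n3eqG, Polynomial.coeff_map]

theorem n3eqG_eval (a g : F) : (n3eqG N hN a).eval g = (s36tuW N hN).eval₂ (evalInt a) g := by
  rw [n3eqG, Polynomial.eval_map]

theorem n3eqG_val_coeff_zero (a : F) : v ((n3eqG N hN a).coeff 0) = v (N : F) ^ 12 := by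
  obtain ⟨ε, hε, h0⟩ := n3eq_W_coeff_zero N hN
  rw [n3eqG_coeff, h0, n3eq_evalInt_eq_eval, Polynomial.map_C, Polynomial.eval_C]
  rcases hε with rfl | rfl
  · simp
  · simp

/-- **(MB)**: `j` integral ⟹ `g` integral and `g ∣ N¹²`. -/
theorem n3eq_mb {a g : F} (h : (s36tuW N hN).eval₂ (evalInt a) g = 0) (ha : v a ≤ 1) :
    v (N : F) ^ 12 ≤ v g ∧ v g ≤ 1 := by
  rw [← n3eqG_eval] at h
  refine n3eq_newton_mb v (n3eqG N hN a) (n3eqG_monic N hN a) (fun k => ?_)
    (n3eqG_val_coeff_zero v N hN a) h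
  rw [n3eqG_coeff]
  exact n3eq_val_evalInt_le_one v _ ha

/-- **(DICH)**: `j` has a pole ⟹ `g` is in the residue disc of the cusp `0` or of the cusp `∞`. -/
theorem n3eq_dich {a g : F} (h : (s36tuW N hN).eval₂ (evalInt a) g = 0) (ha : 1 < v a)
    (hNF : (N : F) ≠ 0) :
    v g ^ N = v a ^ (N - 1) ∨ v g * v a ^ (N - 1) = v (N : F) ^ 12 := by
  rw [← n3eqG_eval] at h
  have hN1 : 1 ≤ N := hN.one_lt.le
  refine n3eq_newton_dich v (n3eqG N hN a) N hN1 (n3eqG_monic N hN a) (n3eqG_natDegree N hN a)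
    ha (pow_ne_zero _ ((Valuation.ne_zero_iff v).mpr hNF))
    (pow_le_one₀ zero_le (n3eq_val_natCast_le_one v N)) (fun k hk1 hkN => ?_) ?_
    (n3eqG_val_coeff_zero v N hN a) h
  · rw [n3eqG_coeff, n3eq_evalInt_eq_eval]
    refine n3eq_val_eval_le v _ (n3eq_val_coeff_map_le_one v _) ha.le le_rfl ?_
    exact (Polynomial.natDegree_map_le).trans (n3eq_W_natDegree_coeff_le N hN k hk1 hkN)
  · obtain ⟨hdeg, hlc⟩ := n3eq_W_coeff_one N hN
    rw [n3eqG_coeff, n3eq_evalInt_eq_eval]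
    have hlc0 : (Int.castRingHom F) ((s36tuW N hN).coeff 1).leadingCoeff ≠ 0 := by
      rcases hlc with h1 | h1 <;> rw [h1] <;> simp
    have hd : (((s36tuW N hN).coeff 1).map (Int.castRingHom F)).natDegree = N - 1 := by
      rw [Polynomial.natDegree_map_of_leadingCoeff_ne_zero _ hlc0, hdeg]
    have hl : v (((s36tuW N hN).coeff 1).map (Int.castRingHom F)).leadingCoeff = 1 := by
      rw [Polynomial.leadingCoeff_map_of_leadingCoeff_ne_zero _ hlc0]
      rcases hlc with h1 | h1 <;> rw [h1] <;> simp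
    have := n3eq_val_eval_eq v _ (n3eq_val_coeff_map_le_one v ((s36tuW N hN).coeff 1)) hl ha rfl
    rw [hd] at this
    exact this

end Val

section Root

variable {F : Type*} [Field F] (N : ℕ) [NeZero N] (hN : N.Prime)

theorem n3eqG_coeff_zero (a : F) :
    ∃ ε : F, (ε = 1 ∨ ε = -1) ∧ (n3eqG N hN a).coeff 0 = ε * (N : F) ^ 12 := by
  obtain ⟨ε, hε, h0⟩ := n3eq_W_coeff_zero N hN
  refine ⟨(ε : F), ?_, ?_⟩
  · rcases hε with rfl | rfl
    · left; simp
    · right; simp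
  · rw [n3eqG_coeff, h0, n3eq_evalInt_eq_eval, Polynomial.map_C, Polynomial.eval_C]
    simp

/-- a root of the modular equation is nonzero (`N ≠ 0` in `F`) -/
theorem n3eq_root_ne_zero {a g : F} (h : (s36tuW N hN).eval₂ (evalInt a) g = 0)
    (hNF : (N : F) ≠ 0) : g ≠ 0 := by
  rintro rfl
  rw [← n3eqG_eval, ← Polynomial.coeff_zero_eq_eval_zero] at h
  obtain ⟨ε, hε, h0⟩ := n3eqG_coeff_zero N hN a
  rw [h0] at h
  have hε0 : ε ≠ 0 := by
    rcases hε with rfl | rfl
    · exact one_ne_zero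
    · exact neg_ne_zero.mpr one_ne_zero
  exact mul_ne_zero hε0 (pow_ne_zero _ hNF) h

end Root

section Padic

variable (N : ℕ) [NeZero N] (hN : N.Prime) (r : ℕ) [Fact r.Prime]

theorem n3eq_padicValuation_eq {x : ℚ} (hx : x ≠ 0) :
    Rat.padicValuation r x = WithZero.exp (-padicValRat r x) := by
  simp [Rat.padicValuation, hx]

theorem n3eq_padicValuation_le_one_iff {x : ℚ} (hx : x ≠ 0) :
    Rat.padicValuation r x ≤ 1 ↔ 0 ≤ padicValRat r x := by
  rw [n3eq_padicValuation_eq r hx, ← WithZero.exp_zero, WithZero.exp_le_exp]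
  omega

/-- **(MB)**, `r`-adic form. -/
theorem n3eq_mb_padic {a g : ℚ} (h : (s36tuW N hN).eval₂ (evalInt a) g = 0)
    (ha : 0 ≤ padicValRat r a) :
    0 ≤ padicValRat r g ∧ padicValRat r g ≤ 12 * padicValRat r (N : ℚ) := by
  have hNQ : (N : ℚ) ≠ 0 := Nat.cast_ne_zero.mpr (NeZero.ne N)
  have hg : g ≠ 0 := n3eq_root_ne_zero N hN h hNQ
  have hav : Rat.padicValuation r a ≤ 1 := by
    rcases eq_or_ne a 0 with rfl | ha0
    · simp
    · exact (n3eq_padicValuation_le_one_iff r ha0).mpr ha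
  obtain ⟨h1, h2⟩ := n3eq_mb (Rat.padicValuation r) N hN h hav
  refine ⟨(n3eq_padicValuation_le_one_iff r hg).mp h2, ?_⟩
  rw [n3eq_padicValuation_eq r hNQ, n3eq_padicValuation_eq r hg, ← WithZero.exp_nsmul,
    WithZero.exp_le_exp] at h1
  simp only [nsmul_eq_mul, Nat.cast_ofNat] at h1
  omega

/-- **(DICH)**, `r`-adic form. -/
theorem n3eq_dich_padic {a g : ℚ} (h : (s36tuW N hN).eval₂ (evalInt a) g = 0)
    (ha : padicValRat r a < 0) :
    (N : ℤ) * padicValRat r g = ((N : ℤ) - 1) * padicValRat r a ∨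
      padicValRat r g = 12 * padicValRat r (N : ℚ) - ((N : ℤ) - 1) * padicValRat r a := by
  have hNQ : (N : ℚ) ≠ 0 := Nat.cast_ne_zero.mpr (NeZero.ne N)
  have hg : g ≠ 0 := n3eq_root_ne_zero N hN h hNQ
  have ha0 : a ≠ 0 := by
    rintro rfl
    simp at ha
  have hav : 1 < Rat.padicValuation r a := by
    rw [n3eq_padicValuation_eq r ha0, ← WithZero.exp_zero, WithZero.exp_lt_exp]
    omega
  have hN1 : 1 ≤ N := hN.one_lt.le
  have hcast : ((N - 1 : ℕ) : ℤ) = (N : ℤ) - 1 := by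
    rw [Nat.cast_sub hN1, Nat.cast_one]
  rcases n3eq_dich (Rat.padicValuation r) N hN h hav hNQ with h1 | h1
  · left
    rw [n3eq_padicValuation_eq r hg, n3eq_padicValuation_eq r ha0, ← WithZero.exp_nsmul,
      ← WithZero.exp_nsmul, WithZero.exp_inj] at h1
    simp only [nsmul_eq_mul] at h1
    rw [hcast] at h1
    linarith
  · right
    rw [n3eq_padicValuation_eq r hg, n3eq_padicValuation_eq r ha0, n3eq_padicValuation_eq r hNQ,
      ← WithZero.exp_nsmul, ← WithZero.exp_nsmul, ← WithZero.exp_add, WithZero.exp_inj] at h1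
    simp only [nsmul_eq_mul, Nat.cast_ofNat] at h1
    rw [hcast] at h1
    linarith

end Padic

end Fermat.Agent.S15
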