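import Fermat.Agent.S15.N3FQ
import Fermat.Agent.S15.OggLc
import Fermat.Agent.S15.ModFrInt
import Fermat.Agent.ES.RiemannRat

/-!
# S15 / N3-F (helper71), part 2: the product formula `N¹² Δ(Nτ) ∏_k R_{0,k}(τ)² = Δ(τ)^N`

`n3fH_eq_one : n3fH N τ = 1` for an odd prime `N`.

* `n3fo_mem` : a Laurent series over `ℚ̄` whose image over `ℂ` is the expansion of a modular
  function of level `N` lies in `F_N`;
* `n3fo_const` : an element of `F_N` which is the expansion of a modular function without zeros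
  on `ℍ` and has order `0` at `∞` is a constant (the degree of a principal divisor is `0` and the
  only places over `j = ∞` are the two cusps);
* `n3foX` : the expansion of `n3fH`, with rational coefficients by `stmtN3FQ`.
-/

set_option autoImplicit false
set_option linter.unusedSectionVars false
set_option linter.unusedVariables false
set_option linter.style.longLine false
set_option linter.unusedSimpArgs false
set_option linter.style.haveILetI false

noncomputable section

namespace Fermat.Agent.S15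

open UpperHalfPlane PeriodPair Complex Filter Topology ModularForm EisensteinSeries ModularCurve
open AlgebraicCurve
open Fermat.Agent.S23 Fermat.Agent.S24 Fermat.Agent.S28 Fermat.Agent.ES.I2 Fermat.Agent.INJ.HM
open Fermat.Agent.ES.M Fermat.Agent.W1
open scoped Real MatrixGroups Manifold

attribute [local instance] algKbC

local notation "Δ" => ModularForm.discriminant

/-! ### membership in `F_N` -/

theorem n3fo_mem (N : ℕ) [NeZero N] {h : ℍ → ℂ} (hmod : IsModFun N h) {x : LaurentSeries Kb}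
    (hx : coeffMap embC x = laurentOf h) : x ∈ modularFunctionFieldBar N := by
  apply Fermat.Agent.ES.DescentInj.mem_laurentBaseChange_of_coeffMap_mem (K := Kb) (L := ℂ)
  apply Fermat.Agent.ES.R.fullC_le_laurentBaseChange ℂ N
  have e : coeffMap (algebraMap Kb ℂ) x = laurentOf h := hx
  rw [e]
  exact Fermat.Agent.ES.RC.rc_laurentOf_mem_full N hmod

/-! ### a modular function without zeros and poles is a constant -/

theorem n3fo_ne_zero (N : ℕ) [NeZero N] {h : ℍ → ℂ} (hmod : IsModFun N h)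
    (hne : ∀ τ, h τ ≠ 0) (f : FF N)
    (hf : coeffMap embC (f : LaurentSeries Kb) = laurentOf h) : f ≠ 0 := by
  rintro rfl
  have h0 : laurentOf h = 0 := by
    rw [← hf]
    exact map_zero (coeffMap embC)
  have h1 := (laurentOf_eq_zero_iff hmod.isMerInf).1 h0
  exact hne UpperHalfPlane.I (congrFun h1 _)

theorem n3fo_ord_point (N : ℕ) [NeZero N] {h : ℍ → ℂ} (hmod : IsModFun N h)
    (hne : ∀ τ, h τ ≠ 0) (f : FF N)
    (hf : coeffMap embC (f : LaurentSeries Kb) = laurentOf h) (P : Place Kb (FF N))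
    (hP : 0 ≤ P.ord (jF N)) : P.ord f = 0 := by
  obtain ⟨τ, c₀, hτ, rfl⟩ := mfrint_exists_point P hP
  have h1 : IsModFun N (fun _ : ℍ => (1 : ℂ)) := isModFun_const N 1
  have hL0 : laurentOf h ≠ 0 := fun h0 =>
    hne UpperHalfPlane.I (congrFun ((laurentOf_eq_zero_iff hmod.isMerInf).1 h0) _)
  have a1 : 0 ≤ (modPlace N τ c₀ hτ).ord f :=
    mfrint_ord_nonneg hτ hmod h1 (by rw [laurentOf_const, map_one, mul_one, hf]) one_ne_zero
  have a2 : 0 ≤ (modPlace N τ c₀ hτ).ord f⁻¹ := by
    refine mfrint_ord_nonneg hτ h1 hmod ?_ (hne τ)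
    show coeffMap embC ((f : LaurentSeries Kb)⁻¹) * laurentOf h = _
    rw [map_inv₀, hf, inv_mul_cancel₀ hL0, laurentOf_const, map_one]
  rw [Place.ord_inv] at a2
  omega

theorem n3fo_const (N : ℕ) [NeZero N] (hN : N.Prime) {h : ℍ → ℂ} (hmod : IsModFun N h)
    (hne : ∀ τ, h τ ≠ 0) (f : FF N)
    (hf : coeffMap embC (f : LaurentSeries Kb) = laurentOf h)
    (hord : (f : LaurentSeries Kb).order = 0) : ∃ a : Kb, algebraMap Kb (FF N) a = f := by
  classical
  have hf0 : f ≠ 0 := n3fo_ne_zero N hmod hne f hf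
  have hInf : (cuspInf N).ord f = 0 := by rw [cuspInf_ord hf0, hord]
  have hother : ∀ v : Place Kb (FF N), v ≠ cuspInf N → v ≠ cuspZero N → v.ord f = 0 := by
    intro v h1 h2
    apply n3fo_ord_point N hmod hne f hf
    by_contra hlt
    push Not at hlt
    rcases ogg_pole_cases N hN v hlt with h | h
    · exact h1 h
    · exact h2 h
  have hZero : (cuspZero N).ord f = 0 := by
    haveI := Fermat.Agent.ES.H.hasPrincipalDivisors_FF N
    obtain ⟨D, hD, hdeg⟩ := HasPrincipalDivisors.exists_divisor (K := Kb) f hf0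
    have hDeq : D = Finsupp.single (cuspZero N) (D (cuspZero N)) := by
      ext v
      by_cases hv2 : v = cuspZero N
      · subst hv2
        rw [Finsupp.single_eq_same]
      · rw [Finsupp.single_eq_of_ne hv2, hD]
        by_cases hv1 : v = cuspInf N
        · subst hv1
          exact hInf
        · exact hother v hv1 hv2
    rw [hDeq, Divisor.degree_single, cuspZero_deg, hD] at hdeg
    simpa using hdeg
  apply ogg_const_of_ord_eq_zero
  intro v
  by_cases hv1 : v = cuspInf N
  · subst hv1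
    exact hInf
  · by_cases hv2 : v = cuspZero N
    · subst hv2
      exact hZero
    · exact hother v hv1 hv2

/-! ### the expansion of `n3fH` -/

/-- `N¹² · u_N · Y · Δ^{-(N-1)}` over a field `K` of characteristic `0` -/
def n3foX (K : Type*) [Field K] [Algebra ℚ K] (N : ℕ) [NeZero N] (Y : PowerSeries ℚ) :
    LaurentSeries K :=
  HahnSeries.C ((N : K) ^ 12) * uS K N *
    (HahnSeries.ofPowerSeries ℤ K (Y.map (algebraMap ℚ K)) * deltaInvS K ^ (N - 1))

theorem n3fo_coeffMap_deltaInvS {K L : Type*} [Field K] [Field L] (ι : K →+* L) :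
    coeffMap ι (deltaInvS K) = deltaInvS L := by
  have h1 : coeffMap ι (deltaInvS K) * coeffMap ι (deltaS K) = 1 := by
    rw [← map_mul, deltaInvS_mul_deltaS, map_one]
  rw [coeffMap_deltaS] at h1
  rw [deltaInvS_eq_inv L]
  exact eq_inv_of_mul_eq_one_left h1

theorem n3fo_coeffMap_C {K L : Type*} [Field K] [Field L] (ι : K →+* L) (a : K) :
    coeffMap ι (HahnSeries.C a : LaurentSeries K) = HahnSeries.C (ι a) := by
  rw [HahnSeries.C_apply, coeffMap_single, HahnSeries.C_apply]

theorem n3fo_coeffMap_X {K L : Type*} [Field K] [Field L] [Algebra ℚ K] [Algebra ℚ L]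
    (ι : K →+* L) (N : ℕ) [NeZero N] (Y : PowerSeries ℚ) :
    coeffMap ι (n3foX K N Y) = n3foX L N Y := by
  have e : (Y.map (algebraMap ℚ K)).map ι = Y.map (algebraMap ℚ L) := by
    ext n
    simp only [PowerSeries.coeff_map]
    exact RingHom.congr_fun (Subsingleton.elim (ι.comp (algebraMap ℚ K)) (algebraMap ℚ L)) _
  unfold n3foX
  rw [map_mul, map_mul, map_mul, map_pow (coeffMap ι), coeffMap_uS, n3fo_coeffMap_deltaInvS,
    coeffMap_ofPowerSeries, e, n3fo_coeffMap_C, map_pow, map_natCast]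

/-- the expansion of `n3fH` -/
theorem n3fo_laurentOf (N : ℕ) [NeZero N] (Y : PowerSeries ℚ)
    (hY : Y.map (algebraMap ℚ ℂ) = qExpansion 1 (n3fG N)) :
    laurentOf (n3fH N) = n3foX ℂ N Y := by
  have hN1 : 1 ≤ N := Nat.one_le_iff_ne_zero.2 (NeZero.ne N)
  have hg : IsHPB (fun z => (fun z => n3fG N z / Δ z ^ (N - 1)) z * Δ z ^ (N - 1)) := by
    have e : (fun z => (fun z => n3fG N z / Δ z ^ (N - 1)) z * Δ z ^ (N - 1)) = n3fG N := by
      funext z
      exact div_mul_cancel₀ _ (pow_ne_zero _ (discriminant_ne_zero z))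
    rw [e]
    exact n3fG_isHPB N
  have hgM : IsMerInf (fun z => n3fG N z / Δ z ^ (N - 1)) := ⟨N - 1, hg⟩
  have hu : IsMerInf (fun z => Δ (scaleN N z) / Δ z) := (isModFun_unit N).isMerInf
  have hc : IsMerInf (fun _ : ℍ => ((N : ℂ) ^ 12)) := isMerInf_const _
  have e1 : n3fH N = (fun _ : ℍ => ((N : ℂ) ^ 12)) * (fun z => Δ (scaleN N z) / Δ z) *
      (fun z => n3fG N z / Δ z ^ (N - 1)) := by
    funext z
    simp only [Pi.mul_apply, n3fH]
    have hD := discriminant_ne_zero z
    have e2 : Δ z ^ N = Δ z * Δ z ^ (N - 1) := by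
      rw [← pow_succ', Nat.sub_add_cancel hN1]
    rw [e2]
    field_simp
  rw [e1, laurentOf_mul (hc.mul hu) hgM, laurentOf_mul hc hu, laurentOf_const,
    laurentOf_unit_eq_uS, laurentOf_eq hg, n3foX, hY, deltaInvS_complex, inv_pow]
  congr 3
  congr 1
  funext z
  exact div_mul_cancel₀ _ (pow_ne_zero _ (discriminant_ne_zero z))

/-! ### order and leading coefficient -/

theorem n3fo_order_nonneg {K : Type*} [Field K] (p : PowerSeries K) :
    0 ≤ (HahnSeries.ofPowerSeries ℤ K p).order := by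
  by_contra hlt
  push Not at hlt
  have h1 := ModularCurve.ofPowerSeries_coeff_of_neg p hlt
  rw [HahnSeries.coeff_order_eq_zero] at h1
  rw [h1, HahnSeries.order_zero] at hlt
  exact lt_irrefl _ hlt

theorem n3fo_order_zero {K : Type*} [Field K] {p : PowerSeries K}
    (h0 : PowerSeries.coeff 0 p ≠ 0) : (HahnSeries.ofPowerSeries ℤ K p).order = 0 := by
  refine le_antisymm (HahnSeries.order_le_of_coeff_ne_zero ?_) (n3fo_order_nonneg p)
  have := HahnSeries.ofPowerSeries_apply_coeff (Γ := ℤ) p 0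
  rw [Nat.cast_zero] at this
  rwa [this]

theorem n3fo_X_mul (K : Type*) [Field K] [Algebra ℚ K] (N : ℕ) [NeZero N] (Y : PowerSeries ℚ) :
    n3foX K N Y * deltaS K ^ (N - 1) =
      HahnSeries.C ((N : K) ^ 12) * uS K N *
        HahnSeries.ofPowerSeries ℤ K (Y.map (algebraMap ℚ K)) := by
  have h : deltaInvS K ^ (N - 1) * deltaS K ^ (N - 1) = 1 := by
    rw [← mul_pow, deltaInvS_mul_deltaS, one_pow]
  rw [n3foX, mul_assoc, mul_assoc _ (deltaInvS K ^ (N - 1)), h, mul_one]

theorem n3fo_lc_deltaS (K : Type*) [Field K] : (deltaS K).leadingCoeff = 1 := by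
  rw [HahnSeries.leadingCoeff_eq, order_deltaS, coeff_deltaS_one]

theorem n3fo_lc_ofPowerSeries {K : Type*} [Field K] {p : PowerSeries K}
    (h0 : PowerSeries.coeff 0 p ≠ 0) :
    (HahnSeries.ofPowerSeries ℤ K p).leadingCoeff = PowerSeries.coeff 0 p := by
  rw [HahnSeries.leadingCoeff_eq, n3fo_order_zero h0]
  have := HahnSeries.ofPowerSeries_apply_coeff (Γ := ℤ) p 0
  rw [Nat.cast_zero] at this
  exact this

theorem n3fo_X_ne_zero (K : Type*) [Field K] [Algebra ℚ K] [CharZero K] (N : ℕ) [NeZero N]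
    (Y : PowerSeries ℚ) (hY0 : PowerSeries.constantCoeff Y ≠ 0) : n3foX K N Y ≠ 0 := by
  have hN0 : ((N : K) ^ 12) ≠ 0 := pow_ne_zero _ (Nat.cast_ne_zero.2 (NeZero.ne N))
  have hY1 : PowerSeries.coeff 0 (Y.map (algebraMap ℚ K)) ≠ 0 := by
    rw [PowerSeries.coeff_map, PowerSeries.coeff_zero_eq_constantCoeff_apply]
    exact (map_ne_zero (algebraMap ℚ K)).2 hY0
  have hY2 : HahnSeries.ofPowerSeries ℤ K (Y.map (algebraMap ℚ K)) ≠ 0 := by
    intro h
    apply hY1
    have := HahnSeries.ofPowerSeries_injective (Γ := ℤ) (R := K)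
      (h.trans (map_zero (HahnSeries.ofPowerSeries ℤ K)).symm)
    rw [this, map_zero]
  unfold n3foX
  refine mul_ne_zero (mul_ne_zero ?_ (uS_ne_zero N K))
    (mul_ne_zero hY2 (pow_ne_zero _ (deltaInvS_ne_zero K)))
  rw [HahnSeries.C_apply]
  exact HahnSeries.single_ne_zero hN0

theorem n3fo_X_order (K : Type*) [Field K] [Algebra ℚ K] [CharZero K] (N : ℕ) [NeZero N]
    (Y : PowerSeries ℚ) (hY0 : PowerSeries.constantCoeff Y ≠ 0) : (n3foX K N Y).order = 0 := by
  have hN0 : ((N : K) ^ 12) ≠ 0 := pow_ne_zero _ (Nat.cast_ne_zero.2 (NeZero.ne N))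
  have hN1 : 1 ≤ N := Nat.one_le_iff_ne_zero.2 (NeZero.ne N)
  have hY1 : PowerSeries.coeff 0 (Y.map (algebraMap ℚ K)) ≠ 0 := by
    rw [PowerSeries.coeff_map, PowerSeries.coeff_zero_eq_constantCoeff_apply]
    exact (map_ne_zero (algebraMap ℚ K)).2 hY0
  have hY2 : HahnSeries.ofPowerSeries ℤ K (Y.map (algebraMap ℚ K)) ≠ 0 := by
    intro h
    apply hY1
    have := HahnSeries.ofPowerSeries_injective (Γ := ℤ) (R := K)
      (h.trans (map_zero (HahnSeries.ofPowerSeries ℤ K)).symm)
    rw [this, map_zero]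
  have hC : (HahnSeries.C ((N : K) ^ 12) : LaurentSeries K) ≠ 0 := by
    rw [HahnSeries.C_apply]
    exact HahnSeries.single_ne_zero hN0
  have h := congrArg HahnSeries.order (n3fo_X_mul K N Y)
  rw [HahnSeries.order_mul (n3fo_X_ne_zero K N Y hY0) (pow_ne_zero _ (deltaS_ne_zero K)),
    HahnSeries.order_mul (mul_ne_zero hC (uS_ne_zero N K)) hY2,
    HahnSeries.order_mul hC (uS_ne_zero N K), HahnSeries.order_C, order_uS,
    n3fo_order_zero hY1, Fermat.Agent.ES.DescentInj.order_pow', order_deltaS] at h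
  have e : ((N - 1 : ℕ) : ℤ) = (N : ℤ) - 1 := by
    push_cast [Nat.cast_sub hN1]
    ring
  rw [nsmul_eq_mul, e] at h
  linarith

theorem n3fo_X_lc (K : Type*) [Field K] [Algebra ℚ K] [CharZero K] (N : ℕ) [NeZero N]
    (Y : PowerSeries ℚ) (hY0 : PowerSeries.constantCoeff Y ≠ 0) :
    (n3foX K N Y).leadingCoeff = (N : K) ^ 12 * algebraMap ℚ K (PowerSeries.constantCoeff Y) := by
  have hY1 : PowerSeries.coeff 0 (Y.map (algebraMap ℚ K)) ≠ 0 := by
    rw [PowerSeries.coeff_map, PowerSeries.coeff_zero_eq_constantCoeff_apply]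
    exact (map_ne_zero (algebraMap ℚ K)).2 hY0
  have h := congrArg HahnSeries.leadingCoeff (n3fo_X_mul K N Y)
  have hp : ∀ n : ℕ, (deltaS K ^ n).leadingCoeff = 1 := by
    intro n
    induction n with
    | zero => rw [pow_zero, HahnSeries.leadingCoeff_one]
    | succ n ih => rw [pow_succ, HahnSeries.leadingCoeff_mul, ih, n3fo_lc_deltaS, mul_one]
  rw [HahnSeries.leadingCoeff_mul, HahnSeries.leadingCoeff_mul, HahnSeries.leadingCoeff_mul,
    hp, mul_one, ogg_leadingCoeff_uS, mul_one, n3fo_lc_ofPowerSeries hY1, HahnSeries.C_apply,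
    HahnSeries.leadingCoeff_of_single, PowerSeries.coeff_map,
    PowerSeries.coeff_zero_eq_constantCoeff_apply] at h
  exact h

/-! ### the product formula -/

/-- **N3-F, product formula**: `N¹² Δ(Nτ) ∏_{k=1}^{N-1} R_{0,k}(τ)² = Δ(τ)^N` for an odd prime
`N`. -/
theorem n3fH_eq_one (N : ℕ) [NeZero N] (hN : N.Prime) (hodd : N ≠ 2) (τ : ℍ) : n3fH N τ = 1 := by
  obtain ⟨Y, hY, hY0⟩ := stmtN3FQ N hN hodd
  have hNQ : ((N : ℚ) ^ 12) ≠ 0 := pow_ne_zero _ (Nat.cast_ne_zero.2 (NeZero.ne N))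
  have hYc : PowerSeries.constantCoeff Y ≠ 0 := by
    intro h
    rw [h, zero_mul] at hY0
    exact zero_ne_one hY0
  have hmod := isModFun_n3fH N hN
  have hL : coeffMap embC (n3foX Kb N Y) = laurentOf (n3fH N) := by
    rw [n3fo_coeffMap_X, n3fo_laurentOf N Y (by rw [hY, n3f_qExp_G])]
  have hmem := n3fo_mem N hmod hL
  obtain ⟨a, ha⟩ := n3fo_const N hN hmod (n3fH_ne_zero N hN hodd) ⟨n3foX Kb N Y, hmem⟩ hL
    (n3fo_X_order Kb N Y hYc)
  have ha1 : a = 1 := by
    have h1 := oggLc_algebraMap (N := N) a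
    rw [ha] at h1
    rw [← h1]
    show (n3foX Kb N Y).leadingCoeff = 1
    rw [n3fo_X_lc Kb N Y hYc]
    have h2 := congrArg (algebraMap ℚ Kb) hY0
    rw [map_mul, map_pow, map_natCast, map_one, mul_comm] at h2
    exact h2
  have hX : n3foX Kb N Y = 1 := by
    have h1 := congrArg (fun z : FF N => (z : LaurentSeries Kb)) ha
    simp only at h1
    rw [← h1, ha1, map_one]
    rfl
  have hfun : n3fH N = fun _ => (1 : ℂ) := by
    apply laurentOf_injective hmod.isMerInf (isMerInf_const 1)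
    rw [← hL, hX, map_one, laurentOf_const, map_one]
  exact congrFun hfun τ

end Fermat.Agent.S15
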