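import Fermat.Agent.S15.N3FForm
import Fermat.Agent.S15.ModFrRat

/-!
# S15 / N3F-Q (helper56): the formal product `∏_k (4 S_k³ − E₄ S_k / 12 + E₆ / 216)²`

`S_k = 1/12 + mfrSeries ζ_N^k`.  The product has rational coefficients (it is fixed by `Aut ℂ`,
which permutes the primitive `N`-th roots of unity) and constant term `N⁻¹²`
(at `q = 0` the factor is `(u (1 + u) / (1 − u)³)²`, `∏ (1 − μ) = N`, `∏ (1 + μ) = 1`,
`(∏ μ)² = 1`).
-/

set_option autoImplicit false
set_option linter.unusedSectionVars false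
set_option linter.unusedVariables false
set_option linter.style.longLine false
set_option linter.unusedSimpArgs false

noncomputable section

namespace Fermat.Agent.S15

open Complex Polynomial
open Fermat.Agent.ES.I2

/-- `Aut ℂ` acts on the factor through its action on `u` -/
theorem n3fq_map_RS (σ : ℂ ≃+* ℂ) (u : ℂ) :
    PowerSeries.map (σ : ℂ →+* ℂ) (n3fRS u) = n3fRS (σ u) := by
  unfold n3fRS
  rw [map_add, map_sub, map_mul, map_mul, map_mul, map_mul, map_pow, map_add,
    mfrrat_map_int, mfrrat_map_int, mfrrat_map_series, PowerSeries.map_C, PowerSeries.map_C,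
    PowerSeries.map_C]
  have h4 : (σ : ℂ →+* ℂ) 4 = 4 := map_ofNat σ 4
  have h12 : (σ : ℂ →+* ℂ) (1 / 12) = 1 / 12 := by
    rw [map_div₀, map_one]
    congr 1
    exact map_ofNat σ 12
  have h216 : (σ : ℂ →+* ℂ) (1 / 216) = 1 / 216 := by
    rw [map_div₀, map_one]
    congr 1
    exact map_ofNat σ 216
  rw [h4, h12, h216]

/-- the coefficients of the product are rational -/
theorem n3fq_coeff_rat (N : ℕ) (hN : N.Prime) (e : ℕ) :
    ∃ r : ℚ, PowerSeries.coeff e (∏ μ ∈ primitiveRoots N ℂ, n3fRS μ ^ 2) = (r : ℂ) := by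
  have hfix : ∀ σ : ℂ ≃+* ℂ,
      σ (PowerSeries.coeff e (∏ μ ∈ primitiveRoots N ℂ, n3fRS μ ^ 2))
        = PowerSeries.coeff e (∏ μ ∈ primitiveRoots N ℂ, n3fRS μ ^ 2) := by
    intro σ
    have h1 : PowerSeries.map (σ : ℂ →+* ℂ) (∏ μ ∈ primitiveRoots N ℂ, n3fRS μ ^ 2)
        = ∏ μ ∈ primitiveRoots N ℂ, n3fRS μ ^ 2 := by
      rw [map_prod]
      simp_rw [map_pow, n3fq_map_RS]
      exact mfrrat_prod_aut N hN (fun u => n3fRS u ^ 2) σ
    have h2 := congrArg (PowerSeries.coeff e) h1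
    rw [PowerSeries.coeff_map] at h2
    exact h2
  exact Fermat.Agent.S23.descent_exists_rat_of_fixed _ hfix

/-- the constant term of the factor -/
theorem n3fq_const (u : ℂ) (hu : 1 - u ≠ 0) :
    PowerSeries.constantCoeff (n3fRS u) = (u * (1 + u) / (1 - u) ^ 3) ^ 2 := by
  have hS : PowerSeries.constantCoeff (mfrSeries u) = u / (1 - u) ^ 2 := by
    rw [← PowerSeries.coeff_zero_eq_constantCoeff_apply, mfrSeries, PowerSeries.coeff_mk]
    simp
  have h4 : PowerSeries.constantCoeff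
      (PowerSeries.map (Int.castRingHom ℂ) ModularCurve.eisenstein4) = 1 := by
    rw [← PowerSeries.coeff_zero_eq_constantCoeff_apply, PowerSeries.coeff_map,
      PowerSeries.coeff_zero_eq_constantCoeff_apply, ModularCurve.constantCoeff_eisenstein4]
    simp
  have h6 : PowerSeries.constantCoeff (PowerSeries.map (Int.castRingHom ℂ) mfE6) = 1 := by
    rw [← PowerSeries.coeff_zero_eq_constantCoeff_apply, PowerSeries.coeff_map,
      PowerSeries.coeff_zero_eq_constantCoeff_apply, mfr_constantCoeff_mfE6]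
    simp
  unfold n3fRS
  rw [map_add, map_sub, map_mul, map_mul, map_mul, map_mul, map_pow, map_add, hS, h4, h6,
    PowerSeries.constantCoeff_C, PowerSeries.constantCoeff_C, PowerSeries.constantCoeff_C]
  field_simp
  ring

/-- `∏ (1 + μ) = 1` for `N` an odd prime -/
theorem n3fq_prod_one_add (N : ℕ) (hN : N.Prime) (hodd : N ≠ 2) :
    ∏ μ ∈ primitiveRoots N ℂ, (1 + μ) = 1 := by
  have : Fact N.Prime := ⟨hN⟩
  have hζ := Complex.isPrimitiveRoot_exp N hN.ne_zero
  have h1 := Polynomial.cyclotomic_eq_prod_X_sub_primitiveRoots hζ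
  have hoddN : Odd N := hN.odd_of_ne_two hodd
  have h2 : (cyclotomic N ℂ).eval (-1) = 1 := by
    rw [Polynomial.cyclotomic_prime, Polynomial.eval_finsetSum]
    simp only [Polynomial.eval_pow, Polynomial.eval_X]
    have h3 := geom_sum_mul (-1 : ℂ) N
    rw [hoddN.neg_one_pow] at h3
    have h4 : (∑ i ∈ Finset.range N, (-1 : ℂ) ^ i) * (-2) = 1 * (-2) := by
      rw [one_mul]
      have : (-1 : ℂ) - 1 = -2 := by norm_num
      rw [← this]
      exact h3
    exact mul_right_cancel₀ (by norm_num) h4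
  rw [h1, Polynomial.eval_prod] at h2
  simp only [Polynomial.eval_sub, Polynomial.eval_X, Polynomial.eval_C] at h2
  have h5 : ∏ μ ∈ primitiveRoots N ℂ, (-1 - μ) = ∏ μ ∈ primitiveRoots N ℂ, (1 + μ) := by
    have e : ∀ μ : ℂ, -1 - μ = -(1 + μ) := fun μ => by ring
    simp_rw [e]
    rw [Finset.prod_neg, Complex.card_primitiveRoots, Nat.totient_prime hN]
    have hev : Even (N - 1) := by
      obtain ⟨m, hm⟩ := hoddN
      exact ⟨m, by omega⟩
    rw [hev.neg_one_pow, one_mul]
  rw [← h5]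
  exact h2

/-- **N3F-Q.** -/
theorem stmtN3FQ : StmtN3FQ := by
  intro N hN hodd
  have hP := mfrrat_prod_eq N hN (fun u => n3fRS u ^ 2)
  choose c hc using n3fq_coeff_rat N hN
  refine ⟨PowerSeries.mk c, ?_, ?_⟩
  · rw [hP]
    ext e
    rw [PowerSeries.coeff_map, PowerSeries.coeff_mk, hc e]
    rfl
  · have h0 := hc 0
    rw [PowerSeries.coeff_zero_eq_constantCoeff_apply, map_prod] at h0
    have hne : ∀ μ ∈ primitiveRoots N ℂ, (1 : ℂ) - μ ≠ 0 := by
      intro μ hμ
      exact mfrrat_one_sub_ne hN hμ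
    have h1 : ∏ μ ∈ primitiveRoots N ℂ, PowerSeries.constantCoeff (n3fRS μ ^ 2)
        = ∏ μ ∈ primitiveRoots N ℂ, ((μ * (1 + μ)) ^ 4 / ((1 - μ) ^ 12)) := by
      refine Finset.prod_congr rfl fun μ hμ => ?_
      rw [map_pow, n3fq_const μ (hne μ hμ)]
      have := hne μ hμ
      field_simp
    rw [h1, Finset.prod_div_distrib, Finset.prod_pow, Finset.prod_pow, Finset.prod_mul_distrib,
      mfrrat_prod_one_sub N hN, n3fq_prod_one_add N hN hodd, mul_one] at h0
    have h2 : (∏ μ ∈ primitiveRoots N ℂ, μ) ^ 4 = 1 := by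
      have := mfrrat_prod_root_sq N hN
      calc (∏ μ ∈ primitiveRoots N ℂ, μ) ^ 4 = ((∏ μ ∈ primitiveRoots N ℂ, μ) ^ 2) ^ 2 := by ring
        _ = 1 := by rw [this]; norm_num
    rw [h2] at h0
    have hN0 : (N : ℂ) ≠ 0 := Nat.cast_ne_zero.2 hN.ne_zero
    have h3 : ((c 0 * (N : ℚ) ^ 12 : ℚ) : ℂ) = ((1 : ℚ) : ℂ) := by
      push_cast
      rw [← h0]
      field_simp
    have h4 : PowerSeries.constantCoeff (PowerSeries.mk c) = c 0 := by
      rw [← PowerSeries.coeff_zero_eq_constantCoeff_apply, PowerSeries.coeff_mk]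
    rw [h4]
    exact_mod_cast h3

end Fermat.Agent.S15
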