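import Fermat.Agent.S15.N3AsmE
import Fermat.Agent.S15.N3AsmP
import Fermat.Agent.S15.N3Eq
import Fermat.Agent.S15.ModAdd
import Fermat.Agent.S15.ModFricke

/-!
# S15 / N3 — `Plan.StmtMod` (v2) from the two open pieces N3-F and N3-EC (helper51)

`stmtMod_of_n3F_EC : StmtN3F → StmtN3EC → StmtMod`, with the finished pieces plugged in:
`stmtModAdd` (MOD-ADD), `stmtModFricke` (MOD-FRICKE, helper71), `stmtN3Eq` (N3-EQ, helper80),
`stmtModAsmE2_of`, `stmtModAsmP2_of`, `stmtMod_of_n3`.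
-/

set_option autoImplicit false

namespace Fermat.Agent.S15

/-- `Plan.StmtMod` (v2) from N3-F and N3-EC. -/
theorem stmtMod_of_n3F_EC (hF : StmtN3F) (hEC : StmtN3EC) : StmtMod :=
  stmtMod_of_n3 (stmtModAsmE2_of stmtModAdd hEC) (stmtModAsmP2_of stmtModFricke hF) stmtN3Eq

end Fermat.Agent.S15
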