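import Fermat.Agent.S15.PkgField
import Fermat.Agent.UNIP.NodesDeg
import Fermat.Agent.ES.LR.Final
import Fermat.Agent.S28.Descent
import Fermat.Agent.S28.Red

/-!
# S15 / LN-PKG, piece PKG-val (2): (RedF) at the level `N` itself

`N` prime, `A ⊂ ℚ̄` over `N`, `k = kA A`.  The reduction of an `A`-integral element of `F_N` lies
in `k(j̄)`: the residue field of the Gauss valuation at `∞` is `k(j̄)` (residue degree `1`).

Proof (linear algebra, no local algebra): the `N + 2` elements `x, 1, c, c j_N, …, c j_N^(N-1)`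
(`c = j_N − j^N ≡ 0`) are linearly dependent over `ℚ̄(j)`; normalise the relation; reduce it at the
Gauss valuation and, after applying `w_N`, at the second Gauss valuation, where
`1, j̄, …, j̄^(N-1)` are independent over `k(j̄^N)`.

* `pkg_normalize`  : finitely many polynomials over `ℚ̄`, not all zero, have a common multiple by
  a constant which is primitive over `A`;
* `pkg_relation`   : the relation with polynomial coefficients;
* `pkg_redF_core`  : (RedF) for `Y` such that `w_N Y` is Gauss-integral;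
* `pkg_redF`       : `StmtRedF N A`;   `pkg_base : PkgBase N A`;   `stmtPkgBase : StmtPkgBase`.
-/

set_option autoImplicit false

noncomputable section

open ModularCurve HahnSeries Polynomial

namespace Fermat.Agent.S15.LN

open Fermat.Agent.UNIP Fermat.Agent.S28.UB Fermat.Agent.S24 Fermat.Agent.ES Fermat.Agent.ES.M
  Fermat.Agent.DEU

/-! ## Normalisation of finitely many polynomials -/

theorem pkg_normalize {ι : Type*} [Fintype ι] (A : ValuationSubring Kb) (p : ι → Polynomial Kb)
    (hp : ∃ i, p i ≠ 0) :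
    ∃ (e : Kb) (P : ι → Polynomial A), e ≠ 0 ∧
      (∀ i, (P i).map A.subtype = Polynomial.C e * p i) ∧
      ∃ i, (P i).map (IsLocalRing.residue A) ≠ 0 := by
  classical
  set S : Finset (Σ _ : ι, ℕ) := Finset.univ.sigma (fun i => (p i).support) with hS
  have hne : S.Nonempty := by
    obtain ⟨i, hi⟩ := hp
    obtain ⟨n, hn⟩ := Polynomial.nonempty_support_iff.mpr hi
    exact ⟨⟨i, n⟩, Finset.mem_sigma.mpr ⟨Finset.mem_univ _, hn⟩⟩
  obtain ⟨⟨i₀, n₀⟩, h₀S, hmax⟩ :=
    Finset.exists_max_image S (fun x => A.valuation ((p x.1).coeff x.2)) hne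
  have hc₀ : (p i₀).coeff n₀ ≠ 0 :=
    Polynomial.mem_support_iff.mp (Finset.mem_sigma.mp h₀S).2
  set e : Kb := ((p i₀).coeff n₀)⁻¹ with he
  have he0 : e ≠ 0 := inv_ne_zero hc₀
  have hmem : ∀ i n, e * (p i).coeff n ∈ A := by
    intro i n
    by_cases h0 : (p i).coeff n = 0
    · rw [h0, mul_zero]; exact A.zero_mem
    · have hin : (⟨i, n⟩ : Σ _ : ι, ℕ) ∈ S :=
        Finset.mem_sigma.mpr ⟨Finset.mem_univ _, Polynomial.mem_support_iff.mpr h0⟩
      have h1 := hmax ⟨i, n⟩ hin
      rw [← ValuationSubring.valuation_le_one_iff, map_mul, he, map_inv₀]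
      have hv0 : A.valuation ((p i₀).coeff n₀) ≠ 0 := (Valuation.ne_zero_iff _).mpr hc₀
      rw [inv_mul_le_iff₀ (zero_lt_iff.mpr hv0), mul_one]
      exact h1
  have hlift : ∀ i, Polynomial.C e * p i ∈ Polynomial.lifts A.subtype := by
    intro i
    rw [Polynomial.lifts_iff_coeff_lifts]
    intro n
    rw [Polynomial.coeff_C_mul]
    exact ⟨⟨_, hmem i n⟩, rfl⟩
  choose P hP using fun i => (Polynomial.mem_lifts _).mp (hlift i)
  refine ⟨e, P, he0, hP, i₀, ?_⟩
  intro h
  have h1 : ((P i₀).map (IsLocalRing.residue A)).coeff n₀ = 0 := by rw [h, Polynomial.coeff_zero]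
  rw [Polynomial.coeff_map] at h1
  have h2 : (((P i₀).coeff n₀ : A) : Kb) = 1 := by
    have h3 := congrArg (fun q => Polynomial.coeff q n₀) (hP i₀)
    simp only [Polynomial.coeff_map, Polynomial.coeff_C_mul] at h3
    have h4 : A.subtype ((P i₀).coeff n₀) = e * (p i₀).coeff n₀ := h3
    rw [he, inv_mul_cancel₀ hc₀] at h4
    exact h4
  have h5 : (P i₀).coeff n₀ = 1 := Subtype.ext h2
  rw [h5, map_one] at h1
  exact one_ne_zero h1

/-! ## The relation -/

theorem pkg_fullC_congr (K : Type*) [Field K] {M M' : ℕ} [NeZero M] [NeZero M'] (h : M = M') :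
    modularFunctionFieldFullC K M = modularFunctionFieldFullC K M' := by
  subst h; rfl

theorem pkg_relation (N : ℕ) [NeZero N] (hN : N.Prime) {ι : Type*} [Fintype ι]
    (hι : N + 1 < Fintype.card ι) (x : ι → LaurentSeries Kb)
    (hx : ∀ i, x i ∈ modularFunctionFieldFullC Kb N) :
    ∃ p : ι → Polynomial Kb, (∃ i, p i ≠ 0) ∧
      ∑ i, Polynomial.aeval (jqModC Kb) (p i) * x i = 0 := by
  classical
  have hN1 : ¬ N ∣ 1 := fun h => hN.one_lt.ne' (Nat.dvd_one.mp h)
  have hx' : ∀ i, x i ∈ modularFunctionFieldFullC Kb (1 * N) := by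
    intro i
    rw [pkg_fullC_congr Kb (one_mul N)]
    exact hx i
  obtain ⟨c, hc, ⟨i₀, hi₀⟩, hsum⟩ := nodesDeg_dependent Kb 1 N hN hN1 hι x hx'
  have hc' : ∀ i, ∃ r s : Polynomial Kb, Polynomial.aeval (jqModC Kb) s ≠ 0 ∧
      c i * Polynomial.aeval (jqModC Kb) s = Polynomial.aeval (jqModC Kb) r := by
    intro i
    have h1 := hc i
    rw [full_one, K0, IntermediateField.mem_adjoin_simple_iff] at h1
    obtain ⟨r, s, hrs⟩ := h1
    by_cases hs : Polynomial.aeval (jqModC Kb) s = 0
    · refine ⟨0, 1, by rw [map_one]; exact one_ne_zero, ?_⟩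
      rw [hrs, hs, div_zero, zero_mul, map_zero]
    · exact ⟨r, s, hs, by rw [hrs, div_mul_cancel₀ _ hs]⟩
  choose r s hs hrs using hc'
  refine ⟨fun i => r i * ∏ l ∈ Finset.univ.erase i, s l, ⟨i₀, ?_⟩, ?_⟩
  · intro h0
    have h1 := congrArg (Polynomial.aeval (jqModC Kb)) h0
    rw [map_mul, map_zero, map_prod, ← hrs i₀] at h1
    rcases mul_eq_zero.mp h1 with h2 | h2
    · rcases mul_eq_zero.mp h2 with h3 | h3
      · exact hi₀ h3
      · exact hs i₀ h3
    · rw [Finset.prod_eq_zero_iff] at h2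
      obtain ⟨l, -, hl⟩ := h2
      exact hs l hl
  · have key : ∀ i, Polynomial.aeval (jqModC Kb) (r i * ∏ l ∈ Finset.univ.erase i, s l) * x i =
        (∏ l, Polynomial.aeval (jqModC Kb) (s l)) * (c i * x i) := by
      intro i
      rw [map_mul, map_prod, ← hrs i,
        ← Finset.mul_prod_erase Finset.univ (fun l => Polynomial.aeval (jqModC Kb) (s l))
          (Finset.mem_univ i)]
      ring
    rw [Finset.sum_congr rfl (fun i _ => key i), ← Finset.mul_sum, hsum, mul_zero]

/-! ## Reduction of a normalised relation -/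

theorem pkg_reduce_relation {ι : Type*} [Fintype ι] (A : ValuationSubring Kb)
    (J : LaurentSeries A) (p : ι → Polynomial Kb) (P : ι → Polynomial A) (e : Kb)
    (hP : ∀ i, (P i).map A.subtype = Polynomial.C e * p i)
    (x : ι → LaurentSeries Kb) (XA : ι → LaurentSeries A) (hX : ∀ i, kronIncl A (XA i) = x i)
    (hrel : ∑ i, Polynomial.aeval (kronIncl A J) (p i) * x i = 0) :
    ∑ i, Polynomial.aeval (kronRed A J) ((P i).map (IsLocalRing.residue A)) *
      kronRed A (XA i) = 0 := by
  have h1 : kronIncl A (∑ i, Polynomial.aeval J (P i) * XA i) = 0 := by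
    rw [map_sum]
    have h2 : ∀ i, kronIncl A (Polynomial.aeval J (P i) * XA i) =
        algebraMap Kb (LaurentSeries Kb) e * (Polynomial.aeval (kronIncl A J) (p i) * x i) := by
      intro i
      rw [map_mul, hX i]
      have h3 : kronIncl A (Polynomial.aeval J (P i)) =
          Polynomial.aeval (kronIncl A J) ((P i).map A.subtype) :=
        Fermat.Agent.S28.coeffMap_aeval A.subtype J (P i)
      rw [h3, hP i, map_mul, Polynomial.aeval_C, mul_assoc]
    rw [Finset.sum_congr rfl (fun i _ => h2 i), ← Finset.mul_sum, hrel, mul_zero]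
  have h4 : (∑ i, Polynomial.aeval J (P i) * XA i) = 0 :=
    kronIncl_injective (A := A) (h1.trans (map_zero _).symm)
  have h5 := congrArg (kronRed A) h4
  rw [map_sum, map_zero] at h5
  rw [← h5]
  refine Finset.sum_congr rfl fun i _ => ?_
  rw [map_mul]
  congr 1
  exact (Fermat.Agent.S28.coeffMap_aeval (IsLocalRing.residue A) J (P i)).symm

/-! ## The core -/

section Core

variable (N : ℕ) [NeZero N] (A : ValuationSubring Kb)

/-- the index set of the relation: `x`, `1`, `c j_N ^ i` (`i < N`) -/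
abbrev PkgIdx : Type := Option (Option (Fin N))

theorem pkg_card_idx : N + 1 < Fintype.card (PkgIdx N) := by
  simp [PkgIdx]

theorem pkg_coe_jF : ((jF N : FF N) : LaurentSeries Kb) = jqModC Kb := by
  rw [coe_jF, ogg_jBar_eq]

theorem pkg_coe_jNF : ((jdF N N dvd_rfl : FF N) : LaurentSeries Kb) =
    qExpand Kb N (jqModC Kb) := by
  rw [fr_coe_jdF, Fermat.Agent.S28.intJd_eq]

theorem pkg_fricke_jNF : frickeAut N (jdF N N dvd_rfl) = jF N := by
  apply Subtype.ext
  rw [frickeAut_jdF, fr_coe_jdF, Nat.div_self (Nat.pos_of_ne_zero (NeZero.ne N)),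
    Fermat.Agent.S28.intJd_one, pkg_coe_jF]

theorem pkg_mem_fullC_of_mem_bar {y : LaurentSeries Kb} (hy : y ∈ modularFunctionFieldBar N) :
    y ∈ modularFunctionFieldFullC Kb N := by
  rw [← Fermat.Agent.ES.G2.hdeg_laurentBaseChange_full Kb N]; exact hy

theorem pkg_coe_aeval (x : FF N) (q : Polynomial Kb) :
    ((Polynomial.aeval x q : FF N) : LaurentSeries Kb) =
      Polynomial.aeval (x : LaurentSeries Kb) q :=
  (Polynomial.aeval_algHom_apply (modularFunctionFieldBar N).val x q).symm

theorem pkg_kronIncl_int (T : LaurentSeries ℤ) :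
    kronIncl A (coeffMap (Int.castRingHom A) T) = coeffMap (Int.castRingHom Kb) T := by
  rw [kronIncl, coeffMap_coeffMap]
  exact coeffMap_congr (RingHom.ext_int _ _) T

theorem pkg_kronRed_int (T : LaurentSeries ℤ) :
    kronRed A (coeffMap (Int.castRingHom A) T) = coeffMap (Int.castRingHom (kA A)) T := by
  rw [kronRed, coeffMap_coeffMap]
  exact coeffMap_congr (RingHom.ext_int _ _) T

theorem pkg_aeval_mem_K0 (k : Type*) [Field k] (q : Polynomial k) :
    Polynomial.aeval (jqModC k) q ∈ K0 k := by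
  rw [K0, IntermediateField.mem_adjoin_simple_iff]
  exact ⟨q, 1, by rw [map_one, div_one]⟩

/-- **(RedF) at the level, core**: if `w_N Y` is Gauss-integral then `Ȳ ∈ k(j̄)`. -/
theorem pkg_redF_core (hN : N.Prime) (hA : A.LiesOverPrime N) (Y : LaurentSeries A)
    (hY : kronIncl A Y ∈ modularFunctionFieldBar N)
    (hw : GaussInt N A (frickeAut N ⟨kronIncl A Y, hY⟩)) :
    kronRed A Y ∈ K0 (kA A) := by
  classical
  haveI : CharP (kA A) N := kron_charP_residueField hN hA
  have hjK : jqModC Kb ∈ modularFunctionFieldFullC Kb N := by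
    have := jqModCd_mem_full Kb N (one_dvd N)
    rwa [qExpand_one_apply] at this
  have hjNK : qExpand Kb N (jqModC Kb) ∈ modularFunctionFieldFullC Kb N :=
    jqModCd_mem_full Kb N dvd_rfl
  -- the family over `ℚ̄`
  set x : PkgIdx N → LaurentSeries Kb := fun o =>
    o.elim (kronIncl A Y) (fun o' => o'.elim 1
      (fun i => (qExpand Kb N (jqModC Kb) - jqModC Kb ^ N) * qExpand Kb N (jqModC Kb) ^ (i : ℕ)))
    with hxdef
  have hx : ∀ o, x o ∈ modularFunctionFieldFullC Kb N := by
    intro o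
    rcases o with _ | _ | i
    · exact pkg_mem_fullC_of_mem_bar N hY
    · exact one_mem _
    · exact mul_mem (sub_mem hjNK (pow_mem hjK N)) (pow_mem hjNK _)
  obtain ⟨p, hp0, hrel⟩ := pkg_relation N hN (pkg_card_idx N) x hx
  obtain ⟨e, P, he0, hP, i₁, hi₁⟩ := pkg_normalize A p hp0
  -- the family over `A`
  set XA : PkgIdx N → LaurentSeries A := fun o =>
    o.elim Y (fun o' => o'.elim 1
      (fun i => coeffMap (Int.castRingHom A) (pkgCz N) * qExpand A N (jqModC A) ^ (i : ℕ)))
    with hXAdef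
  have hJA : kronIncl A (jqModC A) = jqModC Kb := coeffMap_jqModC _
  have hJNA : kronIncl A (qExpand A N (jqModC A)) = qExpand Kb N (jqModC Kb) := by
    rw [kronIncl, coeffMap_qExpand, coeffMap_jqModC]
  have hJAr : kronRed A (jqModC A) = jqModC (kA A) := coeffMap_jqModC _
  have hJNAr : kronRed A (qExpand A N (jqModC A)) = qExpand (kA A) N (jqModC (kA A)) := by
    rw [kronRed, coeffMap_qExpand, coeffMap_jqModC]
  have hXA : ∀ o, kronIncl A (XA o) = x o := by
    intro o
    rcases o with _ | _ | i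
    · rfl
    · exact map_one _
    · show kronIncl A (coeffMap (Int.castRingHom A) (pkgCz N) *
          qExpand A N (jqModC A) ^ (i : ℕ)) = _
      rw [map_mul, map_pow, hJNA, pkg_kronIncl_int, pkg_coeffMap_Cz]
      rfl
  have hrel' : ∑ o, Polynomial.aeval (kronIncl A (jqModC A)) (p o) * x o = 0 := by
    rw [hJA]; exact hrel
  have hred := pkg_reduce_relation A (jqModC A) p P e hP x XA hXA hrel'
  rw [hJAr] at hred
  have hXAr : ∀ i : Fin N, kronRed A (XA (some (some i))) = 0 := by
    intro i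
    show kronRed A (coeffMap (Int.castRingHom A) (pkgCz N) *
        qExpand A N (jqModC A) ^ (i : ℕ)) = 0
    rw [map_mul, pkg_kronRed_int, pkg_coeffMap_Cz_eq_zero N hN, zero_mul]
  rw [Fintype.sum_option, Fintype.sum_option] at hred
  have hred1 : Polynomial.aeval (jqModC (kA A)) ((P none).map (IsLocalRing.residue A)) *
      kronRed A Y + Polynomial.aeval (jqModC (kA A))
        ((P (some none)).map (IsLocalRing.residue A)) = 0 := by
    have h0 : ∑ i : Fin N, Polynomial.aeval (jqModC (kA A))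
        ((P (some (some i))).map (IsLocalRing.residue A)) * kronRed A (XA (some (some i))) = 0 :=
      Finset.sum_eq_zero fun i _ => by rw [hXAr i, mul_zero]
    rw [h0, add_zero] at hred
    have h1 : kronRed A (XA none) = kronRed A Y := rfl
    have h2 : kronRed A (XA (some none)) = 1 := map_one _
    rw [h1, h2, mul_one] at hred
    exact hred
  have htr : Transcendental (kA A) (jqModC (kA A)) :=
    Fermat.Agent.S28.red_transcendental_jqModC (kA A)
  have hinj : ∀ q : Polynomial (kA A), Polynomial.aeval (jqModC (kA A)) q = 0 → q = 0 := by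
    intro q hq
    by_contra hq0
    exact htr ⟨q, hq0, hq⟩
  by_cases hP0 : (P none).map (IsLocalRing.residue A) = 0
  · -- second reduction
    exfalso
    rw [hP0, map_zero, zero_mul, zero_add] at hred1
    have hP1 : (P (some none)).map (IsLocalRing.residue A) = 0 := hinj _ hred1
    -- the relation in `F_N`
    set xF : PkgIdx N → FF N := fun o =>
      o.elim ⟨kronIncl A Y, hY⟩ (fun o' => o'.elim 1
        (fun i => (jdF N N dvd_rfl - jF N ^ N) * jdF N N dvd_rfl ^ (i : ℕ))) with hxFdef
    have hxF : ∀ o, ((xF o : FF N) : LaurentSeries Kb) = x o := by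
      intro o
      rcases o with _ | _ | i
      · rfl
      · rfl
      · show (((jdF N N dvd_rfl - jF N ^ N) * jdF N N dvd_rfl ^ (i : ℕ) : FF N) :
            LaurentSeries Kb) = _
        push_cast
        rw [pkg_coe_jNF, pkg_coe_jF]
        rfl
    have hrelF : ∑ o, Polynomial.aeval (jF N) (p o) * xF o = 0 := by
      apply Subtype.ext
      rw [IntermediateField.coe_sum, IntermediateField.coe_zero, ← hrel]
      refine Finset.sum_congr rfl fun o _ => ?_
      rw [IntermediateField.coe_mul, pkg_coe_aeval, pkg_coe_jF, hxF]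
    have hrelW := congrArg (frickeAut N) hrelF
    rw [map_sum, map_zero] at hrelW
    -- Gauss fraction of `w_N x`
    obtain ⟨wb, Y₁, Y₂, -, -, hY₂, hfrac, -⟩ := hw
    set wx : PkgIdx N → LaurentSeries Kb := fun o =>
      o.elim (kronIncl A Y₁) (fun o' => o'.elim (kronIncl A Y₂)
        (fun i => (jqModC Kb - qExpand Kb N (jqModC Kb) ^ N) * jqModC Kb ^ (i : ℕ) *
          kronIncl A Y₂)) with hwxdef
    have hwx : ∀ o, ((frickeAut N (xF o) : FF N) : LaurentSeries Kb) * kronIncl A Y₂ = wx o := by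
      intro o
      rcases o with _ | _ | i
      · exact hfrac
      · show ((frickeAut N 1 : FF N) : LaurentSeries Kb) * kronIncl A Y₂ = kronIncl A Y₂
        rw [map_one, IntermediateField.coe_one, one_mul]
      · show ((frickeAut N ((jdF N N dvd_rfl - jF N ^ N) * jdF N N dvd_rfl ^ (i : ℕ)) : FF N) :
            LaurentSeries Kb) * kronIncl A Y₂ = _
        rw [map_mul, map_sub, map_pow, map_pow, pkg_fricke_jNF, frickeAut_jF]
        push_cast
        rw [pkg_coe_jNF, pkg_coe_jF]
        rfl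
    have hrelW' : ∑ o, Polynomial.aeval (kronIncl A (qExpand A N (jqModC A))) (p o) * wx o
        = 0 := by
      rw [hJNA]
      have h1 := congrArg (fun z : FF N => (z : LaurentSeries Kb) * kronIncl A Y₂) hrelW
      simp only [IntermediateField.coe_sum, IntermediateField.coe_zero, zero_mul,
        Finset.sum_mul] at h1
      rw [← h1]
      refine Finset.sum_congr rfl fun o _ => ?_
      rw [map_mul, IntermediateField.coe_mul, mul_assoc, hwx o]
      congr 1
      have h2 : frickeAut N (Polynomial.aeval (jF N) (p o)) =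
          Polynomial.aeval (frickeAut N (jF N)) (p o) :=
        (Polynomial.aeval_algHom_apply ((frickeAut N : FF N ≃ₐ[Kb] FF N) : FF N →ₐ[Kb] FF N)
          (jF N) (p o)).symm
      rw [h2, frickeAut_jF, pkg_coe_aeval, pkg_coe_jNF]
    set WA : PkgIdx N → LaurentSeries A := fun o =>
      o.elim Y₁ (fun o' => o'.elim Y₂
        (fun i => coeffMap (Int.castRingHom A) (pkgCz' N) * jqModC A ^ (i : ℕ) * Y₂))
      with hWAdef
    have hWA : ∀ o, kronIncl A (WA o) = wx o := by
      intro o
      rcases o with _ | _ | i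
      · rfl
      · rfl
      · show kronIncl A (coeffMap (Int.castRingHom A) (pkgCz' N) * jqModC A ^ (i : ℕ) * Y₂) = _
        rw [map_mul, map_mul, map_pow, hJA, pkg_kronIncl_int, pkg_coeffMap_Cz']
        rfl
    have hredW := pkg_reduce_relation A (qExpand A N (jqModC A)) p P e hP wx WA hWA hrelW'
    rw [hJNAr, Fintype.sum_option, Fintype.sum_option, hP0, hP1, map_zero, zero_mul,
      zero_mul, zero_add, zero_add] at hredW
    -- factor out `c̄' Ȳ₂`
    have hc' : coeffMap (Int.castRingHom (kA A)) (pkgCz' N) ≠ 0 :=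
      pkg_coeffMap_Cz'_ne_zero N hN _
    have hWAr : ∀ i : Fin N, kronRed A (WA (some (some i))) =
        jqModC (kA A) ^ (i : ℕ) * (coeffMap (Int.castRingHom (kA A)) (pkgCz' N) * kronRed A Y₂) := by
      intro i
      show kronRed A (coeffMap (Int.castRingHom A) (pkgCz' N) * jqModC A ^ (i : ℕ) * Y₂) = _
      rw [map_mul, map_mul, map_pow, hJAr, pkg_kronRed_int]
      ring
    have hsum : (∑ i : Fin N, Polynomial.aeval (qExpand (kA A) N (jqModC (kA A)))
        ((P (some (some i))).map (IsLocalRing.residue A)) * jqModC (kA A) ^ (i : ℕ)) = 0 := by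
      have h1 : (∑ i : Fin N, Polynomial.aeval (qExpand (kA A) N (jqModC (kA A)))
          ((P (some (some i))).map (IsLocalRing.residue A)) * jqModC (kA A) ^ (i : ℕ)) *
          (coeffMap (Int.castRingHom (kA A)) (pkgCz' N) * kronRed A Y₂) = 0 := by
        rw [Finset.sum_mul, ← hredW]
        refine Finset.sum_congr rfl fun i _ => ?_
        rw [hWAr i, mul_assoc]
      rcases mul_eq_zero.mp h1 with h2 | h2
      · exact h2
      · exact absurd h2 (mul_ne_zero hc' hY₂)
    -- (G4)
    set a : ℕ → LaurentSeries (kA A) := fun n =>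
      if h : n < N then Polynomial.aeval (jqModC (kA A))
        ((P (some (some ⟨n, h⟩))).map (IsLocalRing.residue A)) else 0 with hadef
    have hG4 : ∑ n ∈ Finset.range N, qExpand (kA A) N (a n) * jqModC (kA A) ^ n = 0 := by
      rw [Finset.sum_range, ← hsum]
      refine Finset.sum_congr rfl fun i _ => ?_
      have h1 : a (i : ℕ) = Polynomial.aeval (jqModC (kA A))
          ((P (some (some i))).map (IsLocalRing.residue A)) := by
        rw [hadef]
        simp only [i.2, dif_pos, Fin.eta]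
      rw [h1]
      congr 1
      exact (Polynomial.aeval_algHom_apply (qExpandAlgHomC (kA A) N) (jqModC (kA A)) _).symm
    have ha := nodesFrob_G4 (k := kA A) N a hG4
    have hPi : ∀ i : Fin N, (P (some (some i))).map (IsLocalRing.residue A) = 0 := by
      intro i
      apply hinj
      have h1 := ha (i : ℕ) i.2
      rw [hadef] at h1
      simp only [i.2, dif_pos, Fin.eta] at h1
      exact h1
    rcases i₁ with _ | _ | i
    · exact hi₁ hP0
    · exact hi₁ hP1
    · exact hi₁ (hPi i)
  · -- first reduction suffices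
    have h1 : Polynomial.aeval (jqModC (kA A)) ((P none).map (IsLocalRing.residue A)) ≠ 0 :=
      fun h => hP0 (hinj _ h)
    have h2 : kronRed A Y = -Polynomial.aeval (jqModC (kA A))
        ((P (some none)).map (IsLocalRing.residue A)) /
        Polynomial.aeval (jqModC (kA A)) ((P none).map (IsLocalRing.residue A)) := by
      rw [eq_div_iff h1, mul_comm]
      exact eq_neg_of_add_eq_zero_left hred1
    rw [h2]
    exact div_mem (neg_mem (pkg_aeval_mem_K0 _ _)) (pkg_aeval_mem_K0 _ _)

/-- `c' = j − j_N ^ N` as an element of `F_N` -/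
def pkgC'F : FF N := jF N - jdF N N dvd_rfl ^ N

theorem pkg_coe_C'F : ((pkgC'F N : FF N) : LaurentSeries Kb) =
    coeffMap (Int.castRingHom Kb) (pkgCz' N) := by
  rw [pkgC'F, pkg_coeffMap_Cz']
  push_cast
  rw [pkg_coe_jNF, pkg_coe_jF]

theorem pkg_fricke_C'F : ((frickeAut N (pkgC'F N) : FF N) : LaurentSeries Kb) =
    coeffMap (Int.castRingHom Kb) (pkgCz N) := by
  rw [pkgC'F, map_sub, map_pow, pkg_fricke_jNF, frickeAut_jF, pkg_coeffMap_Cz]
  push_cast
  rw [pkg_coe_jNF, pkg_coe_jF]

/-- **(RedF) at the level `N`**: the reduction of an `A`-integral element of `F_N` lies in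
`k(j̄) = F̄_N`. -/
theorem pkg_redF (hN : N.Prime) (hA : A.LiesOverPrime N) : StmtRedF N A := by
  intro Y hY
  classical
  haveI : CharP (kA A) N := kron_charP_residueField hN hA
  suffices h : kronRed A Y ∈ K0 (kA A) from K0_le_full (kA A) N h
  set x₀ : FF N := ⟨kronIncl A Y, hY⟩ with hx₀
  by_cases hx0 : x₀ = 0
  · have h1 : kronIncl A Y = 0 := congrArg (fun z : FF N => (z : LaurentSeries Kb)) hx0
    have h2 : Y = 0 := kronIncl_injective (A := A) (h1.trans (map_zero _).symm)
    rw [h2, map_zero]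
    exact zero_mem _
  have hwx0 : frickeAut N x₀ ≠ 0 := fun h => hx0 ((map_eq_zero_iff _ (frickeAut N).injective).mp h)
  obtain ⟨c₀, y₁, y₂, hc₀, hy₁m, hy₂m, hy₁, hy₂, hfr⟩ := deuInst_prim N A (frickeAut N x₀) hwx0
  obtain ⟨Y₁o, rfl⟩ := hy₁.1.exists_lift
  obtain ⟨Y₂o, rfl⟩ := hy₂.1.exists_lift
  have hR₂ : kronRed A Y₂o ≠ 0 := (kronPrim_kronIncl_iff Y₂o).mp hy₂
  obtain ⟨M, hM⟩ := Fermat.Agent.ES.LR.arch_Qbar A hN hA (N : Kb) c₀⁻¹ hA (inv_ne_zero hc₀)
  have hM' : (N : Kb) ^ M * c₀ ∈ A := by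
    have : (N : Kb) ^ M / c₀⁻¹ = (N : Kb) ^ M * c₀ := by rw [div_inv_eq_mul]
    rwa [this] at hM
  -- the modified series
  set Y' : LaurentSeries A := Y * coeffMap (Int.castRingHom A) (pkgCz' N) ^ M with hY'
  have hY'K : kronIncl A Y' = ((x₀ * pkgC'F N ^ M : FF N) : LaurentSeries Kb) := by
    rw [hY', map_mul, map_pow, pkg_kronIncl_int]
    push_cast
    rw [pkg_coe_C'F]
  have hY'm : kronIncl A Y' ∈ modularFunctionFieldBar N := by
    rw [hY'K]; exact (x₀ * pkgC'F N ^ M).2
  have hx' : (⟨kronIncl A Y', hY'm⟩ : FF N) = x₀ * pkgC'F N ^ M := Subtype.ext hY'K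
  have hcore : kronRed A Y' ∈ K0 (kA A) := by
    refine pkg_redF_core N A hN hA Y' hY'm ?_
    rw [hx', map_mul, map_pow]
    set Y₁' : LaurentSeries A :=
      HahnSeries.C (⟨(N : Kb) ^ M * c₀, hM'⟩ : A) * Y₁o *
        coeffMap (Int.castRingHom A) (pkgC₁z N) ^ M with hY₁'
    have hfrac : ((frickeAut N x₀ * frickeAut N (pkgC'F N) ^ M : FF N) : LaurentSeries Kb) *
        kronIncl A Y₂o = kronIncl A Y₁' := by
      push_cast
      rw [pkg_fricke_C'F, pkgCz_eq_mul N hN, map_mul, mul_pow, hY₁', map_mul, map_mul, map_pow,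
        pkg_kronIncl_int]
      have h1 : kronIncl A (HahnSeries.C (⟨(N : Kb) ^ M * c₀, hM'⟩ : A)) =
          HahnSeries.C ((N : Kb) ^ M * c₀) :=
        deuInst_coeffMap_C A.subtype _
      have h2 : coeffMap (Int.castRingHom Kb) (HahnSeries.C (N : ℤ)) = HahnSeries.C (N : Kb) := by
        rw [deuInst_coeffMap_C (Int.castRingHom Kb) (N : ℤ)]
        simp
      rw [h1, h2, map_mul, map_pow]
      have h3 : ((frickeAut N x₀ : FF N) : LaurentSeries Kb) * kronIncl A Y₂o =
          HahnSeries.C c₀ * kronIncl A Y₁o := hfr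
      calc ((frickeAut N x₀ : FF N) : LaurentSeries Kb) *
            (HahnSeries.C (N : Kb) ^ M * coeffMap (Int.castRingHom Kb) (pkgC₁z N) ^ M) *
            kronIncl A Y₂o
          = (((frickeAut N x₀ : FF N) : LaurentSeries Kb) * kronIncl A Y₂o) *
            (HahnSeries.C (N : Kb) ^ M * coeffMap (Int.castRingHom Kb) (pkgC₁z N) ^ M) := by
            ring
        _ = HahnSeries.C (N : Kb) ^ M * HahnSeries.C c₀ * kronIncl A Y₁o *
            coeffMap (Int.castRingHom Kb) (pkgC₁z N) ^ M := by rw [h3]; ring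
    have hY₁'m : kronIncl A Y₁' ∈ modularFunctionFieldBar N := by
      rw [← hfrac]
      exact mul_mem (frickeAut N x₀ * frickeAut N (pkgC'F N) ^ M).2 hy₂m
    exact ⟨kronRed A Y₁' * (kronRed A Y₂o)⁻¹, Y₁', Y₂o, hY₁'m, hy₂m, hR₂, hfrac, by
      rw [mul_assoc, inv_mul_cancel₀ hR₂, mul_one]⟩
  -- back to `Y`
  have hc' : coeffMap (Int.castRingHom (kA A)) (pkgCz' N) ≠ 0 :=
    pkg_coeffMap_Cz'_ne_zero N hN _
  have hc'm : coeffMap (Int.castRingHom (kA A)) (pkgCz' N) ∈ K0 (kA A) := by
    rw [pkg_coeffMap_Cz', pkg_jN_eq_pow N (kA A) hN]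
    have hj : jqModC (kA A) ∈ K0 (kA A) := IntermediateField.subset_adjoin _ _ rfl
    exact sub_mem hj (pow_mem (pow_mem hj N) N)
  have h3 : kronRed A Y' = kronRed A Y * coeffMap (Int.castRingHom (kA A)) (pkgCz' N) ^ M := by
    rw [hY', map_mul, map_pow, pkg_kronRed_int]
  have h4 : kronRed A Y = kronRed A Y' / coeffMap (Int.castRingHom (kA A)) (pkgCz' N) ^ M := by
    rw [h3, mul_div_cancel_right₀ _ (pow_ne_zero M hc')]
  rw [h4]
  exact div_mem hcore (pow_mem hc'm M)

/-- **PKG-val (a)**: the reductions are defined. -/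
theorem pkg_base (hN : N.Prime) (hA : A.LiesOverPrime N) : PkgBase N A :=
  haveI : CharP (kA A) N := kron_charP_residueField hN hA
  ⟨pkg_redF N A hN hA, pkg_fieldEq N (kA A) hN⟩

end Core

/-- **PKG-val (a)** -/
theorem stmtPkgBase : StmtPkgBase := fun N _ hN A hA => pkg_base N A hN hA

end Fermat.Agent.S15.LN
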