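import Fermat.Agent.S15.PlanPKG
import Fermat.Agent.S15.LocDivVal
import Fermat.Agent.S15.LNBasic
import Fermat.Agent.S15.PkgRedF
import Fermat.Agent.S15.PkgInertia
import Fermat.Agent.S15.LNLocDivN

/-!
# S15 block LOCAL-N, LN-PKG: the pruned assembly, top half (helper17)

`StmtModTRmin` of `S15/PlanN.lean` (the only input of `stmtLocDivN_of_pkg`, `S15/LNLocDivN.lean`)
from the pieces of `S15/PlanPKG.lean` which are on the critical path:

* `StmtPkgBase` (proved: `stmtPkgBase`),
* `StmtPkgToric` : the package `pkgTR N A hB` is toric (= PKG-val, PKG-cross, PKG-rdiv, PKG-glue,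
  PKG-orth, PKG-card, PKG-nice),
* `StmtPkgType` (PKG-type),
* `StmtPkgInertia` (the inertia part of PKG-gal).

Not needed: Hecke stability, `decomp0/1`, the criteria `crit₁/₂`, the cusp `∞`.

* `pkgasm_hv_fricke` : values under the Fricke involution;
* `pkgasm_type₂` : **the type bridge**: if `oggU` has the value `d ≠ 0` at `P` and
  `(N¹² d)⁻¹ ∈ A` then `w_N • P` is of type one;
* `stmtModTRmin_of_top` : the assembly;
* `stmtModTRmin_of_toric`, `stmtLocDivN_of_toric` : the same with the proved pieces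
  (`stmtPkgBase`, helper25; `stmtPkgInertia`, helper94) inserted:
  **`StmtPkgToric → StmtPkgType → StmtLocDivN`**.
-/

set_option autoImplicit false
set_option linter.unusedSectionVars false
set_option linter.unusedVariables false
set_option linter.style.haveILetI false

noncomputable section

open AlgebraicCurve Module ModularCurve

namespace Fermat.Agent.S15.LN

open Fermat.Agent.W1 Fermat.Agent.S24 Fermat.Agent.S15 Fermat.Agent.ES.M Fermat.Agent.DEU
  Fermat.Agent.INJ

/-! ## The pruned pieces -/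

/-- **pruned LN-PKG (1)**: the package `pkgTR` is a toric two-component reduction. -/
def StmtPkgToric : Prop :=
  ∀ (N : ℕ) [NeZero N], N.Prime → 5 ≤ N → ∀ A : ValuationSubring Kb, A.LiesOverPrime N →
    ∀ hB : PkgBase N A, ∃ g : ℕ, (pkgTR N A hB).IsToric g

/-! ## The type bridge -/

/-- values under the Fricke involution -/
theorem pkgasm_hv_fricke {N : ℕ} [NeZero N] {P : Place Kb (FF N)} {f : FF N} {a : Kb}
    (h : HasValueAt P (frickeAut N f) a) : HasValueAt (frickeAut N • P) f a := by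
  by_cases h0 : f - algebraMap Kb (FF N) a = 0
  · exact hasValueAt_of_eq _ h0
  · have h1 : frickeAut N f - algebraMap Kb (FF N) a =
        frickeAut N (f - algebraMap Kb (FF N) a) := by
      rw [map_sub, AlgEquiv.commutes]
    have h2 : frickeAut N f - algebraMap Kb (FF N) a ≠ 0 := by
      rw [h1]
      intro h3
      exact h0 ((map_eq_zero_iff _ (frickeAut N).injective).mp h3)
    have h3 := (hasValueAt_iff_ord_pos _ h2).mp h
    rw [hasValueAt_iff_ord_pos _ h0, fr_ord_frickeAut, ← h1]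
    exact h3

theorem pkgasm_oggU_ne_zero (N : ℕ) [NeZero N] : oggU N ≠ 0 := by
  intro h
  have h1 := ogg_fricke N
  rw [h, mul_zero] at h1
  have h2 : ((N : Kb) ^ 12)⁻¹ ≠ 0 :=
    inv_ne_zero (pow_ne_zero _ (Nat.cast_ne_zero.mpr (NeZero.ne N)))
  exact h2 ((map_eq_zero_iff _ (algebraMap Kb (FF N)).injective).mp h1.symm)

/-- `w_N u = N⁻¹² u⁻¹` -/
theorem pkgasm_fricke_oggU (N : ℕ) [NeZero N] :
    frickeAut N (oggU N) = ((N : Kb) ^ 12)⁻¹ • (oggU N)⁻¹ := by
  rw [Algebra.smul_def, ← ogg_fricke N, mul_assoc, mul_inv_cancel₀ (pkgasm_oggU_ne_zero N),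
    mul_one]

/-- **the type bridge**: if `oggU` has the value `d ≠ 0` at `P` and `(N¹² d)⁻¹ ∈ A`, then
`w_N • P` is of type one. -/
theorem pkgasm_type₁_fricke {N : ℕ} [NeZero N] {A : ValuationSubring Kb}
    {P : Place Kb (FF N)} {d : Kb} (hd : HasValueAt P (oggU N) d) (hd0 : d ≠ 0)
    (hmem : ((N : Kb) ^ 12 * d)⁻¹ ∈ A) : PkgType₁ N A (frickeAut N • P) := by
  refine ⟨((N : Kb) ^ 12 * d)⁻¹, hmem, pkgasm_hv_fricke ?_⟩
  have h1 := ln_hasValueAt_smul (((N : Kb) ^ 12)⁻¹) (LD.ld_hv_inv P hd hd0)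
  rw [← pkgasm_fricke_oggU] at h1
  rwa [mul_inv]

/-- the field `type₂` of `ModTRmin` for the package `pkgTR` -/
theorem pkgasm_type₂ {N : ℕ} [NeZero N] {A : ValuationSubring Kb} (hT : PkgIsType N A)
    (P : Place Kb (FF N)) (d : Kb) (hd : HasValueAt P (oggU N) d) (hd0 : d ≠ 0)
    (hmem : ((N : Kb) ^ 12 * d)⁻¹ ∈ A) : ∃ Q, pkgR N A P = some (Sum.inr Q) := by
  obtain ⟨Q, hQ⟩ := hT.exists_rel _ (pkgasm_type₁_fricke hd hd0 hmem)
  exact ⟨Q, (hT.r_inr_iff P Q).mpr hQ⟩

/-! ## The assembly -/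

/-- **pruned PKG-asm, top half**: the toric package, the types and the inertia give the pruned
modular package `StmtModTRmin` consumed by `stmtLocDivN_of_pkg`. -/
theorem stmtModTRmin_of_top (hBase : StmtPkgBase) (hTor : StmtPkgToric) (hTy : StmtPkgType)
    (hIn : StmtPkgInertia) : StmtModTRmin := by
  intro N _ hN h5 A hA
  have hB := hBase N hN A hA
  obtain ⟨g, hT⟩ := hTor N hN h5 A hA hB
  have hty := hTy N hN h5 A hA
  refine ⟨g, FFk A, FFk A, inferInstance, inferInstance, inferInstance, inferInstance,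
    pkgTR N A hB, ⟨hT, ?_, ?_, ?_⟩⟩
  · obtain ⟨Q, hQ, -⟩ := hty.cuspZero
    exact ⟨Q, hQ⟩
  · intro σ hσ P
    exact hIn N hN h5 A hA σ hσ P
  · intro P d hd hd0 hmem
    exact pkgasm_type₂ hty P d hd hd0 hmem

/-- the same with the proved pieces inserted -/
theorem stmtModTRmin_of_toric (hTor : StmtPkgToric) (hTy : StmtPkgType) : StmtModTRmin :=
  stmtModTRmin_of_top stmtPkgBase hTor hTy stmtPkgInertia

/-- **LOCDIV at the level prime** from the two open pieces of LN-PKG: the package is toric, and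
the bookkeeping of the types. -/
theorem stmtLocDivN_of_toric (hTor : StmtPkgToric) (hTy : StmtPkgType) : StmtLocDivN :=
  stmtLocDivN_of_pkg (stmtModTRmin_of_toric hTor hTy)

end Fermat.Agent.S15.LN
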