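import Fermat.Agent.S15.LNBasic

/-!
# S15 / LOCAL-N / LN-PKG, piece PKG-orth (2): `Orth` from `IsTR` and (Q2) for the max-norm

`pkgorth_of_isTR`: for a two-component reduction package `R` with `R.IsTR`, principal divisors,
finite-dimensional Riemann–Roch spaces, and (Q2) for the norm `max (|·|₁, |·|₂)` (every linearly
independent family can be replaced by a linearly independent family in its span, integral at both
Gauss valuations, whose pairs of reductions are linearly independent), the property `R.Orth`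
holds: the reductions lie in the glued space `L̄(r_* D)` by `r_div₁`, `r_div₂` (at the smooth
points) and `glue` (at the crossing points).
-/

set_option autoImplicit false

noncomputable section

open AlgebraicCurve Module

namespace Fermat.Agent.S15.LN

open Fermat.Agent.W1 Fermat.Agent.S24

open scoped Classical

variable {K F k F₁ F₂ : Type} [Field K] [Field F] [Algebra K F] [Field k]
  [Field F₁] [Algebra k F₁] [Field F₂] [Algebra k F₂] {A : ValuationSubring K}
  (R : TRData K F k F₁ F₂ A)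

/-- (Q2) for the norm `max (|·|₁, |·|₂)` -/
def TRData.Q2max (R : TRData K F k F₁ F₂ A) : Prop :=
  ∀ (r : ℕ) (a : Fin r → F), LinearIndependent K a →
    ∃ (b : Fin r → F) (h₁ : ∀ i, b i ∈ R.O₁) (h₂ : ∀ i, b i ∈ R.O₂),
      (∀ i, b i ∈ Submodule.span K (Set.range a)) ∧ LinearIndependent K b ∧
        LinearIndependent k (fun i => ((R.red₁ ⟨b i, h₁ i⟩, R.red₂ ⟨b i, h₂ i⟩) : F₁ × F₂))

theorem pkgorth_push₁_nonneg (D : Divisor K F) (hD : ∀ P, 0 ≤ D P) (Q : Place k F₁) :
    0 ≤ R.push₁ D Q := by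
  rw [ln_push₁_apply]
  refine Finset.sum_nonneg fun P _ => ?_
  split_ifs
  · exact hD P
  · exact le_rfl

theorem pkgorth_push₂_nonneg (D : Divisor K F) (hD : ∀ P, 0 ≤ D P) (Q : Place k F₂) :
    0 ≤ R.push₂ D Q := by
  rw [ln_push₂_apply]
  refine Finset.sum_nonneg fun P _ => ?_
  split_ifs
  · exact hD P
  · exact le_rfl

theorem pkgorth_ord_nonneg_of_value {k' F' : Type} [Field k'] [Field F'] [Algebra k' F']
    {Q : Place k' F'} {f : F'} {a : k'} (h : HasValueAt Q f a) : 0 ≤ Q.ord f := by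
  exact ge_ord_nonneg_of_mem Q (HasValueAt.mem Q h)

variable {R}

/-- the first reduction of an element of `L(D)`, `D` of smooth type, lies in `L(r_{1*} D)` -/
theorem pkgorth_red₁_mem (hR : R.IsTR) (hpd : HasPrincipalDivisors K F) {D : Divisor K F}
    (hD : D ∈ R.smDiv) {e : F} (he : e ∈ riemannRochSpace D) (h₁ : e ∈ R.O₁) (h₂ : e ∈ R.O₂) :
    R.red₁ ⟨e, h₁⟩ ∈ riemannRochSpace (R.push₁ D) := by
  rw [mem_riemannRochSpace_iff] at he ⊢
  intro Q
  by_cases h0 : R.red₁ ⟨e, h₁⟩ = 0
  · exact Or.inl h0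
  right
  have he0 : e ≠ 0 := by
    rintro rfl
    exact h0 (map_zero R.red₁)
  by_cases hQ : ∃ x ∈ R.X, x.1 = Q
  · obtain ⟨x, hx, rfl⟩ := hQ
    rw [ln_push₁_cross hR D hx, neg_zero]
    have hpoles : ∀ P : Place K F, P.ord e < 0 → (R.r P).isSome := by
      intro P hP
      apply hD P
      intro hDP
      rcases he P with h | h
      · exact he0 h
      · rw [hDP] at h
        omega
    obtain ⟨a, ha, -⟩ := hR.glue e h₁ h₂ hpoles x hx
    exact pkgorth_ord_nonneg_of_value ha
  · have hQ' : ∀ x ∈ R.X, x.1 ≠ Q := fun x hx h => hQ ⟨x, hx, h⟩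
    obtain ⟨E, hE, -⟩ := HasPrincipalDivisors.exists_divisor (K := K) e he0
    have h1 := hR.r_div₁ ⟨e, h₁⟩ h0 E hE Q hQ'
    have h2 : 0 ≤ R.push₁ (E + D) Q := by
      apply pkgorth_push₁_nonneg
      intro P
      rw [Finsupp.add_apply, hE]
      rcases he P with h | h
      · exact absurd h he0
      · omega
    rw [map_add, Finsupp.add_apply, h1] at h2
    omega

/-- the second reduction of an element of `L(D)`, `D` of smooth type, lies in `L(r_{2*} D)` -/
theorem pkgorth_red₂_mem (hR : R.IsTR) (hpd : HasPrincipalDivisors K F) {D : Divisor K F}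
    (hD : D ∈ R.smDiv) {e : F} (he : e ∈ riemannRochSpace D) (h₁ : e ∈ R.O₁) (h₂ : e ∈ R.O₂) :
    R.red₂ ⟨e, h₂⟩ ∈ riemannRochSpace (R.push₂ D) := by
  rw [mem_riemannRochSpace_iff] at he ⊢
  intro Q
  by_cases h0 : R.red₂ ⟨e, h₂⟩ = 0
  · exact Or.inl h0
  right
  have he0 : e ≠ 0 := by
    rintro rfl
    exact h0 (map_zero R.red₂)
  by_cases hQ : ∃ x ∈ R.X, x.2 = Q
  · obtain ⟨x, hx, rfl⟩ := hQ
    rw [ln_push₂_cross hR D hx, neg_zero]
    have hpoles : ∀ P : Place K F, P.ord e < 0 → (R.r P).isSome := by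
      intro P hP
      apply hD P
      intro hDP
      rcases he P with h | h
      · exact he0 h
      · rw [hDP] at h
        omega
    obtain ⟨a, -, ha⟩ := hR.glue e h₁ h₂ hpoles x hx
    exact pkgorth_ord_nonneg_of_value ha
  · have hQ' : ∀ x ∈ R.X, x.2 ≠ Q := fun x hx h => hQ ⟨x, hx, h⟩
    obtain ⟨E, hE, -⟩ := HasPrincipalDivisors.exists_divisor (K := K) e he0
    have h1 := hR.r_div₂ ⟨e, h₂⟩ h0 E hE Q hQ'
    have h2 : 0 ≤ R.push₂ (E + D) Q := by
      apply pkgorth_push₂_nonneg
      intro P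
      rw [Finsupp.add_apply, hE]
      rcases he P with h | h
      · exact absurd h he0
      · omega
    rw [map_add, Finsupp.add_apply, h1] at h2
    omega

/-- the pair of reductions of an element of `L(D)`, `D` of smooth type, lies in `L̄(r_* D)` -/
theorem pkgorth_red_mem_Lbar (hR : R.IsTR) (hpd : HasPrincipalDivisors K F) {D : Divisor K F}
    (hD : D ∈ R.smDiv) {e : F} (he : e ∈ riemannRochSpace D) (h₁ : e ∈ R.O₁) (h₂ : e ∈ R.O₂) :
    ((R.red₁ ⟨e, h₁⟩, R.red₂ ⟨e, h₂⟩) : F₁ × F₂) ∈ R.Lbar D := by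
  rw [ln_mem_Lbar]
  refine ⟨pkgorth_red₁_mem hR hpd hD he h₁ h₂, pkgorth_red₂_mem hR hpd hD he h₁ h₂, ?_⟩
  apply hR.glue e h₁ h₂
  intro P hP
  apply hD P
  intro hDP
  rw [mem_riemannRochSpace_iff] at he
  rcases he P with h | h
  · rw [h, Place.ord_zero] at hP
    omega
  · rw [hDP] at h
    omega

/-- **PKG-orth, abstract form**: `IsTR` and (Q2) for the max-norm give `Orth`. -/
theorem pkgorth_of_isTR (hR : R.IsTR) (hpd : HasPrincipalDivisors K F)
    (hfin : ∀ D : Divisor K F, Module.Finite K ↥(riemannRochSpace D)) (hQ2 : R.Q2max) :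
    R.Orth := by
  intro D hD
  have := hfin D
  let B := Module.finBasis K ↥(riemannRochSpace D)
  let a : Fin (Module.finrank K ↥(riemannRochSpace D)) → F := fun i => ((B i : _) : F)
  have ha : LinearIndependent K a :=
    B.linearIndependent.map' (riemannRochSpace D).subtype (Submodule.ker_subtype _)
  have haspan : Submodule.span K (Set.range a) = riemannRochSpace D := by
    have h1 : Set.range a = (riemannRochSpace D).subtype '' Set.range B := by
      ext x
      constructor
      · rintro ⟨i, rfl⟩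
        exact ⟨B i, ⟨i, rfl⟩, rfl⟩
      · rintro ⟨_, ⟨i, rfl⟩, rfl⟩
        exact ⟨i, rfl⟩
    rw [h1, Submodule.span_image, B.span_eq, Submodule.map_top, Submodule.range_subtype]
  obtain ⟨b, h₁, h₂, hbspan, hbli, hred⟩ := hQ2 _ a ha
  have hbL : ∀ i, b i ∈ riemannRochSpace D := fun i => haspan ▸ hbspan i
  refine ⟨_, b, h₁, h₂, ?_, hred, fun i => pkgorth_red_mem_Lbar hR hpd hD (hbL i) (h₁ i) (h₂ i)⟩
  -- `b` spans `L(D)`: `n` independent vectors in a space of dimension `n`
  apply le_antisymm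
  · rw [Submodule.span_le]
    rintro _ ⟨i, rfl⟩
    exact hbL i
  · let b' : Fin (Module.finrank K ↥(riemannRochSpace D)) → ↥(riemannRochSpace D) :=
      fun i => ⟨b i, hbL i⟩
    have hb'li : LinearIndependent K b' := by
      apply LinearIndependent.of_comp (riemannRochSpace D).subtype
      exact hbli
    have hb'span : Submodule.span K (Set.range b') = ⊤ :=
      hb'li.span_eq_top_of_card_eq_finrank' (by simp)
    intro x hx
    have hx' : (⟨x, hx⟩ : ↥(riemannRochSpace D)) ∈ Submodule.span K (Set.range b') := by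
      rw [hb'span]
      exact Submodule.mem_top
    have h3 := Submodule.apply_mem_span_image_of_mem_span (riemannRochSpace D).subtype hx'
    have h4 : (riemannRochSpace D).subtype '' Set.range b' = Set.range b := by
      ext y
      constructor
      · rintro ⟨_, ⟨i, rfl⟩, rfl⟩
        exact ⟨i, rfl⟩
      · rintro ⟨i, rfl⟩
        exact ⟨b' i, ⟨i, rfl⟩, rfl⟩
    rw [h4] at h3
    exact h3

end Fermat.Agent.S15.LN
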