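import Fermat.Agent.ES.M.Q2

/-!
# S15 / LOCAL-N / LN-PKG, piece PKG-orth (1): orthonormal bases for the maximum of two Gauss norms

`pkgq2_main`: let `σ : F_N → F_N` be `ℚ̄`-linear (in the application `σ = w_N`, the Fricke
involution).  A linearly independent family `a : Fin r → F_N` can be replaced by a family `b`
in its span such that `b i` and `σ (b i)` are Gauss-integral and the pairs of Gauss reductions
`(red (b i), red (σ (b i)))` are linearly independent over the residue field.

This is (Q2) (`ES/M/Q2.lean`) for the norm `max (|x|, |σ x|)`: Gaussian elimination (`q2_elim`)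
with the coefficient functionals of `x · y_D` and of `σ x · y_D'` (`D`, `D'` common denominators).
-/

set_option autoImplicit false

noncomputable section

namespace Fermat.Agent.S15.LN

open ModularCurve AlgebraicCurve HahnSeries Fermat.Agent.ES Fermat.Agent.S24 Fermat.Agent.ES.G2
  Fermat.Agent.ES.M

variable (N : ℕ) [NeZero N] (A : ValuationSubring Kb)

/-- the functional `x ↦ coeff_n (x · y)` on `F_N` -/
def pkgq2Co (y : LaurentSeries Kb) (n : ℤ) : FF N →ₗ[Kb] Kb where
  toFun x := ((x : LaurentSeries Kb) * y).coeff n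
  map_add' x x' := by
    show (((x + x' : FF N) : LaurentSeries Kb) * y).coeff n = _
    have : ((x + x' : FF N) : LaurentSeries Kb) = (x : LaurentSeries Kb) + x' := rfl
    rw [this, add_mul, HahnSeries.coeff_add]
  map_smul' c x := by
    show (((c • x : FF N) : LaurentSeries Kb) * y).coeff n = c • _
    rw [q2_coe_smul, ← HahnSeries.C_mul_eq_smul, mul_assoc, HahnSeries.C_mul_eq_smul,
      HahnSeries.coeff_smul]

omit [NeZero N] in
theorem pkgq2Co_apply (y : LaurentSeries Kb) (n : ℤ) (x : FF N) :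
    pkgq2Co N y n x = ((x : LaurentSeries Kb) * y).coeff n := rfl

/-- the functionals of the two blocks -/
def pkgq2Co2 (σ : FF N →ₗ[Kb] FF N) (y y' : LaurentSeries Kb) : ℤ ⊕ ℤ → FF N →ₗ[Kb] Kb
  | Sum.inl n => pkgq2Co N y n
  | Sum.inr n => (pkgq2Co N y' n).comp σ

/-- common denominator: a family of `F_N` times one `ev Q ≠ 0` lies in the range of `ev` -/
theorem pkgq2_common (r : ℕ) (a : Fin r → FF N) :
    ∃ (Q : MvPolynomial (Dv N) Kb) (P : Fin r → MvPolynomial (Dv N) Kb), q2Ev N Q ≠ 0 ∧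
      ∀ i, ((a i : FF N) : LaurentSeries Kb) * q2Ev N Q = q2Ev N (P i) := by
  classical
  have hfrac : ∀ i, ∃ P Q : MvPolynomial (Dv N) Kb, q2Ev N Q ≠ 0 ∧
      ((a i : FF N) : LaurentSeries Kb) * q2Ev N Q = q2Ev N P := by
    intro i
    have hu' : ((a i : FF N) : LaurentSeries Kb) ∈
        IntermediateField.adjoin Kb (Set.range (jBfam N)) := by
      rw [← br_modularFunctionFieldBar_eq_adjoin]; exact (a i).2
    obtain ⟨P, Q, hPQ⟩ := (IntermediateField.mem_adjoin_range_iff Kb _ _).1 hu'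
    by_cases hQ : q2Ev N Q = 0
    · refine ⟨0, 1, ?_, ?_⟩
      · rw [map_one]; exact one_ne_zero
      · have hQ' : MvPolynomial.aeval (jBfam N) Q = 0 := hQ
        rw [hPQ, hQ', div_zero, zero_mul, map_zero]
    · refine ⟨P, Q, hQ, ?_⟩
      rw [hPQ]
      exact div_mul_cancel₀ _ hQ
  choose P Q hQ0 hPQ using hfrac
  refine ⟨∏ i, Q i, fun i => P i * ∏ j ∈ Finset.univ.erase i, Q j, ?_, fun i => ?_⟩
  · rw [map_prod]
    exact Finset.prod_ne_zero_iff.2 fun i _ => hQ0 i
  · rw [map_mul, map_prod, map_prod,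
      ← Finset.mul_prod_erase Finset.univ _ (Finset.mem_univ i), ← mul_assoc, hPQ i]

omit [NeZero N] in
theorem pkgq2_coe_sum_smul {r : ℕ} (g : Fin r → Kb) (a : Fin r → FF N) :
    ((∑ i, g i • a i : FF N) : LaurentSeries Kb) = ∑ i, g i • (a i : LaurentSeries Kb) := by
  rw [q2_coe_sum]
  exact Finset.sum_congr rfl fun i _ => q2_coe_smul N (g i) (a i)

/-- an element of the span times the common denominator lies in the range of `ev` -/
theorem pkgq2_span_mem (r : ℕ) (a : Fin r → FF N) (Q : MvPolynomial (Dv N) Kb)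
    (P : Fin r → MvPolynomial (Dv N) Kb)
    (hP : ∀ i, ((a i : FF N) : LaurentSeries Kb) * q2Ev N Q = q2Ev N (P i))
    (x : FF N) (hx : x ∈ Submodule.span Kb (Set.range a)) :
    (x : LaurentSeries Kb) * q2Ev N Q ∈ q2Range N := by
  obtain ⟨g, rfl⟩ := (Submodule.mem_span_range_iff_exists_fun Kb).1 hx
  rw [pkgq2_coe_sum_smul, Finset.sum_mul]
  refine Submodule.sum_mem _ fun i _ => ?_
  rw [← HahnSeries.C_mul_eq_smul, mul_assoc, hP i, HahnSeries.C_mul_eq_smul]
  exact Submodule.smul_mem _ _ ⟨P i, rfl⟩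

/-- the Gauss norm of `x · y` is attained, `x ≠ 0` in the span -/
theorem pkgq2_attained (x : LaurentSeries Kb) (hx0 : x ≠ 0) (Q : MvPolynomial (Dv N) Kb)
    (s : Kb) (y : LaurentSeries Kb) (hs : s ≠ 0) (hy0 : y ≠ 0)
    (hQ : q2Ev N Q = HahnSeries.C s * y) (hmem : x * q2Ev N Q ∈ q2Range N) :
    ∃ n₀, (x * y).coeff n₀ ≠ 0 ∧ ∀ n, (x * y).coeff n / (x * y).coeff n₀ ∈ A := by
  have hne : x * q2Ev N Q ≠ 0 := by
    rw [hQ]
    refine mul_ne_zero hx0 (mul_ne_zero ?_ hy0)
    intro h
    apply hs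
    have := congrArg (fun f : LaurentSeries Kb => f.coeff 0) h
    simpa using this
  obtain ⟨n₀, hn₀, hall⟩ := q2_attained N A _ hmem hne
  have hco : ∀ n, q2Coeff n (x * q2Ev N Q) = s * (x * y).coeff n := by
    intro n
    rw [q2Coeff_apply, hQ, ← mul_assoc, mul_comm x, mul_assoc, HahnSeries.C_mul_eq_smul,
      HahnSeries.coeff_smul, smul_eq_mul]
  refine ⟨n₀, ?_, fun n => ?_⟩
  · intro h
    apply hn₀
    rw [hco, h, mul_zero]
  · have := hall n
    rw [hco, hco, mul_div_mul_left _ _ hs] at this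
    exact this

omit [NeZero N] in
/-- integrality of the coefficients of `x · y`, `y` primitive, gives a Gauss reduction -/
theorem pkgq2_gaussRed (x : FF N) (y : LaurentSeries Kb) (hym : y ∈ modularFunctionFieldBar N)
    (hy : KronPrim A y) (hI : ∀ n, ((x : LaurentSeries Kb) * y).coeff n ∈ A) :
    ∃ (Y₁ Y₂ : LaurentSeries A), kronIncl A Y₁ = (x : LaurentSeries Kb) * y ∧
      kronIncl A Y₂ = y ∧ kronRed A Y₂ ≠ 0 ∧
      GaussRed N A x (kronRed A Y₁ * (kronRed A Y₂)⁻¹) := by
  have hI' : KronInt A ((x : LaurentSeries Kb) * y) := fun n => hI n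
  obtain ⟨Y₁, hY₁⟩ := hI'.exists_lift
  obtain ⟨Y₂, hY₂⟩ := hy.1.exists_lift
  have hY₂0 : kronRed A Y₂ ≠ 0 := by
    rw [← kronPrim_kronIncl_iff, hY₂]
    exact hy
  refine ⟨Y₁, Y₂, hY₁, hY₂, hY₂0, Y₁, Y₂, ?_, ?_, hY₂0, ?_, ?_⟩
  · rw [hY₁]
    exact mul_mem x.2 hym
  · rw [hY₂]
    exact hym
  · rw [hY₁, hY₂]
  · rw [inv_mul_cancel_right₀ hY₂0]

/-- **(Q2) for the maximum of two Gauss norms.** -/
theorem pkgq2_main (σ : FF N →ₗ[Kb] FF N) (r : ℕ) (a : Fin r → FF N)
    (ha : LinearIndependent Kb a) :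
    ∃ (b : Fin r → FF N) (w₁ w₂ : Fin r → LaurentSeries (kA A)),
      (∀ i, b i ∈ Submodule.span Kb (Set.range a)) ∧ LinearIndependent Kb b ∧
        (∀ i, GaussRed N A (b i) (w₁ i)) ∧ (∀ i, GaussRed N A (σ (b i)) (w₂ i)) ∧
          LinearIndependent (kA A) (fun i => ((w₁ i, w₂ i) :
            LaurentSeries (kA A) × LaurentSeries (kA A))) := by
  classical
  -- common denominators
  obtain ⟨Q, P, hQ0, hP⟩ := pkgq2_common N r a
  obtain ⟨Q', P', hQ0', hP'⟩ := pkgq2_common N r (fun i => σ (a i))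
  obtain ⟨s, y, hs, hym, hyprim, hQy⟩ := prim_exists_primitive N A Q hQ0
  obtain ⟨s', y', hs', hym', hyprim', hQy'⟩ := prim_exists_primitive N A Q' hQ0'
  have hQy2 : q2Ev N Q = HahnSeries.C s * y := hQy
  have hQy2' : q2Ev N Q' = HahnSeries.C s' * y' := hQy'
  have hy0 : y ≠ 0 := by
    intro h
    apply hQ0
    rw [hQy2, h, mul_zero]
  have hy0' : y' ≠ 0 := by
    intro h
    apply hQ0'
    rw [hQy2', h, mul_zero]
  -- the span of `σ a`
  have hσspan : ∀ x ∈ Submodule.span Kb (Set.range a),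
      σ x ∈ Submodule.span Kb (Set.range fun i => σ (a i)) := by
    intro x hx
    obtain ⟨g, rfl⟩ := (Submodule.mem_span_range_iff_exists_fun Kb).1 hx
    rw [map_sum]
    refine Submodule.sum_mem _ fun i _ => ?_
    rw [map_smul]
    exact Submodule.smul_mem _ _ (Submodule.subset_span ⟨i, rfl⟩)
  -- the norm is attained
  have hH : ∀ x ∈ Submodule.span Kb (Set.range a), x ≠ 0 →
      ∃ n₀, pkgq2Co2 N σ y y' n₀ x ≠ 0 ∧
        ∀ n, pkgq2Co2 N σ y y' n x / pkgq2Co2 N σ y y' n₀ x ∈ A.toSubring := by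
    intro x hx hx0
    have hx0' : (x : LaurentSeries Kb) ≠ 0 := fun h => hx0 (Subtype.ext h)
    obtain ⟨n₁, hn₁, hall₁⟩ := pkgq2_attained N A (x : LaurentSeries Kb) hx0' Q s y hs hy0 hQy2
      (pkgq2_span_mem N r a Q P hP x hx)
    by_cases hσx : σ x = 0
    · refine ⟨Sum.inl n₁, hn₁, ?_⟩
      rintro (n | n)
      · exact hall₁ n
      · show ((σ x : FF N) : LaurentSeries Kb) * y' |>.coeff n |> (· / _) |> (· ∈ A)
        rw [hσx]
        show ((0 : LaurentSeries Kb) * y').coeff n / _ ∈ A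
        rw [zero_mul, HahnSeries.coeff_zero, zero_div]
        exact A.zero_mem
    · have hσx' : ((σ x : FF N) : LaurentSeries Kb) ≠ 0 := fun h => hσx (Subtype.ext h)
      obtain ⟨n₂, hn₂, hall₂⟩ := pkgq2_attained N A ((σ x : FF N) : LaurentSeries Kb) hσx' Q' s' y'
        hs' hy0' hQy2' (pkgq2_span_mem N r (fun i => σ (a i)) Q' P' hP' (σ x) (hσspan x hx))
      set u := ((x : LaurentSeries Kb) * y).coeff n₁ with hu
      set v := (((σ x : FF N) : LaurentSeries Kb) * y').coeff n₂ with hv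
      rcases A.mem_or_inv_mem (v / u) with h | h
      · refine ⟨Sum.inl n₁, hn₁, ?_⟩
        rintro (n | n)
        · exact hall₁ n
        · show (((σ x : FF N) : LaurentSeries Kb) * y').coeff n / u ∈ A
          have h1 : (((σ x : FF N) : LaurentSeries Kb) * y').coeff n / u =
              (((σ x : FF N) : LaurentSeries Kb) * y').coeff n / v * (v / u) := by
            field_simp
          rw [h1]
          exact mul_mem (hall₂ n) h
      · refine ⟨Sum.inr n₂, hn₂, ?_⟩
        rintro (n | n)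
        · show ((x : LaurentSeries Kb) * y).coeff n / v ∈ A
          have h1 : ((x : LaurentSeries Kb) * y).coeff n / v =
              ((x : LaurentSeries Kb) * y).coeff n / u * (v / u)⁻¹ := by
            field_simp
          rw [h1]
          exact mul_mem (hall₁ n) h
        · exact hall₂ n
  -- elimination
  obtain ⟨b, n, hbspan, hbA, hbδ⟩ := q2_elim A.toSubring (pkgq2Co2 N σ y y')
    (Submodule.span Kb (Set.range a)) hH r a ha (fun i => Submodule.subset_span ⟨i, rfl⟩)
  have hI₁ : ∀ i m, ((b i : LaurentSeries Kb) * y).coeff m ∈ A := fun i m => hbA i (Sum.inl m)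
  have hI₂ : ∀ i m, (((σ (b i) : FF N) : LaurentSeries Kb) * y').coeff m ∈ A :=
    fun i m => hbA i (Sum.inr m)
  choose Y₁ Y₂ hY₁ hY₂ hY₂0 hG₁ using fun i => pkgq2_gaussRed N A (b i) y hym hyprim (hI₁ i)
  choose Z₁ Z₂ hZ₁ hZ₂ hZ₂0 hG₂ using fun i =>
    pkgq2_gaussRed N A (σ (b i)) y' hym' hyprim' (hI₂ i)
  have hbli : LinearIndependent Kb b := by
    rw [Fintype.linearIndependent_iff]
    intro g hg j
    have h1 := congrArg (pkgq2Co2 N σ y y' (n j)) hg
    rw [map_sum, map_zero] at h1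
    simp only [map_smul, hbδ, smul_eq_mul, mul_ite, mul_one, mul_zero] at h1
    simpa using h1
  refine ⟨b, fun i => kronRed A (Y₁ i) * (kronRed A (Y₂ i))⁻¹,
    fun i => kronRed A (Z₁ i) * (kronRed A (Z₂ i))⁻¹, hbspan, hbli, hG₁, hG₂, ?_⟩
  -- the denominators do not depend on `i`
  have hY₂eq : ∀ i j, Y₂ i = Y₂ j := fun i j =>
    kronIncl_injective (A := A) ((hY₂ i).trans (hY₂ j).symm)
  have hZ₂eq : ∀ i j, Z₂ i = Z₂ j := fun i j =>
    kronIncl_injective (A := A) ((hZ₂ i).trans (hZ₂ j).symm)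
  rw [Fintype.linearIndependent_iff]
  intro g hg j
  have hg₁ : ∑ i, g i • (kronRed A (Y₁ i) * (kronRed A (Y₂ i))⁻¹) = 0 := by
    have := congrArg Prod.fst hg
    simpa [Prod.fst_sum, Prod.smul_fst] using this
  have hg₂ : ∑ i, g i • (kronRed A (Z₁ i) * (kronRed A (Z₂ i))⁻¹) = 0 := by
    have := congrArg Prod.snd hg
    simpa [Prod.snd_sum, Prod.smul_snd] using this
  have h1 : ∑ i, g i • kronRed A (Y₁ i) = 0 := by
    have h2 := congrArg (fun x => x * kronRed A (Y₂ j)) hg₁
    simp only [Finset.sum_mul, zero_mul] at h2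
    rw [← h2]
    refine Finset.sum_congr rfl fun i _ => ?_
    rw [hY₂eq i j, ← HahnSeries.C_mul_eq_smul, ← HahnSeries.C_mul_eq_smul, mul_assoc,
      inv_mul_cancel_right₀ (hY₂0 j)]
  have h1' : ∑ i, g i • kronRed A (Z₁ i) = 0 := by
    have h2 := congrArg (fun x => x * kronRed A (Z₂ j)) hg₂
    simp only [Finset.sum_mul, zero_mul] at h2
    rw [← h2]
    refine Finset.sum_congr rfl fun i _ => ?_
    rw [hZ₂eq i j, ← HahnSeries.C_mul_eq_smul, ← HahnSeries.C_mul_eq_smul, mul_assoc,
      inv_mul_cancel_right₀ (hZ₂0 j)]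
  rcases hnj : n j with m | m
  · have h3 := congrArg (fun x : LaurentSeries (kA A) => x.coeff m) h1
    simp only [HahnSeries.coeff_sum, HahnSeries.coeff_smul, coeffMap_coeff,
      HahnSeries.coeff_zero] at h3
    have h4 : ∀ i, IsLocalRing.residue A ((Y₁ i).coeff m) = if i = j then 1 else 0 := by
      intro i
      have h5 : (((Y₁ i).coeff m : A) : Kb) = if i = j then 1 else 0 := by
        have := congrArg (fun x : LaurentSeries Kb => x.coeff m) (hY₁ i)
        simp only [coeffMap_coeff] at this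
        have hδ := hbδ i j
        rw [hnj] at hδ
        rw [← hδ]
        exact this
      have h6 : ((Y₁ i).coeff m : A) = if i = j then 1 else 0 := by
        apply Subtype.ext
        rw [h5]
        split_ifs <;> rfl
      rw [h6]
      split_ifs <;> simp
    simp only [h4] at h3
    simpa using h3
  · have h3 := congrArg (fun x : LaurentSeries (kA A) => x.coeff m) h1'
    simp only [HahnSeries.coeff_sum, HahnSeries.coeff_smul, coeffMap_coeff,
      HahnSeries.coeff_zero] at h3
    have h4 : ∀ i, IsLocalRing.residue A ((Z₁ i).coeff m) = if i = j then 1 else 0 := by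
      intro i
      have h5 : (((Z₁ i).coeff m : A) : Kb) = if i = j then 1 else 0 := by
        have := congrArg (fun x : LaurentSeries Kb => x.coeff m) (hZ₁ i)
        simp only [coeffMap_coeff] at this
        have hδ := hbδ i j
        rw [hnj] at hδ
        rw [← hδ]
        exact this
      have h6 : ((Z₁ i).coeff m : A) = if i = j then 1 else 0 := by
        apply Subtype.ext
        rw [h5]
        split_ifs <;> rfl
      rw [h6]
      split_ifs <;> simp
    simp only [h4] at h3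
    simpa using h3

end Fermat.Agent.S15.LN
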