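import Fermat.Agent.S15.PlanPKG
import Fermat.Agent.S15.PkgQ2
import Fermat.Agent.S15.PkgOrthAbs
import Fermat.Agent.ES.M.LemmaW

/-!
# S15 / LOCAL-N / LN-PKG, piece PKG-orth (3): `StmtPkgOrth` from the axioms `IsTR` of the package

* `pkgo_coe_red₁`, `pkgo_coe_red₂` : the reductions of the package as Laurent series (`GaussRed`);
* `pkgo_q2max` : (Q2) for the max-norm holds for `pkgTR N A hB` (no hypothesis);
* `pkgo_orth_of_isTR` : `(pkgTR N A hB).IsTR → (pkgTR N A hB).Orth`;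
* `stmtPkgOrth_of_isTR` : `StmtPkgOrth` from `IsTR` at all `(N, A)`.
-/

set_option autoImplicit false
set_option linter.unusedSectionVars false

noncomputable section

open AlgebraicCurve Module ModularCurve

namespace Fermat.Agent.S15.LN

open Fermat.Agent.W1 Fermat.Agent.S24 Fermat.Agent.S15 Fermat.Agent.ES.M Fermat.Agent.DEU
  Fermat.Agent.INJ

variable (N : ℕ) [NeZero N] (A : ValuationSubring Kb)

theorem pkgo_coe_equivOfEq {k E : Type*} [Field k] [Field E] [Algebra k E]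
    {S T : IntermediateField k E} (h : S = T) (x : S) :
    ((IntermediateField.equivOfEq h x : T) : E) = x := rfl

theorem pkgo_red₁_eq (hB : PkgBase N A) (y : pkgO₁ N A) :
    pkgRed₁ N A hB y = IntermediateField.equivOfEq hB.fieldEq (deuValRed N A hB.redF y) := rfl

/-- the first reduction, as a Laurent series, is the Gauss reduction at level `N` -/
theorem pkgo_coe_red₁_eq (hB : PkgBase N A) (y : pkgO₁ N A) :
    ((pkgRed₁ N A hB y : FFk A) : LaurentSeries (kA A)) =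
      ((deuValRed N A hB.redF y : ↥(modularFunctionFieldFullC (kA A) N)) :
        LaurentSeries (kA A)) := by
  rw [pkgo_red₁_eq]
  exact pkgo_coe_equivOfEq _ _

/-- the first reduction as a Laurent series -/
theorem pkgo_coe_red₁ (hB : PkgBase N A) {x : FF N} (h : x ∈ pkgO₁ N A)
    {w : LaurentSeries (kA A)} (hw : GaussRed N A x w) :
    ((pkgRed₁ N A hB ⟨x, h⟩ : FFk A) : LaurentSeries (kA A)) = w := by
  obtain ⟨h', hw'⟩ := (deuValRed_iff N A hB.redF x w).mp hw
  rw [pkgo_coe_red₁_eq]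
  exact hw'

/-- the first reduction is a Gauss reduction -/
theorem pkgo_gaussRed_red₁ (hB : PkgBase N A) {x : FF N} (h : x ∈ pkgO₁ N A) :
    GaussRed N A x ((pkgRed₁ N A hB ⟨x, h⟩ : FFk A) : LaurentSeries (kA A)) := by
  rw [pkgo_coe_red₁_eq]
  exact (deuValRed_iff N A hB.redF x _).mpr ⟨h, rfl⟩

theorem pkgo_red₂_eq (hB : PkgBase N A) {x : FF N} (h : x ∈ pkgO₂ N A) :
    pkgRed₂ N A hB ⟨x, h⟩ = pkgRed₁ N A hB ⟨frickeAut N x, h⟩ := rfl

/-- the second reduction as a Laurent series -/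
theorem pkgo_coe_red₂ (hB : PkgBase N A) {x : FF N} (h : x ∈ pkgO₂ N A)
    {w : LaurentSeries (kA A)} (hw : GaussRed N A (frickeAut N x) w) :
    ((pkgRed₂ N A hB ⟨x, h⟩ : FFk A) : LaurentSeries (kA A)) = w := by
  rw [pkgo_red₂_eq]
  exact pkgo_coe_red₁ N A hB (x := frickeAut N x) h hw

/-- the second reduction is a Gauss reduction of `w_N x` -/
theorem pkgo_gaussRed_red₂ (hB : PkgBase N A) {x : FF N} (h : x ∈ pkgO₂ N A) :
    GaussRed N A (frickeAut N x) ((pkgRed₂ N A hB ⟨x, h⟩ : FFk A) : LaurentSeries (kA A)) := by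
  rw [pkgo_red₂_eq]
  exact pkgo_gaussRed_red₁ N A hB (x := frickeAut N x) h

/-- the scalar multiplication of `F̄` as a product of Laurent series -/
theorem pkgo_coe_smul (c : kA A) (x : FFk A) :
    ((c • x : FFk A) : LaurentSeries (kA A)) = HahnSeries.C c * (x : LaurentSeries (kA A)) := by
  rw [Algebra.smul_def, ← algebraMap_eq_hahnC]
  rfl

theorem pkgo_coe_sum_smul {r : ℕ} (g : Fin r → kA A) (x : Fin r → FFk A) :
    ((∑ i, g i • x i : FFk A) : LaurentSeries (kA A)) =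
      ∑ i, HahnSeries.C (g i) * (x i : LaurentSeries (kA A)) := by
  rw [IntermediateField.coe_sum]
  exact Finset.sum_congr rfl fun i _ => pkgo_coe_smul A (g i) (x i)

/-- **(Q2) for the max-norm of the package** -/
theorem pkgo_q2max (hB : PkgBase N A) : (pkgTR N A hB).Q2max := by
  intro r a ha
  obtain ⟨b, w₁, w₂, hbspan, hbli, hG₁, hG₂, hw⟩ :=
    pkgq2_main N A ((frickeAut N : FF N ≃ₐ[Kb] FF N).toLinearMap) r a ha
  have h₁ : ∀ i, b i ∈ pkgO₁ N A := fun i => ⟨w₁ i, hG₁ i⟩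
  have h₂ : ∀ i, b i ∈ pkgO₂ N A := fun i => ⟨w₂ i, hG₂ i⟩
  refine ⟨b, h₁, h₂, hbspan, hbli, ?_⟩
  rw [Fintype.linearIndependent_iff]
  intro g hg
  apply Fintype.linearIndependent_iff.mp hw g
  have hg₁ : ∑ i, g i • pkgRed₁ N A hB ⟨b i, h₁ i⟩ = 0 := by
    have := congrArg Prod.fst hg
    rw [Prod.fst_sum] at this
    exact this
  have hg₂ : ∑ i, g i • pkgRed₂ N A hB ⟨b i, h₂ i⟩ = 0 := by
    have := congrArg Prod.snd hg
    rw [Prod.snd_sum] at this
    exact this
  have hc₁ := congrArg (fun z : FFk A => (z : LaurentSeries (kA A))) hg₁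
  have hc₂ := congrArg (fun z : FFk A => (z : LaurentSeries (kA A))) hg₂
  simp only [pkgo_coe_sum_smul] at hc₁ hc₂
  have hz : (((0 : FFk A) : FFk A) : LaurentSeries (kA A)) = 0 := rfl
  rw [hz] at hc₁ hc₂
  apply Prod.ext
  · rw [Prod.fst_sum]
    show ∑ i, g i • w₁ i = 0
    rw [← hc₁]
    refine Finset.sum_congr rfl fun i _ => ?_
    rw [pkgo_coe_red₁ N A hB (h₁ i) (hG₁ i), HahnSeries.C_mul_eq_smul]
  · rw [Prod.snd_sum]
    show ∑ i, g i • w₂ i = 0
    rw [← hc₂]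
    refine Finset.sum_congr rfl fun i _ => ?_
    rw [pkgo_coe_red₂ N A hB (h₂ i) (hG₂ i), HahnSeries.C_mul_eq_smul]

/-- **PKG-orth** for the package, from its axioms `IsTR` -/
theorem pkgo_orth_of_isTR (hB : PkgBase N A) (hTR : (pkgTR N A hB).IsTR) :
    (pkgTR N A hB).Orth :=
  pkgorth_of_isTR hTR (Fermat.Agent.ES.H.hasPrincipalDivisors_FF N) (lw_rr_finite N)
    (pkgo_q2max N A hB)

/-- **PKG-orth**: `StmtPkgOrth` from the axioms `IsTR` of the package at all `(N, A)`. -/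
theorem stmtPkgOrth_of_isTR
    (h : ∀ (N : ℕ) [NeZero N], N.Prime → 5 ≤ N → ∀ A : ValuationSubring Kb,
      A.LiesOverPrime N → ∀ hB : PkgBase N A, (pkgTR N A hB).IsTR) : StmtPkgOrth :=
  fun N _ hN h5 A hA hB => pkgo_orth_of_isTR N A hB (h N hN h5 A hA hB)

end Fermat.Agent.S15.LN
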