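import Fermat.Agent.S15.PlanPKG
import Fermat.Agent.S15.PkgVal
import Fermat.Agent.S15.PkgType
import Fermat.Agent.S15.PkgInertia
import Fermat.Agent.S15.PkgOrth
import Fermat.Agent.S15.LNBasic
import Fermat.Agent.S15.PkgAsmTop

/-!
# S15 block LOCAL-N, LN-PKG: the PRUNED assembly, bottom half (helper5)

`stmtPkgToric_of` : the pieces of `PlanPKG.lean`

  `StmtPkgVal, StmtPkgType, StmtPkgCross, StmtPkgRdiv, StmtPkgGlue, StmtPkgCard, StmtPkgNice`

give `StmtPkgToric` (`PkgAsmTop.lean`, helper17): the package `pkgTR N A hB` is a toric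
two-component reduction of genus `gN N`.  (`Orth` follows from `IsTR`: `pkgo_orth_of_isTR`,
helper89.)  With `stmtLocDivN_of_toric` (helper17):

  `stmtLocDivN_of_pieces : StmtPkgCross → StmtPkgRdiv → StmtPkgGlue → StmtPkgCard →
     StmtPkgNice → StmtLocDivN`

(`stmtPkgVal`, `stmtPkgType` (helper25), `stmtPkgBase`, `stmtPkgInertia` (helper94) are proved).

Inside:
* `pkgam_push₁_smul` : if `w` exchanges the types, `r_{1*}(w • D) = r_{2*} D`;
* `pkgam_r_div₂` : `r_div₂` from `r_div₁` by `w_N`;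
* `pkgam_indep` : `w_N h`, `h = 1 / oggU`, separates the two Gauss valuations;
* `pkgam_isTR` : the axioms `IsTR` from the pieces.
-/

set_option autoImplicit false
set_option linter.unusedSectionVars false
set_option linter.unusedVariables false
set_option linter.style.haveILetI false

noncomputable section

open AlgebraicCurve Module ModularCurve

namespace Fermat.Agent.S15.LN

open Fermat.Agent.W1 Fermat.Agent.S24 Fermat.Agent.S15 Fermat.Agent.ES.M Fermat.Agent.DEU
  Fermat.Agent.INJ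

open scoped Classical

/-! ## Abstract: exchanging the two components -/

section Swap

variable {K F k F₁ : Type} [Field K] [Field F] [Algebra K F] [Field k] [Field F₁] [Algebra k F₁]
variable {A : ValuationSubring K} {R : TRData K F k F₁ F₁ A}

theorem pkgam_pt₁_smul (w : F ≃ₐ[K] F)
    (hw : ∀ P Q, R.r (w • P) = some (Sum.inl Q) ↔ R.r P = some (Sum.inr Q)) (P : Place K F) :
    R.pt₁ (w • P) = R.pt₂ P := by
  refine AddMonoidHom.ext fun n => Finsupp.ext fun Q => ?_
  rw [ln_pt₁_apply, ln_pt₂_apply]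
  by_cases h : R.r P = some (Sum.inr Q)
  · rw [if_pos h, if_pos ((hw P Q).mpr h)]
  · rw [if_neg h, if_neg (fun h' => h ((hw P Q).mp h'))]

/-- if `w` exchanges the types, `r_{1*}(w • D) = r_{2*} D` -/
theorem pkgam_push₁_smul (w : F ≃ₐ[K] F)
    (hw : ∀ P Q, R.r (w • P) = some (Sum.inl Q) ↔ R.r P = some (Sum.inr Q))
    (D : Divisor K F) : R.push₁ (w • D) = R.push₂ D := by
  induction D using Finsupp.induction with
  | zero => rw [smul_zero, map_zero, map_zero]
  | single_add v n D _ _ ih =>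
    rw [smul_add, map_add, map_add, ih, Divisor.smul_single]
    congr 1
    unfold TRData.push₁ TRData.push₂
    rw [Finsupp.liftAddHom_apply_single, Finsupp.liftAddHom_apply_single, pkgam_pt₁_smul w hw]

end Swap

/-! ## The package -/

variable {N : ℕ} [NeZero N] {A : ValuationSubring Kb}

theorem pkgam_swap (hT : PkgIsType N A) (P : Place Kb (FF N)) (Q : Place (kA A) (FFk A)) :
    pkgR N A (frickeAut N • P) = some (Sum.inl Q) ↔ pkgR N A P = some (Sum.inr Q) := by
  rw [hT.r_inl_iff, hT.r_inr_iff]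

/-- the divisor of `w_N u` is `w_N • div u` -/
theorem pkgam_div_fricke {u : FF N} {D : Divisor Kb (FF N)} (hD : ∀ P, D P = P.ord u)
    (P : Place Kb (FF N)) : (frickeAut N • D) P = P.ord (frickeAut N u) := by
  rw [Divisor.smul_apply, hD]
  have h := Place.ord_smul (frickeAut N) ((frickeAut N)⁻¹ • P) u
  rw [smul_inv_smul] at h
  exact h.symm

/-- `r_div₂` from `r_div₁` by the Fricke involution -/
theorem pkgam_r_div₂ (hB : PkgBase N A) (hT : PkgIsType N A) (hC : PkgIsCross N A hB)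
    (hRd : ∀ u : pkgO₁ N A, pkgRed₁ N A hB u ≠ 0 →
      ∀ D : Divisor Kb (FF N), (∀ P, D P = P.ord (u : FF N)) →
        ∀ Q : Place (kA A) (FFk A), (∀ x ∈ pkgX N A hB, x.1 ≠ Q) →
          (pkgTR N A hB).push₁ D Q = Q.ord (pkgRed₁ N A hB u))
    (u : pkgO₂ N A) (hu : pkgRed₂ N A hB u ≠ 0) (D : Divisor Kb (FF N))
    (hD : ∀ P, D P = P.ord (u : FF N)) (Q : Place (kA A) (FFk A))
    (hQ : ∀ x ∈ pkgX N A hB, x.2 ≠ Q) :
    (pkgTR N A hB).push₂ D Q = Q.ord (pkgRed₂ N A hB u) := by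
  have hQ' : ∀ x ∈ pkgX N A hB, x.1 ≠ Q := fun x hx h => hQ (x.2, x.1) (hC.symm x hx) h
  have h1 := hRd (pkgSwap N A u) hu (frickeAut N • D) (pkgam_div_fricke hD) Q hQ'
  rw [pkgam_push₁_smul (R := pkgTR N A hB) (frickeAut N) (pkgam_swap hT)] at h1
  exact h1

/-- `w_N h`, `h = 1 / oggU`, separates the two Gauss valuations -/
theorem pkgam_indep (hB : PkgBase N A) (hV : PkgIsVal N A hB) :
    ∃ f : FF N, f ∈ (pkgO₁ N A).nonunits ∧ f ∉ (pkgO₂ N A).nonunits ∧ f ∈ pkgO₂ N A := by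
  refine ⟨frickeAut N (oggU N)⁻¹, ?_, ?_, ?_⟩
  · exact (pkg_mem_nonunits₂_iff N A _).mp hV.h_mem₂
  · rw [pkg_mem_nonunits₂_iff, frickeAut_frickeAut]
    exact hV.h_unit₁
  · rw [mem_pkgO₂, frickeAut_frickeAut]
    exact hV.h_mem₁

theorem pkgam_res_eq_zero_iff (a : A) :
    IsLocalRing.residue A a = 0 ↔ (a : Kb) ∈ A.nonunits := by
  rw [IsLocalRing.residue_eq_zero_iff]
  constructor
  · intro h
    exact (ValuationSubring.mem_nonunits_iff_exists_mem_maximalIdeal).mpr ⟨a.2, h⟩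
  · intro h
    obtain ⟨ha, hm⟩ := (ValuationSubring.mem_nonunits_iff_exists_mem_maximalIdeal).mp h
    exact hm

/-- the axioms `IsTR` of the package, from the pieces -/
theorem pkgam_isTR (hB : PkgBase N A) (hV : PkgIsVal N A hB) (hT : PkgIsType N A)
    (hC : PkgIsCross N A hB)
    (hRd : ∀ u : pkgO₁ N A, pkgRed₁ N A hB u ≠ 0 →
      ∀ D : Divisor Kb (FF N), (∀ P, D P = P.ord (u : FF N)) →
        ∀ Q : Place (kA A) (FFk A), (∀ x ∈ pkgX N A hB, x.1 ≠ Q) →
          (pkgTR N A hB).push₁ D Q = Q.ord (pkgRed₁ N A hB u))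
    (hGl : ∀ (u : FF N) (h₁ : u ∈ pkgO₁ N A) (h₂ : u ∈ pkgO₂ N A),
      (∀ P : Place Kb (FF N), P.ord u < 0 → (pkgR N A P).isSome) →
        (pkgTR N A hB).Glued (pkgRed₁ N A hB ⟨u, h₁⟩) (pkgRed₂ N A hB ⟨u, h₂⟩)) :
    (pkgTR N A hB).IsTR where
  res_surjective := IsLocalRing.residue_surjective
  res_eq_zero_iff := pkgam_res_eq_zero_iff
  algebraMap_mem_iff₁ := hV.algebraMap_mem_iff₁
  algebraMap_mem_iff₂ := hV.algebraMap_mem_iff₂
  red₁_surjective := hV.red₁_surjective
  red₂_surjective := hV.red₂_surjective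
  red₁_eq_zero_iff := hV.red₁_eq_zero_iff
  red₂_eq_zero_iff := hV.red₂_eq_zero_iff
  red₁_algebraMap := hV.red₁_algebraMap
  red₂_algebraMap := hV.red₂_algebraMap
  prim₁ := hV.prim₁
  prim₂ := hV.prim₂
  indep := pkgam_indep hB hV
  cross₁ := hC.cross₁
  cross₂ := hC.cross₂
  cross_inj₁ := hC.cross_inj₁
  cross_inj₂ := hC.cross_inj₂
  r_div₁ := hRd
  r_div₂ := pkgam_r_div₂ hB hT hC hRd
  glue := hGl

/-- **pruned PKG-asm, bottom half**: the pieces give the toric package. -/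
theorem stmtPkgToric_of (hVal : StmtPkgVal) (hType : StmtPkgType) (hCross : StmtPkgCross)
    (hRdiv : StmtPkgRdiv) (hGlue : StmtPkgGlue) (hCard : StmtPkgCard) (hNice : StmtPkgNice) :
    StmtPkgToric := by
  intro N _ hN h5 A hA hB
  have hV := hVal N hN A hA hB
  have hT := hType N hN h5 A hA
  have hC := hCross N hN h5 A hA hB
  have hTR : (pkgTR N A hB).IsTR :=
    pkgam_isTR hB hV hT hC (hRdiv N hN h5 A hA hB) (hGlue N hN h5 A hA hB)
  obtain ⟨hn, hnk⟩ := hNice N hN h5 A hA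
  exact ⟨gN N, hTR, hn, hnk, hnk, hCard N hN h5 A hA hB, pkgo_orth_of_isTR N A hB hTR⟩

/-- **LOCDIV at the level prime** from the open pieces of LN-PKG. -/
theorem stmtLocDivN_of_pieces (hCross : StmtPkgCross) (hRdiv : StmtPkgRdiv)
    (hGlue : StmtPkgGlue) (hCard : StmtPkgCard) (hNice : StmtPkgNice) : StmtLocDivN :=
  stmtLocDivN_of_toric
    (stmtPkgToric_of stmtPkgVal stmtPkgType hCross hRdiv hGlue hCard hNice) stmtPkgType

end Fermat.Agent.S15.LN
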