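import Fermat.Agent.S15.PkgCardSer
import Fermat.Agent.S15.PkgVal
import Fermat.Agent.ES.M.FrickePlaces

/-!
# S15 / LOCAL-N / LN-PKG, piece PKG-card (2): the chart ring `B` in Gauss form

* `PkgcB N A f u v` : `f` has poles only at the cusps and Gauss reductions `u` (at `∞`) and
  `v` (at `0`, i.e. `v` is the Gauss reduction of `w_N f`);
* ring operations, constants, `j`, `j_N`, `h = 1/oggU`, the swap `w_N`;
* `pkgc_coeff_mem` (orthonormality): if the pairs of reductions of `b i` are linearly independent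
  and `∑ c i • b i` is integral for both Gauss norms, then `c i ∈ A`.
-/

set_option autoImplicit false
set_option linter.unusedSectionVars false

noncomputable section

namespace Fermat.Agent.S15.LN

open ModularCurve AlgebraicCurve HahnSeries Polynomial Fermat.Agent.ES Fermat.Agent.S24
  Fermat.Agent.ES.M Fermat.Agent.DEU Fermat.Agent.INJ Fermat.Agent.S15

variable (N : ℕ) [NeZero N] (A : ValuationSubring Kb)

/-! ### Poles only at the cusps -/

theorem pkgc_poles_iff {x : FF N} : PolesAtCusps N x ↔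
    ∀ P : Place Kb (FF N), jF N ∈ P.toValuationSubring → x ∈ P.toValuationSubring := by
  constructor
  · intro h P hP
    exact PlaceAux.mem_of_ord_nonneg P (h P ((PlaceAux.ord_nonneg_iff P fr_jF_ne_zero).mpr hP))
  · intro h P hP
    rcases eq_or_ne x 0 with rfl | hx
    · rw [Place.ord_zero]
    · exact (PlaceAux.ord_nonneg_iff P hx).mpr
        (h P ((PlaceAux.ord_nonneg_iff P fr_jF_ne_zero).mp hP))

theorem pkgc_poles_zero : PolesAtCusps N (0 : FF N) :=
  (pkgc_poles_iff N).mpr fun _ _ => zero_mem _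

theorem pkgc_poles_const (a : Kb) : PolesAtCusps N (algebraMap Kb (FF N) a) :=
  (pkgc_poles_iff N).mpr fun P _ => P.algebraMap_mem' a

theorem pkgc_poles_jF : PolesAtCusps N (jF N) := fun _ h => h

variable {N}

theorem pkgc_poles_add {x y : FF N} (hx : PolesAtCusps N x) (hy : PolesAtCusps N y) :
    PolesAtCusps N (x + y) :=
  (pkgc_poles_iff N).mpr fun P hP =>
    add_mem ((pkgc_poles_iff N).mp hx P hP) ((pkgc_poles_iff N).mp hy P hP)

theorem pkgc_poles_sub {x y : FF N} (hx : PolesAtCusps N x) (hy : PolesAtCusps N y) :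
    PolesAtCusps N (x - y) :=
  (pkgc_poles_iff N).mpr fun P hP =>
    sub_mem ((pkgc_poles_iff N).mp hx P hP) ((pkgc_poles_iff N).mp hy P hP)

theorem pkgc_poles_mul {x y : FF N} (hx : PolesAtCusps N x) (hy : PolesAtCusps N y) :
    PolesAtCusps N (x * y) :=
  (pkgc_poles_iff N).mpr fun P hP =>
    mul_mem ((pkgc_poles_iff N).mp hx P hP) ((pkgc_poles_iff N).mp hy P hP)

theorem pkgc_poles_pow {x : FF N} (hx : PolesAtCusps N x) (n : ℕ) :
    PolesAtCusps N (x ^ n) :=
  (pkgc_poles_iff N).mpr fun P hP => pow_mem ((pkgc_poles_iff N).mp hx P hP) n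

theorem pkgc_poles_sum {ι : Type*} (s : Finset ι) {x : ι → FF N}
    (hx : ∀ i ∈ s, PolesAtCusps N (x i)) : PolesAtCusps N (∑ i ∈ s, x i) :=
  (pkgc_poles_iff N).mpr fun P hP => sum_mem fun i hi => (pkgc_poles_iff N).mp (hx i hi) P hP

variable (N)

theorem pkgc_poles_jN : PolesAtCusps N (jdF N N dvd_rfl) := by
  have h := fricke_polesAtCusps (pkgc_poles_jF N)
  rwa [frickeAut_jF] at h

/-! ### Gauss reductions of sums and scalar multiples -/

variable {N A}

theorem pkgc_gaussRed_sub {x x' : FF N} {w w' : LaurentSeries (kA A)}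
    (h : GaussRed N A x w) (h' : GaussRed N A x' w') : GaussRed N A (x - x') (w - w') := by
  rw [sub_eq_add_neg, sub_eq_add_neg]
  exact deuInst_gaussRed_add N A h (deuInst_gaussRed_neg N A h')

theorem pkgc_gaussRed_sum {ι : Type*} (s : Finset ι) {x : ι → FF N}
    {w : ι → LaurentSeries (kA A)} (h : ∀ i ∈ s, GaussRed N A (x i) (w i)) :
    GaussRed N A (∑ i ∈ s, x i) (∑ i ∈ s, w i) := by
  classical
  induction s using Finset.induction_on with
  | empty =>
    rw [Finset.sum_empty, Finset.sum_empty]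
    exact deuInst_gaussRed_zero N A
  | insert a s ha ih =>
    rw [Finset.sum_insert ha, Finset.sum_insert ha]
    exact deuInst_gaussRed_add N A (h a (Finset.mem_insert_self a s))
      (ih fun i hi => h i (Finset.mem_insert_of_mem hi))

theorem pkgc_gaussRed_smul (a : A) {x : FF N} {w : LaurentSeries (kA A)}
    (h : GaussRed N A x w) :
    GaussRed N A ((a : Kb) • x) (HahnSeries.C (IsLocalRing.residue A a) * w) := by
  rw [Algebra.smul_def]
  exact deuInst_gaussRed_mul N A (deuInst_gaussRed_const N A a) h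

theorem pkgc_gaussRed_pow {x : FF N} {w : LaurentSeries (kA A)} (h : GaussRed N A x w) (n : ℕ) :
    GaussRed N A (x ^ n) (w ^ n) := by
  induction n with
  | zero =>
    rw [pow_zero, pow_zero]
    exact deuInst_gaussRed_one N A
  | succ n ih =>
    rw [pow_succ, pow_succ]
    exact deuInst_gaussRed_mul N A ih h

/-- a multiple by a nonunit of `A` reduces to `0` -/
theorem pkgc_gaussRed_smul_nonunit {a : Kb} (ha : a ∈ A.nonunits) {x : FF N}
    {w : LaurentSeries (kA A)} (h : GaussRed N A x w) : GaussRed N A (a • x) 0 := by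
  have haA : a ∈ A := A.nonunits_subset ha
  have h1 := pkgc_gaussRed_smul ⟨a, haA⟩ h
  have h2 : IsLocalRing.residue A ⟨a, haA⟩ = 0 := by
    rw [IsLocalRing.residue_eq_zero_iff, ← ValuationSubring.coe_mem_nonunits_iff]
    exact ha
  rw [h2, map_zero, zero_mul] at h1
  exact h1

variable (N A)

/-! ### The chart ring -/

/-- `f ∈ B` with reductions `(u, v)` on the two components -/
def PkgcB (f : FF N) (u v : LaurentSeries (kA A)) : Prop :=
  PolesAtCusps N f ∧ GaussRed N A f u ∧ GaussRed N A (frickeAut N f) v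

variable {N A}

theorem PkgcB.add {f g : FF N} {u v u' v' : LaurentSeries (kA A)} (hf : PkgcB N A f u v)
    (hg : PkgcB N A g u' v') : PkgcB N A (f + g) (u + u') (v + v') := by
  refine ⟨pkgc_poles_add hf.1 hg.1, deuInst_gaussRed_add N A hf.2.1 hg.2.1, ?_⟩
  rw [map_add]
  exact deuInst_gaussRed_add N A hf.2.2 hg.2.2

theorem PkgcB.sub {f g : FF N} {u v u' v' : LaurentSeries (kA A)} (hf : PkgcB N A f u v)
    (hg : PkgcB N A g u' v') : PkgcB N A (f - g) (u - u') (v - v') := by
  refine ⟨pkgc_poles_sub hf.1 hg.1, pkgc_gaussRed_sub hf.2.1 hg.2.1, ?_⟩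
  rw [map_sub]
  exact pkgc_gaussRed_sub hf.2.2 hg.2.2

theorem PkgcB.mul {f g : FF N} {u v u' v' : LaurentSeries (kA A)} (hf : PkgcB N A f u v)
    (hg : PkgcB N A g u' v') : PkgcB N A (f * g) (u * u') (v * v') := by
  refine ⟨pkgc_poles_mul hf.1 hg.1, deuInst_gaussRed_mul N A hf.2.1 hg.2.1, ?_⟩
  rw [map_mul]
  exact deuInst_gaussRed_mul N A hf.2.2 hg.2.2

theorem PkgcB.pow {f : FF N} {u v : LaurentSeries (kA A)} (hf : PkgcB N A f u v) (n : ℕ) :
    PkgcB N A (f ^ n) (u ^ n) (v ^ n) := by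
  refine ⟨pkgc_poles_pow hf.1 n, pkgc_gaussRed_pow hf.2.1 n, ?_⟩
  rw [map_pow]
  exact pkgc_gaussRed_pow hf.2.2 n

theorem pkgcB_zero : PkgcB N A (0 : FF N) 0 0 := by
  refine ⟨pkgc_poles_zero N, deuInst_gaussRed_zero N A, ?_⟩
  rw [map_zero]
  exact deuInst_gaussRed_zero N A

theorem pkgcB_const (a : A) : PkgcB N A (algebraMap Kb (FF N) (a : Kb))
    (HahnSeries.C (IsLocalRing.residue A a)) (HahnSeries.C (IsLocalRing.residue A a)) := by
  refine ⟨pkgc_poles_const N _, deuInst_gaussRed_const N A a, ?_⟩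
  rw [AlgEquiv.commutes]
  exact deuInst_gaussRed_const N A a

theorem PkgcB.smul (a : A) {f : FF N} {u v : LaurentSeries (kA A)} (hf : PkgcB N A f u v) :
    PkgcB N A ((a : Kb) • f) (HahnSeries.C (IsLocalRing.residue A a) * u)
      (HahnSeries.C (IsLocalRing.residue A a) * v) := by
  rw [Algebra.smul_def]
  exact (pkgcB_const a).mul hf

/-- a multiple by a nonunit of `A` reduces to `(0, 0)` -/
theorem PkgcB.smul_nonunit {a : Kb} (ha : a ∈ A.nonunits) {f : FF N}
    {u v : LaurentSeries (kA A)} (hf : PkgcB N A f u v) : PkgcB N A (a • f) 0 0 := by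
  have haA : a ∈ A := A.nonunits_subset ha
  have h1 := hf.smul ⟨a, haA⟩
  have h2 : IsLocalRing.residue A ⟨a, haA⟩ = 0 := by
    rw [IsLocalRing.residue_eq_zero_iff, ← ValuationSubring.coe_mem_nonunits_iff]
    exact ha
  rw [h2, map_zero, zero_mul, zero_mul] at h1
  exact h1

/-- the swap `w_N` -/
theorem PkgcB.swap {f : FF N} {u v : LaurentSeries (kA A)} (hf : PkgcB N A f u v) :
    PkgcB N A (frickeAut N f) v u := by
  refine ⟨fricke_polesAtCusps hf.1, hf.2.2, ?_⟩
  rw [frickeAut_frickeAut]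
  exact hf.2.1

theorem PkgcB.unique {f : FF N} {u v u' v' : LaurentSeries (kA A)} (hf : PkgcB N A f u v)
    (hf' : PkgcB N A f u' v') : u = u' ∧ v = v' :=
  ⟨deuInst_gaussRed_unique N A hf.2.1 hf'.2.1, deuInst_gaussRed_unique N A hf.2.2 hf'.2.2⟩

theorem PkgcB.sum {ι : Type*} (s : Finset ι) {f : ι → FF N} {u v : ι → LaurentSeries (kA A)}
    (h : ∀ i ∈ s, PkgcB N A (f i) (u i) (v i)) :
    PkgcB N A (∑ i ∈ s, f i) (∑ i ∈ s, u i) (∑ i ∈ s, v i) := by
  refine ⟨pkgc_poles_sum s fun i hi => (h i hi).1, pkgc_gaussRed_sum s fun i hi => (h i hi).2.1,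
    ?_⟩
  rw [map_sum]
  exact pkgc_gaussRed_sum s fun i hi => (h i hi).2.2

variable (N A)

/-- `j ∈ B` with reductions `(j̄, j̄ ^ N)` -/
theorem pkgcB_j (hN : N.Prime) (hA : A.LiesOverPrime N) :
    PkgcB N A (jF N) (jqModC (kA A)) (jqModC (kA A) ^ N) := by
  have : CharP (kA A) N := kron_charP_residueField hN hA
  refine ⟨pkgc_poles_jF N, pkg_gaussRed_j N A, ?_⟩
  rw [frickeAut_jF, ← pkg_jN_eq_pow N (kA A) hN]
  exact pkg_gaussRed_jN N A

/-- `j_N ∈ B` with reductions `(j̄ ^ N, j̄)` -/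
theorem pkgcB_jN (hN : N.Prime) (hA : A.LiesOverPrime N) :
    PkgcB N A (jdF N N dvd_rfl) (jqModC (kA A) ^ N) (jqModC (kA A)) := by
  have h := (pkgcB_j N A hN hA).swap
  rwa [frickeAut_jF] at h

/-! ### Orthonormality -/

variable {N A}

theorem pkgc_fricke_smul (a : Kb) (x : FF N) : frickeAut N (a • x) = a • frickeAut N x := by
  rw [Algebra.smul_def, map_mul, AlgEquiv.commutes, ← Algebra.smul_def]

/-- in a finite family of elements of `ℚ̄` one has maximal valuation -/
theorem pkgc_exists_max {n : ℕ} (c : Fin n → Kb) (i₀ : Fin n) :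
    ∃ j, ∀ i, A.valuation (c i) ≤ A.valuation (c j) := by
  obtain ⟨j, -, hj⟩ := Finset.exists_max_image Finset.univ (fun i => A.valuation (c i))
    ⟨i₀, Finset.mem_univ _⟩
  exact ⟨j, fun i => hj i (Finset.mem_univ _)⟩

/-- **orthonormality**: if the pairs of reductions of the `b i` are linearly independent and
`∑ c i • b i` is integral for both Gauss norms, then the `c i` lie in `A`. -/
theorem pkgc_coeff_mem {n : ℕ} {b : Fin n → FF N} {w₁ w₂ : Fin n → LaurentSeries (kA A)}
    (hG₁ : ∀ i, GaussRed N A (b i) (w₁ i)) (hG₂ : ∀ i, GaussRed N A (frickeAut N (b i)) (w₂ i))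
    (hli : LinearIndependent (kA A) (fun i => ((w₁ i, w₂ i) :
      LaurentSeries (kA A) × LaurentSeries (kA A))))
    (c : Fin n → Kb) {u v : LaurentSeries (kA A)} (hu : GaussRed N A (∑ i, c i • b i) u)
    (hv : GaussRed N A (frickeAut N (∑ i, c i • b i)) v) (i : Fin n) : c i ∈ A := by
  obtain ⟨j, hj⟩ := pkgc_exists_max (A := A) c i
  by_cases hcj : c j ∈ A
  · rw [← ValuationSubring.valuation_le_one_iff]
    exact (hj i).trans ((ValuationSubring.valuation_le_one_iff A _).mpr hcj)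
  exfalso
  have hcj0 : c j ≠ 0 := by
    intro h
    exact hcj (h ▸ A.zero_mem)
  have hinv : (c j)⁻¹ ∈ A.nonunits := by
    rw [ValuationSubring.mem_nonunits_iff, map_inv₀]
    have h1 : 1 < A.valuation (c j) := by
      rw [← not_le, ValuationSubring.valuation_le_one_iff]
      exact hcj
    exact inv_lt_one_of_one_lt₀ h1
  have hd : ∀ i, c i / c j ∈ A := by
    intro i
    rw [← ValuationSubring.valuation_le_one_iff, map_div₀]
    exact div_le_one_of_le₀ (hj i) zero_le
  -- the scaled element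
  have hsc : (c j)⁻¹ • ∑ i, c i • b i = ∑ i, ((⟨c i / c j, hd i⟩ : A) : Kb) • b i := by
    rw [Finset.smul_sum]
    refine Finset.sum_congr rfl fun i _ => ?_
    rw [smul_smul]
    congr 1
    show (c j)⁻¹ * c i = c i / c j
    rw [div_eq_mul_inv, mul_comm]
  have h1 : GaussRed N A ((c j)⁻¹ • ∑ i, c i • b i) 0 := pkgc_gaussRed_smul_nonunit hinv hu
  have h2 : GaussRed N A (frickeAut N ((c j)⁻¹ • ∑ i, c i • b i)) 0 := by
    rw [pkgc_fricke_smul]
    exact pkgc_gaussRed_smul_nonunit hinv hv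
  have h3 : GaussRed N A (∑ i, ((⟨c i / c j, hd i⟩ : A) : Kb) • b i)
      (∑ i, HahnSeries.C (IsLocalRing.residue A ⟨c i / c j, hd i⟩) * w₁ i) :=
    pkgc_gaussRed_sum _ fun i _ => pkgc_gaussRed_smul _ (hG₁ i)
  have h4 : GaussRed N A (frickeAut N (∑ i, ((⟨c i / c j, hd i⟩ : A) : Kb) • b i))
      (∑ i, HahnSeries.C (IsLocalRing.residue A ⟨c i / c j, hd i⟩) * w₂ i) := by
    rw [map_sum]
    refine pkgc_gaussRed_sum _ fun i _ => ?_
    rw [pkgc_fricke_smul]
    exact pkgc_gaussRed_smul _ (hG₂ i)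
  rw [hsc] at h1 h2
  have e₁ := deuInst_gaussRed_unique N A h3 h1
  have e₂ := deuInst_gaussRed_unique N A h4 h2
  have hzero : ∑ i, IsLocalRing.residue A ⟨c i / c j, hd i⟩ •
      ((w₁ i, w₂ i) : LaurentSeries (kA A) × LaurentSeries (kA A)) = 0 := by
    apply Prod.ext
    · rw [Prod.fst_sum]
      show ∑ i, IsLocalRing.residue A ⟨c i / c j, hd i⟩ • w₁ i = 0
      rw [← e₁]
      exact Finset.sum_congr rfl fun i _ => (HahnSeries.C_mul_eq_smul).symm
    · rw [Prod.snd_sum]
      show ∑ i, IsLocalRing.residue A ⟨c i / c j, hd i⟩ • w₂ i = 0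
      rw [← e₂]
      exact Finset.sum_congr rfl fun i _ => (HahnSeries.C_mul_eq_smul).symm
  have h5 := Fintype.linearIndependent_iff.mp hli _ hzero j
  have h6 : (⟨c j / c j, hd j⟩ : A) = 1 := by
    apply Subtype.ext
    show c j / c j = 1
    exact div_self hcj0
  rw [h6, map_one] at h5
  exact one_ne_zero h5

end Fermat.Agent.S15.LN
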