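import Fermat.Agent.S15.PkgCardLift
import Fermat.Agent.S15.PkgCardPlan
import Fermat.Agent.S15.PkgQ2
import Fermat.Agent.S15.LNGoursat
import Fermat.Agent.ES.M.LemmaW
import Fermat.Agent.DEU.ModHyp

/-!
# S15 / LOCAL-N / LN-PKG, piece PKG-card (5): the reduction of the chart ring and its dimensions

* `pkgcR N A` : the subalgebra `red(B) ∩ (k[j̄] × k[j̄])` of `k[X] × k[X]`;
* `pkgcR_j_mem`, `pkgcR_jN_mem` : it contains `(X, X ^ N)` and `(X ^ N, X)`;
* `pkgc_finrank` : under PKG-poly, `dim (R ∩ (P_a × P_a)) = dim L(a (∞) + a (0))` for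
  `a + 1 ≥ N (N - 1)` (orthonormal bases + lifting with pole control);
* `pkgc_card` : with Riemann for `F_N`: if `R` is glued along `S` then `#S = g + 1`.
-/

set_option autoImplicit false
set_option linter.unusedSectionVars false

noncomputable section

namespace Fermat.Agent.S15.LN

open ModularCurve AlgebraicCurve HahnSeries Polynomial Fermat.Agent.ES Fermat.Agent.S24
  Fermat.Agent.ES.M Fermat.Agent.DEU Fermat.Agent.INJ Fermat.Agent.S15 Fermat.Agent.S28
  Fermat.Agent.W1

/-! ### Linear algebra -/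

section LinAlg

variable {K F : Type*} [Field K] [AddCommGroup F] [Module K F]

/-- a basis of a finite-dimensional subspace, as a family of vectors of the ambient space -/
theorem pkgc_exists_basis (V : Submodule K F) [Module.Finite K V] :
    ∃ a : Fin (Module.finrank K V) → F, LinearIndependent K a ∧
      Submodule.span K (Set.range a) = V := by
  let B := Module.finBasis K V
  refine ⟨fun i => ((B i : V) : F),
    B.linearIndependent.map' V.subtype (Submodule.ker_subtype _), ?_⟩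
  have h1 : (Set.range fun i => ((B i : V) : F)) = V.subtype '' Set.range B := by
    ext x
    constructor
    · rintro ⟨i, rfl⟩
      exact ⟨B i, ⟨i, rfl⟩, rfl⟩
    · rintro ⟨_, ⟨i, rfl⟩, rfl⟩
      exact ⟨i, rfl⟩
  rw [h1, Submodule.span_image, B.span_eq, Submodule.map_top, Submodule.range_subtype]

/-- `dim V` linearly independent vectors of `V` span `V` -/
theorem pkgc_le_span (V : Submodule K F) [Module.Finite K V]
    (b : Fin (Module.finrank K V) → F) (hb : ∀ i, b i ∈ V) (hli : LinearIndependent K b) :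
    V ≤ Submodule.span K (Set.range b) := by
  let b' : Fin (Module.finrank K V) → V := fun i => ⟨b i, hb i⟩
  have hb'li : LinearIndependent K b' := by
    apply LinearIndependent.of_comp V.subtype
    exact hli
  have hb'span : Submodule.span K (Set.range b') = ⊤ :=
    hb'li.span_eq_top_of_card_eq_finrank' (by simp)
  intro x hx
  have hx' : (⟨x, hx⟩ : V) ∈ Submodule.span K (Set.range b') := by
    rw [hb'span]
    exact Submodule.mem_top
  have h3 := Submodule.apply_mem_span_image_of_mem_span V.subtype hx'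
  have h4 : V.subtype '' Set.range b' = Set.range b := by
    ext y
    constructor
    · rintro ⟨_, ⟨i, rfl⟩, rfl⟩
      exact ⟨i, rfl⟩
    · rintro ⟨i, rfl⟩
      exact ⟨b' i, ⟨i, rfl⟩, rfl⟩
  rw [h4] at h3
  exact h3

end LinAlg

variable (N : ℕ) [NeZero N] (A : ValuationSubring Kb)

/-! ### The subalgebra -/

theorem pkgc_aeval_C (c : kA A) :
    Polynomial.aeval (jqModC (kA A)) (Polynomial.C c) = HahnSeries.C c := by
  rw [Polynomial.aeval_C, Fermat.Agent.ES.M.algebraMap_eq_hahnC]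

/-- the reduction of the chart ring -/
def pkgcR : Subalgebra (kA A) ((kA A)[X] × (kA A)[X]) where
  carrier := {x | ∃ f : FF N, PkgcB N A f (Polynomial.aeval (jqModC (kA A)) x.1)
    (Polynomial.aeval (jqModC (kA A)) x.2)}
  mul_mem' := by
    rintro x y ⟨f, hf⟩ ⟨g, hg⟩
    refine ⟨f * g, ?_⟩
    rw [Prod.fst_mul, Prod.snd_mul, map_mul, map_mul]
    exact hf.mul hg
  add_mem' := by
    rintro x y ⟨f, hf⟩ ⟨g, hg⟩
    refine ⟨f + g, ?_⟩
    rw [Prod.fst_add, Prod.snd_add, map_add, map_add]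
    exact hf.add hg
  algebraMap_mem' := by
    intro c
    obtain ⟨a, rfl⟩ := IsLocalRing.residue_surjective c
    refine ⟨algebraMap Kb (FF N) (a : Kb), ?_⟩
    have h1 : (algebraMap (kA A) ((kA A)[X] × (kA A)[X]) (IsLocalRing.residue A a)) =
        (Polynomial.C (IsLocalRing.residue A a), Polynomial.C (IsLocalRing.residue A a)) := rfl
    rw [h1]
    show PkgcB N A _ (Polynomial.aeval (jqModC (kA A)) (Polynomial.C (IsLocalRing.residue A a)))
      (Polynomial.aeval (jqModC (kA A)) (Polynomial.C (IsLocalRing.residue A a)))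
    rw [pkgc_aeval_C]
    exact pkgcB_const a

theorem mem_pkgcR {x : (kA A)[X] × (kA A)[X]} : x ∈ pkgcR N A ↔
    ∃ f : FF N, PkgcB N A f (Polynomial.aeval (jqModC (kA A)) x.1)
      (Polynomial.aeval (jqModC (kA A)) x.2) := Iff.rfl

theorem pkgcR_j_mem (hN : N.Prime) (hA : A.LiesOverPrime N) :
    ((X, X ^ N) : (kA A)[X] × (kA A)[X]) ∈ pkgcR N A := by
  refine ⟨jF N, ?_⟩
  show PkgcB N A _ (Polynomial.aeval (jqModC (kA A)) X) (Polynomial.aeval (jqModC (kA A)) (X ^ N))
  rw [map_pow, Polynomial.aeval_X]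
  exact pkgcB_j N A hN hA

theorem pkgcR_jN_mem (hN : N.Prime) (hA : A.LiesOverPrime N) :
    ((X ^ N, X) : (kA A)[X] × (kA A)[X]) ∈ pkgcR N A := by
  refine ⟨jdF N N dvd_rfl, ?_⟩
  show PkgcB N A _ (Polynomial.aeval (jqModC (kA A)) (X ^ N)) (Polynomial.aeval (jqModC (kA A)) X)
  rw [map_pow, Polynomial.aeval_X]
  exact pkgcB_jN N A hN hA

/-! ### Pole orders of the reductions -/

variable {N A}

/-- the pole order does not increase under reduction -/
theorem pkgc_poleLe_red {ℓ : ℕ} (hℓ : ℓ.Prime) (hA : A.LiesOverPrime ℓ) {f : FF N}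
    (hf : PolesAtCusps N f) {u : LaurentSeries (kA A)} (hu : GaussRed N A f u) {a : ℤ}
    (h : PkgcPoleLe a ((f : FF N) : LaurentSeries Kb)) : PkgcPoleLe a u := by
  obtain ⟨Y, hY, hYred⟩ := pkgc_exists_lift N A hℓ hA hf hu
  rw [← hYred]
  apply PkgcPoleLe.coeffMap
  apply pkgcPoleLe_of_coeffMap A.subtype Subtype.val_injective
  rw [hY]
  exact h

theorem pkgc_aeval_sum_C {n : ℕ} (g : Fin n → kA A) (P : Fin n → (kA A)[X]) :
    Polynomial.aeval (jqModC (kA A)) (∑ i, Polynomial.C (g i) * P i) =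
      ∑ i, HahnSeries.C (g i) * Polynomial.aeval (jqModC (kA A)) (P i) := by
  rw [map_sum]
  refine Finset.sum_congr rfl fun i _ => ?_
  rw [map_mul, pkgc_aeval_C]

variable (N A)

/-! ### The dimension count -/

theorem pkgc_natDegree_of_degree_lt {k : Type*} [Field k] {P : k[X]} {a : ℕ}
    (h : P.degree < ((a + 1 : ℕ) : WithBot ℕ)) : P.natDegree ≤ a := by
  rcases eq_or_ne P 0 with rfl | h0
  · simp
  · have := (Polynomial.natDegree_lt_iff_degree_lt h0).mpr h
    omega

/-- **the dimension count**: `dim (R ∩ (P_a × P_a)) = dim L(a (∞) + a (0))` -/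
theorem pkgc_finrank (hN : N.Prime) (hA : A.LiesOverPrime N) (hPoly : PkgcPoly N A) (a : ℕ)
    (ha : N * (N - 1) ≤ a + 1) :
    Module.finrank (kA A) ↥(Subalgebra.toSubmodule (pkgcR N A) ⊓ lngoW (kA A) a a) =
      Module.finrank Kb ↥(riemannRochSpace (pkgcD N a a)) := by
  classical
  have := lw_rr_finite N (pkgcD N a a)
  obtain ⟨a₀, ha₀, ha₀span⟩ := pkgc_exists_basis (riemannRochSpace (pkgcD N a a))
  obtain ⟨b, w₁, w₂, hbspan, hbli, hG₁, hG₂, hw⟩ :=
    pkgq2_main N A ((frickeAut N : FF N ≃ₐ[Kb] FF N).toLinearMap) _ a₀ ha₀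
  have hG₂' : ∀ i, GaussRed N A (frickeAut N (b i)) (w₂ i) := hG₂
  have hbV : ∀ i, b i ∈ riemannRochSpace (pkgcD N a a) := fun i => ha₀span ▸ hbspan i
  have hbB : ∀ i, PkgcB N A (b i) (w₁ i) (w₂ i) := fun i =>
    ⟨((pkgc_mem_rr_iff N hN a a (b i)).mp (hbV i)).1, hG₁ i, hG₂' i⟩
  -- `b` spans `V`
  have hbspanV := pkgc_le_span (riemannRochSpace (pkgcD N a a)) b hbV hbli
  -- the polynomials
  have hP' := fun i => (hPoly (b i) (w₁ i) (w₂ i) (hbB i)).1
  have hQ' := fun i => (hPoly (b i) (w₁ i) (w₂ i) (hbB i)).2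
  choose P hP using hP'
  choose Q hQ using hQ'
  set p : Fin (Module.finrank Kb ↥(riemannRochSpace (pkgcD N a a))) →
    (kA A)[X] × (kA A)[X] := fun i => (P i, Q i) with hp
  have hpR : ∀ i, p i ∈ Subalgebra.toSubmodule (pkgcR N A) ⊓ lngoW (kA A) a a := by
    intro i
    have hmem := (pkgc_mem_rr_iff N hN a a (b i)).mp (hbV i)
    refine ⟨⟨b i, ?_⟩, ?_⟩
    · show PkgcB N A (b i) (Polynomial.aeval (jqModC (kA A)) (P i))
        (Polynomial.aeval (jqModC (kA A)) (Q i))
      rw [hP i, hQ i]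
      exact hbB i
    · rw [SetLike.mem_coe, lngo_mem_W]
      have h1 : PkgcPoleLe (a : ℤ) (w₁ i) := pkgc_poleLe_red hN hA hmem.1 (hG₁ i) hmem.2.1
      have h2 : PkgcPoleLe (a : ℤ) (w₂ i) :=
        pkgc_poleLe_red hN hA (fricke_polesAtCusps hmem.1) (hG₂' i) hmem.2.2
      rw [← hP i] at h1
      rw [← hQ i] at h2
      have h3 := pkgc_natDegree_le h1
      have h4 := pkgc_natDegree_le h2
      constructor
      · exact lt_of_le_of_lt Polynomial.degree_le_natDegree
          (by exact_mod_cast Nat.lt_succ_of_le h3)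
      · exact lt_of_le_of_lt Polynomial.degree_le_natDegree
          (by exact_mod_cast Nat.lt_succ_of_le h4)
  -- linear independence of the pairs of polynomials
  have hpli : LinearIndependent (kA A) p := by
    rw [Fintype.linearIndependent_iff]
    intro g hg
    apply Fintype.linearIndependent_iff.mp hw g
    have hg₁ : ∑ i, Polynomial.C (g i) * P i = 0 := by
      have h := congrArg Prod.fst hg
      rw [Prod.fst_sum] at h
      refine Eq.trans (Finset.sum_congr rfl fun i _ => ?_) h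
      exact (Polynomial.smul_eq_C_mul _).symm
    have hg₂ : ∑ i, Polynomial.C (g i) * Q i = 0 := by
      have h := congrArg Prod.snd hg
      rw [Prod.snd_sum] at h
      refine Eq.trans (Finset.sum_congr rfl fun i _ => ?_) h
      exact (Polynomial.smul_eq_C_mul _).symm
    have e₁ := pkgc_aeval_sum_C g P
    have e₂ := pkgc_aeval_sum_C g Q
    rw [hg₁, map_zero] at e₁
    rw [hg₂, map_zero] at e₂
    apply Prod.ext
    · rw [Prod.fst_sum]
      show ∑ i, g i • w₁ i = 0
      rw [e₁]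
      refine Finset.sum_congr rfl fun i _ => ?_
      rw [hP i, HahnSeries.C_mul_eq_smul]
    · rw [Prod.snd_sum]
      show ∑ i, g i • w₂ i = 0
      rw [e₂]
      refine Finset.sum_congr rfl fun i _ => ?_
      rw [hQ i, HahnSeries.C_mul_eq_smul]
  -- the span
  have hspan : Submodule.span (kA A) (Set.range p) =
      Subalgebra.toSubmodule (pkgcR N A) ⊓ lngoW (kA A) a a := by
    apply le_antisymm
    · rw [Submodule.span_le]
      rintro _ ⟨i, rfl⟩
      exact hpR i
    · rintro ⟨P₀, Q₀⟩ ⟨⟨f, hf⟩, hW⟩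
      have hf' : PkgcB N A f (Polynomial.aeval (jqModC (kA A)) P₀)
          (Polynomial.aeval (jqModC (kA A)) Q₀) := hf
      rw [SetLike.mem_coe, lngo_mem_W] at hW
      have hdP : (P₀.natDegree : ℤ) ≤ a := by
        exact_mod_cast pkgc_natDegree_of_degree_lt hW.1
      have hdQ : (Q₀.natDegree : ℤ) ≤ a := by
        exact_mod_cast pkgc_natDegree_of_degree_lt hW.2
      obtain ⟨f', hf'B, hp1, hp2⟩ := pkgc_reduce N A hN hA a a ha ha hf'
        (pkgcPoleLe_aeval hdP) (pkgcPoleLe_aeval hdQ)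
      have hf'V : f' ∈ riemannRochSpace (pkgcD N a a) :=
        (pkgc_mem_rr_iff N hN a a f').mpr ⟨hf'B.1, hp1, hp2⟩
      obtain ⟨c, hc⟩ := (Submodule.mem_span_range_iff_exists_fun Kb).1 (hbspanV hf'V)
      have hcA : ∀ i, c i ∈ A := fun i =>
        pkgc_coeff_mem hG₁ hG₂' hw c (hc ▸ hf'B.2.1) (hc ▸ hf'B.2.2) i
      have hsum : PkgcB N A (∑ i, ((⟨c i, hcA i⟩ : A) : Kb) • b i)
          (∑ i, HahnSeries.C (IsLocalRing.residue A ⟨c i, hcA i⟩) * w₁ i)
          (∑ i, HahnSeries.C (IsLocalRing.residue A ⟨c i, hcA i⟩) * w₂ i) :=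
        PkgcB.sum _ fun i _ => (hbB i).smul _
      have hsum' : PkgcB N A f'
          (∑ i, HahnSeries.C (IsLocalRing.residue A ⟨c i, hcA i⟩) * w₁ i)
          (∑ i, HahnSeries.C (IsLocalRing.residue A ⟨c i, hcA i⟩) * w₂ i) := by
        rw [← hc]
        exact hsum
      obtain ⟨e₁, e₂⟩ := hf'B.unique hsum'
      have hP₀ : P₀ = ∑ i, Polynomial.C (IsLocalRing.residue A ⟨c i, hcA i⟩) * P i := by
        apply pkgc_aeval_injective
        rw [pkgc_aeval_sum_C, e₁]
        exact Finset.sum_congr rfl fun i _ => by rw [hP i]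
      have hQ₀ : Q₀ = ∑ i, Polynomial.C (IsLocalRing.residue A ⟨c i, hcA i⟩) * Q i := by
        apply pkgc_aeval_injective
        rw [pkgc_aeval_sum_C, e₂]
        exact Finset.sum_congr rfl fun i _ => by rw [hQ i]
      have hx : ((P₀, Q₀) : (kA A)[X] × (kA A)[X]) =
          ∑ i, IsLocalRing.residue A ⟨c i, hcA i⟩ • p i := by
        apply Prod.ext
        · rw [Prod.fst_sum]
          show P₀ = ∑ i, IsLocalRing.residue A ⟨c i, hcA i⟩ • P i
          rw [hP₀]
          exact Finset.sum_congr rfl fun i _ => (Polynomial.smul_eq_C_mul _).symm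
        · rw [Prod.snd_sum]
          show Q₀ = ∑ i, IsLocalRing.residue A ⟨c i, hcA i⟩ • Q i
          rw [hQ₀]
          exact Finset.sum_congr rfl fun i _ => (Polynomial.smul_eq_C_mul _).symm
      rw [hx]
      exact Submodule.sum_mem _ fun i _ =>
        Submodule.smul_mem _ _ (Submodule.subset_span ⟨i, rfl⟩)
  rw [← hspan, finrank_span_eq_card hpli, Fintype.card_fin]

/-- **the count**: if `red(B)` is glued along `S` then `#S = g + 1`. -/
theorem pkgc_card (hN : N.Prime) (hA : A.LiesOverPrime N) (hPoly : PkgcPoly N A)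
    (hnice : IsNiceCurve Kb (FF N) (gN N)) (S : Finset (kA A))
    (hfrob : ∀ s ∈ S, s ^ (N ^ 2) = s)
    (hS : ∀ f : (kA A)[X] × (kA A)[X], f ∈ pkgcR N A ↔
      ∀ s ∈ S, f.1.eval s = f.2.eval (s ^ N)) :
    S.card = gN N + 1 := by
  obtain ⟨c, hc⟩ := hnice.upper
  set a : ℕ := N ^ 2 + c.toNat with ha
  have hN2 := hN.two_le
  have hSle : S.card ≤ a + 1 := by
    have := lngo_card_le S N hN2 hfrob
    omega
  have haN : N * (N - 1) ≤ a + 1 := by
    have : N * (N - 1) ≤ N ^ 2 := by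
      rw [pow_two]
      exact Nat.mul_le_mul_left N (Nat.sub_le N 1)
    omega
  have hdeg : Divisor.degree (pkgcD N a a) = (a : ℤ) + a := pkgc_degree_D N a a
  have hcdeg : c ≤ Divisor.degree (pkgcD N a a) := by
    rw [hdeg]
    have := Int.self_le_toNat c
    have h2 : ((a : ℕ) : ℤ) = (N : ℤ) ^ 2 + (c.toNat : ℤ) := by rw [ha]; push_cast; ring
    have h3 : (0 : ℤ) ≤ (N : ℤ) ^ 2 := by positivity
    have h4 : (0 : ℤ) ≤ (a : ℤ) := by positivity
    omega
  have hup := hc (pkgcD N a a) hcdeg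
  have hlo := hnice.lower (pkgcD N a a)
  rw [hdeg] at hup hlo
  have hfin := pkgc_finrank N A hN hA hPoly a haN
  apply lngo_card (pkgcR N A) S N hS a a (gN N) hSle
  rw [hfin]
  have : (Module.finrank Kb ↥(riemannRochSpace (pkgcD N a a)) : ℤ) + gN N = (a : ℤ) + a + 1 := by
    linarith
  exact_mod_cast this

end Fermat.Agent.S15.LN
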