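import Fermat.Agent.S15.PkgCardGoursat
import Fermat.Agent.S15.PkgCrossG
import Fermat.Agent.S15.PkgPoly
import Fermat.Agent.S15.PkgType

/-!
# S15 / LOCAL-N / LN-PKG, piece PKG-card (7): `StmtPkgCard`

* `pkgc_poly : PkgcPoly N A` (from `stmtPkgPoly`, helper10);
* `pkgc_goursat_main : ∃ S, PkgIsGoursat N A S` — UNCONDITIONAL (`N` prime `≥ 5`, `A ∣ N`);
* `pkgc_card_X` : `(pkgX N A hB).card = gN N + 1` from Riemann for `F_N`;
* `stmtPkgCard_of_nice : StmtPkgNice → StmtPkgCard`.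
-/

set_option autoImplicit false
set_option linter.unusedSectionVars false

noncomputable section

namespace Fermat.Agent.S15.LN

open ModularCurve AlgebraicCurve HahnSeries Polynomial Fermat.Agent.ES Fermat.Agent.S24
  Fermat.Agent.ES.M Fermat.Agent.DEU Fermat.Agent.INJ Fermat.Agent.S15 Fermat.Agent.S28
  Fermat.Agent.W1

variable (N : ℕ) [NeZero N] (A : ValuationSubring Kb)

/-- **PKG-poly in Gauss form** -/
theorem pkgc_poly (hN : N.Prime) (h5 : 5 ≤ N) (hA : A.LiesOverPrime N) : PkgcPoly N A := by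
  intro f u v hf
  have hB := pkg_base N A hN hA
  have h₁ : f ∈ pkgO₁ N A := ⟨u, hf.2.1⟩
  have h₂ : f ∈ pkgO₂ N A := ⟨v, hf.2.2⟩
  obtain ⟨hp₁, hp₂⟩ := stmtPkgPoly N hN h5 A hA hB f h₁ h₂ hf.1
  rw [Algebra.adjoin_singleton_eq_range_aeval] at hp₁ hp₂
  obtain ⟨P, hP⟩ := hp₁
  obtain ⟨Q, hQ⟩ := hp₂
  refine ⟨⟨P, ?_⟩, ⟨Q, ?_⟩⟩
  · rw [← pkgcr_coe_aeval]
    have h := congrArg (fun z : FFk A => (z : LaurentSeries (kA A))) hP
    exact h.trans (pkg_red₁_eq N A hB h₁ hf.2.1)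
  · rw [← pkgcr_coe_aeval]
    have h := congrArg (fun z : FFk A => (z : LaurentSeries (kA A))) hQ
    exact h.trans (pkg_red₂_eq N A hB h₂ hf.2.2)

/-- **Goursat + (Z = S)**, unconditional -/
theorem pkgc_goursat_main (hN : N.Prime) (h5 : 5 ≤ N) (hA : A.LiesOverPrime N) :
    ∃ S : Finset (kA A), PkgIsGoursat N A S :=
  pkgc_goursat N A hN hA (pkgc_poly N A hN h5 hA)

/-- the crossing points correspond to `S` -/
theorem pkgc_card_X_eq (hN : N.Prime) (h5 : 5 ≤ N) (hA : A.LiesOverPrime N) (hB : PkgBase N A)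
    (S : Finset (kA A)) (hG : PkgIsGoursat N A S) : (pkgX N A hB).card = S.card := by
  classical
  have hT := pkgty_isType N A hN hA
  have hfin : (pkgXset N A hB).Finite := (pkgcr_isFrob_of_goursat hT hB hG).finite
  choose Qof hQof using pkgty_place_exists A
  have himg : pkgX N A hB = S.image fun s => (Qof s, Qof (s ^ N)) := by
    ext x
    rw [pkgcr_mem_X_iff hfin, stmtPkgXset N hN h5 A hA hB S hG x, Finset.mem_image]
    constructor
    · rintro ⟨s, hs, h1, h2⟩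
      refine ⟨s, hs, Prod.ext ?_ ?_⟩
      · exact pkgty_place_ext A _ _ s (hQof s) h1
      · exact pkgty_place_ext A _ _ (s ^ N) (hQof (s ^ N)) h2
    · rintro ⟨s, hs, rfl⟩
      exact ⟨s, hs, hQof s, hQof (s ^ N)⟩
  rw [himg]
  apply Finset.card_image_of_injOn
  intro s _ s' _ h
  have h1 : Qof s = Qof s' := congrArg Prod.fst h
  have h2 := hQof s
  rw [h1] at h2
  exact hasValueAt_unique _ h2 (hQof s')

/-- **PKG-card** from Riemann for `F_N` -/
theorem pkgc_card_X (hN : N.Prime) (h5 : 5 ≤ N) (hA : A.LiesOverPrime N) (hB : PkgBase N A)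
    (hnice : IsNiceCurve Kb (FF N) (gN N)) : (pkgX N A hB).card = gN N + 1 := by
  obtain ⟨S, hG⟩ := pkgc_goursat_main N A hN h5 hA
  rw [pkgc_card_X_eq N A hN h5 hA hB S hG]
  exact pkgc_count N A hN hA (pkgc_poly N A hN h5 hA) hnice S hG

/-- **PKG-card** -/
theorem stmtPkgCard_of_nice (hnice : StmtPkgNice) : StmtPkgCard :=
  fun N _ hN h5 A hA hB => pkgc_card_X N A hN h5 hA hB (hnice N hN h5 A hA).1

end Fermat.Agent.S15.LN
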