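import Fermat.Agent.S15.PkgCardE
import Fermat.Agent.ES.M.Q2

/-!
# S15 / LOCAL-N / LN-PKG, piece PKG-card (4): lifting with pole control

* `pkgc_reduce_inf` : an element `f ∈ B` whose first reduction has a pole of order `≤ a` at
  `q = 0` (`a + 1 ≥ N (N - 1)`) can be replaced by `f' ∈ B` with the same reductions and with a
  pole of order `≤ a` at the cusp `∞`, without increasing the pole at the cusp `0`;
* `pkgc_reduce` : the same at both cusps;
* `pkgcD a b = a (∞) + b (0)`, `pkgc_mem_rr_iff` : `L(a (∞) + b (0))` in terms of `q`-expansions.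
-/

set_option autoImplicit false
set_option linter.unusedSectionVars false

noncomputable section

namespace Fermat.Agent.S15.LN

open ModularCurve AlgebraicCurve HahnSeries Polynomial Fermat.Agent.ES Fermat.Agent.S24
  Fermat.Agent.ES.M Fermat.Agent.DEU Fermat.Agent.INJ Fermat.Agent.S15 Fermat.Agent.S28

variable (N : ℕ) [NeZero N] (A : ValuationSubring Kb)

theorem pkgc_coe_sub (x y : FF N) :
    ((x - y : FF N) : LaurentSeries Kb) = (x : LaurentSeries Kb) - (y : LaurentSeries Kb) := rfl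

theorem PkgcPoleLe.smul {R : Type*} [CommRing R] {a : ℤ} {x : LaurentSeries R}
    (hx : PkgcPoleLe a x) (c : R) : PkgcPoleLe a (c • x) := by
  intro m hm
  rw [HahnSeries.coeff_smul, hx m hm, smul_zero]

/-- **pole reduction at the cusp `∞`** -/
theorem pkgc_reduce_inf (hN : N.Prime) (hA : A.LiesOverPrime N) (a : ℕ)
    (ha : N * (N - 1) ≤ a + 1) :
    ∀ (n : ℕ) (f : FF N) (u v : LaurentSeries (kA A)), PkgcB N A f u v →
      PkgcPoleLe (a : ℤ) u → PkgcPoleLe ((a : ℤ) + n) ((f : FF N) : LaurentSeries Kb) →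
      ∃ f' : FF N, PkgcB N A f' u v ∧ PkgcPoleLe (a : ℤ) ((f' : FF N) : LaurentSeries Kb) ∧
        ∀ b : ℕ, PkgcPoleLe (b : ℤ) ((frickeAut N f : FF N) : LaurentSeries Kb) →
          PkgcPoleLe (b : ℤ) ((frickeAut N f' : FF N) : LaurentSeries Kb) := by
  intro n
  induction n with
  | zero =>
    intro f u v hf _ hfa
    refine ⟨f, hf, ?_, fun b hb => hb⟩
    simpa using hfa
  | succ n ih =>
    intro f u v hf hu hfa
    -- the pole-control element
    obtain ⟨e, ⟨eu, ev, he⟩, hepole, hecoeff, hewpole⟩ :=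
      pkgc_exists_E N A hN hA (a + n + 1) (by omega)
    -- the leading coefficient
    obtain ⟨Y, hY, hYred⟩ := pkgc_exists_lift N A hN hA hf.1 hf.2.1
    set c : A := Y.coeff (-((a + n + 1 : ℕ) : ℤ)) with hc
    have hcres : IsLocalRing.residue A c = 0 := by
      have h1 : u.coeff (-((a + n + 1 : ℕ) : ℤ)) = 0 := hu _ (by push_cast; omega)
      rw [← hYred, coeffMap_coeff] at h1
      exact h1
    have hcnu : (c : Kb) ∈ A.nonunits := by
      rw [ValuationSubring.coe_mem_nonunits_iff, ← IsLocalRing.residue_eq_zero_iff]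
      exact hcres
    have hfc : ((f : FF N) : LaurentSeries Kb).coeff (-((a + n + 1 : ℕ) : ℤ)) = (c : Kb) := by
      rw [← hY, coeffMap_coeff]
      rfl
    -- the corrected element
    have hf₁ : PkgcB N A (f - (c : Kb) • e) u v := by
      have := hf.sub (he.smul_nonunit hcnu)
      rwa [sub_zero, sub_zero] at this
    have hpole₁ : PkgcPoleLe ((a : ℤ) + n) ((f - (c : Kb) • e : FF N) : LaurentSeries Kb) := by
      intro m hm
      rw [pkgc_coe_sub, q2_coe_smul, HahnSeries.coeff_sub, HahnSeries.coeff_smul]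
      by_cases hm' : m < -((a + n + 1 : ℕ) : ℤ)
      · have h1 : ((f : FF N) : LaurentSeries Kb).coeff m = 0 :=
          hfa m (by push_cast at hm' ⊢; omega)
        rw [h1, hepole m hm', smul_zero, sub_zero]
      · have hmeq : m = -((a + n + 1 : ℕ) : ℤ) := by push_cast at hm' ⊢; omega
        rw [hmeq, hfc, hecoeff, smul_eq_mul, mul_one, sub_self]
    obtain ⟨f', hf', hpole', hw'⟩ := ih (f - (c : Kb) • e) u v hf₁ hu hpole₁
    refine ⟨f', hf', hpole', fun b hb => hw' b ?_⟩
    rw [map_sub, pkgc_fricke_smul, pkgc_coe_sub, q2_coe_smul]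
    exact hb.sub ((hewpole.mono (by positivity)).smul _)

/-- **pole reduction at both cusps** -/
theorem pkgc_reduce (hN : N.Prime) (hA : A.LiesOverPrime N) (a b : ℕ)
    (ha : N * (N - 1) ≤ a + 1) (hb : N * (N - 1) ≤ b + 1) {f : FF N}
    {u v : LaurentSeries (kA A)} (hf : PkgcB N A f u v) (hu : PkgcPoleLe (a : ℤ) u)
    (hv : PkgcPoleLe (b : ℤ) v) :
    ∃ f' : FF N, PkgcB N A f' u v ∧ PkgcPoleLe (a : ℤ) ((f' : FF N) : LaurentSeries Kb) ∧
      PkgcPoleLe (b : ℤ) ((frickeAut N f' : FF N) : LaurentSeries Kb) := by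
  obtain ⟨n₀, hn₀⟩ := pkgc_exists_poleLe ((f : FF N) : LaurentSeries Kb) a
  obtain ⟨n₁, hn₁⟩ := pkgc_exists_poleLe ((frickeAut N f : FF N) : LaurentSeries Kb) b
  obtain ⟨f₁, hf₁, hp₁, hw₁⟩ := pkgc_reduce_inf N A hN hA a ha n₀ f u v hf hu hn₀
  have hwf₁ : PkgcPoleLe ((b : ℤ) + n₁) ((frickeAut N f₁ : FF N) : LaurentSeries Kb) := by
    have := hw₁ (b + n₁) (by push_cast; exact hn₁)
    push_cast at this
    exact this
  obtain ⟨g, hg, hpg, hwg⟩ :=
    pkgc_reduce_inf N A hN hA b hb n₁ (frickeAut N f₁) v u hf₁.swap hv hwf₁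
  refine ⟨frickeAut N g, hg.swap, ?_, ?_⟩
  · apply hwg a
    rw [frickeAut_frickeAut]
    exact hp₁
  · rw [frickeAut_frickeAut]
    exact hpg

/-! ### The space `L(a (∞) + b (0))` -/

/-- the divisor `a (∞) + b (0)` -/
def pkgcD (a b : ℕ) : Divisor Kb (FF N) :=
  Finsupp.single (cuspInf N) (a : ℤ) + Finsupp.single (cuspZero N) (b : ℤ)

theorem pkgc_degree_D (a b : ℕ) : Divisor.degree (pkgcD N a b) = (a : ℤ) + b := by
  rw [pkgcD, map_add, Divisor.degree_single, Divisor.degree_single, cuspInf_deg, cuspZero_deg]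
  simp

theorem pkgc_D_inf (hN : N.Prime) (a b : ℕ) : pkgcD N a b (cuspInf N) = a := by
  classical
  rw [pkgcD, Finsupp.add_apply, Finsupp.single_eq_same,
    Finsupp.single_eq_of_ne (cuspZero_ne_cuspInf N hN.two_le).symm, add_zero]

theorem pkgc_D_zero (hN : N.Prime) (a b : ℕ) : pkgcD N a b (cuspZero N) = b := by
  classical
  rw [pkgcD, Finsupp.add_apply, Finsupp.single_eq_same,
    Finsupp.single_eq_of_ne (cuspZero_ne_cuspInf N hN.two_le), zero_add]

theorem pkgc_D_of_ne (a b : ℕ) {P : Place Kb (FF N)} (h1 : P ≠ cuspInf N)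
    (h2 : P ≠ cuspZero N) : pkgcD N a b P = 0 := by
  classical
  rw [pkgcD, Finsupp.add_apply, Finsupp.single_eq_of_ne h1, Finsupp.single_eq_of_ne h2,
    add_zero]

theorem pkgc_poleLe_iff_ord (a : ℕ) {f : FF N} (hf : f ≠ 0) :
    PkgcPoleLe (a : ℤ) ((f : FF N) : LaurentSeries Kb) ↔ -(a : ℤ) ≤ (cuspInf N).ord f := by
  have h0 : ((f : FF N) : LaurentSeries Kb) ≠ 0 := fun h => hf (Subtype.ext h)
  rw [pkgcPoleLe_iff_order h0, cuspInf_ord hf]

/-- `L(a (∞) + b (0))` in terms of `q`-expansions -/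
theorem pkgc_mem_rr_iff (hN : N.Prime) (a b : ℕ) (f : FF N) :
    f ∈ riemannRochSpace (pkgcD N a b) ↔ PolesAtCusps N f ∧
      PkgcPoleLe (a : ℤ) ((f : FF N) : LaurentSeries Kb) ∧
        PkgcPoleLe (b : ℤ) ((frickeAut N f : FF N) : LaurentSeries Kb) := by
  rcases eq_or_ne f 0 with rfl | hf
  · refine ⟨fun _ => ⟨pkgc_poles_zero N, pkgcPoleLe_zero _, ?_⟩, fun _ => Submodule.zero_mem _⟩
    rw [map_zero]
    exact pkgcPoleLe_zero _
  have hwf : frickeAut N f ≠ 0 := (_root_.map_ne_zero _).mpr hf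
  rw [mem_riemannRochSpace_iff, pkgc_poleLe_iff_ord N a hf, pkgc_poleLe_iff_ord N b hwf,
    ← cuspZero_ord]
  constructor
  · intro h
    refine ⟨fun P hP => ?_, ?_, ?_⟩
    · have h1 : P ≠ cuspInf N := by
        rintro rfl
        rw [cuspInf_ord_jF] at hP
        omega
      have h2 : P ≠ cuspZero N := by
        rintro rfl
        rw [cuspZero_ord_jF] at hP
        have : (0 : ℤ) < N := by exact_mod_cast hN.pos
        omega
      rcases h P with h | h
      · exact absurd h hf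
      · rw [pkgc_D_of_ne N a b h1 h2] at h
        omega
    · rcases h (cuspInf N) with h | h
      · exact absurd h hf
      · rwa [pkgc_D_inf N hN] at h
    · rcases h (cuspZero N) with h | h
      · exact absurd h hf
      · rwa [pkgc_D_zero N hN] at h
  · rintro ⟨hp, h1, h2⟩ P
    right
    by_cases hP1 : P = cuspInf N
    · subst hP1
      rwa [pkgc_D_inf N hN]
    by_cases hP2 : P = cuspZero N
    · subst hP2
      rwa [pkgc_D_zero N hN]
    rw [pkgc_D_of_ne N a b hP1 hP2, neg_zero]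
    apply hp
    by_contra hneg
    rcases ogg_pole_cases N hN P (not_le.mp hneg) with h | h
    · exact hP1 h
    · exact hP2 h

end Fermat.Agent.S15.LN
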