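import Fermat.Agent.S28.PrimeLevel
import Fermat.Agent.DEU.Inst
import Fermat.Agent.ES.LR.Final
import Fermat.Agent.INJ.BGConstJ

/-!
# S15 / LOCAL-N / LN-PKG, piece PKG-card (1): pole orders of `q`-expansions and polynomials in `j̄`

* `PkgcPoleLe a x` : the Laurent series `x` has a pole of order at most `a` at `q = 0`;
* `pkgcPoleLe_aeval`, `pkgc_natDegree_le` : for a polynomial `P` over a field,
  `P(j)` has a pole of order at most `a` iff `deg P ≤ a` (`j = q⁻¹ + 744 + …`);
* `pkgc_gaussRed_of_incl` : an element of `F_N` with `A`-integral `q`-expansion `Y` has Gauss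
  reduction `Ȳ`; `pkgc_exists_lift` : Lemma R in this form.
-/

set_option autoImplicit false

noncomputable section

namespace Fermat.Agent.S15.LN

open ModularCurve AlgebraicCurve HahnSeries Polynomial Fermat.Agent.ES Fermat.Agent.S24
  Fermat.Agent.ES.M Fermat.Agent.DEU Fermat.Agent.INJ

/-- the Laurent series `x` has a pole of order at most `a` at `q = 0` -/
def PkgcPoleLe {R : Type*} [Zero R] (a : ℤ) (x : LaurentSeries R) : Prop :=
  ∀ m : ℤ, m < -a → x.coeff m = 0

section Basic

variable {R : Type*} [CommRing R]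

theorem pkgcPoleLe_zero (a : ℤ) : PkgcPoleLe a (0 : LaurentSeries R) := fun _ _ => rfl

theorem PkgcPoleLe.mono {a b : ℤ} {x : LaurentSeries R} (h : PkgcPoleLe a x) (hab : a ≤ b) :
    PkgcPoleLe b x := fun m hm => h m (by omega)

theorem PkgcPoleLe.add {a : ℤ} {x y : LaurentSeries R} (hx : PkgcPoleLe a x)
    (hy : PkgcPoleLe a y) : PkgcPoleLe a (x + y) := by
  intro m hm
  rw [HahnSeries.coeff_add, hx m hm, hy m hm, add_zero]

theorem PkgcPoleLe.sub {a : ℤ} {x y : LaurentSeries R} (hx : PkgcPoleLe a x)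
    (hy : PkgcPoleLe a y) : PkgcPoleLe a (x - y) := by
  intro m hm
  rw [HahnSeries.coeff_sub, hx m hm, hy m hm, sub_zero]

theorem PkgcPoleLe.C_mul {a : ℤ} {x : LaurentSeries R} (hx : PkgcPoleLe a x) (c : R) :
    PkgcPoleLe a (HahnSeries.C c * x) := by
  intro m hm
  rw [HahnSeries.C_mul_eq_smul, HahnSeries.coeff_smul, hx m hm, smul_zero]

theorem PkgcPoleLe.coeffMap {S : Type*} [CommRing S] (f : R →+* S) {a : ℤ} {x : LaurentSeries R}
    (hx : PkgcPoleLe a x) : PkgcPoleLe a (coeffMap f x) := by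
  intro m hm
  rw [coeffMap_coeff, hx m hm, map_zero]

theorem pkgcPoleLe_of_coeffMap {S : Type*} [CommRing S] (f : R →+* S)
    (hf : Function.Injective f) {a : ℤ} {x : LaurentSeries R}
    (hx : PkgcPoleLe a (coeffMap f x)) : PkgcPoleLe a x := by
  intro m hm
  have := hx m hm
  rw [coeffMap_coeff] at this
  exact hf (this.trans (map_zero f).symm)

theorem pkgcPoleLe_iff_order {a : ℤ} {x : LaurentSeries R} (hx : x ≠ 0) :
    PkgcPoleLe a x ↔ -a ≤ x.order :=
  (HahnSeries.le_order_iff_forall hx).symm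

/-- every Laurent series has a pole of finite order -/
theorem pkgc_exists_poleLe (x : LaurentSeries R) (a : ℕ) :
    ∃ n : ℕ, PkgcPoleLe ((a : ℤ) + n) x := by
  rcases eq_or_ne x 0 with rfl | hx
  · exact ⟨0, pkgcPoleLe_zero _⟩
  · refine ⟨(-x.order).toNat, ?_⟩
    rw [pkgcPoleLe_iff_order hx]
    have := Int.self_le_toNat (-x.order)
    omega

end Basic

section Poly

variable (k : Type*) [Field k]

theorem pkgc_order_j : (jqModC k).order = -1 := bgConst_order_jqModC k

theorem pkgc_order_j_neg : (jqModC k).order < 0 := by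
  rw [pkgc_order_j]; norm_num

theorem pkgc_leadingCoeff_j : (jqModC k).leadingCoeff = 1 := by
  rw [HahnSeries.leadingCoeff_eq, pkgc_order_j, coeff_jqModC_neg_one]

variable {k}

/-- `P ↦ P(j)` is injective -/
theorem pkgc_aeval_injective : Function.Injective (Polynomial.aeval (R := k) (jqModC k)) :=
  Fermat.Agent.S28.aeval_injective_of_order_neg (pkgc_order_j_neg k)

theorem pkgc_order_aeval {P : k[X]} (hP : P ≠ 0) :
    (Polynomial.aeval (jqModC k) P).order = -(P.natDegree : ℤ) := by
  rw [Fermat.Agent.S28.order_aeval_of_order_neg (pkgc_order_j_neg k) hP, pkgc_order_j]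
  ring

/-- a polynomial of degree `≤ a` in `j` has a pole of order `≤ a` -/
theorem pkgcPoleLe_aeval {a : ℤ} {P : k[X]} (hP : (P.natDegree : ℤ) ≤ a) :
    PkgcPoleLe a (Polynomial.aeval (jqModC k) P) := by
  rcases eq_or_ne P 0 with rfl | h0
  · rw [map_zero]; exact pkgcPoleLe_zero a
  · rw [pkgcPoleLe_iff_order (Fermat.Agent.S28.aeval_ne_zero_of_order_neg (pkgc_order_j_neg k) h0),
      pkgc_order_aeval h0]
    omega

/-- a polynomial in `j` with a pole of order `≤ a` has degree `≤ a` -/
theorem pkgc_natDegree_le {a : ℕ} {P : k[X]}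
    (h : PkgcPoleLe (a : ℤ) (Polynomial.aeval (jqModC k) P)) : P.natDegree ≤ a := by
  rcases eq_or_ne P 0 with rfl | h0
  · simp
  · rw [pkgcPoleLe_iff_order (Fermat.Agent.S28.aeval_ne_zero_of_order_neg (pkgc_order_j_neg k) h0),
      pkgc_order_aeval h0] at h
    omega

/-- the coefficient of `q ^ (-deg P)` in `P(j)` is the leading coefficient of `P` -/
theorem pkgc_coeff_aeval {P : k[X]} (hP : P ≠ 0) :
    (Polynomial.aeval (jqModC k) P).coeff (-(P.natDegree : ℤ)) = P.leadingCoeff := by
  have h1 := Fermat.Agent.S28.leadingCoeff_aeval_of_order_neg (pkgc_order_j_neg k) hP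
  rw [pkgc_leadingCoeff_j, one_pow, mul_one, HahnSeries.leadingCoeff_eq,
    pkgc_order_aeval hP] at h1
  exact h1

end Poly

section Gauss

variable (N : ℕ) [NeZero N] (A : ValuationSubring Kb)

omit [NeZero N] in
/-- an element with `A`-integral `q`-expansion `Y` has Gauss reduction `Ȳ` -/
theorem pkgc_gaussRed_of_incl {x : FF N} {Y : LaurentSeries A}
    (h : kronIncl A Y = (x : LaurentSeries Kb)) : GaussRed N A x (kronRed A Y) := by
  refine ⟨Y, 1, ?_, ?_, ?_, ?_, ?_⟩
  · rw [h]; exact x.2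
  · rw [map_one]; exact one_mem _
  · rw [map_one]; exact one_ne_zero
  · rw [map_one, mul_one, h]
  · rw [map_one, mul_one]

/-- Lemma R: a Gauss-integral function with poles only at the cusps has an integral
`q`-expansion, whose reduction is the Gauss reduction -/
theorem pkgc_exists_lift {ℓ : ℕ} (hℓ : ℓ.Prime) (hA : A.LiesOverPrime ℓ) {x : FF N}
    (hx : PolesAtCusps N x) {w : LaurentSeries (kA A)} (hw : GaussRed N A x w) :
    ∃ Y : LaurentSeries A, kronIncl A Y = (x : LaurentSeries Kb) ∧ kronRed A Y = w := by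
  have hI : KronInt A (x : LaurentSeries Kb) :=
    Fermat.Agent.ES.LR.stmtLRa N ℓ hℓ A hA x hx ⟨w, hw⟩
  obtain ⟨Y, hY⟩ := hI.exists_lift
  exact ⟨Y, hY, deuInst_gaussRed_unique N A (pkgc_gaussRed_of_incl N A hY) hw⟩

end Gauss

end Fermat.Agent.S15.LN
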