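import Fermat.Agent.S15.PkgVal
import Fermat.Agent.S15.PkgTV
import Fermat.Agent.S15.LNBasic
import Fermat.Agent.S15.OggDiv

/-!
# S15 / LN-PKG, piece PKG-cross (helper8): the crossing points

`PkgIsCross N A hB` (`PlanPKG.lean`) from

* `PkgIsType N A` (PKG-type, helper25): `place_ext`, `r_inl_iff`, `r_inr_iff`;
* `StmtPkgEv` (PKG-ev, helper72) for `b = h = (oggU N)⁻¹`, which is integral over `A[j]` by
  `stmtPkgTV` (PKG-tv, helper10, landed);
* `PkgIsFrob N A hB` (the export of PKG-card, helper89): the crossing set is finite and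
  symmetric.  Two constructors: `pkgcr_isFrob_of_pointwise` (from `HasPrincipalDivisors` on the
  component and the pointwise Frobenius statement `PkgFrobPt`).

Main statements: `pkgcr_isCross`, `stmtPkgCross_of`.
-/

set_option autoImplicit false
set_option linter.unusedSectionVars false

noncomputable section

open AlgebraicCurve Module ModularCurve

namespace Fermat.Agent.S15.LN

open Fermat.Agent.W1 Fermat.Agent.S24 Fermat.Agent.S15 Fermat.Agent.ES.M Fermat.Agent.DEU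
  Fermat.Agent.INJ

variable (N : ℕ) [NeZero N] (A : ValuationSubring Kb)

/-! ## The hypotheses -/

/-- the export of PKG-card: the crossing set is finite and symmetric under `w_N` -/
structure PkgIsFrob (hB : PkgBase N A) : Prop where
  finite : (pkgXset N A hB).Finite
  symm : ∀ x ∈ pkgXset N A hB, (x.2, x.1) ∈ pkgXset N A hB

/-- the pointwise form of the Frobenius symmetry: the zeros of `h̄₁` lie in `𝔽_{N²}` and are
stable under `a ↦ a ^ N` -/
def PkgFrobPt (hB : PkgBase N A) : Prop :=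
  ∀ (Q Q' : Place (kA A) (FFk A)) (a : kA A), 0 < Q.ord (pkgHbar N A hB) →
    HasValueAt Q (pkgJbar A) a → HasValueAt Q' (pkgJbar A) (a ^ N) →
      a ^ (N ^ 2) = a ∧ 0 < Q'.ord (pkgHbar N A hB)

/-- the instance of PKG-ev at `(N, A, hB)` for the coordinate `j` -/
def PkgEvJ (hB : PkgBase N A) : Prop :=
  ∀ (P : Place Kb (FF N)) (Q : Place (kA A) (FFk A)), pkgR N A P = some (Sum.inl Q) →
    (∃ a : A, HasValueAt P (jF N) (a : Kb)) → ∀ (b : FF N), PkgInt N A (jF N) b →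
      ∀ hb₁ : b ∈ pkgO₁ N A,
      ∃ c : A, HasValueAt P b (c : Kb) ∧
        HasValueAt Q (pkgRed₁ N A hB ⟨b, hb₁⟩) (IsLocalRing.residue A c)

variable {N A}

theorem pkgcr_evJ_of_stmt (hEv : StmtPkgEv) (hN : N.Prime) (h5 : 5 ≤ N)
    (hA : A.LiesOverPrime N) (hB : PkgBase N A) : PkgEvJ N A hB :=
  fun P Q hPQ ha b hb hb₁ => hEv N hN h5 A hA hB (jF N) (Or.inl rfl) P Q hPQ ha b hb hb₁

/-! ## Membership in `pkgX` -/

theorem pkgcr_mem_X_iff {hB : PkgBase N A} (hfin : (pkgXset N A hB).Finite)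
    (x : Place (kA A) (FFk A) × Place (kA A) (FFk A)) :
    x ∈ pkgX N A hB ↔ x ∈ pkgXset N A hB := by
  unfold pkgX
  rw [dif_pos hfin]
  exact Set.Finite.mem_toFinset hfin

theorem pkgcr_mem_Xset_of_mem_X {hB : PkgBase N A}
    {x : Place (kA A) (FFk A) × Place (kA A) (FFk A)} (hx : x ∈ pkgX N A hB) :
    x ∈ pkgXset N A hB := by
  unfold pkgX at hx
  by_cases hfin : (pkgXset N A hB).Finite
  · rw [dif_pos hfin] at hx
    exact (Set.Finite.mem_toFinset hfin).mp hx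
  · rw [dif_neg hfin] at hx
    exact absurd hx (Finset.notMem_empty _)

theorem pkgcr_mem_Xset_iff {hB : PkgBase N A}
    (x : Place (kA A) (FFk A) × Place (kA A) (FFk A)) :
    x ∈ pkgXset N A hB ↔ 0 < x.1.ord (pkgHbar N A hB) ∧
      ∃ a : kA A, HasValueAt x.1 (pkgJbar A) a ∧ HasValueAt x.2 (pkgJbar A) (a ^ N) :=
  Iff.rfl

/-! ## Injectivity of the two projections -/

theorem pkgcr_injOn_fst (hT : PkgIsType N A) (hB : PkgBase N A) :
    Set.InjOn Prod.fst (pkgXset N A hB) := by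
  rintro ⟨x₁, x₂⟩ ⟨-, a, ha₁, ha₂⟩ ⟨y₁, y₂⟩ ⟨-, b, hb₁, hb₂⟩ h
  simp only at h ha₁ ha₂ hb₁ hb₂
  subst h
  have hab : a = b := hasValueAt_unique x₁ ha₁ hb₁
  subst hab
  rw [hT.place_ext x₂ y₂ _ ha₂ hb₂]

theorem pkgcr_pow_injective (hN : N.Prime) (hA : A.LiesOverPrime N) {a b : kA A}
    (h : a ^ N = b ^ N) : a = b := by
  have : Fact N.Prime := ⟨hN⟩
  have : CharP (kA A) N := Fermat.Agent.ES.kron_charP_residueField hN hA
  exact frobenius_inj (kA A) N h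

theorem pkgcr_injOn_snd (hT : PkgIsType N A) (hN : N.Prime) (hA : A.LiesOverPrime N)
    (hB : PkgBase N A) : Set.InjOn Prod.snd (pkgXset N A hB) := by
  rintro ⟨x₁, x₂⟩ ⟨-, a, ha₁, ha₂⟩ ⟨y₁, y₂⟩ ⟨-, b, hb₁, hb₂⟩ h
  simp only at h ha₁ ha₂ hb₁ hb₂
  subst h
  have hab : a = b := pkgcr_pow_injective hN hA (hasValueAt_unique x₂ ha₂ hb₂)
  subst hab
  rw [hT.place_ext x₁ y₁ _ ha₁ hb₁]

/-! ## Finiteness and symmetry from the pointwise statement -/

theorem pkgcr_finite_zeros (hpd : HasPrincipalDivisors (kA A) (FFk A)) {f : FFk A}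
    (hf : f ≠ 0) : {Q : Place (kA A) (FFk A) | 0 < Q.ord f}.Finite := by
  obtain ⟨D, hD, -⟩ := hpd.exists_divisor f hf
  refine Set.Finite.subset D.support.finite_toSet fun Q hQ => ?_
  rw [Finset.mem_coe, Finsupp.mem_support_iff, hD]
  exact ne_of_gt hQ

theorem pkgcr_finite (hT : PkgIsType N A) (hpd : HasPrincipalDivisors (kA A) (FFk A))
    (hB : PkgBase N A) : (pkgXset N A hB).Finite := by
  refine Set.Finite.of_finite_image ?_ (pkgcr_injOn_fst hT hB)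
  refine Set.Finite.subset (pkgcr_finite_zeros hpd (pkg_Hbar_ne_zero N A hB)) ?_
  rintro Q ⟨x, hx, rfl⟩
  exact hx.1

theorem pkgcr_symm_of_pointwise {hB : PkgBase N A} (hF : PkgFrobPt N A hB)
    (x : Place (kA A) (FFk A) × Place (kA A) (FFk A)) (hx : x ∈ pkgXset N A hB) :
    (x.2, x.1) ∈ pkgXset N A hB := by
  obtain ⟨hord, a, ha₁, ha₂⟩ := hx
  obtain ⟨hpow, hord'⟩ := hF x.1 x.2 a hord ha₁ ha₂
  refine ⟨hord', a ^ N, ha₂, ?_⟩
  have e : (a ^ N) ^ N = a := by rw [← pow_mul, ← pow_two, hpow]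
  change HasValueAt x.1 (pkgJbar A) ((a ^ N) ^ N)
  rw [e]
  exact ha₁

theorem pkgcr_isFrob_of_pointwise (hT : PkgIsType N A)
    (hpd : HasPrincipalDivisors (kA A) (FFk A)) {hB : PkgBase N A} (hF : PkgFrobPt N A hB) :
    PkgIsFrob N A hB where
  finite := pkgcr_finite hT hpd hB
  symm := pkgcr_symm_of_pointwise hF

/-! ## `h` is integral over `A[j]` -/

theorem pkgcr_h_mem₂ (hN : N.Prime) (hA : A.LiesOverPrime N) : (oggU N)⁻¹ ∈ pkgO₂ N A :=
  ge_nonunits_mem (pkg_h_mem₂ N A (pkg_base N A hN hA) hA)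

theorem pkgcr_h_regular (hN : N.Prime) (P : Place Kb (FF N)) (hP : 0 ≤ P.ord (jF N)) :
    0 ≤ P.ord (oggU N)⁻¹ := by
  have hZI : cuspZero N ≠ cuspInf N := cuspZero_ne_cuspInf N hN.two_le
  by_cases h1 : P = cuspInf N
  · subst h1
    rw [cuspInf_ord_jF] at hP
    omega
  · by_cases h2 : P = cuspZero N
    · subst h2
      rw [cuspZero_ord_jF] at hP
      have : (0 : ℤ) < N := by exact_mod_cast hN.pos
      omega
    · rw [Place.ord_inv, ogg_ord_of_ne N hN P h1 h2]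
      simp

theorem pkgcr_h_int (hN : N.Prime) (h5 : 5 ≤ N) (hA : A.LiesOverPrime N) :
    PkgInt N A (jF N) (oggU N)⁻¹ :=
  stmtPkgTV N hN h5 A hA (jF N) (Or.inl rfl) (oggU N)⁻¹ (pkg_h_mem₁ N A) (pkgcr_h_mem₂ hN hA)
    (pkgcr_h_regular hN)

theorem pkgcr_red₁_h (hB : PkgBase N A) (h : (oggU N)⁻¹ ∈ pkgO₁ N A) :
    pkgRed₁ N A hB ⟨(oggU N)⁻¹, h⟩ = pkgHbar N A hB := by
  unfold pkgHbar
  rw [dif_pos h]

/-! ## `cross₁`, `cross₂` -/

theorem pkgcr_Jbar_ne_zero : pkgJbar A ≠ 0 := by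
  intro h
  have h1 : ((pkgJbar A : FFk A) : LaurentSeries (kA A)) = 0 := by rw [h]; rfl
  rw [pkg_coe_Jbar] at h1
  exact jqModC_ne_zero_of_nontrivial (kA A) h1

/-- a place of type `1` whose reduction has a finite `j̄`-value has an integral `j`-value -/
theorem pkgcr_j_value {P : Place Kb (FF N)} {Q : Place (kA A) (FFk A)}
    (hrel : PkgRel₁ N A P Q) {a : kA A} (ha : HasValueAt Q (pkgJbar A) a) :
    ∃ c : A, HasValueAt P (jF N) (c : Kb) := by
  rcases hrel.2 with ⟨c, hc, -⟩ | ⟨c, hc, hcQ⟩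
  · exact ⟨c, hc⟩
  · -- `j̄(Q) · (1/j̄)(Q) = 1`
    have hmul := ln_hasValueAt_mul ha hcQ
    rw [mul_inv_cancel₀ (pkgcr_Jbar_ne_zero (A := A))] at hmul
    have h1 : a * IsLocalRing.residue A c = 1 :=
      hasValueAt_unique Q hmul (ln_hasValueAt_one Q)
    have hres : IsLocalRing.residue A c ≠ 0 := by
      intro h0
      rw [h0, mul_zero] at h1
      exact zero_ne_one h1
    have hcu : IsUnit c := by
      by_contra hnu
      exact hres ((IsLocalRing.residue_eq_zero_iff c).mpr ((IsLocalRing.mem_maximalIdeal c).mpr hnu))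
    have hc0 : (c : Kb) ≠ 0 := by
      intro h0
      apply hres
      have : c = 0 := Subtype.ext h0
      rw [this, map_zero]
    obtain ⟨u, hu⟩ := hcu
    refine ⟨((u⁻¹ : Aˣ) : A), ?_⟩
    have hinv := ln_hasValueAt_inv hc hc0
    rw [inv_inv] at hinv
    have e : (((u⁻¹ : Aˣ) : A) : Kb) = (c : Kb)⁻¹ := by
      rw [← hu]
      have h2 : ((u : A) : Kb) * (((u⁻¹ : Aˣ) : A) : Kb) = 1 := by
        rw [← MulMemClass.coe_mul, Units.mul_inv]
        rfl
      exact eq_inv_of_mul_eq_one_right h2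
    rw [e]
    exact hinv

theorem pkgcr_cross₁_set (hT : PkgIsType N A) (hN : N.Prime) (h5 : 5 ≤ N)
    (hA : A.LiesOverPrime N) (hB : PkgBase N A) (hEv : PkgEvJ N A hB)
    (P : Place Kb (FF N)) (Q : Place (kA A) (FFk A)) (hPQ : pkgR N A P = some (Sum.inl Q))
    (x : Place (kA A) (FFk A) × Place (kA A) (FFk A)) (hx : x ∈ pkgXset N A hB) : x.1 ≠ Q := by
  rintro rfl
  obtain ⟨hord, a, ha₁, -⟩ := hx
  have hrel : PkgRel₁ N A P x.1 := (hT.r_inl_iff P x.1).mp hPQ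
  obtain ⟨c, hc, hcQ⟩ := hEv P x.1 hPQ (pkgcr_j_value hrel ha₁) (oggU N)⁻¹
    (pkgcr_h_int hN h5 hA) (pkg_h_mem₁ N A)
  rw [pkgcr_red₁_h] at hcQ
  obtain ⟨d, hdA, hd⟩ := hrel.1
  have hmul := ln_hasValueAt_mul hc hd
  rw [inv_mul_cancel₀ (oggU_ne_zero N)] at hmul
  have h1 : (c : Kb) * d = 1 := hasValueAt_unique P hmul (ln_hasValueAt_one P)
  have hres : IsLocalRing.residue A c ≠ 0 := by
    intro h0
    have hcm : c ∈ IsLocalRing.maximalIdeal A := (IsLocalRing.residue_eq_zero_iff c).mp h0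
    rw [IsLocalRing.mem_maximalIdeal] at hcm
    apply hcm
    refine ⟨⟨c, ⟨d, hdA⟩, Subtype.ext h1, Subtype.ext ?_⟩, rfl⟩
    change d * (c : Kb) = 1
    rw [mul_comm]
    exact h1
  have h0 := ln_ord_eq_zero_of_value hcQ hres
  omega

theorem pkgcr_isCross (hT : PkgIsType N A) (hN : N.Prime) (h5 : 5 ≤ N)
    (hA : A.LiesOverPrime N) (hB : PkgBase N A) (hEv : PkgEvJ N A hB)
    (hF : PkgIsFrob N A hB) : PkgIsCross N A hB where
  finite := hF.finite
  cross₁ := fun P Q hPQ x hx =>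
    pkgcr_cross₁_set hT hN h5 hA hB hEv P Q hPQ x (pkgcr_mem_Xset_of_mem_X hx)
  cross₂ := by
    intro P Q hPQ x hx
    have hrel : PkgRel₁ N A (frickeAut N • P) Q := (hT.r_inr_iff P Q).mp hPQ
    have hPQ' : pkgR N A (frickeAut N • P) = some (Sum.inl Q) :=
      (hT.r_inl_iff (frickeAut N • P) Q).mpr hrel
    exact pkgcr_cross₁_set hT hN h5 hA hB hEv (frickeAut N • P) Q hPQ' (x.2, x.1)
      (hF.symm x (pkgcr_mem_Xset_of_mem_X hx))
  cross_inj₁ := fun x hx y hy h =>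
    pkgcr_injOn_fst hT hB (pkgcr_mem_Xset_of_mem_X hx) (pkgcr_mem_Xset_of_mem_X hy) h
  cross_inj₂ := fun x hx y hy h =>
    pkgcr_injOn_snd hT hN hA hB (pkgcr_mem_Xset_of_mem_X hx) (pkgcr_mem_Xset_of_mem_X hy) h
  symm := fun x hx =>
    (pkgcr_mem_X_iff hF.finite _).mpr (hF.symm x (pkgcr_mem_Xset_of_mem_X hx))

/-- **PKG-cross**, from PKG-type, PKG-ev and the export of PKG-card. -/
theorem stmtPkgCross_of (hT : StmtPkgType) (hEv : StmtPkgEv)
    (hF : ∀ (N : ℕ) [NeZero N], N.Prime → 5 ≤ N → ∀ A : ValuationSubring Kb,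
      A.LiesOverPrime N → ∀ hB : PkgBase N A, PkgIsFrob N A hB) : StmtPkgCross :=
  fun N _ hN h5 A hA hB =>
    pkgcr_isCross (hT N hN h5 A hA) hN h5 hA hB (pkgcr_evJ_of_stmt hEv hN h5 hA hB)
      (hF N hN h5 A hA hB)

end Fermat.Agent.S15.LN
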