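import Fermat.Agent.S15.PkgEvPlan
import Fermat.Agent.S15.PkgPoly
import Fermat.Agent.S15.LNBasic
import Fermat.Agent.S15.OggDiv
import Fermat.Agent.S15.OggLc

/-!
# S15 / LN-PKG, piece PKG-ev, part 1: auxiliary lemmas (helper72)

* `pkgev_mem_of_monic` : a valuation ring is integrally closed (explicit monic polynomial);
* `pkgev_hv_pow`, `pkgev_hv_aeval` : values of powers and of polynomials;
* `pkgev_rel_of_r` : `pkgR P = some (inl Q) → PkgRel₁ P Q`;
* `pkgev_chart_of_int` : `PkgInt N A t f → PkgChart N A t f`;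
* `stmtPkgPoly2 : StmtPkgPoly2`.
-/

set_option autoImplicit false
set_option linter.unusedSectionVars false
set_option linter.unusedVariables false
set_option linter.style.haveILetI false

noncomputable section

namespace Fermat.Agent.S15.LN

open ModularCurve AlgebraicCurve Polynomial IntermediateField
open Fermat.Agent.ES Fermat.Agent.ES.M Fermat.Agent.S24 Fermat.Agent.ES.LR Fermat.Agent.DEU
  Fermat.Agent.INJ Fermat.Agent.W1 Fermat.Agent.S15

/-! ### generic algebra -/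

/-- a valuation ring is integrally closed, in the form used here -/
theorem pkgev_mem_of_monic {F : Type*} [Field F] (O : ValuationSubring F) (R : Subring F)
    (hR : ∀ x ∈ R, x ∈ O) (b : F) (p : F[X]) (hp : p.Monic) (hpc : ∀ i, p.coeff i ∈ R)
    (hpb : p.eval b = 0) : b ∈ O := by
  have hlift : p ∈ Polynomial.lifts O.subtype := by
    rw [Polynomial.lifts_iff_coeff_lifts]
    intro i
    exact ⟨⟨p.coeff i, hR _ (hpc i)⟩, rfl⟩
  obtain ⟨p₁, hp₁, -, hmonic⟩ := Polynomial.lifts_and_natDegree_eq_and_monic hlift hp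
  have hint : IsIntegral O b := by
    refine ⟨p₁, hmonic, ?_⟩
    have h1 : Polynomial.eval₂ (algebraMap O F) b p₁ = (p₁.map O.subtype).eval b := by
      rw [Polynomial.eval_map]
      rfl
    rw [h1, hp₁, hpb]
  obtain ⟨z, hz⟩ := IsIntegrallyClosed.isIntegral_iff.mp hint
  rw [← hz]
  exact z.2

section Values

variable {K F : Type} [Field K] [Field F] [Algebra K F]

theorem pkgev_hv_pow {P : Place K F} {f : F} {a : K} (hf : HasValueAt P f a) (n : ℕ) :
    HasValueAt P (f ^ n) (a ^ n) := by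
  induction n with
  | zero =>
      rw [pow_zero, pow_zero]
      exact ln_hasValueAt_one P
  | succ n ih =>
      rw [pow_succ, pow_succ]
      exact ln_hasValueAt_mul ih hf

/-- the value of a polynomial in `x` -/
theorem pkgev_hv_aeval {P : Place K F} {x : F} {a : K} (hx : HasValueAt P x a) (G : K[X]) :
    HasValueAt P (Polynomial.aeval x G) (G.eval a) := by
  induction G using Polynomial.induction_on' with
  | add p q hp hq =>
      rw [map_add, Polynomial.eval_add]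
      exact ln_hasValueAt_add hp hq
  | monomial n c =>
      rw [Polynomial.aeval_monomial, Polynomial.eval_monomial]
      exact ln_hasValueAt_mul (ln_hasValueAt_const P c) (pkgev_hv_pow hx n)

end Values

/-! ### the package -/

variable (N : ℕ) [NeZero N] (A : ValuationSubring Kb)

/-- the reduction of a place: `pkgR P = some (inl Q)` means `PkgRel₁ P Q` (by definition) -/
theorem pkgev_rel_of_r {P : Place Kb (FF N)} {Q : Place (kA A) (FFk A)}
    (h : pkgR N A P = some (Sum.inl Q)) : PkgRel₁ N A P Q := by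
  classical
  unfold pkgR at h
  split_ifs at h with h1 h2
  · have h3 := h1.choose_spec
    have h4 : h1.choose = Q := by
      have h5 := Option.some.inj h
      exact Sum.inl.inj h5
    rw [← h4]
    exact h3
  · have h5 := Option.some.inj h
    exact absurd h5 (by simp)

/-- a valuation ring containing the constants of `A` and `t` contains `A[t]` -/
theorem pkgev_pkgPoly_le (O : ValuationSubring (FF N))
    (hconst : ∀ a : Kb, a ∈ A → algebraMap Kb (FF N) a ∈ O) (t : FF N) (ht : t ∈ O) :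
    ∀ x ∈ pkgPoly N A t, x ∈ O := by
  intro x hx
  have h : pkgPoly N A t ≤ O.toSubring := by
    unfold pkgPoly
    rw [Subring.closure_le]
    rintro y (⟨a, ha, rfl⟩ | hy)
    · exact hconst a ha
    · rw [Set.mem_singleton_iff] at hy
      rw [hy]
      exact ht
  exact h hx

/-- an element integral over `A[t]` lies in every valuation ring containing `A` and `t` -/
theorem pkgev_mem_of_int (O : ValuationSubring (FF N))
    (hconst : ∀ a : Kb, a ∈ A → algebraMap Kb (FF N) a ∈ O) (t : FF N) (ht : t ∈ O)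
    (f : FF N) (hf : PkgInt N A t f) : f ∈ O := by
  obtain ⟨p, hp, hpc, hpf⟩ := hf
  exact pkgev_mem_of_monic O (pkgPoly N A t) (pkgev_pkgPoly_le N A O hconst t ht) f p hp hpc hpf

variable (hB : PkgBase N A)

include hB in
/-- the coordinate lies in both Gauss rings -/
theorem pkgev_coord_mem (hN : N.Prime) (hA : A.LiesOverPrime N) {t : FF N} {tb : FFk A}
    (ht : PkgCoord N A t tb) : t ∈ pkgO₁ N A ∧ t ∈ pkgO₂ N A := by
  obtain ⟨h1, he1⟩ := pkg_red₁_j N A hB
  obtain ⟨h2, he2⟩ := pkgpoly_red₂_j N A hB hN hA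
  rcases ht with ⟨rfl, -⟩ | ⟨rfl, -⟩
  · exact ⟨h1, h2⟩
  · obtain ⟨h1', -⟩ := pkgpoly_red_inv N A (pkgO₁ N A) (pkgRed₁ N A hB)
      (pkg_red₁_eq_zero_iff N A hB) (jF N) h1 (by rw [he1]; exact pkgpoly_Jbar_ne_zero A)
    obtain ⟨h2', -⟩ := pkgpoly_red_inv N A (pkgO₂ N A) (pkgRed₂ N A hB)
      (pkg_red₂_eq_zero_iff N A hB) (jF N) h2
      (by rw [he2]; exact pow_ne_zero _ (pkgpoly_Jbar_ne_zero A))
    exact ⟨h1', h2'⟩

include hB in
/-- the reductions of the coordinate: `red₁ t = t̄`, `red₂ t = t̄ ^ N` -/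
theorem pkgev_coord_red (hN : N.Prime) (hA : A.LiesOverPrime N) {t : FF N} {tb : FFk A}
    (ht : PkgCoord N A t tb) (h₁ : t ∈ pkgO₁ N A) (h₂ : t ∈ pkgO₂ N A) :
    pkgRed₁ N A hB ⟨t, h₁⟩ = tb ∧ pkgRed₂ N A hB ⟨t, h₂⟩ = tb ^ N := by
  obtain ⟨h1, he1⟩ := pkg_red₁_j N A hB
  obtain ⟨h2, he2⟩ := pkgpoly_red₂_j N A hB hN hA
  rcases ht with ⟨rfl, rfl⟩ | ⟨rfl, rfl⟩
  · exact ⟨he1, he2⟩
  · obtain ⟨h1', he1'⟩ := pkgpoly_red_inv N A (pkgO₁ N A) (pkgRed₁ N A hB)
      (pkg_red₁_eq_zero_iff N A hB) (jF N) h1 (by rw [he1]; exact pkgpoly_Jbar_ne_zero A)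
    obtain ⟨h2', he2'⟩ := pkgpoly_red_inv N A (pkgO₂ N A) (pkgRed₂ N A hB)
      (pkg_red₂_eq_zero_iff N A hB) (jF N) h2
      (by rw [he2]; exact pow_ne_zero _ (pkgpoly_Jbar_ne_zero A))
    refine ⟨?_, ?_⟩
    · rw [he1', he1]
    · rw [he2', he2, inv_pow]

include hB in
/-- **integral over `A[t]` ⟹ in the chart ring of `t`** -/
theorem pkgev_chart_of_int (hN : N.Prime) (hA : A.LiesOverPrime N) {t : FF N} {tb : FFk A}
    (ht : PkgCoord N A t tb) (f : FF N) (hf : PkgInt N A t f) : PkgChart N A t f := by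
  obtain ⟨ht₁, ht₂⟩ := pkgev_coord_mem N A hB hN hA ht
  refine ⟨?_, ?_, ?_⟩
  · exact pkgev_mem_of_int N A (pkgO₁ N A)
      (fun a ha => (pkg_algebraMap_mem_iff₁ N A hB a).2 ha) t ht₁ f hf
  · exact pkgev_mem_of_int N A (pkgO₂ N A)
      (fun a ha => (pkg_algebraMap_mem_iff₂ N A hB a).2 ha) t ht₂ f hf
  · intro P hP
    have htne : t ≠ 0 := by
      rcases ht with ⟨rfl, -⟩ | ⟨rfl, -⟩
      · exact fr_jF_ne_zero
      · exact inv_ne_zero fr_jF_ne_zero
    have htP : t ∈ P.toValuationSubring := (PlaceAux.ord_nonneg_iff P htne).mp hP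
    exact ge_ord_nonneg_of_mem P
      (pkgev_mem_of_int N A P.toValuationSubring (fun a _ => P.algebraMap_mem' a) t htP f hf)

/-- **PKG-poly in both charts** -/
theorem stmtPkgPoly2 : StmtPkgPoly2 := by
  intro N _ hN h5 A hA hB t tb ht f h₁ h₂ hreg
  have hint : PkgInt N A t f := by
    rcases ht with ⟨rfl, -⟩ | ⟨rfl, -⟩
    · exact stmtPkgTV N hN h5 A hA _ (Or.inl rfl) f h₁ h₂ hreg
    · exact stmtPkgTV N hN h5 A hA _ (Or.inr rfl) f h₁ h₂ hreg
  have key : pkgRed₁ N A hB ⟨f, h₁⟩ ∈ Algebra.adjoin (kA A) {tb} ∧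
      pkgRed₂ N A hB ⟨f, h₂⟩ ∈ Algebra.adjoin (kA A) {tb} := by
    rcases ht with ⟨rfl, rfl⟩ | ⟨rfl, rfl⟩
    · exact pkgpoly_red_mem_j N A hB hN hA f hint h₁ h₂
    · exact pkgpoly_red_mem_jinv N A hB hN hA f hint h₁ h₂
  obtain ⟨k1, k2⟩ := key
  rw [Algebra.adjoin_singleton_eq_range_aeval] at k1 k2
  obtain ⟨F₁, hF₁⟩ := k1
  obtain ⟨F₂, hF₂⟩ := k2
  exact ⟨⟨F₁, hF₁.symm⟩, ⟨F₂, hF₂.symm⟩⟩

end Fermat.Agent.S15.LN
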