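import Fermat.Agent.S15.PkgEvAux
import Fermat.Agent.RED.ResField

/-!
# S15 / LN-PKG, piece PKG-ev, part 2: the additive argument (helper72)

`ev_P(f) = f(P)‾`, `ρ(f) = F₁(a)`, `ρ'(f) = F₂(b)` are additive in `f`, and (TV2)
`ev_P(f) ∈ {ρ(f), ρ'(f)}`.  If some `s` of the chart ring has `ev_P(s) ≠ ρ'(s)`, then `ev_P = ρ`
(`pkgev_of_sep`).  Also: the value of the reduced coordinate at the reduced place
(`pkgev_coord_value`).
-/

set_option autoImplicit false
set_option linter.unusedSectionVars false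
set_option linter.unusedVariables false
set_option linter.style.haveILetI false

noncomputable section

namespace Fermat.Agent.S15.LN

open ModularCurve AlgebraicCurve Polynomial IntermediateField
open Fermat.Agent.ES Fermat.Agent.ES.M Fermat.Agent.S24 Fermat.Agent.ES.LR Fermat.Agent.DEU
  Fermat.Agent.INJ Fermat.Agent.W1 Fermat.Agent.S15

section Values

variable {K F : Type} [Field K] [Field F] [Algebra K F]

theorem pkgev_value_mul_eq_one {P : Place K F} {x : F} (hx : x ≠ 0) {a a' : K}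
    (h : HasValueAt P x a) (h' : HasValueAt P x⁻¹ a') : a * a' = 1 := by
  have h1 := ln_hasValueAt_mul h h'
  rw [mul_inv_cancel₀ hx] at h1
  exact hasValueAt_unique P h1 (ln_hasValueAt_one P)

end Values

variable (N : ℕ) [NeZero N] (A : ValuationSubring Kb)

/-- two elements of `A` with product `1`: the residues are inverse to each other -/
theorem pkgev_residue_inv {a a' : A} (h : (a : Kb) * (a' : Kb) = 1) :
    IsLocalRing.residue A a' = (IsLocalRing.residue A a)⁻¹ := by
  have h1 : a * a' = 1 := Subtype.ext h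
  have h2 : IsLocalRing.residue A a * IsLocalRing.residue A a' = 1 := by
    rw [← map_mul, h1, map_one]
  exact eq_inv_of_mul_eq_one_right h2

/-- **the value of the reduced coordinate at the reduced place** -/
theorem pkgev_coord_value {t : FF N} {tb : FFk A} (ht : PkgCoord N A t tb)
    {P : Place Kb (FF N)} {Q : Place (kA A) (FFk A)} (hPQ : PkgRel₁ N A P Q) (a : A)
    (hPa : HasValueAt P t (a : Kb)) : HasValueAt Q tb (IsLocalRing.residue A a) := by
  have hj0 : jF N ≠ 0 := fr_jF_ne_zero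
  have hjb0 : pkgJbar A ≠ 0 := pkgpoly_Jbar_ne_zero A
  obtain ⟨-, hrel⟩ := hPQ
  rcases ht with ⟨rfl, rfl⟩ | ⟨rfl, rfl⟩
  · rcases hrel with ⟨a', h1, h2⟩ | ⟨a', h1, h2⟩
    · have e : (a' : Kb) = (a : Kb) := hasValueAt_unique P h1 hPa
      have e' : a' = a := Subtype.ext e
      rw [← e']
      exact h2
    · have e := pkgev_value_mul_eq_one hj0 hPa h1
      have e2 := pkgev_residue_inv A e
      have hne : IsLocalRing.residue A a' ≠ 0 := by
        intro h0
        have h3 : (a * a' : A) = 1 := Subtype.ext e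
        have h4 := congrArg (IsLocalRing.residue A) h3
        rw [map_mul, h0, mul_zero, map_one] at h4
        exact zero_ne_one h4
      have h5 := ln_hasValueAt_inv h2 hne
      rw [inv_inv] at h5
      have e3 : IsLocalRing.residue A a = (IsLocalRing.residue A a')⁻¹ := by
        rw [e2, inv_inv]
      rw [e3]
      exact h5
  · rcases hrel with ⟨a', h1, h2⟩ | ⟨a', h1, h2⟩
    · have e := pkgev_value_mul_eq_one hj0 h1 hPa
      have e2 := pkgev_residue_inv A e
      have hne : IsLocalRing.residue A a' ≠ 0 := by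
        intro h0
        have h3 : (a' * a : A) = 1 := Subtype.ext e
        have h4 := congrArg (IsLocalRing.residue A) h3
        rw [map_mul, h0, zero_mul, map_one] at h4
        exact zero_ne_one h4
      have h5 := ln_hasValueAt_inv h2 hne
      rw [e2]
      exact h5
    · have e : (a' : Kb) = (a : Kb) := hasValueAt_unique P h1 hPa
      have e' : a' = a := Subtype.ext e
      rw [← e']
      exact h2

/-- sums in the chart ring -/
theorem pkgev_chart_add {t f g : FF N} (hf : PkgChart N A t f) (hg : PkgChart N A t g) :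
    PkgChart N A t (f + g) := by
  refine ⟨add_mem hf.1 hg.1, add_mem hf.2.1 hg.2.1, fun P hP => ?_⟩
  have h1 := ge_mem_of_not_ord_neg P (not_lt.mpr (hf.2.2 P hP))
  have h2 := ge_mem_of_not_ord_neg P (not_lt.mpr (hg.2.2 P hP))
  exact ge_ord_nonneg_of_mem P (add_mem h1 h2)

/-- **the additive argument**: a separating element `s` forces `f(P)‾ = F₁(a)` for every `f`
of the chart ring. -/
theorem pkgev_of_sep (hFib : StmtPkgFibre) (hN : N.Prime) (h5 : 5 ≤ N)
    (hA : A.LiesOverPrime N) (hB : PkgBase N A) {t : FF N} {tb : FFk A}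
    (ht : PkgCoord N A t tb) (P : Place Kb (FF N)) (a : A) (hPa : HasValueAt P t (a : Kb))
    (b : kA A) (hb : b ^ N = IsLocalRing.residue A a)
    (s : FF N) (hs : PkgChart N A t s) (S₁ S₂ : (kA A)[X])
    (hS₁ : pkgRed₁ N A hB ⟨s, hs.1⟩ = Polynomial.aeval tb S₁)
    (hS₂ : pkgRed₂ N A hB ⟨s, hs.2.1⟩ = Polynomial.aeval tb S₂)
    (hsep : ∀ c : A, HasValueAt P s (c : Kb) → IsLocalRing.residue A c ≠ S₂.eval b)
    (f : FF N) (hf : PkgChart N A t f) (F₁ F₂ : (kA A)[X])
    (hF₁ : pkgRed₁ N A hB ⟨f, hf.1⟩ = Polynomial.aeval tb F₁)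
    (hF₂ : pkgRed₂ N A hB ⟨f, hf.2.1⟩ = Polynomial.aeval tb F₂) :
    ∃ c : A, HasValueAt P f (c : Kb) ∧
      IsLocalRing.residue A c = F₁.eval (IsLocalRing.residue A a) := by
  obtain ⟨c, hc, hcv⟩ := hFib N hN h5 A hA hB t tb ht f hf.1 hf.2.1 hf.2.2 F₁ F₂ hF₁ hF₂ P a hPa
  obtain ⟨cs, hcs, hcsv⟩ := hFib N hN h5 A hA hB t tb ht s hs.1 hs.2.1 hs.2.2 S₁ S₂ hS₁ hS₂ P a
    hPa
  have hfs := pkgev_chart_add N A hf hs
  have hFS₁ : pkgRed₁ N A hB ⟨f + s, hfs.1⟩ = Polynomial.aeval tb (F₁ + S₁) := by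
    have e : (⟨f + s, hfs.1⟩ : pkgO₁ N A) = ⟨f, hf.1⟩ + ⟨s, hs.1⟩ := rfl
    rw [e, map_add, map_add, hF₁, hS₁]
  have hFS₂ : pkgRed₂ N A hB ⟨f + s, hfs.2.1⟩ = Polynomial.aeval tb (F₂ + S₂) := by
    have e : (⟨f + s, hfs.2.1⟩ : pkgO₂ N A) = ⟨f, hf.2.1⟩ + ⟨s, hs.2.1⟩ := rfl
    rw [e, map_add, map_add, hF₂, hS₂]
  obtain ⟨c', hc', hcv'⟩ := hFib N hN h5 A hA hB t tb ht (f + s) hfs.1 hfs.2.1 hfs.2.2
    (F₁ + S₁) (F₂ + S₂) hFS₁ hFS₂ P a hPa
  have e1 : (c' : Kb) = (c : Kb) + (cs : Kb) :=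
    hasValueAt_unique P hc' (ln_hasValueAt_add hc hcs)
  have e2 : c' = c + cs := Subtype.ext e1
  have hsv : IsLocalRing.residue A cs = S₁.eval (IsLocalRing.residue A a) := by
    rcases hcsv b hb with h | h
    · exact h
    · exact absurd h (hsep cs hcs)
  refine ⟨c, hc, ?_⟩
  rcases hcv b hb with h | h
  · exact h
  · rcases hcv' b hb with h' | h'
    · rw [e2, map_add, Polynomial.eval_add, hsv] at h'
      exact add_right_cancel h'
    · rw [e2, map_add, Polynomial.eval_add, h] at h'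
      exact absurd (add_left_cancel h') (hsep cs hcs)

end Fermat.Agent.S15.LN
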