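import Fermat.Agent.S15.PkgEvSep

/-!
# S15 / LN-PKG, piece PKG-ev, part 4: the separating element near the cusp `∞` (helper72)

Chart `1/j`, `t(P) ∈ 𝔪_A`: `s = (N¹² · oggU)^N · t^(N-1)` lies in the chart ring of `1/j`
(`ord_0 s = 0`), `s(P) ∈ 𝔪_A`, and `red₂ s = h̄₁^N · j̄^(-N(N-1))` is a polynomial in `1/j̄`
with NONZERO constant term (`pkgev_sep_cusp`).
-/

set_option autoImplicit false
set_option linter.unusedSectionVars false
set_option linter.unusedVariables false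
set_option linter.style.haveILetI false

noncomputable section

namespace Fermat.Agent.S15.LN

open ModularCurve AlgebraicCurve Polynomial IntermediateField
open Fermat.Agent.ES Fermat.Agent.ES.M Fermat.Agent.S24 Fermat.Agent.ES.LR Fermat.Agent.DEU
  Fermat.Agent.INJ Fermat.Agent.W1 Fermat.Agent.S15 Fermat.Agent.S28

variable (N : ℕ) [NeZero N] (A : ValuationSubring Kb)

/-- `w_N (N¹² · oggU) = h` -/
theorem pkgev_fricke_cN_oggU :
    frickeAut N (algebraMap Kb (FF N) ((N : Kb) ^ 12) * oggU N) = (oggU N)⁻¹ := by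
  have hfr := ogg_fricke N
  have hu0 := oggU_ne_zero N
  have hN0 : ((N : Kb) ^ 12) ≠ 0 := pow_ne_zero _ (Nat.cast_ne_zero.mpr (NeZero.ne N))
  have h1 : frickeAut N (oggU N) = algebraMap Kb (FF N) ((N : Kb) ^ 12)⁻¹ * (oggU N)⁻¹ := by
    rw [← hfr, mul_inv_cancel_right₀ hu0]
  rw [map_mul, AlgEquiv.commutes, h1, ← mul_assoc, ← map_mul, mul_inv_cancel₀ hN0, map_one,
    one_mul]

/-- the separating element near the cusp -/
def pkgevS : FF N :=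
  (algebraMap Kb (FF N) ((N : Kb) ^ 12) * oggU N) ^ N * (jF N)⁻¹ ^ (N - 1)

theorem pkgev_fricke_S :
    frickeAut N (pkgevS N) = (oggU N)⁻¹ ^ N * (jdF N N dvd_rfl)⁻¹ ^ (N - 1) := by
  unfold pkgevS
  rw [map_mul, map_pow (frickeAut N), map_pow (frickeAut N), pkgev_fricke_cN_oggU, map_inv₀,
    frickeAut_jF]

variable (hB : PkgBase N A)

include hB in
theorem pkgev_cN_oggU_mem (hA : A.LiesOverPrime N) :
    algebraMap Kb (FF N) ((N : Kb) ^ 12) * oggU N ∈ pkgO₁ N A ∧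
      algebraMap Kb (FF N) ((N : Kb) ^ 12) * oggU N ∈ pkgO₂ N A := by
  constructor
  · refine mul_mem ((pkg_algebraMap_mem_iff₁ N A hB _).2 (pow_mem (pkg_natCast_mem N A hA) 12)) ?_
    exact ⟨_, pkg_gaussRed_oggU N A⟩
  · rw [mem_pkgO₂, pkgev_fricke_cN_oggU]
    exact pkg_h_mem₁ N A

include hB in
theorem pkgev_chart_S (hN : N.Prime) (hA : A.LiesOverPrime N) :
    PkgChart N A (jF N)⁻¹ (pkgevS N) := by
  have hj0 : jF N ≠ 0 := fr_jF_ne_zero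
  have hu0 : oggU N ≠ 0 := oggU_ne_zero N
  have hN0 : ((N : Kb) ^ 12) ≠ 0 := pow_ne_zero _ (Nat.cast_ne_zero.mpr (NeZero.ne N))
  have hc0 : algebraMap Kb (FF N) ((N : Kb) ^ 12) ≠ 0 := (_root_.map_ne_zero _).mpr hN0
  obtain ⟨ht₁, ht₂⟩ := pkgev_coord_mem N A hB hN hA (t := (jF N)⁻¹) (tb := (pkgJbar A)⁻¹)
    (Or.inr ⟨rfl, rfl⟩)
  obtain ⟨hc₁, hc₂⟩ := pkgev_cN_oggU_mem N A hB hA
  refine ⟨mul_mem (pow_mem hc₁ _) (pow_mem ht₁ _), mul_mem (pow_mem hc₂ _) (pow_mem ht₂ _),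
    fun P hP => ?_⟩
  have hN1 : ((N - 1 : ℕ) : ℤ) = (N : ℤ) - 1 := by
    have := hN.one_le
    push_cast [Nat.cast_sub this]
    ring
  have hNpos : (1 : ℤ) ≤ N := by exact_mod_cast hN.one_le
  unfold pkgevS
  rw [P.ord_mul (pow_ne_zero _ (mul_ne_zero hc0 hu0)) (pow_ne_zero _ (inv_ne_zero hj0)),
    pkgev_ord_pow P (mul_ne_zero hc0 hu0), pkgev_ord_pow P (inv_ne_zero hj0),
    ln_ord_const_mul P hN0, Place.ord_inv, hN1]
  rw [Place.ord_inv] at hP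
  by_cases hj : 0 ≤ P.ord (jF N)
  · rw [ogg_ord_eq_zero N hN P hj]
    have : P.ord (jF N) = 0 := by omega
    rw [this]
    simp
  · rcases ogg_pole_cases N hN P (not_le.mp hj) with rfl | rfl
    · rw [cuspInf_ord_jF, ogg_ord_cuspInf]
      nlinarith
    · rw [cuspZero_ord_jF, ogg_ord_cuspZero N hN]
      ring_nf
      exact le_refl _

include hB in
/-- `red₂ s = h̄₁^N · (j̄^N)^(-(N-1))` -/
theorem pkgev_red₂_S (hN : N.Prime) (hA : A.LiesOverPrime N) (h₂ : pkgevS N ∈ pkgO₂ N A) :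
    pkgRed₂ N A hB ⟨pkgevS N, h₂⟩ = pkgHbar N A hB ^ N * ((pkgJbar A ^ N)⁻¹) ^ (N - 1) := by
  obtain ⟨hjN, hejN⟩ := pkg_red₁_jN N A hB hN hA
  obtain ⟨hjNinv, hejNinv⟩ := pkgpoly_red_inv N A (pkgO₁ N A) (pkgRed₁ N A hB)
    (pkg_red₁_eq_zero_iff N A hB) (jdF N N dvd_rfl) hjN
    (by rw [hejN]; exact pow_ne_zero _ (pkgpoly_Jbar_ne_zero A))
  have hsw : pkgSwap N A ⟨pkgevS N, h₂⟩ =
      (⟨(oggU N)⁻¹, pkg_h_mem₁ N A⟩ : pkgO₁ N A) ^ N *
        (⟨(jdF N N dvd_rfl)⁻¹, hjNinv⟩ : pkgO₁ N A) ^ (N - 1) := by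
    apply Subtype.ext
    rw [coe_pkgSwap]
    exact pkgev_fricke_S N
  have hH : pkgHbar N A hB = pkgRed₁ N A hB ⟨(oggU N)⁻¹, pkg_h_mem₁ N A⟩ := by
    unfold pkgHbar
    rw [dif_pos (pkg_h_mem₁ N A)]
  show pkgRed₁ N A hB (pkgSwap N A ⟨pkgevS N, h₂⟩) = _
  rw [hsw, map_mul, map_pow, map_pow, ← hH, hejNinv, hejN]

/-- the `q`-expansion of `h̄₁^N · (j̄^N)^(-(N-1))` has order `0` -/
theorem pkgev_order_S (hN : N.Prime) :
    (((pkgHbar N A hB ^ N * ((pkgJbar A ^ N)⁻¹) ^ (N - 1) : FFk A) : LaurentSeries (kA A))).order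
      = 0 ∧
    ((pkgHbar N A hB ^ N * ((pkgJbar A ^ N)⁻¹) ^ (N - 1) : FFk A) : LaurentSeries (kA A)) ≠ 0 := by
  have hu0 : uS (kA A) N ≠ 0 := uS_ne_zero N (kA A)
  have hJ0 : jqModC (kA A) ≠ 0 := by
    intro h
    have := bgConst_order_jqModC (kA A)
    rw [h, HahnSeries.order_zero] at this
    omega
  have e : ((pkgHbar N A hB ^ N * ((pkgJbar A ^ N)⁻¹) ^ (N - 1) : FFk A) :
      LaurentSeries (kA A)) = ((uS (kA A) N)⁻¹) ^ N * ((jqModC (kA A) ^ N)⁻¹) ^ (N - 1) := by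
    have h1 : ((pkgHbar N A hB ^ N * ((pkgJbar A ^ N)⁻¹) ^ (N - 1) : FFk A) :
        LaurentSeries (kA A)) =
        ((pkgHbar N A hB : FFk A) : LaurentSeries (kA A)) ^ N *
          ((((pkgJbar A : FFk A) : LaurentSeries (kA A)) ^ N)⁻¹) ^ (N - 1) := rfl
    rw [h1, pkg_coe_Hbar, pkg_coe_Jbar]
  have hN1 : ((N - 1 : ℕ) : ℤ) = (N : ℤ) - 1 := by
    have := hN.one_le
    push_cast [Nat.cast_sub this]
    ring
  have hx1 : ((uS (kA A) N)⁻¹) ^ N ≠ 0 := pow_ne_zero _ (inv_ne_zero hu0)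
  have hx2 : ((jqModC (kA A) ^ N)⁻¹) ^ (N - 1) ≠ 0 :=
    pow_ne_zero _ (inv_ne_zero (pow_ne_zero _ hJ0))
  rw [e]
  refine ⟨?_, mul_ne_zero hx1 hx2⟩
  rw [HahnSeries.order_mul hx1 hx2, HahnSeries.order_pow, HahnSeries.order_pow,
    pkgev_order_inv hu0, pkgev_order_inv (pow_ne_zero _ hJ0), HahnSeries.order_pow, order_uS,
    bgConst_order_jqModC, nsmul_eq_mul, nsmul_eq_mul, nsmul_eq_mul, hN1]
  ring

include hB in
/-- **the separating element in the chart `1/j`, value in the maximal ideal** -/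
theorem pkgev_sep_cusp (hN : N.Prime) (h5 : 5 ≤ N) (hA : A.LiesOverPrime N)
    (P : Place Kb (FF N)) (hP : PkgType₁ N A P) (a : A) (hPa : HasValueAt P (jF N)⁻¹ (a : Kb))
    (ha : IsLocalRing.residue A a = 0) (b : kA A) (hb : b ^ N = IsLocalRing.residue A a) :
    ∃ (s : FF N) (hs : PkgChart N A (jF N)⁻¹ s) (S₁ S₂ : (kA A)[X]),
      pkgRed₁ N A hB ⟨s, hs.1⟩ = Polynomial.aeval (pkgJbar A)⁻¹ S₁ ∧
      pkgRed₂ N A hB ⟨s, hs.2.1⟩ = Polynomial.aeval (pkgJbar A)⁻¹ S₂ ∧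
      ∀ c : A, HasValueAt P s (c : Kb) → IsLocalRing.residue A c ≠ S₂.eval b := by
  have hs := pkgev_chart_S N A hB hN hA
  obtain ⟨⟨S₁, hS₁⟩, ⟨S₂, hS₂⟩⟩ := stmtPkgPoly2 N hN h5 A hA hB (jF N)⁻¹ (pkgJbar A)⁻¹
    (Or.inr ⟨rfl, rfl⟩) _ hs.1 hs.2.1 hs.2.2
  refine ⟨_, hs, S₁, S₂, hS₁, hS₂, ?_⟩
  -- `b = 0`
  have hb0 : b = 0 := by
    rw [ha] at hb
    exact pow_eq_zero_iff (NeZero.ne N) |>.mp hb
  -- the constant term of `S₂`
  have hS0 : S₂.eval 0 ≠ 0 := by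
    obtain ⟨hord, hne⟩ := pkgev_order_S N A hB hN
    rw [← pkgev_red₂_S N A hB hN hA hs.2.1, hS₂] at hord hne
    have hJ0 : jqModC (kA A) ≠ 0 := by
      intro h
      have := bgConst_order_jqModC (kA A)
      rw [h, HahnSeries.order_zero] at this
      omega
    have hy : (0 : ℤ) < ((jqModC (kA A))⁻¹).order := by
      rw [pkgev_order_inv hJ0, bgConst_order_jqModC]
      norm_num
    have e : ((Polynomial.aeval (pkgJbar A)⁻¹ S₂ : FFk A) : LaurentSeries (kA A)) =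
        Polynomial.aeval ((jqModC (kA A))⁻¹) S₂ := by
      have h := Polynomial.aeval_algHom_apply (modularFunctionFieldFullC (kA A) 1).val
        (pkgJbar A)⁻¹ S₂
      exact h.symm
    rw [e] at hord hne
    have h1 := pkgev_aeval_coeff_zero _ hy S₂
    rw [← h1]
    have h2 : (Polynomial.aeval ((jqModC (kA A))⁻¹) S₂).coeff 0 =
        (Polynomial.aeval ((jqModC (kA A))⁻¹) S₂).leadingCoeff := by
      rw [HahnSeries.leadingCoeff_eq, hord]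
    rw [h2]
    exact fun h => hne (HahnSeries.leadingCoeff_eq_zero.mp h)
  intro c hc
  obtain ⟨a₀, ha₀, hv₀⟩ := hP
  have hN12 : (N : Kb) ^ 12 ∈ A := pow_mem (pkg_natCast_mem N A hA) 12
  have hv : HasValueAt P (pkgevS N) ((((N : Kb) ^ 12) * a₀) ^ N * (a : Kb) ^ (N - 1)) :=
    ln_hasValueAt_mul (pkgev_hv_pow (ln_hasValueAt_mul (ln_hasValueAt_const P _) hv₀) N)
      (pkgev_hv_pow hPa (N - 1))
  have e := hasValueAt_unique P hc hv
  have e1 : c = (⟨(N : Kb) ^ 12, hN12⟩ * ⟨a₀, ha₀⟩ : A) ^ N * a ^ (N - 1) := Subtype.ext e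
  have hN1 : N - 1 ≠ 0 := by omega
  rw [hb0, e1, map_mul, map_pow, map_pow, ha, zero_pow hN1, mul_zero]
  exact hS0.symm

end Fermat.Agent.S15.LN
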