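import Fermat.Agent.S15.PkgEv
import Fermat.Agent.S15.PkgTVFibre

/-!
# S15 / LN-PKG, piece PKG-ev, final wiring: `stmtPkgEv : StmtPkgEv` (helper72)

`stmtPkgEv_of` (PkgEv.lean, helper72) applied to `stmtPkgFibre` (PkgTVFibre.lean, helper10).
-/

set_option autoImplicit false

namespace Fermat.Agent.S15.LN

/-- **PKG-ev, unconditional**: the residue of the value of a chart function at a place. -/
theorem stmtPkgEv : StmtPkgEv := stmtPkgEv_of stmtPkgFibre

end Fermat.Agent.S15.LN
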