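import Fermat.Agent.S15.PkgEvCore

/-!
# S15 / LN-PKG, piece PKG-ev, part 3: the separating elements (helper72)

`P` a place of type 1 (`oggU(P) = a₀ ∈ A`), `h = 1 / oggU`.
* chart `j` : `s = h` (`pkgev_sep_j`);
* chart `1/j`, `t(P)` a unit : `s = t^(N-1) · h` (`pkgev_sep_unit`);
* chart `1/j`, `t(P) ∈ 𝔪_A` : `s = (N¹² · oggU)^N · t^(N-1)` (`pkgev_sep_cusp`).
-/

set_option autoImplicit false
set_option linter.unusedSectionVars false
set_option linter.unusedVariables false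
set_option linter.style.haveILetI false

noncomputable section

namespace Fermat.Agent.S15.LN

open ModularCurve AlgebraicCurve Polynomial IntermediateField
open Fermat.Agent.ES Fermat.Agent.ES.M Fermat.Agent.S24 Fermat.Agent.ES.LR Fermat.Agent.DEU
  Fermat.Agent.INJ Fermat.Agent.W1 Fermat.Agent.S15 Fermat.Agent.S28

/-! ### orders -/

section Ord

variable {K F : Type} [Field K] [Field F] [Algebra K F]

theorem pkgev_ord_pow (P : Place K F) {x : F} (hx : x ≠ 0) (n : ℕ) :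
    P.ord (x ^ n) = n * P.ord x := by
  induction n with
  | zero => simp
  | succ n ih =>
      rw [pow_succ, P.ord_mul (pow_ne_zero n hx) hx, ih]
      push_cast
      ring

end Ord

theorem pkgev_order_inv {k : Type*} [Field k] {x : LaurentSeries k} (hx : x ≠ 0) :
    x⁻¹.order = -x.order := by
  have h1 : (x * x⁻¹).order = x.order + x⁻¹.order := HahnSeries.order_mul hx (inv_ne_zero hx)
  rw [mul_inv_cancel₀ hx, HahnSeries.order_one] at h1
  omega

/-- the constant term of a polynomial in a series of positive order -/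
theorem pkgev_aeval_coeff_zero {k : Type*} [Field k] (y : LaurentSeries k) (hy : 0 < y.order)
    (G : k[X]) : (Polynomial.aeval y G).coeff 0 = G.eval 0 := by
  obtain ⟨n, hn⟩ := Int.eq_ofNat_of_zero_le hy.le
  have hn0 : n ≠ 0 := by
    rintro rfl
    rw [hn] at hy
    exact lt_irrefl _ hy
  have h1 := LaurentSeries.single_order_mul_powerSeriesPart y
  have h2 : y = HahnSeries.ofPowerSeries ℤ k (PowerSeries.X ^ n * LaurentSeries.powerSeriesPart y) := by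
    rw [map_mul, map_pow, HahnSeries.ofPowerSeries_X, HahnSeries.single_pow, one_pow, nsmul_one]
    rw [hn] at h1
    exact h1.symm
  have h3 : PowerSeries.constantCoeff
      (PowerSeries.X ^ n * LaurentSeries.powerSeriesPart y) = 0 := by
    rw [map_mul, map_pow, PowerSeries.constantCoeff_X, zero_pow hn0, zero_mul]
  rw [h2, pkgtv_aeval_coeff_zero _ h3, Polynomial.coeff_zero_eq_eval_zero]

variable (N : ℕ) [NeZero N] (A : ValuationSubring Kb)

/-- a unit of `A` has nonzero residue -/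
theorem pkgev_residue_ne_zero_of_mul {c c' : A} {u : kA A} (hu : u ≠ 0)
    (h : IsLocalRing.residue A c * IsLocalRing.residue A c' = u) :
    IsLocalRing.residue A c ≠ 0 := by
  intro h0
  rw [h0, zero_mul] at h
  exact hu h.symm

variable (hB : PkgBase N A)

/-! ### chart `j` -/

include hB in
theorem pkgev_chart_h (hN : N.Prime) (hA : A.LiesOverPrime N) :
    PkgChart N A (jF N) (oggU N)⁻¹ := by
  refine ⟨pkg_h_mem₁ N A, ge_nonunits_mem (pkg_h_mem₂ N A hB hA), fun P hP => ?_⟩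
  rw [Place.ord_inv, ogg_ord_eq_zero N hN P hP, neg_zero]

/-- **the separating element in the chart `j`** -/
theorem pkgev_sep_j (hN : N.Prime) (h5 : 5 ≤ N) (hA : A.LiesOverPrime N)
    (P : Place Kb (FF N)) (hP : PkgType₁ N A P) (b : kA A) :
    ∃ (s : FF N) (hs : PkgChart N A (jF N) s) (S₁ S₂ : (kA A)[X]),
      pkgRed₁ N A hB ⟨s, hs.1⟩ = Polynomial.aeval (pkgJbar A) S₁ ∧
      pkgRed₂ N A hB ⟨s, hs.2.1⟩ = Polynomial.aeval (pkgJbar A) S₂ ∧
      ∀ c : A, HasValueAt P s (c : Kb) → IsLocalRing.residue A c ≠ S₂.eval b := by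
  have hs := pkgev_chart_h N A hB hN hA
  obtain ⟨⟨S₁, hS₁⟩, -⟩ := stmtPkgPoly2 N hN h5 A hA hB (jF N) (pkgJbar A) (Or.inl ⟨rfl, rfl⟩)
    _ hs.1 hs.2.1 hs.2.2
  refine ⟨(oggU N)⁻¹, hs, S₁, 0, hS₁, ?_, ?_⟩
  · rw [map_zero]
    exact (pkg_red₂_eq_zero_iff N A hB ⟨_, hs.2.1⟩).2 (pkg_h_mem₂ N A hB hA)
  · intro c hc
    obtain ⟨a₀, ha₀, hv₀⟩ := hP
    have e := pkgev_value_mul_eq_one (oggU_ne_zero N) hv₀ hc
    have e1 : (c * ⟨a₀, ha₀⟩ : A) = 1 := Subtype.ext (by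
      rw [mul_comm] at e
      exact e)
    have e2 : IsLocalRing.residue A c * IsLocalRing.residue A ⟨a₀, ha₀⟩ = 1 := by
      rw [← map_mul, e1, map_one]
    rw [Polynomial.eval_zero]
    exact pkgev_residue_ne_zero_of_mul A one_ne_zero e2

/-! ### chart `1/j`, unit value -/

include hB in
theorem pkgev_chart_unit (hN : N.Prime) (hA : A.LiesOverPrime N) :
    PkgChart N A (jF N)⁻¹ ((jF N)⁻¹ ^ (N - 1) * (oggU N)⁻¹) := by
  have hj0 : jF N ≠ 0 := fr_jF_ne_zero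
  have hu0 : oggU N ≠ 0 := oggU_ne_zero N
  obtain ⟨ht₁, ht₂⟩ := pkgev_coord_mem N A hB hN hA (t := (jF N)⁻¹) (tb := (pkgJbar A)⁻¹)
    (Or.inr ⟨rfl, rfl⟩)
  refine ⟨mul_mem (pow_mem ht₁ _) (pkg_h_mem₁ N A),
    mul_mem (pow_mem ht₂ _) (ge_nonunits_mem (pkg_h_mem₂ N A hB hA)), fun P hP => ?_⟩
  have hN1 : ((N - 1 : ℕ) : ℤ) = (N : ℤ) - 1 := by
    have := hN.one_le
    push_cast [Nat.cast_sub this]
    ring
  have hNpos : (1 : ℤ) ≤ N := by exact_mod_cast hN.one_le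
  rw [P.ord_mul (pow_ne_zero _ (inv_ne_zero hj0)) (inv_ne_zero hu0),
    pkgev_ord_pow P (inv_ne_zero hj0), Place.ord_inv, Place.ord_inv, hN1]
  rw [Place.ord_inv] at hP
  by_cases hj : 0 ≤ P.ord (jF N)
  · rw [ogg_ord_eq_zero N hN P hj]
    have : P.ord (jF N) = 0 := by omega
    rw [this]
    simp
  · rcases ogg_pole_cases N hN P (not_le.mp hj) with rfl | rfl
    · rw [cuspInf_ord_jF, ogg_ord_cuspInf]
      ring_nf
      exact le_refl _
    · rw [cuspZero_ord_jF, ogg_ord_cuspZero N hN]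
      nlinarith

/-- **the separating element in the chart `1/j`, unit value** -/
theorem pkgev_sep_unit (hN : N.Prime) (h5 : 5 ≤ N) (hA : A.LiesOverPrime N)
    (P : Place Kb (FF N)) (hP : PkgType₁ N A P) (a : A) (hPa : HasValueAt P (jF N)⁻¹ (a : Kb))
    (ha : IsLocalRing.residue A a ≠ 0) (b : kA A) :
    ∃ (s : FF N) (hs : PkgChart N A (jF N)⁻¹ s) (S₁ S₂ : (kA A)[X]),
      pkgRed₁ N A hB ⟨s, hs.1⟩ = Polynomial.aeval (pkgJbar A)⁻¹ S₁ ∧
      pkgRed₂ N A hB ⟨s, hs.2.1⟩ = Polynomial.aeval (pkgJbar A)⁻¹ S₂ ∧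
      ∀ c : A, HasValueAt P s (c : Kb) → IsLocalRing.residue A c ≠ S₂.eval b := by
  have hs := pkgev_chart_unit N A hB hN hA
  obtain ⟨ht₁, ht₂⟩ := pkgev_coord_mem N A hB hN hA (t := (jF N)⁻¹) (tb := (pkgJbar A)⁻¹)
    (Or.inr ⟨rfl, rfl⟩)
  obtain ⟨⟨S₁, hS₁⟩, -⟩ := stmtPkgPoly2 N hN h5 A hA hB (jF N)⁻¹ (pkgJbar A)⁻¹
    (Or.inr ⟨rfl, rfl⟩) _ hs.1 hs.2.1 hs.2.2
  refine ⟨_, hs, S₁, 0, hS₁, ?_, ?_⟩
  · rw [map_zero]
    exact (pkg_red₂_eq_zero_iff N A hB ⟨_, hs.2.1⟩).2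
      (ge_nonunits_mul_mem (pow_mem ht₂ _) (pkg_h_mem₂ N A hB hA))
  · intro c hc
    obtain ⟨a₀, ha₀, hv₀⟩ := hP
    have h1 := ln_hasValueAt_mul hc hv₀
    have e0 : (jF N)⁻¹ ^ (N - 1) * (oggU N)⁻¹ * oggU N = (jF N)⁻¹ ^ (N - 1) := by
      rw [mul_assoc, inv_mul_cancel₀ (oggU_ne_zero N), mul_one]
    rw [e0] at h1
    have e := hasValueAt_unique P h1 (pkgev_hv_pow hPa (N - 1))
    have e1 : (c * ⟨a₀, ha₀⟩ : A) = a ^ (N - 1) := Subtype.ext e
    have e2 : IsLocalRing.residue A c * IsLocalRing.residue A ⟨a₀, ha₀⟩ =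
        IsLocalRing.residue A a ^ (N - 1) := by
      rw [← map_mul, e1, map_pow]
    rw [Polynomial.eval_zero]
    exact pkgev_residue_ne_zero_of_mul A (pow_ne_zero _ ha) e2

end Fermat.Agent.S15.LN
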