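import Fermat.Agent.S15.PlanPKG
import Fermat.Agent.UNIP.NodesFrob
import Fermat.Agent.S28.UpperBound

/-!
# S15 / LN-PKG, piece PKG-val (1): series identities in characteristic `N`, `F̄_N = F̄_1`

* `pkg_jN_eq_pow` : over a field `k` of characteristic `N` (prime), `j(q^N) = j(q)^N`;
* `pkg_fieldEq`   : `modularFunctionFieldFullC k N = modularFunctionFieldFullC k 1`;
* `pkgCz N`, `pkgCz' N : LaurentSeries ℤ` : `c = j(q^N) − j^N`, `c' = j − j(q^N)^N`, with
  `pkgCz_eq_mul` (`c = N · c₁`), `pkg_coeffMap_Cz` (`c̄ = 0`), `pkg_coeffMap_Cz'_ne_zero`.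
-/

set_option autoImplicit false

noncomputable section

open ModularCurve HahnSeries

namespace Fermat.Agent.S15.LN

open Fermat.Agent.UNIP Fermat.Agent.S28.UB

section Field

variable (N : ℕ) [NeZero N] (k : Type*) [Field k]

/-- in characteristic `N`: `j(q^N) = j(q)^N` -/
theorem pkg_jN_eq_pow (hN : N.Prime) [CharP k N] :
    qExpand k N (jqModC k) = jqModC k ^ N := by
  haveI : Fact N.Prime := ⟨hN⟩
  have h := nodesFrob_qExpand_int (k := k) N (jqModC ℤ)
  rw [coeffMap_jqModC] at h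
  exact h

/-- in characteristic `N` the level drops: `F̄_N = F̄_1` -/
theorem pkg_fieldEq (hN : N.Prime) [CharP k N] :
    modularFunctionFieldFullC k N = modularFunctionFieldFullC k 1 := by
  apply le_antisymm
  · rw [full_le_iff]
    intro d hd hd0
    rcases (Nat.dvd_prime hN).mp hd with h1 | h1
    · rw [h1]
      exact jd_mem_full k (one_dvd 1) one_ne_zero
    · rw [h1, jd_eq, pkg_jN_eq_pow N k hN]
      have h1 : jqModC k ∈ modularFunctionFieldFullC k 1 := by
        have := jd_mem_full k (one_dvd 1) one_ne_zero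
        rwa [jd_one] at this
      exact pow_mem h1 N
  · exact full_mono k (one_dvd N)

end Field

section IntSeries

variable (N : ℕ) [NeZero N]

/-- `c = j(q^N) − j^N` over `ℤ` -/
def pkgCz : LaurentSeries ℤ := qExpand ℤ N (jqModC ℤ) - jqModC ℤ ^ N

/-- `c' = j − j(q^N)^N` over `ℤ` -/
def pkgCz' : LaurentSeries ℤ := jqModC ℤ - qExpand ℤ N (jqModC ℤ) ^ N

theorem pkg_coeffMap_Cz {R : Type*} [CommRing R] (f : ℤ →+* R) :
    coeffMap f (pkgCz N) = qExpand R N (jqModC R) - jqModC R ^ N := by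
  rw [pkgCz, map_sub, map_pow, coeffMap_qExpand, coeffMap_jqModC]

theorem pkg_coeffMap_Cz' {R : Type*} [CommRing R] (f : ℤ →+* R) :
    coeffMap f (pkgCz' N) = jqModC R - qExpand R N (jqModC R) ^ N := by
  rw [pkgCz', map_sub, map_pow, coeffMap_qExpand, coeffMap_jqModC]

/-- `c̄ = 0` in characteristic `N` -/
theorem pkg_coeffMap_Cz_eq_zero (hN : N.Prime) {k : Type*} [Field k] [CharP k N]
    (f : ℤ →+* k) : coeffMap f (pkgCz N) = 0 := by
  rw [pkg_coeffMap_Cz, pkg_jN_eq_pow N k hN, sub_self]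

/-- `c̄' = j̄ − j̄^{N²} ≠ 0` in characteristic `N` -/
theorem pkg_coeffMap_Cz'_ne_zero (hN : N.Prime) {k : Type*} [Field k] [CharP k N]
    (f : ℤ →+* k) : coeffMap f (pkgCz' N) ≠ 0 := by
  rw [pkg_coeffMap_Cz', pkg_jN_eq_pow N k hN]
  intro h
  have h1 : jqModC k = (jqModC k ^ N) ^ N := sub_eq_zero.mp h
  have h2 := congrArg HahnSeries.order h1
  rw [← pow_mul, HahnSeries.order_pow, nodesFrob_order_jqModC] at h2
  have h3 : (2 : ℤ) ≤ N := by exact_mod_cast hN.two_le
  have h4 : (N : ℤ) * N ≥ 4 := by nlinarith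
  rw [nsmul_eq_mul] at h2
  push_cast at h2
  nlinarith

/-- every coefficient of `c` is divisible by `N` -/
theorem pkg_dvd_coeff_Cz (hN : N.Prime) (n : ℤ) : (N : ℤ) ∣ (pkgCz N).coeff n := by
  haveI : Fact N.Prime := ⟨hN⟩
  have h := pkg_coeffMap_Cz_eq_zero N hN (k := ZMod N) (Int.castRingHom (ZMod N))
  have h1 := congrArg (fun s : LaurentSeries (ZMod N) => s.coeff n) h
  simp only [coeffMap_coeff, HahnSeries.coeff_zero] at h1
  exact (ZMod.intCast_zmod_eq_zero_iff_dvd _ N).mp h1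

/-- `c₁ = c / N` -/
def pkgC₁z : LaurentSeries ℤ :=
  (pkgCz N).map (⟨fun z => z / (N : ℤ), Int.zero_ediv _⟩ : ZeroHom ℤ ℤ)

theorem pkgCz_eq_mul (hN : N.Prime) : pkgCz N = HahnSeries.C (N : ℤ) * pkgC₁z N := by
  ext n
  rw [HahnSeries.C_mul_eq_smul, HahnSeries.coeff_smul]
  show (pkgCz N).coeff n = (N : ℤ) • ((pkgCz N).coeff n / (N : ℤ))
  rw [smul_eq_mul]
  exact (Int.mul_ediv_cancel' (pkg_dvd_coeff_Cz N hN n)).symm

end IntSeries

end Fermat.Agent.S15.LN
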