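import Fermat.Agent.S15.PkgCardPlan
import Fermat.Agent.S15.PkgCross
import Fermat.Agent.S15.PkgType
import Fermat.Agent.S15.PkgPoly

/-!
# S15 / LOCAL-N / LN-PKG, piece PKG-glue (helper13): normality at the crossing points

`StmtPkgGlue` (`PlanPKG.lean`): a function `u ∈ O₁ ∩ O₂` whose poles are places of smooth type
is regular at the crossing points, with the same value on both branches.

Inputs (all at `(N, A, hB)`):
* `StmtPkgPoly` (helper10, landed): the reductions of `f ∈ B` are polynomials in `j̄`;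
* `PkgIsGoursat N A S` + the description `StmtPkgXset` of the crossing set (helper89/helper8):
  `f ∈ B` with reductions `(P(j̄), Q(j̄))` has `P(s) = Q(s ^ N)` for `s ∈ S`, and the crossing
  points are the pairs `(Q_s, Q_{s^N})`, `s ∈ S`;
* `PkgIsType N A` (helper25, landed), `PkgIsCross N A hB` (helper8): a place of smooth type
  does not reduce to a crossing point.

Proof.
(A) `pkggl_glued_B`: for `f ∈ B` the statement is `glued` of Goursat.
(B) `pkggl_clear`: for a place `P` of smooth type at which `j` is regular there is `e ∈ B`,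
    a unit at the crossing points with the same value on both branches, with `e(P) = 0`:
    `e = j - a` (`a = j(P) ∈ A`) or `e = a⁻¹ j - 1` (`a ∉ A`) if `P` is of type 1, and the same
    with `j_N = w_N j` if `P` is of type 2.
(C) `pkggl_glue`: `f = u · ∏ e_P ^ n_P ∈ B`, and `ū = f̄ / ∏ ē_P ^ n_P`.

Main statements: `pkggl_glue`, `stmtPkgGlue_of`.
-/

set_option autoImplicit false
set_option linter.unusedSectionVars false

noncomputable section

open AlgebraicCurve Module ModularCurve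

namespace Fermat.Agent.S15.LN

open Fermat.Agent.W1 Fermat.Agent.S24 Fermat.Agent.S15 Fermat.Agent.ES.M Fermat.Agent.DEU
  Fermat.Agent.INJ

/-! ## Values of polynomials -/

section Gen

variable {K F : Type} [Field K] [Field F] [Algebra K F]

theorem pkggl_hasValueAt_pow {P : Place K F} {f : F} {a : K} (h : HasValueAt P f a) (n : ℕ) :
    HasValueAt P (f ^ n) (a ^ n) := by
  induction n with
  | zero =>
    rw [pow_zero, pow_zero]
    exact ln_hasValueAt_one P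
  | succ n ih =>
    rw [pow_succ, pow_succ]
    exact ln_hasValueAt_mul ih h

theorem pkggl_hasValueAt_sub {P : Place K F} {f g : F} {a b : K} (hf : HasValueAt P f a)
    (hg : HasValueAt P g b) : HasValueAt P (f - g) (a - b) := by
  have h := ln_hasValueAt_add hf (ln_hasValueAt_smul (-1 : K) hg)
  have e1 : f + (-1 : K) • g = f - g := by
    rw [neg_smul, one_smul, sub_eq_add_neg]
  have e2 : a + -1 * b = a - b := by ring
  rwa [e1, e2] at h

theorem pkggl_hasValueAt_aeval {P : Place K F} {t : F} {a : K} (h : HasValueAt P t a)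
    (p : Polynomial K) : HasValueAt P (Polynomial.aeval t p) (p.eval a) := by
  induction p using Polynomial.induction_on' with
  | add p q hp hq =>
    rw [map_add, Polynomial.eval_add]
    exact ln_hasValueAt_add hp hq
  | monomial n c =>
    rw [Polynomial.aeval_monomial, Polynomial.eval_monomial]
    exact ln_hasValueAt_mul (ln_hasValueAt_const P c) (pkggl_hasValueAt_pow h n)

/-- division by a function with a nonzero value -/
theorem pkggl_hasValueAt_of_mul {P : Place K F} {f g : F} {a c : K}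
    (hfg : HasValueAt P (f * g) a) (hg : HasValueAt P g c) (hc : c ≠ 0) :
    HasValueAt P f (a * c⁻¹) := by
  have hg0 : g ≠ 0 := ln_ne_zero_of_value hg hc
  have h := ln_hasValueAt_mul hfg (ln_hasValueAt_inv hg hc)
  rwa [mul_inv_cancel_right₀ hg0] at h

theorem pkggl_ord_pow (P : Place K F) (f : F) (n : ℕ) : P.ord (f ^ n) = n * P.ord f := by
  have h := Place.ord_zpow P f (n : ℤ)
  rwa [zpow_natCast] at h

end Gen

variable (N : ℕ) [NeZero N] (A : ValuationSubring Kb)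

/-! ## The good elements: elements of `B`, units at the crossing points -/

/-- `e ∈ B`, and `e` is a unit at the crossing points with the same value on both branches -/
def PkgGlGood (hB : PkgBase N A) (e : FF N) : Prop :=
  PolesAtCusps N e ∧ ∃ (h₁ : e ∈ pkgO₁ N A) (h₂ : e ∈ pkgO₂ N A),
    (pkgTR N A hB).GluedUnit (pkgRed₁ N A hB ⟨e, h₁⟩) (pkgRed₂ N A hB ⟨e, h₂⟩)

variable {N A}

theorem pkggl_red₁_mul (hB : PkgBase N A) {e e' : FF N} (h₁ : e ∈ pkgO₁ N A)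
    (h₁' : e' ∈ pkgO₁ N A) :
    pkgRed₁ N A hB ⟨e * e', (pkgO₁ N A).mul_mem _ _ h₁ h₁'⟩ =
      pkgRed₁ N A hB ⟨e, h₁⟩ * pkgRed₁ N A hB ⟨e', h₁'⟩ := by
  have hmul : (⟨e * e', (pkgO₁ N A).mul_mem _ _ h₁ h₁'⟩ : pkgO₁ N A) = ⟨e, h₁⟩ * ⟨e', h₁'⟩ :=
    rfl
  rw [hmul, map_mul]

theorem pkggl_red₂_mul (hB : PkgBase N A) {e e' : FF N} (h₂ : e ∈ pkgO₂ N A)
    (h₂' : e' ∈ pkgO₂ N A) :
    pkgRed₂ N A hB ⟨e * e', (pkgO₂ N A).mul_mem _ _ h₂ h₂'⟩ =
      pkgRed₂ N A hB ⟨e, h₂⟩ * pkgRed₂ N A hB ⟨e', h₂'⟩ := by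
  have hmul : (⟨e * e', (pkgO₂ N A).mul_mem _ _ h₂ h₂'⟩ : pkgO₂ N A) = ⟨e, h₂⟩ * ⟨e', h₂'⟩ :=
    rfl
  rw [hmul, map_mul]

theorem pkggl_red₁_sub (hB : PkgBase N A) {e e' : FF N} (h₁ : e ∈ pkgO₁ N A)
    (h₁' : e' ∈ pkgO₁ N A) :
    pkgRed₁ N A hB ⟨e - e', (pkgO₁ N A).toSubring.sub_mem h₁ h₁'⟩ =
      pkgRed₁ N A hB ⟨e, h₁⟩ - pkgRed₁ N A hB ⟨e', h₁'⟩ := by
  have hsub : (⟨e - e', (pkgO₁ N A).toSubring.sub_mem h₁ h₁'⟩ : pkgO₁ N A) =
      ⟨e, h₁⟩ - ⟨e', h₁'⟩ := rfl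
  rw [hsub, map_sub]

theorem pkggl_red₂_sub (hB : PkgBase N A) {e e' : FF N} (h₂ : e ∈ pkgO₂ N A)
    (h₂' : e' ∈ pkgO₂ N A) :
    pkgRed₂ N A hB ⟨e - e', (pkgO₂ N A).toSubring.sub_mem h₂ h₂'⟩ =
      pkgRed₂ N A hB ⟨e, h₂⟩ - pkgRed₂ N A hB ⟨e', h₂'⟩ := by
  have hsub : (⟨e - e', (pkgO₂ N A).toSubring.sub_mem h₂ h₂'⟩ : pkgO₂ N A) =
      ⟨e, h₂⟩ - ⟨e', h₂'⟩ := rfl
  rw [hsub, map_sub]

theorem pkggl_red₁_one (hB : PkgBase N A) :
    pkgRed₁ N A hB ⟨1, (pkgO₁ N A).one_mem⟩ = 1 := by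
  have h1 : (⟨1, (pkgO₁ N A).one_mem⟩ : pkgO₁ N A) = 1 := rfl
  rw [h1, map_one]

theorem pkggl_red₂_one (hB : PkgBase N A) :
    pkgRed₂ N A hB ⟨1, (pkgO₂ N A).one_mem⟩ = 1 := by
  have h1 : (⟨1, (pkgO₂ N A).one_mem⟩ : pkgO₂ N A) = 1 := rfl
  rw [h1, map_one]

theorem pkggl_good_one (hB : PkgBase N A) : PkgGlGood N A hB 1 := by
  have hp : PolesAtCusps N (1 : FF N) := by
    have h := pkgc_poles_const N (1 : Kb)
    rwa [map_one] at h
  have key : (pkgTR N A hB).GluedUnit (pkgRed₁ N A hB ⟨1, (pkgO₁ N A).one_mem⟩)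
      (pkgRed₂ N A hB ⟨1, (pkgO₂ N A).one_mem⟩) := by
    rw [pkggl_red₁_one, pkggl_red₂_one]
    exact ln_gluedUnit_one _
  exact ⟨hp, (pkgO₁ N A).one_mem, (pkgO₂ N A).one_mem, key⟩

theorem pkggl_good_mul {hB : PkgBase N A} {e e' : FF N} (he : PkgGlGood N A hB e)
    (he' : PkgGlGood N A hB e') : PkgGlGood N A hB (e * e') := by
  obtain ⟨hp, h₁, h₂, hg⟩ := he
  obtain ⟨hp', h₁', h₂', hg'⟩ := he'
  have hm₁ : e * e' ∈ pkgO₁ N A := (pkgO₁ N A).mul_mem _ _ h₁ h₁'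
  have hm₂ : e * e' ∈ pkgO₂ N A := (pkgO₂ N A).mul_mem _ _ h₂ h₂'
  have hpp : PolesAtCusps N (e * e') := pkgc_poles_mul hp hp'
  have key : (pkgTR N A hB).GluedUnit (pkgRed₁ N A hB ⟨e * e', hm₁⟩)
      (pkgRed₂ N A hB ⟨e * e', hm₂⟩) := by
    rw [pkggl_red₁_mul hB h₁ h₁', pkggl_red₂_mul hB h₂ h₂']
    exact ln_gluedUnit_mul hg hg'
  exact ⟨hpp, hm₁, hm₂, key⟩

theorem pkggl_good_pow {hB : PkgBase N A} {e : FF N} (he : PkgGlGood N A hB e) (n : ℕ) :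
    PkgGlGood N A hB (e ^ n) := by
  induction n with
  | zero =>
    rw [pow_zero]
    exact pkggl_good_one hB
  | succ n ih =>
    rw [pow_succ]
    exact pkggl_good_mul ih he

theorem PkgGlGood.poles {hB : PkgBase N A} {e : FF N} (he : PkgGlGood N A hB e) :
    PolesAtCusps N e := he.1

/-! ## (A) the chart ring -/

/-- the description of the crossing set by the finite set `S` (an instance of `StmtPkgXset`) -/
def PkgGlXset (hB : PkgBase N A) (S : Finset (kA A)) : Prop :=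
  ∀ x : Place (kA A) (FFk A) × Place (kA A) (FFk A),
    x ∈ pkgXset N A hB ↔
      ∃ s ∈ S, HasValueAt x.1 (pkgJbar A) s ∧ HasValueAt x.2 (pkgJbar A) (s ^ N)

/-- the instance of PKG-poly at `(N, A, hB)` -/
def PkgGlPoly (hB : PkgBase N A) : Prop :=
  ∀ (f : FF N) (h₁ : f ∈ pkgO₁ N A) (h₂ : f ∈ pkgO₂ N A), PolesAtCusps N f →
    pkgRed₁ N A hB ⟨f, h₁⟩ ∈ Algebra.adjoin (kA A) {pkgJbar A} ∧
      pkgRed₂ N A hB ⟨f, h₂⟩ ∈ Algebra.adjoin (kA A) {pkgJbar A}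

/-- **(A)**: the elements of the chart ring `B` are glued. -/
theorem pkggl_glued_B {hB : PkgBase N A} {S : Finset (kA A)} (hPoly : PkgGlPoly hB)
    (hG : PkgIsGoursat N A S) (hX : PkgGlXset hB S) (f : FF N) (h₁ : f ∈ pkgO₁ N A)
    (h₂ : f ∈ pkgO₂ N A) (hreg : PolesAtCusps N f) :
    (pkgTR N A hB).Glued (pkgRed₁ N A hB ⟨f, h₁⟩) (pkgRed₂ N A hB ⟨f, h₂⟩) := by
  obtain ⟨hp₁, hp₂⟩ := hPoly f h₁ h₂ hreg
  rw [Algebra.adjoin_singleton_eq_range_aeval] at hp₁ hp₂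
  obtain ⟨P, hP⟩ := hp₁
  obtain ⟨Q, hQ⟩ := hp₂
  have hP' : Polynomial.aeval (pkgJbar A) P = pkgRed₁ N A hB ⟨f, h₁⟩ := hP
  have hQ' : Polynomial.aeval (pkgJbar A) Q = pkgRed₂ N A hB ⟨f, h₂⟩ := hQ
  have hcB : PkgcB N A f (Polynomial.aeval (jqModC (kA A)) P)
      (Polynomial.aeval (jqModC (kA A)) Q) := by
    refine ⟨hreg, ?_, ?_⟩
    · have h := pkg_gaussRed_red₁ N A hB ⟨f, h₁⟩
      rw [← hP', pkgty_coe_aeval] at h
      exact h
    · have h := pkg_gaussRed_red₂ N A hB ⟨f, h₂⟩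
      rw [← hQ', pkgty_coe_aeval] at h
      exact h
  intro x hx
  obtain ⟨s, hs, hv₁, hv₂⟩ := (hX x).mp (pkgcr_mem_Xset_of_mem_X hx)
  refine ⟨P.eval s, ?_, ?_⟩
  · rw [← hP']
    exact pkggl_hasValueAt_aeval hv₁ P
  · rw [← hQ', hG.glued f P Q hcB s hs]
    exact pkggl_hasValueAt_aeval hv₂ Q

/-! ## (B) clearing one pole -/

/-- the constants of `A` in the two Gauss rings, with their reductions -/
theorem pkggl_const (hB : PkgBase N A) (a : A) :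
    ∃ (h₁ : algebraMap Kb (FF N) (a : Kb) ∈ pkgO₁ N A)
      (h₂ : algebraMap Kb (FF N) (a : Kb) ∈ pkgO₂ N A),
      pkgRed₁ N A hB ⟨_, h₁⟩ = algebraMap (kA A) (FFk A) (IsLocalRing.residue A a) ∧
        pkgRed₂ N A hB ⟨_, h₂⟩ = algebraMap (kA A) (FFk A) (IsLocalRing.residue A a) := by
  have h₁ : algebraMap Kb (FF N) (a : Kb) ∈ pkgO₁ N A :=
    (pkg_algebraMap_mem_iff₁ N A hB _).mpr a.2
  have h₂ : algebraMap Kb (FF N) (a : Kb) ∈ pkgO₂ N A :=
    (pkg_algebraMap_mem_iff₂ N A hB _).mpr a.2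
  exact ⟨h₁, h₂, pkg_red₁_algebraMap N A hB a h₁, pkg_red₂_algebraMap N A hB a h₂⟩

/-- `t - a` is good if the common value of `t̄` at the crossing points is never `ā` -/
theorem pkggl_good_sub (hB : PkgBase N A) (t : FF N) (ht₁ : t ∈ pkgO₁ N A)
    (ht₂ : t ∈ pkgO₂ N A) (htreg : PolesAtCusps N t) (a : A)
    (h : ∀ x ∈ pkgX N A hB, ∃ v : kA A, v ≠ IsLocalRing.residue A a ∧
      HasValueAt x.1 (pkgRed₁ N A hB ⟨t, ht₁⟩) v ∧ HasValueAt x.2 (pkgRed₂ N A hB ⟨t, ht₂⟩) v) :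
    PkgGlGood N A hB (t - algebraMap Kb (FF N) (a : Kb)) := by
  obtain ⟨hc₁, hc₂, hr₁, hr₂⟩ := pkggl_const hB a
  have hm₁ : t - algebraMap Kb (FF N) (a : Kb) ∈ pkgO₁ N A :=
    (pkgO₁ N A).toSubring.sub_mem ht₁ hc₁
  have hm₂ : t - algebraMap Kb (FF N) (a : Kb) ∈ pkgO₂ N A :=
    (pkgO₂ N A).toSubring.sub_mem ht₂ hc₂
  have hpp : PolesAtCusps N (t - algebraMap Kb (FF N) (a : Kb)) :=
    pkgc_poles_sub htreg (pkgc_poles_const N _)
  have key : (pkgTR N A hB).GluedUnit (pkgRed₁ N A hB ⟨_, hm₁⟩) (pkgRed₂ N A hB ⟨_, hm₂⟩) := by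
    rw [pkggl_red₁_sub hB ht₁ hc₁, pkggl_red₂_sub hB ht₂ hc₂, hr₁, hr₂]
    intro x hx
    obtain ⟨v, hv, hv₁, hv₂⟩ := h x hx
    exact ⟨v - IsLocalRing.residue A a, sub_ne_zero.mpr hv,
      pkggl_hasValueAt_sub hv₁ (ln_hasValueAt_const _ _),
      pkggl_hasValueAt_sub hv₂ (ln_hasValueAt_const _ _)⟩
  exact ⟨hpp, hm₁, hm₂, key⟩

/-- `c t - 1` is good if `c` is a nonunit of `A` -/
theorem pkggl_good_scaled (hB : PkgBase N A) (t : FF N) (ht₁ : t ∈ pkgO₁ N A)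
    (ht₂ : t ∈ pkgO₂ N A) (htreg : PolesAtCusps N t) (c : Kb) (hc : c ∈ A.nonunits) :
    PkgGlGood N A hB (algebraMap Kb (FF N) c * t - 1) := by
  have hcA : c ∈ A := A.nonunits_subset hc
  obtain ⟨hc₁, hc₂, hr₁, hr₂⟩ := pkggl_const hB ⟨c, hcA⟩
  have hres : IsLocalRing.residue A ⟨c, hcA⟩ = 0 := by
    rw [IsLocalRing.residue_eq_zero_iff, ← ValuationSubring.coe_mem_nonunits_iff]
    exact hc
  rw [hres, map_zero] at hr₁ hr₂
  have hct₁ : algebraMap Kb (FF N) c * t ∈ pkgO₁ N A := (pkgO₁ N A).mul_mem _ _ hc₁ ht₁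
  have hct₂ : algebraMap Kb (FF N) c * t ∈ pkgO₂ N A := (pkgO₂ N A).mul_mem _ _ hc₂ ht₂
  have hm₁ : algebraMap Kb (FF N) c * t - 1 ∈ pkgO₁ N A :=
    (pkgO₁ N A).toSubring.sub_mem hct₁ (pkgO₁ N A).one_mem
  have hm₂ : algebraMap Kb (FF N) c * t - 1 ∈ pkgO₂ N A :=
    (pkgO₂ N A).toSubring.sub_mem hct₂ (pkgO₂ N A).one_mem
  have hp1 : PolesAtCusps N (1 : FF N) := (pkggl_good_one hB).1
  have hpp : PolesAtCusps N (algebraMap Kb (FF N) c * t - 1) :=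
    pkgc_poles_sub (pkgc_poles_mul (pkgc_poles_const N _) htreg) hp1
  have key : (pkgTR N A hB).GluedUnit (pkgRed₁ N A hB ⟨_, hm₁⟩) (pkgRed₂ N A hB ⟨_, hm₂⟩) := by
    rw [pkggl_red₁_sub hB hct₁ (pkgO₁ N A).one_mem, pkggl_red₂_sub hB hct₂ (pkgO₂ N A).one_mem,
      pkggl_red₁_mul hB hc₁ ht₁, pkggl_red₂_mul hB hc₂ ht₂, hr₁, hr₂, zero_mul, zero_mul,
      pkggl_red₁_one, pkggl_red₂_one]
    intro x _
    exact ⟨0 - 1, by norm_num,
      pkggl_hasValueAt_sub (ln_hasValueAt_zero _) (ln_hasValueAt_one _),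
      pkggl_hasValueAt_sub (ln_hasValueAt_zero _) (ln_hasValueAt_one _)⟩
  exact ⟨hpp, hm₁, hm₂, key⟩

/-- **clearing, general coordinate**: `t ∈ B` nonconstant and regular at `P`; if the common
value of `t̄` at the crossing points is never the reduction of `t(P)`, there is a good `e` with
`e(P) = 0`. -/
theorem pkggl_clear_gen (hB : PkgBase N A) (t : FF N) (ht₁ : t ∈ pkgO₁ N A)
    (ht₂ : t ∈ pkgO₂ N A) (htreg : PolesAtCusps N t)
    (htc : ∀ a : Kb, t ≠ algebraMap Kb (FF N) a) (P : Place Kb (FF N))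
    (htP : t ∈ P.toValuationSubring)
    (h : ∀ a : A, HasValueAt P t (a : Kb) → ∀ x ∈ pkgX N A hB,
      ∃ v : kA A, v ≠ IsLocalRing.residue A a ∧
        HasValueAt x.1 (pkgRed₁ N A hB ⟨t, ht₁⟩) v ∧
          HasValueAt x.2 (pkgRed₂ N A hB ⟨t, ht₂⟩) v) :
    ∃ e : FF N, PkgGlGood N A hB e ∧ 0 < P.ord e := by
  obtain ⟨a, ha⟩ := pkgty_exists_value N P htP
  by_cases haA : a ∈ A
  · refine ⟨t - algebraMap Kb (FF N) a, pkggl_good_sub hB t ht₁ ht₂ htreg ⟨a, haA⟩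
      (h ⟨a, haA⟩ ha), ?_⟩
    have hne : t - algebraMap Kb (FF N) a ≠ 0 := sub_ne_zero.mpr (htc a)
    exact (hasValueAt_iff_ord_pos P hne).mp ha
  · have ha0 : a ≠ 0 := by
      rintro rfl
      exact haA A.zero_mem
    have hinv : a⁻¹ ∈ A.nonunits := by
      rw [ValuationSubring.mem_nonunits_iff, map_inv₀]
      have h1 : 1 < A.valuation a := by
        rw [← not_le, ValuationSubring.valuation_le_one_iff]
        exact haA
      exact inv_lt_one_of_one_lt₀ h1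
    refine ⟨algebraMap Kb (FF N) a⁻¹ * t - 1, pkggl_good_scaled hB t ht₁ ht₂ htreg a⁻¹ hinv, ?_⟩
    have hne : algebraMap Kb (FF N) a⁻¹ * t - 1 ≠ 0 := by
      intro h0
      apply htc a
      have h1 : algebraMap Kb (FF N) a⁻¹ * t = 1 := sub_eq_zero.mp h0
      have h2 : algebraMap Kb (FF N) a * (algebraMap Kb (FF N) a⁻¹ * t) = t := by
        rw [← mul_assoc, ← map_mul, mul_inv_cancel₀ ha0, map_one, one_mul]
      rw [← h2, h1, mul_one]
    have hval : HasValueAt P (algebraMap Kb (FF N) a⁻¹ * t - 1) 0 := by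
      have h1 := pkggl_hasValueAt_sub (ln_hasValueAt_mul (ln_hasValueAt_const P a⁻¹) ha)
        (ln_hasValueAt_one P)
      rwa [inv_mul_cancel₀ ha0, sub_self] at h1
    have hne' : algebraMap Kb (FF N) a⁻¹ * t - 1 - algebraMap Kb (FF N) 0 ≠ 0 := by
      rw [map_zero, sub_zero]
      exact hne
    have h3 := (hasValueAt_iff_ord_pos P hne').mp hval
    rwa [map_zero, sub_zero] at h3

/-! ## (B') the places of smooth type -/

/-- the value of `j̄` at the reduction of a place of type 1 -/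
theorem pkggl_rel_value {P : Place Kb (FF N)} {Q : Place (kA A) (FFk A)}
    (hrel : PkgRel₁ N A P Q) (a : A) (ha : HasValueAt P (jF N) (a : Kb)) :
    HasValueAt Q (pkgJbar A) (IsLocalRing.residue A a) := by
  rcases hrel.2 with ⟨a', ha', hQ⟩ | ⟨a', ha', hQ⟩
  · have e : a' = a := Subtype.ext (hasValueAt_unique P ha' ha)
    rw [← e]
    exact hQ
  · have hmul := ln_hasValueAt_mul ha ha'
    rw [mul_inv_cancel₀ (fr_jF_ne_zero (N := N))] at hmul
    have h1 : (a : Kb) * (a' : Kb) = 1 := hasValueAt_unique P hmul (ln_hasValueAt_one P)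
    have h2 : IsLocalRing.residue A a * IsLocalRing.residue A a' = 1 := by
      rw [← map_mul]
      have h3 : a * a' = 1 := Subtype.ext h1
      rw [h3, map_one]
    have hne : IsLocalRing.residue A a' ≠ 0 := right_ne_zero_of_mul_eq_one h2
    have hinv := ln_hasValueAt_inv hQ hne
    rw [inv_inv] at hinv
    have e : (IsLocalRing.residue A a')⁻¹ = IsLocalRing.residue A a :=
      (eq_inv_of_mul_eq_one_left h2).symm
    rw [e] at hinv
    exact hinv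

/-- the crossing points in terms of `S`, with the values of `j̄` and `j̄ ^ N` -/
theorem pkggl_cross_values {hB : PkgBase N A} {S : Finset (kA A)} (hG : PkgIsGoursat N A S)
    (hX : PkgGlXset hB S) (x : Place (kA A) (FFk A) × Place (kA A) (FFk A))
    (hx : x ∈ pkgX N A hB) :
    ∃ s ∈ S, HasValueAt x.1 (pkgJbar A) s ∧ HasValueAt x.2 (pkgJbar A) (s ^ N) ∧
      HasValueAt x.2 (pkgJbar A ^ N) s := by
  obtain ⟨s, hs, hv₁, hv₂⟩ := (hX x).mp (pkgcr_mem_Xset_of_mem_X hx)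
  refine ⟨s, hs, hv₁, hv₂, ?_⟩
  have h := pkggl_hasValueAt_pow hv₂ N
  have e : (s ^ N) ^ N = s := by
    rw [← pow_mul, ← pow_two]
    exact hG.frob s hs
  rwa [e] at h

theorem pkggl_jF_nonconst (a : Kb) : jF N ≠ algebraMap Kb (FF N) a := by
  intro h
  apply transcendental_jF N
  rw [h]
  exact isAlgebraic_algebraMap a

/-- **clearing at a place of type 1** -/
theorem pkggl_clear₁ (hN : N.Prime) (hA : A.LiesOverPrime N) {hB : PkgBase N A}
    {S : Finset (kA A)} (hG : PkgIsGoursat N A S) (hX : PkgGlXset hB S) (hT : PkgIsType N A)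
    (hC : PkgIsCross N A hB) (P : Place Kb (FF N)) (Q : Place (kA A) (FFk A))
    (hPQ : pkgR N A P = some (Sum.inl Q)) (hj : 0 ≤ P.ord (jF N)) :
    ∃ e : FF N, PkgGlGood N A hB e ∧ 0 < P.ord e := by
  obtain ⟨h₁, hr₁⟩ := pkg_red₁_j N A hB
  obtain ⟨h₂, hr₂⟩ := pkgpoly_red₂_j N A hB hN hA
  refine pkggl_clear_gen hB (jF N) h₁ h₂ (pkgc_poles_jF N) pkggl_jF_nonconst P
    (PlaceAux.mem_of_ord_nonneg P hj) ?_
  intro a ha x hx
  obtain ⟨s, hs, hv₁, hv₂, hv₃⟩ := pkggl_cross_values hG hX x hx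
  refine ⟨s, ?_, ?_, ?_⟩
  · intro hsa
    have hQ := pkggl_rel_value ((hT.r_inl_iff P Q).mp hPQ) a ha
    rw [← hsa] at hQ
    exact hC.cross₁ P Q hPQ x hx (hT.place_ext _ _ s hv₁ hQ)
  · rw [hr₁]
    exact hv₁
  · rw [hr₂]
    exact hv₃

theorem pkggl_red₂_jN (hB : PkgBase N A) :
    ∃ h : jdF N N dvd_rfl ∈ pkgO₂ N A, pkgRed₂ N A hB ⟨_, h⟩ = pkgJbar A := by
  obtain ⟨h, he⟩ := pkg_red₁_j N A hB
  have hw : frickeAut N (jdF N N dvd_rfl) = jF N := by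
    rw [← frickeAut_jF, frickeAut_frickeAut]
  have h2 : jdF N N dvd_rfl ∈ pkgO₂ N A := by
    rw [mem_pkgO₂, hw]
    exact h
  refine ⟨h2, ?_⟩
  have h3 : pkgSwap N A ⟨jdF N N dvd_rfl, h2⟩ = ⟨jF N, h⟩ :=
    Subtype.ext ((coe_pkgSwap N A _).trans hw)
  show pkgRed₁ N A hB (pkgSwap N A ⟨jdF N N dvd_rfl, h2⟩) = _
  rw [h3, he]

theorem pkggl_jN_nonconst (a : Kb) : jdF N N dvd_rfl ≠ algebraMap Kb (FF N) a := by
  intro h
  apply pkggl_jF_nonconst (N := N) a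
  have h1 := congrArg (frickeAut N) h
  rw [AlgEquiv.commutes, ← frickeAut_jF, frickeAut_frickeAut] at h1
  exact h1

/-- **clearing at a place of type 2** -/
theorem pkggl_clear₂ (hN : N.Prime) (hA : A.LiesOverPrime N) {hB : PkgBase N A}
    {S : Finset (kA A)} (hG : PkgIsGoursat N A S) (hX : PkgGlXset hB S) (hT : PkgIsType N A)
    (hC : PkgIsCross N A hB) (P : Place Kb (FF N)) (Q : Place (kA A) (FFk A))
    (hPQ : pkgR N A P = some (Sum.inr Q)) (hj : 0 ≤ P.ord (jF N)) :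
    ∃ e : FF N, PkgGlGood N A hB e ∧ 0 < P.ord e := by
  obtain ⟨h₁, hr₁⟩ := pkg_red₁_jN N A hB hN hA
  obtain ⟨h₂, hr₂⟩ := pkggl_red₂_jN hB
  have hjP : jF N ∈ P.toValuationSubring := PlaceAux.mem_of_ord_nonneg P hj
  refine pkggl_clear_gen hB (jdF N N dvd_rfl) h₁ h₂ (pkgc_poles_jN N) pkggl_jN_nonconst P
    (fr_jdF_mem P.toValuationSubring hjP N dvd_rfl) ?_
  intro b hb x hx
  obtain ⟨s, hs, hv₁, hv₂, -⟩ := pkggl_cross_values hG hX x hx
  refine ⟨s ^ N, ?_, ?_, ?_⟩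
  · intro hsb
    have hrel : PkgRel₁ N A (frickeAut N • P) Q := (hT.r_inr_iff P Q).mp hPQ
    have hb' : HasValueAt (frickeAut N • P) (jF N) (b : Kb) := by
      rw [pkgty_hasValueAt_fricke, frickeAut_jF]
      exact hb
    have hQ := pkggl_rel_value hrel b hb'
    rw [← hsb] at hQ
    exact hC.cross₂ P Q hPQ x hx (hT.place_ext _ _ (s ^ N) hv₂ hQ)
  · rw [hr₁]
    exact pkggl_hasValueAt_pow hv₁ N
  · rw [hr₂]
    exact hv₂

/-- **(B)**: clearing at a place of smooth type at which `j` is regular -/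
theorem pkggl_clear (hN : N.Prime) (hA : A.LiesOverPrime N) {hB : PkgBase N A}
    {S : Finset (kA A)} (hG : PkgIsGoursat N A S) (hX : PkgGlXset hB S) (hT : PkgIsType N A)
    (hC : PkgIsCross N A hB) (P : Place Kb (FF N)) (hP : (pkgR N A P).isSome)
    (hj : 0 ≤ P.ord (jF N)) :
    ∃ e : FF N, PkgGlGood N A hB e ∧ 0 < P.ord e := by
  obtain ⟨y, hy⟩ := Option.isSome_iff_exists.mp hP
  rcases y with Q | Q
  · exact pkggl_clear₁ hN hA hG hX hT hC P Q hy hj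
  · exact pkggl_clear₂ hN hA hG hX hT hC P Q hy hj

/-! ## (C) clearing all poles -/

theorem pkggl_ne_zero_of_ord_pos {P : Place Kb (FF N)} {e : FF N} (h : 0 < P.ord e) : e ≠ 0 := by
  rintro rfl
  rw [Place.ord_zero] at h
  exact lt_irrefl _ h

/-- a good element vanishing to prescribed orders at finitely many places of smooth type -/
theorem pkggl_clear_all {hB : PkgBase N A}
    (hclear : ∀ P : Place Kb (FF N), (pkgR N A P).isSome → 0 ≤ P.ord (jF N) →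
      ∃ e : FF N, PkgGlGood N A hB e ∧ 0 < P.ord e)
    (n : Place Kb (FF N) → ℕ) (T : Finset (Place Kb (FF N)))
    (hT : ∀ P ∈ T, (pkgR N A P).isSome ∧ 0 ≤ P.ord (jF N)) :
    ∃ E : FF N, PkgGlGood N A hB E ∧ E ≠ 0 ∧ ∀ P ∈ T, (n P : ℤ) ≤ P.ord E := by
  classical
  induction T using Finset.induction_on with
  | empty =>
    exact ⟨1, pkggl_good_one hB, one_ne_zero, fun P hP => absurd hP (Finset.notMem_empty P)⟩
  | insert P T hPT ih =>
    obtain ⟨E', hE', hE'0, hE'ord⟩ := ih fun P' hP' => hT P' (Finset.mem_insert_of_mem hP')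
    obtain ⟨hPs, hPj⟩ := hT P (Finset.mem_insert_self P T)
    obtain ⟨e, he, heord⟩ := hclear P hPs hPj
    have he0 : e ≠ 0 := pkggl_ne_zero_of_ord_pos heord
    have hpow0 : e ^ n P ≠ 0 := pow_ne_zero _ he0
    refine ⟨e ^ n P * E', pkggl_good_mul (pkggl_good_pow he _) hE', mul_ne_zero hpow0 hE'0, ?_⟩
    intro P' hP'
    rw [Place.ord_mul P' hpow0 hE'0, pkggl_ord_pow]
    rcases Finset.mem_insert.mp hP' with rfl | hP'T
    · have h1 : 0 ≤ P'.ord E' := hE'.1 P' hPj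
      have h2 : (n P' : ℤ) * 1 ≤ (n P' : ℤ) * P'.ord e :=
        mul_le_mul_of_nonneg_left heord (Int.natCast_nonneg _)
      omega
    · have h1 : 0 ≤ P'.ord e := he.1 P' (hT P' hP').2
      have h2 : 0 ≤ (n P : ℤ) * P'.ord e := mul_nonneg (Int.natCast_nonneg _) h1
      have h3 := hE'ord P' hP'T
      omega

theorem pkggl_red₁_zero (hB : PkgBase N A) :
    pkgRed₁ N A hB ⟨0, (pkgO₁ N A).zero_mem⟩ = 0 := by
  have h1 : (⟨0, (pkgO₁ N A).zero_mem⟩ : pkgO₁ N A) = 0 := rfl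
  rw [h1, map_zero]

theorem pkggl_red₂_zero (hB : PkgBase N A) :
    pkgRed₂ N A hB ⟨0, (pkgO₂ N A).zero_mem⟩ = 0 := by
  have h1 : (⟨0, (pkgO₂ N A).zero_mem⟩ : pkgO₂ N A) = 0 := rfl
  rw [h1, map_zero]

/-- **(C)**: a function of both Gauss rings whose poles are places of smooth type is glued. -/
theorem pkggl_glue_of_clear {hB : PkgBase N A}
    (hglB : ∀ (f : FF N) (h₁ : f ∈ pkgO₁ N A) (h₂ : f ∈ pkgO₂ N A), PolesAtCusps N f →
      (pkgTR N A hB).Glued (pkgRed₁ N A hB ⟨f, h₁⟩) (pkgRed₂ N A hB ⟨f, h₂⟩))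
    (hclear : ∀ P : Place Kb (FF N), (pkgR N A P).isSome → 0 ≤ P.ord (jF N) →
      ∃ e : FF N, PkgGlGood N A hB e ∧ 0 < P.ord e)
    (u : FF N) (h₁ : u ∈ pkgO₁ N A) (h₂ : u ∈ pkgO₂ N A)
    (hu : ∀ P : Place Kb (FF N), P.ord u < 0 → (pkgR N A P).isSome) :
    (pkgTR N A hB).Glued (pkgRed₁ N A hB ⟨u, h₁⟩) (pkgRed₂ N A hB ⟨u, h₂⟩) := by
  classical
  rcases eq_or_ne u 0 with rfl | hu0
  · rw [pkggl_red₁_zero, pkggl_red₂_zero]
    exact ln_glued_zero _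
  obtain ⟨D, hD, -⟩ := (Fermat.Agent.ES.H.hasPrincipalDivisors_FF N).exists_divisor u hu0
  obtain ⟨E, hE, hE0, hEord⟩ := pkggl_clear_all hclear (fun P => (-P.ord u).toNat)
    (D.support.filter fun P => P.ord u < 0 ∧ 0 ≤ P.ord (jF N)) (by
      intro P hP
      obtain ⟨-, hP1, hP2⟩ := Finset.mem_filter.mp hP
      exact ⟨hu P hP1, hP2⟩)
  obtain ⟨hEp, hE₁, hE₂, hEg⟩ := hE
  have hf₁ : u * E ∈ pkgO₁ N A := (pkgO₁ N A).mul_mem _ _ h₁ hE₁
  have hf₂ : u * E ∈ pkgO₂ N A := (pkgO₂ N A).mul_mem _ _ h₂ hE₂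
  have hfp : PolesAtCusps N (u * E) := by
    intro P hPj
    rw [Place.ord_mul P hu0 hE0]
    have h1 : 0 ≤ P.ord E := hEp P hPj
    by_cases hneg : P.ord u < 0
    · have hmem : P ∈ D.support.filter fun P => P.ord u < 0 ∧ 0 ≤ P.ord (jF N) := by
        refine Finset.mem_filter.mpr ⟨?_, hneg, hPj⟩
        rw [Finsupp.mem_support_iff, hD]
        exact ne_of_lt hneg
      have h2 := hEord P hmem
      have h3 : ((-P.ord u).toNat : ℤ) = -P.ord u := Int.toNat_of_nonneg (by omega)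
      omega
    · omega
  have hgl := hglB (u * E) hf₁ hf₂ hfp
  rw [pkggl_red₁_mul hB h₁ hE₁, pkggl_red₂_mul hB h₂ hE₂] at hgl
  intro x hx
  obtain ⟨a, ha₁, ha₂⟩ := hgl x hx
  obtain ⟨c, hc, hc₁, hc₂⟩ := hEg x hx
  exact ⟨a * c⁻¹, pkggl_hasValueAt_of_mul ha₁ hc₁ hc, pkggl_hasValueAt_of_mul ha₂ hc₂ hc⟩

/-- **PKG-glue** at `(N, A, hB)` -/
theorem pkggl_glue (hN : N.Prime) (hA : A.LiesOverPrime N) {hB : PkgBase N A}
    {S : Finset (kA A)} (hPoly : PkgGlPoly hB) (hG : PkgIsGoursat N A S) (hX : PkgGlXset hB S)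
    (hT : PkgIsType N A) (hC : PkgIsCross N A hB) (u : FF N) (h₁ : u ∈ pkgO₁ N A)
    (h₂ : u ∈ pkgO₂ N A) (hu : ∀ P : Place Kb (FF N), P.ord u < 0 → (pkgR N A P).isSome) :
    (pkgTR N A hB).Glued (pkgRed₁ N A hB ⟨u, h₁⟩) (pkgRed₂ N A hB ⟨u, h₂⟩) :=
  pkggl_glue_of_clear (pkggl_glued_B hPoly hG hX) (pkggl_clear hN hA hG hX hT hC) u h₁ h₂ hu

/-- **PKG-glue**, from PKG-poly, the Goursat description of `red(B)` with the description of
the crossing set, PKG-type and PKG-cross. -/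
theorem stmtPkgGlue_of (hPoly : StmtPkgPoly)
    (hGou : ∀ (N : ℕ) [NeZero N], N.Prime → 5 ≤ N → ∀ A : ValuationSubring Kb,
      A.LiesOverPrime N → ∃ S : Finset (kA A), PkgIsGoursat N A S)
    (hXs : StmtPkgXset) (hT : StmtPkgType) (hC : StmtPkgCross) : StmtPkgGlue := by
  intro N _ hN h5 A hA hB u h₁ h₂ hu
  obtain ⟨S, hG⟩ := hGou N hN h5 A hA
  exact pkggl_glue hN hA (fun f h₁ h₂ hreg => hPoly N hN h5 A hA hB f h₁ h₂ hreg) hG
    (hXs N hN h5 A hA hB S hG) (hT N hN h5 A hA) (hC N hN h5 A hA hB) u h₁ h₂ hu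

end Fermat.Agent.S15.LN
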