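import Fermat.Agent.S15.PkgGlueFinal
import Fermat.Agent.S15.PkgEvFinal

/-!
# S15 / LOCAL-N / LN-PKG, piece PKG-glue (helper13): the statement, unconditional

`pkggl_stmtPkgGlue : StmtPkgGlue` from `stmtPkgGlue_of_ev` (`PkgGlueFinal.lean`) and `stmtPkgEv`
(helper72, `PkgEvFinal.lean`).
-/

set_option autoImplicit false

namespace Fermat.Agent.S15.LN

/-- **PKG-glue** -/
theorem pkggl_stmtPkgGlue : StmtPkgGlue := stmtPkgGlue_of_ev stmtPkgEv

end Fermat.Agent.S15.LN
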