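import Mathlib

/-!
# S15 / LN-PKG, piece PKG-minh, generic algebra (helper52)

* `pkgmh_prod_small` : if all the `r i` lie in `c · S` (`S` a subring, `c ∈ S`), then
  `∏ i ∈ s, (X - C (r i)) = X ^ #s + C c * G` with `G ∈ S[X]`;
* `pkgmh_prod_option` : for a family indexed by `Option κ` whose members `r (some b)` lie in
  `c · S` and `r none ∈ S`:
  `∏ i, (X - C (r i)) = X ^ (#κ + 1) - C (r none) * X ^ #κ + C c * G`, `G ∈ S[X]`;
* `pkgmh_coeff_lt`, `pkgmh_coeff_eq` : the coefficients of such a product;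
* `pkgmh_adjoin_pair_eq_top` : `F⟮t⟯⟮u⟯ = ⊤` gives `F⟮t, u⟯ = ⊤`.
-/

set_option autoImplicit false
set_option linter.unusedSectionVars false
set_option linter.unusedVariables false

noncomputable section

namespace Fermat.Agent.S15.LN

open Polynomial

section Prod

variable {E : Type*} [CommRing E] (S : Subring E)

theorem pkgmh_prod_small {c : E} (hc : c ∈ S) {κ : Type*} (s : Finset κ) (r : κ → E)
    (hr : ∀ i ∈ s, ∃ a ∈ S, r i = c * a) :
    ∃ G : (↥S)[X], ∏ i ∈ s, (X - C (r i)) = X ^ s.card + C c * G.map S.subtype := by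
  classical
  induction s using Finset.induction_on with
  | empty => exact ⟨0, by simp⟩
  | insert a s ha ih =>
    obtain ⟨G, hG⟩ := ih fun i hi => hr i (Finset.mem_insert_of_mem hi)
    obtain ⟨a', ha', hra⟩ := hr a (Finset.mem_insert_self a s)
    refine ⟨X * G - C ⟨a', ha'⟩ * X ^ s.card - C (⟨c, hc⟩ * ⟨a', ha'⟩) * G, ?_⟩
    rw [Finset.prod_insert ha, hG, Finset.card_insert_of_notMem ha, hra]
    simp only [Polynomial.map_sub, Polynomial.map_mul, Polynomial.map_X, Polynomial.map_C,
      Polynomial.map_pow, map_mul, Subring.coe_subtype]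
    ring

theorem pkgmh_prod_option {c : E} (hc : c ∈ S) {κ : Type*} [Fintype κ] (r : Option κ → E)
    (h0 : r none ∈ S) (hr : ∀ b, ∃ a ∈ S, r (some b) = c * a) :
    ∃ G : (↥S)[X], ∏ i, (X - C (r i)) =
      X ^ (Fintype.card κ + 1) - C (r none) * X ^ Fintype.card κ + C c * G.map S.subtype := by
  classical
  obtain ⟨G, hG⟩ := pkgmh_prod_small S hc (Finset.univ : Finset κ) (fun b => r (some b))
    fun b _ => hr b
  refine ⟨(X - C ⟨r none, h0⟩) * G, ?_⟩
  rw [Fintype.prod_option, hG, Finset.card_univ]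
  simp only [Polynomial.map_sub, Polynomial.map_mul, Polynomial.map_X, Polynomial.map_C,
    Subring.coe_subtype]
  ring

/-- the low coefficients of the product lie in `c · S` -/
theorem pkgmh_coeff_lt {c : E} (hc : c ∈ S) {κ : Type*} [Fintype κ] (r : Option κ → E)
    (h0 : r none ∈ S) (hr : ∀ b, ∃ a ∈ S, r (some b) = c * a) (n : ℕ)
    (hn : n < Fintype.card κ) :
    ∃ a ∈ S, (∏ i, (X - C (r i))).coeff n = c * a := by
  obtain ⟨G, hG⟩ := pkgmh_prod_option S hc r h0 hr
  refine ⟨(G.coeff n : E), (G.coeff n).2, ?_⟩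
  rw [hG, Polynomial.coeff_add, Polynomial.coeff_sub, Polynomial.coeff_X_pow,
    Polynomial.coeff_C_mul, Polynomial.coeff_X_pow, Polynomial.coeff_C_mul,
    Polynomial.coeff_map, if_neg (by omega), if_neg (by omega)]
  simp

/-- the coefficient of index `#κ` is `- r none` modulo `c · S` -/
theorem pkgmh_coeff_eq {c : E} (hc : c ∈ S) {κ : Type*} [Fintype κ] (r : Option κ → E)
    (h0 : r none ∈ S) (hr : ∀ b, ∃ a ∈ S, r (some b) = c * a) :
    ∃ a ∈ S, (∏ i, (X - C (r i))).coeff (Fintype.card κ) + r none = c * a := by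
  obtain ⟨G, hG⟩ := pkgmh_prod_option S hc r h0 hr
  refine ⟨(G.coeff (Fintype.card κ) : E), (G.coeff _).2, ?_⟩
  rw [hG, Polynomial.coeff_add, Polynomial.coeff_sub, Polynomial.coeff_X_pow,
    Polynomial.coeff_C_mul, Polynomial.coeff_X_pow, Polynomial.coeff_C_mul,
    Polynomial.coeff_map, if_neg (by omega), if_pos rfl]
  simp

theorem pkgmh_natDegree_prod [Nontrivial E] {ι : Type*} [Fintype ι] (r : ι → E) :
    (∏ i, (X - C (r i))).natDegree = Fintype.card ι := by
  rw [Polynomial.natDegree_prod_of_monic _ _ fun i _ => Polynomial.monic_X_sub_C (r i)]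
  simp

end Prod

section Adjoin

variable {F L : Type*} [Field F] [Field L] [Algebra F L]

open IntermediateField

/-- `F⟮t⟯⟮u⟯ = ⊤` gives `F⟮t, u⟯ = ⊤` -/
theorem pkgmh_adjoin_pair_eq_top (t u : L) (h : (F⟮t⟯)⟮u⟯ = ⊤) :
    IntermediateField.adjoin F {t, u} = ⊤ := by
  have h1 := IntermediateField.adjoin_adjoin_left F ({t} : Set L) ({u} : Set L)
  rw [h, IntermediateField.restrictScalars_top] at h1
  rw [h1]
  congr 1

/-- a generator: the degree of the minimal polynomial is the degree of the extension -/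
theorem pkgmh_adjoin_eq_top_of_natDegree [FiniteDimensional F L] (u : L)
    (h : (minpoly F u).natDegree = Module.finrank F L) : F⟮u⟯ = ⊤ :=
  (Field.primitive_element_iff_minpoly_natDegree_eq F u).2 h

end Adjoin

end Fermat.Agent.S15.LN
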