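import Fermat.Agent.S15.PkgMinHRed

/-!
# S15 / LN-PKG, piece PKG-minh, part 3: the abstract form (helper52)

`pkgmh_isMin` : for a coordinate `t` (`PkgtvCoord`) with `t ∈ pkgO₁` and a function `u`,
regular wherever `t` is, with `u ∈ pkgO₁`, `w_N u = c₀ · v`, `c₀ ∈ 𝔪_A ∖ {0}`, `v` integral and
`ord_q (w_N u)` prime to `N`:  `PkgIsMin N A hB t t̄ u`.
-/

set_option autoImplicit false
set_option linter.unusedSectionVars false
set_option linter.unusedVariables false
set_option linter.style.haveILetI false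

noncomputable section

namespace Fermat.Agent.S15.LN

open ModularCurve AlgebraicCurve Polynomial IntermediateField
open Fermat.Agent.ES Fermat.Agent.ES.M Fermat.Agent.ES.G2 Fermat.Agent.S24 Fermat.Agent.ES.LR
  Fermat.Agent.DEU Fermat.Agent.W1 Fermat.Agent.S15 Fermat.Agent.INJ

variable (N : ℕ) [NeZero N] (A : ValuationSubring Kb)

/-- a polynomial all of whose coefficients have their coefficients in `A` comes from
`A[X][X]` -/
theorem pkgmh_lift (μ : Kb[X][X]) (hμ : μ.Monic) (h : ∀ n k, (μ.coeff n).coeff k ∈ A) :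
    ∃ m : (↥A)[X][X], m.map (Polynomial.mapRingHom A.subtype) = μ ∧ m.Monic ∧
      m.natDegree = μ.natDegree := by
  have h1 : μ ∈ Polynomial.lifts (Polynomial.mapRingHom A.subtype) := by
    rw [Polynomial.lifts_iff_coeff_lifts]
    intro n
    have h2 : μ.coeff n ∈ Polynomial.lifts A.subtype := by
      rw [Polynomial.lifts_iff_coeff_lifts]
      intro k
      exact ⟨⟨_, h n k⟩, rfl⟩
    rw [Polynomial.mem_lifts] at h2
    obtain ⟨q, hq⟩ := h2
    exact ⟨q, hq⟩
  obtain ⟨m, hm, hdeg, hmon⟩ := Polynomial.lifts_and_degree_eq_and_monic h1 hμ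
  exact ⟨m, hm, hmon, Polynomial.natDegree_eq_of_degree_eq hdeg⟩

theorem pkgmh_residue_eq_zero {c₀ : Kb} (hc₀ : c₀ ∈ A.nonunits) (x : A) (a : Kb) (ha : a ∈ A)
    (hx : (x : Kb) = c₀ * a) : IsLocalRing.residue A x = 0 := by
  rw [IsLocalRing.residue_eq_zero_iff, ← ValuationSubring.coe_mem_nonunits_iff, hx]
  rw [ValuationSubring.mem_nonunits_iff] at hc₀ ⊢
  rw [map_mul]
  exact mul_lt_one_of_nonneg_of_lt_one_left zero_le hc₀ ((A.valuation_le_one_iff a).2 ha)

section Main

variable (hN : N.Prime) (hA : Arch A) (hB : PkgBase N A) (t : FF N)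
  (ht : PkgtvCoord N A t) (ht₁ : t ∈ pkgO₁ N A)
  (u : FF N) (hreg : ∀ P : Place Kb (FF N), 0 ≤ P.ord t → 0 ≤ P.ord u)
  (hu₁ : u ∈ pkgO₁ N A)
  {c₀ : Kb} (hc₀ : c₀ ∈ A.nonunits) (hc₀' : c₀ ≠ 0) (v : LaurentSeries Kb) (hv : KronInt A v)
  (huv : ((frickeAut N u : FF N) : LaurentSeries Kb) = HahnSeries.C c₀ * v)
  (hord : ¬ (N : ℤ) ∣ ((frickeAut N u : FF N) : LaurentSeries Kb).order)

include hN hA hB ht ht₁ hreg hu₁ hc₀ hc₀' hv huv hord in
/-- **PKG-minh, abstract form** -/
theorem pkgmh_isMin : PkgIsMin N A hB t (pkgRed₁ N A hB ⟨t, ht₁⟩) u := by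
  letI := polyAlgebra (K := Kb) t
  letI := polyAlgebraAdjoin (K := Kb) t
  haveI := polyAlgebraAdjoin_tower (K := Kb) t
  haveI hfin : FiniteDimensional Kb⟮t⟯ (FF N) :=
    FiniteDimensional.of_finrank_pos (by rw [ht.finrank]; omega)
  have hc₀A : c₀ ∈ A := A.nonunits_subset hc₀
  have hint : IsIntegral Kb[X] u := pkgtv_isIntegral N t ht.transc u hreg
  -- integrality of the expansions
  have hK₁ : KronInt A (u : LaurentSeries Kb) := by
    obtain ⟨p, hp, hpz⟩ := hint
    exact pkgtv_kronInt_gen N A hA _ ht.int₁ u p hp (pkgtv_eval₂_coe N t u p hpz) hu₁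
  have hK₂ : KronInt A ((frickeAut N u : FF N) : LaurentSeries Kb) := by
    rw [huv]
    exact (kronInt_C hc₀A).mul hv
  obtain ⟨ζ, hζ⟩ := pkgtv_exists_primitiveRoot N (NeZero.ne N)
  have hinj := pkgmh_fam_injective N hN ζ hζ u (pkgmh_fricke_ne_zero N u hord) hord
  have hgen := pkgmh_gen N hN ζ hζ t (ht.fam ζ hζ.pow_eq_one) ht.finrank u hinj
  -- the minimal polynomial over `ℚ̄[t]`
  set μ : Kb[X][X] := minpoly Kb[X] u with hμ
  have hμmon : μ.Monic := minpoly.monic hint
  have hμdeg : μ.natDegree = N + 1 := by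
    have h1 := pkgmh_natDegree N hN ζ hζ t (ht.fam ζ hζ.pow_eq_one) ht.finrank u hinj
    rw [pkgtv_minpoly_eq N t ht.transc u hint, hμmon.natDegree_map] at h1
    exact h1
  have hcoefA : ∀ n k, (μ.coeff n).coeff k ∈ A := fun n k =>
    ht.coeff _ (pkgtv_minpoly_kronInt N hN A t ht.transc ht.fam ht.finrank u hint hK₁ hK₂ n) k
  obtain ⟨m, hm, hmmon, hmdeg⟩ := pkgmh_lift A μ hμmon hcoefA
  rw [hμdeg] at hmdeg
  have hmcoef : ∀ n, (m.coeff n).map A.subtype = μ.coeff n := by
    intro n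
    rw [← hm, Polynomial.coeff_map]
    rfl
  refine ⟨hgen, m, -((m.coeff N).map (IsLocalRing.residue A)), hmmon, ?_, ?_, ?_⟩
  · -- `m(t, u) = 0`
    show pkgEv₂ Kb (FF N) t u (m.map (Polynomial.mapRingHom A.subtype)) = 0
    rw [hm]
    exact minpoly.aeval Kb[X] u
  · -- the reduction of `u`
    refine ⟨hu₁, ?_⟩
    obtain ⟨hpm, hpred⟩ := pkgmh_red_aeval N A hB t ht₁ (m.coeff N)
    rw [map_neg, ← hpred]
    -- `x = p(t) + u` is `c₀ ·` integral
    have htop := pkgmh_coeff_top N hN A t ht u hint hK₁ hc₀A hc₀' v hv huv hord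
    set y : FF N := algebraMap Kb (FF N) c₀⁻¹ *
      (Polynomial.aeval t ((m.coeff N).map A.subtype) + u) with hy
    have hyK : KronInt A (y : LaurentSeries Kb) := by
      rw [hy, pkgmh_coe_mul, pkgtv_coe_algebraMap, pkgmh_coe_add, pkgmh_coe_aeval, hmcoef]
      exact htop
    have hyO : y ∈ pkgO₁ N A := pkgmh_mem_of_kronInt N A y hyK
    have hcO : algebraMap Kb (FF N) c₀ ∈ pkgO₁ N A :=
      (pkg_algebraMap_mem_iff₁ N A hB c₀).mpr hc₀A
    have hsum : (⟨Polynomial.aeval t ((m.coeff N).map A.subtype), hpm⟩ : ↥(pkgO₁ N A)) +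
        ⟨u, hu₁⟩ = ⟨algebraMap Kb (FF N) c₀, hcO⟩ * ⟨y, hyO⟩ := by
      apply Subtype.ext
      show Polynomial.aeval t ((m.coeff N).map A.subtype) + u = algebraMap Kb (FF N) c₀ * y
      rw [hy, ← mul_assoc, ← map_mul, mul_inv_cancel₀ hc₀', map_one, one_mul]
    have hred0 : pkgRed₁ N A hB ⟨algebraMap Kb (FF N) c₀, hcO⟩ = 0 := by
      have h1 := pkg_red₁_algebraMap N A hB ⟨c₀, hc₀A⟩ hcO
      rw [h1, pkgmh_residue_eq_zero A hc₀ ⟨c₀, hc₀A⟩ 1 A.one_mem (by simp), map_zero]
    have h2 := congrArg (pkgRed₁ N A hB) hsum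
    rw [map_add, map_mul, hred0, zero_mul] at h2
    exact eq_neg_of_add_eq_zero_right h2
  · -- the reduction of `m`
    ext n : 1
    rw [Polynomial.coeff_map]
    have hrhs : ((X - C (-((m.coeff N).map (IsLocalRing.residue A)))) * X ^ N :
        (kA A)[X][X]).coeff n =
        (if n = N + 1 then 1 else 0) + (if n = N then (m.coeff N).map (IsLocalRing.residue A)
          else 0) := by
      rw [sub_mul, ← pow_succ', Polynomial.coeff_sub, Polynomial.coeff_X_pow,
        Polynomial.coeff_C_mul, Polynomial.coeff_X_pow]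
      split_ifs <;> simp
    rw [hrhs]
    rcases lt_trichotomy n N with hn | hn | hn
    · rw [if_neg (by omega), if_neg (by omega), add_zero]
      ext k
      rw [Polynomial.coe_mapRingHom, Polynomial.coeff_map, Polynomial.coeff_zero]
      obtain ⟨a, ha, hak⟩ := pkgmh_coeff_small N hN A t ht u hint hK₁ hc₀A hc₀' v hv huv hord
        n hn k
      refine pkgmh_residue_eq_zero A hc₀ _ a ha ?_
      rw [← hak, ← hmcoef n, Polynomial.coeff_map]
      rfl
    · subst hn
      rw [if_neg (by omega), if_pos rfl, zero_add]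
      rfl
    · rcases eq_or_lt_of_le (Nat.succ_le_of_lt hn) with h1 | h1
      · have h2 : n = N + 1 := h1.symm
        subst h2
        rw [if_pos rfl, if_neg (by omega), add_zero]
        have h3 : m.coeff (N + 1) = 1 := by
          have := hmmon.coeff_natDegree
          rwa [hmdeg] at this
        rw [h3, map_one]
      · rw [if_neg (by omega), if_neg (by omega), add_zero,
          Polynomial.coeff_eq_zero_of_natDegree_lt (by rw [hmdeg]; exact h1), map_zero]

end Main

end Fermat.Agent.S15.LN
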