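import Fermat.Agent.S15.PkgMinHConj
import Fermat.Agent.S15.PkgUniqPlan
import Fermat.Agent.S15.PkgVal

/-!
# S15 / LN-PKG, piece PKG-minh, part 2: reductions (helper52)

* `pkgmh_mem_of_kronInt` : an element of `F_N` with `A`-integral `q`-expansion lies in the Gauss
  ring `pkgO₁`;
* `pkgmh_red_aeval` : the reduction of `p(t)`, `p ∈ A[X]`, is `p̄(t̄)`;
* `pkgmh_isMin` : **the abstract form of PKG-minh** for a coordinate `t` and a function `u` with
  `w_N u = c₀ · v`, `c₀ ∈ 𝔪_A`, `v` integral, `ord_q (w_N u)` prime to `N`.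
-/

set_option autoImplicit false
set_option linter.unusedSectionVars false
set_option linter.unusedVariables false
set_option linter.style.haveILetI false

noncomputable section

namespace Fermat.Agent.S15.LN

open ModularCurve AlgebraicCurve Polynomial IntermediateField
open Fermat.Agent.ES Fermat.Agent.ES.M Fermat.Agent.ES.G2 Fermat.Agent.S24 Fermat.Agent.ES.LR
  Fermat.Agent.DEU Fermat.Agent.W1 Fermat.Agent.S15 Fermat.Agent.INJ

variable (N : ℕ) [NeZero N] (A : ValuationSubring Kb)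

/-! ### Integral expansions -/

theorem pkgmh_gaussRed_of_lift (x : FF N) (Y : LaurentSeries A)
    (hx : kronIncl A Y = (x : LaurentSeries Kb)) : GaussRed N A x (kronRed A Y) := by
  refine ⟨Y, 1, ?_, ?_, ?_, ?_, ?_⟩
  · rw [hx]; exact x.2
  · rw [map_one]; exact one_mem _
  · rw [map_one]; exact one_ne_zero
  · rw [map_one, mul_one, hx]
  · rw [map_one, mul_one]

theorem pkgmh_mem_of_kronInt (x : FF N) (hx : KronInt A (x : LaurentSeries Kb)) :
    x ∈ pkgO₁ N A := by
  obtain ⟨Y, hY⟩ := hx.exists_lift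
  exact ⟨_, pkgmh_gaussRed_of_lift N A x Y hY⟩

theorem pkgmh_coe_mul (x y : FF N) :
    ((x * y : FF N) : LaurentSeries Kb) = (x : LaurentSeries Kb) * (y : LaurentSeries Kb) := rfl

theorem pkgmh_coe_add (x y : FF N) :
    ((x + y : FF N) : LaurentSeries Kb) = (x : LaurentSeries Kb) + (y : LaurentSeries Kb) := rfl

theorem pkgmh_coe_pow (x : FF N) (n : ℕ) :
    ((x ^ n : FF N) : LaurentSeries Kb) = (x : LaurentSeries Kb) ^ n := rfl

theorem pkgmh_coe_aeval (t : FF N) (d : Kb[X]) :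
    ((Polynomial.aeval t d : FF N) : LaurentSeries Kb) =
      Polynomial.aeval (t : LaurentSeries Kb) d := by
  have h := Polynomial.aeval_algHom_apply (modularFunctionFieldBar N).val t d
  exact h.symm

/-! ### The reduction of a polynomial in `t` -/

section Red

variable (hB : PkgBase N A)

/-- `A → pkgO₁` -/
def pkgmhConst : ↥A →+* ↥(pkgO₁ N A) :=
  ((algebraMap Kb (FF N)).comp A.subtype).codRestrict (pkgO₁ N A).toSubring fun a =>
    (pkg_algebraMap_mem_iff₁ N A hB (a : Kb)).mpr a.2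

theorem coe_pkgmhConst (a : A) :
    ((pkgmhConst N A hB a : ↥(pkgO₁ N A)) : FF N) = algebraMap Kb (FF N) (a : Kb) := rfl

theorem pkgmh_red_const (a : A) :
    pkgRed₁ N A hB (pkgmhConst N A hB a) =
      algebraMap (kA A) (FFk A) (IsLocalRing.residue A a) :=
  pkg_red₁_algebraMap N A hB a _

/-- **the reduction of `p(t)`, `p ∈ A[X]`, is `p̄(t̄)`** -/
theorem pkgmh_red_aeval (t : FF N) (ht₁ : t ∈ pkgO₁ N A) (p : (↥A)[X]) :
    ∃ h : Polynomial.aeval t (p.map A.subtype) ∈ pkgO₁ N A,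
      pkgRed₁ N A hB ⟨_, h⟩ =
        Polynomial.aeval (pkgRed₁ N A hB ⟨t, ht₁⟩) (p.map (IsLocalRing.residue A)) := by
  set y : ↥(pkgO₁ N A) := Polynomial.eval₂ (pkgmhConst N A hB) ⟨t, ht₁⟩ p with hy
  have h1 : (y : FF N) = Polynomial.aeval t (p.map A.subtype) := by
    have h := Polynomial.hom_eval₂ p (pkgmhConst N A hB) (pkgO₁ N A).subtype ⟨t, ht₁⟩
    rw [Polynomial.aeval_def, Polynomial.eval₂_map]
    exact h
  have h2 : pkgRed₁ N A hB y =
      Polynomial.aeval (pkgRed₁ N A hB ⟨t, ht₁⟩) (p.map (IsLocalRing.residue A)) := by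
    have h := Polynomial.hom_eval₂ p (pkgmhConst N A hB) (pkgRed₁ N A hB) ⟨t, ht₁⟩
    rw [Polynomial.aeval_def, Polynomial.eval₂_map, hy, h]
    congr 1
    exact RingHom.ext fun a => pkgmh_red_const N A hB a
  refine ⟨h1 ▸ y.2, ?_⟩
  rw [← h2]
  congr 1
  exact Subtype.ext h1.symm

end Red

end Fermat.Agent.S15.LN
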