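import Fermat.Agent.S15.PkgSimple
import Fermat.Agent.S15.PkgType

/-!
# S15 / LN-PKG: uniformizers of the rational function field `k(t)` (helper25)

`t - a` is a uniformizer at the place `t = a` of `k(t)` (a corollary of `stmtPkgSimple` for the
relation `T - X`).  For the consumers of PKG-uniq (PKG-rdiv): `ord_Q (j̄ - a) = 1`.
-/

set_option autoImplicit false
set_option linter.unusedSectionVars false

noncomputable section

open AlgebraicCurve Module ModularCurve Polynomial

namespace Fermat.Agent.S15.LN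

open Fermat.Agent.W1 Fermat.Agent.S24 Fermat.Agent.S15 Fermat.Agent.ES.M Fermat.Agent.DEU
  Fermat.Agent.INJ

section Gen

variable {k F : Type} [Field k] [Field F] [Algebra k F] {t : F}

/-- `t - a` is a uniformizer at the place `t = a` of `k(t)` -/
theorem pkgrp_ord_sub (ht : PkgIsCoord k t) {Q : Place k F} {a : k} (hQ : HasValueAt Q t a) :
    Q.ord (t - algebraMap k F a) = 1 := by
  have hgen : IntermediateField.adjoin k {t, t} = ⊤ := by
    rw [Set.pair_eq_singleton]
    exact ht.top
  have hm : pkgEv₂ k F t t (X - C X) = 0 := by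
    rw [map_sub, pkgs_ev_X, pkgs_ev_CX, sub_self]
  have hd : ((Polynomial.derivative (X - C X : k[X][X])).eval (C a)).eval a ≠ 0 := by
    simp
  exact (stmtPkgSimple k F t t (X - C X) a a hgen hm hd Q Q hQ hQ hQ hQ).1

end Gen

variable (A : ValuationSubring Kb)

theorem pkgty_ord_sub {Q : Place (kA A) (FFk A)} {a : kA A}
    (hQ : HasValueAt Q (pkgJbar A) a) :
    Q.ord (pkgJbar A - algebraMap (kA A) (FFk A) a) = 1 :=
  pkgrp_ord_sub (pkgty_coordJ A) hQ

theorem pkgty_ord_sub_inv {Q : Place (kA A) (FFk A)} {a : kA A}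
    (hQ : HasValueAt Q (pkgJbar A)⁻¹ a) :
    Q.ord ((pkgJbar A)⁻¹ - algebraMap (kA A) (FFk A) a) = 1 :=
  pkgrp_ord_sub (pkgty_coord_inv (kA A) (pkgty_coordJ A)) hQ

end Fermat.Agent.S15.LN
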