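import Fermat.Agent.S15.PkgRdivAsm
import Fermat.Agent.S15.PkgUniq
import Fermat.Agent.S15.PkgMinH
import Fermat.Agent.S15.PkgTVFibre

/-!
# S15 / LN-PKG, piece PKG-rdiv: `pkgrd_stmtPkgRdiv : StmtPkgRdiv`, unconditional (helper24)

`stmtPkgRdiv_of` (`PkgRdivAsm.lean`) with PKG-uniq inserted: `stmtPkgUniq_of` (helper25),
`stmtPkgMinH` (helper52), `stmtPkgFibre` (helper10).
-/

set_option autoImplicit false

namespace Fermat.Agent.S15.LN

/-- **PKG-uniq**, unconditional -/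
theorem pkgrd_stmtPkgUniq : StmtPkgUniq := stmtPkgUniq_of stmtPkgMinH stmtPkgFibre

/-- **PKG-rdiv**, unconditional -/
theorem pkgrd_stmtPkgRdiv : StmtPkgRdiv := stmtPkgRdiv_of pkgrd_stmtPkgUniq

end Fermat.Agent.S15.LN
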