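import Fermat.Agent.S15.LNBasic

/-!
# S15 / LN-PKG, piece PKG-rdiv, part 1: the abstract Hartogs lemma (helper24)

`O₁, O₂` two valuation rings of `F`, `red₁ : O₁ → Fk`, `t` a coordinate, `Q` a place of `Fk`.
If

* (`base`) the reduction of an element of `O₁ ∩ O₂` which is regular wherever `t` is, is regular
  at `Q`,
* (`E`) there is `E ∈ O₁`, regular wherever `t` is, whose reduction is a unit at `Q`, and which is
  so small in `O₂` that `g · E ^ M ∈ O₂` for `M ≫ 0`,
* (`sep`) every place `P` outside the tube at which `t` is regular is a zero of a function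
  `φ ∈ O₁`, regular wherever `t` is, whose reduction is a unit at `Q`,

then the reduction of every `w ∈ O₁` which is regular on the tube is regular at `Q`
(`pkgrd_hartogs_core`).
-/

set_option autoImplicit false
set_option linter.unusedSectionVars false
set_option linter.unusedVariables false

noncomputable section

open AlgebraicCurve

namespace Fermat.Agent.S15.LN

open Fermat.Agent.W1

variable {K F k Fk : Type} [Field K] [Field F] [Algebra K F] [Field k] [Field Fk] [Algebra k Fk]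

/-- the hypotheses of the abstract Hartogs lemma -/
structure PkgrdSep (O₁ O₂ : ValuationSubring F) (red₁ : O₁ →+* Fk)
    (Tube : Place K F → Prop) (t E : F) (Q : Place k Fk) : Prop where
  base : ∀ (f : F) (h₁ : f ∈ O₁), f ∈ O₂ →
    (∀ P : Place K F, 0 ≤ P.ord t → 0 ≤ P.ord f) → 0 ≤ Q.ord (red₁ ⟨f, h₁⟩)
  E_mem : E ∈ O₁
  E_ne : red₁ ⟨E, E_mem⟩ ≠ 0
  E_unit : Q.ord (red₁ ⟨E, E_mem⟩) = 0
  E_reg : ∀ P : Place K F, 0 ≤ P.ord t → 0 ≤ P.ord E
  E_small : ∀ g : F, ∃ M : ℕ, g * E ^ M ∈ O₂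
  tube_reg : ∀ P : Place K F, Tube P → 0 ≤ P.ord t
  sep : ∀ P : Place K F, 0 ≤ P.ord t → ¬ Tube P →
    ∃ (φ : F) (h : φ ∈ O₁), red₁ ⟨φ, h⟩ ≠ 0 ∧ Q.ord (red₁ ⟨φ, h⟩) = 0 ∧ 0 < P.ord φ ∧
      ∀ P' : Place K F, 0 ≤ P'.ord t → 0 ≤ P'.ord φ

variable {O₁ O₂ : ValuationSubring F} {red₁ : O₁ →+* Fk} {Tube : Place K F → Prop} {t E : F}
  {Q : Place k Fk}

theorem pkgrd_ord_mul_nonneg (P : Place K F) {f g : F} (hf : 0 ≤ P.ord f) (hg : 0 ≤ P.ord g) :
    0 ≤ P.ord (f * g) :=
  ge_ord_nonneg_of_mem P (P.toValuationSubring.mul_mem _ _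
    (ge_mem_of_not_ord_neg P (not_lt.mpr hf)) (ge_mem_of_not_ord_neg P (not_lt.mpr hg)))

theorem pkgrd_ord_pow_nonneg (P : Place K F) {f : F} (hf : 0 ≤ P.ord f) (n : ℕ) :
    0 ≤ P.ord (f ^ n) :=
  ge_ord_nonneg_of_mem P (pow_mem (ge_mem_of_not_ord_neg P (not_lt.mpr hf)) n)

theorem pkgrd_ord_pow (P : Place K F) (f : F) (n : ℕ) : P.ord (f ^ n) = n * P.ord f := by
  rw [← zpow_natCast, Place.ord_zpow]

/-- the case without poles in the chart -/
theorem pkgrd_hartogs_base (S : PkgrdSep (K := K) O₁ O₂ red₁ Tube t E Q) (w : F) (hw : w ∈ O₁)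
    (hreg : ∀ P : Place K F, 0 ≤ P.ord t → 0 ≤ P.ord w) : 0 ≤ Q.ord (red₁ ⟨w, hw⟩) := by
  obtain ⟨M, hM⟩ := S.E_small w
  have hEM : E ^ M ∈ O₁ := pow_mem S.E_mem M
  have hf₁ : w * E ^ M ∈ O₁ := O₁.mul_mem _ _ hw hEM
  have h1 := S.base (w * E ^ M) hf₁ hM
    (fun P hP => pkgrd_ord_mul_nonneg P (hreg P hP) (pkgrd_ord_pow_nonneg P (S.E_reg P hP) M))
  have e : red₁ ⟨w * E ^ M, hf₁⟩ = red₁ ⟨w, hw⟩ * red₁ ⟨E, S.E_mem⟩ ^ M := by
    rw [← map_pow, ← map_mul]
    rfl
  rw [e] at h1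
  by_cases h0 : red₁ ⟨w, hw⟩ = 0
  · rw [h0, Place.ord_zero]
  · rw [Place.ord_mul _ h0 (pow_ne_zero _ S.E_ne), pkgrd_ord_pow, S.E_unit, mul_zero,
      add_zero] at h1
    exact h1

/-- induction on a finite set containing the poles in the chart -/
theorem pkgrd_hartogs_ind (S : PkgrdSep (K := K) O₁ O₂ red₁ Tube t E Q)
    (T : Finset (Place K F)) :
    ∀ (w : F) (hw : w ∈ O₁), (∀ P : Place K F, Tube P → 0 ≤ P.ord w) →
      (∀ P : Place K F, 0 ≤ P.ord t → P.ord w < 0 → P ∈ T) → 0 ≤ Q.ord (red₁ ⟨w, hw⟩) := by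
  classical
  induction T using Finset.induction_on with
  | empty =>
      intro w hw _ hT
      refine pkgrd_hartogs_base S w hw fun P hP => ?_
      by_contra hneg
      exact absurd (hT P hP (not_le.mp hneg)) (Finset.notMem_empty P)
  | insert P₀ T hP₀ ih =>
      intro w hw htube hT
      by_cases hcase : 0 ≤ P₀.ord t ∧ P₀.ord w < 0
      · obtain ⟨ht₀, hw₀⟩ := hcase
        have hnt : ¬ Tube P₀ := fun h => absurd (htube P₀ h) (not_le.mpr hw₀)
        obtain ⟨φ, hφ, hφne, hφQ, hφP, hφreg⟩ := S.sep P₀ ht₀ hnt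
        set n : ℕ := (-P₀.ord w).toNat with hn
        have hnpos : (n : ℤ) = -P₀.ord w := Int.toNat_of_nonneg (by omega)
        have hφn : φ ^ n ∈ O₁ := pow_mem hφ n
        have hw' : w * φ ^ n ∈ O₁ := O₁.mul_mem _ _ hw hφn
        have hφ0 : φ ≠ 0 := by
          intro h
          apply hφne
          have : (⟨φ, hφ⟩ : O₁) = 0 := Subtype.ext h
          rw [this, map_zero]
        have hw0 : w ≠ 0 := by
          intro h
          rw [h, Place.ord_zero] at hw₀
          exact lt_irrefl _ hw₀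
        have key := ih (w * φ ^ n) hw'
          (fun P hP => pkgrd_ord_mul_nonneg P (htube P hP)
            (pkgrd_ord_pow_nonneg P (hφreg P (S.tube_reg P hP)) n))
          (fun P hP hneg => by
            have hord : P.ord (w * φ ^ n) = P.ord w + n * P.ord φ := by
              rw [Place.ord_mul _ hw0 (pow_ne_zero _ hφ0), pkgrd_ord_pow]
            have hφP' := hφreg P hP
            have hnn : (0 : ℤ) ≤ n := Int.natCast_nonneg n
            have hwneg : P.ord w < 0 := by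
              rw [hord] at hneg
              nlinarith
            rcases Finset.mem_insert.mp (hT P hP hwneg) with rfl | hmem
            · exfalso
              rw [hord, hnpos] at hneg
              nlinarith
            · exact hmem)
        have e : red₁ ⟨w * φ ^ n, hw'⟩ = red₁ ⟨w, hw⟩ * red₁ ⟨φ, hφ⟩ ^ n := by
          rw [← map_pow, ← map_mul]
          rfl
        rw [e] at key
        by_cases h0 : red₁ ⟨w, hw⟩ = 0
        · rw [h0, Place.ord_zero]
        · rw [Place.ord_mul _ h0 (pow_ne_zero _ hφne), pkgrd_ord_pow, hφQ, mul_zero,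
            add_zero] at key
          exact key
      · refine ih w hw htube fun P hP hneg => ?_
        rcases Finset.mem_insert.mp (hT P hP hneg) with rfl | hmem
        · exact absurd ⟨hP, hneg⟩ hcase
        · exact hmem

/-- **the abstract Hartogs lemma** -/
theorem pkgrd_hartogs_core (hpd : HasPrincipalDivisors K F)
    (S : PkgrdSep (K := K) O₁ O₂ red₁ Tube t E Q) (w : F) (hw : w ∈ O₁)
    (htube : ∀ P : Place K F, Tube P → 0 ≤ P.ord w) : 0 ≤ Q.ord (red₁ ⟨w, hw⟩) := by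
  rcases eq_or_ne w 0 with rfl | hw0
  · have : (⟨0, hw⟩ : O₁) = 0 := rfl
    rw [this, map_zero, Place.ord_zero]
  · obtain ⟨D, hD, -⟩ := hpd.exists_divisor w hw0
    refine pkgrd_hartogs_ind S D.support w hw htube fun P _ hneg => ?_
    rw [Finsupp.mem_support_iff, hD]
    exact ne_of_lt hneg

end Fermat.Agent.S15.LN
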