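import Fermat.Agent.S15.PkgRdivSep
import Fermat.Agent.S15.PkgEv
import Fermat.Agent.DEU.Anchor
import Fermat.Agent.DEU.ModHyp
import Fermat.Agent.ES.HModular
import Fermat.Agent.S28.Transfer

/-!
# S15 / LN-PKG, piece PKG-rdiv, part 3: Hartogs at the smooth points (helper24)

`pkgrd_hartogs` : `Q` a point of the first component which is not a crossing point, seen in the
chart `t` (`t = j`, or `t = 1/j` at the cusp); if `w ∈ O₁` is regular on the tube of `Q` then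
`red₁ w` is regular at `Q`.  Unconditional (inputs: `stmtPkgTV`, `stmtPkgPoly2`).
-/

set_option autoImplicit false
set_option linter.unusedSectionVars false
set_option linter.unusedVariables false
set_option linter.style.haveILetI false

noncomputable section

open AlgebraicCurve Module ModularCurve

namespace Fermat.Agent.S15.LN

open Fermat.Agent.W1 Fermat.Agent.S24 Fermat.Agent.S15 Fermat.Agent.ES.M Fermat.Agent.DEU
  Fermat.Agent.INJ

variable {N : ℕ} [NeZero N] {A : ValuationSubring Kb} (hB : PkgBase N A)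

/-! ## `g · h ^ M ∈ O₂` -/

theorem pkgrd_oggU_mem₁ : oggU N ∈ pkgO₁ N A := ⟨_, pkg_gaussRed_oggU N A⟩

theorem pkgrd_fricke_h :
    frickeAut N (oggU N)⁻¹ = algebraMap Kb (FF N) ((N : Kb) ^ 12) * oggU N := by
  have hfr := ogg_fricke N
  have hu0 : oggU N ≠ 0 := oggU_ne_zero N
  have hN0 : ((N : Kb) ^ 12) ≠ 0 := pow_ne_zero _ (Nat.cast_ne_zero.mpr (NeZero.ne N))
  rw [map_inv₀, inv_eq_iff_eq_inv, mul_inv, ← map_inv₀, ← hfr, mul_inv_cancel_right₀ hu0]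

include hB in
theorem pkgrd_h_pow_mem₂ (hA : A.LiesOverPrime N) (c : Kb) (n : ℕ)
    (hc : (N : Kb) ^ n * c ∈ A) : algebraMap Kb (FF N) c * (oggU N)⁻¹ ^ n ∈ pkgO₂ N A := by
  rw [mem_pkgO₂, map_mul, AlgEquiv.commutes, map_pow, pkgrd_fricke_h, mul_pow, ← map_pow,
    ← mul_assoc, ← map_mul]
  refine mul_mem ((pkg_algebraMap_mem_iff₁ N A hB _).mpr ?_) (pow_mem pkgrd_oggU_mem₁ n)
  have e : c * ((N : Kb) ^ 12) ^ n = (N : Kb) ^ (11 * n) * ((N : Kb) ^ n * c) := by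
    rw [← pow_mul]
    ring
  rw [e]
  exact mul_mem (pow_mem (pkg_natCast_mem N A hA) _) hc

include hB in
/-- `g · (t₀ · h) ^ M ∈ O₂` for a suitable `M` -/
theorem pkgrd_small (hN : N.Prime) (hA : A.LiesOverPrime N) (t₀ : FF N) (ht₀ : t₀ ∈ pkgO₂ N A)
    (g : FF N) : ∃ M : ℕ, g * (t₀ * (oggU N)⁻¹) ^ M ∈ pkgO₂ N A := by
  rcases eq_or_ne g 0 with rfl | hg
  · exact ⟨0, by rw [zero_mul]; exact zero_mem _⟩
  · obtain ⟨c, hc0, hmem, -⟩ := pkg_prim₂ N A hB g hg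
    obtain ⟨n, hn⟩ := pkg_arch N A hN hA c⁻¹ (inv_ne_zero hc0)
    refine ⟨n, ?_⟩
    have e : g * (t₀ * (oggU N)⁻¹) ^ n =
        (algebraMap Kb (FF N) c * g) * (algebraMap Kb (FF N) c⁻¹ * (oggU N)⁻¹ ^ n) * t₀ ^ n := by
      have hc' : algebraMap Kb (FF N) c ≠ 0 := (map_ne_zero _).mpr hc0
      rw [map_inv₀, mul_pow]
      field_simp
    rw [e]
    exact mul_mem (mul_mem hmem (pkgrd_h_pow_mem₂ hB hA c⁻¹ n hn)) (pow_mem ht₀ n)

/-! ## The base case -/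

include hB in
/-- the reduction of an element of the chart ring is regular at every point where `t̄` is -/
theorem pkgrd_base (hN : N.Prime) (h5 : 5 ≤ N) (hA : A.LiesOverPrime N) {t : FF N} {tb : FFk A}
    (ht : PkgCoord N A t tb) (Q : Place (kA A) (FFk A)) (a : kA A) (hQ : HasValueAt Q tb a)
    (f : FF N) (h₁ : f ∈ pkgO₁ N A) (h₂ : f ∈ pkgO₂ N A)
    (hreg : ∀ P : Place Kb (FF N), 0 ≤ P.ord t → 0 ≤ P.ord f) :
    0 ≤ Q.ord (pkgRed₁ N A hB ⟨f, h₁⟩) := by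
  obtain ⟨⟨F₁, hF₁⟩, -⟩ := stmtPkgPoly2 N hN h5 A hA hB t tb ht f h₁ h₂ hreg
  rw [hF₁]
  exact ge_ord_nonneg_of_mem Q (HasValueAt.mem Q (pkgev_hv_aeval hQ F₁))

/-! ## The two charts -/

include hB in
/-- the separating function of the chart `j` is a unit at the points which are not crossing
points -/
theorem pkgrd_unit_j (hN : N.Prime) (h5 : 5 ≤ N) (hA : A.LiesOverPrime N)
    (Q : Place (kA A) (FFk A)) (a : kA A) (hQ : HasValueAt Q (pkgJbar A) a)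
    (hnc : ∀ x ∈ pkgX N A hB, x.1 ≠ Q) : Q.ord (pkgHbar N A hB) = 0 := by
  have hT : PkgIsType N A := pkgty_isType N A hN hA
  have hpd : HasPrincipalDivisors (kA A) (FFk A) := modHyp_hpdk 1 A hN hA
  have hfin := pkgcr_finite hT hpd hB
  have hch := pkgev_chart_h N A hB hN hA
  have h1 : 0 ≤ Q.ord (pkgHbar N A hB) := by
    have := pkgrd_base hB hN h5 hA (Or.inl ⟨rfl, rfl⟩) Q a hQ _ hch.1 hch.2.1 hch.2.2
    rwa [pkgcr_red₁_h] at this
  have h2 : ¬ 0 < Q.ord (pkgHbar N A hB) := by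
    intro hpos
    obtain ⟨Q', hQ'⟩ := pkgty_place_exists A (a ^ N)
    have hx : (Q, Q') ∈ pkgXset N A hB := ⟨hpos, a, hQ, hQ'⟩
    exact hnc (Q, Q') ((pkgcr_mem_X_iff hfin _).mpr hx) rfl
  omega

/-- the cusp of the first component: the orders are the `q`-orders -/
theorem pkgrd_cusp_ord (Q : Place (kA A) (FFk A)) (hQ : HasValueAt Q (pkgJbar A)⁻¹ 0)
    (x : FFk A) (hx : x ≠ 0) : Q.ord x = (x : LaurentSeries (kA A)).order := by
  obtain ⟨Qc, hQc, -⟩ := deuAnchor_exists_cusp (kA A) 1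
  have hj : Qc.ord (pkgJbar A) < 0 := by
    rw [hQc _ (pkgty_Jbar_ne_zero A), pkg_coe_Jbar, deuAnchor_order_jqModC]
    norm_num
  have hQ' : Q.ord (pkgJbar A) < 0 := pkgty_pole_of_value_inv (pkgty_Jbar_ne_zero A) hQ
  rw [pkgty_place_ext_inf A Q Qc hQ' hj]
  exact hQc x hx

include hB in
/-- the separating function of the chart `1/j` is a unit at the cusp -/
theorem pkgrd_unit_inv (hN : N.Prime) (Q : Place (kA A) (FFk A))
    (hQ : HasValueAt Q (pkgJbar A)⁻¹ 0) :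
    Q.ord ((pkgJbar A)⁻¹ ^ (N - 1) * pkgHbar N A hB) = 0 := by
  have hj0 : pkgJbar A ≠ 0 := pkgty_Jbar_ne_zero A
  have hH0 : pkgHbar N A hB ≠ 0 := pkg_Hbar_ne_zero N A hB
  have hN1 : ((N - 1 : ℕ) : ℤ) = (N : ℤ) - 1 := by
    have := hN.one_le
    push_cast [Nat.cast_sub this]
    ring
  rw [Q.ord_mul (pow_ne_zero _ (inv_ne_zero hj0)) hH0, pkgev_ord_pow Q (inv_ne_zero hj0),
    Place.ord_inv, pkgrd_cusp_ord Q hQ _ hj0, pkgrd_cusp_ord Q hQ _ hH0, pkg_coe_Jbar,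
    pkg_coe_Hbar, deuAnchor_order_jqModC, pkgev_order_inv (Fermat.Agent.S28.uS_ne_zero N (kA A)),
    Fermat.Agent.S28.order_uS, hN1]
  ring

/-! ## The hypotheses of the abstract lemma -/

include hB in
theorem pkgrd_sepData (hN : N.Prime) (h5 : 5 ≤ N) (hA : A.LiesOverPrime N) {t : FF N}
    {tb : FFk A} (ht : PkgCoord N A t tb) (t₀ : FF N)
    (hch : PkgChart N A t (t₀ * (oggU N)⁻¹)) (ht₀ : t₀ ∈ pkgO₂ N A)
    (ht₀val : ∀ (P : Place Kb (FF N)) (c : A), HasValueAt P t (c : Kb) →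
      ∃ d : Kb, d ∈ A ∧ HasValueAt P t₀ d)
    (Q : Place (kA A) (FFk A)) (a : kA A) (hQ : HasValueAt Q tb a)
    (hne : pkgRed₁ N A hB ⟨t₀ * (oggU N)⁻¹, hch.1⟩ ≠ 0)
    (hunit : Q.ord (pkgRed₁ N A hB ⟨t₀ * (oggU N)⁻¹, hch.1⟩) = 0) :
    PkgrdSep (K := Kb) (pkgO₁ N A) (pkgO₂ N A) (pkgRed₁ N A hB) (PkgrdTube N A t a) t
      (t₀ * (oggU N)⁻¹) Q where
  base := fun f h₁ h₂ hreg => pkgrd_base hB hN h5 hA ht Q a hQ f h₁ h₂ hreg
  E_mem := hch.1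
  E_ne := hne
  E_unit := hunit
  E_reg := hch.2.2
  E_small := pkgrd_small hB hN hA t₀ ht₀
  tube_reg := fun P hP => by
    obtain ⟨-, c, hc, -⟩ := hP
    exact ge_ord_nonneg_of_mem P (HasValueAt.mem P hc)
  sep := fun P hP hnt => by
    obtain ⟨ht₁, ht₂⟩ := pkgev_coord_mem N A hB hN hA ht
    refine pkgrd_sep hB t tb (t₀ * (oggU N)⁻¹) Q a ht₁
      (pkgev_coord_red N A hB hN hA ht ht₁ ht₂).1 hQ hch.1 hne hunit hch.2.2 ?_ P hP hnt
    intro P' hnt1 c hc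
    obtain ⟨σ, hσ, hσP⟩ := pkgrd_nt1 hnt1
    obtain ⟨d, hd, hdP⟩ := ht₀val P' c hc
    exact ⟨d * σ, ge_nonunits_mul_mem hd hσ, ln_hasValueAt_mul hdP hσP⟩

include hB in
/-- **Hartogs at the smooth points of the first component**: if `w ∈ O₁` is regular on the tube
of the point `Q` (`t̄(Q) = a`, `Q` not a crossing point; in the chart `1/j`: the cusp `a = 0`),
then `red₁ w` is regular at `Q`. -/
theorem pkgrd_hartogs (hN : N.Prime) (h5 : 5 ≤ N) (hA : A.LiesOverPrime N) {t : FF N}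
    {tb : FFk A} (ht : PkgCoord N A t tb) (Q : Place (kA A) (FFk A)) (a : kA A)
    (hQ : HasValueAt Q tb a) (hcusp : t = (jF N)⁻¹ → a = 0)
    (hnc : ∀ x ∈ pkgX N A hB, x.1 ≠ Q) (w : pkgO₁ N A)
    (hw : ∀ P : Place Kb (FF N), PkgrdTube N A t a P → 0 ≤ P.ord (w : FF N)) :
    0 ≤ Q.ord (pkgRed₁ N A hB w) := by
  have hpd := Fermat.Agent.ES.H.hasPrincipalDivisors_FF N
  rcases ht with ⟨rfl, rfl⟩ | ⟨rfl, rfl⟩
  · -- chart `j`
    have hch0 := pkgev_chart_h N A hB hN hA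
    have hch : PkgChart N A (jF N) (1 * (oggU N)⁻¹) := by rw [one_mul]; exact hch0
    have hred : pkgRed₁ N A hB ⟨1 * (oggU N)⁻¹, hch.1⟩ = pkgHbar N A hB := by
      have e : (⟨1 * (oggU N)⁻¹, hch.1⟩ : pkgO₁ N A) = ⟨(oggU N)⁻¹, hch0.1⟩ :=
        Subtype.ext (one_mul _)
      rw [e, pkgcr_red₁_h]
    have S := pkgrd_sepData hB hN h5 hA (t := jF N) (tb := pkgJbar A) (Or.inl ⟨rfl, rfl⟩) 1 hch
      (one_mem _) (fun P c _ => ⟨1, one_mem _, ln_hasValueAt_one P⟩) Q a hQ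
      (by rw [hred]; exact pkg_Hbar_ne_zero N A hB)
      (by rw [hred]; exact pkgrd_unit_j hB hN h5 hA Q a hQ hnc)
    exact pkgrd_hartogs_core hpd S w.1 w.2 hw
  · -- chart `1/j`
    have ha : a = 0 := hcusp rfl
    subst ha
    have hco : PkgCoord N A (jF N)⁻¹ (pkgJbar A)⁻¹ := Or.inr ⟨rfl, rfl⟩
    obtain ⟨ht₁, ht₂⟩ := pkgev_coord_mem N A hB hN hA hco
    have hch := pkgev_chart_unit N A hB hN hA
    have hred : pkgRed₁ N A hB ⟨(jF N)⁻¹ ^ (N - 1) * (oggU N)⁻¹, hch.1⟩ =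
        (pkgJbar A)⁻¹ ^ (N - 1) * pkgHbar N A hB := by
      have e : (⟨(jF N)⁻¹ ^ (N - 1) * (oggU N)⁻¹, hch.1⟩ : pkgO₁ N A) =
          ⟨(jF N)⁻¹, ht₁⟩ ^ (N - 1) * ⟨(oggU N)⁻¹, pkg_h_mem₁ N A⟩ := rfl
      rw [e, map_mul, map_pow, (pkgev_coord_red N A hB hN hA hco ht₁ ht₂).1, pkgcr_red₁_h]
    have S := pkgrd_sepData hB hN h5 hA hco ((jF N)⁻¹ ^ (N - 1)) hch (pow_mem ht₂ _)
      (fun P c hc => ⟨(c : Kb) ^ (N - 1), pow_mem c.2 _, pkgrd_hasValueAt_pow hc _⟩) Q 0 hQ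
      (by
        rw [hred]
        exact mul_ne_zero (pow_ne_zero _ (inv_ne_zero (pkgty_Jbar_ne_zero A)))
          (pkg_Hbar_ne_zero N A hB))
      (by rw [hred]; exact pkgrd_unit_inv hB hN Q hQ)
    exact pkgrd_hartogs_core hpd S w.1 w.2 hw

end Fermat.Agent.S15.LN
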