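import Fermat.Agent.S15.PkgRdivCore
import Fermat.Agent.S15.PkgCross
import Fermat.Agent.S15.PkgType
import Fermat.Agent.S15.PkgPoly
import Fermat.Agent.S15.PkgUniqPlan

/-!
# S15 / LN-PKG, piece PKG-rdiv, part 2: the separating functions (helper24)

The tube `PkgrdTube` of a point of the first component, and the construction of the separating
functions `φ` of the abstract Hartogs lemma (`PkgRdivCore.lean`):

* `pkgrd_nt1` : at a place which is not of type 1, `h = 1/oggU` has a value in the maximal ideal;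
* `pkgrd_sep` : every place outside the tube at which `t` is regular is a zero of some `φ ∈ O₁`,
  regular wherever `t` is, whose reduction is a unit at `Q`;
* `pkgrd_small` : `g · h ^ M ∈ O₂` for `M ≫ 0`.
-/

set_option autoImplicit false
set_option linter.unusedSectionVars false
set_option linter.unusedVariables false
set_option linter.style.haveILetI false

noncomputable section

open AlgebraicCurve Module ModularCurve

namespace Fermat.Agent.S15.LN

open Fermat.Agent.W1 Fermat.Agent.S24 Fermat.Agent.S15 Fermat.Agent.ES.M Fermat.Agent.DEU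
  Fermat.Agent.INJ

variable (N : ℕ) [NeZero N] (A : ValuationSubring Kb)

/-- `P` lies in the tube of the point `t̄ = a` of the first component: `P` is of type 1 and
`t(P) ∈ A` reduces to `a` -/
def PkgrdTube (t : FF N) (a : kA A) (P : Place Kb (FF N)) : Prop :=
  PkgType₁ N A P ∧ ∃ c : A, HasValueAt P t (c : Kb) ∧ IsLocalRing.residue A c = a

variable {N A}

theorem pkgrd_hasValueAt_sub {K F : Type} [Field K] [Field F] [Algebra K F] {P : Place K F}
    {f g : F} {a b : K} (hf : HasValueAt P f a) (hg : HasValueAt P g b) :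
    HasValueAt P (f - g) (a - b) := by
  have h := ln_hasValueAt_add hf (ln_hasValueAt_smul (-1 : K) hg)
  have e1 : f + (-1 : K) • g = f - g := by
    rw [neg_smul, one_smul, sub_eq_add_neg]
  have e2 : a + (-1 : K) * b = a - b := by ring
  rwa [e1, e2] at h

theorem pkgrd_hasValueAt_pow {K F : Type} [Field K] [Field F] [Algebra K F] {P : Place K F}
    {f : F} {a : K} (hf : HasValueAt P f a) (n : ℕ) : HasValueAt P (f ^ n) (a ^ n) := by
  induction n with
  | zero => simpa using ln_hasValueAt_one P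
  | succ n ih =>
      rw [pow_succ, pow_succ]
      exact ln_hasValueAt_mul ih hf

theorem pkgrd_ord_pos_of_value_zero {K F : Type} [Field K] [Field F] [Algebra K F]
    {P : Place K F} {f : F} (hf : HasValueAt P f 0) (h0 : f ≠ 0) : 0 < P.ord f := by
  have h1 : f - algebraMap K F 0 ≠ 0 := by
    rw [map_zero, sub_zero]
    exact h0
  have h2 := (hasValueAt_iff_ord_pos P h1).mp hf
  rwa [map_zero, sub_zero] at h2

theorem pkgrd_inv_mem_nonunits {x : Kb} (hx : x ∉ A) : x⁻¹ ∈ A.nonunits := by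
  rw [ValuationSubring.mem_nonunits_iff_or, inv_inv]
  exact Or.inr hx

theorem pkgrd_residue_eq_zero {x : Kb} (hx : x ∈ A.nonunits) (h : x ∈ A) :
    IsLocalRing.residue A ⟨x, h⟩ = 0 := by
  rw [IsLocalRing.residue_eq_zero_iff, ← ValuationSubring.coe_mem_nonunits_iff]
  exact hx

/-- at a place which is not of type 1 the function `h = 1/oggU` has a value in the maximal
ideal of `A` -/
theorem pkgrd_nt1 {P : Place Kb (FF N)} (hnt : ¬ PkgType₁ N A P) :
    ∃ σ : Kb, σ ∈ A.nonunits ∧ HasValueAt P (oggU N)⁻¹ σ := by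
  rcases pkgty_mem_or_pole P (oggU N) with hreg | hpole
  · obtain ⟨d, hd⟩ := pkgty_exists_value N P hreg
    have hdA : d ∉ A := fun h => hnt ⟨d, h, hd⟩
    have hd0 : d ≠ 0 := fun h => hdA (h ▸ A.zero_mem)
    exact ⟨d⁻¹, pkgrd_inv_mem_nonunits hdA, ln_hasValueAt_inv hd hd0⟩
  · exact ⟨0, ge_zero_mem_nonunits A, pkgty_value_inv_of_pole hpole⟩

variable (hB : PkgBase N A)

include hB in
theorem pkgrd_const_mem (c : A) : algebraMap Kb (FF N) (c : Kb) ∈ pkgO₁ N A :=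
  (pkg_algebraMap_mem_iff₁ N A hB _).mpr c.2

/-- **the separating functions** -/
theorem pkgrd_sep (t : FF N) (tb : FFk A) (E : FF N) (Q : Place (kA A) (FFk A)) (a : kA A)
    (ht₁ : t ∈ pkgO₁ N A) (htred : pkgRed₁ N A hB ⟨t, ht₁⟩ = tb) (hQ : HasValueAt Q tb a)
    (hE₁ : E ∈ pkgO₁ N A) (hEne : pkgRed₁ N A hB ⟨E, hE₁⟩ ≠ 0)
    (hEQ : Q.ord (pkgRed₁ N A hB ⟨E, hE₁⟩) = 0)
    (hEreg : ∀ P : Place Kb (FF N), 0 ≤ P.ord t → 0 ≤ P.ord E)
    (hEval : ∀ P : Place Kb (FF N), ¬ PkgType₁ N A P → ∀ c : A, HasValueAt P t (c : Kb) →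
      ∃ σ : Kb, σ ∈ A.nonunits ∧ HasValueAt P E σ)
    (P : Place Kb (FF N)) (hP : 0 ≤ P.ord t) (hnt : ¬ PkgrdTube N A t a P) :
    ∃ (φ : FF N) (h : φ ∈ pkgO₁ N A), pkgRed₁ N A hB ⟨φ, h⟩ ≠ 0 ∧
      Q.ord (pkgRed₁ N A hB ⟨φ, h⟩) = 0 ∧ 0 < P.ord φ ∧
        ∀ P' : Place Kb (FF N), 0 ≤ P'.ord t → 0 ≤ P'.ord φ := by
  have htP : t ∈ P.toValuationSubring := ge_mem_of_not_ord_neg P (not_lt.mpr hP)
  obtain ⟨β, hβ⟩ := pkgty_exists_value N P htP
  have hne_of : ∀ (φ : FF N) (h : φ ∈ pkgO₁ N A), pkgRed₁ N A hB ⟨φ, h⟩ ≠ 0 → φ ≠ 0 := by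
    intro φ h hne h0
    apply hne
    have : (⟨φ, h⟩ : pkgO₁ N A) = 0 := Subtype.ext h0
    rw [this, map_zero]
  by_cases hβA : β ∈ A
  · by_cases hres : IsLocalRing.residue A ⟨β, hβA⟩ = a
    · -- over the disc, not of type 1
      have hnt1 : ¬ PkgType₁ N A P := fun h => hnt ⟨h, ⟨β, hβA⟩, hβ, hres⟩
      obtain ⟨σ, hσ, hσP⟩ := hEval P hnt1 ⟨β, hβA⟩ hβ
      have hσA : σ ∈ A := ge_nonunits_mem hσ
      have hc₁ := pkgrd_const_mem hB ⟨σ, hσA⟩
      have hφ : E - algebraMap Kb (FF N) σ ∈ pkgO₁ N A := sub_mem hE₁ hc₁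
      have hred : pkgRed₁ N A hB ⟨E - algebraMap Kb (FF N) σ, hφ⟩ =
          pkgRed₁ N A hB ⟨E, hE₁⟩ := by
        have e : (⟨E - algebraMap Kb (FF N) σ, hφ⟩ : pkgO₁ N A) =
            ⟨E, hE₁⟩ - ⟨algebraMap Kb (FF N) ((⟨σ, hσA⟩ : A) : Kb), hc₁⟩ := rfl
        rw [e, map_sub, pkg_red₁_algebraMap N A hB ⟨σ, hσA⟩ hc₁, pkgrd_residue_eq_zero hσ hσA,
          map_zero, sub_zero]
      refine ⟨E - algebraMap Kb (FF N) σ, hφ, ?_, ?_, ?_, ?_⟩
      · rw [hred]; exact hEne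
      · rw [hred]; exact hEQ
      · have hv : HasValueAt P (E - algebraMap Kb (FF N) σ) 0 := by
          have := pkgrd_hasValueAt_sub hσP (ln_hasValueAt_const P σ)
          rwa [sub_self] at this
        exact pkgrd_ord_pos_of_value_zero hv (hne_of _ hφ (by rw [hred]; exact hEne))
      · intro P' hP'
        exact ge_ord_nonneg_of_mem P' (sub_mem
          (ge_mem_of_not_ord_neg P' (not_lt.mpr (hEreg P' hP'))) (P'.algebraMap_mem' σ))
    · -- another residue disc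
      have hc₁ := pkgrd_const_mem hB ⟨β, hβA⟩
      have hφ : t - algebraMap Kb (FF N) β ∈ pkgO₁ N A := sub_mem ht₁ hc₁
      have hred : pkgRed₁ N A hB ⟨t - algebraMap Kb (FF N) β, hφ⟩ =
          tb - algebraMap (kA A) (FFk A) (IsLocalRing.residue A ⟨β, hβA⟩) := by
        have e : (⟨t - algebraMap Kb (FF N) β, hφ⟩ : pkgO₁ N A) =
            ⟨t, ht₁⟩ - ⟨algebraMap Kb (FF N) ((⟨β, hβA⟩ : A) : Kb), hc₁⟩ := rfl
        rw [e, map_sub, pkg_red₁_algebraMap N A hB ⟨β, hβA⟩ hc₁, htred]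
      have hval : HasValueAt Q (tb - algebraMap (kA A) (FFk A)
          (IsLocalRing.residue A ⟨β, hβA⟩)) (a - IsLocalRing.residue A ⟨β, hβA⟩) :=
        pkgrd_hasValueAt_sub hQ (ln_hasValueAt_const Q _)
      have hne : a - IsLocalRing.residue A ⟨β, hβA⟩ ≠ 0 := fun h => hres (sub_eq_zero.mp h).symm
      refine ⟨t - algebraMap Kb (FF N) β, hφ, ?_, ?_, ?_, ?_⟩
      · rw [hred]; exact ln_ne_zero_of_value hval hne
      · rw [hred]; exact ln_ord_eq_zero_of_value hval hne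
      · have hv : HasValueAt P (t - algebraMap Kb (FF N) β) 0 := by
          have := pkgrd_hasValueAt_sub hβ (ln_hasValueAt_const P β)
          rwa [sub_self] at this
        exact pkgrd_ord_pos_of_value_zero hv
          (hne_of _ hφ (by rw [hred]; exact ln_ne_zero_of_value hval hne))
      · intro P' hP'
        exact ge_ord_nonneg_of_mem P' (sub_mem
          (ge_mem_of_not_ord_neg P' (not_lt.mpr hP')) (P'.algebraMap_mem' β))
  · -- `|t(P)| > 1`
    have hβinv : β⁻¹ ∈ A.nonunits := pkgrd_inv_mem_nonunits hβA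
    have hβinvA : β⁻¹ ∈ A := ge_nonunits_mem hβinv
    have hβ0 : β ≠ 0 := fun h => hβA (h ▸ A.zero_mem)
    have hc₁ := pkgrd_const_mem hB ⟨β⁻¹, hβinvA⟩
    have hφ : 1 - algebraMap Kb (FF N) β⁻¹ * t ∈ pkgO₁ N A :=
      sub_mem (one_mem _) (mul_mem hc₁ ht₁)
    have hred : pkgRed₁ N A hB ⟨1 - algebraMap Kb (FF N) β⁻¹ * t, hφ⟩ = 1 := by
      have e : (⟨1 - algebraMap Kb (FF N) β⁻¹ * t, hφ⟩ : pkgO₁ N A) =
          1 - ⟨algebraMap Kb (FF N) ((⟨β⁻¹, hβinvA⟩ : A) : Kb), hc₁⟩ * ⟨t, ht₁⟩ := rfl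
      rw [e, map_sub, map_mul, map_one, pkg_red₁_algebraMap N A hB ⟨β⁻¹, hβinvA⟩ hc₁,
        pkgrd_residue_eq_zero hβinv hβinvA, map_zero, zero_mul, sub_zero]
    refine ⟨1 - algebraMap Kb (FF N) β⁻¹ * t, hφ, ?_, ?_, ?_, ?_⟩
    · rw [hred]; exact one_ne_zero
    · rw [hred, Place.ord_one]
    · have hv : HasValueAt P (1 - algebraMap Kb (FF N) β⁻¹ * t) 0 := by
        have := pkgrd_hasValueAt_sub (ln_hasValueAt_one P)
          (ln_hasValueAt_mul (ln_hasValueAt_const P β⁻¹) hβ)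
        rwa [inv_mul_cancel₀ hβ0, sub_self] at this
      exact pkgrd_ord_pos_of_value_zero hv (hne_of _ hφ (by rw [hred]; exact one_ne_zero))
    · intro P' hP'
      exact ge_ord_nonneg_of_mem P' (sub_mem (one_mem _)
        (mul_mem (P'.algebraMap_mem' β⁻¹) (ge_mem_of_not_ord_neg P' (not_lt.mpr hP'))))

end Fermat.Agent.S15.LN
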