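import Fermat.Agent.S15.PkgUniqPlan
import Fermat.Agent.S15.LNBasic
import Fermat.Agent.W1.GeoEval

/-!
# S15 / LN-PKG, piece PKG-uniq, abstract part: a simple point of a plane model carries exactly
one place, unramified over the `t`-line (helper25)

`stmtPkgSimple : StmtPkgSimple`.  No completion, no Dedekind–Kummer: the Taylor expansion of the
relation `m(t, f) = 0` at the simple point `(b, c)` gives `(f - c) U = -(t - b) V` with `U` a unit
at the point, and a descent on `ord_P (p(t, f))` computes the order of every polynomial in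
`t, f` from the polynomial alone.
-/

set_option autoImplicit false
set_option linter.unusedSectionVars false

noncomputable section

open AlgebraicCurve Polynomial

namespace Fermat.Agent.S15.LN

open Fermat.Agent.W1 Fermat.Agent.S24

section Simple

variable {K F : Type} [Field K] [Field F] [Algebra K F]

/-- the value of a polynomial in two variables at the point `(b, c)` -/
def pkgsVal (b c : K) (p : K[X][X]) : K := (p.eval (C c)).eval b

theorem pkgsVal_add (b c : K) (p q : K[X][X]) :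
    pkgsVal b c (p + q) = pkgsVal b c p + pkgsVal b c q := by
  simp [pkgsVal]

theorem pkgsVal_mul (b c : K) (p q : K[X][X]) :
    pkgsVal b c (p * q) = pkgsVal b c p * pkgsVal b c q := by
  simp [pkgsVal]

theorem pkgsVal_sub (b c : K) (p q : K[X][X]) :
    pkgsVal b c (p - q) = pkgsVal b c p - pkgsVal b c q := by
  simp [pkgsVal]

variable (t f : F)

theorem pkgs_ev_C (q : K[X]) : pkgEv₂ K F t f (C q) = Polynomial.aeval t q := by
  simp [pkgEv₂]

theorem pkgs_ev_X : pkgEv₂ K F t f X = f := by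
  simp [pkgEv₂]

theorem pkgs_ev_CX : pkgEv₂ K F t f (C X) = t := by
  rw [pkgs_ev_C, aeval_X]

theorem pkgs_ev_CC (a : K) : pkgEv₂ K F t f (C (C a)) = algebraMap K F a := by
  rw [pkgs_ev_C, aeval_C]

variable {t f}

/-- values of polynomials in `t` -/
theorem pkgs_hasValueAt_aeval {P : Place K F} {b : K} (ht : HasValueAt P t b) (q : K[X]) :
    HasValueAt P (Polynomial.aeval t q) (q.eval b) := by
  induction q using Polynomial.induction_on' with
  | add p q hp hq =>
    rw [map_add, eval_add]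
    exact ln_hasValueAt_add hp hq
  | monomial n a =>
    rw [aeval_monomial, eval_monomial]
    refine ln_hasValueAt_mul (ln_hasValueAt_const P a) ?_
    induction n with
    | zero => simpa using ln_hasValueAt_one P
    | succ n ih =>
      rw [pow_succ, pow_succ]
      exact ln_hasValueAt_mul ih ht

theorem pkgs_hasValueAt_pow {P : Place K F} {x : F} {a : K} (h : HasValueAt P x a) (n : ℕ) :
    HasValueAt P (x ^ n) (a ^ n) := by
  induction n with
  | zero => simpa using ln_hasValueAt_one P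
  | succ n ih =>
    rw [pow_succ, pow_succ]
    exact ln_hasValueAt_mul ih h

/-- values of polynomials in `t, f` -/
theorem pkgs_hasValueAt_ev {P : Place K F} {b c : K} (ht : HasValueAt P t b)
    (hf : HasValueAt P f c) (p : K[X][X]) :
    HasValueAt P (pkgEv₂ K F t f p) (pkgsVal b c p) := by
  induction p using Polynomial.induction_on' with
  | add p q hp hq =>
    rw [map_add, pkgsVal_add]
    exact ln_hasValueAt_add hp hq
  | monomial n q =>
    have e1 : (monomial n q : K[X][X]) = C q * X ^ n := by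
      rw [← C_mul_X_pow_eq_monomial]
    rw [e1, map_mul, map_pow, pkgs_ev_C, pkgs_ev_X, pkgsVal_mul]
    have e2 : pkgsVal b c (C q) = q.eval b := by simp [pkgsVal]
    have e3 : pkgsVal b c ((X : K[X][X]) ^ n) = c ^ n := by simp [pkgsVal]
    rw [e2, e3]
    exact ln_hasValueAt_mul (pkgs_hasValueAt_aeval ht q) (pkgs_hasValueAt_pow hf n)

/-- a polynomial vanishing at `(b, c)` lies in the ideal `(X - b, T - c)` -/
theorem pkgs_decomp (b c : K) (p : K[X][X]) (hp : pkgsVal b c p = 0) :
    ∃ p₁ p₂ : K[X][X], p = C (X - C b) * p₁ + (X - C (C c)) * p₂ := by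
  obtain ⟨p₂, hp₂⟩ := Polynomial.X_sub_C_dvd_sub_C_eval (a := C c) (p := p)
  have hq : (X - C b) ∣ p.eval (C c) := by
    rw [Polynomial.dvd_iff_isRoot]
    exact hp
  obtain ⟨q₁, hq₁⟩ := hq
  refine ⟨C q₁, p₂, ?_⟩
  rw [← C_mul, ← hq₁, ← hp₂]
  ring

/-- the Taylor expansion of the relation at the point -/
theorem pkgs_taylor (b c : K) (m : K[X][X]) (hm : pkgEv₂ K F t f m = 0)
    (hval : pkgsVal b c m = 0) :
    ∃ U V : K[X][X], pkgsVal b c U = pkgsVal b c (derivative m) ∧
      (f - algebraMap K F c) * pkgEv₂ K F t f U =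
        -((t - algebraMap K F b) * pkgEv₂ K F t f V) := by
  obtain ⟨U, hU⟩ := Polynomial.X_sub_C_dvd_sub_C_eval (a := C c) (p := m)
  have hq : (X - C b) ∣ m.eval (C c) := by
    rw [Polynomial.dvd_iff_isRoot]
    exact hval
  obtain ⟨q₁, hq₁⟩ := hq
  have hm' : m = (X - C (C c)) * U + C (X - C b) * C q₁ := by
    rw [← C_mul, ← hq₁, ← hU]
    ring
  refine ⟨U, C q₁, ?_, ?_⟩
  · have hd : derivative m = U + (X - C (C c)) * derivative U := by
      conv_lhs => rw [hm']
      simp only [derivative_add, derivative_mul, derivative_sub, derivative_X, derivative_C,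
        sub_zero, one_mul, mul_zero, zero_mul, add_zero]
    rw [hd, pkgsVal_add, pkgsVal_mul]
    have : pkgsVal b c (X - C (C c)) = 0 := by simp [pkgsVal]
    rw [this, zero_mul, add_zero]
  · have h1 := hm
    rw [hm'] at h1
    simp only [map_add, map_mul, map_sub, pkgs_ev_X, pkgs_ev_CC, pkgs_ev_CX] at h1
    linear_combination h1

/-- every element of `K(t, f)` is a quotient of polynomials in `t, f` -/
theorem pkgs_rep (hgen : IntermediateField.adjoin K {t, f} = ⊤) (x : F) :
    ∃ p q : K[X][X], pkgEv₂ K F t f q ≠ 0 ∧ x = pkgEv₂ K F t f p / pkgEv₂ K F t f q := by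
  have hx : x ∈ IntermediateField.adjoin K {t, f} := by rw [hgen]; trivial
  induction hx using IntermediateField.adjoin_induction with
  | mem x hx =>
    rcases hx with rfl | hx
    · exact ⟨C X, 1, by rw [map_one]; exact one_ne_zero, by rw [pkgs_ev_CX, map_one, div_one]⟩
    · rw [Set.mem_singleton_iff] at hx
      subst hx
      exact ⟨X, 1, by rw [map_one]; exact one_ne_zero, by rw [pkgs_ev_X, map_one, div_one]⟩
  | algebraMap a =>
    exact ⟨C (C a), 1, by rw [map_one]; exact one_ne_zero, by rw [pkgs_ev_CC, map_one, div_one]⟩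
  | add x y _ _ hx hy =>
    obtain ⟨p, q, hq, rfl⟩ := hx
    obtain ⟨p', q', hq', rfl⟩ := hy
    refine ⟨p * q' + p' * q, q * q', ?_, ?_⟩
    · rw [map_mul]; exact mul_ne_zero hq hq'
    · simp only [map_add, map_mul]
      field_simp
  | inv x _ hx =>
    obtain ⟨p, q, hq, rfl⟩ := hx
    by_cases hp : pkgEv₂ K F t f p = 0
    · refine ⟨0, 1, by rw [map_one]; exact one_ne_zero, ?_⟩
      rw [hp, zero_div, inv_zero, map_zero, zero_div]
    · exact ⟨q, p, hp, by rw [inv_div]⟩
  | mul x y _ _ hx hy =>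
    obtain ⟨p, q, hq, rfl⟩ := hx
    obtain ⟨p', q', hq', rfl⟩ := hy
    refine ⟨p * p', q * q', ?_, ?_⟩
    · rw [map_mul]; exact mul_ne_zero hq hq'
    · simp only [map_mul]
      field_simp

/-- the step of the descent -/
theorem pkgs_step {b c : K} {U V : K[X][X]}
    (hrel : (f - algebraMap K F c) * pkgEv₂ K F t f U =
      -((t - algebraMap K F b) * pkgEv₂ K F t f V))
    {p p₁ p₂ : K[X][X]} (hp : p = C (X - C b) * p₁ + (X - C (C c)) * p₂) :
    pkgEv₂ K F t f p * pkgEv₂ K F t f U =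
      (t - algebraMap K F b) * pkgEv₂ K F t f (p₁ * U - V * p₂) := by
  rw [hp]
  simp only [map_add, map_mul, map_sub, pkgs_ev_X, pkgs_ev_CC, pkgs_ev_CX]
  linear_combination (pkgEv₂ K F t f p₂) * hrel

section Descent

variable {b c : K} {U V : K[X][X]} {P : Place K F}

theorem pkgs_ord_ev_nonneg (ht : HasValueAt P t b) (hf : HasValueAt P f c) (p : K[X][X]) :
    0 ≤ P.ord (pkgEv₂ K F t f p) :=
  ge_ord_nonneg_of_mem P (HasValueAt.mem P (pkgs_hasValueAt_ev ht hf p))

theorem pkgs_ord_ev_unit (ht : HasValueAt P t b) (hf : HasValueAt P f c) {p : K[X][X]}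
    (hp : pkgsVal b c p ≠ 0) : pkgEv₂ K F t f p ≠ 0 ∧ P.ord (pkgEv₂ K F t f p) = 0 :=
  ⟨ln_ne_zero_of_value (pkgs_hasValueAt_ev ht hf p) hp,
    ln_ord_eq_zero_of_value (pkgs_hasValueAt_ev ht hf p) hp⟩

/-- the order of a polynomial in `t, f` which vanishes at the point, in one step -/
theorem pkgs_ord_step (ht : HasValueAt P t b) (hf : HasValueAt P f c)
    (hU : pkgsVal b c U ≠ 0)
    (hrel : (f - algebraMap K F c) * pkgEv₂ K F t f U =
      -((t - algebraMap K F b) * pkgEv₂ K F t f V))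
    (ht0 : t - algebraMap K F b ≠ 0)
    {p p₁ p₂ : K[X][X]} (hp : p = C (X - C b) * p₁ + (X - C (C c)) * p₂)
    (hp0 : pkgEv₂ K F t f p ≠ 0) :
    pkgEv₂ K F t f (p₁ * U - V * p₂) ≠ 0 ∧
      P.ord (pkgEv₂ K F t f p) =
        P.ord (t - algebraMap K F b) + P.ord (pkgEv₂ K F t f (p₁ * U - V * p₂)) := by
  have h1 := pkgs_step hrel hp
  obtain ⟨hU0, hUord⟩ := pkgs_ord_ev_unit ht hf hU
  have h2 : pkgEv₂ K F t f (p₁ * U - V * p₂) ≠ 0 := by
    intro h0
    rw [h0, mul_zero] at h1
    exact mul_ne_zero hp0 hU0 h1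
  refine ⟨h2, ?_⟩
  have h3 := congrArg P.ord h1
  rw [P.ord_mul hp0 hU0, P.ord_mul ht0 h2, hUord, add_zero] at h3
  exact h3

/-- `e = ord_P (t - b)` divides the order of every polynomial in `t, f` -/
theorem pkgs_dvd_ord_ev (ht : HasValueAt P t b) (hf : HasValueAt P f c)
    (hU : pkgsVal b c U ≠ 0)
    (hrel : (f - algebraMap K F c) * pkgEv₂ K F t f U =
      -((t - algebraMap K F b) * pkgEv₂ K F t f V))
    (ht0 : t - algebraMap K F b ≠ 0) :
    ∀ (n : ℕ) (p : K[X][X]), pkgEv₂ K F t f p ≠ 0 → P.ord (pkgEv₂ K F t f p) = n →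
      P.ord (t - algebraMap K F b) ∣ P.ord (pkgEv₂ K F t f p) := by
  have he : 0 < P.ord (t - algebraMap K F b) := (hasValueAt_iff_ord_pos P ht0).mp ht
  intro n
  induction n using Nat.strong_induction_on with
  | _ n ih =>
    intro p hp0 hn
    by_cases hv : pkgsVal b c p = 0
    · obtain ⟨p₁, p₂, hp⟩ := pkgs_decomp b c p hv
      obtain ⟨h2, h3⟩ := pkgs_ord_step ht hf hU hrel ht0 hp hp0
      have h4 := pkgs_ord_ev_nonneg ht hf (p₁ * U - V * p₂)
      obtain ⟨n', hn'⟩ := Int.eq_ofNat_of_zero_le h4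
      have hlt : n' < n := by
        have : (n' : ℤ) < n := by rw [← hn', ← hn, h3]; omega
        exact_mod_cast this
      have h5 := ih n' hlt _ h2 hn'
      rw [h3]
      exact dvd_add (dvd_refl _) h5
    · rw [(pkgs_ord_ev_unit ht hf hv).2]
      exact dvd_zero _

/-- `t - b` is a uniformizer at `P` -/
theorem pkgs_ord_eq_one (hgen : IntermediateField.adjoin K {t, f} = ⊤)
    (ht : HasValueAt P t b) (hf : HasValueAt P f c) (hU : pkgsVal b c U ≠ 0)
    (hrel : (f - algebraMap K F c) * pkgEv₂ K F t f U =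
      -((t - algebraMap K F b) * pkgEv₂ K F t f V))
    (ht0 : t - algebraMap K F b ≠ 0) : P.ord (t - algebraMap K F b) = 1 := by
  have he : 0 < P.ord (t - algebraMap K F b) := (hasValueAt_iff_ord_pos P ht0).mp ht
  have key : ∀ p : K[X][X], pkgEv₂ K F t f p ≠ 0 →
      P.ord (t - algebraMap K F b) ∣ P.ord (pkgEv₂ K F t f p) := by
    intro p hp0
    obtain ⟨n, hn⟩ := Int.eq_ofNat_of_zero_le (pkgs_ord_ev_nonneg ht hf p)
    exact pkgs_dvd_ord_ev ht hf hU hrel ht0 n p hp0 hn
  obtain ⟨π, hπ⟩ := IsDiscreteValuationRing.exists_irreducible P.toValuationSubring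
  have hπ1 : P.ord (π : F) = 1 := P.ord_coe_irreducible hπ
  have hπ0 : (π : F) ≠ 0 := by
    intro h
    rw [h, Place.ord_zero] at hπ1
    exact zero_ne_one hπ1
  obtain ⟨p, q, hq, hpq⟩ := pkgs_rep hgen (π : F)
  have hp0 : pkgEv₂ K F t f p ≠ 0 := by
    intro h
    rw [h, zero_div] at hpq
    exact hπ0 hpq
  have h1 : P.ord (π : F) = P.ord (pkgEv₂ K F t f p) - P.ord (pkgEv₂ K F t f q) := by
    rw [hpq, div_eq_mul_inv, P.ord_mul hp0 (inv_ne_zero hq), Place.ord_inv]
    ring
  have h2 : P.ord (t - algebraMap K F b) ∣ 1 := by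
    rw [← hπ1, h1]
    exact dvd_sub (key p hp0) (key q hq)
  exact Int.eq_one_of_dvd_one he.le h2

/-- the same descent computes the orders at two places above the point -/
theorem pkgs_ord_ev_eq {P' : Place K F} (ht : HasValueAt P t b) (hf : HasValueAt P f c)
    (ht' : HasValueAt P' t b) (hf' : HasValueAt P' f c) (hU : pkgsVal b c U ≠ 0)
    (hrel : (f - algebraMap K F c) * pkgEv₂ K F t f U =
      -((t - algebraMap K F b) * pkgEv₂ K F t f V))
    (ht0 : t - algebraMap K F b ≠ 0)
    (he : P.ord (t - algebraMap K F b) = 1) (he' : P'.ord (t - algebraMap K F b) = 1) :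
    ∀ (n : ℕ) (p : K[X][X]), pkgEv₂ K F t f p ≠ 0 → P.ord (pkgEv₂ K F t f p) = n →
      P'.ord (pkgEv₂ K F t f p) = n := by
  intro n
  induction n using Nat.strong_induction_on with
  | _ n ih =>
    intro p hp0 hn
    by_cases hv : pkgsVal b c p = 0
    · obtain ⟨p₁, p₂, hp⟩ := pkgs_decomp b c p hv
      obtain ⟨h2, h3⟩ := pkgs_ord_step ht hf hU hrel ht0 hp hp0
      obtain ⟨-, h3'⟩ := pkgs_ord_step ht' hf' hU hrel ht0 hp hp0
      have h4 := pkgs_ord_ev_nonneg ht hf (p₁ * U - V * p₂)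
      obtain ⟨n', hn'⟩ := Int.eq_ofNat_of_zero_le h4
      have hlt : n' < n := by
        have : (n' : ℤ) < n := by rw [← hn', ← hn, h3, he]; omega
        exact_mod_cast this
      have h5 := ih n' hlt _ h2 hn'
      rw [h3', he', h5, ← hn, h3, he, hn']
    · rw [(pkgs_ord_ev_unit ht' hf' hv).2, ← hn, (pkgs_ord_ev_unit ht hf hv).2]

/-- two places above the simple point are equal -/
theorem pkgs_place_eq {P' : Place K F} (hgen : IntermediateField.adjoin K {t, f} = ⊤)
    (ht : HasValueAt P t b) (hf : HasValueAt P f c)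
    (ht' : HasValueAt P' t b) (hf' : HasValueAt P' f c) (hU : pkgsVal b c U ≠ 0)
    (hrel : (f - algebraMap K F c) * pkgEv₂ K F t f U =
      -((t - algebraMap K F b) * pkgEv₂ K F t f V))
    (ht0 : t - algebraMap K F b ≠ 0) : P' = P := by
  have he := pkgs_ord_eq_one hgen ht hf hU hrel ht0
  have he' := pkgs_ord_eq_one hgen ht' hf' hU hrel ht0
  have key : ∀ p : K[X][X], pkgEv₂ K F t f p ≠ 0 →
      P'.ord (pkgEv₂ K F t f p) = P.ord (pkgEv₂ K F t f p) := by
    intro p hp0
    obtain ⟨n, hn⟩ := Int.eq_ofNat_of_zero_le (pkgs_ord_ev_nonneg ht hf p)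
    rw [hn]
    exact pkgs_ord_ev_eq ht hf ht' hf' hU hrel ht0 he he' n p hp0 hn
  have hord : ∀ x : F, x ≠ 0 → P'.ord x = P.ord x := by
    intro x hx
    obtain ⟨p, q, hq, hpq⟩ := pkgs_rep hgen x
    have hp0 : pkgEv₂ K F t f p ≠ 0 := by
      intro h
      rw [h, zero_div] at hpq
      exact hx hpq
    rw [hpq, div_eq_mul_inv, P'.ord_mul hp0 (inv_ne_zero hq), P.ord_mul hp0 (inv_ne_zero hq),
      Place.ord_inv, Place.ord_inv, key p hp0, key q hq]
  apply Place.ext
  ext x
  rcases eq_or_ne x 0 with rfl | hx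
  · simp
  · rw [← PlaceAux.ord_nonneg_iff _ hx, ← PlaceAux.ord_nonneg_iff _ hx, hord x hx]

end Descent

/-- there is no place if `t` is the constant `b` -/
theorem pkgs_ne_const (hgen : IntermediateField.adjoin K {t, f} = ⊤) {b c : K}
    {U V : K[X][X]} {P : Place K F} (ht : HasValueAt P t b) (hf : HasValueAt P f c)
    (hU : pkgsVal b c U ≠ 0)
    (hrel : (f - algebraMap K F c) * pkgEv₂ K F t f U =
      -((t - algebraMap K F b) * pkgEv₂ K F t f V)) : t - algebraMap K F b ≠ 0 := by
  intro h0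
  have hU0 := (pkgs_ord_ev_unit ht hf hU).1
  rw [h0, zero_mul, neg_zero] at hrel
  have hf0 : f - algebraMap K F c = 0 := (mul_eq_zero.mp hrel).resolve_right hU0
  have htb : t = algebraMap K F b := sub_eq_zero.mp h0
  have hfc : f = algebraMap K F c := sub_eq_zero.mp hf0
  apply P.ne_top'
  rw [eq_top_iff]
  intro x _
  have hx : x ∈ IntermediateField.adjoin K {t, f} := by rw [hgen]; trivial
  have hle : IntermediateField.adjoin K {t, f} ≤ ⊥ := by
    rw [IntermediateField.adjoin_le_iff]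
    rintro y (rfl | hy)
    · rw [htb]; exact IntermediateField.algebraMap_mem _ _
    · rw [Set.mem_singleton_iff] at hy
      rw [hy, hfc]; exact IntermediateField.algebraMap_mem _ _
  obtain ⟨a, rfl⟩ := IntermediateField.mem_bot.mp (hle hx)
  exact P.algebraMap_mem' a

end Simple

/-- **PKG-simple** -/
theorem stmtPkgSimple : StmtPkgSimple := by
  intro K F _ _ _ t f m b c hgen hm hd P P' ht hf ht' hf'
  have hval : pkgsVal b c m = 0 := by
    have h1 := pkgs_hasValueAt_ev ht hf m
    rw [hm] at h1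
    exact (hasValueAt_unique P h1 (ln_hasValueAt_zero P))
  obtain ⟨U, V, hUV, hrel⟩ := pkgs_taylor b c m hm hval
  have hU : pkgsVal b c U ≠ 0 := by
    rw [hUV]
    exact hd
  have ht0 := pkgs_ne_const hgen ht hf hU hrel
  exact ⟨pkgs_ord_eq_one hgen ht hf hU hrel ht0,
    pkgs_place_eq hgen ht hf ht' hf' hU hrel ht0⟩

end Fermat.Agent.S15.LN
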