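import Fermat.Agent.ES.G2.HeckeNormCore
import Fermat.Agent.INJ.HMMem
import Fermat.Agent.ES.M.FrickeAut
import Fermat.Agent.ES.LR.Final
import Fermat.Agent.S20.Index

/-!
# S15 / LN-PKG, piece PKG-tv, part 1: the conjugates of `u ∈ F_N` over `ℚ̄(j)` (helper10)

`N` a prime.  The `N + 1` ring homomorphisms `F_N → Ω̄`, `Ω = ℚ̄((t))`,
`σ_∞ u = u(t^N)`, `σ_b u = (w_N u)(ζ^b t)` (`b < N`) agree on `ℚ̄(j)` and are pairwise distinct,
hence they are ALL the `ℚ̄(t₀)`-embeddings of `F_N` for every `t₀` with `ℚ̄(t₀)` of index `N + 1`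
on which they agree (`t₀ = j`, `t₀ = 1/j`).  Consequence (`pkgtv_minpoly_coeff_mem`): if all the
`σ_i u` lie in a subring `S` of `Ω̄`, so do the coefficients of the minimal polynomial of `u`.

Everything here is independent of valuation rings.
-/

set_option autoImplicit false
set_option linter.unusedSectionVars false
set_option linter.unusedVariables false
set_option linter.style.haveILetI false

noncomputable section

namespace Fermat.Agent.S15.LN

open ModularCurve AlgebraicCurve Polynomial IntermediateField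
open Fermat.Agent.ES Fermat.Agent.ES.M Fermat.Agent.ES.G2 Fermat.Agent.S24

variable (N : ℕ) [NeZero N]

/-- the embedding `σ_∞ : F_N → ℚ̄((t))‾`, `u ↦ u(t^N)` -/
def pkgtvInf : FF N →+* HnOmegaBar :=
  (algebraMap HnOmega HnOmegaBar).comp
    ((qExpand Kb N).comp (algebraMap (FF N) (LaurentSeries Kb)))

theorem pkgtvInf_apply (x : FF N) :
    pkgtvInf N x = algebraMap HnOmega HnOmegaBar (qExpand Kb N (x : LaurentSeries Kb)) := rfl

/-- the embedding `σ_c : F_N → ℚ̄((t))‾`, `u ↦ (w_N u)(c t)` -/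
def pkgtvRot (c : Kbˣ) : FF N →+* HnOmegaBar :=
  (algebraMap HnOmega HnOmegaBar).comp
    ((kronRot c).comp
      ((algebraMap (FF N) (LaurentSeries Kb)).comp
        ((frickeAut N : FF N ≃ₐ[Kb] FF N) : FF N →+* FF N)))

theorem pkgtvRot_apply (c : Kbˣ) (x : FF N) :
    pkgtvRot N c x =
      algebraMap HnOmega HnOmegaBar (kronRot c ((frickeAut N x : FF N) : LaurentSeries Kb)) := rfl

/-- the family of the `N + 1` conjugations -/
def pkgtvFam (ζ : Kbˣ) : Option (Fin N) → (FF N →+* HnOmegaBar)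
  | none => pkgtvInf N
  | some b => pkgtvRot N (ζ ^ (b : ℕ))

theorem pkgtv_coe_jF : ((jF N : FF N) : LaurentSeries Kb) = jBar := rfl

theorem pkgtv_coe_jN : ((jdF N N dvd_rfl : FF N) : LaurentSeries Kb) = qExpand Kb N jBar := by
  rw [jdF_coe, jBar, coeffEmb, coeffMap_qExpand]

theorem pkgtvInf_jF : pkgtvInf N (jF N) = algebraMap HnOmega HnOmegaBar (qExpand Kb N jBar) := rfl

theorem pkgtvRot_jF (c : Kbˣ) (hc : c ^ N = 1) :
    pkgtvRot N c (jF N) = algebraMap HnOmega HnOmegaBar (qExpand Kb N jBar) := by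
  rw [pkgtvRot_apply, frickeAut_jF, pkgtv_coe_jN, qExpand_kronRot_pow, hc, kronRot_one]

theorem pkgtvInf_jN :
    pkgtvInf N (jdF N N dvd_rfl) =
      algebraMap HnOmega HnOmegaBar (qExpand Kb N (qExpand Kb N jBar)) := by
  rw [pkgtvInf_apply, pkgtv_coe_jN]

theorem pkgtvRot_jN (c : Kbˣ) :
    pkgtvRot N c (jdF N N dvd_rfl) = algebraMap HnOmega HnOmegaBar (kronRot c jBar) := by
  rw [pkgtvRot_apply, ← frickeAut_jF, frickeAut_frickeAut, pkgtv_coe_jF]

theorem pkgtvFam_jF (ζ : Kbˣ) (hζ : ζ ^ N = 1) (i : Option (Fin N)) :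
    pkgtvFam N ζ i (jF N) = pkgtvInf N (jF N) := by
  cases i with
  | none => rfl
  | some b =>
      rw [pkgtvInf_jF]
      refine pkgtvRot_jF N _ ?_
      rw [← pow_mul, mul_comm, pow_mul, hζ, one_pow]

theorem pkgtv_coe_algebraMap (a : Kb) :
    ((algebraMap Kb (FF N) a : FF N) : LaurentSeries Kb) = HahnSeries.C a := by
  have h : ((algebraMap Kb (FF N) a : FF N) : LaurentSeries Kb) =
      algebraMap Kb (LaurentSeries Kb) a := rfl
  rw [h, LaurentSeries.algebraMap_apply]

theorem pkgtvFam_algebraMap (ζ : Kbˣ) (i : Option (Fin N)) (a : Kb) :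
    pkgtvFam N ζ i (algebraMap Kb (FF N) a) =
      algebraMap HnOmega HnOmegaBar (HahnSeries.C a) := by
  cases i with
  | none =>
      show pkgtvInf N _ = _
      rw [pkgtvInf_apply]
      have h : ((algebraMap Kb (FF N) a : FF N) : LaurentSeries Kb) = HahnSeries.C a :=
        pkgtv_coe_algebraMap N a
      rw [h, qExpand_C]
  | some b =>
      show pkgtvRot N _ _ = _
      rw [pkgtvRot_apply, AlgEquiv.commutes]
      have h : ((algebraMap Kb (FF N) a : FF N) : LaurentSeries Kb) = HahnSeries.C a :=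
        pkgtv_coe_algebraMap N a
      rw [h]
      congr 1
      ext n
      rw [kronRot_coeff]
      by_cases hn : n = 0
      · subst hn
        simp
      · have h0 : (HahnSeries.C a : LaurentSeries Kb).coeff n = 0 :=
          HahnSeries.coeff_single_of_ne hn
        rw [h0, mul_zero]

/-- the conjugations agree on `ℚ̄(t₀)` as soon as they agree at `t₀` -/
theorem pkgtvFam_eq_on (ζ : Kbˣ) (t₀ : FF N)
    (ht₀ : ∀ i, pkgtvFam N ζ i t₀ = pkgtvInf N t₀) (i : Option (Fin N)) (x : FF N)
    (hx : x ∈ Kb⟮t₀⟯) : pkgtvFam N ζ i x = pkgtvInf N x := by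
  induction hx using IntermediateField.adjoin_induction with
  | mem y hy =>
      rw [Set.mem_singleton_iff] at hy
      subst hy
      exact ht₀ i
  | algebraMap a =>
      rw [pkgtvFam_algebraMap]
      exact (pkgtvFam_algebraMap N ζ none a).symm
  | add a b _ _ iha ihb => rw [map_add, map_add, iha, ihb]
  | mul a b _ _ iha ihb => rw [map_mul, map_mul, iha, ihb]
  | inv a _ iha => rw [map_inv₀, map_inv₀, iha]

theorem pkgtv_jBar_coeff : (jBar : LaurentSeries Kb).coeff (-1) = 1 := hn_jBar_coeff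

theorem pkgtvFam_injective (hN : N.Prime) (ζ : Kbˣ) (hζ : IsPrimitiveRoot ζ N) :
    Function.Injective (pkgtvFam N ζ) := by
  have hcoef : ∀ b : Fin N, (kronRot (ζ ^ (b : ℕ)) jBar).coeff (-1)
      = (((ζ ^ (b : ℕ)) ^ (-1 : ℤ) : Kbˣ) : Kb) := by
    intro b
    rw [kronRot_coeff, pkgtv_jBar_coeff, mul_one]
  have hinf : (qExpand Kb N (qExpand Kb N jBar)).coeff (-1) = 0 := by
    apply qExpand_coeff_of_not_dvd
    intro hdvd
    have h1 : ((N : ℤ)) ∣ 1 := (dvd_neg).1 hdvd
    have h2 : N ∣ 1 := by exact_mod_cast h1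
    exact hN.one_lt.ne' (Nat.dvd_one.1 h2)
  have hvalInf : pkgtvFam N ζ none (jdF N N dvd_rfl)
      = algebraMap HnOmega HnOmegaBar (qExpand Kb N (qExpand Kb N jBar)) := pkgtvInf_jN N
  have hvalRot : ∀ b : Fin N, pkgtvFam N ζ (some b) (jdF N N dvd_rfl)
      = algebraMap HnOmega HnOmegaBar (kronRot (ζ ^ (b : ℕ)) jBar) :=
    fun b => pkgtvRot_jN N _
  intro i i' h
  have h' : pkgtvFam N ζ i (jdF N N dvd_rfl) = pkgtvFam N ζ i' (jdF N N dvd_rfl) := by rw [h]
  cases i with
  | none =>
      cases i' with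
      | none => rfl
      | some b' =>
          exfalso
          rw [hvalInf, hvalRot] at h'
          have h2 := congrArg (fun g : LaurentSeries Kb => g.coeff (-1))
            (hn_algebraMap_injective h')
          simp only [hinf, hcoef] at h2
          exact Units.ne_zero _ h2.symm
  | some b =>
      cases i' with
      | none =>
          exfalso
          rw [hvalInf, hvalRot] at h'
          have h2 := congrArg (fun g : LaurentSeries Kb => g.coeff (-1))
            (hn_algebraMap_injective h')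
          simp only [hinf, hcoef] at h2
          exact Units.ne_zero _ h2
      | some b' =>
          rw [hvalRot, hvalRot] at h'
          have h2 := congrArg (fun g : LaurentSeries Kb => g.coeff (-1))
            (hn_algebraMap_injective h')
          simp only [hcoef] at h2
          have h3 : (ζ ^ (b : ℕ)) ^ (-1 : ℤ) = (ζ ^ (b' : ℕ)) ^ (-1 : ℤ) := Units.ext h2
          have h4 : ζ ^ (b : ℕ) = ζ ^ (b' : ℕ) := by
            have := congrArg (fun u : Kbˣ => u⁻¹) h3
            simpa using this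
          have h5 : (b : ℕ) = (b' : ℕ) := hζ.pow_inj b.2 b'.2 h4
          exact congrArg some (Fin.ext h5)

/-- generic form: a complete list of embeddings with values in a subring -/
theorem pkgtv_minpoly_coeff_mem_gen {F F' E : Type*} [Field F] [Field F'] [Field E]
    [Algebra F F'] [Algebra F E] [FiniteDimensional F F'] [CharZero F]
    [IsAlgClosed E] {ι : Type*} [Fintype ι] (e : ι → (F' →ₐ[F] E)) (he : Function.Injective e)
    (hcard : Fintype.card ι = Module.finrank F F') (S : Subring E) (u : F')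
    (hu : ∀ i, e i u ∈ S) (n : ℕ) :
    algebraMap F E ((minpoly F u).coeff n) ∈ S := by
  classical
  have hbij : Function.Bijective e := by
    rw [Fintype.bijective_iff_injective_and_card]
    exact ⟨he, by rw [hcard, AlgHom.card F F' E]⟩
  set p : E[X] := (minpoly F u).map (algebraMap F E) with hp
  have hint : IsIntegral F u := Algebra.IsIntegral.isIntegral u
  have hmonic : p.Monic := (minpoly.monic hint).map _
  have hsplit : p.Splits := IsAlgClosed.splits p
  have hroots : ∀ r ∈ p.roots, r ∈ S := by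
    intro r hr
    have h1 : r ∈ (minpoly F u).rootSet E := by
      rw [Polynomial.mem_rootSet_of_ne (minpoly.ne_zero hint), Polynomial.aeval_def,
        Polynomial.eval₂_eq_eval_map]
      exact (Polynomial.mem_roots'.1 hr).2
    rw [← Algebra.IsAlgebraic.range_eval_eq_rootSet_minpoly E u] at h1
    obtain ⟨ψ, hψ⟩ := h1
    obtain ⟨i, hi⟩ := hbij.2 ψ
    have h2 : r = e i u := by
      rw [← hψ, ← hi]
    rw [h2]
    exact hu i
  have hlift : p ∈ Polynomial.lifts S.subtype := by
    rw [hsplit.eq_prod_roots_of_monic hmonic]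
    refine Subsemiring.multiset_prod_mem _ _ ?_
    intro f hf
    rw [Multiset.mem_map] at hf
    obtain ⟨r, hr, rfl⟩ := hf
    rw [Polynomial.mem_lifts]
    refine ⟨X - C ⟨r, hroots r hr⟩, ?_⟩
    simp
  have hc := (Polynomial.lifts_iff_coeff_lifts p).1 hlift n
  obtain ⟨s, hs⟩ := hc
  have h3 : p.coeff n = algebraMap F E ((minpoly F u).coeff n) := by
    rw [hp, Polynomial.coeff_map]
  rw [← h3, ← hs]
  exact s.2

/-- **the conjugates are all the roots**: if the `σ_i u` lie in a subring `S` of `Ω̄`, then so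
do the coefficients of the minimal polynomial of `u` over `ℚ̄(t₀)` (embedded by `σ_∞`). -/
theorem pkgtv_minpoly_coeff_mem (hN : N.Prime) (ζ : Kbˣ) (hζ : IsPrimitiveRoot ζ N) (t₀ : FF N)
    (ht₀ : ∀ i, pkgtvFam N ζ i t₀ = pkgtvInf N t₀)
    (hdeg : Module.finrank Kb⟮t₀⟯ (FF N) = N + 1)
    (S : Subring HnOmegaBar) (u : FF N) (hu : ∀ i, pkgtvFam N ζ i u ∈ S) (n : ℕ) :
    pkgtvInf N (((minpoly Kb⟮t₀⟯ u).coeff n : Kb⟮t₀⟯) : FF N) ∈ S := by
  classical
  let algE : Algebra Kb⟮t₀⟯ HnOmegaBar :=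
    ((pkgtvInf N).comp (algebraMap Kb⟮t₀⟯ (FF N))).toAlgebra
  have hfin : FiniteDimensional Kb⟮t₀⟯ (FF N) :=
    FiniteDimensional.of_finrank_pos (by rw [hdeg]; omega)
  have hchar : CharZero Kb⟮t₀⟯ :=
    charZero_of_injective_algebraMap (algebraMap Kb Kb⟮t₀⟯).injective
  let e : Option (Fin N) → (FF N →ₐ[Kb⟮t₀⟯] HnOmegaBar) := fun i =>
    { pkgtvFam N ζ i with
      commutes' := fun x => pkgtvFam_eq_on N ζ t₀ ht₀ i (x : FF N) x.2 }
  have he : Function.Injective e := by
    intro i i' h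
    apply pkgtvFam_injective N hN ζ hζ
    have := congrArg (fun g : FF N →ₐ[Kb⟮t₀⟯] HnOmegaBar => (g : FF N →+* HnOmegaBar)) h
    exact this
  have hcard : Fintype.card (Option (Fin N)) = Module.finrank Kb⟮t₀⟯ (FF N) := by
    rw [hdeg, Fintype.card_option, Fintype.card_fin]
  exact pkgtv_minpoly_coeff_mem_gen e he hcard S u hu n

end Fermat.Agent.S15.LN
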