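import Fermat.Agent.S15.PkgTVConj

/-!
# S15 / LN-PKG, piece PKG-tv, part 2: integrality over `A[t]` (helper10)

* `pkgtv_isIntegral` : regular wherever `t` is ⟹ integral over `ℚ̄[t]` (any transcendental `t`);
* `pkgtv_kronInt_gen` : Lemma R (a) for a root of a monic polynomial over `ℚ̄[J]`, `J` integral;
* `pkgtv_coeff_mem_inv`, `pkgtv_coeff_mem` : a polynomial in `1/j` (resp. `j`) with integral
  `q`-expansion has its coefficients in `A`;
* `pkgtv_minpoly_kronInt` : the coefficients of the minimal polynomial over `ℚ̄[t]` of `u` have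
  integral `q`-expansions if `u` and `w_N u` have.
-/

set_option autoImplicit false
set_option linter.unusedSectionVars false
set_option linter.unusedVariables false
set_option linter.style.haveILetI false

noncomputable section

namespace Fermat.Agent.S15.LN

open ModularCurve AlgebraicCurve Polynomial IntermediateField IsDedekindDomain
open Fermat.Agent.ES Fermat.Agent.ES.M Fermat.Agent.ES.G2 Fermat.Agent.S24 Fermat.Agent.ES.LR

variable (N : ℕ) [NeZero N]

/-! ### regular wherever `t` is ⟹ integral over `ℚ̄[t]` -/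

theorem pkgtv_isIntegral (t : FF N) (ht : Transcendental Kb t) [FiniteDimensional Kb⟮t⟯ (FF N)]
    (x : FF N) (hx : ∀ P : Place Kb (FF N), 0 ≤ P.ord t → 0 ≤ P.ord x) :
    letI := polyAlgebra (K := Kb) t
    IsIntegral Kb[X] x := by
  letI := polyAlgebra (K := Kb) t
  obtain ⟨hDed, hFrac, -⟩ := intClosure_facts (K := Kb) t ht
  have hj0 : t ≠ 0 := fun h => ht (h ▸ isAlgebraic_zero)
  have hall : ∀ w : HeightOneSpectrum (intClosure (K := Kb) t),
      w.valuation (FF N) x ≤ 1 := by
    intro w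
    set P : Place Kb (FF N) := placeOfPrime (PlacesAux.hK (K := Kb) t) w with hP
    have hjmem : t ∈ P.toValuationSubring := by
      rw [hP, placeOfPrime_toValuationSubring, Valuation.mem_valuationSubring_iff]
      have h1 := w.valuation_le_one (K := FF N)
        (algebraMap Kb[X] (intClosure (K := Kb) t) X)
      have h2 : algebraMap (intClosure (K := Kb) t) (FF N)
          (algebraMap Kb[X] (intClosure (K := Kb) t) X) = t :=
        PlacesAux.algebraMap_X (K := Kb) t
      exact le_of_eq_of_le (congrArg (w.valuation (FF N)) h2).symm h1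
    have hj : 0 ≤ P.ord t := (PlaceAux.ord_nonneg_iff P hj0).2 hjmem
    have hxmem := PlaceAux.mem_of_ord_nonneg P (hx P hj)
    rwa [hP, placeOfPrime_toValuationSubring, Valuation.mem_valuationSubring_iff] at hxmem
  obtain ⟨r, hr⟩ := HeightOneSpectrum.mem_integers_of_valuation_le_one (FF N) x hall
  rw [← hr]
  exact r.2

/-! ### Lemma R (a), general coordinate -/

theorem pkgtv_kronInt_gen (A : ValuationSubring Kb) (hA : Arch A) (J : LaurentSeries Kb)
    (hJ : KronInt A J) (x : FF N) (p : Kb[X][X]) (hp : p.Monic)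
    (hz : Polynomial.eval₂ (Polynomial.aeval J).toRingHom (x : LaurentSeries Kb) p = 0)
    (hG : GaussInt N A x) : KronInt A (x : LaurentSeries Kb) := by
  obtain ⟨w, Y₁, Y₂, -, -, hY₂, hfrac, -⟩ := hG
  have hY₂0 : kronIncl A Y₂ ≠ 0 := by
    intro h0
    apply hY₂
    have h1 : Y₂ = 0 := kronIncl_injective (A := A) (h0.trans (map_zero _).symm)
    rw [h1, map_zero]
  obtain ⟨c, hc0, hcx⟩ := exists_kronInt_C_mul hA hJ (kronInt_kronIncl Y₁)
    (kronInt_kronIncl Y₂) hY₂0 hfrac p hp hz
  exact kronInt_of_bounded hA hc0 hcx (kronInt_kronIncl Y₁) ((kronPrim_kronIncl_iff Y₂).2 hY₂)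
    hfrac

/-- the integrality equation of `x` over `ℚ̄[t]`, read in `ℚ̄((q))` -/
theorem pkgtv_eval₂_coe (t x : FF N) (p : Kb[X][X])
    (hpz : Polynomial.eval₂ (Polynomial.aeval (R := Kb) t).toRingHom x p = 0) :
    Polynomial.eval₂ (Polynomial.aeval (R := Kb) (t : LaurentSeries Kb)).toRingHom
      (x : LaurentSeries Kb) p = 0 := by
  have hcomp : (modularFunctionFieldBar N).val.toRingHom.comp
      (Polynomial.aeval (R := Kb) t).toRingHom =
      (Polynomial.aeval (t : LaurentSeries Kb)).toRingHom := by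
    have h1 : (Polynomial.aeval (R := Kb) (t : LaurentSeries Kb)) =
        (modularFunctionFieldBar N).val.comp (Polynomial.aeval t) :=
      Polynomial.aeval_algHom (modularFunctionFieldBar N).val t
    rw [h1]
    rfl
  have h1 := Polynomial.hom_eval₂ p (Polynomial.aeval (R := Kb) t).toRingHom
    (modularFunctionFieldBar N).val.toRingHom x
  rw [hpz, map_zero, hcomp] at h1
  exact h1.symm

/-- transport of an integrality equation by an automorphism -/
theorem pkgtv_eval₂_aut (w : FF N ≃ₐ[Kb] FF N) (t x : FF N) (p : Kb[X][X])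
    (hpz : Polynomial.eval₂ (Polynomial.aeval (R := Kb) t).toRingHom x p = 0) :
    Polynomial.eval₂ (Polynomial.aeval (R := Kb) (w t)).toRingHom (w x) p = 0 := by
  have hcomp : ((w : FF N →ₐ[Kb] FF N) : FF N →+* FF N).comp
      (Polynomial.aeval (R := Kb) t).toRingHom =
      (Polynomial.aeval (w t)).toRingHom := by
    have h1 : (Polynomial.aeval (R := Kb) (w t)) =
        (w : FF N →ₐ[Kb] FF N).comp (Polynomial.aeval t) :=
      Polynomial.aeval_algHom (w : FF N →ₐ[Kb] FF N) t
    rw [h1]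
    rfl
  have h1 := Polynomial.hom_eval₂ p (Polynomial.aeval (R := Kb) t).toRingHom
    ((w : FF N →ₐ[Kb] FF N) : FF N →+* FF N) x
  rw [hpz, map_zero, hcomp] at h1
  exact h1.symm

/-! ### `1/j` as a power series -/

/-- `1/j = q · (unit)` as a power series with integer coefficients -/
def pkgtvJinvZ : PowerSeries ℤ := PowerSeries.X * PowerSeries.invOfUnit jNum 1

theorem pkgtv_constantCoeff_jinvZ : PowerSeries.constantCoeff pkgtvJinvZ = 0 := by
  rw [pkgtvJinvZ, map_mul, PowerSeries.constantCoeff_X, zero_mul]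

/-- `1/j` as a power series over `ℚ̄` -/
def pkgtvJinvPS : PowerSeries Kb := pkgtvJinvZ.map (Int.castRingHom Kb)

theorem pkgtv_constantCoeff_jinvPS : PowerSeries.constantCoeff pkgtvJinvPS = 0 := by
  rw [pkgtvJinvPS, ← PowerSeries.coeff_zero_eq_constantCoeff, PowerSeries.coeff_map,
    PowerSeries.coeff_zero_eq_constantCoeff, pkgtv_constantCoeff_jinvZ, map_zero]

theorem pkgtv_jBar_mul_jinv :
    (jBar : LaurentSeries Kb) * HahnSeries.ofPowerSeries ℤ Kb pkgtvJinvPS = 1 := by
  have hj : (jBar : LaurentSeries Kb) = HahnSeries.single (-1 : ℤ) 1 *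
      HahnSeries.ofPowerSeries ℤ Kb (jNum.map (Int.castRingHom Kb)) := by
    rw [Fermat.Agent.INJ.hmMem_jBar_eq]
    rfl
  have h1 : jNum * PowerSeries.invOfUnit jNum 1 = 1 :=
    PowerSeries.mul_invOfUnit jNum 1 (by rw [constantCoeff_jNum]; rfl)
  have h2 : (jNum.map (Int.castRingHom Kb)) * pkgtvJinvPS = PowerSeries.X := by
    rw [pkgtvJinvPS, ← map_mul, pkgtvJinvZ, ← mul_assoc, mul_comm jNum PowerSeries.X, mul_assoc,
      h1, mul_one, PowerSeries.map_X]
  rw [hj, mul_assoc, ← map_mul, h2, HahnSeries.ofPowerSeries_X, HahnSeries.single_mul_single]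
  simp

theorem pkgtv_jBar_ne_zero : (jBar : LaurentSeries Kb) ≠ 0 := by
  intro h
  have := pkgtv_jBar_mul_jinv
  rw [h, zero_mul] at this
  exact zero_ne_one this

theorem pkgtv_jBar_inv :
    (jBar : LaurentSeries Kb)⁻¹ = HahnSeries.ofPowerSeries ℤ Kb pkgtvJinvPS :=
  inv_eq_of_mul_eq_one_right pkgtv_jBar_mul_jinv

theorem pkgtv_kronInt_jinv (A : ValuationSubring Kb) : KronInt A (jBar : LaurentSeries Kb)⁻¹ := by
  rw [pkgtv_jBar_inv]
  intro n
  by_cases hn : n < 0
  · rw [ofPowerSeries_coeff_of_neg _ hn]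
    exact A.zero_mem
  · obtain ⟨m, rfl⟩ := Int.eq_ofNat_of_zero_le (not_lt.1 hn)
    rw [HahnSeries.ofPowerSeries_apply_coeff, pkgtvJinvPS, PowerSeries.coeff_map]
    exact arch_intCast_mem A _

/-! ### a polynomial in `1/j` or `j` with integral expansion -/

section PolyCoeff

variable {L : Type*} [Field L] {A : ValuationSubring L}

theorem pkgtv_kronInt_sub {f g : LaurentSeries L} (hf : KronInt A f) (hg : KronInt A g) :
    KronInt A (f - g) := by
  rw [← mem_intSub] at hf hg ⊢
  exact Subring.sub_mem _ hf hg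

theorem pkgtv_kronInt_add {f g : LaurentSeries L} (hf : KronInt A f) (hg : KronInt A g) :
    KronInt A (f + g) := by
  rw [← mem_intSub] at hf hg ⊢
  exact Subring.add_mem _ hf hg

/-- the constant term of a polynomial in a power series without constant term -/
theorem pkgtv_aeval_coeff_zero (S : PowerSeries L) (hS : PowerSeries.constantCoeff S = 0)
    (d : L[X]) :
    (Polynomial.aeval (HahnSeries.ofPowerSeries ℤ L S) d).coeff 0 = d.coeff 0 := by
  have h1 : Polynomial.aeval (HahnSeries.ofPowerSeries ℤ L S) d =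
      HahnSeries.ofPowerSeries ℤ L (Polynomial.aeval S d) := by
    rw [Polynomial.aeval_def, Polynomial.aeval_def]
    have h := Polynomial.hom_eval₂ d (algebraMap L (PowerSeries L))
      (HahnSeries.ofPowerSeries ℤ L) S
    rw [h]
    congr 1
  rw [h1, show (0 : ℤ) = ((0 : ℕ) : ℤ) from rfl, HahnSeries.ofPowerSeries_apply_coeff,
    PowerSeries.coeff_zero_eq_constantCoeff]
  have h2 := Polynomial.hom_eval₂ d (algebraMap L (PowerSeries L))
    (PowerSeries.constantCoeff (R := L)) S
  rw [Polynomial.aeval_def]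
  erw [h2]
  rw [hS]
  have h3 : (PowerSeries.constantCoeff (R := L)).comp (algebraMap L (PowerSeries L)) =
      RingHom.id L := by
    ext a
    simp
  rw [h3, Polynomial.eval₂_id, ← Polynomial.coeff_zero_eq_eval_zero]

/-- **coefficients in `A`, coordinate `s = q · (unit)`** -/
theorem pkgtv_coeff_mem_ps (S : PowerSeries L) (hS : PowerSeries.constantCoeff S = 0)
    (s' : LaurentSeries L) (hs' : KronInt A s')
    (hss' : HahnSeries.ofPowerSeries ℤ L S * s' = 1) (d : L[X])
    (hd : KronInt A (Polynomial.aeval (HahnSeries.ofPowerSeries ℤ L S) d)) :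
    ∀ k, d.coeff k ∈ A := by
  induction d using Polynomial.recOnHorner with
  | M0 =>
      intro k
      rw [Polynomial.coeff_zero]
      exact A.zero_mem
  | MC p a hp0 ha ih =>
      have h0 := hd 0
      rw [pkgtv_aeval_coeff_zero S hS, Polynomial.coeff_add, hp0, zero_add,
        Polynomial.coeff_C_zero] at h0
      have h1 : KronInt A (Polynomial.aeval (HahnSeries.ofPowerSeries ℤ L S) p) := by
        have h2 : Polynomial.aeval (HahnSeries.ofPowerSeries ℤ L S) p =
            Polynomial.aeval (HahnSeries.ofPowerSeries ℤ L S) (p + C a) - HahnSeries.C a := by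
          rw [map_add, Polynomial.aeval_C, LaurentSeries.algebraMap_apply, add_sub_cancel_right]
        rw [h2]
        exact pkgtv_kronInt_sub hd (kronInt_C h0)
      intro k
      rw [Polynomial.coeff_add]
      refine A.add_mem _ _ (ih h1 k) ?_
      rw [Polynomial.coeff_C]
      split_ifs
      · exact h0
      · exact A.zero_mem
  | MX p hp ih =>
      have h1 : KronInt A (Polynomial.aeval (HahnSeries.ofPowerSeries ℤ L S) p) := by
        have h2 : Polynomial.aeval (HahnSeries.ofPowerSeries ℤ L S) p =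
            Polynomial.aeval (HahnSeries.ofPowerSeries ℤ L S) (p * X) * s' := by
          rw [map_mul, Polynomial.aeval_X, mul_assoc, hss', mul_one]
        rw [h2]
        exact hd.mul hs'
      intro k
      cases k with
      | zero =>
          rw [Polynomial.coeff_mul_X_zero]
          exact A.zero_mem
      | succ k =>
          rw [Polynomial.coeff_mul_X]
          exact ih h1 k

end PolyCoeff

/-- **coefficients in `A`, coordinate `1/j`** -/
theorem pkgtv_coeff_mem_inv (A : ValuationSubring Kb) (d : Kb[X])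
    (hd : KronInt A (Polynomial.aeval (jBar : LaurentSeries Kb)⁻¹ d)) : ∀ k, d.coeff k ∈ A := by
  rw [pkgtv_jBar_inv] at hd
  refine pkgtv_coeff_mem_ps pkgtvJinvPS pkgtv_constantCoeff_jinvPS jBar (kronInt_jBar A) ?_ d hd
  rw [mul_comm]
  exact pkgtv_jBar_mul_jinv

/-- **coefficients in `A`, coordinate `j`** -/
theorem pkgtv_coeff_mem (A : ValuationSubring Kb) (d : Kb[X])
    (hd : KronInt A (Polynomial.aeval (jBar : LaurentSeries Kb) d)) : ∀ k, d.coeff k ∈ A := by
  letI : Invertible (jBar : LaurentSeries Kb) := invertibleOfNonzero pkgtv_jBar_ne_zero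
  have h1 := Polynomial.eval₂_reverse_mul_pow (algebraMap Kb (LaurentSeries Kb))
    (jBar : LaurentSeries Kb) d
  rw [invOf_eq_inv] at h1
  have h2 : Polynomial.aeval (jBar : LaurentSeries Kb)⁻¹ d.reverse =
      Polynomial.aeval (jBar : LaurentSeries Kb) d * ((jBar : LaurentSeries Kb)⁻¹) ^ d.natDegree := by
    rw [Polynomial.aeval_def, Polynomial.aeval_def, ← h1, mul_assoc, ← mul_pow,
      mul_inv_cancel₀ pkgtv_jBar_ne_zero, one_pow, mul_one]
  have h3 : KronInt A (Polynomial.aeval (jBar : LaurentSeries Kb)⁻¹ d.reverse) := by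
    rw [h2]
    exact hd.mul ((pkgtv_kronInt_jinv A).pow _)
  have h4 := pkgtv_coeff_mem_inv A d.reverse h3
  intro k
  by_cases hk : k ≤ d.natDegree
  · have h5 := h4 (Polynomial.revAt d.natDegree k)
    rwa [Polynomial.coeff_reverse, Polynomial.revAt_invol] at h5
  · rw [Polynomial.coeff_eq_zero_of_natDegree_lt (not_le.1 hk)]
    exact A.zero_mem

/-! ### the conjugates of an element with integral expansions -/

/-- the subring of `Ω̄` of the images of the `A`-integral series -/
def pkgtvS (A : ValuationSubring Kb) : Subring HnOmegaBar :=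
  (intSub A).map (algebraMap HnOmega HnOmegaBar)

theorem pkgtv_mem_S {A : ValuationSubring Kb} {f : LaurentSeries Kb} :
    algebraMap HnOmega HnOmegaBar f ∈ pkgtvS A ↔ KronInt A f := by
  rw [pkgtvS, Subring.mem_map]
  constructor
  · rintro ⟨g, hg, hgf⟩
    have h : g = f := hn_algebraMap_injective hgf
    rw [← h]
    exact mem_intSub.1 hg
  · intro hf
    exact ⟨f, mem_intSub.2 hf, rfl⟩

theorem pkgtv_kronInt_kronRot (A : ValuationSubring Kb) (c : Kbˣ) (n : ℕ) (hn : n ≠ 0)
    (hc : c ^ n = 1) {f : LaurentSeries Kb} (hf : KronInt A f) : KronInt A (kronRot c f) := by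
  obtain ⟨F, rfl⟩ := hf.exists_lift
  obtain ⟨cA, rfl⟩ := kron_exists_unit_lift A hn c hc
  have h1 : kronRot (Units.map (A.subtype : A →* Kb) cA) (kronIncl A F)
      = kronIncl A (kronRot cA F) := (coeffMap_kronRot A.subtype cA F).symm
  rw [h1]
  exact kronInt_kronIncl _

theorem pkgtv_kronInt_of_qExpand (A : ValuationSubring Kb) (M : ℕ) [NeZero M]
    {f : LaurentSeries Kb} (h : KronInt A (qExpand Kb M f)) : KronInt A f := by
  intro n
  have h1 := h ((M : ℤ) * n)
  rwa [qExpand_coeff_mul] at h1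

theorem pkgtvFam_mem_S (A : ValuationSubring Kb) (ζ : Kbˣ) (hζ : ζ ^ N = 1) (u : FF N)
    (hu₁ : KronInt A (u : LaurentSeries Kb))
    (hu₂ : KronInt A ((frickeAut N u : FF N) : LaurentSeries Kb)) (i : Option (Fin N)) :
    pkgtvFam N ζ i u ∈ pkgtvS A := by
  cases i with
  | none =>
      show pkgtvInf N u ∈ _
      rw [pkgtvInf_apply, pkgtv_mem_S]
      exact hu₁.qExpand N
  | some b =>
      show pkgtvRot N _ u ∈ _
      rw [pkgtvRot_apply, pkgtv_mem_S]
      refine pkgtv_kronInt_kronRot A _ N (NeZero.ne N) ?_ hu₂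
      rw [← pow_mul, mul_comm, pow_mul, hζ, one_pow]

/-- a primitive `N`-th root of unity in `ℚ̄` -/
theorem pkgtv_exists_primitiveRoot (n : ℕ) (hn : n ≠ 0) : ∃ ζ : Kbˣ, IsPrimitiveRoot ζ n := by
  haveI : NeZero ((n : ℕ) : Kb) := ⟨by exact_mod_cast hn⟩
  haveI := IsSepClosed.hasEnoughRootsOfUnity Kb n
  obtain ⟨ζ, hζ⟩ := HasEnoughRootsOfUnity.exists_primitiveRoot Kb n
  obtain ⟨u, rfl⟩ := hζ.isUnit hn
  exact ⟨u, IsPrimitiveRoot.coe_units_iff.mp hζ⟩

/-- the minimal polynomial over `ℚ̄(t)` comes from `ℚ̄[t]` -/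
theorem pkgtv_minpoly_eq (t : FF N) (ht : Transcendental Kb t) (u : FF N)
    (hint : letI := polyAlgebra (K := Kb) t; IsIntegral Kb[X] u) :
    letI := polyAlgebra (K := Kb) t
    letI := polyAlgebraAdjoin (K := Kb) t
    minpoly Kb⟮t⟯ u = (minpoly Kb[X] u).map (algebraMap Kb[X] Kb⟮t⟯) := by
  letI := polyAlgebra (K := Kb) t
  letI := polyAlgebraAdjoin (K := Kb) t
  haveI := polyAlgebraAdjoin_tower (K := Kb) t
  haveI := polyAlgebraAdjoin_isFractionRing (K := Kb) t ht
  exact minpoly.isIntegrallyClosed_eq_field_fractions' Kb⟮t⟯ hint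

/-- **the coefficients of the minimal polynomial have integral expansions** -/
theorem pkgtv_minpoly_kronInt (hN : N.Prime) (A : ValuationSubring Kb) (t : FF N)
    (ht : Transcendental Kb t)
    (htfam : ∀ ζ : Kbˣ, ζ ^ N = 1 → ∀ i, pkgtvFam N ζ i t = pkgtvInf N t)
    (hdeg : Module.finrank Kb⟮t⟯ (FF N) = N + 1)
    (u : FF N) (hint : letI := polyAlgebra (K := Kb) t; IsIntegral Kb[X] u)
    (hu₁ : KronInt A (u : LaurentSeries Kb))
    (hu₂ : KronInt A ((frickeAut N u : FF N) : LaurentSeries Kb)) (n : ℕ) :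
    letI := polyAlgebra (K := Kb) t
    KronInt A (Polynomial.aeval (t : LaurentSeries Kb) ((minpoly Kb[X] u).coeff n)) := by
  letI := polyAlgebra (K := Kb) t
  letI := polyAlgebraAdjoin (K := Kb) t
  haveI := polyAlgebraAdjoin_tower (K := Kb) t
  obtain ⟨ζ, hζ⟩ := pkgtv_exists_primitiveRoot N (NeZero.ne N)
  have key := pkgtv_minpoly_coeff_mem N hN ζ hζ t (htfam ζ hζ.pow_eq_one) hdeg (pkgtvS A) u
    (pkgtvFam_mem_S N A ζ hζ.pow_eq_one u hu₁ hu₂) n
  rw [pkgtv_minpoly_eq N t ht u hint, Polynomial.coeff_map] at key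
  set d : Kb[X] := (minpoly Kb[X] u).coeff n with hd
  have h1 : ((algebraMap Kb[X] Kb⟮t⟯ d : Kb⟮t⟯) : FF N) = Polynomial.aeval t d := by
    have h := (IsScalarTower.algebraMap_apply Kb[X] Kb⟮t⟯ (FF N) d).symm
    exact h
  have h2 : ((Polynomial.aeval t d : FF N) : LaurentSeries Kb) =
      Polynomial.aeval (t : LaurentSeries Kb) d := by
    have h := Polynomial.aeval_algHom_apply (modularFunctionFieldBar N).val t d
    exact h.symm
  rw [h1, pkgtvInf_apply, pkgtv_mem_S, h2] at key
  exact pkgtv_kronInt_of_qExpand A N key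

end Fermat.Agent.S15.LN
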