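import Fermat.Agent.W1.PlanGeo4
import Fermat.Agent.S15.Cusp
import Fermat.Agent.S15.OggUnit

/-!
# S15 block LOCAL-N (TORIC): exact statements (sub-captain helper5)

Plan: `NOTES/S15-LocalN.md`.  `N` the (prime) level, `A ⊂ ℚ̄` a valuation ring over `N`,
`J = JZero N`.  The special fibre of `X₀(N)` at `N` is a union of two rational curves `C₁ ∋ ∞`,
`C₂ ∋ 0` crossing at the supersingular points.

## Part 1: what the descent (block SELMER) consumes — `LNPkg`, `LNPkg.IsLN`
Two subgroups `J1 ≤ J0 ≤ J`: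
`J0` = classes of divisors supported on places of smooth type, of degree `0` on each component,
`J1` = kernel of the reduction `J0 → T(k)` to the torus of the special fibre.

## Part 2: the abstract two-component reduction package — `TRData`, `TRData.IsTR`
(`onto`, `slope`, `glue_unit` are NOT axioms: they are proved in `S15/LNDerived.lean` from `r_div`,
`glue` and the degree count.)
The analogue of `W1.PRData` for a special fibre with two rational components: two Gauss valuation
rings `O₁, O₂` with residue fields `F₁, F₂`, the reduction `r` of the places of smooth type, the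
crossing pairs `X`.  Pieces: `StmtTorTF`, `StmtTorDiv`, `StmtTorQuot`, `StmtTorCount`.

## Part 3: the modular package — `ModTR`, `StmtModTR`, and the glue `StmtLNGlue`.
-/

set_option autoImplicit false

noncomputable section

open AlgebraicCurve Module ModularCurve

namespace Fermat.Agent.S15.LN

open Fermat.Agent.W1 Fermat.Agent.S24 Fermat.Agent.S15

/-! ## Part 1: the interface consumed by the descent -/

/-- the two subgroups at `A ∣ N` -/
structure LNPkg (N : ℕ) [NeZero N] where
  /-- classes of degree `0` on each component (the points of the torus part `T(A)`) -/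
  J0 : AddSubgroup (JZero N)
  /-- kernel of reduction of `J0` -/
  J1 : AddSubgroup (JZero N)

/-- the properties of the toric filtration at `A ∣ N` (`g` = genus = rank of the torus). -/
structure LNPkg.IsLN {N : ℕ} [NeZero N] (P : LNPkg N) (A : ValuationSubring Kb) (g : ℕ) :
    Prop where
  le : P.J1 ≤ P.J0
  decomp0 : ∀ σ ∈ A.decompositionSubgroup ℚ, ∀ x ∈ P.J0, σ • x ∈ P.J0
  decomp1 : ∀ σ ∈ A.decompositionSubgroup ℚ, ∀ x ∈ P.J1, σ • x ∈ P.J1
  /-- inertia acts trivially on `J0 / J1` -/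
  inertia : ∀ σ ∈ A.inertiaSubgroupIn ℚ, ∀ x ∈ P.J0, σ • x - x ∈ P.J1
  /-- `J0` is stable under the Hecke operators `T_q`, `q ≠ N` -/
  hecke : ∀ q : Nat.Primes, (q : ℕ) ≠ N → ∀ x ∈ P.J0, heckeOperatorBar N q x ∈ P.J0
  /-- `J1` has no `m`-torsion, `m` prime to the residue characteristic -/
  tf : ∀ m : ℕ, (m : Kb) ∉ A.nonunits → ∀ x ∈ P.J1, m • x = 0 → x = 0
  /-- `J1` is `m`-divisible, `m` prime to the residue characteristic -/
  div1 : ∀ m : ℕ, (m : Kb) ∉ A.nonunits → ∀ x ∈ P.J1, ∃ y ∈ P.J1, m • y = x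
  /-- `J0 / J1` (a torus over an algebraically closed field) is divisible -/
  quot : ∀ m : ℕ, m ≠ 0 → ∀ x ∈ P.J0, ∃ y ∈ P.J0, x - m • y ∈ P.J1
  /-- the toric part of the `m`-torsion has `m ^ g` elements -/
  count : ∀ m : ℕ, (m : Kb) ∉ A.nonunits →
    Nat.card ↥(P.J0 ⊓ Pic0.torsion Kb (FF N) m) = m ^ g

/-! ## Part 2: the abstract two-component reduction package -/

section Abstract

variable {K F k F₁ F₂ : Type} [Field K] [Field F] [Algebra K F] [Field k]
  [Field F₁] [Algebra k F₁] [Field F₂] [Algebra k F₂]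

variable (K F k F₁ F₂) in
/-- The data of a reduction with two components: residue map of `A`, the two Gauss valuation rings
of `F` with their residue maps to the function fields `F₁`, `F₂` of the components, the reduction
of the places of smooth type (`none` : the place reduces to a crossing point), and the crossing
points as pairs (point of `C₁`, point of `C₂`). -/
structure TRData (A : ValuationSubring K) where
  res : A →+* k
  O₁ : ValuationSubring F
  O₂ : ValuationSubring F
  red₁ : O₁ →+* F₁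
  red₂ : O₂ →+* F₂
  r : Place K F → Option (Place k F₁ ⊕ Place k F₂)
  X : Finset (Place k F₁ × Place k F₂)

variable {A : ValuationSubring K}

/-- the contribution of a place to the push-forward on the first component -/
def TRData.pt₁ (R : TRData K F k F₁ F₂ A) (P : Place K F) : ℤ →+ Divisor k F₁ :=
  match R.r P with
  | some (Sum.inl Q) => Finsupp.singleAddHom Q
  | _ => 0

/-- the contribution of a place to the push-forward on the second component -/
def TRData.pt₂ (R : TRData K F k F₁ F₂ A) (P : Place K F) : ℤ →+ Divisor k F₂ :=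
  match R.r P with
  | some (Sum.inr Q) => Finsupp.singleAddHom Q
  | _ => 0

/-- `r_*` on the first component: the places of smooth type reducing to `C₁` -/
def TRData.push₁ (R : TRData K F k F₁ F₂ A) : Divisor K F →+ Divisor k F₁ :=
  Finsupp.liftAddHom R.pt₁

/-- `r_*` on the second component -/
def TRData.push₂ (R : TRData K F k F₁ F₂ A) : Divisor K F →+ Divisor k F₂ :=
  Finsupp.liftAddHom R.pt₂

/-- divisors supported on places of smooth type -/
def TRData.smDiv (R : TRData K F k F₁ F₂ A) : AddSubgroup (Divisor K F) where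
  carrier := {D | ∀ P, D P ≠ 0 → (R.r P).isSome}
  zero_mem' := fun P h => absurd rfl h
  add_mem' := by
    intro D E hD hE P h
    by_cases hP : D P = 0
    · refine hE P fun hE0 => h ?_
      rw [Finsupp.add_apply, hP, hE0, add_zero]
    · exact hD P hP
  neg_mem' := by
    intro D hD P h
    refine hD P fun h0 => h ?_
    rw [Finsupp.neg_apply, h0, neg_zero]

/-- divisors of smooth type and of degree `0` on each component -/
def TRData.div00 (R : TRData K F k F₁ F₂ A) : AddSubgroup (Divisor K F) :=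
  R.smDiv ⊓ (Divisor.degree.comp R.push₁).ker ⊓ (Divisor.degree.comp R.push₂).ker

/-- regular at every crossing point, with the same value on both branches -/
def TRData.Glued (R : TRData K F k F₁ F₂ A) (f₁ : F₁) (f₂ : F₂) : Prop :=
  ∀ x ∈ R.X, ∃ a : k, HasValueAt x.1 f₁ a ∧ HasValueAt x.2 f₂ a

/-- a unit at every crossing point, with the same value on both branches -/
def TRData.GluedUnit (R : TRData K F k F₁ F₂ A) (f₁ : F₁) (f₂ : F₂) : Prop :=
  ∀ x ∈ R.X, ∃ a : k, a ≠ 0 ∧ HasValueAt x.1 f₁ a ∧ HasValueAt x.2 f₂ a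

/-- the pair of divisors `(E₁, E₂)` is the divisor of a rational function on the nodal curve
`C₁ ∪ C₂` which is a unit at the crossing points -/
def TRData.IsPrincBar (R : TRData K F k F₁ F₂ A) (E : Divisor k F₁ × Divisor k F₂) : Prop :=
  ∃ (f₁ : F₁) (f₂ : F₂), f₁ ≠ 0 ∧ f₂ ≠ 0 ∧ R.GluedUnit f₁ f₂ ∧
    (∀ Q, E.1 Q = Q.ord f₁) ∧ ∀ Q, E.2 Q = Q.ord f₂

/-- principal divisors of the nodal curve (the set `IsPrincBar` is a subgroup; the closure is
taken only to have no proof obligation here) -/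
def TRData.princBar (R : TRData K F k F₁ F₂ A) : AddSubgroup (Divisor k F₁ × Divisor k F₂) :=
  AddSubgroup.closure {E | R.IsPrincBar E}

/-- divisors of type `(0, 0)` whose reduction is principal on the nodal curve -/
def TRData.div1 (R : TRData K F k F₁ F₂ A) : AddSubgroup (Divisor K F) :=
  R.div00 ⊓ R.princBar.comap (R.push₁.prod R.push₂)

/-- the class map `Div⁰ → Pic⁰` -/
def pic0Hom (K F : Type) [Field K] [Field F] [Algebra K F] :
    ↥(Divisor.degZero (K := K) (F := F)) →+ Pic0 K F :=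
  QuotientAddGroup.mk' _

/-- `J⁰`: classes of the divisors of smooth type which have degree `0` on each component -/
def TRData.J0 (R : TRData K F k F₁ F₂ A) : AddSubgroup (Pic0 K F) :=
  (R.div00.addSubgroupOf Divisor.degZero).map (pic0Hom K F)

/-- `J¹`: the kernel of the reduction `J⁰ → Pic⁰(C₁ ∪ C₂) = T(k)` -/
def TRData.J1 (R : TRData K F k F₁ F₂ A) : AddSubgroup (Pic0 K F) :=
  (R.div1.addSubgroupOf Divisor.degZero).map (pic0Hom K F)

/-- The axioms of a two-component reduction. -/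
structure TRData.IsTR (R : TRData K F k F₁ F₂ A) : Prop where
  res_surjective : Function.Surjective R.res
  res_eq_zero_iff : ∀ a : A, R.res a = 0 ↔ (a : K) ∈ A.nonunits
  algebraMap_mem_iff₁ : ∀ a : K, algebraMap K F a ∈ R.O₁ ↔ a ∈ A
  algebraMap_mem_iff₂ : ∀ a : K, algebraMap K F a ∈ R.O₂ ↔ a ∈ A
  red₁_surjective : Function.Surjective R.red₁
  red₂_surjective : Function.Surjective R.red₂
  red₁_eq_zero_iff : ∀ x : R.O₁, R.red₁ x = 0 ↔ (x : F) ∈ R.O₁.nonunits
  red₂_eq_zero_iff : ∀ x : R.O₂, R.red₂ x = 0 ↔ (x : F) ∈ R.O₂.nonunits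
  red₁_algebraMap : ∀ (a : A) (h : algebraMap K F (a : K) ∈ R.O₁),
    R.red₁ ⟨algebraMap K F (a : K), h⟩ = algebraMap k F₁ (R.res a)
  red₂_algebraMap : ∀ (a : A) (h : algebraMap K F (a : K) ∈ R.O₂),
    R.red₂ ⟨algebraMap K F (a : K), h⟩ = algebraMap k F₂ (R.res a)
  prim₁ : ∀ f : F, f ≠ 0 → ∃ a : K, a ≠ 0 ∧ ∃ h : algebraMap K F a * f ∈ R.O₁,
    R.red₁ ⟨algebraMap K F a * f, h⟩ ≠ 0
  prim₂ : ∀ f : F, f ≠ 0 → ∃ a : K, a ≠ 0 ∧ ∃ h : algebraMap K F a * f ∈ R.O₂,
    R.red₂ ⟨algebraMap K F a * f, h⟩ ≠ 0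
  /-- the two components are different -/
  indep : ∃ f : F, f ∈ R.O₁.nonunits ∧ f ∉ R.O₂.nonunits ∧ f ∈ R.O₂
  /-- a place of smooth type does not reduce to a crossing point -/
  cross₁ : ∀ P Q, R.r P = some (Sum.inl Q) → ∀ x ∈ R.X, x.1 ≠ Q
  cross₂ : ∀ P Q, R.r P = some (Sum.inr Q) → ∀ x ∈ R.X, x.2 ≠ Q
  cross_inj₁ : ∀ x ∈ R.X, ∀ y ∈ R.X, x.1 = y.1 → x = y
  cross_inj₂ : ∀ x ∈ R.X, ∀ y ∈ R.X, x.2 = y.2 → x = y
  /-- `r_*(div u) = div(ū)` at the smooth points of `C₁` -/
  r_div₁ : ∀ u : R.O₁, R.red₁ u ≠ 0 → ∀ D : Divisor K F, (∀ P, D P = P.ord (u : F)) →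
    ∀ Q : Place k F₁, (∀ x ∈ R.X, x.1 ≠ Q) → R.push₁ D Q = Q.ord (R.red₁ u)
  /-- `r_*(div u) = div(ū)` at the smooth points of `C₂` -/
  r_div₂ : ∀ u : R.O₂, R.red₂ u ≠ 0 → ∀ D : Divisor K F, (∀ P, D P = P.ord (u : F)) →
    ∀ Q : Place k F₂, (∀ x ∈ R.X, x.2 ≠ Q) → R.push₂ D Q = Q.ord (R.red₂ u)
  /-- a function integral at both Gauss valuations, without poles reducing to the crossing
  points, is regular at the crossing points and has the same value on both branches
  (normality of the model at the nodes: UNIP Lemma U) -/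
  glue : ∀ (u : F) (h₁ : u ∈ R.O₁) (h₂ : u ∈ R.O₂), (∀ P : Place K F, P.ord u < 0 → (R.r P).isSome) →
    R.Glued (R.red₁ ⟨u, h₁⟩) (R.red₂ ⟨u, h₂⟩)

/-- the glued Riemann–Roch space `L̄(r_* D)` of the nodal curve: pairs `(f₁, f₂)` with
`f_i ∈ L(r_{i*} D)`, regular at the crossing points with the same value on both branches
(the set is a subspace; the span is taken only to have no proof obligation here) -/
def TRData.Lbar (R : TRData K F k F₁ F₂ A) (D : Divisor K F) :
    Submodule k (F₁ × F₂) :=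
  Submodule.span k {f | f.1 ∈ riemannRochSpace (R.push₁ D) ∧
    f.2 ∈ riemannRochSpace (R.push₂ D) ∧ R.Glued f.1 f.2}

/-- orthonormal bases of the spaces `L(D)`, `D` of smooth type, for the norm
`max (|·|₁, |·|₂)` -/
def TRData.Orth (R : TRData K F k F₁ F₂ A) : Prop :=
  ∀ D ∈ R.smDiv, ∃ (n : ℕ) (e : Fin n → F) (h₁ : ∀ i, e i ∈ R.O₁) (h₂ : ∀ i, e i ∈ R.O₂),
    Submodule.span K (Set.range e) = riemannRochSpace D ∧
    LinearIndependent k (fun i => ((R.red₁ ⟨e i, h₁ i⟩, R.red₂ ⟨e i, h₂ i⟩) : F₁ × F₂)) ∧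
    ∀ i, ((R.red₁ ⟨e i, h₁ i⟩, R.red₂ ⟨e i, h₂ i⟩) : F₁ × F₂) ∈ R.Lbar D

/-- the hypotheses common to the abstract pieces: a two-component reduction of a curve of genus
`g` whose components are rational and cross in `g + 1` points, with orthonormal bases. -/
structure TRData.IsToric (R : TRData K F k F₁ F₂ A) (g : ℕ) : Prop where
  isTR : R.IsTR
  nice : IsNiceCurve K F g
  nice₁ : IsNiceCurve k F₁ 0
  nice₂ : IsNiceCurve k F₂ 0
  card : R.X.card = g + 1
  orth : R.Orth

end Abstract

/-- **LN-TF**: the kernel of reduction has no `m`-torsion, `m` a unit of `A`. -/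
def StmtTorTF : Prop :=
  ∀ (K F k F₁ F₂ : Type) [Field K] [Field F] [Algebra K F] [Field k]
    [Field F₁] [Algebra k F₁] [Field F₂] [Algebra k F₂] [IsAlgClosed K]
    (A : ValuationSubring K) (R : TRData K F k F₁ F₂ A) (g : ℕ), R.IsToric g →
    ∀ m : ℕ, (m : K) ∉ A.nonunits → ∀ x : Pic0 K F, x ∈ R.J1 → m • x = 0 → x = 0

/-- **LN-DIV**: the kernel of reduction is `m`-divisible, `m` a unit of `A`
(transplant of `S15.StmtDiv1` to the nodal curve). -/
def StmtTorDiv : Prop :=
  ∀ (K F k F₁ F₂ : Type) [Field K] [Field F] [Algebra K F] [Field k]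
    [Field F₁] [Algebra k F₁] [Field F₂] [Algebra k F₂] [IsAlgClosed K]
    (A : ValuationSubring K) (R : TRData K F k F₁ F₂ A) (g : ℕ), R.IsToric g →
    ∀ m : ℕ, (m : K) ∉ A.nonunits → ∀ x : Pic0 K F, x ∈ R.J1 →
      ∃ y : Pic0 K F, y ∈ R.J1 ∧ m • y = x

/-- **LN-Q**: `J⁰ / J¹` is divisible (interpolation on the two rational components, `k`
algebraically closed, and lifting of smooth points). -/
def StmtTorQuot : Prop :=
  ∀ (K F k F₁ F₂ : Type) [Field K] [Field F] [Algebra K F] [Field k]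
    [Field F₁] [Algebra k F₁] [Field F₂] [Algebra k F₂] [IsAlgClosed K] [IsAlgClosed k]
    (A : ValuationSubring K) (R : TRData K F k F₁ F₂ A) (g : ℕ), R.IsToric g →
    ∀ m : ℕ, m ≠ 0 → ∀ x : Pic0 K F, x ∈ R.J0 → ∃ y : Pic0 K F, y ∈ R.J0 ∧ x - m • y ∈ R.J1

/-- **LN-CNT**: the toric part of the `m`-torsion has `m ^ g` elements. -/
def StmtTorCount : Prop :=
  ∀ (K F k F₁ F₂ : Type) [Field K] [Field F] [Algebra K F] [Field k]
    [Field F₁] [Algebra k F₁] [Field F₂] [Algebra k F₂] [IsAlgClosed K] [IsAlgClosed k]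
    (A : ValuationSubring K) (R : TRData K F k F₁ F₂ A) (g : ℕ), R.IsToric g →
    ∀ m : ℕ, (m : K) ∉ A.nonunits →
      Nat.card ↥(R.J0 ⊓ Pic0.torsion K F m) = m ^ g

/-! ## Part 3: the modular package -/

/-- the function field of the `j`-line over the residue field (one possible choice of the
types `F₁`, `F₂` below; the package allows any) -/
abbrev FFk (A : ValuationSubring Kb) : Type :=
  ↥(modularFunctionFieldFullC (IsLocalRing.ResidueField A) 1)

section Modular

variable {F₁ F₂ : Type} [Field F₁] [Field F₂]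

/-- **LN-PKG**: the two-component reduction package of `X₀(N)` at `A ∣ N`, `N` prime, with its
compatibility with the decomposition group, with the Hecke operators, and with the cusps.
`C₁` is the component of the cusp `∞`, `C₂` the component of the cusp `0`; `F₁`, `F₂` are
their function fields (both are `k(j̄)`; the instance chooses the types, e.g.
`modularFunctionFieldFullC k N`, which is `k(j̄)` in characteristic `N`). -/
structure ModTR (N : ℕ) [NeZero N] (A : ValuationSubring Kb) (g : ℕ)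
    [Algebra (IsLocalRing.ResidueField A) F₁] [Algebra (IsLocalRing.ResidueField A) F₂]
    (R : TRData Kb (FF N) (IsLocalRing.ResidueField A) F₁ F₂ A) : Prop where
  isToric : R.IsToric g
  res_eq : R.res = IsLocalRing.residue A
  cuspInf : ∃ Q, R.r (cuspInf N) = some (Sum.inl Q)
  cuspZero : ∃ Q, R.r (cuspZero N) = some (Sum.inr Q)
  /-- the decomposition group preserves the types -/
  decomp0 : ∀ σ ∈ A.decompositionSubgroup ℚ, ∀ x ∈ R.J0, σ • x ∈ R.J0
  decomp1 : ∀ σ ∈ A.decompositionSubgroup ℚ, ∀ x ∈ R.J1, σ • x ∈ R.J1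
  /-- inertia does not move the reduction of a place -/
  inertia : ∀ σ ∈ A.inertiaSubgroupIn ℚ, ∀ P : Place Kb (FF N),
    R.r (galAct N σ • P) = R.r P
  hecke : ∀ q : Nat.Primes, (q : ℕ) ≠ N → ∀ x ∈ R.J0, heckeOperatorBar N q x ∈ R.J0
  /-- criterion for the type of a place by the modular unit `oggU N = Δ(Nτ)/Δ(τ)`
  (`|oggU|₁ = 1`, `|oggU|₂ = |N|⁻¹²`): a place at which `oggU` has a value in `A` is of
  type `1` -/
  type₁ : ∀ (P : Place Kb (FF N)) (d : Kb), HasValueAt P (oggU N) d → d ∈ A →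
    ∃ Q, R.r P = some (Sum.inl Q)
  /-- a place at which `N¹² · oggU` has a value `≠ 0` whose inverse is in `A` is of type `2` -/
  type₂ : ∀ (P : Place Kb (FF N)) (d : Kb), HasValueAt P (oggU N) d → d ≠ 0 →
    ((N : Kb) ^ 12 * d)⁻¹ ∈ A → ∃ Q, R.r P = some (Sum.inr Q)

/-- **LN-PKG, pruned**: the part of the modular package which `StmtLocDivN` (the only statement
of LOCAL-N consumed by S15, `S15/Plan.lean`) needs. -/
structure ModTRmin (N : ℕ) [NeZero N] (A : ValuationSubring Kb) (g : ℕ)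
    [Algebra (IsLocalRing.ResidueField A) F₁] [Algebra (IsLocalRing.ResidueField A) F₂]
    (R : TRData Kb (FF N) (IsLocalRing.ResidueField A) F₁ F₂ A) : Prop where
  isToric : R.IsToric g
  cuspZero : ∃ Q, R.r (cuspZero N) = some (Sum.inr Q)
  /-- inertia does not move the reduction of a place -/
  inertia : ∀ σ ∈ A.inertiaSubgroupIn ℚ, ∀ P : Place Kb (FF N),
    R.r (galAct N σ • P) = R.r P
  /-- a place at which `N¹² · oggU` has a value `≠ 0` whose inverse is in `A` is of type `2` -/
  type₂ : ∀ (P : Place Kb (FF N)) (d : Kb), HasValueAt P (oggU N) d → d ≠ 0 →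
    ((N : Kb) ^ 12 * d)⁻¹ ∈ A → ∃ Q, R.r P = some (Sum.inr Q)

theorem ModTR.toMin {N : ℕ} [NeZero N] {A : ValuationSubring Kb} {g : ℕ}
    [Algebra (IsLocalRing.ResidueField A) F₁] [Algebra (IsLocalRing.ResidueField A) F₂]
    {R : TRData Kb (FF N) (IsLocalRing.ResidueField A) F₁ F₂ A} (h : ModTR N A g R) :
    ModTRmin N A g R :=
  ⟨h.isToric, h.cuspZero, h.inertia, h.type₂⟩

end Modular

/-- the pruned package exists at the prime level `N` and the valuation ring `A ∣ N` -/
def HasModTRmin (N : ℕ) [NeZero N] (A : ValuationSubring Kb) (g : ℕ) : Prop :=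
  ∃ (F₁ F₂ : Type) (_ : Field F₁) (_ : Field F₂)
    (_ : Algebra (IsLocalRing.ResidueField A) F₁) (_ : Algebra (IsLocalRing.ResidueField A) F₂)
    (R : TRData Kb (FF N) (IsLocalRing.ResidueField A) F₁ F₂ A), ModTRmin N A g R

/-- **LN-PKG, pruned** (what S15 needs of the modular instance). -/
def StmtModTRmin : Prop :=
  ∀ (N : ℕ) [NeZero N], N.Prime → 5 ≤ N →
    ∀ A : ValuationSubring Kb, A.LiesOverPrime N → ∃ g : ℕ, HasModTRmin N A g

/-- the package exists at the prime level `N` and the valuation ring `A ∣ N` -/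
def HasModTR (N : ℕ) [NeZero N] (A : ValuationSubring Kb) (g : ℕ) : Prop :=
  ∃ (F₁ F₂ : Type) (_ : Field F₁) (_ : Field F₂)
    (_ : Algebra (IsLocalRing.ResidueField A) F₁) (_ : Algebra (IsLocalRing.ResidueField A) F₂)
    (R : TRData Kb (FF N) (IsLocalRing.ResidueField A) F₁ F₂ A), ModTR N A g R

/-- **LN-PKG** (the modular instance; the hard geometric input, from UNIP/INJ/DEU at `q = N`,
`M = 1`). -/
def StmtModTR : Prop :=
  ∀ (N : ℕ) [NeZero N], N.Prime → 5 ≤ N →
    ∀ A : ValuationSubring Kb, A.LiesOverPrime N → ∃ g : ℕ, HasModTR N A g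

theorem stmtModTRmin_of (h : StmtModTR) : StmtModTRmin := by
  intro N _ hN h5 A hA
  obtain ⟨g, F₁, F₂, i₁, i₂, i₃, i₄, R, hM⟩ := h N hN h5 A hA
  exact ⟨g, F₁, F₂, i₁, i₂, i₃, i₄, R, hM.toMin⟩

/-- the interface package attached to a reduction package -/
def lnPkgOf {N : ℕ} [NeZero N] {A : ValuationSubring Kb} {F₁ F₂ : Type} [Field F₁] [Field F₂]
    [Algebra (IsLocalRing.ResidueField A) F₁] [Algebra (IsLocalRing.ResidueField A) F₂]
    (R : TRData Kb (FF N) (IsLocalRing.ResidueField A) F₁ F₂ A) : LNPkg N where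
  J0 := R.J0
  J1 := R.J1

/-- **LN-GLUE**: the abstract pieces and the modular package give the interface. -/
def StmtLNGlue : Prop :=
  StmtTorTF → StmtTorDiv → StmtTorQuot → StmtTorCount →
    ∀ (N : ℕ) [NeZero N] (A : ValuationSubring Kb) (g : ℕ) (F₁ F₂ : Type) [Field F₁] [Field F₂]
      [Algebra (IsLocalRing.ResidueField A) F₁] [Algebra (IsLocalRing.ResidueField A) F₂]
      (R : TRData Kb (FF N) (IsLocalRing.ResidueField A) F₁ F₂ A),
      ModTR N A g R → (lnPkgOf R).IsLN A g

/-- **(N3)**, geometric half: two places of smooth type on the same component differ by an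
element of `J⁰`. -/
def StmtN3Geo : Prop :=
  ∀ (N : ℕ) [NeZero N] (A : ValuationSubring Kb) (g : ℕ) (F₁ F₂ : Type) [Field F₁] [Field F₂]
    [Algebra (IsLocalRing.ResidueField A) F₁] [Algebra (IsLocalRing.ResidueField A) F₂]
    (R : TRData Kb (FF N) (IsLocalRing.ResidueField A) F₁ F₂ A),
    ModTR N A g R → ∀ (P P' : Place Kb (FF N)) (D : Divisor.degZero (K := Kb) (F := FF N)),
      (D : Divisor Kb (FF N)) = Finsupp.single P 1 - Finsupp.single P' 1 →
      ((∃ Q Q', R.r P = some (Sum.inl Q) ∧ R.r P' = some (Sum.inl Q')) ∨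
        (∃ Q Q', R.r P = some (Sum.inr Q) ∧ R.r P' = some (Sum.inr Q'))) →
      Pic0.mk D ∈ R.J0

end Fermat.Agent.S15.LN
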