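import Fermat.Agent.S21.Injective
import Fermat.Agent.S28.Bridge
import Fermat.Agent.S24.KExp
import Fermat.Prelude.Def_ModularCurve_X0ModL

/-!
# S15 / SEL-CNT / REAL, piece REAL-CONJ, the Laurent half

`conjRefl F = conj ∘ F ∘ (τ ↦ -τ̄)` (`S21/Injective.lean`) on functions on the upper half plane.

* `realconjq_eq_slash`     : `conjRefl F = F ∣[0] J`;
* `realconjq_mdiff`        : `conjRefl` preserves holomorphy;
* `realconjq_isHPB`        : … and `IsHPB` (holomorphic, `1`-periodic, bounded at `i∞`);
* `realconjq_qExpansion`   : `qExpansion 1 (conjRefl F) = (qExpansion 1 F).map conj`;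
* `realconjq_discriminant` : `conjRefl Δ = Δ`;
* `realconjq_isMerInf`, `realconjq_laurentOf` :
  `laurentOf (conjRefl f) = coeffMap conj (laurentOf f)`.
-/

set_option autoImplicit false
set_option linter.style.haveILetI false

noncomputable section

namespace Fermat.Agent.S15

open UpperHalfPlane ModularForm Filter Function Topology ModularCurve
open Fermat.Agent.S21 Fermat.Agent.S23 Fermat.Agent.S24 Fermat.Agent.S28
open scoped MatrixGroups ModularForm Manifold ComplexConjugate

local notation "Δ" => ModularForm.discriminant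

theorem realconjq_apply (F : ℍ → ℂ) (τ : ℍ) : conjRefl F τ = conj (F (UpperHalfPlane.J • τ)) := rfl

/-- `conjRefl` is the weight `0` slash action of `J` -/
theorem realconjq_eq_slash (F : ℍ → ℂ) : conjRefl F = F ∣[(0 : ℤ)] UpperHalfPlane.J := by
  funext τ
  rw [realconjq_apply, ModularForm.slash_apply]
  simp [sigma_J, det_J, denom_J]

theorem realconjq_mdiff {F : ℍ → ℂ} (hF : MDiff F) : MDiff (conjRefl F) := by
  rw [realconjq_eq_slash]
  exact hF.slash 0 UpperHalfPlane.J

theorem realconjq_mul (f g : ℍ → ℂ) :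
    conjRefl (fun z => f z * g z) = fun z => conjRefl f z * conjRefl g z := by
  funext τ
  simp only [realconjq_apply, map_mul]

theorem realconjq_pow (f : ℍ → ℂ) (m : ℕ) :
    conjRefl (fun z => f z ^ m) = fun z => conjRefl f z ^ m := by
  funext τ
  simp only [realconjq_apply, map_pow]

theorem realconjq_conjRefl (f : ℍ → ℂ) : conjRefl (conjRefl f) = f := by
  funext τ
  rw [realconjq_apply, realconjq_apply, Complex.conj_conj]
  congr 1
  ext
  rw [coe_J_smul, coe_J_smul]
  simp

theorem realconjq_im_J_smul (z : ℍ) : (UpperHalfPlane.J • z).im = z.im := by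
  rw [← UpperHalfPlane.coe_im, coe_J_smul]
  simp

theorem realconjq_isHPB {f : ℍ → ℂ} (hf : IsHPB f) : IsHPB (conjRefl f) := by
  refine ⟨realconjq_mdiff hf.1, ?_, ?_⟩
  · intro x
    by_cases hx : 0 < x.im
    · have hx1 : 0 < (x + 1).im := by simpa using hx
      simp only [Function.comp_apply, realconjq_apply]
      rw [UpperHalfPlane.J_smul, UpperHalfPlane.J_smul, ofComplex_apply_of_im_pos hx, ofComplex_apply_of_im_pos hx1]
      congr 1
      have := hf.2.1.sub_eq (-(conj x))
      simp only [Function.comp_apply] at this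
      convert this using 3
      simp only [UpperHalfPlane.coe_mk, map_add, map_one]
      ring
    · have hx' : x.im ≤ 0 := not_lt.1 hx
      have hx1 : (x + 1).im ≤ 0 := by simpa using hx'
      simp only [Function.comp_apply]
      rw [ofComplex_apply_eq_of_im_nonpos hx1 hx']
  · have hb := hf.2.2
    rw [isBoundedAtImInfty_iff] at hb ⊢
    obtain ⟨M, A, h⟩ := hb
    refine ⟨M, A, fun z hz => ?_⟩
    rw [realconjq_apply, RCLike.norm_conj]
    apply h
    rw [realconjq_im_J_smul]
    exact hz

theorem realconjq_qParam (τ : ℍ) :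
    Function.Periodic.qParam 1 ((UpperHalfPlane.J • τ : ℍ) : ℂ) =
      conj (Function.Periodic.qParam 1 (τ : ℂ)) := by
  rw [coe_J_smul, Function.Periodic.qParam, Function.Periodic.qParam, ← Complex.exp_conj]
  congr 1
  simp only [map_div₀, map_mul, Complex.conj_I, Complex.conj_ofReal, map_ofNat, map_one,
    Complex.ofReal_one]
  ring

/-- the `q`-expansion of `conjRefl f` is the conjugate of that of `f` -/
theorem realconjq_qExpansion {f : ℍ → ℂ} (hf : IsHPB f) :
    qExpansion 1 (conjRefl f) = (qExpansion 1 f).map (starRingEnd ℂ) := by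
  ext m
  rw [PowerSeries.coeff_map]
  refine Fermat.Agent.S24.qExpansion_coeff_unique_fun (f := conjRefl f)
    (c := fun m => conj ((qExpansion 1 f).coeff m)) one_pos
    (realconjq_isHPB hf).analyticAt (fun τ => ?_) m
  have h := UpperHalfPlane.hasSum_qExpansion one_pos hf.2.1 hf.1 hf.2.2 (UpperHalfPlane.J • τ)
  have h2 := h.map (starRingEnd ℂ).toAddMonoidHom Complex.continuous_conj
  have h3 : (⇑(starRingEnd ℂ).toAddMonoidHom ∘ fun m : ℕ =>
      (qExpansion 1 f).coeff m • Function.Periodic.qParam 1 ((UpperHalfPlane.J • τ : ℍ) : ℂ) ^ m)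
      = fun m : ℕ => conj ((qExpansion 1 f).coeff m) • Function.Periodic.qParam 1 (τ : ℂ) ^ m := by
    funext m
    show conj ((qExpansion 1 f).coeff m •
      Function.Periodic.qParam 1 ((UpperHalfPlane.J • τ : ℍ) : ℂ) ^ m) = _
    rw [smul_eq_mul, smul_eq_mul, map_mul, map_pow, realconjq_qParam, Complex.conj_conj]
  rw [h3] at h2
  exact h2

/-- the `q`-expansion of `Δ` has real (integral) coefficients -/
theorem realconjq_qExpansion_discriminant :
    (qExpansion 1 (Δ : ℍ → ℂ)).map (starRingEnd ℂ) = qExpansion 1 (Δ : ℍ → ℂ) := by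
  rw [Fermat.Agent.S24.qExpansion_discriminant_eq, map_mul, PowerSeries.map_X]
  congr 1
  ext m
  simp only [PowerSeries.coeff_map, eq_intCast, map_intCast]

/-- `conjRefl Δ = Δ` -/
theorem realconjq_discriminant : conjRefl (Δ : ℍ → ℂ) = Δ := by
  have h1 : IsHPB (Δ : ℍ → ℂ) := bridge_isHPB_discriminant
  have h2 : IsHPB (conjRefl (Δ : ℍ → ℂ)) := realconjq_isHPB h1
  have h3 : qExpHom ⟨conjRefl (Δ : ℍ → ℂ), h2⟩ = qExpHom ⟨(Δ : ℍ → ℂ), h1⟩ := by
    show qExpansion 1 (conjRefl (Δ : ℍ → ℂ)) = qExpansion 1 (Δ : ℍ → ℂ)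
    rw [realconjq_qExpansion h1, realconjq_qExpansion_discriminant]
  exact congrArg Subtype.val (qExpHom_injective h3)

theorem realconjq_deltaL : coeffMap (starRingEnd ℂ) deltaL = deltaL := by
  rw [← bridge_ofPowerSeries_discriminant, coeffMap_ofPowerSeries,
    realconjq_qExpansion_discriminant]

theorem realconjq_mul_delta (f : ℍ → ℂ) (m : ℕ) :
    conjRefl (fun z => f z * Δ z ^ m) = fun z => conjRefl f z * Δ z ^ m := by
  funext τ
  have h := congrFun realconjq_discriminant τ
  rw [realconjq_apply] at h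
  rw [realconjq_apply, realconjq_apply, map_mul, map_pow, h]

theorem realconjq_isMerInf {f : ℍ → ℂ} (hf : IsMerInf f) : IsMerInf (conjRefl f) := by
  obtain ⟨m, hm⟩ := hf
  refine ⟨m, ?_⟩
  rw [← realconjq_mul_delta]
  exact realconjq_isHPB hm

/-- the Laurent expansion of `conjRefl f` is the conjugate of that of `f` -/
theorem realconjq_laurentOf {f : ℍ → ℂ} (hf : IsMerInf f) :
    laurentOf (conjRefl f) = coeffMap (starRingEnd ℂ) (laurentOf f) := by
  obtain ⟨m, hm⟩ := hf
  have hm' : IsHPB (fun z => conjRefl f z * Δ z ^ m) := by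
    rw [← realconjq_mul_delta]
    exact realconjq_isHPB hm
  rw [laurentOf_eq hm', laurentOf_eq hm, map_mul, map_inv₀, map_pow, realconjq_deltaL,
    coeffMap_ofPowerSeries, ← realconjq_qExpansion hm, realconjq_mul_delta]

end Fermat.Agent.S15
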