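import Fermat.Agent.S15.RedLang
import Fermat.Agent.W1.GenPos
import Fermat.Prelude.Def_AlgebraicCurve_BaseChangeGalois

/-!
# S15 block RED, piece FINRED — abstract part: finitely many Frobenius-fixed divisor classes

`k` algebraically closed, `F/k` a function field in the prelude's language (residue fields `k`,
principal divisors, Riemann's inequality with genus `g`), `Fr` a semilinear automorphism of `F/k`
with `Fr a = a ^ q` on `k` (`q ≥ 2`, `q = 0` in `k`), `t ∈ F` with `Fr t = t` having a pole.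

* `s15red_fixed_places_finite` : finitely many places are fixed by `σ` (`σ a = a ^ Q`, `σ t = t`).
* `s15red_fixed_eff_finite` : finitely many effective divisors of degree `d` are fixed by `Fr`.
* `s15red_exists_fixed_eff` : a `Fr`-fixed class of degree `0` is `[E - D₀]` with `E ≥ 0` fixed by
  `Fr`, for every `Fr`-fixed divisor `D₀` of degree `≥ g` (Lang's lemma on `L(D + D₀)`).
* `s15red_fixed_classes_finite` : `{c : Pic0 k F | Fr • c = c}` is finite.
-/

set_option autoImplicit false

open AlgebraicCurve Module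

namespace Fermat.Agent.S15

open Fermat.Agent.ES.R Fermat.Agent.S24 Fermat.Agent.W1

section Places

variable {k F : Type*} [Field k] [Field F] [Algebra k F]

/-- a function with a pole is not constant -/
theorem s15red_sub_ne_zero {t : F} (hpole : ∃ P : Place k F, P.ord t < 0) (a : k) :
    t - algebraMap k F a ≠ 0 := by
  intro h
  obtain ⟨P, hP⟩ := hpole
  rw [sub_eq_zero.mp h, PlaceAux.ord_algebraMap] at hP
  exact lt_irrefl _ hP

theorem s15red_ne_zero {t : F} (hpole : ∃ P : Place k F, P.ord t < 0) : t ≠ 0 := by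
  have := s15red_sub_ne_zero hpole 0
  rwa [map_zero, sub_zero] at this

/-- the value of `t` at a place which is not a pole -/
theorem s15red_exists_value
    (hres : ∀ v : Place k F, Function.Bijective (algebraMap k v.ResidueField))
    {t : F} (hpole : ∃ P : Place k F, P.ord t < 0) (P : Place k F) (hPt : 0 ≤ P.ord t) :
    ∃ a : k, 0 < P.ord (t - algebraMap k F a) := by
  have ht0 := s15red_ne_zero hpole
  rcases hPt.lt_or_eq with h | h
  · exact ⟨0, by rwa [map_zero, sub_zero]⟩
  · obtain ⟨c, hc⟩ := exists_sub_smul_ord_gt P (hres P) (f := t) (g := 1) ht0 one_ne_zero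
      (by rw [Place.ord_one]; exact h.symm)
    rw [← Algebra.algebraMap_eq_smul_one, Place.ord_one] at hc
    exact ⟨c, hc.resolve_left (s15red_sub_ne_zero hpole c)⟩

/-- the value of a `σ`-fixed function at a `σ`-fixed place is fixed by the base automorphism -/
theorem s15red_value_of_fixed
    (hres : ∀ v : Place k F, Function.Bijective (algebraMap k v.ResidueField))
    (σ : SemilinearAut k F) (Q : ℕ) (hσ : ∀ a : k, SemilinearAut.baseAut σ a = a ^ Q)
    {t : F} (ht : σ • t = t) (hpole : ∃ P : Place k F, P.ord t < 0)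
    (P : Place k F) (hP : σ • P = P) (hPt : 0 ≤ P.ord t) :
    ∃ a : k, a ^ Q = a ∧ 0 < P.ord (t - algebraMap k F a) := by
  obtain ⟨a, ha⟩ := s15red_exists_value hres hpole P hPt
  refine ⟨a, ?_, ha⟩
  have h1 : 0 < P.ord (t - algebraMap k F (a ^ Q)) := by
    have h2 := SemilinearAut.ord_smul σ P (t - algebraMap k F a)
    rw [hP, smul_sub, ht, SemilinearAut.smul_algebraMap, hσ] at h2
    rw [h2]
    exact ha
  by_contra hne
  have hc : algebraMap k F (a ^ Q - a) ≠ 0 := by
    rw [Ne, map_eq_zero, sub_eq_zero]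
    exact hne
  have hsum : (t - algebraMap k F a) + -(t - algebraMap k F (a ^ Q)) =
      algebraMap k F (a ^ Q - a) := by
    rw [map_sub]; ring
  have h3 := PlaceAux.le_ord_add P (s15red_sub_ne_zero hpole a)
    (neg_ne_zero.mpr (s15red_sub_ne_zero hpole (a ^ Q))) (by rw [hsum]; exact hc)
  rw [hsum, PlaceAux.ord_algebraMap, PlaceAux.ord_neg] at h3
  rcases min_le_iff.mp h3 with h | h <;> omega

/-- the fixed points of `a ↦ a ^ Q` form a finite set -/
theorem s15red_pow_fixed_finite (Q : ℕ) (hQ : 2 ≤ Q) : {a : k | a ^ Q = a}.Finite := by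
  classical
  have hne : (Polynomial.X ^ Q - Polynomial.X : Polynomial k) ≠ 0 := by
    intro h
    have h1 := congrArg Polynomial.natDegree h
    rw [Polynomial.natDegree_sub_eq_left_of_natDegree_lt (by
      rw [Polynomial.natDegree_X_pow, Polynomial.natDegree_X]; omega),
      Polynomial.natDegree_X_pow, Polynomial.natDegree_zero] at h1
    omega
  refine Set.Finite.subset (Polynomial.X ^ Q - Polynomial.X : Polynomial k).roots.toFinset.finite_toSet
    fun a ha => ?_
  rw [Finset.mem_coe, Multiset.mem_toFinset, Polynomial.mem_roots hne, Polynomial.IsRoot.def,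
    Polynomial.eval_sub, Polynomial.eval_pow, Polynomial.eval_X, sub_eq_zero]
  exact ha

/-- **finitely many fixed places** -/
theorem s15red_fixed_places_finite [hpd : HasPrincipalDivisors k F]
    (hres : ∀ v : Place k F, Function.Bijective (algebraMap k v.ResidueField))
    (σ : SemilinearAut k F) (Q : ℕ) (hQ : 2 ≤ Q)
    (hσ : ∀ a : k, SemilinearAut.baseAut σ a = a ^ Q)
    {t : F} (ht : σ • t = t) (hpole : ∃ P : Place k F, P.ord t < 0) :
    {P : Place k F | σ • P = P}.Finite := by
  classical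
  choose D hD _ using fun a : k => hpd.exists_divisor (t - algebraMap k F a)
    (s15red_sub_ne_zero hpole a)
  have hfin : ((D 0).support ∪ ⋃ a ∈ {a : k | a ^ Q = a}, ((D a).support : Set (Place k F)) :
      Set (Place k F)).Finite :=
    Set.Finite.union (Finset.finite_toSet _)
      (Set.Finite.biUnion (s15red_pow_fixed_finite Q hQ) fun a _ => Finset.finite_toSet _)
  refine hfin.subset fun P hP => ?_
  by_cases hPt : 0 ≤ P.ord t
  · obtain ⟨a, haQ, ha⟩ := s15red_value_of_fixed hres σ Q hσ ht hpole P hP hPt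
    right
    rw [Set.mem_iUnion₂]
    refine ⟨a, haQ, ?_⟩
    rw [Finset.mem_coe, Finsupp.mem_support_iff, hD a P]
    omega
  · left
    rw [Finset.mem_coe, Finsupp.mem_support_iff, hD 0 P, map_zero, sub_zero]
    omega

end Places

section Eff

variable {k F : Type*} [Field k] [Field F] [Algebra k F]

theorem s15red_baseAut_pow (Fr : SemilinearAut k F) (q : ℕ)
    (hFr : ∀ a : k, SemilinearAut.baseAut Fr a = a ^ q) (M : ℕ) (a : k) :
    SemilinearAut.baseAut (Fr ^ M) a = a ^ (q ^ M) := by
  induction M generalizing a with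
  | zero =>
    rw [pow_zero, pow_zero, pow_one]
    rfl
  | succ M ih =>
    have h1 : SemilinearAut.baseAut (Fr ^ (M + 1)) a =
        SemilinearAut.baseAut (Fr ^ M) (SemilinearAut.baseAut Fr a) := by
      rw [pow_succ]
      rfl
    rw [h1, hFr, ih, ← pow_mul, pow_succ']

theorem s15red_pow_smul_eq {G α : Type*} [Group G] [MulAction G α] (g : G) (x : α)
    (h : g • x = x) (n : ℕ) : g ^ n • x = x :=
  MulAction.mem_stabilizer_iff.mp
    (Subgroup.pow_mem _ (MulAction.mem_stabilizer_iff.mpr h) n)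

/-- the support of a `Fr`-fixed divisor is `Fr`-stable -/
theorem s15red_smul_mem_support (Fr : SemilinearAut k F) {E : Divisor k F} (hE : Fr • E = E)
    {P : Place k F} (hP : P ∈ E.support) (i : ℕ) : Fr ^ i • P ∈ E.support := by
  induction i with
  | zero => rwa [pow_zero, one_smul]
  | succ i ih =>
    rw [pow_succ', mul_smul, Finsupp.mem_support_iff, ← hE,
      SemilinearAut.divisor_smul_apply_smul, ← Finsupp.mem_support_iff]
    exact ih

/-- a place in the support of a `Fr`-fixed divisor with at most `d` points is fixed by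
`Fr ^ d!` -/
theorem s15red_pow_factorial_smul (Fr : SemilinearAut k F) {E : Divisor k F} (hE : Fr • E = E)
    (d : ℕ) (hcard : E.support.card ≤ d) {P : Place k F} (hP : P ∈ E.support) :
    Fr ^ d.factorial • P = P := by
  classical
  have hlt : E.support.card < (Finset.range (d + 1)).card := by
    rw [Finset.card_range]; omega
  obtain ⟨i, hi, j, hj, hij, hfij⟩ := Finset.exists_ne_map_eq_of_card_lt_of_maps_to hlt
    (f := fun i : ℕ => Fr ^ i • P) (fun i _ => s15red_smul_mem_support Fr hE hP i)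
  have key : ∀ i j : ℕ, i < j → j < d + 1 → Fr ^ i • P = Fr ^ j • P →
      Fr ^ d.factorial • P = P := by
    intro i j hlt hjd hfij
    have h1 : Fr ^ (j - i) • P = P := by
      have h2 : Fr ^ j = Fr ^ i * Fr ^ (j - i) := by
        rw [← pow_add]; congr 1; omega
      rw [h2, mul_smul] at hfij
      exact (MulAction.injective (Fr ^ i) hfij).symm
    obtain ⟨e, he⟩ : (j - i) ∣ d.factorial := Nat.dvd_factorial (by omega) (by omega)
    rw [he, pow_mul]
    exact s15red_pow_smul_eq _ _ h1 e
  rw [Finset.mem_range] at hi hj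
  rcases Nat.lt_or_gt_of_ne hij with h | h
  · exact key i j h hj hfij
  · exact key j i h hi hfij.symm

theorem s15red_card_support_le
    (hres : ∀ v : Place k F, Function.Bijective (algebraMap k v.ResidueField))
    {E : Divisor k F} (hE0 : 0 ≤ E) (d : ℕ) (hEd : Divisor.degree E = d) :
    E.support.card ≤ d := by
  classical
  have h1 : gpSum E.support ≤ E := by
    rw [Finsupp.le_def]
    intro v
    have h0 : (0 : ℤ) ≤ E v := by simpa using Finsupp.le_def.mp hE0 v
    by_cases hv : v ∈ E.support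
    · rw [gpSum_apply_of_mem hv]
      have := Finsupp.mem_support_iff.mp hv
      omega
    · rw [gpSum_apply_of_not_mem hv]
      exact h0
  have h2 := degree_mono h1
  rw [degree_gpSum hres, hEd] at h2
  exact_mod_cast h2

theorem s15red_apply_le
    (hres : ∀ v : Place k F, Function.Bijective (algebraMap k v.ResidueField))
    {E : Divisor k F} (hE0 : 0 ≤ E) (d : ℕ) (hEd : Divisor.degree E = d) (P : Place k F) :
    E P ≤ d := by
  classical
  have h1 : Finsupp.single P (E P) ≤ E := by
    rw [Finsupp.le_def]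
    intro v
    have h0 : (0 : ℤ) ≤ E v := by simpa using Finsupp.le_def.mp hE0 v
    by_cases hv : v = P
    · rw [hv, Finsupp.single_eq_same]
    · rw [Finsupp.single_eq_of_ne hv]
      exact h0
  have h2 := degree_mono h1
  rw [Divisor.degree_single, place_deg_eq_one P (hres P), hEd] at h2
  simpa using h2

/-- **finitely many `Fr`-fixed effective divisors of given degree** -/
theorem s15red_fixed_eff_finite [HasPrincipalDivisors k F]
    (hres : ∀ v : Place k F, Function.Bijective (algebraMap k v.ResidueField))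
    (Fr : SemilinearAut k F) (q : ℕ) (hq : 2 ≤ q)
    (hFr : ∀ a : k, SemilinearAut.baseAut Fr a = a ^ q)
    {t : F} (ht : Fr • t = t) (hpole : ∃ P : Place k F, P.ord t < 0) (d : ℕ) :
    {E : Divisor k F | 0 ≤ E ∧ Divisor.degree E = d ∧ Fr • E = E}.Finite := by
  classical
  have hQ : 2 ≤ q ^ d.factorial :=
    hq.trans (Nat.le_self_pow (Nat.factorial_ne_zero d) q)
  have hS := s15red_fixed_places_finite hres (Fr ^ d.factorial) (q ^ d.factorial) hQ
    (s15red_baseAut_pow Fr q hFr _) (s15red_pow_smul_eq Fr t ht _) hpole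
  refine Set.Finite.subset
    (Finset.finite_toSet (Finset.finsupp hS.toFinset (fun _ => Finset.Icc (0 : ℤ) d))) ?_
  rintro E ⟨hE0, hEd, hEF⟩
  rw [Finset.mem_coe, Finset.mem_finsupp_iff]
  refine ⟨fun P hP => ?_, fun P _ => ?_⟩
  · rw [Set.Finite.mem_toFinset]
    exact s15red_pow_factorial_smul Fr hEF d (s15red_card_support_le hres hE0 d hEd) hP
  · rw [Finset.mem_Icc]
    exact ⟨by simpa using Finsupp.le_def.mp hE0 P, s15red_apply_le hres hE0 d hEd P⟩

end Eff

section Classes

variable {k F : Type*} [Field k] [Field F] [Algebra k F]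

/-- the twisted Frobenius `f ↦ Fr f * h` preserves `L(D + D₀)` if `Fr D - D = div h` and
`Fr D₀ = D₀` -/
theorem s15red_twist_mem (Fr : SemilinearAut k F) {D D₀ : Divisor k F} (hD₀ : Fr • D₀ = D₀)
    {h : F} (hh0 : h ≠ 0) (hh : ∀ v : Place k F, (Fr • D - D) v = v.ord h)
    {f : F} (hf : f ∈ riemannRochSpace (D + D₀)) :
    Fr • f * h ∈ riemannRochSpace (D + D₀) := by
  rw [mem_riemannRochSpace_iff] at hf ⊢
  intro v
  by_cases hf0 : f = 0
  · left; rw [hf0, smul_zero, zero_mul]
  right
  have hFf : Fr • f ≠ 0 := by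
    intro h0
    exact hf0 ((smul_eq_zero_iff_eq Fr).mp h0)
  rw [Place.ord_mul _ hFf hh0, ← hh v, Finsupp.sub_apply, SemilinearAut.divisor_smul_apply]
  have h1 : v.ord (Fr • f) = (Fr⁻¹ • v).ord f := by
    have := SemilinearAut.ord_smul Fr (Fr⁻¹ • v) f
    rwa [smul_inv_smul] at this
  have h2 : D₀ (Fr⁻¹ • v) = D₀ v := by
    rw [← SemilinearAut.divisor_smul_apply, hD₀]
  have h3 := (hf (Fr⁻¹ • v)).resolve_left hf0
  rw [Finsupp.add_apply, h2] at h3
  rw [h1, Finsupp.add_apply]
  omega

/-- **a fixed class contains a fixed effective divisor** (up to the fixed divisor `D₀`) -/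
theorem s15red_exists_fixed_eff [IsAlgClosed k] [hpd : HasPrincipalDivisors k F]
    (hres : ∀ v : Place k F, Function.Bijective (algebraMap k v.ResidueField))
    (v₀ : Place k F) (g : ℕ) (hlow : GPRiemannLower k F g)
    (Fr : SemilinearAut k F) (q : ℕ) (hq2 : 2 ≤ q) (hq : (q : k) = 0)
    (hFr : ∀ a : k, SemilinearAut.baseAut Fr a = a ^ q)
    (D₀ : Divisor k F) (hD₀ : Fr • D₀ = D₀) (hdeg : (g : ℤ) ≤ Divisor.degree D₀)
    (c : Pic0 k F) (hc : Fr • c = c) :
    ∃ E : Divisor k F, 0 ≤ E ∧ Fr • E = E ∧ Divisor.degree E = Divisor.degree D₀ ∧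
      ∃ h : E - D₀ ∈ Divisor.degZero (K := k) (F := F), Pic0.mk ⟨E - D₀, h⟩ = c := by
  classical
  obtain ⟨D, rfl⟩ := Pic0.mk_surjective c
  -- `Fr D - D = div h`
  have hprin : Fr • (D : Divisor k F) - D ∈ Divisor.principal (K := k) (F := F) := by
    rw [SemilinearAut.pic0_smul_mk] at hc
    have h1 := QuotientAddGroup.eq.mp hc
    rw [AddSubgroup.mem_addSubgroupOf] at h1
    have h2 := AddSubgroup.neg_mem _ h1
    rw [AddSubgroup.coe_add, AddSubgroup.coe_neg, SemilinearAut.coe_degZeroSMulHom, neg_add,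
      neg_neg, ← sub_eq_add_neg] at h2
    exact h2
  obtain ⟨h, hh0, hh⟩ := hprin
  have hdegD : Divisor.degree (D : Divisor k F) = 0 := Divisor.mem_degZero.mp D.2
  -- `L(D + D₀) ≠ 0`
  have : Module.Finite k ↥(riemannRochSpace ((D : Divisor k F) + D₀)) := rr_finite v₀ hres _
  have hpos : 0 < finrank k ↥(riemannRochSpace ((D : Divisor k F) + D₀)) := by
    have := hlow ((D : Divisor k F) + D₀)
    rw [map_add, hdegD] at this
    omega
  obtain ⟨f₀, hf₀⟩ := Module.finrank_pos_iff_exists_ne_zero.mp hpos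
  -- the twisted Frobenius
  let T : ↥(riemannRochSpace ((D : Divisor k F) + D₀)) →+
      ↥(riemannRochSpace ((D : Divisor k F) + D₀)) :=
    { toFun := fun f => ⟨Fr • (f : F) * h, s15red_twist_mem Fr hD₀ hh0 hh f.2⟩
      map_zero' := by
        apply Subtype.ext
        show Fr • ((0 : ↥(riemannRochSpace ((D : Divisor k F) + D₀))) : F) * h = 0
        rw [Submodule.coe_zero, smul_zero, zero_mul]
      map_add' := by
        intro x y
        apply Subtype.ext
        show Fr • ((x + y : ↥(riemannRochSpace ((D : Divisor k F) + D₀))) : F) * h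
          = Fr • (x : F) * h + Fr • (y : F) * h
        rw [Submodule.coe_add, smul_add, add_mul] }
  have hTapp : ∀ f : ↥(riemannRochSpace ((D : Divisor k F) + D₀)),
      ((T f : ↥(riemannRochSpace ((D : Divisor k F) + D₀))) : F) = Fr • (f : F) * h :=
    fun _ => rfl
  have hT : ∀ (a : k) (f : ↥(riemannRochSpace ((D : Divisor k F) + D₀))),
      T (a • f) = a ^ q • T f := by
    intro a f
    apply Subtype.ext
    rw [hTapp, Submodule.coe_smul, Submodule.coe_smul, hTapp, Algebra.smul_def, Algebra.smul_def,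
      smul_mul', SemilinearAut.smul_algebraMap, hFr, mul_assoc]
  have hinj : Function.Injective T := by
    intro x y hxy
    have h1 := congrArg Subtype.val hxy
    rw [hTapp, hTapp] at h1
    have h2 := mul_right_cancel₀ hh0 h1
    exact Subtype.ext (MulAction.injective Fr h2)
  obtain ⟨f, hf0, hTf⟩ := s15red_lang q hq2 hq T hT hinj f₀ hf₀
  have hf0' : (f : F) ≠ 0 := fun h0 => hf0 (Subtype.ext h0)
  have hfix : Fr • (f : F) * h = (f : F) := by
    rw [← hTapp, hTf]
  have hFf : Fr • (f : F) ≠ 0 := fun h0 => hf0' ((smul_eq_zero_iff_eq Fr).mp h0)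
  obtain ⟨Df, hDf, hDfdeg⟩ := hpd.exists_divisor (f : F) hf0'
  have hfmem := mem_riemannRochSpace_iff.mp f.2
  have hD₀app : ∀ v : Place k F, D₀ (Fr⁻¹ • v) = D₀ v := by
    intro v
    rw [← SemilinearAut.divisor_smul_apply, hD₀]
  refine ⟨(D : Divisor k F) + D₀ + Df, ?_, ?_, ?_, ?_, ?_⟩
  · rw [Finsupp.le_def]
    intro v
    have := (hfmem v).resolve_left hf0'
    rw [Finsupp.add_apply] at this
    rw [Finsupp.add_apply, Finsupp.add_apply, hDf v, Finsupp.coe_zero, Pi.zero_apply]
    omega
  · ext v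
    rw [SemilinearAut.divisor_smul_apply, Finsupp.add_apply, Finsupp.add_apply,
      Finsupp.add_apply, Finsupp.add_apply, hDf, hDf, hD₀app]
    have h1 : v.ord (Fr • (f : F)) = (Fr⁻¹ • v).ord (f : F) := by
      have := SemilinearAut.ord_smul Fr (Fr⁻¹ • v) (f : F)
      rwa [smul_inv_smul] at this
    have h2 : v.ord (f : F) = v.ord (Fr • (f : F)) + v.ord h := by
      conv_lhs => rw [← hfix]
      exact Place.ord_mul _ hFf hh0
    have h3 := hh v
    rw [Finsupp.sub_apply, SemilinearAut.divisor_smul_apply] at h3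
    rw [h2, h1, ← h3]
    ring
  · rw [map_add, map_add, hdegD, hDfdeg, zero_add, add_zero]
  · rw [Divisor.mem_degZero, map_sub, map_add, map_add, hdegD, hDfdeg]
    ring
  · apply QuotientAddGroup.eq.mpr
    rw [AddSubgroup.mem_addSubgroupOf, AddSubgroup.coe_add, AddSubgroup.coe_neg]
    have h1 : -((D : Divisor k F) + D₀ + Df - D₀) + (D : Divisor k F) = -Df := by abel
    show -((D : Divisor k F) + D₀ + Df - D₀) + (D : Divisor k F) ∈ _
    rw [h1]
    exact AddSubgroup.neg_mem _ ⟨(f : F), hf0', hDf⟩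

/-- **FINRED, abstract form**: the group of divisor classes of degree `0` fixed by a Frobenius
is finite. -/
theorem s15red_fixed_classes_finite [IsAlgClosed k] [hpd : HasPrincipalDivisors k F]
    (hres : ∀ v : Place k F, Function.Bijective (algebraMap k v.ResidueField))
    (g : ℕ) (hlow : GPRiemannLower k F g)
    (Fr : SemilinearAut k F) (q : ℕ) (hq2 : 2 ≤ q) (hq : (q : k) = 0)
    (hFr : ∀ a : k, SemilinearAut.baseAut Fr a = a ^ q)
    {t : F} (ht : Fr • t = t) (hpole : ∃ P : Place k F, P.ord t < 0) :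
    {c : Pic0 k F | Fr • c = c}.Finite := by
  classical
  obtain ⟨v₀, hv₀⟩ := hpole
  have hpole : ∃ P : Place k F, P.ord t < 0 := ⟨v₀, hv₀⟩
  obtain ⟨Dt, hDt, -⟩ := hpd.exists_divisor t (s15red_ne_zero hpole)
  -- the poles of `t`
  set S : Finset (Place k F) := Dt.support.filter fun P => P.ord t < 0 with hS
  have hmemS : ∀ P : Place k F, P ∈ S ↔ P.ord t < 0 := by
    intro P
    rw [hS, Finset.mem_filter, Finsupp.mem_support_iff, hDt P]
    constructor
    · exact fun h => h.2
    · exact fun h => ⟨by omega, h⟩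
  have hFt : Fr⁻¹ • t = t := by
    conv_lhs => rw [← ht]
    exact inv_smul_smul Fr t
  have hSinv : ∀ P : Place k F, Fr⁻¹ • P ∈ S ↔ P ∈ S := by
    intro P
    rw [hmemS, hmemS]
    have := SemilinearAut.ord_smul Fr⁻¹ P t
    rw [hFt] at this
    rw [this]
  have hScard : 1 ≤ S.card := Finset.card_pos.mpr ⟨v₀, (hmemS v₀).mpr hv₀⟩
  set D₀ : Divisor k F := g • gpSum S with hD₀def
  have hD₀ : Fr • D₀ = D₀ := by
    ext v
    rw [SemilinearAut.divisor_smul_apply, hD₀def, Finsupp.smul_apply, Finsupp.smul_apply]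
    by_cases hv : v ∈ S
    · rw [gpSum_apply_of_mem hv, gpSum_apply_of_mem ((hSinv v).mpr hv)]
    · rw [gpSum_apply_of_not_mem hv, gpSum_apply_of_not_mem (fun h => hv ((hSinv v).mp h))]
  have hdegD₀ : Divisor.degree D₀ = ((g * S.card : ℕ) : ℤ) := by
    rw [hD₀def, map_nsmul, degree_gpSum hres]
    push_cast
    rw [nsmul_eq_mul]
  have hdeg : (g : ℤ) ≤ Divisor.degree D₀ := by
    rw [hdegD₀]
    have : g * 1 ≤ g * S.card := Nat.mul_le_mul_left g hScard
    exact_mod_cast (by omega : g ≤ g * S.card)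
  have hfin := s15red_fixed_eff_finite hres Fr q hq2 hFr ht hpole (g * S.card)
  let Φ : Divisor k F → Pic0 k F := fun E =>
    if h : E - D₀ ∈ Divisor.degZero (K := k) (F := F) then Pic0.mk ⟨E - D₀, h⟩ else 0
  refine (hfin.image Φ).subset fun c hc => ?_
  obtain ⟨E, hE0, hEF, hEdeg, h, hEc⟩ :=
    s15red_exists_fixed_eff hres v₀ g hlow Fr q hq2 hq hFr D₀ hD₀ hdeg c hc
  refine ⟨E, ⟨hE0, hEdeg.trans hdegD₀, hEF⟩, ?_⟩
  show (if h : E - D₀ ∈ Divisor.degZero (K := k) (F := F) then Pic0.mk ⟨E - D₀, h⟩ else 0) = c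
  rw [dif_pos h]
  exact hEc

end Classes

end Fermat.Agent.S15
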