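import Mathlib

/-!
# S15 block RED, piece FINRED — Lang's lemma for semilinear maps

`s15red_lang` : let `k` be an algebraically closed field, `q ≥ 2` with `(q : k) = 0`, `V ≠ 0` a
finite dimensional `k`-vector space and `T : V → V` an injective additive map with
`T (a • v) = a ^ q • T v`.  Then `T` has a non-zero fixed vector.

Proof: `v₀ ≠ 0`, `n` minimal with `T^n v₀ = Σ_{i<n} c_i T^i v₀`; `w = Σ_{i<n} x_i T^i v₀` is fixed
iff `x_0 = c_0 y^q`, `x_{i+1} = x_i^q + c_{i+1} y^q`, `x_{n-1} = y`; this is a separable polynomial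
equation in `y` of degree `≥ q`.
-/

set_option autoImplicit false

open Polynomial

namespace Fermat.Agent.S15

section Lang

variable {k : Type*} [Field k]

/-- the polynomials `X_0 = c_0 Y^q`, `X_{i+1} = X_i^q + c_{i+1} Y^q` -/
noncomputable def s15red_langPoly (q : ℕ) (c : ℕ → k) : ℕ → k[X]
  | 0 => C (c 0) * X ^ q
  | (i + 1) => (s15red_langPoly q c i) ^ q + C (c (i + 1)) * X ^ q

theorem s15red_langPoly_zero (q : ℕ) (c : ℕ → k) :
    s15red_langPoly q c 0 = C (c 0) * X ^ q := rfl

theorem s15red_langPoly_succ (q : ℕ) (c : ℕ → k) (i : ℕ) :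
    s15red_langPoly q c (i + 1) = (s15red_langPoly q c i) ^ q + C (c (i + 1)) * X ^ q := rfl

theorem s15red_langPoly_derivative (q : ℕ) (hq : (q : k) = 0) (c : ℕ → k) (i : ℕ) :
    derivative (s15red_langPoly q c i) = 0 := by
  have hq' : (q : k[X]) = 0 := by
    rw [← map_natCast (C : k →+* k[X]), hq, map_zero]
  cases i with
  | zero =>
    rw [s15red_langPoly_zero, derivative_C_mul, derivative_X_pow, map_natCast, hq', zero_mul,
      mul_zero]
  | succ i =>
    rw [s15red_langPoly_succ, derivative_add, derivative_pow, derivative_C_mul, derivative_X_pow,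
      map_natCast, hq', zero_mul, zero_mul, zero_mul, mul_zero, add_zero]

theorem s15red_langPoly_eval_zero (q : ℕ) (hq : q ≠ 0) (c : ℕ → k) (i : ℕ) :
    (s15red_langPoly q c i).eval 0 = 0 := by
  induction i with
  | zero => simp [s15red_langPoly_zero, hq]
  | succ i ih => simp [s15red_langPoly_succ, ih, hq]

theorem s15red_langPoly_natDegree (q : ℕ) (hq : 2 ≤ q) (c : ℕ → k) (i : ℕ) :
    (s15red_langPoly q c i = 0 ∨ q ≤ (s15red_langPoly q c i).natDegree) ∧
      ((∃ j, j ≤ i ∧ c j ≠ 0) → s15red_langPoly q c i ≠ 0) := by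
  have hq0 : q ≠ 0 := by omega
  induction i with
  | zero =>
    rw [s15red_langPoly_zero]
    by_cases h0 : c 0 = 0
    · refine ⟨Or.inl (by rw [h0, map_zero, zero_mul]), ?_⟩
      rintro ⟨j, hj, hcj⟩
      obtain rfl : j = 0 := by omega
      exact absurd h0 hcj
    · refine ⟨Or.inr ?_, fun _ => ?_⟩
      · rw [natDegree_C_mul_X_pow q (c 0) h0]
      · intro h
        have := congrArg natDegree h
        rw [natDegree_C_mul_X_pow q (c 0) h0, natDegree_zero] at this
        omega
  | succ i ih =>
    rw [s15red_langPoly_succ]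
    by_cases hX : s15red_langPoly q c i = 0
    · rw [hX, zero_pow hq0, zero_add]
      by_cases h0 : c (i + 1) = 0
      · refine ⟨Or.inl (by rw [h0, map_zero, zero_mul]), ?_⟩
        rintro ⟨j, hj, hcj⟩
        rcases Nat.lt_or_ge j (i + 1) with hlt | hge
        · exact (ih.2 ⟨j, by omega, hcj⟩ hX).elim
        · obtain rfl : j = i + 1 := by omega
          exact absurd h0 hcj
      · refine ⟨Or.inr ?_, fun _ => ?_⟩
        · rw [natDegree_C_mul_X_pow q _ h0]
        · intro h
          have := congrArg natDegree h
          rw [natDegree_C_mul_X_pow q _ h0, natDegree_zero] at this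
          omega
    · have hdeg : q ≤ (s15red_langPoly q c i).natDegree := ih.1.resolve_left hX
      have h1 : ((s15red_langPoly q c i) ^ q).natDegree = q * (s15red_langPoly q c i).natDegree :=
        natDegree_pow _ _
      have h2 : (C (c (i + 1)) * X ^ q : k[X]).natDegree ≤ q := natDegree_C_mul_X_pow_le _ _
      have h3 : (C (c (i + 1)) * X ^ q : k[X]).natDegree <
          ((s15red_langPoly q c i) ^ q).natDegree := by
        rw [h1]
        have : q * 2 ≤ q * (s15red_langPoly q c i).natDegree :=
          Nat.mul_le_mul_left q (hq.trans hdeg)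
        omega
      have h4 := natDegree_add_eq_left_of_natDegree_lt h3
      have h5 : q ≤ ((s15red_langPoly q c i) ^ q + C (c (i + 1)) * X ^ q).natDegree := by
        rw [h4, h1]
        calc q = q * 1 := (mul_one q).symm
          _ ≤ q * (s15red_langPoly q c i).natDegree := Nat.mul_le_mul_left q (by omega)
      refine ⟨Or.inr h5, fun _ h => ?_⟩
      rw [h, natDegree_zero] at h5
      omega

/-- a polynomial of degree `≥ 2` with zero derivative has a non-zero "fixed point" -/
theorem s15red_exists_fixed [IsAlgClosed k] (P : k[X]) (hP : derivative P = 0)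
    (hdeg : 2 ≤ P.natDegree) : ∃ y : k, y ≠ 0 ∧ P.eval y = y := by
  classical
  set R : k[X] := P - X with hR
  have hRdeg : R.natDegree = P.natDegree := by
    apply natDegree_sub_eq_left_of_natDegree_lt
    rw [natDegree_X]
    omega
  have hRder : derivative R = -1 := by
    rw [hR, derivative_sub, hP, derivative_X, zero_sub]
  have hsep : R.Separable := by
    rw [separable_def, hRder]
    exact isCoprime_one_right.neg_right
  have hcard : Multiset.card R.roots = R.natDegree :=
    splits_iff_card_roots.mp (IsAlgClosed.splits R)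
  have hnodup : R.roots.Nodup := nodup_roots hsep
  have hcard' : R.roots.toFinset.card = R.natDegree := by
    rw [Multiset.toFinset_card_of_nodup hnodup, hcard]
  have h1 : 1 < R.roots.toFinset.card := by rw [hcard', hRdeg]; omega
  obtain ⟨y, hy, hy0⟩ := Finset.exists_mem_ne h1 0
  refine ⟨y, hy0, ?_⟩
  have hyr : y ∈ R.roots := Multiset.mem_toFinset.mp hy
  have := (mem_roots'.mp hyr).2
  rw [IsRoot.def, hR, eval_sub, eval_X, sub_eq_zero] at this
  exact this

end Lang

section Main

variable {k V : Type*} [Field k] [IsAlgClosed k] [AddCommGroup V] [Module k V]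
  [FiniteDimensional k V]

omit [IsAlgClosed k] in
/-- in a finite dimensional space some `T^n v₀` is a combination of the earlier ones -/
theorem s15red_exists_dep (u : ℕ → V) :
    ∃ n : ℕ, u n ∈ Submodule.span k (Set.range fun i : Fin n => u i) := by
  by_contra hcon
  rw [not_exists] at hcon
  have hli : ∀ n : ℕ, LinearIndependent k (fun i : Fin n => u i) := by
    intro n
    induction n with
    | zero => exact linearIndependent_empty_type
    | succ n ih =>
      rw [linearIndependent_finSucc']
      exact ⟨ih, hcon n⟩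
  have := (hli (Module.finrank k V + 1)).fintype_card_le_finrank
  rw [Fintype.card_fin] at this
  omega

/-- **Lang's lemma**: an injective `q`-semilinear endomorphism of a non-zero finite dimensional
vector space over an algebraically closed field in which `q = 0` has a non-zero fixed vector. -/
theorem s15red_lang (q : ℕ) (hq2 : 2 ≤ q) (hq : (q : k) = 0) (T : V →+ V)
    (hT : ∀ (a : k) (v : V), T (a • v) = a ^ q • T v) (hinj : Function.Injective T)
    (v₀ : V) (hv₀ : v₀ ≠ 0) : ∃ v : V, v ≠ 0 ∧ T v = v := by
  classical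
  set u : ℕ → V := fun i => T^[i] v₀ with hu
  have hus : ∀ i, u (i + 1) = T (u i) := fun i => Function.iterate_succ_apply' T i v₀
  have hex := s15red_exists_dep (k := k) u
  set n := Nat.find hex with hn
  have hspec := Nat.find_spec hex
  rw [← hn] at hspec
  -- `n ≥ 1`
  have hn0 : n ≠ 0 := by
    intro h0
    rw [h0] at hspec
    have : (Set.range fun i : Fin 0 => u i) = ∅ := Set.range_eq_empty _
    rw [this, Submodule.span_empty, Submodule.mem_bot] at hspec
    exact hv₀ hspec
  obtain ⟨m, hm⟩ : ∃ m, n = m + 1 := ⟨n - 1, by omega⟩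
  have hmin : u m ∉ Submodule.span k (Set.range fun i : Fin m => u i) :=
    Nat.find_min hex (by omega)
  -- the coefficients
  rw [Submodule.mem_span_range_iff_exists_fun] at hspec
  obtain ⟨c₀, hc₀⟩ := hspec
  set c : ℕ → k := fun j => if h : j < n then c₀ ⟨j, h⟩ else 0 with hc
  have hsum : ∑ j ∈ Finset.range n, c j • u j = u n := by
    rw [← hc₀, ← Fin.sum_univ_eq_sum_range (fun j => c j • u j) n]
    refine Finset.sum_congr rfl fun i _ => ?_
    rw [hc]
    simp only [i.isLt, dite_true, Fin.eta]
  have hune : u n ≠ 0 := by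
    intro h
    have : T^[n] v₀ = T^[n] 0 := by
      rw [iterate_map_zero]
      exact h
    exact hv₀ ((hinj.iterate n) this)
  have hcne : ∃ j, j ≤ m ∧ c j ≠ 0 := by
    by_contra hall
    apply hune
    rw [← hsum]
    refine Finset.sum_eq_zero fun j hj => ?_
    have hj' : c j = 0 := by
      by_contra hcj
      exact hall ⟨j, by have := Finset.mem_range.mp hj; omega, hcj⟩
    rw [hj', zero_smul]
  -- the polynomial
  set P := s15red_langPoly q c m with hP
  have hPne : P ≠ 0 := (s15red_langPoly_natDegree q hq2 c m).2 hcne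
  have hPdeg : 2 ≤ P.natDegree :=
    hq2.trans ((s15red_langPoly_natDegree q hq2 c m).1.resolve_left hPne)
  obtain ⟨y, hy0, hy⟩ := s15red_exists_fixed P (s15red_langPoly_derivative q hq c m) hPdeg
  set x : ℕ → k := fun i => (s15red_langPoly q c i).eval y with hx
  have hx0 : x 0 = c 0 * y ^ q := by
    simp [hx, s15red_langPoly_zero]
  have hxs : ∀ i, x (i + 1) = x i ^ q + c (i + 1) * y ^ q := by
    intro i
    simp [hx, s15red_langPoly_succ]
  have hxm : x m = y := hy
  -- the fixed vector
  refine ⟨∑ i ∈ Finset.range (m + 1), x i • u i, ?_, ?_⟩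
  · intro hw
    rw [Finset.sum_range_succ, hxm] at hw
    apply hmin
    have hum : u m = -(y⁻¹ • ∑ i ∈ Finset.range m, x i • u i) := by
      have h1 : y • u m = -∑ i ∈ Finset.range m, x i • u i := by
        rw [eq_neg_iff_add_eq_zero, add_comm]
        exact hw
      rw [← smul_neg, ← h1, smul_smul, inv_mul_cancel₀ hy0, one_smul]
    rw [hum]
    refine Submodule.neg_mem _ (Submodule.smul_mem _ _ (Submodule.sum_mem _ fun i hi => ?_))
    exact Submodule.smul_mem _ _
      (Submodule.subset_span ⟨⟨i, Finset.mem_range.mp hi⟩, rfl⟩)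
  · rw [map_sum]
    have h1 : ∀ i ∈ Finset.range (m + 1), T (x i • u i) = x i ^ q • u (i + 1) := by
      intro i _
      rw [hT, hus]
    rw [Finset.sum_congr rfl h1, Finset.sum_range_succ, hxm, ← hm, ← hsum, hm,
      Finset.sum_range_succ' (fun i => x i • u i), Finset.sum_range_succ' (fun i => c i • u i),
      smul_add, Finset.smul_sum, ← add_assoc, ← Finset.sum_add_distrib, hx0]
    congr 1
    · refine Finset.sum_congr rfl fun i _ => ?_
      rw [hxs, add_smul, smul_smul, mul_comm]
    · rw [smul_smul, mul_comm]

end Main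

end Fermat.Agent.S15
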