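import Fermat.Agent.W1.GeoC1
import Fermat.Agent.W1.PlanGeo2
import Fermat.Prelude.Def_AlgebraicCurve_BaseChangeGalois

/-!
# S15 block RED — the specialization map of a reduction package (generic part)

For a reduction package `R : PRData K F k Fk A` (`W1/PlanGeo.lean`) with `R.IsPR` and rational
places on both sides:

* `s15red_sp R hR hres hresk : Pic0 K F →+ Pic0 k Fk`, `[D] ↦ [r_* D]`;
* `s15red_sp_eq_zero_iff` : its kernel is `R.J1`;
* `s15red_sp_smul` : if `r (γ • P) = τ • r P` for all places then `sp (γ • x) = τ • sp x`.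
-/

set_option autoImplicit false

open AlgebraicCurve Module

namespace Fermat.Agent.S15

open Fermat.Agent.W1 Fermat.Agent.ES.R Fermat.Agent.S24

variable {K F k Fk : Type} [Field K] [Field F] [Algebra K F] [Field k] [Field Fk] [Algebra k Fk]
variable {A : ValuationSubring K}

/-- reduction of divisors of degree zero -/
noncomputable def s15red_degZeroHom (R : PRData K F k Fk A)
    (hres : ∀ v : Place K F, Function.Bijective (algebraMap K v.ResidueField))
    (hresk : ∀ v : Place k Fk, Function.Bijective (algebraMap k v.ResidueField)) :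
    Divisor.degZero (K := K) (F := F) →+ Divisor.degZero (K := k) (F := Fk) :=
  ((Finsupp.mapDomain.addMonoidHom R.r).comp
    (Divisor.degZero (K := K) (F := F)).subtype).codRestrict _ (fun D => by
      rw [Divisor.mem_degZero]
      show Divisor.degree (Finsupp.mapDomain R.r (D : Divisor K F)) = 0
      rw [c1_degree_mapDomain hres hresk, Divisor.mem_degZero.mp D.2])

@[simp] theorem s15red_coe_degZeroHom (R : PRData K F k Fk A)
    (hres : ∀ v : Place K F, Function.Bijective (algebraMap K v.ResidueField))
    (hresk : ∀ v : Place k Fk, Function.Bijective (algebraMap k v.ResidueField))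
    (D : Divisor.degZero (K := K) (F := F)) :
    (s15red_degZeroHom R hres hresk D : Divisor k Fk) =
      Finsupp.mapDomain R.r (D : Divisor K F) := rfl

/-- **the specialization map** `[D] ↦ [r_* D]` -/
noncomputable def s15red_sp (R : PRData K F k Fk A) (hR : R.IsPR)
    (hres : ∀ v : Place K F, Function.Bijective (algebraMap K v.ResidueField))
    (hresk : ∀ v : Place k Fk, Function.Bijective (algebraMap k v.ResidueField)) :
    Pic0 K F →+ Pic0 k Fk :=
  QuotientAddGroup.map _ _ (s15red_degZeroHom R hres hresk) (by
    rintro ⟨D, hD0⟩ hD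
    simp only [AddSubgroup.mem_comap, AddSubgroup.mem_addSubgroupOf] at hD ⊢
    exact c1_mapDomain_principal hR hD)

theorem s15red_sp_mk (R : PRData K F k Fk A) (hR : R.IsPR)
    (hres : ∀ v : Place K F, Function.Bijective (algebraMap K v.ResidueField))
    (hresk : ∀ v : Place k Fk, Function.Bijective (algebraMap k v.ResidueField))
    (D : Divisor.degZero (K := K) (F := F)) :
    s15red_sp R hR hres hresk (Pic0.mk D) = Pic0.mk (s15red_degZeroHom R hres hresk D) := rfl

theorem s15red_mk_eq_zero_iff {K F : Type*} [Field K] [Field F] [Algebra K F]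
    (D : Divisor.degZero (K := K) (F := F)) :
    Pic0.mk D = 0 ↔ (D : Divisor K F) ∈ Divisor.principal (K := K) (F := F) := by
  show (QuotientAddGroup.mk D : Pic0 K F) = 0 ↔ _
  rw [QuotientAddGroup.eq_zero_iff, AddSubgroup.mem_addSubgroupOf]

/-- the kernel of the specialization map is `J1` -/
theorem s15red_sp_eq_zero_iff (R : PRData K F k Fk A) (hR : R.IsPR)
    (hres : ∀ v : Place K F, Function.Bijective (algebraMap K v.ResidueField))
    (hresk : ∀ v : Place k Fk, Function.Bijective (algebraMap k v.ResidueField))
    (x : Pic0 K F) : s15red_sp R hR hres hresk x = 0 ↔ x ∈ R.J1 := by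
  constructor
  · intro h
    obtain ⟨D, rfl⟩ := Pic0.mk_surjective x
    rw [s15red_sp_mk, s15red_mk_eq_zero_iff, s15red_coe_degZeroHom] at h
    exact ⟨D, rfl, h⟩
  · rintro ⟨D, rfl, hD⟩
    rw [s15red_sp_mk, s15red_mk_eq_zero_iff, s15red_coe_degZeroHom]
    exact hD

/-- equivariance of the specialization map -/
theorem s15red_sp_smul (R : PRData K F k Fk A) (hR : R.IsPR)
    (hres : ∀ v : Place K F, Function.Bijective (algebraMap K v.ResidueField))
    (hresk : ∀ v : Place k Fk, Function.Bijective (algebraMap k v.ResidueField))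
    (γ : SemilinearAut K F) (τ : SemilinearAut k Fk)
    (h : ∀ P : Place K F, R.r (γ • P) = τ • R.r P) (x : Pic0 K F) :
    s15red_sp R hR hres hresk (γ • x) = τ • s15red_sp R hR hres hresk x := by
  obtain ⟨D, rfl⟩ := Pic0.mk_surjective x
  rw [SemilinearAut.pic0_smul_mk, s15red_sp_mk, s15red_sp_mk, SemilinearAut.pic0_smul_mk]
  congr 1
  apply Subtype.ext
  rw [s15red_coe_degZeroHom, SemilinearAut.coe_degZeroSMulHom, SemilinearAut.coe_degZeroSMulHom,
    s15red_coe_degZeroHom, SemilinearAut.divisor_smul_def, SemilinearAut.divisor_smul_def,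
    ← Finsupp.mapDomain_comp, ← Finsupp.mapDomain_comp]
  congr 1
  exact funext h

end Fermat.Agent.S15
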