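/-
S15 (Mazur chain), block SELMER, piece **SEL-MK** (helper72).

A homomorphism `a : Gal(ℚ̄/ℚ) → X` of finite level which is unramified at every prime (it kills
the inertia group of SOME valuation subring over each prime) is trivial.
Corollary of `Fermat.Agent.S13.Minkowski.minkowski_glue` (Hermite–Minkowski).
-/
import Fermat.Agent.S13.Minkowski

set_option autoImplicit false

namespace Fermat.Agent.S15

/-- **SEL-MK**, additive form. -/
theorem selmk_trivial {X : Type*} [AddGroup X]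
    (a : (AlgebraicClosure ℚ ≃ₐ[ℚ] AlgebraicClosure ℚ) → X)
    (hadd : ∀ σ τ, a (σ * τ) = a σ + a τ)
    (hlev : ∃ S : Finset (AlgebraicClosure ℚ),
      ∀ σ : AlgebraicClosure ℚ ≃ₐ[ℚ] AlgebraicClosure ℚ, (∀ s ∈ S, σ s = s) → a σ = 0)
    (hunr : ∀ q : ℕ, q.Prime → ∃ A : ValuationSubring (AlgebraicClosure ℚ),
      A.LiesOverPrime q ∧ ∀ σ ∈ A.inertiaSubgroupIn ℚ, a σ = 0) :
    ∀ σ, a σ = 0 := by
  have h1 : a 1 = 0 := by
    have := hadd 1 1
    rw [mul_one] at this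
    have h2 : a 1 + 0 = a 1 + a 1 := by rw [add_zero]; exact this
    exact (add_left_cancel h2).symm
  have hinv : ∀ σ, a σ⁻¹ = -a σ := by
    intro σ
    have := hadd σ⁻¹ σ
    rw [inv_mul_cancel, h1] at this
    exact eq_neg_of_add_eq_zero_left this.symm
  let K : Subgroup (AlgebraicClosure ℚ ≃ₐ[ℚ] AlgebraicClosure ℚ) :=
    { carrier := {σ | a σ = 0}
      mul_mem' := fun {σ τ} hσ hτ => by
        show a (σ * τ) = 0
        rw [hadd, hσ, hτ, add_zero]
      one_mem' := h1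
      inv_mem' := fun {σ} hσ => by
        show a σ⁻¹ = 0
        rw [hinv, hσ, neg_zero] }
  have hKn : K.Normal := by
    refine ⟨fun n hn g => ?_⟩
    show a (g * n * g⁻¹) = 0
    have hn' : a n = 0 := hn
    rw [hadd, hadd, hn', add_zero, hinv, add_neg_cancel]
  have hK : K = ⊤ := by
    refine Fermat.Agent.S13.Minkowski.minkowski_glue K hKn ?_ ?_
    · obtain ⟨S, hS⟩ := hlev
      exact ⟨S, fun σ hσ => hS σ hσ⟩
    · intro q hq
      obtain ⟨A, hA, hI⟩ := hunr q hq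
      exact ⟨A, hA, fun σ hσ => hI σ hσ⟩
  intro σ
  have : σ ∈ K := by rw [hK]; trivial
  exact this

/-- **SEL-MK**, multiplicative form. -/
theorem selmk_trivial_mul {X : Type*} [Group X]
    (a : (AlgebraicClosure ℚ ≃ₐ[ℚ] AlgebraicClosure ℚ) →* X)
    (hlev : ∃ S : Finset (AlgebraicClosure ℚ),
      ∀ σ : AlgebraicClosure ℚ ≃ₐ[ℚ] AlgebraicClosure ℚ, (∀ s ∈ S, σ s = s) → a σ = 1)
    (hunr : ∀ q : ℕ, q.Prime → ∃ A : ValuationSubring (AlgebraicClosure ℚ),
      A.LiesOverPrime q ∧ ∀ σ ∈ A.inertiaSubgroupIn ℚ, a σ = 1) :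
    ∀ σ, a σ = 1 := by
  have hK : a.ker = ⊤ := by
    refine Fermat.Agent.S13.Minkowski.minkowski_glue a.ker inferInstance ?_ ?_
    · obtain ⟨S, hS⟩ := hlev
      exact ⟨S, fun σ hσ => hS σ hσ⟩
    · intro q hq
      obtain ⟨A, hA, hI⟩ := hunr q hq
      exact ⟨A, hA, fun σ hσ => hI σ hσ⟩
  intro σ
  have : σ ∈ a.ker := by rw [hK]; trivial
  exact this

end Fermat.Agent.S15
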