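/-
S15 / SELMER block, piece **AR-ET** (helper72): `stmtSelArEt_of : StmtSelLQ → StmtSelArEt`.

In an étale step `W ≤ W'` (`W' ∩ V1 ≤ W`) with trivial Galois action on `W' / W`, the cocycle
`σ ↦ σ a - a ∈ W'` of a point `a` fixed by the inertia at `N` is a homomorphism `G_ℚ → W' / W` of
finite level which is unramified everywhere (`q ∤ N r`: SEL-LQ; `q = N`: `a ∈ selIF`; `q = r`:
étale), hence trivial (`selmk_trivial`, Minkowski).
-/
import Fermat.Agent.S15.SelPlan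
import Fermat.Agent.S15.SelMK
import Fermat.Agent.S15.SelFL

set_option autoImplicit false
set_option linter.style.haveILetI false

noncomputable section

namespace Fermat.Agent.S15

open ModularCurve AlgebraicCurve
open Fermat.Agent.S24 Fermat.Agent.W1

/-- a finite-dimensional subfield of `ℚ̄` is cut out by finitely many elements -/
theorem selaret_exists_finset (E : IntermediateField ℚ (AlgebraicClosure ℚ))
    [FiniteDimensional ℚ E] :
    ∃ S : Finset (AlgebraicClosure ℚ),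
      ∀ σ : AlgebraicClosure ℚ ≃ₐ[ℚ] AlgebraicClosure ℚ, (∀ s ∈ S, σ s = s) →
        ∀ a ∈ E, σ a = a := by
  classical
  let b := Module.finBasis ℚ E
  refine ⟨Finset.univ.image (fun i => ((b i : E) : AlgebraicClosure ℚ)), fun σ hσ a ha => ?_⟩
  have h1 := b.sum_repr ⟨a, ha⟩
  have h2 : a = ∑ i, (b.repr ⟨a, ha⟩ i) • ((b i : E) : AlgebraicClosure ℚ) := by
    have := congrArg (fun x : E => (x : AlgebraicClosure ℚ)) h1
    simp only [IntermediateField.coe_sum, IntermediateField.coe_smul] at this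
    exact this.symm
  rw [h2, map_sum]
  refine Finset.sum_congr rfl (fun i _ => ?_)
  rw [Algebra.smul_def, map_mul, AlgEquiv.commutes,
    hσ _ (Finset.mem_image_of_mem _ (Finset.mem_univ i))]

/-- every point of `J₀(N)(ℚ̄)` is fixed by the automorphisms fixing a finite set -/
theorem selaret_finite_level (N : ℕ) [NeZero N] (x : JZero N) :
    ∃ S : Finset (AlgebraicClosure ℚ),
      ∀ σ : AlgebraicClosure ℚ ≃ₐ[ℚ] AlgebraicClosure ℚ, (∀ s ∈ S, σ s = s) → σ • x = x := by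
  obtain ⟨E, hE, h⟩ := selfl_exists_field' N x
  haveI := hE
  obtain ⟨S, hS⟩ := selaret_exists_finset E
  exact ⟨S, fun σ hσ => h σ (hS σ hσ)⟩

/-- **AR-ET** from SEL-LQ. -/
theorem stmtSelArEt_of (hLQ : StmtSelLQ) : StmtSelArEt := by
  intro N _ r k hN hr hrN AN Ar hAN hAr V1 hV1 W W' hstep htriv het a ha hcoc
  classical
  -- the homomorphism `σ ↦ [σ a - a] ∈ W' / W`
  let ψ : GalQ → (↥W' ⧸ W.addSubgroupOf W') := fun σ =>
    QuotientAddGroup.mk (⟨σ • a - a, hcoc σ⟩ : ↥W')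
  have hψ0 : ∀ σ : GalQ, ψ σ = 0 ↔ σ • a - a ∈ W := by
    intro σ
    show (QuotientAddGroup.mk (⟨σ • a - a, hcoc σ⟩ : ↥W') : ↥W' ⧸ W.addSubgroupOf W') = 0 ↔ _
    rw [QuotientAddGroup.eq_zero_iff]
    exact AddSubgroup.mem_addSubgroupOf
  have hadd : ∀ σ τ : GalQ, ψ (σ * τ) = ψ σ + ψ τ := by
    intro σ τ
    show (QuotientAddGroup.mk (⟨(σ * τ) • a - a, hcoc (σ * τ)⟩ : ↥W') :
        ↥W' ⧸ W.addSubgroupOf W') =
      QuotientAddGroup.mk (⟨σ • a - a, hcoc σ⟩ : ↥W') +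
        QuotientAddGroup.mk (⟨τ • a - a, hcoc τ⟩ : ↥W')
    rw [← QuotientAddGroup.mk_add, QuotientAddGroup.eq, AddSubgroup.mem_addSubgroupOf]
    have h1 := htriv σ (τ • a - a) (hcoc τ)
    have e : ((-(⟨(σ * τ) • a - a, hcoc (σ * τ)⟩ : ↥W') +
        ((⟨σ • a - a, hcoc σ⟩ : ↥W') + (⟨τ • a - a, hcoc τ⟩ : ↥W')) : ↥W') : JZero N) =
        -(σ • (τ • a - a) - (τ • a - a)) := by
      simp only [AddSubgroup.coe_add, NegMemClass.coe_neg, mul_smul, smul_sub]
      abel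
    rw [e]
    exact W.neg_mem h1
  have hlev : ∃ S : Finset (AlgebraicClosure ℚ),
      ∀ σ : AlgebraicClosure ℚ ≃ₐ[ℚ] AlgebraicClosure ℚ, (∀ s ∈ S, σ s = s) → ψ σ = 0 := by
    obtain ⟨S, hS⟩ := selaret_finite_level N a
    refine ⟨S, fun σ hσ => ?_⟩
    rw [hψ0, hS σ hσ, sub_self]
    exact W.zero_mem
  have hunr : ∀ q : ℕ, q.Prime → ∃ A : ValuationSubring (AlgebraicClosure ℚ),
      A.LiesOverPrime q ∧ ∀ σ ∈ A.inertiaSubgroupIn ℚ, ψ σ = 0 := by
    intro q hq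
    by_cases hqN : q = N
    · subst hqN
      refine ⟨AN, hAN, fun σ hσ => ?_⟩
      rw [hψ0, ha σ hσ, sub_self]
      exact W.zero_mem
    by_cases hqr : q = r
    · subst hqr
      refine ⟨Ar, hAr, fun σ hσ => ?_⟩
      rw [hψ0]
      exact het ⟨hcoc σ, hV1 σ hσ a⟩
    · have hqN' : ¬ q ∣ N := fun h => hqN ((Nat.prime_dvd_prime_iff_eq hq hN).1 h)
      have hqr' : ¬ q ∣ r ^ k := fun h =>
        hqr ((Nat.prime_dvd_prime_iff_eq hq hr).1 (hq.dvd_of_dvd_pow h))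
      obtain ⟨A, hA, hI⟩ := hLQ N q hq hqN' (r ^ k) (pow_pos hr.pos k) hqr'
      refine ⟨A, hA, fun σ hσ => ?_⟩
      rw [hψ0, sub_eq_zero.2 (hI σ hσ a (hstep.tors _ (hcoc σ)))]
      exact W.zero_mem
  intro σ
  exact (hψ0 σ).1 (selmk_trivial ψ hadd hlev hunr σ)

end Fermat.Agent.S15
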