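import Fermat.Agent.S15.SelGR
import Fermat.Agent.W1.RatLocPID

/-!
# S15 / SEL-GR: the valuation form of `selgr_unit` over `ℤ_(r)`

* `selgr_padicValRat` : in the situation of `selgr_unit` with `R = ℤ_(r)`, if `α ^ n = a ∈ ℚ`
  then `n ∣ v_r(a)`.   (For a Kummer generator `α` of a cocycle with values in `μ_n`.)
-/

set_option autoImplicit false
set_option linter.unusedSectionVars false
set_option linter.unusedSimpArgs false
set_option linter.style.haveILetI false

namespace Fermat.Agent.S15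

open Fermat.Agent.W1 GaloisRep

section Val

variable (r : ℕ) [Fact r.Prime]

/-- A rational number which is integral over `ℤ_(r)` together with its inverse has valuation
`0`. -/
theorem selgr_padicValRat_eq_zero {x : ℚ}
    (hx : IsIntegral (ratLocalizedAt r) (algebraMap ℚ (AlgebraicClosure ℚ) x))
    (hx' : IsIntegral (ratLocalizedAt r) (algebraMap ℚ (AlgebraicClosure ℚ) x)⁻¹) :
    padicValRat r x = 0 := by
  have hq : ∀ y : ℚ, IsIntegral (ratLocalizedAt r) (algebraMap ℚ (AlgebraicClosure ℚ) y) →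
      0 ≤ padicValRat r y := by
    intro y hy
    have hintq : IsIntegral (ratLocalizedAt r) y :=
      (isIntegral_algHom_iff (IsScalarTower.toAlgHom (ratLocalizedAt r) ℚ (AlgebraicClosure ℚ))
        (algebraMap ℚ (AlgebraicClosure ℚ)).injective).1 hy
    obtain ⟨ρ, hρ⟩ := selgl_mem_of_isIntegral hintq
    rw [← hρ]
    exact ratLoc_padicValRat_nonneg r ρ
  have h1 := hq x hx
  have h2 : 0 ≤ padicValRat r x⁻¹ := by
    apply hq
    rw [map_inv₀]
    exact hx'
  rw [padicValRat.inv] at h2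
  omega

variable {E : Type} [AddCommGroup E]
  {act : (AlgebraicClosure ℚ ≃ₐ[ℚ] AlgebraicClosure ℚ) → E → E}
  {H : Subalgebra (ratLocalizedAt r) (E → AlgebraicClosure ℚ)}

/-- **(GR), valuation form.** -/
theorem selgr_padicValRat [Finite E] (hH : IsHopfLattice (ratLocalizedAt r) act H)
    (K : AddSubgroup E) (hK : ∀ σ, ∀ v ∈ K, act σ v ∈ K)
    (ψ : E → AlgebraicClosure ℚ)
    (hmul : ∀ u ∈ K, ∀ v ∈ K, ψ (u + v) = ψ u * ψ v) (h0 : ψ 0 = 1)
    (heq : ∀ (σ : AlgebraicClosure ℚ ≃ₐ[ℚ] AlgebraicClosure ℚ), ∀ v ∈ K,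
      ψ (act σ v) = σ (ψ v))
    (c : E) (hc : ∀ σ, act σ c - c ∈ K)
    (α : AlgebraicClosure ℚ) (hα : α ≠ 0)
    (hαeq : ∀ σ : AlgebraicClosure ℚ ≃ₐ[ℚ] AlgebraicClosure ℚ,
      σ α = ψ (act σ c - c) * α)
    (n : ℕ) (a : ℚ) (ha : algebraMap ℚ (AlgebraicClosure ℚ) a = α ^ n) :
    (n : ℤ) ∣ padicValRat r a := by
  obtain ⟨q, hq0, hint, hint'⟩ := selgr_unit hH K hK ψ hmul h0 heq c hc α hα hαeq
  have ha0 : a ≠ 0 := by
    intro h
    rw [h, map_zero] at ha
    exact pow_ne_zero n hα ha.symm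
  have hx : algebraMap ℚ (AlgebraicClosure ℚ) (q ^ n * a) =
      (algebraMap ℚ (AlgebraicClosure ℚ) q * α) ^ n := by
    rw [map_mul, map_pow, ha, mul_pow]
  have h1 : padicValRat r (q ^ n * a) = 0 := by
    apply selgr_padicValRat_eq_zero r
    · rw [hx]; exact hint.pow n
    · rw [hx, ← inv_pow]; exact hint'.pow n
  rw [padicValRat.mul (pow_ne_zero _ hq0) ha0, padicValRat.pow] at h1
  exact ⟨-padicValRat r q, by linarith⟩

end Val

end Fermat.Agent.S15
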