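/-
S15 (Mazur chain), block SELMER, piece **SEL-KU** (helper72): Kummer theory over `ℚ`.

* `selku_h90`        : Hilbert 90 for cocycles `a : Gal(ℚ̄/ℚ) → ℚ̄ˣ` of finite level with values in
                       `μ_r`: `a σ = σ α / α` with `α ^ r ∈ ℚ`;
* `selku_unram`      : if the inertia group of some valuation subring over `q` fixes an `r`-th root
                       `α` of `A₀ ∈ ℚ`, then `r ∣ v_q(A₀)`;
* `selku_pow`        : a nonzero rational all of whose valuations are divisible by the odd number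
                       `r` is an `r`-th power;
* `selku_coboundary` : an everywhere "unramified" `μ_r`-valued cocycle (`r` odd) is the coboundary
                       of an `r`-th root of unity.
-/
import Fermat.Agent.UNIP.Beta0Abs
import Fermat.Agent.S05.FreyArith

set_option autoImplicit false
set_option linter.style.haveILetI false

namespace Fermat.Agent.S15

open Fermat.Agent.UNIP

/-! ### Valuations of rational numbers -/

/-- The value of a nonzero natural number at a valuation subring over `q`. -/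
theorem selku_valuation_natCast {q : ℕ} (hq : q.Prime)
    (A : ValuationSubring (AlgebraicClosure ℚ)) (hA : A.LiesOverPrime q) {n : ℕ} (hn : n ≠ 0) :
    A.valuation (n : AlgebraicClosure ℚ) =
      A.valuation (q : AlgebraicClosure ℚ) ^ (padicValNat q n) := by
  haveI : Fact q.Prime := ⟨hq⟩
  have h1 : n = q ^ padicValNat q n * (n / q ^ padicValNat q n) :=
    (Nat.mul_div_cancel' pow_padicValNat_dvd).symm
  have h2 : ¬ q ∣ n / q ^ padicValNat q n := by
    intro h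
    have h3 : q ^ (padicValNat q n + 1) ∣ n := by
      rw [pow_succ]
      calc q ^ padicValNat q n * q ∣ q ^ padicValNat q n * (n / q ^ padicValNat q n) :=
            Nat.mul_dvd_mul_left _ h
        _ = n := h1.symm
    exact pow_succ_padicValNat_not_dvd hn h3
  have h4 := (Fermat.Agent.S05.valuation_natCast_eq_one_iff A hq hA _).2 h2
  conv_lhs => rw [h1]
  rw [Nat.cast_mul, Nat.cast_pow, map_mul, map_pow, h4, mul_one]

/-- The value of a nonzero rational number at a valuation subring over `q`. -/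
theorem selku_valuation_ratCast {q : ℕ} (hq : q.Prime)
    (A : ValuationSubring (AlgebraicClosure ℚ)) (hA : A.LiesOverPrime q) {x : ℚ} (hx : x ≠ 0) :
    A.valuation (algebraMap ℚ (AlgebraicClosure ℚ) x) =
      A.valuation (q : AlgebraicClosure ℚ) ^ (padicValRat q x) := by
  have hq0 : A.valuation (q : AlgebraicClosure ℚ) ≠ 0 :=
    (Valuation.ne_zero_iff _).2 (by exact_mod_cast hq.ne_zero)
  have hnum : x.num.natAbs ≠ 0 := by
    rw [Int.natAbs_ne_zero]
    exact Rat.num_ne_zero.2 hx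
  have hden : x.den ≠ 0 := x.den_nz
  have e1 : algebraMap ℚ (AlgebraicClosure ℚ) x =
      (x.num : AlgebraicClosure ℚ) / (x.den : AlgebraicClosure ℚ) := by
    conv_lhs => rw [← Rat.num_div_den x]
    rw [map_div₀, map_intCast, map_natCast]
  have e2 : A.valuation (x.num : AlgebraicClosure ℚ) =
      A.valuation ((x.num.natAbs : ℕ) : AlgebraicClosure ℚ) := by
    rcases Int.natAbs_eq x.num with h | h
    · conv_lhs => rw [h]
      rw [Int.cast_natCast]
    · conv_lhs => rw [h]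
      rw [Int.cast_neg, Int.cast_natCast, Valuation.map_neg]
  rw [e1, map_div₀, e2, selku_valuation_natCast hq A hA hnum, selku_valuation_natCast hq A hA hden]
  have e3 : padicValRat q x = (padicValNat q x.num.natAbs : ℤ) - (padicValNat q x.den : ℤ) := rfl
  rw [e3, zpow_sub₀ hq0, zpow_natCast, zpow_natCast]

/-! ### (UNR) -/

/-- **(UNR)**, general form: if the inertia group of a valuation subring `A` over `q` fixes `α`
and `α ^ r = A₀ ∈ ℚ`, then `r ∣ v_q(A₀)`. -/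
theorem selku_unram_gen {r q : ℕ} (hr : 0 < r) (hq : q.Prime)
    (α : AlgebraicClosure ℚ) (hα : α ≠ 0) (A₀ : ℚ)
    (hA₀ : α ^ r = algebraMap ℚ (AlgebraicClosure ℚ) A₀)
    (A : ValuationSubring (AlgebraicClosure ℚ)) (hA : A.LiesOverPrime q)
    (hI : ∀ σ ∈ A.inertiaSubgroupIn ℚ, σ α = α) :
    (r : ℤ) ∣ padicValRat q A₀ := by
  have hA₀0 : A₀ ≠ 0 := by
    rintro rfl
    rw [map_zero] at hA₀
    exact hα (pow_eq_zero_iff hr.ne' |>.1 hA₀)
  set g := A.valuation (q : AlgebraicClosure ℚ) with hg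
  have hqQ : (q : AlgebraicClosure ℚ) ≠ 0 := by exact_mod_cast hq.ne_zero
  have hg0 : g ≠ 0 := (Valuation.ne_zero_iff _).2 hqQ
  have hg1 : g < 1 := (ValuationSubring.mem_nonunits_iff A).1 hA
  have hgpos : 0 < g := zero_lt_iff.2 hg0
  set n := padicValRat q A₀ with hn
  have hval : A.valuation α ^ r = g ^ n := by
    rw [← map_pow, hA₀, selku_valuation_ratCast hq A hA hA₀0]
  -- `n = r * k + j`
  set k := n / (r : ℤ) with hk
  set j := n % (r : ℤ) with hj
  have hr0 : (r : ℤ) ≠ 0 := by exact_mod_cast hr.ne'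
  have hj0 : 0 ≤ j := Int.emod_nonneg _ hr0
  have hjr : j < r := Int.emod_lt_of_pos _ (by exact_mod_cast hr)
  have hnkj : n = r * k + j := (Int.mul_ediv_add_emod n r).symm
  rw [Int.dvd_iff_emod_eq_zero]
  by_contra hne
  have hjpos : 0 < j := lt_of_le_of_ne hj0 (Ne.symm hne)
  -- `β = α / q ^ k`
  set β := α / (q : AlgebraicClosure ℚ) ^ k with hβ
  have hβE : β ∈ beta0Field A := by
    have h1 : α ∈ beta0Field A := mem_beta0Field.2 hI
    have h2 : (q : AlgebraicClosure ℚ) ∈ beta0Field A := natCast_mem _ q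
    exact div_mem h1 (zpow_mem h2 k)
  have hβval : A.valuation β ^ r = g ^ j := by
    rw [hβ, map_div₀, map_zpow₀, div_pow, hval, ← hg, ← zpow_natCast (g ^ k) r, ← zpow_mul,
      ← zpow_sub₀ hg0]
    congr 1
    rw [hnkj]
    ring
  obtain ⟨j', hj'⟩ : ∃ j' : ℕ, j = (j' : ℤ) := ⟨j.toNat, (Int.toNat_of_nonneg hj0).symm⟩
  rw [hj', zpow_natCast] at hβval
  have hj'pos : 0 < j' := by rw [hj'] at hjpos; exact_mod_cast hjpos
  have hj'r : j' < r := by rw [hj'] at hjr; exact_mod_cast hjr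
  have hβlt : A.valuation β < 1 := by
    by_contra hcon
    rw [not_lt] at hcon
    have h1 : (1 : _) ≤ A.valuation β ^ r := one_le_pow₀ hcon
    rw [hβval] at h1
    exact absurd h1 (not_le.2 (pow_lt_one₀ hgpos.le hg1 hj'pos.ne'))
  have hβm : β ∈ A.nonunits := (ValuationSubring.mem_nonunits_iff A).2 hβlt
  have hdiv := beta0_div_mem hq hA hβE hβm
  rw [← A.valuation_le_one_iff, map_div₀, div_le_one₀ hgpos] at hdiv
  have h2 : A.valuation β ^ r ≤ g ^ r := pow_le_pow_left₀ zero_le hdiv r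
  rw [hβval] at h2
  exact absurd h2 (not_le.2 (pow_lt_pow_right_of_lt_one₀ hgpos hg1 hj'r))

/-- **(UNR)**. -/
theorem selku_unram {r q : ℕ} (hr : r.Prime) (hq : q.Prime) (_hqr : q ≠ r)
    (α : AlgebraicClosure ℚ) (hα : α ≠ 0) (A₀ : ℚ)
    (hA₀ : α ^ r = algebraMap ℚ (AlgebraicClosure ℚ) A₀)
    (A : ValuationSubring (AlgebraicClosure ℚ)) (hA : A.LiesOverPrime q)
    (hI : ∀ σ ∈ A.inertiaSubgroupIn ℚ, σ α = α) :
    (r : ℤ) ∣ padicValRat q A₀ :=
  selku_unram_gen hr.pos hq α hα A₀ hA₀ A hA hI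

/-! ### (H90) -/

/-- Hilbert 90 at finite level, in elementwise form. -/
theorem selku_h90_fin {K L : Type*} [Field K] [Field L] [Algebra K L] [FiniteDimensional K L]
    (f : (L ≃ₐ[K] L) → L) (hne : ∀ g, f g ≠ 0) (hcoc : ∀ g h, f (g * h) = f g * g (f h)) :
    ∃ β : L, β ≠ 0 ∧ ∀ g : L ≃ₐ[K] L, g β = f g * β := by
  let f' : (L ≃ₐ[K] L) → Lˣ := fun g => Units.mk0 (f g) (hne g)
  have hf' : groupCohomology.IsMulCocycle₁ f' := by
    intro g h
    apply Units.ext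
    simp only [f', AlgEquiv.smul_units_def, Units.val_mul, Units.coe_map, MonoidHom.coe_coe,
      Units.val_mk0]
    rw [hcoc, mul_comm]
  obtain ⟨β, hβ⟩ := groupCohomology.isMulCoboundary₁_of_isMulCocycle₁_of_aut_to_units f' hf'
  refine ⟨(β : L), β.ne_zero, fun g => ?_⟩
  have h1 := hβ g
  have h2 : g • β = f' g * β := by rw [← h1, div_mul_cancel]
  have := congrArg (fun u : Lˣ => (u : L)) h2
  simpa [AlgEquiv.smul_units_def, f'] using this

/-- Hilbert 90 for arbitrary cocycles of finite level with values in `ℚ̄`. -/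
theorem selku_h90_gen
    (a : (AlgebraicClosure ℚ ≃ₐ[ℚ] AlgebraicClosure ℚ) → AlgebraicClosure ℚ)
    (hcoc : ∀ σ τ, a (σ * τ) = a σ * σ (a τ))
    (hlev : ∃ S : Finset (AlgebraicClosure ℚ),
      ∀ σ : AlgebraicClosure ℚ ≃ₐ[ℚ] AlgebraicClosure ℚ, (∀ s ∈ S, σ s = s) → a σ = 1) :
    ∃ α : AlgebraicClosure ℚ, α ≠ 0 ∧ ∀ σ, σ α = a σ * α := by
  classical
  haveI := Fermat.Agent.Common.isAlgClosure_rat_qbar
  obtain ⟨S, hS⟩ := hlev
  have ha1 : a 1 = 1 := hS 1 (fun _ _ => rfl)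
  have hane : ∀ σ, a σ ≠ 0 := by
    intro σ h
    have := hcoc σ σ⁻¹
    rw [mul_inv_cancel, ha1, h, zero_mul] at this
    exact one_ne_zero this
  -- `a` only depends on the action on `S`
  have hkey : ∀ σ τ : AlgebraicClosure ℚ ≃ₐ[ℚ] AlgebraicClosure ℚ,
      (∀ s ∈ S, σ s = τ s) → a σ = a τ := by
    intro σ τ h
    have h1 : a (τ⁻¹ * σ) = 1 := by
      apply hS
      intro s hs
      rw [AlgEquiv.mul_apply, h s hs, ← AlgEquiv.mul_apply, inv_mul_cancel, AlgEquiv.one_apply]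
    have h2 := hcoc τ (τ⁻¹ * σ)
    rw [mul_inv_cancel_left, h1, map_one, mul_one] at h2
    exact h2
  -- first level: the values of `a` form a finite set
  obtain ⟨L₀, hL₀fin, hL₀gal, hSL₀⟩ := beta0_exists_galois S
  haveI := hL₀fin
  haveI := hL₀gal
  have hsurj₀ : Function.Surjective
      (AlgEquiv.restrictNormalHom (F := ℚ) (K₁ := AlgebraicClosure ℚ) L₀) :=
    AlgEquiv.restrictNormalHom_surjective (AlgebraicClosure ℚ)
  have hres₀ : ∀ (σ : AlgebraicClosure ℚ ≃ₐ[ℚ] AlgebraicClosure ℚ) (x : L₀),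
      ((AlgEquiv.restrictNormalHom (F := ℚ) (K₁ := AlgebraicClosure ℚ) L₀ σ x : L₀) :
        AlgebraicClosure ℚ) = σ x := fun σ x => AlgEquiv.restrictNormal_commutes σ L₀ x
  let V : Finset (AlgebraicClosure ℚ) :=
    Finset.univ.image (fun g : L₀ ≃ₐ[ℚ] L₀ => a (Function.surjInv hsurj₀ g))
  have haV : ∀ σ, a σ ∈ V := by
    intro σ
    refine Finset.mem_image.2
      ⟨AlgEquiv.restrictNormalHom (F := ℚ) (K₁ := AlgebraicClosure ℚ) L₀ σ, Finset.mem_univ _, ?_⟩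
    apply hkey
    intro s hs
    have h1 := hres₀ (Function.surjInv hsurj₀
      (AlgEquiv.restrictNormalHom (F := ℚ) (K₁ := AlgebraicClosure ℚ) L₀ σ)) ⟨s, hSL₀ s hs⟩
    rw [Function.surjInv_eq hsurj₀] at h1
    rw [← h1]
    exact hres₀ σ ⟨s, hSL₀ s hs⟩
  -- second level
  obtain ⟨L, hLfin, hLgal, hSVL⟩ := beta0_exists_galois (S ∪ V)
  haveI := hLfin
  haveI := hLgal
  have hSL : ∀ s ∈ S, s ∈ L := fun s hs => hSVL s (Finset.mem_union_left _ hs)
  have haL : ∀ σ, a σ ∈ L := fun σ => hSVL _ (Finset.mem_union_right _ (haV σ))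
  have hsurj : Function.Surjective
      (AlgEquiv.restrictNormalHom (F := ℚ) (K₁ := AlgebraicClosure ℚ) L) :=
    AlgEquiv.restrictNormalHom_surjective (AlgebraicClosure ℚ)
  have hres : ∀ (σ : AlgebraicClosure ℚ ≃ₐ[ℚ] AlgebraicClosure ℚ) (x : L),
      ((AlgEquiv.restrictNormalHom (F := ℚ) (K₁ := AlgebraicClosure ℚ) L σ x : L) :
        AlgebraicClosure ℚ) = σ x := fun σ x => AlgEquiv.restrictNormal_commutes σ L x
  let sec : (L ≃ₐ[ℚ] L) → (AlgebraicClosure ℚ ≃ₐ[ℚ] AlgebraicClosure ℚ) :=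
    Function.surjInv hsurj
  have hsec : ∀ g, AlgEquiv.restrictNormalHom (F := ℚ) (K₁ := AlgebraicClosure ℚ) L (sec g) = g :=
    Function.surjInv_eq hsurj
  have hsecx : ∀ (g : L ≃ₐ[ℚ] L) (x : L), sec g (x : AlgebraicClosure ℚ) = ((g x : L) :
      AlgebraicClosure ℚ) := by
    intro g x
    have := hres (sec g) x
    rw [hsec] at this
    exact this.symm
  -- `a` only depends on the restriction to `L`
  have hkeyL : ∀ σ τ : AlgebraicClosure ℚ ≃ₐ[ℚ] AlgebraicClosure ℚ,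
      AlgEquiv.restrictNormalHom (F := ℚ) (K₁ := AlgebraicClosure ℚ) L σ =
        AlgEquiv.restrictNormalHom (F := ℚ) (K₁ := AlgebraicClosure ℚ) L τ → a σ = a τ := by
    intro σ τ h
    apply hkey
    intro s hs
    rw [← hres σ ⟨s, hSL s hs⟩, ← hres τ ⟨s, hSL s hs⟩, h]
  obtain ⟨β, hβ0, hβ⟩ := selku_h90_fin (K := ℚ) (L := L)
    (fun g => (⟨a (sec g), haL _⟩ : L))
    (fun g h => hane (sec g) (congrArg Subtype.val h))
    (fun g h => by
      apply Subtype.ext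
      have h1 : a (sec (g * h)) = a (sec g * sec h) := by
        apply hkeyL
        rw [map_mul, hsec, hsec, hsec]
      have h2 := hcoc (sec g) (sec h)
      have h3 : sec g (a (sec h)) = ((g (⟨a (sec h), haL _⟩ : L) : L) : AlgebraicClosure ℚ) :=
        hsecx g ⟨a (sec h), haL _⟩
      show a (sec (g * h)) = a (sec g) * ((g (⟨a (sec h), haL _⟩ : L) : L) : AlgebraicClosure ℚ)
      rw [h1, h2, h3])
  refine ⟨(β : AlgebraicClosure ℚ), ?_, ?_⟩
  · intro h
    exact hβ0 (Subtype.ext h)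
  · intro σ
    have h1 := hβ (AlgEquiv.restrictNormalHom (F := ℚ) (K₁ := AlgebraicClosure ℚ) L σ)
    have h3 := congrArg (fun u : L => (u : AlgebraicClosure ℚ)) h1
    simp only [MulMemClass.coe_mul] at h3
    rw [hres] at h3
    rw [h3]
    congr 1
    apply hkeyL
    rw [hsec]

/-- **(H90)**: a `μ_r`-valued cocycle of finite level is `σ ↦ σ α / α` with `α ^ r ∈ ℚ`. -/
theorem selku_h90 (r : ℕ)
    (a : (AlgebraicClosure ℚ ≃ₐ[ℚ] AlgebraicClosure ℚ) → AlgebraicClosure ℚ)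
    (hμ : ∀ σ, a σ ^ r = 1)
    (hcoc : ∀ σ τ, a (σ * τ) = a σ * σ (a τ))
    (hlev : ∃ S : Finset (AlgebraicClosure ℚ),
      ∀ σ : AlgebraicClosure ℚ ≃ₐ[ℚ] AlgebraicClosure ℚ, (∀ s ∈ S, σ s = s) → a σ = 1) :
    ∃ α : AlgebraicClosure ℚ, α ≠ 0 ∧ (∀ σ, σ α = a σ * α) ∧
      ∃ A₀ : ℚ, α ^ r = algebraMap ℚ (AlgebraicClosure ℚ) A₀ := by
  obtain ⟨α, hα, hσ⟩ := selku_h90_gen a hcoc hlev
  refine ⟨α, hα, hσ, ?_⟩
  obtain ⟨A₀, hA₀⟩ := Fermat.Agent.Common.exists_rat_of_fixed (α ^ r) (fun g => by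
    rw [map_pow, hσ g, mul_pow, hμ g, one_mul])
  exact ⟨A₀, hA₀.symm⟩

/-! ### (POW) -/

/-- A nonzero natural number all of whose valuations are divisible by `r` is an `r`-th power. -/
theorem selku_nat_pow {r : ℕ} {n : ℕ} (hn : n ≠ 0)
    (h : ∀ q : ℕ, q.Prime → r ∣ padicValNat q n) : ∃ m : ℕ, n = m ^ r := by
  refine ⟨n.factorization.prod (fun p k => p ^ (k / r)), ?_⟩
  conv_lhs => rw [← Nat.prod_factorization_pow_eq_self hn]
  rw [Finsupp.prod, Finsupp.prod, ← Finset.prod_pow]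
  refine Finset.prod_congr rfl (fun p hp => ?_)
  have hp' : p.Prime := Nat.prime_of_mem_primeFactors (by simpa using hp)
  have h1 : r ∣ n.factorization p := by
    rw [Nat.factorization_def n hp']
    exact h p hp'
  rw [← pow_mul, Nat.div_mul_cancel h1]

/-- **(POW)**, general form. -/
theorem selku_pow_odd {r : ℕ} (hr : Odd r) (A₀ : ℚ) (hA₀ : A₀ ≠ 0)
    (h : ∀ q : ℕ, q.Prime → (r : ℤ) ∣ padicValRat q A₀) : ∃ B : ℚ, A₀ = B ^ r := by
  have hnum : A₀.num.natAbs ≠ 0 := by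
    rw [Int.natAbs_ne_zero]
    exact Rat.num_ne_zero.2 hA₀
  have hden : A₀.den ≠ 0 := A₀.den_nz
  have hcop : Nat.Coprime A₀.num.natAbs A₀.den := A₀.reduced
  have hval : ∀ q : ℕ, q.Prime →
      r ∣ padicValNat q A₀.num.natAbs ∧ r ∣ padicValNat q A₀.den := by
    intro q hq
    haveI : Fact q.Prime := ⟨hq⟩
    have h1 := h q hq
    have e3 : padicValRat q A₀ =
        (padicValNat q A₀.num.natAbs : ℤ) - (padicValNat q A₀.den : ℤ) := rfl
    rw [e3] at h1
    by_cases hqn : q ∣ A₀.num.natAbs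
    · have hqd : ¬ q ∣ A₀.den := fun hd => by
        have := Nat.dvd_gcd hqn hd
        rw [hcop.gcd_eq_one] at this
        exact hq.one_lt.ne' (Nat.dvd_one.1 this)
      have h0 : padicValNat q A₀.den = 0 := padicValNat.eq_zero_of_not_dvd hqd
      rw [h0] at h1 ⊢
      simp only [Nat.cast_zero, sub_zero] at h1
      exact ⟨Int.natCast_dvd_natCast.1 h1, dvd_zero _⟩
    · have h0 : padicValNat q A₀.num.natAbs = 0 := padicValNat.eq_zero_of_not_dvd hqn
      rw [h0] at h1 ⊢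
      simp only [Nat.cast_zero, zero_sub, dvd_neg] at h1
      exact ⟨dvd_zero _, Int.natCast_dvd_natCast.1 h1⟩
  obtain ⟨N, hN⟩ := selku_nat_pow hnum (fun q hq => (hval q hq).1)
  obtain ⟨D, hD⟩ := selku_nat_pow hden (fun q hq => (hval q hq).2)
  have hD0 : (D : ℚ) ≠ 0 := by
    intro h0
    have : D = 0 := by exact_mod_cast h0
    rw [this, zero_pow hr.pos.ne'] at hD
    exact hden hD
  have e1 : A₀ = (A₀.num : ℚ) / (A₀.den : ℚ) := (Rat.num_div_den A₀).symm
  rcases Int.natAbs_eq A₀.num with hs | hs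
  · refine ⟨(N : ℚ) / D, ?_⟩
    rw [div_pow]
    conv_lhs => rw [e1, hs, hN, hD]
    push_cast
    rfl
  · refine ⟨-((N : ℚ) / D), ?_⟩
    rw [hr.neg_pow, div_pow]
    conv_lhs => rw [e1, hs, hN, hD]
    push_cast
    ring

/-- **(POW)**. -/
theorem selku_pow {r : ℕ} (hr : r.Prime) (hr2 : r ≠ 2) (A₀ : ℚ) (hA₀ : A₀ ≠ 0)
    (h : ∀ q : ℕ, q.Prime → (r : ℤ) ∣ padicValRat q A₀) : ∃ B : ℚ, A₀ = B ^ r :=
  selku_pow_odd (hr.odd_of_ne_two hr2) A₀ hA₀ h

/-! ### (KU) -/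

/-- If `σ α = a σ * α` with `α ^ r = B ^ r`, `B ∈ ℚ`, then `a` is the coboundary of the `r`-th
root of unity `α / B`. -/
theorem selku_coboundary_of_pow {r : ℕ} (hr : 0 < r)
    (a : (AlgebraicClosure ℚ ≃ₐ[ℚ] AlgebraicClosure ℚ) → AlgebraicClosure ℚ)
    (α : AlgebraicClosure ℚ) (hα : α ≠ 0) (hσ : ∀ σ, σ α = a σ * α) (B : ℚ)
    (hB : α ^ r = algebraMap ℚ (AlgebraicClosure ℚ) (B ^ r)) :
    ∃ ζ : AlgebraicClosure ℚ, ζ ^ r = 1 ∧ ∀ σ, a σ = σ ζ / ζ := by
  have hB0 : algebraMap ℚ (AlgebraicClosure ℚ) B ≠ 0 := by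
    intro h
    rw [map_pow, h, zero_pow hr.ne'] at hB
    exact hα (pow_eq_zero_iff hr.ne' |>.1 hB)
  refine ⟨α / algebraMap ℚ (AlgebraicClosure ℚ) B, ?_, fun σ => ?_⟩
  · rw [div_pow, hB, map_pow, div_self (pow_ne_zero _ hB0)]
  · rw [map_div₀, AlgEquiv.commutes, hσ σ]
    field_simp

/-- **(KU)**, general form: the valuations of every Kummer generator are divisible by the odd
number `r`. -/
theorem selku_coboundary_of_val {r : ℕ} (hr : Odd r)
    (a : (AlgebraicClosure ℚ ≃ₐ[ℚ] AlgebraicClosure ℚ) → AlgebraicClosure ℚ)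
    (hμ : ∀ σ, a σ ^ r = 1)
    (hcoc : ∀ σ τ, a (σ * τ) = a σ * σ (a τ))
    (hlev : ∃ S : Finset (AlgebraicClosure ℚ),
      ∀ σ : AlgebraicClosure ℚ ≃ₐ[ℚ] AlgebraicClosure ℚ, (∀ s ∈ S, σ s = s) → a σ = 1)
    (hval : ∀ (α : AlgebraicClosure ℚ) (A₀ : ℚ), α ≠ 0 →
      α ^ r = algebraMap ℚ (AlgebraicClosure ℚ) A₀ → (∀ σ, σ α = a σ * α) →
      ∀ q : ℕ, q.Prime → (r : ℤ) ∣ padicValRat q A₀) :
    ∃ ζ : AlgebraicClosure ℚ, ζ ^ r = 1 ∧ ∀ σ, a σ = σ ζ / ζ := by
  obtain ⟨α, hα, hσ, A₀, hA₀⟩ := selku_h90 r a hμ hcoc hlev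
  have hA₀0 : A₀ ≠ 0 := by
    rintro rfl
    rw [map_zero] at hA₀
    exact hα (pow_eq_zero_iff hr.pos.ne' |>.1 hA₀)
  obtain ⟨B, hB⟩ := selku_pow_odd hr A₀ hA₀0 (hval α A₀ hα hA₀ hσ)
  exact selku_coboundary_of_pow hr.pos a α hα hσ B (hB ▸ hA₀)

/-- **(KU)**: a `μ_r`-valued cocycle of finite level (`r` an odd prime) which is unramified at
every prime `q ≠ r` (trivial on the inertia group of SOME valuation subring over `q`) and whose
Kummer generators have `r`-adic valuation divisible by `r` is the coboundary of an `r`-th root of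
unity. -/
theorem selku_coboundary {r : ℕ} (hr : r.Prime) (hr2 : r ≠ 2)
    (a : (AlgebraicClosure ℚ ≃ₐ[ℚ] AlgebraicClosure ℚ) → AlgebraicClosure ℚ)
    (hμ : ∀ σ, a σ ^ r = 1)
    (hcoc : ∀ σ τ, a (σ * τ) = a σ * σ (a τ))
    (hlev : ∃ S : Finset (AlgebraicClosure ℚ),
      ∀ σ : AlgebraicClosure ℚ ≃ₐ[ℚ] AlgebraicClosure ℚ, (∀ s ∈ S, σ s = s) → a σ = 1)
    (hunr : ∀ q : ℕ, q.Prime → q ≠ r → ∃ A : ValuationSubring (AlgebraicClosure ℚ),
      A.LiesOverPrime q ∧ ∀ σ ∈ A.inertiaSubgroupIn ℚ, a σ = 1)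
    (hloc : ∀ (α : AlgebraicClosure ℚ) (A₀ : ℚ), α ≠ 0 →
      α ^ r = algebraMap ℚ (AlgebraicClosure ℚ) A₀ → (∀ σ, σ α = a σ * α) →
      (r : ℤ) ∣ padicValRat r A₀) :
    ∃ ζ : AlgebraicClosure ℚ, ζ ^ r = 1 ∧ ∀ σ, a σ = σ ζ / ζ := by
  refine selku_coboundary_of_val (hr.odd_of_ne_two hr2) a hμ hcoc hlev ?_
  intro α A₀ hα hA₀ hσ q hq
  by_cases hqr : q = r
  · subst hqr
    exact hloc α A₀ hα hA₀ hσ
  · obtain ⟨A, hA, hI⟩ := hunr q hq hqr
    exact selku_unram hr hq hqr α hα A₀ hA₀ A hA (fun σ hσI => by rw [hσ σ, hI σ hσI, one_mul])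

end Fermat.Agent.S15
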