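import Fermat.Agent.S15.SelJJ
import Fermat.Agent.W1.SubQuotBasic

/-!
# S15 / SELMER, piece SEL-JJ-aux (part 1): functoriality of `𝕁_y` and pull-back of the lattice

For the descent prime `r ∈ {2, 3}` the reduction package of `X₀(N)` at `A ∣ r` exists only at the
auxiliary level `N' = N (5 − r)`.  The level-up `φ : J₀(N) → J₀(N')` (Galois equivariant, injective
on `r`-power torsion) induces

  `Φ : 𝕁_y → 𝕁'_{φ y}`,  `[(R, m)] ↦ [(φ R, m)]`,

equivariant and injective on `n`-torsion (`n = r ^ k`), and the reduction-continuous Hopf lattice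
on `𝕁'_{φ y}[n]` pulls back (W1-SQ `sq_sub`) to a Hopf lattice on `𝕁_y[n]` which is
reduction-continuous with respect to `φ⁻¹(J1')`.

* `seljjMap φ y n : 𝕁_y →+ 𝕁'_{φ y}`, `seljjMap_mk`, `seljjMap_iota`, `seljjMap_smul`;
* `seljjMap_eq_zero` : injectivity on `n`-torsion;
* `seljjMapTors` : the induced map `𝕁_y[n] →+ 𝕁'_{φ y}[n]`, injective, equivariant;
* `seljj_hopfLattice_rc_pullback` : the pulled-back lattice.
-/

set_option autoImplicit false
set_option linter.unusedSectionVars false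
set_option linter.style.haveILetI false

noncomputable section

namespace Fermat.Agent.S15

open Fermat.Agent.W1

section map

variable {J J' : Type} [AddCommGroup J] [AddCommGroup J'] (φ : J →+ J') (y : J) (n : ℕ)

/-- the map induced by `φ` on `J × ℤ` -/
def seljjPreMap : J × ℤ →+ J' × ℤ := AddMonoidHom.prodMap φ (AddMonoidHom.id ℤ)

@[simp] theorem seljjPreMap_apply (x : J × ℤ) : seljjPreMap φ x = (φ x.1, x.2) := rfl

theorem seljjRel_le_comap_preMap :
    seljjRel J y n ≤ (seljjRel J' (φ y) n).comap (seljjPreMap φ) := by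
  intro x hx
  rw [AddSubgroup.mem_comap, mem_seljjRel_iff]
  rw [mem_seljjRel_iff] at hx
  obtain ⟨a, h1, h2⟩ := hx
  refine ⟨a, ?_, h2⟩
  rw [seljjPreMap_apply]
  show φ x.1 = a • φ y
  rw [h1, map_zsmul]

/-- `Φ : 𝕁_y → 𝕁'_{φ y}` -/
def seljjMap : SeljjJ J y n →+ SeljjJ J' (φ y) n :=
  QuotientAddGroup.map (seljjRel J y n) (seljjRel J' (φ y) n) (seljjPreMap φ)
    (seljjRel_le_comap_preMap φ y n)

theorem seljjMap_mk (x : J × ℤ) :
    seljjMap φ y n (seljjMk J y n x) = seljjMk J' (φ y) n (φ x.1, x.2) := rfl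

theorem seljjMap_iota (R : J) :
    seljjMap φ y n (seljjIota J y n R) = seljjIota J' (φ y) n (φ R) := rfl

/-- `Φ` is injective on the `n`-torsion if `φ` is. -/
theorem seljjMap_eq_zero (hn : 0 < n)
    (hinj : ∀ x : J, (n : ℤ) • x = 0 → φ x = 0 → x = 0)
    (x : SeljjJ J y n) (hx : (n : ℤ) • x = 0) (h0 : seljjMap φ y n x = 0) : x = 0 := by
  obtain ⟨⟨R, m⟩, rfl⟩ := seljjMk_surjective J y n x
  rw [seljjMap_mk, seljjMk_eq_zero_iff] at h0
  obtain ⟨a, h1, h2⟩ := h0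
  simp only at h1 h2
  -- `[(R, m)] = ι (R - a y)`
  have hx' : seljjMk J y n (R, m) = seljjIota J y n (R - a • y) := by
    rw [seljjIota_apply, seljjMk_eq_iff]
    refine ⟨a, ?_, ?_⟩
    · simp
    · simp [h2]
  rw [hx'] at hx ⊢
  have h3 : (n : ℤ) • (R - a • y) = 0 := by
    apply seljjIota_injective J y n hn
    rw [map_zsmul, hx, map_zero]
  have h4 : φ (R - a • y) = 0 := by
    rw [map_sub, map_zsmul, h1, sub_self]
  rw [hinj _ h3 h4, map_zero]

end map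

section equivariant

variable {J J' : Type} [AddCommGroup J] [AddCommGroup J']
  [DistribMulAction (AlgebraicClosure ℚ ≃ₐ[ℚ] AlgebraicClosure ℚ) J]
  [DistribMulAction (AlgebraicClosure ℚ ≃ₐ[ℚ] AlgebraicClosure ℚ) J']
  (φ : J →+ J') (y : J) (n : ℕ)
  [hy : Fact (∀ σ : AlgebraicClosure ℚ ≃ₐ[ℚ] AlgebraicClosure ℚ, σ • y = y)]
  [hy' : Fact (∀ σ : AlgebraicClosure ℚ ≃ₐ[ℚ] AlgebraicClosure ℚ, σ • φ y = φ y)]

/-- `Φ` is Galois equivariant if `φ` is. -/
theorem seljjMap_smul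
    (hφ : ∀ (σ : AlgebraicClosure ℚ ≃ₐ[ℚ] AlgebraicClosure ℚ) (x : J), φ (σ • x) = σ • φ x)
    (σ : AlgebraicClosure ℚ ≃ₐ[ℚ] AlgebraicClosure ℚ) (x : SeljjJ J y n) :
    seljjMap φ y n (σ • x) = σ • seljjMap φ y n x := by
  obtain ⟨⟨R, m⟩, rfl⟩ := seljjMk_surjective J y n x
  show seljjMap φ y n (seljjAct J y n σ (seljjMk J y n (R, m))) =
    seljjAct J' (φ y) n σ (seljjMap φ y n (seljjMk J y n (R, m)))
  rw [seljjAct_mk, seljjMap_mk, seljjMap_mk, seljjAct_mk]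
  simp only
  rw [hφ]

/-- the map induced by `Φ` on the `n`-torsion -/
def seljjMapTors : Submodule.torsionBy ℤ (SeljjJ J y n) (n : ℤ) →+
    Submodule.torsionBy ℤ (SeljjJ J' (φ y) n) (n : ℤ) where
  toFun x := ⟨seljjMap φ y n (x : SeljjJ J y n), by
    rw [Submodule.mem_torsionBy_iff, ← map_zsmul, (Submodule.mem_torsionBy_iff _ _).1 x.2,
      map_zero]⟩
  map_zero' := Subtype.ext (map_zero (seljjMap φ y n))
  map_add' x x' := Subtype.ext (map_add (seljjMap φ y n) _ _)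

@[simp] theorem seljjMapTors_coe (x : Submodule.torsionBy ℤ (SeljjJ J y n) (n : ℤ)) :
    ((seljjMapTors φ y n x : Submodule.torsionBy ℤ (SeljjJ J' (φ y) n) (n : ℤ)) :
      SeljjJ J' (φ y) n) = seljjMap φ y n (x : SeljjJ J y n) := rfl

theorem seljjMapTors_injective (hn : 0 < n)
    (hinj : ∀ x : J, (n : ℤ) • x = 0 → φ x = 0 → x = 0) :
    Function.Injective (seljjMapTors φ y n) := by
  rw [injective_iff_map_eq_zero]
  intro x hx
  apply Subtype.ext
  exact seljjMap_eq_zero φ y n hn hinj _ ((Submodule.mem_torsionBy_iff _ _).1 x.2)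
    (congrArg Subtype.val hx)

theorem seljjMapTors_torsAct
    (hφ : ∀ (σ : AlgebraicClosure ℚ ≃ₐ[ℚ] AlgebraicClosure ℚ) (x : J), φ (σ • x) = σ • φ x)
    (σ : AlgebraicClosure ℚ ≃ₐ[ℚ] AlgebraicClosure ℚ)
    (P : Submodule.torsionBy ℤ (SeljjJ J y n) (n : ℤ)) :
    seljjMapTors φ y n (torsAct (SeljjJ J y n) (n : ℤ) σ P) =
      torsAct (SeljjJ J' (φ y) n) (n : ℤ) σ (seljjMapTors φ y n P) :=
  Subtype.ext (seljjMap_smul φ y n hφ σ _)

/-- **pull-back of a reduction-continuous Hopf lattice along `Φ`**: a Hopf lattice on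
`𝕁'_{φ y}[n]`, reduction-continuous with respect to `ι' (J1')`, pulls back to a Hopf lattice on
`𝕁_y[n]`, reduction-continuous with respect to `ι (φ⁻¹ J1')`. -/
theorem seljj_hopfLattice_rc_pullback {R : Subring ℚ}
    (A : ValuationSubring (AlgebraicClosure ℚ)) (J1' : AddSubgroup J') (hn : 0 < n)
    (hφ : ∀ (σ : AlgebraicClosure ℚ ≃ₐ[ℚ] AlgebraicClosure ℚ) (x : J), φ (σ • x) = σ • φ x)
    (hinj : ∀ x : J, (n : ℤ) • x = 0 → φ x = 0 → x = 0)
    (H' : Subalgebra R (Submodule.torsionBy ℤ (SeljjJ J' (φ y) n) (n : ℤ) → AlgebraicClosure ℚ))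
    (hH' : IsHopfLattice R (torsAct (SeljjJ J' (φ y) n) (n : ℤ)) H')
    (hRC : ∀ h ∈ H', ∀ t t' : Submodule.torsionBy ℤ (SeljjJ J' (φ y) n) (n : ℤ),
      (t : SeljjJ J' (φ y) n) - (t' : SeljjJ J' (φ y) n) ∈ J1'.map (seljjIota J' (φ y) n) →
        h t - h t' ∈ A.nonunits) :
    ∃ H : Subalgebra R (Submodule.torsionBy ℤ (SeljjJ J y n) (n : ℤ) → AlgebraicClosure ℚ),
      IsHopfLattice R (torsAct (SeljjJ J y n) (n : ℤ)) H ∧
      ∀ h ∈ H, ∀ t t' : Submodule.torsionBy ℤ (SeljjJ J y n) (n : ℤ),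
        (t : SeljjJ J y n) - (t' : SeljjJ J y n) ∈ (J1'.comap φ).map (seljjIota J y n) →
          h t - h t' ∈ A.nonunits := by
  refine ⟨H'.map (pullFn R (seljjMapTors φ y n)),
    sq_sub hH' (seljjMapTors φ y n) (seljjMapTors_injective φ y n hn hinj)
      (fun σ P => seljjMapTors_torsAct φ y n hφ σ P), ?_⟩
  rintro _ ⟨h, hh, rfl⟩ t t' ⟨x, hx, hxt⟩
  show h (seljjMapTors φ y n t) - h (seljjMapTors φ y n t') ∈ A.nonunits
  refine hRC h hh _ _ ⟨φ x, hx, ?_⟩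
  rw [seljjMapTors_coe, seljjMapTors_coe, ← map_sub, ← hxt, seljjMap_iota]

end equivariant

end Fermat.Agent.S15
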