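import Fermat.Agent.S15.SelLQ
import Fermat.Agent.W1.LevelUp
import Fermat.Agent.DEU.ModPRFinal
import Fermat.Agent.ES.I2aux.Glue

/-!
# S15 / SELMER, piece SEL-LQ (final): (L-q) from S18-J1 alone

The two landed inputs of `SelLQ.lean` (`SellqPRStatement` = GEO-PR, `SellqLvlStatement` = GEO-LVL)
are discharged here, so that (L-q) depends only on S18-J1 (`SellqJ1Statement`).

* `sellqPRStatement`, `sellqLvlStatement`;
* `sellq_main`       : `σ ∈ I_A`, `A ∣ q ∤ N`, `r ≠ q`, `r ^ k • (σ j − j) = 0`  ⇒  `σ j = j`;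
* `sellq_unramified` : the cocycle form.
-/

set_option autoImplicit false
set_option linter.style.haveILetI false
set_option synthInstance.maxHeartbeats 400000
set_option maxHeartbeats 1600000

open AlgebraicCurve Module ModularCurve

namespace Fermat.Agent.S15

open Fermat.Agent.W1

/-- GEO-PR in the shape of `SelLQ.lean` -/
theorem sellqPRStatement : SellqPRStatement := by
  intro N _ ℓ hℓ hℓN h A hA
  rcases le_or_gt 5 ℓ with h5 | h5
  · exact Fermat.Agent.DEU.hasModPR_of_five_le N ℓ hℓ h5 hℓN A hA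
  · exact Fermat.Agent.DEU.hasModPR_of_aux Fermat.Agent.ES.I2aux.stmtI2AuxAll N ℓ hℓ h5 hℓN
      (h.resolve_left (not_le.mpr h5)) A hA

/-- GEO-LVL in the shape of `SelLQ.lean` -/
theorem sellqLvlStatement : SellqLvlStatement :=
  fun N s r _ _ hs hsN hr => stmtLevelUp N s r hs hsN hr

/-- **(L-q)**: for every level `N`, every prime `q ∤ N`, every valuation ring `A` of `ℚ̄` over `q`
and every prime `r ≠ q`: an element of the inertia group of `A` which moves `j ∈ J₀(N)` by an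
`r ^ k`-torsion point fixes `j`.  (Only S18-J1 is still a hypothesis.) -/
theorem sellq_main (hJ1 : SellqJ1Statement) (N : ℕ) [NeZero N] (q : ℕ) (hq : q.Prime)
    (hqN : ¬ q ∣ N) (r : ℕ) (hr : r.Prime) (hrq : r ≠ q) (k : ℕ)
    (A : ValuationSubring (AlgebraicClosure ℚ)) (hA : A.LiesOverPrime q)
    {σ : AlgebraicClosure ℚ ≃ₐ[ℚ] AlgebraicClosure ℚ} (hσ : σ ∈ A.inertiaSubgroupIn ℚ)
    {j : JZero N} (hj : (r ^ k) • (σ • j - j) = 0) : σ • j = j :=
  sellq_main_of sellqPRStatement sellqLvlStatement hJ1 N q hq hqN r hr hrq k A hA hσ hj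

/-- **(L-q), cocycle form.** -/
theorem sellq_unramified (hJ1 : SellqJ1Statement) (N : ℕ) [NeZero N] (r : ℕ) (hr : r.Prime)
    (k : ℕ) (j : JZero N)
    (hj : ∀ σ : AlgebraicClosure ℚ ≃ₐ[ℚ] AlgebraicClosure ℚ, (r ^ k) • (σ • j - j) = 0)
    (q : ℕ) (hq : q.Prime) (hqN : ¬ q ∣ N) (hrq : r ≠ q)
    (A : ValuationSubring (AlgebraicClosure ℚ)) (hA : A.LiesOverPrime q) :
    ∀ σ ∈ A.inertiaSubgroupIn ℚ, σ • j - j = 0 :=
  sellq_unramified_of sellqPRStatement sellqLvlStatement hJ1 N r hr k j hj q hq hqN hrq A hA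

end Fermat.Agent.S15
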