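import Fermat.Agent.S15.SelJJ
import Fermat.Agent.W1.ChartToLocal
import Fermat.Agent.W1.LocalToGlobalFinal

/-!
# S15 / SEL-U, part (RC): the Hopf lattice of a kernel chart is reduction-continuous

For a `W1.KernelChart A J J1 g z` the global Hopf lattice `H = ltgH (ctlHt …)` on `J[n]`
(ALG-B followed by ALG-A) has the property

  `h t - h t' ∈ 𝔪_A`  whenever `t - t' ∈ J1`.

* `selrc_ctlHt` : the local lattice `ctlHt` is reduction-continuous;
* `seljjRCStatement : SeljjRCStatement` (the statement of `S15/SelJJ.lean`).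
-/

set_option autoImplicit false
set_option linter.unusedSectionVars false
set_option linter.style.haveILetI false

namespace Fermat.Agent.S15

open Fermat.Agent.W1

section Nonunits

variable (A : ValuationSubring (AlgebraicClosure ℚ))

theorem selrc_add_mem_nonunits {x y : AlgebraicClosure ℚ} (hx : x ∈ A.nonunits)
    (hy : y ∈ A.nonunits) : x + y ∈ A.nonunits := by
  obtain ⟨hx', hxm⟩ := ValuationSubring.mem_nonunits_iff_exists_mem_maximalIdeal.1 hx
  obtain ⟨hy', hym⟩ := ValuationSubring.mem_nonunits_iff_exists_mem_maximalIdeal.1 hy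
  exact ValuationSubring.mem_nonunits_iff_exists_mem_maximalIdeal.2
    ⟨add_mem hx' hy', Ideal.add_mem _ hxm hym⟩

theorem selrc_neg_mem_nonunits {x : AlgebraicClosure ℚ} (hx : x ∈ A.nonunits) :
    -x ∈ A.nonunits := by
  obtain ⟨hx', hxm⟩ := ValuationSubring.mem_nonunits_iff_exists_mem_maximalIdeal.1 hx
  exact ValuationSubring.mem_nonunits_iff_exists_mem_maximalIdeal.2
    ⟨neg_mem hx', Ideal.neg_mem_iff _ |>.2 hxm⟩

theorem selrc_sub_mem_nonunits {x y : AlgebraicClosure ℚ} (hx : x ∈ A.nonunits)
    (hy : y ∈ A.nonunits) : x - y ∈ A.nonunits := by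
  rw [sub_eq_add_neg]
  exact selrc_add_mem_nonunits A hx (selrc_neg_mem_nonunits A hy)

theorem selrc_zero_mem_nonunits : (0 : AlgebraicClosure ℚ) ∈ A.nonunits :=
  ValuationSubring.mem_nonunits_iff_exists_mem_maximalIdeal.2 ⟨zero_mem A, Ideal.zero_mem _⟩

end Nonunits

section RC

variable {A : ValuationSubring (AlgebraicClosure ℚ)} {J : Type} [AddCommGroup J]
  [DistribMulAction (AlgebraicClosure ℚ ≃ₐ[ℚ] AlgebraicClosure ℚ) J]
  {J1 : AddSubgroup J} {g : ℕ} {z : J → Fin g → AlgebraicClosure ℚ} {n : ℕ}

/-- The local lattice of a kernel chart is reduction-continuous. -/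
theorem selrc_ctlHt (hK : KernelChart A J J1 g z) :
    ∀ h ∈ ctlHt A J1 z n, ∀ t t' : Submodule.torsionBy ℤ J (n : ℤ),
      (t : J) - (t' : J) ∈ J1 → h t - h t' ∈ A.nonunits := by
  intro h hh
  induction hh using Algebra.adjoin_induction with
  | mem f hf =>
    intro t t' htt
    have hiff : ∀ b : J, ((t : J) - b ∈ J1 ↔ (t' : J) - b ∈ J1) := by
      intro b
      constructor
      · intro h1
        have h2 : (t' : J) - b = ((t : J) - b) - ((t : J) - (t' : J)) := by abel
        rw [h2]
        exact J1.sub_mem h1 htt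
      · intro h1
        have h2 : (t : J) - b = ((t' : J) - b) + ((t : J) - (t' : J)) := by abel
        rw [h2]
        exact J1.add_mem h1 htt
    rcases hf with ⟨b, rfl⟩ | ⟨σ, hσ, b, -, i, rfl⟩
    · by_cases hc : (t : J) - b ∈ J1
      · rw [ctlInd_of_mem hc, ctlInd_of_mem ((hiff b).1 hc), sub_self]
        exact selrc_zero_mem_nonunits A
      · rw [ctlInd_of_not_mem hc, ctlInd_of_not_mem (fun h1 => hc ((hiff b).2 h1)), sub_self]
        exact selrc_zero_mem_nonunits A
    · exact selrc_sub_mem_nonunits A (ctlPsi_apply_mem hK hσ b i t)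
        (ctlPsi_apply_mem hK hσ b i t')
  | algebraMap r =>
    intro t t' _
    have h1 : (algebraMap A (Submodule.torsionBy ℤ J (n : ℤ) → AlgebraicClosure ℚ) r) t -
        (algebraMap A (Submodule.torsionBy ℤ J (n : ℤ) → AlgebraicClosure ℚ) r) t' = 0 := by
      simp [Pi.algebraMap_apply]
    rw [h1]
    exact selrc_zero_mem_nonunits A
  | add x y _ _ hx hy =>
    intro t t' htt
    have h1 : (x + y) t - (x + y) t' = (x t - x t') + (y t - y t') := by
      simp only [Pi.add_apply]; ring
    rw [h1]
    exact selrc_add_mem_nonunits A (hx t t' htt) (hy t t' htt)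
  | mul x y hx' hy' hx hy =>
    intro t t' htt
    have h1 : (x * y) t - (x * y) t' = x t * (y t - y t') + y t' * (x t - x t') := by
      simp only [Pi.mul_apply]; ring
    rw [h1]
    exact selrc_add_mem_nonunits A
      (ctl_mul_mem_nonunits A (ctl_integral hK x hx' t) (hy t t' htt))
      (ctl_mul_mem_nonunits A (ctl_integral hK y hy' t') (hx t t' htt))

end RC

/-- **(RC)** ALG-B + ALG-A in the reduction-continuous form. -/
theorem seljjRCStatement : SeljjRCStatement := by
  intro p hp A hA J instJ instAct J1 g z hK n hn hfin hact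
  haveI : Fact p.Prime := ⟨hp⟩
  have hloc : IsLocalHopfLattice A (torsAct J (n : ℤ)) (ctlHt A J1 z n) :=
    { integral := ctl_integral hK
      separates := ctl_separates hK hn
      decomp_stable := ctl_decomp_stable hK
      inertia_span := ctl_inertia_span hK hn
      comul_mem := ctl_comul_mem hp hA hK hn }
  refine ⟨ltgH A (torsAct J (n : ℤ)) hp hA (ctlHt A J1 z n), IsHopfLattice.of_core
    (ltg_fg hp hA hact hloc descLagrange DI.descInertiaStatement descApprox)
    (fun h hh => hh.2)
    (ltg_separates hp hA hact hloc descLagrange DI.descInertiaStatement descApprox)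
    (ltg_comul hp hA hact hloc descLagrange DI.descInertiaStatement descApprox)
    (ltg_act_zero hact), ?_⟩
  intro h hh t t' htt
  exact selrc_ctlHt hK h hh.1 t t' htt

end Fermat.Agent.S15
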