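import Fermat.Agent.S15.SelJJKC
import Fermat.Agent.S15.SelJJAux
import Fermat.Agent.S15.SelRC
import Fermat.Agent.S15.SelFL
import Fermat.Agent.S15.SelLQFinal
import Fermat.Agent.W1.S19Final

/-!
# S15 / SELMER, piece SEL-JJ-aux (part 2): the local package at the descent prime, UNCONDITIONAL

For every level `N`, every prime `r ∤ N` (INCLUDING `r ∈ {2, 3}`, where the reduction package of
`X₀(N)` exists only at the auxiliary level `N (5 − r)`) and every valuation ring `A` of `ℚ̄` over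
`r` there is ONE subgroup `J1 ≤ J₀(N)` ("kernel of reduction at `A`") such that

* `decomp_stable` : `J1` is stable under the decomposition group of `A`;
* `inertia_sub`   : `σ j − j ∈ J1` for every `σ` in the inertia group of `A` and EVERY `j ∈ J₀(N)`
                    (this is (L-r, ét));
* `lattice`       : for every `G_ℚ`-fixed `y` and every `k` the group `𝕁_y[r^k]`
                    (`𝕁_y = (J ⊕ ℤ)/ℤ(y, −r^k)`, the Kummer extension of `ℤ/r^k` by `J[r^k]`) carries
                    a Hopf lattice over `ℤ_(r)` which is reduction-continuous with respect to `J1`: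
                    `h u − h u' ∈ 𝔪_A` whenever `u − u' ∈ ι(J1)`.

`J1 = R.J1` if the package `R` exists at the level `N`, and `J1 = φ⁻¹(R'.J1)` for the level-up
`φ : J₀(N) → J₀(N (5 − r))` otherwise.

* `SeljjPkg N r A J1` : the structure;
* `seljjpkg_direct`, `seljjpkg_aux` : the two cases;
* `seljj_package` : existence, no hypotheses.
-/

set_option autoImplicit false
set_option linter.style.haveILetI false
set_option synthInstance.maxHeartbeats 400000
set_option maxHeartbeats 1600000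

open AlgebraicCurve Module ModularCurve

namespace Fermat.Agent.S15

open Fermat.Agent.W1

/-- **the local package at the descent prime `r`** (see the header) -/
structure SeljjPkg (N : ℕ) [NeZero N] (r : ℕ) (A : ValuationSubring (AlgebraicClosure ℚ))
    (J1 : AddSubgroup (JZero N)) : Prop where
  decomp_stable : ∀ σ ∈ A.decompositionSubgroup ℚ, ∀ x ∈ J1, σ • x ∈ J1
  inertia_sub : ∀ σ ∈ A.inertiaSubgroupIn ℚ, ∀ j : JZero N, σ • j - j ∈ J1
  lattice : ∀ (y : JZero N)
      [Fact (∀ σ : AlgebraicClosure ℚ ≃ₐ[ℚ] AlgebraicClosure ℚ, σ • y = y)] (k : ℕ),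
    ∃ H : Subalgebra (GaloisRep.ratLocalizedAt r)
        (Submodule.torsionBy ℤ (SeljjJ (JZero N) y (r ^ k)) ((r ^ k : ℕ) : ℤ) →
          AlgebraicClosure ℚ),
      IsHopfLattice (GaloisRep.ratLocalizedAt r)
        (torsAct (SeljjJ (JZero N) y (r ^ k)) ((r ^ k : ℕ) : ℤ)) H ∧
      ∀ h ∈ H, ∀ u u' : Submodule.torsionBy ℤ (SeljjJ (JZero N) y (r ^ k)) ((r ^ k : ℕ) : ℤ),
        (u : SeljjJ (JZero N) y (r ^ k)) - (u' : SeljjJ (JZero N) y (r ^ k)) ∈
            J1.map (seljjIota (JZero N) y (r ^ k)) →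
          h u - h u' ∈ A.nonunits

/-- `J₀(N)[r^k]` is finite (cast shape of `SelJJ.lean`) -/
theorem seljjpkg_finite (N : ℕ) [NeZero N] (r : ℕ) (hr : r ≠ 0) (k : ℕ) :
    Finite (Submodule.torsionBy ℤ (JZero N) ((r ^ k : ℕ) : ℤ)) := by
  rw [s19f_cast]
  exact s19f_finite N r hr k

/-- every point of `J₀(N)` has finite level (the hypothesis `hcont` of `SelJJ.lean`) -/
theorem seljjpkg_cont (N : ℕ) [NeZero N] (y : JZero N) (n : ℕ) (R : JZero N)
    (_h : ∃ m : ℤ, (n : ℤ) • R + m • y = 0) :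
    ∃ E : IntermediateField ℚ (AlgebraicClosure ℚ), FiniteDimensional ℚ E ∧
      ∀ σ : AlgebraicClosure ℚ ≃ₐ[ℚ] AlgebraicClosure ℚ, (∀ a ∈ E, σ a = a) → σ • R = R :=
  selfl_exists_field' N R

/-- the lattice at a level with a reduction package -/
theorem seljjpkg_lattice_direct (N : ℕ) [NeZero N] (r : ℕ) (hr : r.Prime)
    (A : ValuationSubring (AlgebraicClosure ℚ)) (hA : A.LiesOverPrime r) (g : ℕ)
    (R : PRData (AlgebraicClosure ℚ) ↥(modularFunctionFieldBar N) (IsLocalRing.ResidueField A)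
      ↥(modularFunctionFieldFullC (IsLocalRing.ResidueField A) N) A)
    (t : ↥(modularFunctionFieldBar N)) (hM : ModPR N A g R t)
    (y : JZero N) [Fact (∀ σ : AlgebraicClosure ℚ ≃ₐ[ℚ] AlgebraicClosure ℚ, σ • y = y)]
    (k : ℕ) :
    ∃ H : Subalgebra (GaloisRep.ratLocalizedAt r)
        (Submodule.torsionBy ℤ (SeljjJ (JZero N) y (r ^ k)) ((r ^ k : ℕ) : ℤ) →
          AlgebraicClosure ℚ),
      IsHopfLattice (GaloisRep.ratLocalizedAt r)
        (torsAct (SeljjJ (JZero N) y (r ^ k)) ((r ^ k : ℕ) : ℤ)) H ∧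
      ∀ h ∈ H, ∀ u u' : Submodule.torsionBy ℤ (SeljjJ (JZero N) y (r ^ k)) ((r ^ k : ℕ) : ℤ),
        (u : SeljjJ (JZero N) y (r ^ k)) - (u' : SeljjJ (JZero N) y (r ^ k)) ∈
            R.J1.map (seljjIota (JZero N) y (r ^ k)) →
          h u - h u' ∈ A.nonunits :=
  seljj_hopfLattice_rc_JZero seljjRCStatement N r hr A hA g R t hM y (r ^ k)
    (pow_pos hr.pos k) (seljjpkg_finite N r hr.ne_zero k) (seljjpkg_cont N y (r ^ k))

/-- **the package at a level with a reduction package** -/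
theorem seljjpkg_direct (N : ℕ) [NeZero N] (r : ℕ) (hr : r.Prime)
    (A : ValuationSubring (AlgebraicClosure ℚ)) (hA : A.LiesOverPrime r) (g : ℕ)
    (R : PRData (AlgebraicClosure ℚ) ↥(modularFunctionFieldBar N) (IsLocalRing.ResidueField A)
      ↥(modularFunctionFieldFullC (IsLocalRing.ResidueField A) N) A)
    (t : ↥(modularFunctionFieldBar N)) (hM : ModPR N A g R t) : SeljjPkg N r A R.J1 where
  decomp_stable := fun _ hσ _ hx => sellq_decomp_stable N r hr A hA g R t hM hσ hx
  inertia_sub := fun _ hσ j => sellq_sub_mem_J1 N r hr A hA g R t hM hσ j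
  lattice := fun y _ k => seljjpkg_lattice_direct N r hr A hA g R t hM y k

/-- **the package comes down along a level-up map** -/
theorem seljjpkg_aux (N N' : ℕ) [NeZero N] [NeZero N'] (r : ℕ) (hr : r.Prime)
    (A : ValuationSubring (AlgebraicClosure ℚ)) (hA : A.LiesOverPrime r) (g : ℕ)
    (R' : PRData (AlgebraicClosure ℚ) ↥(modularFunctionFieldBar N')
      (IsLocalRing.ResidueField A) ↥(modularFunctionFieldFullC (IsLocalRing.ResidueField A) N') A)
    (t' : ↥(modularFunctionFieldBar N')) (hM' : ModPR N' A g R' t')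
    (φ : JZero N →+ JZero N')
    (hφ : ∀ (σ : AlgebraicClosure ℚ ≃ₐ[ℚ] AlgebraicClosure ℚ) (x : JZero N),
      φ (σ • x) = σ • φ x)
    (hinj : ∀ x : JZero N, (∃ n : ℕ, (r ^ n) • x = 0) → φ x = 0 → x = 0) :
    SeljjPkg N r A (R'.J1.comap φ) where
  decomp_stable := by
    intro σ hσ x hx
    rw [AddSubgroup.mem_comap] at hx ⊢
    rw [hφ]
    exact sellq_decomp_stable N' r hr A hA g R' t' hM' hσ hx
  inertia_sub := by
    intro σ hσ j
    rw [AddSubgroup.mem_comap, map_sub, hφ]
    exact sellq_sub_mem_J1 N' r hr A hA g R' t' hM' hσ (φ j)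
  lattice := by
    intro y hy k
    haveI hy' : Fact (∀ σ : AlgebraicClosure ℚ ≃ₐ[ℚ] AlgebraicClosure ℚ, σ • φ y = φ y) :=
      ⟨fun σ => by rw [← hφ, hy.out σ]⟩
    obtain ⟨H', hH', hRC'⟩ := seljjpkg_lattice_direct N' r hr A hA g R' t' hM' (φ y) k
    refine seljj_hopfLattice_rc_pullback φ y (r ^ k) A R'.J1 (pow_pos hr.pos k) hφ ?_ H' hH' hRC'
    intro x hx hx0
    refine hinj x ⟨k, ?_⟩ hx0
    rw [← natCast_zsmul]
    exact hx

/-- **SEL-JJ-aux: the local package at the descent prime exists**, for every level `N`, every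
prime `r ∤ N` and every valuation ring `A` of `ℚ̄` over `r`.  No hypotheses. -/
theorem seljj_package (N : ℕ) [NeZero N] (r : ℕ) (hr : r.Prime) (hrN : ¬ r ∣ N)
    (A : ValuationSubring (AlgebraicClosure ℚ)) (hA : A.LiesOverPrime r) :
    ∃ J1 : AddSubgroup (JZero N), SeljjPkg N r A J1 := by
  by_cases h5 : 5 ≤ r ∨ (5 - r) ∣ N
  · obtain ⟨g, R, t, hM⟩ := sellqPRStatement N r hr hrN h5 A hA
    exact ⟨R.J1, seljjpkg_direct N r hr A hA g R t hM⟩
  · rw [not_or, not_le] at h5
    obtain ⟨hlt, hsN⟩ := h5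
    have hr2 := hr.two_le
    have hs : (5 - r).Prime := by
      have : r = 2 ∨ r = 3 := by
        have h4 : r ≠ 4 := fun h => by rw [h] at hr; exact absurd hr (by decide)
        omega
      rcases this with h | h <;> rw [h] <;> decide
    have hrs : r ≠ 5 - r := by omega
    have hN : N ≠ 0 := NeZero.ne N
    haveI : NeZero (N * (5 - r)) := ⟨mul_ne_zero hN hs.ne_zero⟩
    have hrNs : ¬ r ∣ N * (5 - r) := by
      intro h
      rcases (Nat.Prime.dvd_mul hr).1 h with h | h
      · exact hrN h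
      · exact hrs ((Nat.prime_dvd_prime_iff_eq hr hs).1 h)
    obtain ⟨g, R', t', hM'⟩ :=
      sellqPRStatement (N * (5 - r)) r hr hrNs (Or.inr (Dvd.intro_left N rfl)) A hA
    obtain ⟨φ, hφ, hinj⟩ := sellqLvlStatement N (5 - r) r hs hsN hr
    exact ⟨R'.J1.comap φ, seljjpkg_aux N (N * (5 - r)) r hr A hA g R' t' hM' φ hφ hinj⟩

end Fermat.Agent.S15
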