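import Fermat.Agent.S15.SelPlan
import Fermat.Agent.S15.SelJJPkg
import Fermat.Agent.S15.RedPkg

/-!
# S15 / SELMER: the two local pieces SEL-LOCR and SEL-LQ, in the exact shape of `SelPlan.lean`

* `stmtSelLocR : StmtSelLocR` — the local package at the descent prime `r` (from `seljj_package`,
  `SelJJPkg.lean`; `r ∈ {2, 3}` by level-up);
* `stmtSelLQ : StmtSelLQ` — division points are unramified at the good primes `q ∤ m N`
  (from the reduction package with its specialization map, `RedPkg.lean`: `sp` is constant on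
  inertia orbits and injective on torsion prime to `q` (S18-J1); `q ∈ {2, 3}` by level-up).
  The statement holds for EVERY valuation ring `A` over `q` (`sellq_all`).

Both are unconditional.
-/

set_option autoImplicit false
set_option linter.style.haveILetI false
set_option synthInstance.maxHeartbeats 400000
set_option maxHeartbeats 1600000

open AlgebraicCurve Module ModularCurve

namespace Fermat.Agent.S15

open Fermat.Agent.W1

/-- **SEL-LOCR**: the local package at the descent prime exists at every prime `r ≠ N`. -/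
theorem stmtSelLocR : StmtSelLocR := by
  intro N _ r hN hr hrN Ar hAr
  have hrN' : ¬ r ∣ N := fun h => hrN ((Nat.prime_dvd_prime_iff_eq hr hN).1 h)
  obtain ⟨J1, hJ1⟩ := seljj_package N r hr hrN' Ar hAr
  exact ⟨J1, ⟨hJ1.inertia_sub, hJ1.lattice⟩⟩

/-- the local package at the descent prime, for every level `N` and every prime `r ∤ N` -/
theorem sel_locR_exists (N : ℕ) [NeZero N] (r : ℕ) (hr : r.Prime) (hrN : ¬ r ∣ N)
    (Ar : ValuationSubring (AlgebraicClosure ℚ)) (hAr : Ar.LiesOverPrime r) :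
    ∃ V1 : AddSubgroup (JZero N), SelLocR N r Ar V1 ∧
      ∀ σ ∈ Ar.decompositionSubgroup ℚ, ∀ x ∈ V1, σ • x ∈ V1 := by
  obtain ⟨J1, hJ1⟩ := seljj_package N r hr hrN Ar hAr
  exact ⟨J1, ⟨hJ1.inertia_sub, hJ1.lattice⟩, hJ1.decomp_stable⟩

/-- **(L-q) at a level with a reduction package**, any `m` prime to `q`. -/
theorem sellq_pkg (N : ℕ) [NeZero N] (q : ℕ) (hq : q.Prime) (hqN : ¬ q ∣ N)
    (h : 5 ≤ q ∨ (5 - q) ∣ N)
    (A : ValuationSubring (AlgebraicClosure ℚ)) (hA : A.LiesOverPrime q)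
    (m : ℕ) (hm : ¬ q ∣ m)
    {σ : AlgebraicClosure ℚ ≃ₐ[ℚ] AlgebraicClosure ℚ} (hσ : σ ∈ A.inertiaSubgroupIn ℚ)
    {a : JZero N} (ha : m • (σ • a - a) = 0) : σ • a = a := by
  obtain ⟨r, sp, Pinf, Qinf, hG⟩ := s15red_exists_pkg N q hq hqN h A hA
  refine sub_eq_zero.1 (hG.s18 m hm _ ha ?_)
  rw [map_sub, hG.sp_inertia σ hσ, sub_self]

/-- **(L-q) for prime powers**, every level. -/
theorem sellq_pp (N : ℕ) [NeZero N] (q : ℕ) (hq : q.Prime) (hqN : ¬ q ∣ N)
    (p : ℕ) (hp : p.Prime) (hpq : p ≠ q) (k : ℕ)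
    (A : ValuationSubring (AlgebraicClosure ℚ)) (hA : A.LiesOverPrime q)
    {σ : AlgebraicClosure ℚ ≃ₐ[ℚ] AlgebraicClosure ℚ} (hσ : σ ∈ A.inertiaSubgroupIn ℚ)
    {a : JZero N} (ha : (p ^ k) • (σ • a - a) = 0) : σ • a = a := by
  have hm : ¬ q ∣ p ^ k := sellq_not_dvd_pow hq hp hpq k
  by_cases h5 : 5 ≤ q ∨ (5 - q) ∣ N
  · exact sellq_pkg N q hq hqN h5 A hA (p ^ k) hm hσ ha
  · rw [not_or, not_le] at h5
    obtain ⟨hlt, hsN⟩ := h5
    have hq2 := hq.two_le
    have hs : (5 - q).Prime := by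
      have : q = 2 ∨ q = 3 := by
        have h4 : q ≠ 4 := fun h => by rw [h] at hq; exact absurd hq (by decide)
        omega
      rcases this with h | h <;> rw [h] <;> decide
    have hqs : q ≠ 5 - q := by omega
    have hN : N ≠ 0 := NeZero.ne N
    haveI : NeZero (N * (5 - q)) := ⟨mul_ne_zero hN hs.ne_zero⟩
    have hqNs : ¬ q ∣ N * (5 - q) := by
      intro h
      rcases (Nat.Prime.dvd_mul hq).1 h with h | h
      · exact hqN h
      · exact hqs ((Nat.prime_dvd_prime_iff_eq hq hs).1 h)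
    exact sellq_levelUp N (N * (5 - q)) p (sellqLvlStatement N (5 - q) p hs hsN hp) k
      (fun j' hj' => sellq_pkg (N * (5 - q)) q hq hqNs (Or.inr (Dvd.intro_left N rfl)) A hA
        (p ^ k) hm hσ hj') ha

/-- **(L-q)**, every level `N`, every prime `q ∤ N`, EVERY valuation ring `A` over `q`, every
`m > 0` prime to `q`: an element of the inertia group of `A` which moves `a ∈ J₀(N)` by an
`m`-torsion point fixes `a`. -/
theorem sellq_all (N : ℕ) [NeZero N] (q : ℕ) (hq : q.Prime) (hqN : ¬ q ∣ N)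
    (A : ValuationSubring (AlgebraicClosure ℚ)) (hA : A.LiesOverPrime q)
    {σ : AlgebraicClosure ℚ ≃ₐ[ℚ] AlgebraicClosure ℚ} (hσ : σ ∈ A.inertiaSubgroupIn ℚ)
    (m : ℕ) (hpos : 0 < m) (hm : ¬ q ∣ m) (a : JZero N) (ha : m • (σ • a - a) = 0) :
    σ • a = a := by
  induction m using Nat.strong_induction_on generalizing a with
  | _ m ih =>
    rcases eq_or_ne m 1 with h1 | h1
    · rw [h1, one_nsmul] at ha
      exact sub_eq_zero.1 ha
    have hp := Nat.minFac_prime h1
    obtain ⟨m', hm'⟩ := Nat.minFac_dvd m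
    have hpq : m.minFac ≠ q := fun h => hm (h ▸ Nat.minFac_dvd m)
    have hm'pos : 0 < m' := by
      rcases Nat.eq_zero_or_pos m' with h0 | h0
      · rw [h0, mul_zero] at hm'; omega
      · exact h0
    have hm'lt : m' < m := by
      have h2 := hp.two_le
      calc m' < m.minFac * m' := by nlinarith
        _ = m := hm'.symm
    have hqm' : ¬ q ∣ m' := fun h => hm (by rw [hm']; exact Dvd.dvd.mul_left h _)
    have hcomm : σ • (m' • a) - m' • a = m' • (σ • a - a) := by
      rw [nsmul_sub]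
      congr 1
      exact map_nsmul (DistribSMul.toAddMonoidHom (JZero N) σ) m' a
    have h2 : (m.minFac ^ 1) • (σ • (m' • a) - m' • a) = 0 := by
      rw [pow_one, hcomm, ← mul_nsmul', ← hm']
      exact ha
    have h3 : σ • (m' • a) = m' • a := sellq_pp N q hq hqN m.minFac hp hpq 1 A hA hσ h2
    have h4 : m' • (σ • a - a) = 0 := by
      rw [← hcomm, h3, sub_self]
    exact ih m' hm'lt hm'pos hqm' a h4

/-- **SEL-LQ**: division points are unramified at the good primes. -/
theorem stmtSelLQ : StmtSelLQ := by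
  intro N _ q hq hqN m hm hqm
  obtain ⟨A, hA⟩ := Fermat.Agent.Common.exists_liesOverPrime q hq
  exact ⟨A, hA, fun σ hσ a ha => sellq_all N q hq hqN A hA hσ m hm hqm a ha⟩

end Fermat.Agent.S15
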