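import Fermat.Agent.S15.SelPlan
import Fermat.Agent.S15.SelKU
import Fermat.Agent.S15.SelGRVal
import Fermat.Agent.S15.SelArEt
import Fermat.Agent.S15.SelLocFinal

/-!
# S15 / SELMER / AR-CN: in a step of type `μ_r`, `r` odd, the cocycles are coboundaries

`stmtSelArConnOdd : StmtSelArConnOdd` (`SelPlan.lean`).  `W ≤ W'` a step with `W' / W ≅ μ_r`
(character `ψ`), `a` a point fixed by the inertia group at `AN ∣ N` with `σ a − a ∈ W'` for all
`σ`.  Then `z σ := ψ (σ a − a)` is a `μ_r`-valued cocycle of finite level (SEL-FL), unramified at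
every `q ≠ r` (`q ∤ rN`: SEL-LQ; `q = N`: `a ∈ selIF`), and its Kummer generators have `r`-adic
valuation divisible by `r`: this is `selgr_padicValRat` (SEL-GR) for the Hopf lattice of the local
package on `E = 𝕁_y[r^k]`, `y = r^k • a`, with `K = ι(W')`, `c = [(a, −1)]`.  By `selku_coboundary`
(SEL-KU) `z σ = σ ζ / ζ` with `ζ ∈ μ_r`, and `ζ = ψ w'` for some `w' ∈ W'` (`ψ : W' → μ_r` is onto).
-/

set_option autoImplicit false
set_option linter.style.haveILetI false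
set_option synthInstance.maxHeartbeats 400000
set_option maxHeartbeats 1600000

noncomputable section

namespace Fermat.Agent.S15

open ModularCurve AlgebraicCurve
open Fermat.Agent.S24 Fermat.Agent.W1

/-- a multiplicative character on a subgroup sends multiples to powers -/
theorem selarcn_psi_nsmul {N : ℕ} [NeZero N] (W' : AddSubgroup (JZero N))
    (ψ : JZero N → AlgebraicClosure ℚ)
    (hmul : ∀ u ∈ W', ∀ v ∈ W', ψ (u + v) = ψ u * ψ v) (h0 : ψ 0 = 1)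
    {w : JZero N} (hw : w ∈ W') (n : ℕ) : ψ (n • w) = ψ w ^ n := by
  induction n with
  | zero => rw [zero_nsmul, pow_zero, h0]
  | succ n ih =>
    rw [succ_nsmul, hmul _ (W'.nsmul_mem hw n) _ hw, ih, pow_succ]

/-- **the local condition at `r`** for the Kummer generators of the cocycle `σ ↦ ψ (σ a − a)`:
`selgr_padicValRat` on `𝕁_y[r^k]`, `y = r^k • a`. -/
theorem selarcn_loc (N : ℕ) [NeZero N] (r k : ℕ) (hr : r.Prime)
    (Ar : ValuationSubring Kb) (V1 : AddSubgroup (JZero N)) (hV1 : SelLocR N r Ar V1)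
    (W' : AddSubgroup (JZero N))
    (htors : ∀ w ∈ W', r ^ k • w = 0)
    (hstab' : ∀ σ : GalQ, ∀ w ∈ W', σ • w ∈ W')
    (ψ : JZero N → Kb)
    (hmul : ∀ u ∈ W', ∀ v ∈ W', ψ (u + v) = ψ u * ψ v) (h0 : ψ 0 = 1)
    (heq : ∀ σ : GalQ, ∀ v ∈ W', ψ (σ • v) = σ (ψ v))
    (a : JZero N) (hcoc : ∀ σ : GalQ, σ • a - a ∈ W')
    (α : Kb) (A₀ : ℚ) (hα : α ≠ 0) (hA₀ : α ^ r = algebraMap ℚ Kb A₀)
    (hσα : ∀ σ : GalQ, σ α = ψ (σ • a - a) * α) :
    (r : ℤ) ∣ padicValRat r A₀ := by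
  classical
  haveI : Fact r.Prime := ⟨hr⟩
  have hn : 0 < r ^ k := pow_pos hr.pos k
  -- `y := r ^ k • a` is fixed
  have hy : ∀ σ : GalQ, σ • (r ^ k • a) = r ^ k • a := by
    intro σ
    have h1 : σ • (r ^ k • a) - r ^ k • a = r ^ k • (σ • a - a) := by
      rw [nsmul_sub]
      congr 1
      exact map_nsmul (DistribSMul.toAddMonoidHom (JZero N) σ) _ a
    have h2 := htors _ (hcoc σ)
    rw [← h1] at h2
    exact sub_eq_zero.1 h2
  haveI hyF : Fact (∀ σ : GalQ, σ • (r ^ k • a) = r ^ k • a) := ⟨hy⟩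
  obtain ⟨H, hH, -⟩ := hV1.lattice (r ^ k • a) k
  haveI : Finite (Submodule.torsionBy ℤ (SeljjJ (JZero N) (r ^ k • a) (r ^ k))
      ((r ^ k : ℕ) : ℤ)) :=
    seljj_finite_torsion (r ^ k • a) (r ^ k) hn (seljjpkg_finite N r hr.ne_zero k)
  -- the point `c = [(a, -1)]`
  have hc0 : ((r ^ k : ℕ) : ℤ) • a + (-1 : ℤ) • (r ^ k • a) = 0 := by
    rw [natCast_zsmul, neg_one_zsmul, add_neg_cancel]
  -- the transported subgroup and character
  let sub : Submodule.torsionBy ℤ (SeljjJ (JZero N) (r ^ k • a) (r ^ k)) ((r ^ k : ℕ) : ℤ) →+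
      SeljjJ (JZero N) (r ^ k • a) (r ^ k) :=
    (Submodule.torsionBy ℤ (SeljjJ (JZero N) (r ^ k • a) (r ^ k))
      ((r ^ k : ℕ) : ℤ)).subtype.toAddMonoidHom
  let ψE : Submodule.torsionBy ℤ (SeljjJ (JZero N) (r ^ k • a) (r ^ k)) ((r ^ k : ℕ) : ℤ) → Kb :=
    fun u => if h : ∃ x : JZero N, seljjIota (JZero N) (r ^ k • a) (r ^ k) x =
      (u : SeljjJ (JZero N) (r ^ k • a) (r ^ k)) then ψ h.choose else 1
  have hψE : ∀ (u : Submodule.torsionBy ℤ (SeljjJ (JZero N) (r ^ k • a) (r ^ k))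
      ((r ^ k : ℕ) : ℤ)) (x : JZero N),
      seljjIota (JZero N) (r ^ k • a) (r ^ k) x = (u : SeljjJ (JZero N) (r ^ k • a) (r ^ k)) →
        ψE u = ψ x := by
    intro u x hx
    have hex : ∃ x : JZero N, seljjIota (JZero N) (r ^ k • a) (r ^ k) x =
        (u : SeljjJ (JZero N) (r ^ k • a) (r ^ k)) := ⟨x, hx⟩
    have h1 : ψE u = ψ hex.choose := dif_pos hex
    rw [h1]
    congr 1
    exact seljjIota_injective (JZero N) (r ^ k • a) (r ^ k) hn (hex.choose_spec.trans hx.symm)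
  refine selgr_padicValRat r hH
    ((W'.map (seljjIota (JZero N) (r ^ k • a) (r ^ k))).comap sub) ?_ ψE ?_ ?_ ?_
    (seljjPt (JZero N) (r ^ k • a) (r ^ k) hn a (-1) hc0) ?_ α hα ?_ r A₀ hA₀.symm
  · -- `K` is stable
    rintro σ t ⟨w, hw, e⟩
    refine ⟨σ • w, hstab' σ w hw, ?_⟩
    show seljjIota (JZero N) (r ^ k • a) (r ^ k) (σ • w) =
      σ • (t : SeljjJ (JZero N) (r ^ k • a) (r ^ k))
    rw [← seljj_smul_iota, e]
    rfl
  · -- multiplicative on `K`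
    rintro u ⟨x, hx, ex⟩ v ⟨x', hx', ex'⟩
    have exx : seljjIota (JZero N) (r ^ k • a) (r ^ k) (x + x') =
        ((u + v : Submodule.torsionBy ℤ (SeljjJ (JZero N) (r ^ k • a) (r ^ k))
          ((r ^ k : ℕ) : ℤ)) : SeljjJ (JZero N) (r ^ k • a) (r ^ k)) := by
      rw [map_add, ex, ex']
      rfl
    rw [hψE _ _ exx, hψE _ _ ex, hψE _ _ ex', hmul x hx x' hx']
  · -- `ψE 0 = 1`
    rw [hψE 0 0 (map_zero _), h0]
  · -- equivariant on `K`
    rintro σ v ⟨x, hx, ex⟩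
    have e1 : seljjIota (JZero N) (r ^ k • a) (r ^ k) (σ • x) =
        ((torsAct (SeljjJ (JZero N) (r ^ k • a) (r ^ k)) ((r ^ k : ℕ) : ℤ) σ v :
          Submodule.torsionBy ℤ (SeljjJ (JZero N) (r ^ k • a) (r ^ k)) ((r ^ k : ℕ) : ℤ)) :
          SeljjJ (JZero N) (r ^ k • a) (r ^ k)) := by
      show seljjIota (JZero N) (r ^ k • a) (r ^ k) (σ • x) =
        σ • (v : SeljjJ (JZero N) (r ^ k • a) (r ^ k))
      rw [← seljj_smul_iota, ex]
      rfl
    rw [hψE _ _ e1, hψE _ _ ex, heq σ x hx]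
  · -- the cocycle of `c` has values in `K`
    intro σ
    refine ⟨σ • a - a, hcoc σ, ?_⟩
    show seljjIota (JZero N) (r ^ k • a) (r ^ k) (σ • a - a) =
      σ • seljjMk (JZero N) (r ^ k • a) (r ^ k) (a, -1) -
        seljjMk (JZero N) (r ^ k • a) (r ^ k) (a, -1)
    rw [seljj_smul_mk, ← map_sub, seljjIota_apply]
    congr 1
  · -- the Kummer generator
    intro σ
    have e1 : seljjIota (JZero N) (r ^ k • a) (r ^ k) (σ • a - a) =
        ((torsAct (SeljjJ (JZero N) (r ^ k • a) (r ^ k)) ((r ^ k : ℕ) : ℤ) σ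
            (seljjPt (JZero N) (r ^ k • a) (r ^ k) hn a (-1) hc0) -
          seljjPt (JZero N) (r ^ k • a) (r ^ k) hn a (-1) hc0 :
          Submodule.torsionBy ℤ (SeljjJ (JZero N) (r ^ k • a) (r ^ k)) ((r ^ k : ℕ) : ℤ)) :
          SeljjJ (JZero N) (r ^ k • a) (r ^ k)) := by
      show seljjIota (JZero N) (r ^ k • a) (r ^ k) (σ • a - a) =
        σ • seljjMk (JZero N) (r ^ k • a) (r ^ k) (a, -1) -
          seljjMk (JZero N) (r ^ k • a) (r ^ k) (a, -1)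
      rw [seljj_smul_mk, ← map_sub, seljjIota_apply]
      congr 1
    rw [hψE _ _ e1]
    exact hσα σ

/-- **AR-CN**: in a step of type `μ_r`, `r` odd, the cocycles of the points of `𝒥` are
coboundaries. -/
theorem stmtSelArConnOdd : StmtSelArConnOdd := by
  intro N _ r k hN hr _hrN hr2 AN Ar hAN _hAr V1 hV1 W W' hstep hcyc a ha hcoc
  obtain ⟨ψ, hmul, h0, heq, hker⟩ := hcyc
  haveI : Fact r.Prime := ⟨hr⟩
  haveI : NeZero r := ⟨hr.ne_zero⟩
  -- basic facts on `ψ`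
  have hrW : ∀ w ∈ W', r • w ∈ W := by
    intro w hw
    have := selch_relIndex_nsmul_mem W W' hstep.le hw
    rwa [hstep.idx] at this
  have hψr : ∀ w ∈ W', ψ w ^ r = 1 := by
    intro w hw
    rw [← selarcn_psi_nsmul W' ψ hmul h0 hw r]
    exact (hker _ (W'.nsmul_mem hw r)).2 (hrW w hw)
  have hψne : ∀ w ∈ W', ψ w ≠ 0 := by
    intro w hw h
    have := hψr w hw
    rw [h, zero_pow hr.ne_zero] at this
    exact zero_ne_one this
  have hψsub : ∀ u ∈ W', ∀ v ∈ W', ψ (u - v) = ψ u / ψ v := by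
    intro u hu v hv
    have := hmul (u - v) (W'.sub_mem hu hv) v hv
    rw [sub_add_cancel] at this
    rw [this, mul_div_assoc, div_self (hψne v hv), mul_one]
  -- the cocycle
  have hμ : ∀ σ : GalQ, ψ (σ • a - a) ^ r = 1 := fun σ => hψr _ (hcoc σ)
  have hzcoc : ∀ σ τ : GalQ, ψ ((σ * τ) • a - a) = ψ (σ • a - a) * σ (ψ (τ • a - a)) := by
    intro σ τ
    rw [← heq σ _ (hcoc τ), ← hmul _ (hcoc σ) _ (hstep.stab' σ _ (hcoc τ))]
    congr 1
    rw [mul_smul, smul_sub]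
    abel
  have hlev : ∃ S : Finset (AlgebraicClosure ℚ),
      ∀ σ : AlgebraicClosure ℚ ≃ₐ[ℚ] AlgebraicClosure ℚ, (∀ s ∈ S, σ s = s) →
        ψ (σ • a - a) = 1 := by
    obtain ⟨S, hS⟩ := selaret_finite_level N a
    exact ⟨S, fun σ hσ => by rw [hS σ hσ, sub_self, h0]⟩
  have hunr : ∀ q : ℕ, q.Prime → q ≠ r → ∃ A : ValuationSubring (AlgebraicClosure ℚ),
      A.LiesOverPrime q ∧ ∀ σ ∈ A.inertiaSubgroupIn ℚ, ψ (σ • a - a) = 1 := by
    intro q hq hqr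
    by_cases hqN : q = N
    · subst hqN
      exact ⟨AN, hAN, fun σ hσ => by rw [ha σ hσ, sub_self, h0]⟩
    · obtain ⟨A, hA⟩ := Fermat.Agent.Common.exists_liesOverPrime q hq
      refine ⟨A, hA, fun σ hσ => ?_⟩
      have hqN' : ¬ q ∣ N := fun h => hqN ((Nat.prime_dvd_prime_iff_eq hq hN).1 h)
      have h1 : σ • a = a :=
        sellq_pp N q hq hqN' r hr (Ne.symm hqr) k A hA hσ (hstep.tors _ (hcoc σ))
      rw [h1, sub_self, h0]
  have hloc : ∀ (α : AlgebraicClosure ℚ) (A₀ : ℚ), α ≠ 0 →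
      α ^ r = algebraMap ℚ (AlgebraicClosure ℚ) A₀ →
      (∀ σ : AlgebraicClosure ℚ ≃ₐ[ℚ] AlgebraicClosure ℚ, σ α = ψ (σ • a - a) * α) →
      (r : ℤ) ∣ padicValRat r A₀ := fun α A₀ hα hA₀ hσα =>
    selarcn_loc N r k hr Ar V1 hV1 W' hstep.tors hstep.stab' ψ hmul h0 heq a hcoc α A₀ hα hA₀ hσα
  obtain ⟨ζ, hζr, hζ⟩ := selku_coboundary hr hr2 (fun σ => ψ (σ • a - a)) hμ hzcoc hlev hunr hloc
  have hζ0 : ζ ≠ 0 := by
    intro h
    rw [h, zero_pow hr.ne_zero] at hζr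
    exact zero_ne_one hζr
  -- `ψ : W' → μ_r` is onto
  have hex : ∃ w₀ ∈ W', w₀ ∉ W := by
    by_contra h
    have h1 : W' ≤ W := fun w hw => by
      by_contra hw'
      exact h ⟨w, hw, hw'⟩
    have h2 : W.relIndex W' = 1 := AddSubgroup.relIndex_eq_one.2 h1
    rw [hstep.idx] at h2
    exact hr.one_lt.ne' h2
  obtain ⟨w₀, hw₀, hw₀W⟩ := hex
  have hprim : IsPrimitiveRoot (ψ w₀) r := by
    have h := IsPrimitiveRoot.orderOf (ψ w₀)
    rwa [orderOf_eq_prime (hψr w₀ hw₀) (fun h => hw₀W ((hker w₀ hw₀).1 h))] at h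
  obtain ⟨i, -, hi⟩ := hprim.eq_pow_of_pow_eq_one hζr
  have hw' : i • w₀ ∈ W' := W'.nsmul_mem hw₀ i
  have hψw' : ψ (i • w₀) = ζ := by
    rw [selarcn_psi_nsmul W' ψ hmul h0 hw₀ i, hi]
  refine ⟨i • w₀, hw', fun σ => ?_⟩
  have hσw' : σ • (i • w₀) - i • w₀ ∈ W' := W'.sub_mem (hstep.stab' σ _ hw') hw'
  have hmem : (σ • a - a) - (σ • (i • w₀) - i • w₀) ∈ W' := W'.sub_mem (hcoc σ) hσw'
  refine (hker _ hmem).1 ?_
  rw [hψsub _ (hcoc σ) _ hσw', hψsub _ (hstep.stab' σ _ hw') _ hw', heq σ _ hw', hψw']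
  have h1 : ψ (σ • a - a) = σ ζ / ζ := hζ σ
  rw [h1]
  have hσζ0 : σ ζ ≠ 0 := fun h => hζ0 (by
    have := congrArg σ.symm h
    simpa using this)
  exact div_self (div_ne_zero hσζ0 hζ0)

end Fermat.Agent.S15
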