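import Fermat.Agent.S15.SelArConnOdd

/-!
# S15 / SELMER / AR-C2: the steps at `r = 2`

For `r = 2` every step `W ≤ W'` (index `2`) carries the RATIONAL character `ψ = ±1` with kernel
`W`, so it is of type `μ_2` (`selarc2_stepCyc`).  For a point `a` fixed by the inertia group at
`AN ∣ N` with `σ a − a ∈ W'` the cocycle `z σ = ψ (σ a − a) = ± 1` is a quadratic character of
finite level, `z σ = σ α / α` with `α ^ 2 = A₀ ∈ ℚ` (Hilbert 90), and all valuations of `A₀` are
even (`q ∤ 2N`: SEL-LQ; `q = N`: `a ∈ selIF`; `q = 2`: the Hopf lattice, `selarcn_loc`).  Hence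
`A₀ = ± B ^ 2` and

* `selarc2_dichotomy` : either `σ a − a ∈ W` for all `σ`, or (`σ a − a ∈ W ↔ σ i = i`) for all `σ`
  (`i ^ 2 = −1`): the cocycle is `1` or `χ₋₁`;
* `selarc2_of_conj` (AR-C2∞): if some `c` with `c i ≠ i` fixes `a`, then `σ a − a ∈ W` for all `σ`;
* `stmtSelArConnTwo : StmtSelArConnTwo` (`SelPlan.lean`).
-/

set_option autoImplicit false
set_option linter.style.haveILetI false
set_option synthInstance.maxHeartbeats 400000
set_option maxHeartbeats 1600000

noncomputable section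

namespace Fermat.Agent.S15

open ModularCurve AlgebraicCurve
open Fermat.Agent.S24 Fermat.Agent.W1

/-- a nonzero rational number all of whose valuations are even is `± B ^ 2` -/
theorem selarc2_sq (A₀ : ℚ) (hA₀ : A₀ ≠ 0)
    (h : ∀ q : ℕ, q.Prime → (2 : ℤ) ∣ padicValRat q A₀) :
    ∃ B : ℚ, B ≠ 0 ∧ (A₀ = B ^ 2 ∨ A₀ = -B ^ 2) := by
  have hnum : A₀.num.natAbs ≠ 0 := by
    rw [Int.natAbs_ne_zero]
    exact Rat.num_ne_zero.2 hA₀
  have hden : A₀.den ≠ 0 := A₀.den_nz
  have hcop : Nat.Coprime A₀.num.natAbs A₀.den := A₀.reduced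
  have hval : ∀ q : ℕ, q.Prime →
      2 ∣ padicValNat q A₀.num.natAbs ∧ 2 ∣ padicValNat q A₀.den := by
    intro q hq
    haveI : Fact q.Prime := ⟨hq⟩
    have h1 := h q hq
    have e3 : padicValRat q A₀ =
        (padicValNat q A₀.num.natAbs : ℤ) - (padicValNat q A₀.den : ℤ) := rfl
    rw [e3] at h1
    by_cases hqn : q ∣ A₀.num.natAbs
    · have hqd : ¬ q ∣ A₀.den := fun hd => by
        have := Nat.dvd_gcd hqn hd
        rw [hcop.gcd_eq_one] at this
        exact hq.one_lt.ne' (Nat.dvd_one.1 this)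
      have h0 : padicValNat q A₀.den = 0 := padicValNat.eq_zero_of_not_dvd hqd
      rw [h0] at h1 ⊢
      simp only [Nat.cast_zero, sub_zero] at h1
      exact ⟨by exact_mod_cast h1, dvd_zero _⟩
    · have h0 : padicValNat q A₀.num.natAbs = 0 := padicValNat.eq_zero_of_not_dvd hqn
      rw [h0] at h1 ⊢
      simp only [Nat.cast_zero, zero_sub, dvd_neg] at h1
      exact ⟨dvd_zero _, by exact_mod_cast h1⟩
  obtain ⟨m, hm⟩ := selku_nat_pow hnum (fun q hq => (hval q hq).1)
  obtain ⟨d, hd⟩ := selku_nat_pow hden (fun q hq => (hval q hq).2)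
  have hd0 : (d : ℚ) ≠ 0 := by
    intro h0
    have : d = 0 := by exact_mod_cast h0
    rw [this] at hd
    exact hden (by simp at hd)
  have hm0 : (m : ℚ) ≠ 0 := by
    intro h0
    have : m = 0 := by exact_mod_cast h0
    rw [this] at hm
    exact hnum (by simpa using hm)
  have hA : A₀ = (A₀.num : ℚ) / (A₀.den : ℚ) := (Rat.num_div_den A₀).symm
  have hdq : (A₀.den : ℚ) = (d : ℚ) ^ 2 := by exact_mod_cast hd
  refine ⟨(m : ℚ) / (d : ℚ), div_ne_zero hm0 hd0, ?_⟩
  rcases Int.natAbs_eq A₀.num with hs | hs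
  · left
    have hnq : (A₀.num : ℚ) = (m : ℚ) ^ 2 := by
      rw [hs, Int.cast_natCast, hm]
      push_cast
      rfl
    rw [div_pow, ← hnq, ← hdq]
    exact hA
  · right
    have hnq : (A₀.num : ℚ) = -(m : ℚ) ^ 2 := by
      rw [hs, Int.cast_neg, Int.cast_natCast, hm]
      push_cast
      rfl
    rw [div_pow, ← neg_div, ← hnq, ← hdq]
    exact hA

/-- **for `r = 2` every step is of type `μ_2`**: the character `ψ = ± 1` with kernel `W`. -/
theorem selarc2_stepCyc {N k : ℕ} [NeZero N] {W W' : AddSubgroup (JZero N)}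
    (hstep : SelStep N 2 k W W') : SelStepCyc W W' := by
  classical
  have h2W : ∀ w ∈ W', 2 • w ∈ W := by
    intro w hw
    have := selch_relIndex_nsmul_mem W W' hstep.le hw
    rwa [hstep.idx] at this
  obtain ⟨a₁, _ha₁, hab⟩ := AddSubgroup.relIndex_eq_two_iff.1 hstep.idx
  -- two points outside `W` differ by an element of `W`
  have hdiff : ∀ u ∈ W', ∀ v ∈ W', u ∉ W → v ∉ W → u - v ∈ W := by
    intro u hu v hv huW hvW
    have h1 : u + a₁ ∈ W := by
      rcases hab u hu with ⟨h1, _⟩ | ⟨h1, _⟩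
      · exact h1
      · exact absurd h1 huW
    have h2 : v + a₁ ∈ W := by
      rcases hab v hv with ⟨h1, _⟩ | ⟨h1, _⟩
      · exact h1
      · exact absurd h1 hvW
    have : u - v = (u + a₁) - (v + a₁) := by abel
    rw [this]
    exact W.sub_mem h1 h2
  have hne : (-1 : Kb) ≠ 1 := by
    intro h
    have h2 : (2 : Kb) = 0 := by
      have : (1 : Kb) + 1 = 0 := by
        nth_rewrite 1 [← h]
        exact neg_add_cancel 1
      rw [← this]
      norm_num
    exact two_ne_zero h2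
  refine ⟨fun w => if w ∈ W then 1 else -1, ?_, ?_, ?_, ?_⟩
  · intro u hu v hv
    by_cases huW : u ∈ W
    · by_cases hvW : v ∈ W
      · simp only [if_pos huW, if_pos hvW, if_pos (W.add_mem huW hvW), mul_one]
      · have h1 : u + v ∉ W := fun h => hvW (by
          have := W.sub_mem h huW
          rwa [add_sub_cancel_left] at this)
        simp only [if_pos huW, if_neg hvW, if_neg h1, one_mul]
    · by_cases hvW : v ∈ W
      · have h1 : u + v ∉ W := fun h => huW (by
          have := W.sub_mem h hvW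
          rwa [add_sub_cancel_right] at this)
        simp only [if_neg huW, if_pos hvW, if_neg h1, mul_one]
      · have h1 : u + v ∈ W := by
          have e : u + v = (u - v) + 2 • v := by rw [two_nsmul]; abel
          rw [e]
          exact W.add_mem (hdiff u hu v hv huW hvW) (h2W v hv)
        simp only [if_neg huW, if_neg hvW, if_pos h1]
        norm_num
  · simp only [if_pos W.zero_mem]
  · intro σ v _hv
    have hiff : σ • v ∈ W ↔ v ∈ W := by
      constructor
      · intro h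
        have := hstep.stab σ⁻¹ _ h
        rwa [inv_smul_smul] at this
      · exact hstep.stab σ v
    by_cases hvW : v ∈ W
    · simp only [if_pos hvW, if_pos (hiff.2 hvW), map_one]
    · simp only [if_neg hvW, if_neg (fun h => hvW (hiff.1 h)), map_neg, map_one]
  · intro w _hw
    by_cases hwW : w ∈ W
    · show (if w ∈ W then (1 : Kb) else -1) = 1 ↔ w ∈ W
      rw [if_pos hwW]
      exact ⟨fun _ => hwW, fun _ => rfl⟩
    · show (if w ∈ W then (1 : Kb) else -1) = 1 ↔ w ∈ W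
      rw [if_neg hwW]
      exact ⟨fun h => absurd h hne, fun h => absurd h hwW⟩

/-- **AR-C2, the dichotomy**: at `r = 2` the cocycle of a point of `𝒥` is `1` or `χ₋₁`. -/
theorem selarc2_dichotomy (N : ℕ) [NeZero N] (k : ℕ) (hN : N.Prime) (_h2N : 2 ≠ N)
    (AN Ar : ValuationSubring Kb) (hAN : AN.LiesOverPrime N) (_hAr : Ar.LiesOverPrime 2)
    (V1 : AddSubgroup (JZero N)) (hV1 : SelLocR N 2 Ar V1)
    (W W' : AddSubgroup (JZero N)) (hstep : SelStep N 2 k W W')
    (i : Kb) (hi : i ^ 2 = -1)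
    (a : JZero N) (ha : a ∈ selIF N AN) (hcoc : ∀ σ : GalQ, σ • a - a ∈ W') :
    (∀ σ : GalQ, σ • a - a ∈ W) ∨ (∀ σ : GalQ, σ • a - a ∈ W ↔ σ i = i) := by
  obtain ⟨ψ, hmul, h0, heq, hker⟩ := selarc2_stepCyc hstep
  have h2 : Nat.Prime 2 := Nat.prime_two
  have hrW : ∀ w ∈ W', 2 • w ∈ W := by
    intro w hw
    have := selch_relIndex_nsmul_mem W W' hstep.le hw
    rwa [hstep.idx] at this
  have hψr : ∀ w ∈ W', ψ w ^ 2 = 1 := by
    intro w hw
    rw [← selarcn_psi_nsmul W' ψ hmul h0 hw 2]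
    exact (hker _ (W'.nsmul_mem hw 2)).2 (hrW w hw)
  have hμ : ∀ σ : GalQ, ψ (σ • a - a) ^ 2 = 1 := fun σ => hψr _ (hcoc σ)
  have hzcoc : ∀ σ τ : GalQ, ψ ((σ * τ) • a - a) = ψ (σ • a - a) * σ (ψ (τ • a - a)) := by
    intro σ τ
    rw [← heq σ _ (hcoc τ), ← hmul _ (hcoc σ) _ (hstep.stab' σ _ (hcoc τ))]
    congr 1
    rw [mul_smul, smul_sub]
    abel
  have hlev : ∃ S : Finset (AlgebraicClosure ℚ),
      ∀ σ : AlgebraicClosure ℚ ≃ₐ[ℚ] AlgebraicClosure ℚ, (∀ s ∈ S, σ s = s) →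
        ψ (σ • a - a) = 1 := by
    obtain ⟨S, hS⟩ := selaret_finite_level N a
    exact ⟨S, fun σ hσ => by rw [hS σ hσ, sub_self, h0]⟩
  obtain ⟨α, hα, hσα, A₀, hA₀⟩ := selku_h90 2 (fun σ => ψ (σ • a - a)) hμ hzcoc hlev
  have hA₀0 : A₀ ≠ 0 := by
    rintro rfl
    rw [map_zero] at hA₀
    exact hα (pow_eq_zero_iff two_ne_zero |>.1 hA₀)
  -- all valuations are even
  have hval : ∀ q : ℕ, q.Prime → (2 : ℤ) ∣ padicValRat q A₀ := by
    intro q hq
    by_cases hq2 : q = 2
    · subst hq2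
      exact selarcn_loc N 2 k h2 Ar V1 hV1 W' hstep.tors hstep.stab' ψ hmul h0 heq a hcoc α A₀ hα
        hA₀ hσα
    by_cases hqN : q = N
    · subst hqN
      exact selku_unram_gen (r := 2) two_pos hq α hα A₀ hA₀ AN hAN (fun σ hσ => by
        rw [hσα σ, ha σ hσ, sub_self, h0, one_mul])
    · obtain ⟨A, hA⟩ := Fermat.Agent.Common.exists_liesOverPrime q hq
      have hqN' : ¬ q ∣ N := fun h => hqN ((Nat.prime_dvd_prime_iff_eq hq hN).1 h)
      exact selku_unram_gen (r := 2) two_pos hq α hα A₀ hA₀ A hA (fun σ hσ => by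
        have h1 : σ • a = a :=
          sellq_pp N q hq hqN' 2 h2 (Ne.symm hq2) k A hA hσ (hstep.tors _ (hcoc σ))
        rw [hσα σ, h1, sub_self, h0, one_mul])
  obtain ⟨B, hB0, hB⟩ := selarc2_sq A₀ hA₀0 hval
  have hBK : algebraMap ℚ Kb B ≠ 0 := by
    intro h
    exact hB0 ((map_eq_zero (algebraMap ℚ Kb)).1 h)
  -- `β := α / B` satisfies `σ β = z σ * β` and `β ^ 2 = ± 1`
  have hσβ : ∀ σ : GalQ, σ (α / algebraMap ℚ Kb B) = ψ (σ • a - a) * (α / algebraMap ℚ Kb B) := by
    intro σ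
    rw [map_div₀, AlgEquiv.commutes, hσα σ, mul_div_assoc]
  have hβ0 : α / algebraMap ℚ Kb B ≠ 0 := div_ne_zero hα hBK
  have hmemW : ∀ σ : GalQ, σ • a - a ∈ W ↔
      σ (α / algebraMap ℚ Kb B) = α / algebraMap ℚ Kb B := by
    intro σ
    rw [← hker _ (hcoc σ), hσβ σ]
    constructor
    · intro h
      rw [h, one_mul]
    · intro h
      have h3 : (ψ (σ • a - a) - 1) * (α / algebraMap ℚ Kb B) = 0 := by
        rw [sub_mul, one_mul, h, sub_self]
      rcases mul_eq_zero.1 h3 with h4 | h4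
      · exact sub_eq_zero.1 h4
      · exact absurd h4 hβ0
  rcases hB with hB | hB
  · -- `α ^ 2 = B ^ 2`: the cocycle is trivial
    left
    intro σ
    rw [hmemW σ]
    have h3 : (α / algebraMap ℚ Kb B) ^ 2 = 1 := by
      rw [div_pow, hA₀, hB, map_pow, div_self (pow_ne_zero _ hBK)]
    have h4 : α / algebraMap ℚ Kb B = 1 ∨ α / algebraMap ℚ Kb B = -1 :=
      sq_eq_one_iff.1 h3
    rcases h4 with h4 | h4
    · rw [h4, map_one]
    · rw [h4, map_neg, map_one]
  · -- `α ^ 2 = - B ^ 2`: the cocycle is `χ₋₁`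
    right
    intro σ
    rw [hmemW σ]
    have h3 : (α / algebraMap ℚ Kb B) ^ 2 = i ^ 2 := by
      rw [div_pow, hA₀, hB, map_neg, map_pow, neg_div, div_self (pow_ne_zero _ hBK), hi]
    have h4 : α / algebraMap ℚ Kb B = i ∨ α / algebraMap ℚ Kb B = -i := sq_eq_sq_iff_eq_or_eq_neg.1 h3
    rcases h4 with h4 | h4
    · rw [h4]
    · rw [h4, map_neg, neg_inj]

/-- **AR-C2∞**: a point of `𝒥` fixed by some `c` with `c i ≠ i` (complex conjugation) has trivial
cocycle modulo `W`. -/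
theorem selarc2_of_conj (N : ℕ) [NeZero N] (k : ℕ) (hN : N.Prime) (h2N : 2 ≠ N)
    (AN Ar : ValuationSubring Kb) (hAN : AN.LiesOverPrime N) (hAr : Ar.LiesOverPrime 2)
    (V1 : AddSubgroup (JZero N)) (hV1 : SelLocR N 2 Ar V1)
    (W W' : AddSubgroup (JZero N)) (hstep : SelStep N 2 k W W')
    (i : Kb) (hi : i ^ 2 = -1) (c : GalQ) (hc : c i ≠ i)
    (a : JZero N) (ha : a ∈ selIF N AN) (hcoc : ∀ σ : GalQ, σ • a - a ∈ W')
    (hca : c • a - a ∈ W) : ∀ σ : GalQ, σ • a - a ∈ W := by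
  rcases selarc2_dichotomy N k hN h2N AN Ar hAN hAr V1 hV1 W W' hstep i hi a ha hcoc with h | h
  · exact h
  · exact absurd ((h c).1 hca) hc

/-- **AR-C2**: `r = 2`: there are at most two cocycles. -/
theorem stmtSelArConnTwo : StmtSelArConnTwo := by
  intro N _ k hN h2N AN Ar hAN hAr V1 hV1 W W' hstep
  classical
  obtain ⟨i, hi⟩ : ∃ i : Kb, i ^ 2 = -1 := IsAlgClosed.exists_pow_nat_eq (-1 : Kb) two_pos
  by_cases hex : ∃ a₀ : JZero N, a₀ ∈ selIF N AN ∧ (∀ σ : GalQ, σ • a₀ - a₀ ∈ W') ∧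
      ∀ σ : GalQ, σ • a₀ - a₀ ∈ W ↔ σ i = i
  · obtain ⟨a₀, ha₀, hcoc₀, hχ₀⟩ := hex
    refine ⟨a₀, fun a ha hcoc => ?_⟩
    rcases selarc2_dichotomy N k hN h2N AN Ar hAN hAr V1 hV1 W W' hstep i hi a ha hcoc with h | h
    · exact Or.inl h
    · right
      -- the cocycle of `a - a₀` is trivial
      have ha' : a - a₀ ∈ selIF N AN := (selIF N AN).sub_mem ha ha₀
      have hcoc' : ∀ σ : GalQ, σ • (a - a₀) - (a - a₀) ∈ W' := by
        intro σ
        have e : σ • (a - a₀) - (a - a₀) = (σ • a - a) - (σ • a₀ - a₀) := by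
          rw [smul_sub]; abel
        rw [e]
        exact W'.sub_mem (hcoc σ) (hcoc₀ σ)
      rcases selarc2_dichotomy N k hN h2N AN Ar hAN hAr V1 hV1 W W' hstep i hi (a - a₀) ha' hcoc'
        with h' | h'
      · exact h'
      · -- impossible unless `χ₋₁` is trivial; in both cases the cocycle is trivial
        intro σ
        by_cases hσ : σ i = i
        · exact (h' σ).2 hσ
        · -- `σ a - a ∉ W`, `σ a₀ - a₀ ∉ W`: their difference is in `W` (index 2)
          have h1 : σ • a - a ∉ W := fun hh => hσ ((h σ).1 hh)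
          have h2 : σ • a₀ - a₀ ∉ W := fun hh => hσ ((hχ₀ σ).1 hh)
          obtain ⟨a₁, _, hab⟩ := AddSubgroup.relIndex_eq_two_iff.1 hstep.idx
          have h3 : (σ • a - a) + a₁ ∈ W := by
            rcases hab _ (hcoc σ) with ⟨h3, _⟩ | ⟨h3, _⟩
            · exact h3
            · exact absurd h3 h1
          have h4 : (σ • a₀ - a₀) + a₁ ∈ W := by
            rcases hab _ (hcoc₀ σ) with ⟨h3, _⟩ | ⟨h3, _⟩
            · exact h3
            · exact absurd h3 h2
          have e : σ • (a - a₀) - (a - a₀) = ((σ • a - a) + a₁) - ((σ • a₀ - a₀) + a₁) := by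
            rw [smul_sub]; abel
          rw [e]
          exact W.sub_mem h3 h4
  · refine ⟨0, fun a ha hcoc => ?_⟩
    rcases selarc2_dichotomy N k hN h2N AN Ar hAN hAr V1 hV1 W W' hstep i hi a ha hcoc with h | h
    · exact Or.inl h
    · exact absurd ⟨a, ha, hcoc, h⟩ hex

end Fermat.Agent.S15
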