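import Fermat.Agent.S15.SelPlan
import Fermat.Agent.TW.S.CycloRam

/-!
# S15 / SELMER / AR-4: a step of type `μ_r` is connected (`r` odd)

* `selar_inertia_cyclo` : for an odd prime `p`, EVERY valuation ring `A` of `ℚ̄` over `p` and a
  primitive `p`-th root of unity `ζ` there is `σ` in the inertia group of `A` with `σ ζ = ζ ^ 2`
  (the proof of `TW.S.stmtCycloRam`, which is stated for `padicPlace p`, for a general `A`).
* `stmtSelArCycConn : StmtSelArCycConn` (`SelPlan.lean`): for a step `W ≤ W'` of index `r` with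
  `W' / W ≅ μ_r`, `¬ (W' ∩ V1 ≤ W)` as soon as `(σ - 1) J ⊂ V1` for `σ` in the inertia group.
-/

set_option autoImplicit false
set_option linter.style.haveILetI false

noncomputable section

namespace Fermat.Agent.S15

open ModularCurve AlgebraicCurve Polynomial
open Fermat.Agent.S24 Fermat.Agent.W1 Fermat.Agent.TW.S Fermat.Agent.TW.L ExtCitation

/-- **the mod `p` cyclotomic character is ramified at every place over `p`** (`p` odd). -/
theorem selar_inertia_cyclo (p : ℕ) [Fact p.Prime] (hp2 : p ≠ 2)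
    (A : ValuationSubring (AlgebraicClosure ℚ)) (hA : A.LiesOverPrime p)
    {ζ : AlgebraicClosure ℚ} (hζ : IsPrimitiveRoot ζ p) :
    ∃ σ ∈ A.inertiaSubgroupIn ℚ, σ ζ = ζ ^ 2 := by
  have hp : p.Prime := Fact.out
  haveI : NeZero p := ⟨hp.ne_zero⟩
  haveI : NeZero (p : AlgebraicClosure ℚ) := ⟨Nat.cast_ne_zero.mpr hp.ne_zero⟩
  obtain ⟨σ, hσ⟩ := lglob1_exists_cycloChar_eq_two p hp2
  have h2p : 2 < p := lt_of_le_of_ne hp.two_le (Ne.symm hp2)
  have hspec : ∀ τ : AlgebraicClosure ℚ ≃ₐ[ℚ] AlgebraicClosure ℚ,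
      τ ζ = ζ ^ ((cycloChar p τ : (ZMod p)ˣ) : ZMod p).val := by
    intro τ
    have h := modularCyclotomicCharacter.spec (AlgebraicClosure ℚ) (card_rootsOfUnity_eq_self p)
      (τ : AlgebraicClosure ℚ ≃+* AlgebraicClosure ℚ)
      (t := hζ.toRootsOfUnity) (SetLike.coe_mem hζ.toRootsOfUnity)
    simpa [cycloChar] using h
  have hval2 : (2 : ZMod p).val = 2 := by
    have : ((2 : ℕ) : ZMod p).val = 2 := ZMod.val_natCast_of_lt h2p
    simpa using this
  have hσζ : σ ζ = ζ ^ 2 := by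
    rw [hspec σ, hσ, hval2]
  -- `ζ` lies in the subring
  have h1 := scyc_sub_one_mem_nonunits p A hA hζ.pow_eq_one
  have hζA : ζ ∈ A := by
    have : ζ = 1 + (ζ - 1) := by ring
    rw [this]
    exact add_mem (one_mem _) (A.nonunits_le h1)
  have hζB : ζ ∈ scycRing A σ := by
    refine ⟨hζA, ?_⟩
    rw [hσζ]
    have e : ζ ^ 2 - ζ = ζ * (ζ - 1) := by ring
    rw [e, ValuationSubring.mem_nonunits_iff, map_mul]
    exact mul_lt_one_of_nonneg_of_lt_one_right
      ((A.valuation_le_one_iff _).mpr hζA) zero_le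
      ((A.mem_nonunits_iff).mp h1)
  -- the cyclotomic field
  haveI hnorm : Normal ℚ (AlgebraicClosure ℚ) := lglob1_qbar_normal
  haveI : Algebra.IsIntegral ℚ (AlgebraicClosure ℚ) := ⟨fun x => (hnorm.isAlgebraic x).isIntegral⟩
  haveI hcyc : IsCyclotomicExtension {p} ℚ (IntermediateField.adjoin ℚ {ζ}) :=
    hζ.intermediateField_adjoin_isCyclotomicExtension ℚ
  haveI : IsGalois ℚ (IntermediateField.adjoin ℚ {ζ}) :=
    IsCyclotomicExtension.isGalois {p} ℚ (IntermediateField.adjoin ℚ {ζ})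
  have hcong : ∀ x ∈ IntermediateField.adjoin ℚ {ζ}, IsIntegral ℤ x →
      σ x - x ∈ A.nonunits := by
    intro x hx hint
    let ζF : IntermediateField.adjoin ℚ {ζ} := ⟨ζ, IntermediateField.mem_adjoin_simple_self ℚ ζ⟩
    have hζF : IsPrimitiveRoot ζF p :=
      IsPrimitiveRoot.of_map_of_injective
        (f := algebraMap (IntermediateField.adjoin ℚ {ζ}) (AlgebraicClosure ℚ))
        (show IsPrimitiveRoot
          (algebraMap (IntermediateField.adjoin ℚ {ζ}) (AlgebraicClosure ℚ) ζF) p from hζ)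
        (algebraMap (IntermediateField.adjoin ℚ {ζ}) (AlgebraicClosure ℚ)).injective
    have hic := IsCyclotomicExtension.Rat.isIntegralClosure_adjoin_singleton_of_prime hζF
    have hintF : IsIntegral ℤ (⟨x, hx⟩ : IntermediateField.adjoin ℚ {ζ}) :=
      (isIntegral_algebraMap_iff
        (algebraMap (IntermediateField.adjoin ℚ {ζ}) (AlgebraicClosure ℚ)).injective).mp hint
    obtain ⟨y, hy⟩ := hic.isIntegral_iff.mp hintF
    have key : ∀ z ∈ Algebra.adjoin ℤ ({ζF} : Set (IntermediateField.adjoin ℚ {ζ})),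
        ((z : IntermediateField.adjoin ℚ {ζ}) : AlgebraicClosure ℚ) ∈ scycRing A σ := by
      intro z hz
      induction hz using Algebra.adjoin_induction with
      | mem z hz =>
        rw [Set.mem_singleton_iff] at hz
        subst hz
        exact hζB
      | algebraMap r =>
        have : ((algebraMap ℤ (IntermediateField.adjoin ℚ {ζ}) r :
            IntermediateField.adjoin ℚ {ζ}) : AlgebraicClosure ℚ) = (r : AlgebraicClosure ℚ) := by
          simp
        rw [this]
        exact scyc_intCast_mem _ _ r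
      | add a b _ _ ha hb =>
        have : ((a + b : IntermediateField.adjoin ℚ {ζ}) : AlgebraicClosure ℚ)
            = (a : AlgebraicClosure ℚ) + b := rfl
        rw [this]
        exact add_mem ha hb
      | mul a b _ _ ha hb =>
        have : ((a * b : IntermediateField.adjoin ℚ {ζ}) : AlgebraicClosure ℚ)
            = (a : AlgebraicClosure ℚ) * b := rfl
        rw [this]
        exact mul_mem ha hb
    have hxy : x = ((y : IntermediateField.adjoin ℚ {ζ}) : AlgebraicClosure ℚ) := by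
      have := congrArg (fun t : IntermediateField.adjoin ℚ {ζ} => (t : AlgebraicClosure ℚ)) hy
      exact this.symm
    rw [hxy]
    exact (key y y.2).2
  obtain ⟨σ', hσ'I, hσ'F⟩ := Fermat.Agent.Common.exists_mem_inertiaSubgroupIn_of_congr
    (IntermediateField.adjoin ℚ {ζ}) p hp A hA σ hcong
  refine ⟨σ', hσ'I, ?_⟩
  rw [hσ'F ζ (IntermediateField.mem_adjoin_simple_self ℚ ζ), hσζ]

/-- a multiplicative character on a subgroup sends multiples to powers -/
theorem selar_psi_nsmul {N : ℕ} [NeZero N] (W' : AddSubgroup (JZero N))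
    (ψ : JZero N → AlgebraicClosure ℚ)
    (hmul : ∀ u ∈ W', ∀ v ∈ W', ψ (u + v) = ψ u * ψ v) (h0 : ψ 0 = 1)
    {w : JZero N} (hw : w ∈ W') (n : ℕ) : ψ (n • w) = ψ w ^ n := by
  induction n with
  | zero => rw [zero_nsmul, pow_zero, h0]
  | succ n ih =>
    rw [succ_nsmul, hmul _ (W'.nsmul_mem hw n) _ hw, ih, pow_succ]

/-- **AR-4**: a step of type `μ_r` is connected (`r` odd). -/
theorem stmtSelArCycConn : StmtSelArCycConn := by
  intro N _ r k hr hr2 Ar hAr V1 hV1 W W' hstep hcyc hle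
  obtain ⟨ψ, hmul, h0, heq, hker⟩ := hcyc
  haveI : Fact r.Prime := ⟨hr⟩
  -- a point of `W'` outside `W`
  have hex : ∃ w' ∈ W', w' ∉ W := by
    by_contra h
    have h1 : W' ≤ W := fun w hw => by
      by_contra hw'
      exact h ⟨w, hw, hw'⟩
    have h2 : W.relIndex W' = 1 := AddSubgroup.relIndex_eq_one.2 h1
    rw [hstep.idx] at h2
    exact hr.one_lt.ne' h2
  obtain ⟨w', hw', hw'W⟩ := hex
  have hζ1 : ψ w' ≠ 1 := fun h => hw'W ((hker w' hw').1 h)
  have hrw : r • w' ∈ W := by
    have := selch_relIndex_nsmul_mem W W' hstep.le hw'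
    rwa [hstep.idx] at this
  have hζr : ψ w' ^ r = 1 := by
    rw [← selar_psi_nsmul W' ψ hmul h0 hw' r]
    exact (hker _ (W'.nsmul_mem hw' r)).2 hrw
  have hprim : IsPrimitiveRoot (ψ w') r := by
    have h := IsPrimitiveRoot.orderOf (ψ w')
    rwa [orderOf_eq_prime hζr hζ1] at h
  obtain ⟨σ, hσ, hσζ⟩ := selar_inertia_cyclo r hr2 Ar hAr hprim
  have hx' : σ • w' - w' ∈ W' := W'.sub_mem (hstep.stab' σ w' hw') hw'
  have hxW : σ • w' - w' ∈ W := hle ⟨hx', hV1 σ hσ w'⟩
  have h3 : ψ (σ • w') = ψ (σ • w' - w') * ψ w' := by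
    rw [← hmul _ hx' _ hw', sub_add_cancel]
  rw [(hker _ hx').2 hxW, one_mul, heq σ w' hw', hσζ] at h3
  -- `ζ ^ 2 = ζ ^ 1`
  have h5 : ψ w' ^ 2 = ψ w' ^ 1 := by rw [pow_one]; exact h3
  have h2r : 2 < r := lt_of_le_of_ne hr.two_le (Ne.symm hr2)
  have := hprim.pow_inj h2r hr.one_lt h5
  omega

end Fermat.Agent.S15
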