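import Fermat.Agent.S15.SelU

/-!
# S15 / SEL-U: the étale step

`r` an odd prime, `R = ℤ_(r)`, `A` a valuation ring of `ℚ̄` over `r`, `H` a Hopf lattice on the
finite group `M` which is reduction-continuous with respect to a subgroup `M1`
(`h t - h t' ∈ 𝔪_A` if `t - t' ∈ M1`; for the lattices of W1 this is `seljjRCStatement`).

* `selu_etale_step` : if `W, W' ≤ M`, `W'` is stable, `r • W' ⊂ W` and the Galois action is
  trivial on `W' / W` (`act σ t - t ∈ W` for `t ∈ W'`), then `W' ∩ M1 ⊂ W`.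

So a step of a composition series with trivial action is of étale type; equivalently a step of
connected type (`W' ∩ M1 ⊄ W`) has NON-trivial action (`r` odd).
-/

set_option autoImplicit false
set_option linter.unusedSectionVars false
set_option linter.unusedSimpArgs false
set_option linter.style.haveILetI false

namespace Fermat.Agent.S15

open Fermat.Agent.W1 GaloisRep

section EtaleStep

variable (r : ℕ) [Fact r.Prime] {M : Type} [AddCommGroup M]
  {act : (AlgebraicClosure ℚ ≃ₐ[ℚ] AlgebraicClosure ℚ) → M → M}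
  {H : Subalgebra (ratLocalizedAt r) (M → AlgebraicClosure ℚ)}

/-- **(ES)** A step with trivial Galois action is of étale type (`r` odd). -/
theorem selu_etale_step [Finite M] (hr3 : 3 ≤ r) (A : ValuationSubring (AlgebraicClosure ℚ))
    (hA : A.LiesOverPrime r) (hH : IsHopfLattice (ratLocalizedAt r) act H)
    (M1 : AddSubgroup M)
    (hRC : ∀ h ∈ H, ∀ t t' : M, t - t' ∈ M1 → h t - h t' ∈ A.nonunits)
    (W W' : AddSubgroup M)
    (hW' : ∀ σ, ∀ t ∈ W', act σ t ∈ W')
    (htriv : ∀ σ, ∀ t ∈ W', act σ t - t ∈ W)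
    (hrW : ∀ t ∈ W', r • t ∈ W) :
    ∀ t ∈ W', t ∈ M1 → t ∈ W := by
  intro t ht ht1
  by_contra htW
  -- the lattice on `W'`
  have hH' : IsHopfLattice (ratLocalizedAt r) (fun σ (v : W') => (⟨act σ v, hW' σ v v.2⟩ : W'))
      (H.map (pullFn (ratLocalizedAt r) W'.subtype)) :=
    sq_sub hH W'.subtype W'.subtype_injective (fun σ P => rfl)
  -- the quotient `W' / W`
  set N : AddSubgroup W' := W.addSubgroupOf W' with hN
  have hπ : Function.Surjective (QuotientAddGroup.mk' N) := QuotientAddGroup.mk'_surjective N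
  have hH'' : IsHopfLattice (ratLocalizedAt r) (fun _ (q : W' ⧸ N) => q)
      ((H.map (pullFn (ratLocalizedAt r) W'.subtype)).comap
        (pullFn (ratLocalizedAt r) (QuotientAddGroup.mk' N))) := by
    refine sq_quot hH' (QuotientAddGroup.mk' N) hπ (fun σ P => ?_)
    show QuotientAddGroup.mk' N ⟨act σ P, hW' σ P P.2⟩ = QuotientAddGroup.mk' N P
    rw [← sub_eq_zero, ← map_sub, QuotientAddGroup.mk'_apply, QuotientAddGroup.eq_zero_iff]
    show ((⟨act σ P, hW' σ P P.2⟩ - P : W') : M) ∈ W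
    rw [AddSubgroup.coe_sub]
    exact htriv σ P P.2
  -- the point
  have hx0 : QuotientAddGroup.mk' N ⟨t, ht⟩ ≠ 0 := by
    intro h0
    rw [QuotientAddGroup.mk'_apply, QuotientAddGroup.eq_zero_iff] at h0
    exact htW h0
  have hrx : r • QuotientAddGroup.mk' N ⟨t, ht⟩ = 0 := by
    rw [← map_nsmul, QuotientAddGroup.mk'_apply, QuotientAddGroup.eq_zero_iff]
    show ((r • (⟨t, ht⟩ : W') : W') : M) ∈ W
    rw [AddSubgroup.coe_nsmul]
    exact hrW t ht
  obtain ⟨h'', hh'', u, hu, hval⟩ :=
    selu_fontaine r hr3 hH'' (QuotientAddGroup.mk' N ⟨t, ht⟩) (fun σ => rfl) hx0 hrx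
  obtain ⟨h, hh, e⟩ := hh''
  have e1 : h t = h'' (QuotientAddGroup.mk' N ⟨t, ht⟩) := congrFun e ⟨t, ht⟩
  have e0 : h 0 = h'' 0 := by
    have := congrFun e 0
    simpa using this
  have hnon := hRC h hh t 0 (by simpa using ht1)
  rw [e1, e0, hval] at hnon
  exact selu_unit_not_mem_nonunits r A hA hu hnon

end EtaleStep

end Fermat.Agent.S15
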