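import Fermat.Agent.S15.SelPlan
import Fermat.Agent.S15.SelES
import Fermat.Agent.S15.SelJJPkg

/-!
# S15 / SELMER / AR-3: a step with trivial Galois action is étale (`r` odd)

`stmtSelArTrivEt : StmtSelArTrivEt` (`SelPlan.lean`): for a step `W ≤ W'` of index `r` inside
`J₀(N)[r^k]` on which `G_ℚ` acts trivially (modulo `W`), `W' ∩ V1 ≤ W`, where `V1` is the kernel
of reduction of a local package `SelLocR N r Ar V1`.

Proof: `selu_etale_step` (SEL-ES, Fontaine's lemma) on `M := 𝕁_0[r^k]`, with the lattice of the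
local package for `y = 0`, and `W, W', V1` transported by `ι : J → 𝕁_0`.
-/

set_option autoImplicit false
set_option linter.style.haveILetI false
set_option synthInstance.maxHeartbeats 400000
set_option maxHeartbeats 1600000

noncomputable section

namespace Fermat.Agent.S15

open ModularCurve AlgebraicCurve
open Fermat.Agent.S24 Fermat.Agent.W1

/-- **AR-3**: a step with trivial action is étale (`r` odd). -/
theorem stmtSelArTrivEt : StmtSelArTrivEt := by
  intro N _ r k _hN hr _hrN hr2 Ar hAr V1 hV1 W W' hstep htriv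
  haveI : Fact r.Prime := ⟨hr⟩
  have hr3 : 3 ≤ r := by
    have := hr.two_le
    omega
  have hy0' : ∀ σ : GalQ, σ • (0 : JZero N) = 0 := fun σ => smul_zero (A := JZero N) σ
  haveI hy0 : Fact (∀ σ : GalQ, σ • (0 : JZero N) = 0) := ⟨hy0'⟩
  obtain ⟨H, hH, hRC⟩ := hV1.lattice 0 k
  have hn : 0 < r ^ k := pow_pos hr.pos k
  haveI : Finite (Submodule.torsionBy ℤ (SeljjJ (JZero N) 0 (r ^ k)) ((r ^ k : ℕ) : ℤ)) :=
    seljj_finite_torsion 0 (r ^ k) hn (seljjpkg_finite N r hr.ne_zero k)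
  -- the transported subgroups
  let sub : Submodule.torsionBy ℤ (SeljjJ (JZero N) 0 (r ^ k)) ((r ^ k : ℕ) : ℤ) →+
      SeljjJ (JZero N) 0 (r ^ k) :=
    (Submodule.torsionBy ℤ (SeljjJ (JZero N) 0 (r ^ k)) ((r ^ k : ℕ) : ℤ)).subtype.toAddMonoidHom
  have hsub : ∀ t, sub t = (t : SeljjJ (JZero N) 0 (r ^ k)) := fun _ => rfl
  have key := selu_etale_step r hr3 Ar hAr hH ((V1.map (seljjIota (JZero N) 0 (r ^ k))).comap sub)
    (fun h hh t t' htt => hRC h hh t t' (by
      rw [AddSubgroup.mem_comap, map_sub, hsub, hsub] at htt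
      exact htt))
    ((W.map (seljjIota (JZero N) 0 (r ^ k))).comap sub)
    ((W'.map (seljjIota (JZero N) 0 (r ^ k))).comap sub) ?_ ?_ ?_
  · -- conclusion
    intro w hw
    obtain ⟨hw', hw1⟩ := hw
    have hwt : seljjIota (JZero N) 0 (r ^ k) w ∈
        Submodule.torsionBy ℤ (SeljjJ (JZero N) 0 (r ^ k)) ((r ^ k : ℕ) : ℤ) := by
      rw [Submodule.mem_torsionBy_iff, ← map_zsmul, natCast_zsmul, hstep.tors w hw', map_zero]
    have h1 := key ⟨_, hwt⟩ ⟨w, hw', rfl⟩ ⟨w, hw1, rfl⟩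
    obtain ⟨w0, hw0, e⟩ := h1
    have e' : w0 = w := seljjIota_injective (JZero N) 0 (r ^ k) hn e
    rw [← e']
    exact hw0
  · -- `W'` is stable
    rintro σ t ⟨w, hw, e⟩
    refine ⟨σ • w, hstep.stab' σ w hw, ?_⟩
    show seljjIota (JZero N) 0 (r ^ k) (σ • w) = σ • (t : SeljjJ (JZero N) 0 (r ^ k))
    rw [← seljj_smul_iota, e]
    rfl
  · -- trivial action modulo `W`
    rintro σ t ⟨w, hw, e⟩
    refine ⟨σ • w - w, htriv σ w hw, ?_⟩
    show seljjIota (JZero N) 0 (r ^ k) (σ • w - w) =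
      σ • (t : SeljjJ (JZero N) 0 (r ^ k)) - (t : SeljjJ (JZero N) 0 (r ^ k))
    rw [map_sub, ← seljj_smul_iota, e]
    rfl
  · -- `r • W' ≤ W`
    rintro t ⟨w, hw, e⟩
    have h1 : r • w ∈ W := by
      have := selch_relIndex_nsmul_mem W W' hstep.le hw
      rwa [hstep.idx] at this
    refine ⟨r • w, h1, ?_⟩
    show seljjIota (JZero N) 0 (r ^ k) (r • w) = r • (t : SeljjJ (JZero N) 0 (r ^ k))
    rw [map_nsmul, e]
    rfl

end Fermat.Agent.S15
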