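import Fermat.Agent.S15.SelStep

/-!
# S15 / SELMER block: the descent with TWO local conditions (pure algebra)

For the descent prime `r = 2` the count `#(G_k ∩ V¹) ≤ #(G_k ∩ 𝒥)` (ordinarity at `2`) is replaced
by an archimedean local condition.  `P` is the local condition at the level (`P = selIF N AN`),
`Q` the points fixed by a complex conjugation.  For a `G`-stable `W` put

  `Y(W) := selY G P W ⊓ selY G Q W = { j | j ∈ P + W ∧ j ∈ Q + W ∧ ∀ σ, σ j − j ∈ W }`.

Along a chain `W 0 = ⊥ ≤ … ≤ W L` with steps of prime index `r` on which `G` acts trivially, and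
such that the cocycles of the points of `Y(W (i+1))` vanish modulo `W i`:

* `c i = 1` if the step jumps for `P` or for `Q`, `c i ≤ r` in general;
* `k i = r` if the step jumps for `P` and for `Q`;
* hence `∏ c i ≤ r ^ a * ∏ k i` as soon as `#(W L) ≤ r ^ a * #(W L ∩ P) * #(W L ∩ Q)`.

* `seltwo_main` : `r ^ (t + a) • Y(W L) ≤ Y(⊥) + W L`;
* `seltwo_triv_of_two` : for `r = 2` the action on the steps is trivial;
* `seltwo_glue` : (F5) for two conditions;
* `seltwo_conj_div` : the archimedean divisibility is free.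
-/

set_option autoImplicit false

namespace Fermat.Agent.S15

open AddSubgroup

variable {J : Type*} [AddCommGroup J]

section Two

variable (G : Type*) [Group G] [DistribMulAction G J]

/-- `Y(W)` for two local conditions -/
def selY2 (P Q W : AddSubgroup J) : AddSubgroup J := selY G P W ⊓ selY G Q W

variable {G}

theorem mem_selY2 {P Q W : AddSubgroup J} {j : J} :
    j ∈ selY2 G P Q W ↔ j ∈ P ⊔ W ∧ j ∈ Q ⊔ W ∧ ∀ σ : G, σ • j - j ∈ W := by
  rw [selY2, AddSubgroup.mem_inf, mem_selY, mem_selY]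
  constructor
  · rintro ⟨⟨h1, h2⟩, h3, -⟩
    exact ⟨h1, h3, h2⟩
  · rintro ⟨h1, h2, h3⟩
    exact ⟨⟨h1, h3⟩, h2, h3⟩

theorem le_selY2 {P Q W : AddSubgroup J} (hW : ∀ σ : G, ∀ w ∈ W, σ • w ∈ W) :
    W ≤ selY2 G P Q W :=
  le_inf (le_selY hW) (le_selY hW)

theorem selY2_mono {P Q W W' : AddSubgroup J} (h : W ≤ W') :
    selY2 G P Q W ≤ selY2 G P Q W' :=
  inf_le_inf (selY_mono h) (selY_mono h)

theorem mem_selY2_bot {P Q : AddSubgroup J} {j : J} :
    j ∈ selY2 G P Q ⊥ ↔ j ∈ P ∧ j ∈ Q ∧ ∀ σ : G, σ • j = j := by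
  rw [selY2, AddSubgroup.mem_inf, mem_selY_bot, mem_selY_bot]
  constructor
  · rintro ⟨⟨h1, h2⟩, h3, -⟩
    exact ⟨h1, h3, h2⟩
  · rintro ⟨h1, h2, h3⟩
    exact ⟨⟨h1, h3⟩, h2, h3⟩

theorem selY2_nsmul_mem {P Q W W' : AddSubgroup J} {r : ℕ} (hr : ∀ w ∈ W', r • w ∈ W)
    {j : J} (hj : j ∈ selY2 G P Q W') : r • j ∈ selY2 G P Q W :=
  ⟨selY_nsmul_mem hr hj.1, selY_nsmul_mem hr hj.2⟩

/-- a point of `Y(W')` whose cocycle vanishes modulo `W`, in a step on which `G` acts trivially,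
lies in `Y(W) + W'` if the step jumps for `P`. -/
theorem seltwo_mem_of_fin (P Q W W' : AddSubgroup J)
    (htriv : ∀ σ : G, ∀ w ∈ W', σ • w - w ∈ W) (hfin : W' ≤ P ⊔ W) {j : J}
    (hj : j ∈ selY2 G P Q W') (hvan : ∀ σ : G, σ • j - j ∈ W) :
    j ∈ selY2 G P Q W ⊔ W' := by
  obtain ⟨hP, hQ, -⟩ := mem_selY2.1 hj
  obtain ⟨q, hq, w', hw', rfl⟩ := AddSubgroup.mem_sup.1 hQ
  obtain ⟨p, hp, w, hw, hpw⟩ := AddSubgroup.mem_sup.1 hP
  refine AddSubgroup.mem_sup.2 ⟨q, mem_selY2.2 ⟨?_, ?_, ?_⟩, w', hw', rfl⟩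
  · -- `q = p + (w - w')`, and `w - w' ∈ W' ≤ P + W`
    have h1 : q = p + (w - w') := by
      have : q = (q + w') - w' := by abel
      rw [this, ← hpw]; abel
    rw [h1]
    obtain ⟨p', hp', u, hu, hpu⟩ := AddSubgroup.mem_sup.1 (hfin (W'.sub_mem hw hw'))
    rw [← hpu, ← add_assoc]
    exact AddSubgroup.mem_sup.2 ⟨p + p', P.add_mem hp hp', u, hu, rfl⟩
  · exact (le_sup_left : Q ≤ Q ⊔ W) hq
  · intro σ
    have h1 : σ • q - q = (σ • (q + w') - (q + w')) - (σ • w' - w') := by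
      rw [smul_add]; abel
    rw [h1]
    exact W.sub_mem (hvan σ) (htriv σ w' hw')

/-- the two conditions are symmetric -/
theorem selY2_comm (P Q W : AddSubgroup J) : selY2 G P Q W = selY2 G Q P W := inf_comm _ _

/-- **the cokernel is trivial** if the step jumps for `P` -/
theorem seltwo_c_eq_one (P Q W W' : AddSubgroup J)
    (htriv : ∀ σ : G, ∀ w ∈ W', σ • w - w ∈ W) (hfin : W' ≤ P ⊔ W)
    (hvan : ∀ j ∈ selY2 G P Q W', ∀ σ : G, σ • j - j ∈ W) :
    (selY2 G P Q W ⊔ W').relIndex (selY2 G P Q W') = 1 := by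
  rw [AddSubgroup.relIndex_eq_one]
  intro j hj
  exact seltwo_mem_of_fin P Q W W' htriv hfin hj (hvan j hj)

/-- **the cokernel has at most `[W' : W]` elements** in any step with trivial action and
vanishing cocycles. -/
theorem seltwo_c_le (P Q W W' : AddSubgroup J)
    (hidx : W.relIndex W' ≠ 0)
    (htriv : ∀ σ : G, ∀ w ∈ W', σ • w - w ∈ W)
    (hvan : ∀ j ∈ selY2 G P Q W', ∀ σ : G, σ • j - j ∈ W) :
    (selY2 G P Q W ⊔ W').relIndex (selY2 G P Q W') ≠ 0 ∧
      (selY2 G P Q W ⊔ W').relIndex (selY2 G P Q W') ≤ W.relIndex W' := by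
  classical
  have : Finite (↥W' ⧸ W.addSubgroupOf W') := by
    have h1 : (W.addSubgroupOf W').index ≠ 0 := hidx
    have : (W.addSubgroupOf W').FiniteIndex := ⟨h1⟩
    exact AddSubgroup.finite_quotient_of_finiteIndex
  -- the decompositions
  have hdec : ∀ j : J, ∃ d : J × J, j ∈ selY2 G P Q W' →
      (d.1 ∈ W' ∧ j - d.1 ∈ P) ∧ (d.2 ∈ W' ∧ j - d.2 ∈ Q) := by
    intro j
    by_cases hj : j ∈ selY2 G P Q W'
    · obtain ⟨hP, hQ, -⟩ := mem_selY2.1 hj
      obtain ⟨p, hp, w, hw, rfl⟩ := AddSubgroup.mem_sup.1 hP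
      obtain ⟨q, hq, w', hw', hqw⟩ := AddSubgroup.mem_sup.1 hQ
      refine ⟨(w, w'), fun _ => ⟨⟨hw, ?_⟩, hw', ?_⟩⟩
      · have : p + w - w = p := by abel
        show p + w - w ∈ P
        rw [this]; exact hp
      · have : p + w - w' = q := by rw [← hqw]; abel
        show p + w - w' ∈ Q
        rw [this]; exact hq
    · exact ⟨(0, 0), fun h => absurd h hj⟩
  choose d hd using hdec
  -- the map to `W' / W`
  let τ : J → (↥W' ⧸ W.addSubgroupOf W') := fun j =>
    if h : j ∈ selY2 G P Q W' then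
      QuotientAddGroup.mk (⟨(d j).1 - (d j).2,
        W'.sub_mem (hd j h).1.1 (hd j h).2.1⟩ : ↥W')
    else 0
  have hsep := selst_relIndex_le_card (selY2 G P Q W ⊔ W') (selY2 G P Q W') τ ?_
  · refine ⟨hsep.1, hsep.2.trans ?_⟩
    rw [AddSubgroup.relIndex, AddSubgroup.index_eq_card]
  · intro a ha b hb hab
    simp only [τ, dif_pos ha, dif_pos hb] at hab
    rw [QuotientAddGroup.eq, AddSubgroup.mem_addSubgroupOf] at hab
    -- `u := w_a - w_b`, `u' := w'_a - w'_b`, `u - u' ∈ W`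
    obtain ⟨⟨ha1, ha2⟩, ha3, ha4⟩ := hd a ha
    obtain ⟨⟨hb1, hb2⟩, hb3, hb4⟩ := hd b hb
    have hu : (d a).1 - (d b).1 - ((d a).2 - (d b).2) ∈ W := by
      have h1 : (d a).1 - (d b).1 - ((d a).2 - (d b).2)
          = -(-((d a).1 - (d a).2) + ((d b).1 - (d b).2)) := by abel
      rw [h1]
      exact W.neg_mem (by simpa using hab)
    refine AddSubgroup.mem_sup.2 ⟨a - b - ((d a).1 - (d b).1), mem_selY2.2 ⟨?_, ?_, ?_⟩,
      (d a).1 - (d b).1, W'.sub_mem ha1 hb1, by abel⟩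
    · have h1 : a - b - ((d a).1 - (d b).1) = (a - (d a).1) - (b - (d b).1) := by abel
      rw [h1]
      exact (le_sup_left : P ≤ P ⊔ W) (P.sub_mem ha2 hb2)
    · have h1 : a - b - ((d a).1 - (d b).1)
          = ((a - (d a).2) - (b - (d b).2)) + -((d a).1 - (d b).1 - ((d a).2 - (d b).2)) := by
        abel
      rw [h1]
      exact AddSubgroup.mem_sup.2 ⟨_, Q.sub_mem ha4 hb4, _, W.neg_mem hu, rfl⟩
    · intro σ
      have h1 : σ • (a - b - ((d a).1 - (d b).1)) - (a - b - ((d a).1 - (d b).1))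
          = (σ • a - a) - (σ • b - b) - ((σ • (d a).1 - (d a).1) - (σ • (d b).1 - (d b).1)) := by
        simp only [smul_sub]; abel
      rw [h1]
      exact W.sub_mem (W.sub_mem (hvan a ha σ) (hvan b hb σ))
        (W.sub_mem (htriv σ _ ha1) (htriv σ _ hb1))

/-- **the kernel is everything** if the step jumps for `P` and for `Q` -/
theorem seltwo_k_eq (P Q W W' : AddSubgroup J)
    (htriv : ∀ σ : G, ∀ w ∈ W', σ • w - w ∈ W) (hfinP : W' ≤ P ⊔ W) (hfinQ : W' ≤ Q ⊔ W) :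
    W.relIndex (selY2 G P Q W ⊓ W') = W.relIndex W' := by
  have : selY2 G P Q W ⊓ W' = W' := by
    apply le_antisymm inf_le_right
    intro w hw
    exact ⟨mem_selY2.2 ⟨hfinP hw, hfinQ hw, fun σ => htriv σ w hw⟩, hw⟩
  rw [this]

end Two

/-! ## The main theorem for two conditions -/

section Main

variable {G : Type*} [Group G] [DistribMulAction G J]

/-- `∏ (if i ∈ B then r else 1) = r ^ #B` -/
theorem seltwo_prod_ite (r L : ℕ) (B : Finset ℕ) (hB : B ⊆ Finset.range L) :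
    ∏ i ∈ Finset.range L, (if i ∈ B then r else 1) = r ^ B.card := by
  classical
  rw [Finset.prod_ite, Finset.prod_const_one, mul_one, Finset.prod_const]
  congr 2
  ext i
  rw [Finset.mem_filter]
  exact ⟨fun h => h.2, fun h => ⟨hB h, h⟩⟩

/-- the order of the last term of a chain with steps of index `r` -/
theorem seltwo_card_top {r : ℕ} (hr : r.Prime) (W : ℕ → AddSubgroup J) (L : ℕ)
    (hW0 : W 0 = ⊥) (hW : ∀ i < L, W i ≤ W (i + 1))
    (hidx : ∀ i < L, (W i).relIndex (W (i + 1)) = r) : Nat.card ↥(W L) = r ^ L := by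
  classical
  have h1 := selst_card_jumps hr W ⊤ L hW0 hW hidx
  have h2 : selstJumps W ⊤ L = Finset.range L := by
    ext i
    rw [mem_selstJumps, Finset.mem_range]
    constructor
    · exact fun h => h.1
    · intro hi
      refine ⟨hi, fun h => ?_⟩
      rw [inf_top_eq] at h
      have h3 : (W i).relIndex (W (i + 1)) = 1 := AddSubgroup.relIndex_eq_one.2 h
      rw [hidx i hi] at h3
      exact hr.one_lt.ne' h3
  rw [h2, Finset.card_range, inf_top_eq] at h1
  exact h1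

/-- **the descent with two local conditions.**  `W 0 = ⊥ ≤ … ≤ W L` a chain of `G`-stable finite
subgroups with steps of prime index `r` on which `G` acts trivially; `P`, `Q` two local
conditions.  If the cocycles of the points of `Y(W (i+1))` vanish modulo `W i`,
`#(W L) ≤ r ^ a * #(W L ∩ P) * #(W L ∩ Q)` and `#(Y(⊥) ∩ W L) ≤ r ^ t`, then
`r ^ (t + a) • Y(W L) ≤ Y(⊥) + W L`. -/
theorem seltwo_main {r : ℕ} (hr : r.Prime) (P Q : AddSubgroup J) (W : ℕ → AddSubgroup J)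
    (L t a : ℕ) (hW0 : W 0 = ⊥) (hW : ∀ i < L, W i ≤ W (i + 1))
    (hWG : ∀ i ≤ L, ∀ σ : G, ∀ w ∈ W i, σ • w ∈ W i)
    (hfin : ∀ i ≤ L, Finite ↥(W i))
    (hidx : ∀ i < L, (W i).relIndex (W (i + 1)) = r)
    (htriv : ∀ i < L, ∀ σ : G, ∀ w ∈ W (i + 1), σ • w - w ∈ W i)
    (hvan : ∀ i < L, ∀ j ∈ selY2 G P Q (W (i + 1)), ∀ σ : G, σ • j - j ∈ W i)
    (hcnt : Nat.card ↥(W L) ≤ r ^ a * (Nat.card ↥(W L ⊓ P) * Nat.card ↥(W L ⊓ Q)))
    (ht : Nat.card ↥(selY2 G P Q ⊥ ⊓ W L) ≤ r ^ t)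
    {j : J} (hj : j ∈ selY2 G P Q (W L)) : r ^ (t + a) • j ∈ selY2 G P Q ⊥ ⊔ W L := by
  classical
  set Y : ℕ → AddSubgroup J := fun i => selY2 G P Q (W i) with hY
  have hrW : ∀ i < L, ∀ w ∈ W (i + 1), r • w ∈ W i := by
    intro i hi w hw
    have := selch_relIndex_nsmul_mem (W i) (W (i + 1)) (hW i hi) hw
    rwa [hidx i hi] at this
  have hYmono : ∀ i < L, Y i ≤ Y (i + 1) := fun i hi => selY2_mono (hW i hi)
  have hWY : ∀ i ≤ L, W i ≤ Y i := fun i hi => le_selY2 (hWG i hi)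
  have hid := selch_identity W Y L hW0 hW hYmono hWY hfin
  have hY0 : Y 0 = selY2 G P Q ⊥ := by rw [hY]; simp only [hW0]
  rw [hY0] at hid
  -- the steps
  set A : Finset ℕ := selstJumps W P L with hA
  set B : Finset ℕ := selstJumps W Q L with hB
  have hAL : A ⊆ Finset.range L := fun i hi => Finset.mem_range.2 (mem_selstJumps.1 hi).1
  have hBL : B ⊆ Finset.range L := fun i hi => Finset.mem_range.2 (mem_selstJumps.1 hi).1
  have hfinP : ∀ i ∈ A, W (i + 1) ≤ P ⊔ W i := fun i hi =>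
    (selst_fin_iff hr P (W i) (W (i + 1)) (hW i (mem_selstJumps.1 hi).1)
      (hidx i (mem_selstJumps.1 hi).1)).1 (mem_selstJumps.1 hi).2
  have hfinQ : ∀ i ∈ B, W (i + 1) ≤ Q ⊔ W i := fun i hi =>
    (selst_fin_iff hr Q (W i) (W (i + 1)) (hW i (mem_selstJumps.1 hi).1)
      (hidx i (mem_selstJumps.1 hi).1)).1 (mem_selstJumps.1 hi).2
  have hcle : ∀ i < L, selchC W Y i ≠ 0 ∧ selchC W Y i ≤ r := by
    intro i hi
    have h := seltwo_c_le P Q (W i) (W (i + 1)) (by rw [hidx i hi]; exact hr.ne_zero)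
      (htriv i hi) (hvan i hi)
    rw [hidx i hi] at h
    exact h
  have hcone : ∀ i ∈ A ∪ B, selchC W Y i = 1 := by
    intro i hi
    rcases Finset.mem_union.1 hi with h | h
    · exact seltwo_c_eq_one P Q (W i) (W (i + 1)) (htriv i (mem_selstJumps.1 h).1) (hfinP i h)
        (hvan i (mem_selstJumps.1 h).1)
    · have h1 := seltwo_c_eq_one Q P (W i) (W (i + 1)) (htriv i (mem_selstJumps.1 h).1)
        (hfinQ i h) (by
          intro j hj
          rw [selY2_comm] at hj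
          exact hvan i (mem_selstJumps.1 h).1 j hj)
      rw [selY2_comm Q P, selY2_comm Q P] at h1
      exact h1
  have hkpos : ∀ i < L, 0 < selchK W Y i := fun i hi =>
    selchK_pos W Y i (hWY i hi.le) (hW i hi) (hfin (i + 1) hi)
  have hkr : ∀ i ∈ A ∩ B, selchK W Y i = r := by
    intro i hi
    obtain ⟨h1, h2⟩ := Finset.mem_inter.1 hi
    have := seltwo_k_eq P Q (W i) (W (i + 1)) (htriv i (mem_selstJumps.1 h1).1)
      (hfinP i h1) (hfinQ i h2)
    rw [hidx i (mem_selstJumps.1 h1).1] at this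
    exact this
  -- the products
  have hp1 : (∏ i ∈ Finset.range L, selchC W Y i) * r ^ (A ∪ B).card ≤ r ^ L := by
    rw [← seltwo_prod_ite r L (A ∪ B) (Finset.union_subset hAL hBL), ← Finset.prod_mul_distrib]
    calc ∏ i ∈ Finset.range L, selchC W Y i * (if i ∈ A ∪ B then r else 1)
        ≤ ∏ _i ∈ Finset.range L, r := by
          refine Finset.prod_le_prod (fun i _ => Nat.zero_le _) (fun i hi => ?_)
          by_cases h : i ∈ A ∪ B
          · rw [if_pos h, hcone i h, one_mul]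
          · rw [if_neg h, mul_one]
            exact (hcle i (Finset.mem_range.1 hi)).2
      _ = r ^ L := by rw [Finset.prod_const, Finset.card_range]
  have hp2 : r ^ (A ∩ B).card ≤ ∏ i ∈ Finset.range L, selchK W Y i := by
    rw [← seltwo_prod_ite r L (A ∩ B) (Finset.inter_subset_left.trans hAL)]
    refine Finset.prod_le_prod (fun i _ => Nat.zero_le _) (fun i hi => ?_)
    by_cases h : i ∈ A ∩ B
    · rw [if_pos h, hkr i h]
    · rw [if_neg h]
      exact hkpos i (Finset.mem_range.1 hi)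
  have hL : L ≤ a + A.card + B.card := by
    rw [seltwo_card_top hr W L hW0 hW hidx, selst_card_jumps hr W P L hW0 hW hidx,
      selst_card_jumps hr W Q L hW0 hW hidx, ← pow_add, ← pow_add] at hcnt
    have h1 := (Nat.pow_le_pow_iff_right hr.one_lt).1 hcnt
    exact h1.trans (le_of_eq (by rw [hA, hB, add_assoc]))
  have hcard := Finset.card_union_add_card_inter A B
  have hprod : ∏ i ∈ Finset.range L, selchC W Y i
      ≤ r ^ a * ∏ i ∈ Finset.range L, selchK W Y i := by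
    have h1 : (∏ i ∈ Finset.range L, selchC W Y i) * r ^ (A ∪ B).card
        ≤ (r ^ a * ∏ i ∈ Finset.range L, selchK W Y i) * r ^ (A ∪ B).card :=
      calc (∏ i ∈ Finset.range L, selchC W Y i) * r ^ (A ∪ B).card
          ≤ r ^ L := hp1
        _ ≤ r ^ (a + (A ∪ B).card + (A ∩ B).card) :=
            Nat.pow_le_pow_right hr.pos (by omega)
        _ = (r ^ a * r ^ (A ∩ B).card) * r ^ (A ∪ B).card := by
            rw [pow_add, pow_add]; ring
        _ ≤ (r ^ a * ∏ i ∈ Finset.range L, selchK W Y i) * r ^ (A ∪ B).card :=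
            Nat.mul_le_mul_right _ (Nat.mul_le_mul_left _ hp2)
    exact Nat.le_of_mul_le_mul_right h1 (Nat.pow_pos hr.pos)
  -- the index
  have hKpos : 0 < ∏ i ∈ Finset.range L, selchK W Y i :=
    Finset.prod_pos (fun i hi => hkpos i (Finset.mem_range.1 hi))
  have hCpos : 0 < ∏ i ∈ Finset.range L, selchC W Y i :=
    Finset.prod_pos (fun i hi => Nat.pos_of_ne_zero (hcle i (Finset.mem_range.1 hi)).1)
  have : Finite ↥(W L) := hfin L le_rfl
  have : Finite ↥(selY2 G P Q ⊥ ⊓ W L) :=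
    Finite.of_injective (fun x : ↥(selY2 G P Q ⊥ ⊓ W L) => (⟨x.1, x.2.2⟩ : ↥(W L)))
      (fun a b h => Subtype.ext (congrArg (fun y : ↥(W L) => (y : J)) h))
  have hpos : 0 < Nat.card ↥(selY2 G P Q ⊥ ⊓ W L) := Nat.card_pos
  have hidx0 : (selY2 G P Q ⊥ ⊔ W L).relIndex (Y L) ≠ 0 := by
    intro h0
    rw [h0, zero_mul] at hid
    exact (Nat.mul_pos hpos hCpos).ne' hid.symm
  have hidxle : (selY2 G P Q ⊥ ⊔ W L).relIndex (Y L) ≤ r ^ (t + a) := by
    have h1 : (selY2 G P Q ⊥ ⊔ W L).relIndex (Y L) * ∏ i ∈ Finset.range L, selchK W Y i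
        ≤ r ^ (t + a) * ∏ i ∈ Finset.range L, selchK W Y i :=
      calc (selY2 G P Q ⊥ ⊔ W L).relIndex (Y L) * ∏ i ∈ Finset.range L, selchK W Y i
          = Nat.card ↥(selY2 G P Q ⊥ ⊓ W L) * ∏ i ∈ Finset.range L, selchC W Y i := hid
        _ ≤ r ^ t * (r ^ a * ∏ i ∈ Finset.range L, selchK W Y i) :=
            Nat.mul_le_mul ht hprod
        _ = r ^ (t + a) * ∏ i ∈ Finset.range L, selchK W Y i := by rw [pow_add]; ring
    exact Nat.le_of_mul_le_mul_right h1 hKpos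
  -- the exponent
  have hle : selY2 G P Q ⊥ ⊔ W L ≤ Y L :=
    sup_le (selY2_mono bot_le) (hWY L le_rfl)
  have hLk : ∀ n ≤ L, ∀ x ∈ Y n, r ^ n • x ∈ selY2 G P Q ⊥ := by
    intro n
    induction n with
    | zero =>
      intro _ x hx
      rw [pow_zero, one_smul]
      rwa [hY0] at hx
    | succ n ih =>
      intro hn x hx
      rw [pow_succ, mul_smul]
      exact ih (Nat.le_of_succ_le hn) _ (selY2_nsmul_mem (hrW n (Nat.lt_of_succ_le hn)) hx)
  exact selch_kills hr _ _ hle L (t + a)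
    (fun x hx => (le_sup_left : selY2 G P Q ⊥ ≤ selY2 G P Q ⊥ ⊔ W L) (hLk L le_rfl x hx))
    hidx0 hidxle hj

/-- for `r = 2` the group acts trivially on every step -/
theorem seltwo_triv_of_two (W W' : AddSubgroup J)
    (hW : ∀ σ : G, ∀ w ∈ W, σ • w ∈ W) (hW' : ∀ σ : G, ∀ w ∈ W', σ • w ∈ W')
    (hidx : W.relIndex W' = 2) (σ : G) {w : J} (hw : w ∈ W') : σ • w - w ∈ W := by
  by_cases h : w ∈ W
  · exact W.sub_mem (hW σ w h) h
  · -- `σ w ∉ W`, and two elements of `W' \ W` differ by an element of `W`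
    have h1 : σ • w ∉ W := by
      intro h2
      have := hW σ⁻¹ _ h2
      rw [inv_smul_smul] at this
      exact h this
    have h2 : (W.addSubgroupOf W').index = 2 := hidx
    have h3 := (AddSubgroup.index_eq_two_iff (H := W.addSubgroupOf W')).1 h2
    obtain ⟨a, ha⟩ := h3
    have hx := ha (⟨w, hw⟩ : ↥W')
    have hy := ha (⟨σ • w, hW' σ w hw⟩ : ↥W')
    simp only [AddSubgroup.mem_addSubgroupOf, AddSubgroup.coe_add] at hx hy
    have hx' : (w + (a : J)) ∈ W := by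
      rcases hx with ⟨hx1, -⟩ | ⟨hx1, -⟩
      · exact hx1
      · exact absurd hx1 h
    have hy' : (σ • w + (a : J)) ∈ W := by
      rcases hy with ⟨hy1, -⟩ | ⟨hy1, -⟩
      · exact hy1
      · exact absurd hy1 h1
    have : σ • w - w = (σ • w + (a : J)) - (w + (a : J)) := by abel
    rw [this]
    exact W.sub_mem hy' hx'

end Main

/-! ## The glue (F5) for two conditions -/

section Glue2

variable {G : Type*} [Group G] [DistribMulAction G J]

/-- the archimedean divisibility is free: if `r ^ k • R' = w` and `c` is an involution which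
fixes `w`, then `R := 2 • R' + (c • R' - R')` is fixed by `c` and `r ^ k • R = 2 • w`. -/
theorem seltwo_conj_div (c : G) (hc : c * c = 1) {r k : ℕ} {w R' : J} (hw : c • w = w)
    (hR' : r ^ k • R' = w) :
    c • (2 • R' + (c • R' - R')) = 2 • R' + (c • R' - R') ∧
      r ^ k • (2 • R' + (c • R' - R')) = 2 • w := by
  have h1 : c • c • R' = R' := by rw [← mul_smul, hc, one_smul]
  constructor
  · rw [smul_add, smul_sub, h1, smul_comm c 2 R', two_nsmul, two_nsmul]
    abel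
  · rw [smul_add, smul_sub, smul_comm (r ^ k) 2 R', smul_comm (r ^ k) c R', hR', hw, sub_self,
      add_zero]

/-- **(F5) for two conditions**: `R₁ ∈ P` with `r ^ k • R₁ = w` and `R₂ ∈ Q` with
`r ^ k • R₂ = d • w`. -/
theorem seltwo_glue {r k t d : ℕ} (P Q Gk : AddSubgroup J) (E : J →+ J)
    (hEG : ∀ (σ : G) (x : J), E (σ • x) = σ • E x) (hEP : ∀ x ∈ P, E x ∈ P)
    (hEQ : ∀ x ∈ Q, E x ∈ Q)
    (hEV : ∀ x : J, r ^ k • x = 0 → E x ∈ Gk) (hGk : ∀ x ∈ Gk, r ^ k • x = 0)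
    (hbound : ∀ j ∈ selY2 G P Q Gk, r ^ t • j ∈ selY2 G P Q ⊥ ⊔ Gk)
    (w : J) (hw : ∀ σ : G, σ • w = w) (R₁ : J) (hR₁ : R₁ ∈ P) (hR₁w : r ^ k • R₁ = w)
    (R₂ : J) (hR₂ : R₂ ∈ Q) (hR₂w : r ^ k • R₂ = d • w) :
    ∃ m : J, (∀ σ : G, σ • m = m) ∧ r ^ t • (d • E w) = r ^ k • m := by
  have hER : E (d • R₁) ∈ selY2 G P Q Gk := by
    refine mem_selY2.2 ⟨(le_sup_left : P ≤ P ⊔ Gk) (hEP _ (P.nsmul_mem hR₁ d)), ?_, fun σ => ?_⟩
    · have h1 : E (d • R₁) = E R₂ + E (d • R₁ - R₂) := by rw [← map_add]; congr 1; abel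
      rw [h1]
      refine AddSubgroup.mem_sup.2 ⟨_, hEQ _ hR₂, _, hEV _ ?_, rfl⟩
      rw [smul_sub, smul_comm, hR₁w, hR₂w, sub_self]
    · have h1 : σ • E (d • R₁) - E (d • R₁) = E (σ • (d • R₁) - d • R₁) := by
        rw [map_sub, hEG]
      rw [h1]
      apply hEV
      rw [smul_sub, smul_comm (r ^ k) σ, smul_comm (r ^ k) d, hR₁w, smul_comm σ d w, hw,
        sub_self]
  obtain ⟨m, hm, g, hg, hmg⟩ := AddSubgroup.mem_sup.1 (hbound _ hER)
  obtain ⟨-, -, hmG⟩ := mem_selY2_bot.1 hm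
  refine ⟨m, hmG, ?_⟩
  have h2 : r ^ k • (r ^ t • E (d • R₁)) = r ^ k • m := by
    rw [← hmg, smul_add, hGk g hg, add_zero]
  rw [← hR₁w, map_nsmul, ← h2, map_nsmul]
  simp only [smul_comm (r ^ k) d, smul_comm (r ^ k) (r ^ t)]

end Glue2

end Fermat.Agent.S15
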