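import Fermat.Agent.S15.SelArConnTwo
import Fermat.Agent.S15.SelTwo

/-!
# S15 / SELMER / AR-C2∞: the vanishing of the cocycles at `r = 2` under the two local conditions

`r = 2`, `W ≤ W'` a step (index `2`), `P = selIF N AN` the local condition at the level, `Q` a
subgroup of points fixed by a complex conjugation `c` (`c i ≠ i`, `i ^ 2 = −1`).  Then for every
`j ∈ selY2 GalQ P Q W'` (i.e. `j ∈ P + W'`, `j ∈ Q + W'`, `σ j − j ∈ W'` for all `σ`):

  `σ j − j ∈ W` for all `σ`

(`selarc2_inf`; this is the hypothesis `hvan` of `seltwo_main`).  Proof: `j = a + w₁`, `a ∈ P`;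
the cocycle of `a` modulo `W` is `1` or `χ₋₁` (`selarc2_dichotomy`), it agrees with the one of `j`
(trivial action on `W' / W`), and the latter vanishes at `c` because `j = b + w₂` with `c b = b`.
No hypotheses: the local package at `2` comes from `stmtSelLocR`.
-/

set_option autoImplicit false
set_option linter.style.haveILetI false
set_option synthInstance.maxHeartbeats 400000
set_option maxHeartbeats 1600000

noncomputable section

namespace Fermat.Agent.S15

open ModularCurve AlgebraicCurve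
open Fermat.Agent.S24 Fermat.Agent.W1

/-- the action on a step of index `2` is trivial -/
theorem selarc2_triv {N k : ℕ} [NeZero N] {W W' : AddSubgroup (JZero N)}
    (hstep : SelStep N 2 k W W') (σ : GalQ) {w : JZero N} (hw : w ∈ W') : σ • w - w ∈ W := by
  obtain ⟨ψ, hmul, h0, heq, hker⟩ := selarc2_stepCyc hstep
  have hσw : σ • w ∈ W' := hstep.stab' σ w hw
  have hmem : σ • w - w ∈ W' := W'.sub_mem hσw hw
  have h2W : 2 • w ∈ W := by
    have := selch_relIndex_nsmul_mem W W' hstep.le hw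
    rwa [hstep.idx] at this
  by_cases hwW : w ∈ W
  · exact W.sub_mem (hstep.stab σ w hwW) hwW
  · -- `σ w ∉ W`, and two points outside `W` differ by an element of `W`
    have hσwW : σ • w ∉ W := by
      intro h
      have := hstep.stab σ⁻¹ _ h
      rw [inv_smul_smul] at this
      exact hwW this
    obtain ⟨a₁, _, hab⟩ := AddSubgroup.relIndex_eq_two_iff.1 hstep.idx
    have h1 : σ • w + a₁ ∈ W := by
      rcases hab _ hσw with ⟨h1, _⟩ | ⟨h1, _⟩
      · exact h1
      · exact absurd h1 hσwW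
    have h2 : w + a₁ ∈ W := by
      rcases hab _ hw with ⟨h1, _⟩ | ⟨h1, _⟩
      · exact h1
      · exact absurd h1 hwW
    have e : σ • w - w = (σ • w + a₁) - (w + a₁) := by abel
    rw [e]
    exact W.sub_mem h1 h2

/-- **AR-C2∞** with a given local package at `2`. -/
theorem selarc2_inf_of (N : ℕ) [NeZero N] (k : ℕ) (hN : N.Prime) (h2N : 2 ≠ N)
    (AN Ar : ValuationSubring Kb) (hAN : AN.LiesOverPrime N) (hAr : Ar.LiesOverPrime 2)
    (V1 : AddSubgroup (JZero N)) (hV1 : SelLocR N 2 Ar V1)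
    (i : Kb) (hi : i ^ 2 = -1) (c : GalQ) (hc : c i ≠ i)
    (Q : AddSubgroup (JZero N)) (hQ : ∀ x ∈ Q, c • x = x)
    (W W' : AddSubgroup (JZero N)) (hstep : SelStep N 2 k W W')
    (j : JZero N) (hj : j ∈ selY2 GalQ (selIF N AN) Q W') : ∀ σ : GalQ, σ • j - j ∈ W := by
  obtain ⟨hjP, hjQ, hjc⟩ := mem_selY2.1 hj
  obtain ⟨a, ha, w₁, hw₁, rfl⟩ := AddSubgroup.mem_sup.1 hjP
  obtain ⟨b, hb, w₂, hw₂, hbw⟩ := AddSubgroup.mem_sup.1 hjQ
  -- the cocycle of `a`
  have hrel : ∀ σ : GalQ, σ • (a + w₁) - (a + w₁) = (σ • a - a) + (σ • w₁ - w₁) := by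
    intro σ
    rw [smul_add]
    abel
  have hcoc : ∀ σ : GalQ, σ • a - a ∈ W' := by
    intro σ
    have e : σ • a - a = (σ • (a + w₁) - (a + w₁)) - (σ • w₁ - w₁) := by
      rw [hrel σ]
      abel
    rw [e]
    exact W'.sub_mem (hjc σ) (W'.sub_mem (hstep.stab' σ w₁ hw₁) hw₁)
  have hiff : ∀ σ : GalQ, σ • (a + w₁) - (a + w₁) ∈ W ↔ σ • a - a ∈ W := by
    intro σ
    rw [hrel σ]
    exact ⟨fun h => by
      have := W.sub_mem h (selarc2_triv hstep σ hw₁)
      rwa [add_sub_cancel_right] at this,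
      fun h => W.add_mem h (selarc2_triv hstep σ hw₁)⟩
  -- at `c`
  have hcj : c • (a + w₁) - (a + w₁) ∈ W := by
    rw [← hbw, smul_add, hQ b hb]
    have e : b + c • w₂ - (b + w₂) = c • w₂ - w₂ := by abel
    rw [e]
    exact selarc2_triv hstep c hw₂
  have hca : c • a - a ∈ W := (hiff c).1 hcj
  intro σ
  rw [hiff σ]
  exact selarc2_of_conj N k hN h2N AN Ar hAN hAr V1 hV1 W W' hstep i hi c hc a ha hcoc hca σ

/-- **AR-C2∞**, unconditional: the hypothesis `hvan` of `seltwo_main` at `r = 2`. -/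
theorem selarc2_inf (N : ℕ) [NeZero N] (k : ℕ) (hN : N.Prime) (h2N : 2 ≠ N)
    (AN : ValuationSubring Kb) (hAN : AN.LiesOverPrime N)
    (i : Kb) (hi : i ^ 2 = -1) (c : GalQ) (hc : c i ≠ i)
    (Q : AddSubgroup (JZero N)) (hQ : ∀ x ∈ Q, c • x = x)
    (W W' : AddSubgroup (JZero N)) (hstep : SelStep N 2 k W W')
    (j : JZero N) (hj : j ∈ selY2 GalQ (selIF N AN) Q W') : ∀ σ : GalQ, σ • j - j ∈ W := by
  obtain ⟨Ar, hAr⟩ := Fermat.Agent.Common.exists_liesOverPrime 2 Nat.prime_two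
  obtain ⟨V1, hV1⟩ := stmtSelLocR N 2 hN Nat.prime_two h2N Ar hAr
  exact selarc2_inf_of N k hN h2N AN Ar hAN hAr V1 hV1 i hi c hc Q hQ W W' hstep j hj

end Fermat.Agent.S15
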