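import Mathlib

/-!
# S15 / SELMER block, piece SEL-CH: the chain identity (pure group theory)

`NOTES/S15-FIN.md` §1.  For two chains of subgroups `W 0 ≤ W 1 ≤ … ≤ W L` and
`Y 0 ≤ Y 1 ≤ … ≤ Y L` of an abelian group with `W i ≤ Y i` and `W 0 = ⊥`, `W L` finite:

  `[Y L : Y 0 + W L] * ∏ k i = #(Y 0 ∩ W L) * ∏ c i`,

where `k i = [Y i ∩ W (i+1) : W i]` and `c i = [Y (i+1) : Y i + W (i+1)]`
(`selch_identity`).  In the application `Y i / W i` is the group of rational points of `J / W i`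
satisfying the local condition at the level, `k i` and `c i` are the orders of the kernel and of
the cokernel of `Y i / W i → Y (i+1) / W (i+1)`; this replaces the six-term exact sequences of
Mazur's descent.

* `selch_step` : one step;
* `selch_identity` : the identity;
* `selch_bound` : if all `c i ≠ 0` and `∏ c i ≤ ∏ k i`, then `[Y L : Y 0 + W L]` is finite and
  `≤ #(Y 0 ∩ W L)`;
* `selch_kills` : if moreover `r • Y (i+1) ≤ Y i` and `#(Y 0 ∩ W L) ≤ r ^ t`, then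
  `r ^ t • Y L ≤ Y 0 + W L`.
-/

set_option autoImplicit false

namespace Fermat.Agent.S15

open AddSubgroup

variable {J : Type*} [AddCommGroup J]

/-- the modular law for subgroups of an abelian group -/
theorem selch_modular {A B C : AddSubgroup J} (h : A ≤ C) : C ⊓ (A ⊔ B) = A ⊔ (C ⊓ B) := by
  apply le_antisymm
  · intro x hx
    obtain ⟨hxC, hxAB⟩ := hx
    obtain ⟨a, ha, b, hb, rfl⟩ := AddSubgroup.mem_sup.1 hxAB
    refine AddSubgroup.mem_sup.2 ⟨a, ha, b, ⟨?_, hb⟩, rfl⟩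
    have : b = (a + b) - a := by abel
    rw [this]
    exact C.sub_mem hxC (h ha)
  · exact sup_le (le_inf h le_sup_left) (inf_le_inf_left C le_sup_right)

/-- `#P₀ * [P₁ : P₀] = #P₁` -/
theorem selch_card_mul_relIndex {P0 P1 : AddSubgroup J} (h : P0 ≤ P1) :
    Nat.card ↥P0 * P0.relIndex P1 = Nat.card ↥P1 := by
  have := AddSubgroup.relIndex_mul_relIndex (⊥ : AddSubgroup J) P0 P1 bot_le h
  rwa [AddSubgroup.relIndex_bot_left, AddSubgroup.relIndex_bot_left] at this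

/-- **one step of the chain identity** -/
theorem selch_step (Y0 Yi Yi1 Wi Wi1 : AddSubgroup J)
    (h0i : Y0 ≤ Yi) (hi : Yi ≤ Yi1) (hW : Wi ≤ Wi1) (hWY : Wi ≤ Yi) (hWY1 : Wi1 ≤ Yi1) :
    (Y0 ⊔ Wi1).relIndex Yi1 * Nat.card ↥(Y0 ⊓ Wi) * Wi.relIndex (Yi ⊓ Wi1)
      = (Y0 ⊔ Wi).relIndex Yi * Nat.card ↥(Y0 ⊓ Wi1) * (Yi ⊔ Wi1).relIndex Yi1 := by
  -- notation
  set B : AddSubgroup J := Y0 ⊔ (Yi ⊓ Wi1) with hB
  set C : AddSubgroup J := Yi ⊓ Wi1 with hC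
  set P0 : AddSubgroup J := Y0 ⊓ Wi with hP0
  set P1 : AddSubgroup J := Y0 ⊓ Wi1 with hP1
  have hP01 : P0 ≤ P1 := inf_le_inf_left Y0 hW
  have hP1C : P1 ≤ C := inf_le_inf_right Wi1 h0i
  have hWiC : Wi ≤ C := le_inf hWY hW
  -- (1) + (2) + (3)
  have e1 : (Y0 ⊔ Wi1).relIndex Yi1 = B.relIndex Yi * (Yi ⊔ Wi1).relIndex Yi1 := by
    have h1 : (Y0 ⊔ Wi1).relIndex (Yi ⊔ Wi1) * (Yi ⊔ Wi1).relIndex Yi1
        = (Y0 ⊔ Wi1).relIndex Yi1 :=
      AddSubgroup.relIndex_mul_relIndex _ _ _ (sup_le_sup_right h0i Wi1) (sup_le hi hWY1)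
    have h2 : (Y0 ⊔ Wi1).relIndex (Yi ⊔ Wi1) = (Y0 ⊔ Wi1).relIndex Yi := by
      have : Yi ⊔ Wi1 = Yi ⊔ (Y0 ⊔ Wi1) := by
        rw [← sup_assoc, sup_eq_left.2 h0i]
      rw [this]
      exact AddSubgroup.relIndex_sup_right _ _
    have h3 : (Y0 ⊔ Wi1).relIndex Yi = B.relIndex Yi := by
      rw [← AddSubgroup.inf_relIndex_right, inf_comm, selch_modular h0i]
    rw [← h1, h2, h3]
  -- (4)
  have e4 : (Y0 ⊔ Wi).relIndex Yi = (Y0 ⊔ Wi).relIndex B * B.relIndex Yi :=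
    (AddSubgroup.relIndex_mul_relIndex _ _ _ (sup_le_sup_left hWiC Y0)
      (sup_le h0i inf_le_left)).symm
  -- (5)
  have e5 : (Y0 ⊔ Wi).relIndex B = (Wi ⊔ P1).relIndex C := by
    have hBC : B = C ⊔ (Y0 ⊔ Wi) := by
      rw [hB, sup_comm C, sup_assoc, sup_eq_right.2 hWiC]
    have h1 : (Y0 ⊔ Wi).relIndex B = (Y0 ⊔ Wi).relIndex C := by
      rw [hBC]; exact AddSubgroup.relIndex_sup_right _ _
    have h2 : (Y0 ⊔ Wi) ⊓ C = Wi ⊔ P1 := by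
      have h3 : (Y0 ⊔ Wi) ⊓ C = Wi1 ⊓ (Wi ⊔ Y0) := by
        rw [hC, ← inf_assoc, inf_eq_left.2 (sup_le h0i hWY), inf_comm, sup_comm]
      rw [h3, selch_modular hW, hP1, inf_comm]
    rw [h1, ← AddSubgroup.inf_relIndex_right, h2]
  -- (6) + (7)
  have e6 : Wi.relIndex C = P0.relIndex P1 * (Wi ⊔ P1).relIndex C := by
    have h1 : Wi.relIndex (Wi ⊔ P1) * (Wi ⊔ P1).relIndex C = Wi.relIndex C :=
      AddSubgroup.relIndex_mul_relIndex _ _ _ le_sup_left (sup_le hWiC hP1C)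
    have h2 : Wi.relIndex (Wi ⊔ P1) = P0.relIndex P1 := by
      rw [AddSubgroup.relIndex_sup_left, ← AddSubgroup.inf_relIndex_right]
      congr 1
      rw [hP0, hP1, ← inf_assoc, inf_comm Wi Y0, inf_assoc, inf_eq_left.2 hW]
    rw [← h1, h2]
  have e7 : Nat.card ↥P0 * P0.relIndex P1 = Nat.card ↥P1 := selch_card_mul_relIndex hP01
  rw [e1, e4, e5, e6, ← e7]
  ring

/-- the order of the kernel at step `i` -/
noncomputable def selchK (W Y : ℕ → AddSubgroup J) (i : ℕ) : ℕ :=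
  (W i).relIndex (Y i ⊓ W (i + 1))

/-- the order of the cokernel at step `i` -/
noncomputable def selchC (W Y : ℕ → AddSubgroup J) (i : ℕ) : ℕ :=
  (Y i ⊔ W (i + 1)).relIndex (Y (i + 1))

/-- **the chain identity** -/
theorem selch_identity (W Y : ℕ → AddSubgroup J) (L : ℕ) (hW0 : W 0 = ⊥)
    (hW : ∀ i < L, W i ≤ W (i + 1)) (hY : ∀ i < L, Y i ≤ Y (i + 1))
    (hWY : ∀ i ≤ L, W i ≤ Y i) (hfin : ∀ i ≤ L, Finite ↥(W i)) :
    (Y 0 ⊔ W L).relIndex (Y L) * ∏ i ∈ Finset.range L, selchK W Y i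
      = Nat.card ↥(Y 0 ⊓ W L) * ∏ i ∈ Finset.range L, selchC W Y i := by
  induction L with
  | zero =>
    simp only [Finset.range_zero, Finset.prod_empty, mul_one, hW0, sup_bot_eq, inf_bot_eq,
      AddSubgroup.relIndex_self]
    exact (Nat.card_unique).symm
  | succ L ih =>
    have ih' := ih (fun i hi => hW i (Nat.lt_succ_of_lt hi)) (fun i hi => hY i (Nat.lt_succ_of_lt hi))
      (fun i hi => hWY i (Nat.le_succ_of_le hi)) (fun i hi => hfin i (Nat.le_succ_of_le hi))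
    have h0L : Y 0 ≤ Y L := by
      have : ∀ n ≤ L, Y 0 ≤ Y n := by
        intro n hn
        induction n with
        | zero => exact le_rfl
        | succ n ihn =>
          exact (ihn (Nat.le_of_succ_le hn)).trans (hY n (Nat.lt_succ_of_lt (Nat.lt_of_succ_le hn)))
      exact this L le_rfl
    have hstep := selch_step (Y 0) (Y L) (Y (L + 1)) (W L) (W (L + 1)) h0L
      (hY L (Nat.lt_succ_self L)) (hW L (Nat.lt_succ_self L)) (hWY L (Nat.le_succ L))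
      (hWY (L + 1) le_rfl)
    have : Finite ↥(W L) := hfin L (Nat.le_succ L)
    have : Finite ↥(Y 0 ⊓ W L) :=
      Finite.of_injective (fun x : ↥(Y 0 ⊓ W L) => (⟨x.1, x.2.2⟩ : ↥(W L)))
        (fun a b h => Subtype.ext (congrArg (fun y : ↥(W L) => (y : J)) h))
    have hpos : 0 < Nat.card ↥(Y 0 ⊓ W L) := Nat.card_pos
    rw [Finset.prod_range_succ, Finset.prod_range_succ]
    apply Nat.eq_of_mul_eq_mul_left hpos
    change Nat.card ↥(Y 0 ⊓ W L) * ((Y 0 ⊔ W (L + 1)).relIndex (Y (L + 1)) *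
        ((∏ i ∈ Finset.range L, selchK W Y i) * (W L).relIndex (Y L ⊓ W (L + 1))))
      = Nat.card ↥(Y 0 ⊓ W L) * (Nat.card ↥(Y 0 ⊓ W (L + 1)) *
        ((∏ i ∈ Finset.range L, selchC W Y i) * (Y L ⊔ W (L + 1)).relIndex (Y (L + 1))))
    calc Nat.card ↥(Y 0 ⊓ W L) * ((Y 0 ⊔ W (L + 1)).relIndex (Y (L + 1)) *
          ((∏ i ∈ Finset.range L, selchK W Y i) * (W L).relIndex (Y L ⊓ W (L + 1))))
        = ((Y 0 ⊔ W (L + 1)).relIndex (Y (L + 1)) * Nat.card ↥(Y 0 ⊓ W L) *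
            (W L).relIndex (Y L ⊓ W (L + 1))) * ∏ i ∈ Finset.range L, selchK W Y i := by ring
      _ = ((Y 0 ⊔ W L).relIndex (Y L) * Nat.card ↥(Y 0 ⊓ W (L + 1)) *
            (Y L ⊔ W (L + 1)).relIndex (Y (L + 1))) * ∏ i ∈ Finset.range L, selchK W Y i := by
          rw [hstep]
      _ = ((Y 0 ⊔ W L).relIndex (Y L) * ∏ i ∈ Finset.range L, selchK W Y i) *
            (Nat.card ↥(Y 0 ⊓ W (L + 1)) * (Y L ⊔ W (L + 1)).relIndex (Y (L + 1))) := by ring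
      _ = (Nat.card ↥(Y 0 ⊓ W L) * ∏ i ∈ Finset.range L, selchC W Y i) *
            (Nat.card ↥(Y 0 ⊓ W (L + 1)) * (Y L ⊔ W (L + 1)).relIndex (Y (L + 1))) := by
          rw [ih']
      _ = Nat.card ↥(Y 0 ⊓ W L) * (Nat.card ↥(Y 0 ⊓ W (L + 1)) *
            ((∏ i ∈ Finset.range L, selchC W Y i) *
              (Y L ⊔ W (L + 1)).relIndex (Y (L + 1)))) := by ring

/-- the kernels are finite and non-empty -/
theorem selchK_pos (W Y : ℕ → AddSubgroup J) (i : ℕ) (hWY : W i ≤ Y i) (hW : W i ≤ W (i + 1))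
    (hfin : Finite ↥(W (i + 1))) : 0 < selchK W Y i := by
  have : Finite ↥(Y i ⊓ W (i + 1)) :=
    Finite.of_injective (fun x : ↥(Y i ⊓ W (i + 1)) => (⟨x.1, x.2.2⟩ : ↥(W (i + 1))))
      (fun a b h => Subtype.ext (congrArg (fun y : ↥(W (i + 1)) => (y : J)) h))
  have h1 := selch_card_mul_relIndex (le_inf hWY hW : W i ≤ Y i ⊓ W (i + 1))
  have h2 : 0 < Nat.card ↥(Y i ⊓ W (i + 1)) := Nat.card_pos
  rw [← h1] at h2
  unfold selchK
  exact Nat.pos_of_ne_zero (fun h0 => by rw [h0, mul_zero] at h2; exact lt_irrefl 0 h2)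

/-- **the bound**: if every cokernel is finite and `∏ c i ≤ ∏ k i`, then the index
`[Y L : Y 0 + W L]` is finite and at most `#(Y 0 ∩ W L)`. -/
theorem selch_bound (W Y : ℕ → AddSubgroup J) (L : ℕ) (hW0 : W 0 = ⊥)
    (hW : ∀ i < L, W i ≤ W (i + 1)) (hY : ∀ i < L, Y i ≤ Y (i + 1))
    (hWY : ∀ i ≤ L, W i ≤ Y i) (hfin : ∀ i ≤ L, Finite ↥(W i))
    (hc : ∀ i < L, selchC W Y i ≠ 0)
    (hprod : ∏ i ∈ Finset.range L, selchC W Y i ≤ ∏ i ∈ Finset.range L, selchK W Y i) :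
    (Y 0 ⊔ W L).relIndex (Y L) ≠ 0 ∧
      (Y 0 ⊔ W L).relIndex (Y L) ≤ Nat.card ↥(Y 0 ⊓ W L) := by
  have hid := selch_identity W Y L hW0 hW hY hWY hfin
  have hKpos : 0 < ∏ i ∈ Finset.range L, selchK W Y i :=
    Finset.prod_pos (fun i hi => selchK_pos W Y i (hWY i (Finset.mem_range.1 hi).le)
      (hW i (Finset.mem_range.1 hi)) (hfin (i + 1) (Finset.mem_range.1 hi)))
  have hCpos : 0 < ∏ i ∈ Finset.range L, selchC W Y i :=
    Finset.prod_pos (fun i hi => Nat.pos_of_ne_zero (hc i (Finset.mem_range.1 hi)))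
  have : Finite ↥(W L) := hfin L le_rfl
  have : Finite ↥(Y 0 ⊓ W L) :=
    Finite.of_injective (fun x : ↥(Y 0 ⊓ W L) => (⟨x.1, x.2.2⟩ : ↥(W L)))
      (fun a b h => Subtype.ext (congrArg (fun y : ↥(W L) => (y : J)) h))
  have hpos : 0 < Nat.card ↥(Y 0 ⊓ W L) := Nat.card_pos
  constructor
  · intro h0
    rw [h0, zero_mul] at hid
    exact (Nat.mul_pos hpos hCpos).ne' hid.symm
  · by_contra hlt
    rw [not_le] at hlt
    have h1 : Nat.card ↥(Y 0 ⊓ W L) * ∏ i ∈ Finset.range L, selchC W Y i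
        < (Y 0 ⊔ W L).relIndex (Y L) * ∏ i ∈ Finset.range L, selchK W Y i :=
      Nat.mul_lt_mul_of_lt_of_le hlt hprod hKpos
    rw [hid] at h1
    exact lt_irrefl _ h1

/-- a multiple of the index kills the quotient -/
theorem selch_relIndex_nsmul_mem (H K : AddSubgroup J) (_hHK : H ≤ K) {j : J} (hj : j ∈ K) :
    H.relIndex K • j ∈ H := by
  have h := AddSubgroup.nsmul_index_mem (H.addSubgroupOf K) (⟨j, hj⟩ : ↥K)
  rw [AddSubgroup.mem_addSubgroupOf] at h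
  simpa [AddSubgroup.relIndex] using h

/-- **the exponent**: if moreover `r • Y (i+1) ≤ Y i` for a prime `r` and the index is at most
`r ^ t`, then `r ^ t` kills `Y L / (Y 0 + W L)`. -/
theorem selch_kills {r : ℕ} (hr : r.Prime) (H K : AddSubgroup J) (hHK : H ≤ K) (L t : ℕ)
    (hL : ∀ j ∈ K, r ^ L • j ∈ H) (h0 : H.relIndex K ≠ 0) (ht : H.relIndex K ≤ r ^ t)
    {j : J} (hj : j ∈ K) : r ^ t • j ∈ H := by
  set n := H.relIndex K with hn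
  have h1 : n • j ∈ H := selch_relIndex_nsmul_mem H K hHK hj
  have h2 : r ^ L • j ∈ H := hL j hj
  -- Bezout
  have h3 : (Nat.gcd n (r ^ L)) • j ∈ H := by
    have hb := Nat.gcd_eq_gcd_ab n (r ^ L)
    have h4 : ((Nat.gcd n (r ^ L) : ℕ) : ℤ) • j ∈ H := by
      rw [hb, add_smul, mul_comm (n : ℤ), mul_comm ((r ^ L : ℕ) : ℤ), mul_smul, mul_smul]
      refine H.add_mem (H.zsmul_mem ?_ _) (H.zsmul_mem ?_ _)
      · rw [natCast_zsmul]; exact h1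
      · rw [natCast_zsmul]; exact h2
    rwa [natCast_zsmul] at h4
  obtain ⟨s, -, hs⟩ := (Nat.dvd_prime_pow hr).1 (Nat.gcd_dvd_right n (r ^ L))
  rw [hs] at h3
  have h5 : r ^ s ∣ n := hs ▸ Nat.gcd_dvd_left n (r ^ L)
  have h6 : r ^ s ≤ r ^ t := (Nat.le_of_dvd (Nat.pos_of_ne_zero h0) h5).trans ht
  have h7 : s ≤ t := (Nat.pow_le_pow_iff_right hr.one_lt).1 h6
  obtain ⟨d, rfl⟩ := Nat.exists_eq_add_of_le h7
  rw [pow_add, mul_comm, mul_smul]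
  exact H.nsmul_mem h3 _

/-! ## The groups `Y(W)` and the glue (F5) -/

section Glue

variable (G : Type*) [Group G] [DistribMulAction G J]

/-- `Y(W)`: the points of `J` in `𝒥 + W` whose class modulo `W` is fixed by `G`. -/
def selY (𝒥 W : AddSubgroup J) : AddSubgroup J where
  carrier := {j | j ∈ 𝒥 ⊔ W ∧ ∀ σ : G, σ • j - j ∈ W}
  zero_mem' := ⟨zero_mem _, fun σ => by rw [smul_zero, sub_zero]; exact zero_mem _⟩
  add_mem' := by
    rintro a b ⟨ha, ha'⟩ ⟨hb, hb'⟩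
    refine ⟨add_mem ha hb, fun σ => ?_⟩
    have : σ • (a + b) - (a + b) = (σ • a - a) + (σ • b - b) := by rw [smul_add]; abel
    rw [this]; exact add_mem (ha' σ) (hb' σ)
  neg_mem' := by
    rintro a ⟨ha, ha'⟩
    refine ⟨neg_mem ha, fun σ => ?_⟩
    have : σ • (-a) - (-a) = -(σ • a - a) := by rw [smul_neg]; abel
    rw [this]; exact neg_mem (ha' σ)

variable {G}

theorem mem_selY {𝒥 W : AddSubgroup J} {j : J} :
    j ∈ selY G 𝒥 W ↔ j ∈ 𝒥 ⊔ W ∧ ∀ σ : G, σ • j - j ∈ W := Iff.rfl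

theorem le_selY {𝒥 W : AddSubgroup J} (hW : ∀ σ : G, ∀ w ∈ W, σ • w ∈ W) : W ≤ selY G 𝒥 W :=
  fun w hw => ⟨(le_sup_right : W ≤ 𝒥 ⊔ W) hw, fun σ => W.sub_mem (hW σ w hw) hw⟩

theorem selY_mono {𝒥 W W' : AddSubgroup J} (h : W ≤ W') : selY G 𝒥 W ≤ selY G 𝒥 W' :=
  fun _ hj => ⟨(sup_le_sup_left h 𝒥) hj.1, fun σ => h (hj.2 σ)⟩

theorem mem_selY_bot {𝒥 : AddSubgroup J} {j : J} :
    j ∈ selY G 𝒥 ⊥ ↔ j ∈ 𝒥 ∧ ∀ σ : G, σ • j = j := by
  rw [mem_selY, sup_bot_eq]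
  refine and_congr Iff.rfl (forall_congr' fun σ => ?_)
  rw [AddSubgroup.mem_bot, sub_eq_zero]

theorem selY_nsmul_mem {𝒥 W W' : AddSubgroup J} {r : ℕ} (hr : ∀ w ∈ W', r • w ∈ W)
    {j : J} (hj : j ∈ selY G 𝒥 W') : r • j ∈ selY G 𝒥 W := by
  obtain ⟨h1, h2⟩ := hj
  obtain ⟨a, ha, w, hw, rfl⟩ := AddSubgroup.mem_sup.1 h1
  refine ⟨?_, fun σ => ?_⟩
  · rw [smul_add]
    exact AddSubgroup.mem_sup.2 ⟨r • a, 𝒥.nsmul_mem ha r, r • w, hr w hw, rfl⟩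
  · have : σ • (r • (a + w)) - r • (a + w) = r • (σ • (a + w) - (a + w)) := by
      rw [smul_sub, smul_comm]
    rw [this]
    exact hr _ (h2 σ)

/-- **SEL-CH, final form.**  A composition series `W 0 = ⊥ ≤ … ≤ W L` of `G`-stable finite
subgroups with `r • W (i+1) ≤ W i`, finite cokernels with `∏ c i ≤ ∏ k i`, and at most `r ^ t`
rational points in `W L`: then `r ^ t • Y(W L) ≤ Y(⊥) + W L`. -/
theorem sel_chain {r : ℕ} (hr : r.Prime) (𝒥 : AddSubgroup J) (W : ℕ → AddSubgroup J) (L t : ℕ)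
    (hW0 : W 0 = ⊥) (hW : ∀ i < L, W i ≤ W (i + 1))
    (hWG : ∀ i ≤ L, ∀ σ : G, ∀ w ∈ W i, σ • w ∈ W i)
    (hfin : ∀ i ≤ L, Finite ↥(W i)) (hrW : ∀ i < L, ∀ w ∈ W (i + 1), r • w ∈ W i)
    (hc : ∀ i < L, selchC W (fun i => selY G 𝒥 (W i)) i ≠ 0)
    (hprod : ∏ i ∈ Finset.range L, selchC W (fun i => selY G 𝒥 (W i)) i
      ≤ ∏ i ∈ Finset.range L, selchK W (fun i => selY G 𝒥 (W i)) i)
    (ht : Nat.card ↥(selY G 𝒥 ⊥ ⊓ W L) ≤ r ^ t)
    {j : J} (hj : j ∈ selY G 𝒥 (W L)) : r ^ t • j ∈ selY G 𝒥 ⊥ ⊔ W L := by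
  have hb := selch_bound W (fun i => selY G 𝒥 (W i)) L hW0 hW
    (fun i hi => selY_mono (hW i hi)) (fun i hi => le_selY (hWG i hi)) hfin hc hprod
  simp only [hW0] at hb
  have hmono : ∀ n ≤ L, selY G 𝒥 ⊥ ≤ selY G 𝒥 (W n) := fun n _ => selY_mono bot_le
  have hle : selY G 𝒥 ⊥ ⊔ W L ≤ selY G 𝒥 (W L) :=
    sup_le (hmono L le_rfl) (le_selY (hWG L le_rfl))
  -- `r ^ L` kills the quotient
  have hL : ∀ n ≤ L, ∀ x ∈ selY G 𝒥 (W n), r ^ n • x ∈ selY G 𝒥 ⊥ := by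
    intro n
    induction n with
    | zero =>
      intro _ x hx
      rw [pow_zero, one_smul]
      rwa [hW0] at hx
    | succ n ih =>
      intro hn x hx
      rw [pow_succ, mul_smul]
      exact ih (Nat.le_of_succ_le hn) _ (selY_nsmul_mem (hrW n (Nat.lt_of_succ_le hn)) hx)
  exact selch_kills hr _ _ hle L t
    (fun x hx => (le_sup_left : selY G 𝒥 ⊥ ≤ selY G 𝒥 ⊥ ⊔ W L) (hL L le_rfl x hx))
    hb.1 (hb.2.trans ht) hj

/-- **(F5), the glue**: from `r ^ t • Y(G_k) ≤ Y(⊥) + G_k` to the interface `FIN″`.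
`E` is the Hecke operator which projects `J[r^k]` into the Eisenstein part `Gk`. -/
theorem sel_glue {r k t : ℕ} (𝒥 Gk : AddSubgroup J) (E : J →+ J)
    (hEG : ∀ (σ : G) (x : J), E (σ • x) = σ • E x) (hE𝒥 : ∀ x ∈ 𝒥, E x ∈ 𝒥)
    (hEV : ∀ x : J, r ^ k • x = 0 → E x ∈ Gk) (hGk : ∀ x ∈ Gk, r ^ k • x = 0)
    (hbound : ∀ j ∈ selY G 𝒥 Gk, r ^ t • j ∈ selY G 𝒥 ⊥ ⊔ Gk)
    (w : J) (hw : ∀ σ : G, σ • w = w) (R : J) (hR : R ∈ 𝒥) (hRw : r ^ k • R = w) :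
    ∃ m : J, (∀ σ : G, σ • m = m) ∧ m ∈ 𝒥 ∧ r ^ t • E w = r ^ k • m := by
  have hER : E R ∈ selY G 𝒥 Gk := by
    refine ⟨(le_sup_left : 𝒥 ≤ 𝒥 ⊔ Gk) (hE𝒥 R hR), fun σ => ?_⟩
    have h1 : σ • E R - E R = E (σ • R - R) := by rw [map_sub, hEG]
    rw [h1]
    apply hEV
    rw [smul_sub, smul_comm, hRw, hw, sub_self]
  obtain ⟨m, hm, g, hg, hmg⟩ := AddSubgroup.mem_sup.1 (hbound _ hER)
  obtain ⟨hm𝒥, hmG⟩ := mem_selY_bot.1 hm
  refine ⟨m, hmG, hm𝒥, ?_⟩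
  have h2 : r ^ k • (r ^ t • E R) = r ^ k • m := by
    rw [← hmg, smul_add, hGk g hg, add_zero]
  rw [← hRw, map_nsmul, smul_comm]
  exact h2

end Glue

end Fermat.Agent.S15
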