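import Fermat.Agent.S15.SelStep

/-!
# S15 / SELMER block: the abstract descent with a bounded defect in the count

`sel_main_defect`: as `sel_main` (`S15/SelStep.lean`), but the count is only assumed up to a
factor `d`:  `#(W L ∩ V1) ≤ d * #(W L ∩ 𝒥)`, `d ≤ r ^ a`.  The conclusion is
`r ^ (t + a) • Y(W L) ≤ Y(⊥) + W L`.
-/

set_option autoImplicit false

namespace Fermat.Agent.S15

open AddSubgroup

variable {J : Type*} [AddCommGroup J]

/-- the bound with a defect: if `∏ c ≤ d * ∏ k` then `[Y L : Y 0 + W L] ≤ d * #(Y 0 ∩ W L)`. -/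
theorem selch_bound_defect (W Y : ℕ → AddSubgroup J) (L d : ℕ) (hW0 : W 0 = ⊥)
    (hW : ∀ i < L, W i ≤ W (i + 1)) (hY : ∀ i < L, Y i ≤ Y (i + 1))
    (hWY : ∀ i ≤ L, W i ≤ Y i) (hfin : ∀ i ≤ L, Finite ↥(W i))
    (hc : ∀ i < L, selchC W Y i ≠ 0)
    (hprod : ∏ i ∈ Finset.range L, selchC W Y i ≤ d * ∏ i ∈ Finset.range L, selchK W Y i) :
    (Y 0 ⊔ W L).relIndex (Y L) ≠ 0 ∧
      (Y 0 ⊔ W L).relIndex (Y L) ≤ d * Nat.card ↥(Y 0 ⊓ W L) := by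
  have hid := selch_identity W Y L hW0 hW hY hWY hfin
  have hKpos : 0 < ∏ i ∈ Finset.range L, selchK W Y i :=
    Finset.prod_pos (fun i hi => selchK_pos W Y i (hWY i (Finset.mem_range.1 hi).le)
      (hW i (Finset.mem_range.1 hi)) (hfin (i + 1) (Finset.mem_range.1 hi)))
  have hCpos : 0 < ∏ i ∈ Finset.range L, selchC W Y i :=
    Finset.prod_pos (fun i hi => Nat.pos_of_ne_zero (hc i (Finset.mem_range.1 hi)))
  have : Finite ↥(W L) := hfin L le_rfl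
  have : Finite ↥(Y 0 ⊓ W L) :=
    Finite.of_injective (fun x : ↥(Y 0 ⊓ W L) => (⟨x.1, x.2.2⟩ : ↥(W L)))
      (fun a b h => Subtype.ext (congrArg (fun y : ↥(W L) => (y : J)) h))
  have hpos : 0 < Nat.card ↥(Y 0 ⊓ W L) := Nat.card_pos
  constructor
  · intro h0
    rw [h0, zero_mul] at hid
    exact (Nat.mul_pos hpos hCpos).ne' hid.symm
  · by_contra hlt
    rw [not_le] at hlt
    have h1 : d * Nat.card ↥(Y 0 ⊓ W L) * ∏ i ∈ Finset.range L, selchK W Y i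
        < (Y 0 ⊔ W L).relIndex (Y L) * ∏ i ∈ Finset.range L, selchK W Y i :=
      Nat.mul_lt_mul_of_pos_right hlt hKpos
    rw [hid] at h1
    have h2 : Nat.card ↥(Y 0 ⊓ W L) * ∏ i ∈ Finset.range L, selchC W Y i
        ≤ Nat.card ↥(Y 0 ⊓ W L) * (d * ∏ i ∈ Finset.range L, selchK W Y i) :=
      Nat.mul_le_mul_left _ hprod
    have h3 : Nat.card ↥(Y 0 ⊓ W L) * (d * ∏ i ∈ Finset.range L, selchK W Y i)
        = d * Nat.card ↥(Y 0 ⊓ W L) * ∏ i ∈ Finset.range L, selchK W Y i := by ring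
    rw [h3] at h2
    exact lt_irrefl _ (lt_of_lt_of_le h1 h2)

/-- the product inequality with a defect: `#C ≤ #A + a` gives `∏ c ≤ r ^ a * ∏ k`. -/
theorem selst_prod_le_defect {r : ℕ} (hr : 0 < r) (L a : ℕ) (c k : ℕ → ℕ) (A C : Finset ℕ)
    (hA : A ⊆ Finset.range L) (hC : C ⊆ Finset.range L) (hAC : C.card ≤ A.card + a)
    (h : ∀ i < L, c i * (if i ∈ A then r else 1) ≤ (if i ∈ C then r else 1) * k i) :
    ∏ i ∈ Finset.range L, c i ≤ r ^ a * ∏ i ∈ Finset.range L, k i := by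
  classical
  have hsum : ∀ B : Finset ℕ, B ⊆ Finset.range L →
      ∏ i ∈ Finset.range L, (if i ∈ B then r else 1) = r ^ B.card := by
    intro B hB
    rw [Finset.prod_ite, Finset.prod_const_one, mul_one, Finset.prod_const]
    congr 2
    ext i
    rw [Finset.mem_filter]
    exact ⟨fun h => h.2, fun h => ⟨hB h, h⟩⟩
  have h1 : ∏ i ∈ Finset.range L, (c i * (if i ∈ A then r else 1))
      ≤ ∏ i ∈ Finset.range L, ((if i ∈ C then r else 1) * k i) :=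
    Finset.prod_le_prod (fun i _ => Nat.zero_le _) (fun i hi => h i (Finset.mem_range.1 hi))
  rw [Finset.prod_mul_distrib, Finset.prod_mul_distrib, hsum A hA, hsum C hC] at h1
  have h2 : r ^ C.card ≤ r ^ (A.card + a) := Nat.pow_le_pow_right hr hAC
  have h3 : (∏ i ∈ Finset.range L, c i) * r ^ A.card
      ≤ (r ^ a * ∏ i ∈ Finset.range L, k i) * r ^ A.card :=
    calc (∏ i ∈ Finset.range L, c i) * r ^ A.card
        ≤ r ^ C.card * ∏ i ∈ Finset.range L, k i := h1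
      _ ≤ r ^ (A.card + a) * ∏ i ∈ Finset.range L, k i := Nat.mul_le_mul_right _ h2
      _ = (r ^ a * ∏ i ∈ Finset.range L, k i) * r ^ A.card := by rw [pow_add]; ring
  exact Nat.le_of_mul_le_mul_right h3 (Nat.pow_pos hr)

/-- the count with a defect -/
theorem selst_jumps_le_defect {r : ℕ} (hr : r.Prime) (W : ℕ → AddSubgroup J)
    (S S' : AddSubgroup J) (L a : ℕ) (hW0 : W 0 = ⊥) (hW : ∀ i < L, W i ≤ W (i + 1))
    (hidx : ∀ i < L, (W i).relIndex (W (i + 1)) = r)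
    (h : Nat.card ↥(W L ⊓ S) ≤ r ^ a * Nat.card ↥(W L ⊓ S')) :
    (selstJumps W S L).card ≤ (selstJumps W S' L).card + a := by
  rw [selst_card_jumps hr W S L hW0 hW hidx,
    selst_card_jumps hr W S' L hW0 hW hidx, ← pow_add] at h
  have := (Nat.pow_le_pow_iff_right hr.one_lt).1 h
  omega

section Main

variable {G : Type*} [Group G] [DistribMulAction G J]

/-- `sel_chain` with a defect -/
theorem sel_chain_defect {r : ℕ} (hr : r.Prime) (𝒥 : AddSubgroup J) (W : ℕ → AddSubgroup J)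
    (L t a : ℕ)
    (hW0 : W 0 = ⊥) (hW : ∀ i < L, W i ≤ W (i + 1))
    (hWG : ∀ i ≤ L, ∀ σ : G, ∀ w ∈ W i, σ • w ∈ W i)
    (hfin : ∀ i ≤ L, Finite ↥(W i)) (hrW : ∀ i < L, ∀ w ∈ W (i + 1), r • w ∈ W i)
    (hc : ∀ i < L, selchC W (fun i => selY G 𝒥 (W i)) i ≠ 0)
    (hprod : ∏ i ∈ Finset.range L, selchC W (fun i => selY G 𝒥 (W i)) i
      ≤ r ^ a * ∏ i ∈ Finset.range L, selchK W (fun i => selY G 𝒥 (W i)) i)
    (ht : Nat.card ↥(selY G 𝒥 ⊥ ⊓ W L) ≤ r ^ t)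
    {j : J} (hj : j ∈ selY G 𝒥 (W L)) : r ^ (t + a) • j ∈ selY G 𝒥 ⊥ ⊔ W L := by
  have hb := selch_bound_defect W (fun i => selY G 𝒥 (W i)) L (r ^ a) hW0 hW
    (fun i hi => selY_mono (hW i hi)) (fun i hi => le_selY (hWG i hi)) hfin hc hprod
  simp only [hW0] at hb
  have hle : selY G 𝒥 ⊥ ⊔ W L ≤ selY G 𝒥 (W L) :=
    sup_le (selY_mono bot_le) (le_selY (hWG L le_rfl))
  have hL : ∀ n ≤ L, ∀ x ∈ selY G 𝒥 (W n), r ^ n • x ∈ selY G 𝒥 ⊥ := by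
    intro n
    induction n with
    | zero =>
      intro _ x hx
      rw [pow_zero, one_smul]
      rwa [hW0] at hx
    | succ n ih =>
      intro hn x hx
      rw [pow_succ, mul_smul]
      exact ih (Nat.le_of_succ_le hn) _ (selY_nsmul_mem (hrW n (Nat.lt_of_succ_le hn)) hx)
  refine selch_kills hr _ _ hle L (t + a)
    (fun x hx => (le_sup_left : selY G 𝒥 ⊥ ≤ selY G 𝒥 ⊥ ⊔ W L) (hL L le_rfl x hx))
    hb.1 (hb.2.trans ?_) hj
  rw [pow_add, mul_comm (r ^ t)]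
  exact Nat.mul_le_mul_left _ ht

/-- **SEL-ST with a defect.**  As `sel_main`, with `#(W L ∩ V1) ≤ r ^ a * #(W L ∩ 𝒥)`. -/
theorem sel_main_defect {r : ℕ} (hr : r.Prime) (𝒥 V1 : AddSubgroup J)
    (W : ℕ → AddSubgroup J) (L t a : ℕ)
    (hW0 : W 0 = ⊥) (hW : ∀ i < L, W i ≤ W (i + 1))
    (hWG : ∀ i ≤ L, ∀ σ : G, ∀ w ∈ W i, σ • w ∈ W i)
    (hfin : ∀ i ≤ L, Finite ↥(W i))
    (hidx : ∀ i < L, (W i).relIndex (W (i + 1)) = r)
    (hcnt : Nat.card ↥(W L ⊓ V1) ≤ r ^ a * Nat.card ↥(W L ⊓ 𝒥))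
    (het : ∀ i < L, W (i + 1) ⊓ V1 ≤ W i → selchC W (fun i => selY G 𝒥 (W i)) i = 1)
    (hetfin : ∀ i < L, W (i + 1) ⊓ V1 ≤ W i → ¬ (W (i + 1) ⊓ 𝒥 ≤ W i) →
      selchK W (fun i => selY G 𝒥 (W i)) i = r)
    (hconnfin : ∀ i < L, ¬ (W (i + 1) ⊓ V1 ≤ W i) → ¬ (W (i + 1) ⊓ 𝒥 ≤ W i) →
      selchC W (fun i => selY G 𝒥 (W i)) i ≠ 0 ∧
        selchC W (fun i => selY G 𝒥 (W i)) i ≤ selchK W (fun i => selY G 𝒥 (W i)) i)
    (hconnnull : ∀ i < L, ¬ (W (i + 1) ⊓ V1 ≤ W i) → W (i + 1) ⊓ 𝒥 ≤ W i →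
      selchC W (fun i => selY G 𝒥 (W i)) i ≠ 0 ∧ selchC W (fun i => selY G 𝒥 (W i)) i ≤ r)
    (ht : Nat.card ↥(selY G 𝒥 ⊥ ⊓ W L) ≤ r ^ t)
    {j : J} (hj : j ∈ selY G 𝒥 (W L)) : r ^ (t + a) • j ∈ selY G 𝒥 ⊥ ⊔ W L := by
  classical
  have hrW : ∀ i < L, ∀ w ∈ W (i + 1), r • w ∈ W i := by
    intro i hi w hw
    have := selch_relIndex_nsmul_mem (W i) (W (i + 1)) (hW i hi) hw
    rwa [hidx i hi] at this
  have hkpos : ∀ i < L, 0 < selchK W (fun i => selY G 𝒥 (W i)) i := fun i hi =>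
    selchK_pos W (fun i => selY G 𝒥 (W i)) i (le_selY (hWG i hi.le)) (hW i hi) (hfin (i + 1) hi)
  have hc : ∀ i < L, selchC W (fun i => selY G 𝒥 (W i)) i ≠ 0 := by
    intro i hi
    by_cases h1 : W (i + 1) ⊓ V1 ≤ W i
    · rw [het i hi h1]; exact one_ne_zero
    · by_cases h2 : W (i + 1) ⊓ 𝒥 ≤ W i
      · exact (hconnnull i hi h1 h2).1
      · exact (hconnfin i hi h1 h2).1
  refine sel_chain_defect hr 𝒥 W L t a hW0 hW hWG hfin hrW hc ?_ ht hj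
  set A : Finset ℕ := selstJumps W 𝒥 L \ selstJumps W V1 L with hA
  set C : Finset ℕ := selstJumps W V1 L \ selstJumps W 𝒥 L with hC
  have hsub : ∀ S : AddSubgroup J, selstJumps W S L ⊆ Finset.range L := fun S i hi =>
    Finset.mem_range.2 (mem_selstJumps.1 hi).1
  have hjl := selst_jumps_le_defect hr W V1 𝒥 L a hW0 hW hidx hcnt
  have hAC : C.card ≤ A.card + a := by
    have e1 := Finset.card_sdiff_add_card_inter (selstJumps W V1 L) (selstJumps W 𝒥 L)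
    have e2 := Finset.card_sdiff_add_card_inter (selstJumps W 𝒥 L) (selstJumps W V1 L)
    rw [Finset.inter_comm] at e2
    rw [hA, hC]
    omega
  refine selst_prod_le_defect hr.pos L a _ _ A C (Finset.sdiff_subset.trans (hsub _))
    (Finset.sdiff_subset.trans (hsub _)) hAC ?_
  intro i hi
  have hmemA : i ∈ A ↔ ¬ (W (i + 1) ⊓ 𝒥 ≤ W i) ∧ W (i + 1) ⊓ V1 ≤ W i := by
    rw [hA, Finset.mem_sdiff, mem_selstJumps, mem_selstJumps]
    constructor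
    · rintro ⟨⟨_, h1⟩, h2⟩
      exact ⟨h1, by_contra fun h3 => h2 ⟨hi, h3⟩⟩
    · rintro ⟨h1, h2⟩
      exact ⟨⟨hi, h1⟩, fun h3 => h3.2 h2⟩
  have hmemC : i ∈ C ↔ ¬ (W (i + 1) ⊓ V1 ≤ W i) ∧ W (i + 1) ⊓ 𝒥 ≤ W i := by
    rw [hC, Finset.mem_sdiff, mem_selstJumps, mem_selstJumps]
    constructor
    · rintro ⟨⟨_, h1⟩, h2⟩
      exact ⟨h1, by_contra fun h3 => h2 ⟨hi, h3⟩⟩
    · rintro ⟨h1, h2⟩
      exact ⟨⟨hi, h1⟩, fun h3 => h3.2 h2⟩
  have hk := hkpos i hi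
  by_cases h1 : W (i + 1) ⊓ V1 ≤ W i
  · have hcC : i ∉ C := fun h => (hmemC.1 h).1 h1
    rw [if_neg hcC, one_mul, het i hi h1, one_mul]
    by_cases h2 : W (i + 1) ⊓ 𝒥 ≤ W i
    · have hcA : i ∉ A := fun h => (hmemA.1 h).1 h2
      rw [if_neg hcA]
      exact hk
    · have hcA : i ∈ A := hmemA.2 ⟨h2, h1⟩
      rw [if_pos hcA, hetfin i hi h1 h2]
  · have hcA : i ∉ A := fun h => h1 (hmemA.1 h).2
    rw [if_neg hcA, mul_one]
    by_cases h2 : W (i + 1) ⊓ 𝒥 ≤ W i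
    · have hcC : i ∈ C := hmemC.2 ⟨h1, h2⟩
      rw [if_pos hcC]
      calc selchC W (fun i => selY G 𝒥 (W i)) i ≤ r := (hconnnull i hi h1 h2).2
        _ = r * 1 := (mul_one r).symm
        _ ≤ r * selchK W (fun i => selY G 𝒥 (W i)) i := Nat.mul_le_mul_left r hk
    · have hcC : i ∉ C := fun h => h2 (hmemC.1 h).2
      rw [if_neg hcC, one_mul]
      exact (hconnfin i hi h1 h2).2

end Main

end Fermat.Agent.S15
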