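import Fermat.Agent.S15.SelTop
import Fermat.Agent.S15.SelLocFinal
import Fermat.Agent.S15.SelArEt
import Fermat.Agent.S15.SelArConnOdd
import Fermat.Agent.S15.SelArTrivEt
import Fermat.Agent.S15.SelArCycConn
import Fermat.Agent.S15.FinRedFinal
import Fermat.Agent.S15.SelEisFinal

/-!
# S15 / SELMER block: the assembly

What is proved unconditionally in the block is plugged in here, so that the interface of the
block towards `Plan.lean` / `Top.lean` is

* `stmtFinCoreOdd_of_eis_cnt : StmtSelEis → StmtSelCntOddCr → StmtFinCoreOdd`,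
* `stmtFin_of_core : StmtFinCore → StmtFin`,
* `stmtFin_of_parts : StmtSelEis → StmtSelCntOddCr → StmtFinCoreTwo → StmtFin`,
* `stmtFin_of_cnt : StmtSelCntOddCr → StmtFinCoreTwo → StmtFin` (with `stmtSelEis`, helper72).

Open inputs: `StmtSelCntOddCr` (the count, TORIC × REAL) and `StmtFinCoreTwo` (`r = 2`).
-/

set_option autoImplicit false

namespace Fermat.Agent.S15

open ModularCurve AlgebraicCurve
open Fermat.Agent.S24 Fermat.Agent.W1

/-- the descent for odd `r`, from the composition series and the count -/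
theorem stmtFinCoreOdd_of_eis_cnt (hE : StmtSelEis) (hC : StmtSelCntOddCr) : StmtFinCoreOdd :=
  stmtFinCoreOdd_of_cr stmtSelLocR hE hC stmtFinRed (stmtSelArEt_of stmtSelLQ) stmtSelArConnOdd
    stmtSelArTrivEt stmtSelArCycConn

/-- `StmtFin` of `Plan.lean` is `StmtFinCore` -/
theorem stmtFin_of_core (h : StmtFinCore) : StmtFin := by
  intro p _ hp r hr hrp cr hcr0 hrcr hcrc A hA w hw hdiv
  refine h p hp r hr hrp cr hcr0 hrcr hcrc A hA w hw (fun k => ?_)
  obtain ⟨y, hy, hyw⟩ := hdiv k
  exact ⟨y, mem_selIF.2 hy, hyw⟩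

/-- **SELMER block, assembled**: `StmtFin` from the three open inputs -/
theorem stmtFin_of_parts (hE : StmtSelEis) (hC : StmtSelCntOddCr) (h2 : StmtFinCoreTwo) :
    StmtFin :=
  stmtFin_of_core (stmtFinCore_of_cases (stmtFinCoreOdd_of_eis_cnt hE hC) h2)

/-- the descent for odd `r`, from the count -/
theorem stmtFinCoreOdd_of_cnt (hC : StmtSelCntOddCr) : StmtFinCoreOdd :=
  stmtFinCoreOdd_of_eis_cnt stmtSelEis hC

/-- **SELMER block, assembled**: `StmtFin` from the two open inputs -/
theorem stmtFin_of_cnt (hC : StmtSelCntOddCr) (h2 : StmtFinCoreTwo) : StmtFin :=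
  stmtFin_of_parts stmtSelEis hC h2

end Fermat.Agent.S15
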