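import Fermat.Agent.W1.SubQuot

/-!
# S15 / SEL-GR, part 1: group-like functions lie in every Hopf lattice

`R ⊂ ℚ` a PID with fraction field `ℚ`, `M` a finite abelian group with a map `act`, `H` a Hopf
lattice on `M` (`W1.IsHopfLattice`).

* `selgl_grouplike_mem` : a Galois equivariant function `ψ : M → ℚ̄` with
  `ψ (P + Q) = ψ P * ψ Q` and `ψ 0 = 1` lies in `H`.

So every Hopf order contains the group ring of the dual group: the "tautological character"
never has to be put into the lattice by hand.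

Proof: expand `ψ = ∑ c_k h_k` in an `R`-basis of `H` (the `c_k` are rational since `ψ` is
equivariant); the comultiplication has structure constants in `R`, and `Δψ = ψ ⊗ ψ` gives
`c_i c_j = ∑ ρ_ijk c_k`.  So the finitely generated `R`-module `∑ R c_k ⊂ ℚ` is stable under the
`c_i`, hence the `c_i` are integral over `R`, hence in `R`.
-/

set_option autoImplicit false
set_option linter.unusedSectionVars false
set_option linter.unusedSimpArgs false
set_option linter.style.haveILetI false

namespace Fermat.Agent.S15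

open Fermat.Agent.W1

section Grouplike

variable {R : Subring ℚ} {M : Type} [AddCommGroup M]
  {act : (AlgebraicClosure ℚ ≃ₐ[ℚ] AlgebraicClosure ℚ) → M → M}
  {H : Subalgebra R (M → AlgebraicClosure ℚ)}

/-- The structure map `R → ℚ̄` factors through `ℚ`. -/
theorem selgl_algebraMap (r : R) :
    algebraMap R (AlgebraicClosure ℚ) r = algebraMap ℚ (AlgebraicClosure ℚ) (r : ℚ) := rfl

/-- Evaluation of the expansion of an element of `H` in a basis. -/
theorem selgl_repr_apply {n : ℕ} (b : Module.Basis (Fin n) R H) (x : H) (P : M) :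
    (x : M → AlgebraicClosure ℚ) P =
      ∑ i, algebraMap R (AlgebraicClosure ℚ) (b.repr x i) *
        ((b i : H) : M → AlgebraicClosure ℚ) P := by
  have h1 : x = ∑ i, b.repr x i • b i := (b.sum_repr x).symm
  have h2 := congrArg (fun y : H => (y : M → AlgebraicClosure ℚ) P) h1
  simp only [AddSubmonoidClass.coe_finsetSum, Finset.sum_apply] at h2
  rw [h2]
  refine Finset.sum_congr rfl fun i _ => ?_
  show (b.repr x i • ((b i : H) : M → AlgebraicClosure ℚ)) P = _
  rw [Pi.smul_apply, Algebra.smul_def]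

/-- Expansion of an element of the span of the pure tensors in the products of a basis. -/
theorem selgl_expand {n : ℕ} (b : Module.Basis (Fin n) R H)
    (F : M × M → AlgebraicClosure ℚ)
    (hF : F ∈ Submodule.span R {F : M × M → AlgebraicClosure ℚ |
      ∃ a ∈ H, ∃ b ∈ H, F = fun PQ => a PQ.1 * b PQ.2}) :
    ∃ ρ : Fin n × Fin n → R, ∀ P Q, F (P, Q) =
      ∑ ij : Fin n × Fin n, algebraMap R (AlgebraicClosure ℚ) (ρ ij) *
        (((b ij.1 : H) : M → AlgebraicClosure ℚ) P *
          ((b ij.2 : H) : M → AlgebraicClosure ℚ) Q) := by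
  induction hF using Submodule.span_induction with
  | mem F hF =>
    obtain ⟨a, ha, c, hc, rfl⟩ := hF
    refine ⟨fun ij => b.repr ⟨a, ha⟩ ij.1 * b.repr ⟨c, hc⟩ ij.2, fun P Q => ?_⟩
    show a P * c Q = _
    have ha' := selgl_repr_apply b ⟨a, ha⟩ P
    have hc' := selgl_repr_apply b ⟨c, hc⟩ Q
    simp only at ha' hc'
    rw [ha', hc', Fintype.sum_prod_type, Finset.sum_mul]
    refine Finset.sum_congr rfl fun i _ => ?_
    rw [Finset.mul_sum]
    refine Finset.sum_congr rfl fun j _ => ?_
    rw [map_mul]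
    ring
  | zero =>
    exact ⟨fun _ => 0, fun P Q => by simp⟩
  | add F G _ _ hF hG =>
    obtain ⟨ρ, hρ⟩ := hF
    obtain ⟨ρ', hρ'⟩ := hG
    refine ⟨fun ij => ρ ij + ρ' ij, fun P Q => ?_⟩
    rw [Pi.add_apply, hρ, hρ', ← Finset.sum_add_distrib]
    refine Finset.sum_congr rfl fun ij _ => ?_
    rw [map_add]
    ring
  | smul r F _ hF =>
    obtain ⟨ρ, hρ⟩ := hF
    refine ⟨fun ij => r * ρ ij, fun P Q => ?_⟩
    rw [Pi.smul_apply, hρ, Algebra.smul_def, Finset.mul_sum]
    refine Finset.sum_congr rfl fun ij _ => ?_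
    rw [map_mul]
    ring

variable [IsPrincipalIdealRing R] [IsFractionRing R ℚ]

/-- A rational number which is integral over `R` lies in `R`. -/
theorem selgl_mem_of_isIntegral {q : ℚ} (hq : IsIntegral R q) : ∃ r : R, (r : ℚ) = q := by
  obtain ⟨r, hr⟩ := IsIntegrallyClosed.isIntegral_iff.1 hq
  exact ⟨r, hr⟩

/-- **(GL)** A Galois equivariant group-like function lies in every Hopf lattice. -/
theorem selgl_grouplike_mem [Finite M] (hH : IsHopfLattice R act H)
    (ψ : M → AlgebraicClosure ℚ) (hmul : ∀ P Q, ψ (P + Q) = ψ P * ψ Q) (h0 : ψ 0 = 1)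
    (heq : ∀ (σ : AlgebraicClosure ℚ ≃ₐ[ℚ] AlgebraicClosure ℚ) (P : M),
      ψ (act σ P) = σ (ψ P)) : ψ ∈ H := by
  classical
  obtain ⟨n, b, hli⟩ := sq_exists_basis hH.fg hH.equivariant
  set v : Fin n → M → AlgebraicClosure ℚ := fun i => ((b i : H) : M → AlgebraicClosure ℚ)
    with hv
  obtain ⟨d, hd0, hd⟩ := sq_exists_smul_mem hH.fg hH.equivariant hH.separates ψ heq
  have hdQ : (d : ℚ) ≠ 0 := Nat.cast_ne_zero.2 hd0
  have hdK : (d : AlgebraicClosure ℚ) ≠ 0 := Nat.cast_ne_zero.2 hd0
  -- the rational coefficients of `ψ`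
  set c : Fin n → ℚ := fun k => ((b.repr ⟨d • ψ, hd⟩ k : R) : ℚ) / d with hc
  have hψ : ∀ P, ψ P = ∑ k, algebraMap ℚ (AlgebraicClosure ℚ) (c k) * v k P := by
    intro P
    have h1 : (d : AlgebraicClosure ℚ) * ψ P =
        ∑ k, algebraMap R (AlgebraicClosure ℚ) (b.repr ⟨d • ψ, hd⟩ k) * v k P := by
      rw [← selgl_repr_apply b ⟨d • ψ, hd⟩ P]
      show _ = (d • ψ) P
      rw [Pi.smul_apply, nsmul_eq_mul]
    have h2 : ψ P = (d : AlgebraicClosure ℚ)⁻¹ * ((d : AlgebraicClosure ℚ) * ψ P) := by
      field_simp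
    rw [h2, h1, Finset.mul_sum]
    refine Finset.sum_congr rfl fun k _ => ?_
    have h3 : algebraMap ℚ (AlgebraicClosure ℚ) (c k) =
        algebraMap R (AlgebraicClosure ℚ) (b.repr ⟨d • ψ, hd⟩ k) / (d : AlgebraicClosure ℚ) := by
      rw [hc, selgl_algebraMap]
      simp only [map_div₀, map_natCast]
    rw [h3]
    field_simp
  -- the structure constants
  choose ρ hρ using fun k => selgl_expand b _ (hH.comul_mem _ (b k).2)
  -- comparison of coefficients
  have hprod := linearIndependent_prod_fun v v hli hli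
  have hrel : ∀ i j, c i * c j = ∑ k, (ρ k (i, j) : ℚ) * c k := by
    have h1 : ∑ ij : Fin n × Fin n,
        (algebraMap ℚ (AlgebraicClosure ℚ) (c ij.1 * c ij.2 - ∑ k, (ρ k ij : ℚ) * c k)) •
          (fun xy : M × M => v ij.1 xy.1 * v ij.2 xy.2) = 0 := by
      funext PQ
      obtain ⟨P, Q⟩ := PQ
      simp only [Finset.sum_apply, Pi.smul_apply, smul_eq_mul, Pi.zero_apply, map_sub,
        map_mul, map_sum, sub_mul, Finset.sum_sub_distrib]
      rw [sub_eq_zero]
      have hL : ∑ ij : Fin n × Fin n, algebraMap ℚ (AlgebraicClosure ℚ) (c ij.1) *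
          algebraMap ℚ (AlgebraicClosure ℚ) (c ij.2) * (v ij.1 P * v ij.2 Q) = ψ P * ψ Q := by
        rw [hψ P, hψ Q, Fintype.sum_prod_type, Finset.sum_mul]
        refine Finset.sum_congr rfl fun i _ => ?_
        rw [Finset.mul_sum]
        refine Finset.sum_congr rfl fun j _ => ?_
        ring
      have hRt : ∑ ij : Fin n × Fin n,
          (∑ k, algebraMap ℚ (AlgebraicClosure ℚ) (ρ k ij : ℚ) *
            algebraMap ℚ (AlgebraicClosure ℚ) (c k)) * (v ij.1 P * v ij.2 Q) =
          ψ (P + Q) := by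
        rw [hψ (P + Q)]
        have h3 : ∀ k, v k (P + Q) = ∑ ij : Fin n × Fin n,
            algebraMap R (AlgebraicClosure ℚ) (ρ k ij) * (v ij.1 P * v ij.2 Q) :=
          fun k => hρ k P Q
        simp only [h3, Finset.mul_sum, Finset.sum_mul]
        rw [Finset.sum_comm]
        refine Finset.sum_congr rfl fun k _ => ?_
        refine Finset.sum_congr rfl fun ij _ => ?_
        rw [selgl_algebraMap]
        ring
      rw [hL, hRt, hmul]
    intro i j
    have h2 := Fintype.linearIndependent_iff.1 hprod _ h1 (i, j)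
    have h3 := (algebraMap ℚ (AlgebraicClosure ℚ)).injective
      (h2.trans (map_zero _).symm)
    exact sub_eq_zero.1 h3
  -- the module generated by the coefficients
  set Λ : Submodule R ℚ := Submodule.span R (Set.range c) with hΛ
  have hΛfg : Λ.FG := Submodule.fg_span (Set.finite_range c)
  have hΛne : Λ ≠ ⊥ := by
    intro hbot
    have h1 : ∀ k, c k = 0 := fun k => by
      have : c k ∈ Λ := Submodule.subset_span ⟨k, rfl⟩
      rw [hbot] at this
      exact (Submodule.mem_bot R).1 this
    have h2 := hψ 0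
    simp only [h1, map_zero, zero_mul, Finset.sum_const_zero] at h2
    rw [h0] at h2
    exact one_ne_zero h2
  have hstab : ∀ i, ∀ x ∈ Λ, c i • x ∈ Λ := by
    intro i x hx
    induction hx using Submodule.span_induction with
    | mem x hx =>
      obtain ⟨j, rfl⟩ := hx
      rw [smul_eq_mul, hrel i j]
      refine Submodule.sum_mem _ fun k _ => ?_
      have h1 : ((ρ k (i, j) : R) : ℚ) * c k = (ρ k (i, j)) • c k := by
        rw [Algebra.smul_def]; rfl
      rw [h1]
      exact Submodule.smul_mem _ _ (Submodule.subset_span ⟨k, rfl⟩)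
    | zero => rw [smul_zero]; exact Λ.zero_mem
    | add x y _ _ hx hy => rw [smul_add]; exact Λ.add_mem hx hy
    | smul r x _ hx =>
      rw [smul_comm]
      exact Λ.smul_mem r hx
  have hint : ∀ i, IsIntegral R (c i) := fun i =>
    isIntegral_of_smul_mem_submodule Λ hΛne hΛfg (c i) (hstab i)
  choose r hr using fun i => selgl_mem_of_isIntegral (hint i)
  have hfinal : ψ = ∑ i, r i • v i := by
    funext P
    rw [hψ P, Finset.sum_apply]
    refine Finset.sum_congr rfl fun i _ => ?_
    rw [Pi.smul_apply, Algebra.smul_def, selgl_algebraMap, hr i]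
  rw [hfinal]
  exact H.sum_mem fun i _ => H.smul_mem (b i).2 _

end Grouplike

end Fermat.Agent.S15
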