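import Fermat.Agent.S15.SelGL

/-!
# S15 / SEL-GR: the Kummer generator of a flat extension is a unit class

`R ⊂ ℚ` a PID with fraction field `ℚ`, `E` a finite abelian group with a map `act` and a Hopf
lattice `H` (`W1.IsHopfLattice`), `K ≤ E` a stable subgroup, `ψ` a Galois equivariant character of
`K`, `c ∈ E` with `act σ c - c ∈ K` for all `σ`, and `α ≠ 0` with `σ α = ψ (act σ c - c) * α`.

* `selgr_unit` : there is a rational `q ≠ 0` such that `q α` and `(q α)⁻¹` are integral over `R`.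

No grading, no classification of Hopf orders of rank `r`; `E / K` is arbitrary; `r = 2` allowed.

Proof.  `ψ` extends to `ψ̃ ∈ H` (`selgl_grouplike_mem` on `K`).  By the comultiplication,
`e ↦ ψ̃ (e - c)` is a combination of elements of `H` with coefficients integral over `R`.  On the
coset `c + K` the function `Λ = ψ (· - c) α` is Galois equivariant, so it has rational coordinates
`b_m` in an `R`-basis `w_m` of the restricted lattice, and `α S_m = b_m` with `S_m` integral.  With
`g = gcd (b_m)`: `g / α = ∑ t_m S_m` is integral and `α / g = (Λ / g) (c)` is integral.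
-/

set_option autoImplicit false
set_option linter.unusedSectionVars false
set_option linter.unusedSimpArgs false
set_option linter.style.haveILetI false

namespace Fermat.Agent.S15

open Fermat.Agent.W1

section UnitClass

variable {R : Subring ℚ} {E : Type}
  {H : Subalgebra R (E → AlgebraicClosure ℚ)}

/-- Values of the elements of a finitely generated lattice of functions are integral. -/
theorem selgr_isIntegral_apply (hfg : (Subalgebra.toSubmodule H).FG)
    {h : E → AlgebraicClosure ℚ} (hh : h ∈ H) (P : E) : IsIntegral R (h P) := by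
  haveI : Module.Finite R H := Module.Finite.iff_fg.2 hfg
  have hint : IsIntegral R (⟨h, hh⟩ : H) := Algebra.IsIntegral.isIntegral _
  exact hint.map ((Pi.evalAlgHom R (fun _ : E => AlgebraicClosure ℚ) P).comp H.val)

variable [AddCommGroup E]
  {act : (AlgebraicClosure ℚ ≃ₐ[ℚ] AlgebraicClosure ℚ) → E → E}
  [IsPrincipalIdealRing R] [IsFractionRing R ℚ]

/-- The map `act σ` of a Hopf lattice is additive. -/
theorem selgr_act_add (hH : IsHopfLattice R act H)
    (σ : AlgebraicClosure ℚ ≃ₐ[ℚ] AlgebraicClosure ℚ) (P Q : E) :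
    act σ (P + Q) = act σ P + act σ Q := by
  obtain ⟨n, b, -⟩ := sq_exists_basis hH.fg hH.equivariant
  refine hH.separates _ _ fun h hh => ?_
  obtain ⟨ρ, hρ⟩ := selgl_expand b _ (hH.comul_mem h hh)
  have h1 : h (act σ P + act σ Q) = _ := hρ (act σ P) (act σ Q)
  have h2 : h (P + Q) = _ := hρ P Q
  rw [hH.equivariant h hh σ (P + Q), h1, h2, map_sum]
  refine Finset.sum_congr rfl fun ij _ => ?_
  rw [map_mul, map_mul, hH.equivariant _ (b ij.1).2, hH.equivariant _ (b ij.2).2,
    selgl_algebraMap, σ.commutes]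

/-- **(GR)** The Kummer generator of a flat extension is a unit class. -/
theorem selgr_unit [Finite E] (hH : IsHopfLattice R act H) (K : AddSubgroup E)
    (hK : ∀ σ, ∀ v ∈ K, act σ v ∈ K)
    (ψ : E → AlgebraicClosure ℚ)
    (hmul : ∀ u ∈ K, ∀ v ∈ K, ψ (u + v) = ψ u * ψ v) (h0 : ψ 0 = 1)
    (heq : ∀ (σ : AlgebraicClosure ℚ ≃ₐ[ℚ] AlgebraicClosure ℚ), ∀ v ∈ K,
      ψ (act σ v) = σ (ψ v))
    (c : E) (hc : ∀ σ, act σ c - c ∈ K)
    (α : AlgebraicClosure ℚ) (hα : α ≠ 0)
    (hαeq : ∀ σ : AlgebraicClosure ℚ ≃ₐ[ℚ] AlgebraicClosure ℚ,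
      σ α = ψ (act σ c - c) * α) :
    ∃ q : ℚ, q ≠ 0 ∧ IsIntegral R (algebraMap ℚ (AlgebraicClosure ℚ) q * α) ∧
      IsIntegral R (algebraMap ℚ (AlgebraicClosure ℚ) q * α)⁻¹ := by
  classical
  -- Step 1: the lattice on `K` and the extension `ψt ∈ H` of `ψ`
  have hHK : IsHopfLattice R (fun σ (v : K) => (⟨act σ v, hK σ v v.2⟩ : K))
      (H.map (pullFn R K.subtype)) :=
    sq_sub hH K.subtype K.subtype_injective (fun σ P => rfl)
  have hψK : (fun v : K => ψ v) ∈ H.map (pullFn R K.subtype) :=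
    selgl_grouplike_mem hHK _ (fun P Q => hmul _ P.2 _ Q.2) h0 (fun σ P => heq σ _ P.2)
  obtain ⟨ψt, hψt, hψtK⟩ := hψK
  have hψt' : ∀ v : K, ψt v = ψ v := fun v => congrFun hψtK v
  -- Step 2: a basis of `H` and the expansion of the comultiplication of `ψt`
  obtain ⟨n, b, -⟩ := sq_exists_basis hH.fg hH.equivariant
  obtain ⟨ρ, hρ⟩ := selgl_expand b _ (hH.comul_mem ψt hψt)
  -- Step 3: the lattice on the coset `c + K`, transported to `K`
  have hmemX : ∀ (σ : AlgebraicClosure ℚ ≃ₐ[ℚ] AlgebraicClosure ℚ) (v : K),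
      act σ (c + v) - c ∈ K := by
    intro σ v
    have h1 : act σ (c + v) - c = (act σ c - c) + act σ v := by
      rw [selgr_act_add hH]; abel
    rw [h1]
    exact K.add_mem (hc σ) (hK σ v v.2)
  set ι : K → E := fun v => c + v with hι
  set actX : (AlgebraicClosure ℚ ≃ₐ[ℚ] AlgebraicClosure ℚ) → K → K :=
    fun σ v => ⟨act σ (c + v) - c, hmemX σ v⟩ with hactX
  set HX : Subalgebra R (K → AlgebraicClosure ℚ) := H.map (pullFn R ι) with hHX
  have hXfg : (Subalgebra.toSubmodule HX).FG := by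
    rw [hHX, Subalgebra.map_toSubmodule]
    exact hH.fg.map _
  have hXeq : ∀ h ∈ HX, ∀ (σ : AlgebraicClosure ℚ ≃ₐ[ℚ] AlgebraicClosure ℚ) (P : K),
      h (actX σ P) = σ (h P) := by
    rintro _ ⟨h, hh, rfl⟩ σ P
    show h (c + (act σ (c + P) - c)) = σ (h (c + P))
    rw [add_sub_cancel, hH.equivariant h hh]
  have hXsep : ∀ P Q : K, (∀ h ∈ HX, h P = h Q) → P = Q := by
    intro P Q hPQ
    have h1 : c + (P : E) = c + (Q : E) :=
      hH.separates _ _ fun h hh => hPQ _ ⟨h, hh, rfl⟩
    exact Subtype.ext (add_left_cancel h1)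
  obtain ⟨m, w, hw⟩ := sq_exists_basis hXfg hXeq
  -- Step 4: the equivariant function `Λ = ψ α`
  set Λ : K → AlgebraicClosure ℚ := fun v => ψ v * α with hΛ
  have hΛeq : ∀ (σ : AlgebraicClosure ℚ ≃ₐ[ℚ] AlgebraicClosure ℚ) (P : K),
      Λ (actX σ P) = σ (Λ P) := by
    intro σ P
    show ψ (act σ (c + P) - c) * α = σ (ψ P * α)
    have h1 : act σ (c + P) - c = (act σ c - c) + act σ P := by
      rw [selgr_act_add hH]; abel
    rw [h1, hmul _ (hc σ) _ (hK σ P P.2), heq σ P P.2, map_mul, hαeq σ]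
    ring
  obtain ⟨d, hd0, hd⟩ := sq_exists_smul_mem hXfg hXeq hXsep Λ hΛeq
  have hdK : (d : AlgebraicClosure ℚ) ≠ 0 := Nat.cast_ne_zero.2 hd0
  -- Step 5: coordinates
  have hvX : ∀ j, (fun v : K => ((b j : H) : E → AlgebraicClosure ℚ) (c + v)) ∈ HX :=
    fun j => ⟨_, (b j).2, rfl⟩
  set S : Fin m → AlgebraicClosure ℚ := fun k =>
    ∑ ij : Fin n × Fin n, algebraMap R (AlgebraicClosure ℚ) (ρ ij) *
      (((b ij.1 : H) : E → AlgebraicClosure ℚ) (-c) *
        algebraMap R (AlgebraicClosure ℚ) (w.repr ⟨_, hvX ij.2⟩ k)) with hS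
  have hSint : ∀ k, IsIntegral R (S k) := by
    intro k
    refine IsIntegral.sum _ fun ij _ => ?_
    exact isIntegral_algebraMap.mul
      ((selgr_isIntegral_apply hH.fg (b ij.1).2 _).mul isIntegral_algebraMap)
  have hψS : ∀ v : K, ψ v = ∑ k, S k * ((w k : HX) : K → AlgebraicClosure ℚ) v := by
    intro v
    have h1 : ψt (-c + (c + v)) = _ := hρ (-c) (c + v)
    rw [neg_add_cancel_left, hψt'] at h1
    rw [h1]
    have h2 : ∀ j, ((b j : H) : E → AlgebraicClosure ℚ) (c + v) =
        ∑ k, algebraMap R (AlgebraicClosure ℚ) (w.repr ⟨_, hvX j⟩ k) *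
          ((w k : HX) : K → AlgebraicClosure ℚ) v :=
      fun j => selgl_repr_apply w ⟨_, hvX j⟩ v
    simp only [hS, h2, Finset.mul_sum, Finset.sum_mul]
    rw [Finset.sum_comm]
    refine Finset.sum_congr rfl fun k _ => ?_
    refine Finset.sum_congr rfl fun ij _ => ?_
    ring
  set r : Fin m → R := fun k => w.repr ⟨d • Λ, hd⟩ k with hr
  have hdΛ : ∀ v : K, (d : AlgebraicClosure ℚ) * (ψ v * α) =
      ∑ k, algebraMap R (AlgebraicClosure ℚ) (r k) *
        ((w k : HX) : K → AlgebraicClosure ℚ) v := by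
    intro v
    rw [← selgl_repr_apply w ⟨d • Λ, hd⟩ v]
    show _ = (d • Λ) v
    rw [Pi.smul_apply, nsmul_eq_mul]
  have hcoef : ∀ k, (d : AlgebraicClosure ℚ) * α * S k =
      algebraMap R (AlgebraicClosure ℚ) (r k) := by
    have h1 : ∑ k, ((d : AlgebraicClosure ℚ) * α * S k -
        algebraMap R (AlgebraicClosure ℚ) (r k)) •
          (fun k => ((w k : HX) : K → AlgebraicClosure ℚ)) k = 0 := by
      funext v
      simp only [Finset.sum_apply, Pi.smul_apply, smul_eq_mul, Pi.zero_apply, sub_mul,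
        Finset.sum_sub_distrib]
      rw [sub_eq_zero, ← hdΛ v, hψS v, Finset.sum_mul, Finset.mul_sum]
      refine Finset.sum_congr rfl fun k _ => ?_
      ring
    intro k
    exact sub_eq_zero.1 (Fintype.linearIndependent_iff.1 hw _ h1 k)
  -- Step 6: the gcd of the coordinates
  obtain ⟨g₀, hg₀⟩ := (IsPrincipalIdealRing.principal (Ideal.span (Set.range r))).principal
  have hg₀mem : g₀ ∈ Ideal.span (Set.range r) := by
    rw [hg₀]; exact Submodule.mem_span_singleton_self g₀
  obtain ⟨t, ht⟩ := (Submodule.mem_span_range_iff_exists_fun R).1 hg₀mem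
  have hu : ∀ k, ∃ u : R, u * g₀ = r k := by
    intro k
    have h1 : r k ∈ Ideal.span (Set.range r) := Ideal.subset_span ⟨k, rfl⟩
    rw [hg₀] at h1
    exact Ideal.mem_span_singleton'.1 h1
  choose u hu using hu
  -- Step 7: `g₀ ≠ 0`
  have hg₀0 : g₀ ≠ 0 := by
    intro h
    have h1 : ∀ k, r k = 0 := fun k => by rw [← hu k, h, mul_zero]
    have h2 := hdΛ 0
    simp only [h1, map_zero, zero_mul, Finset.sum_const_zero] at h2
    rw [ZeroMemClass.coe_zero, h0, one_mul] at h2
    rcases mul_eq_zero.1 h2 with h3 | h3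
    · exact hdK h3
    · exact hα h3
  have hg₀Q : ((g₀ : R) : ℚ) ≠ 0 := fun h => hg₀0 (Subtype.ext h)
  have hg₀K : algebraMap R (AlgebraicClosure ℚ) g₀ ≠ 0 := by
    rw [selgl_algebraMap]
    exact fun h => hg₀Q ((algebraMap ℚ (AlgebraicClosure ℚ)).injective (h.trans (map_zero _).symm))
  -- Step 8: the unit
  refine ⟨(d : ℚ) / (g₀ : ℚ), div_ne_zero (Nat.cast_ne_zero.2 hd0) hg₀Q, ?_, ?_⟩
  · -- `q α` is the value at `0` of an element of `HX`
    have hx : (∑ k, u k • (w k : HX) : HX).1 ∈ HX := (∑ k, u k • (w k : HX) : HX).2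
    have h1 := selgr_isIntegral_apply hXfg hx 0
    have h2 : ((∑ k, u k • (w k : HX) : HX) : K → AlgebraicClosure ℚ) 0 =
        algebraMap ℚ (AlgebraicClosure ℚ) ((d : ℚ) / (g₀ : ℚ)) * α := by
      have h3 : algebraMap R (AlgebraicClosure ℚ) g₀ *
          ((∑ k, u k • (w k : HX) : HX) : K → AlgebraicClosure ℚ) 0 =
          (d : AlgebraicClosure ℚ) * α := by
        have h4 := hdΛ 0
        rw [ZeroMemClass.coe_zero, h0, one_mul] at h4
        rw [h4]
        simp only [AddSubmonoidClass.coe_finsetSum, Finset.sum_apply, Finset.mul_sum]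
        refine Finset.sum_congr rfl fun k _ => ?_
        rw [← hu k, map_mul]
        show _ * (u k • ((w k : HX) : K → AlgebraicClosure ℚ)) 0 = _
        rw [Pi.smul_apply, Algebra.smul_def]
        ring
      rw [map_div₀, map_natCast, ← selgl_algebraMap]
      field_simp
      rw [← h3]
      ring
    rw [← h2]
    exact h1
  · -- `(q α)⁻¹ = ∑ t_k S_k`
    have h1 : IsIntegral R (∑ k, algebraMap R (AlgebraicClosure ℚ) (t k) * S k) :=
      IsIntegral.sum _ fun k _ => isIntegral_algebraMap.mul (hSint k)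
    have h2 : (algebraMap ℚ (AlgebraicClosure ℚ) ((d : ℚ) / (g₀ : ℚ)) * α)⁻¹ =
        ∑ k, algebraMap R (AlgebraicClosure ℚ) (t k) * S k := by
      have h3 : (d : AlgebraicClosure ℚ) * α *
          ∑ k, algebraMap R (AlgebraicClosure ℚ) (t k) * S k =
          algebraMap R (AlgebraicClosure ℚ) g₀ := by
        rw [← ht, map_sum, Finset.mul_sum]
        refine Finset.sum_congr rfl fun k _ => ?_
        rw [smul_eq_mul, map_mul, ← hcoef k]
        ring
      rw [map_div₀, map_natCast, ← selgl_algebraMap, ← h3]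
      field_simp
    rw [h2]
    exact h1

end UnitClass

end Fermat.Agent.S15
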