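import Fermat.Agent.W1.GeoAll
import Fermat.Agent.S15.SelJJ

/-!
# S15 / SELMER, piece SEL-JJ (part 2): the kernel chart of `J₀(N)` with FULL lift, and the
Hopf lattice on `𝕁_y[n]` for `J = J₀(N)`

* `seljj_kcFull_of` / `seljj_kcFull` : for a reduction package `ModPR N A g R t` the kernel of
  reduction `R.J1` carries a kernel chart, and EVERY `x ∈ J₀(N)` (torsion or not) is congruent
  modulo `R.J1` to a point fixed by inertia.
* `seljj_hopfLattice_JZero` : the Hopf lattice over `ℤ_(p)` on `𝕁_y[n]`, `y ∈ J₀(N)^{G_ℚ}`.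
-/

set_option autoImplicit false
set_option linter.style.haveILetI false

open AlgebraicCurve Module ModularCurve

namespace Fermat.Agent.S15

open Fermat.Agent.W1

/-- the kernel chart on the kernel of reduction of a package, with FULL lift (conditional form) -/
theorem seljj_kcFull_of (hDisc : StmtDisc) (hC1 : StmtC1) (hLift : StmtLift)
    (hAdd : StmtAddApprox) (hTeich : StmtTeich)
    (N : ℕ) [NeZero N] (p : ℕ) (hp : p.Prime) (A : ValuationSubring (AlgebraicClosure ℚ))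
    (hA : A.LiesOverPrime p) (g : ℕ)
    (R : PRData (AlgebraicClosure ℚ) ↥(modularFunctionFieldBar N) (IsLocalRing.ResidueField A)
      ↥(modularFunctionFieldFullC (IsLocalRing.ResidueField A) N) A)
    (t : ↥(modularFunctionFieldBar N)) (hM : ModPR N A g R t) :
    ∃ z : JZero N → Fin g → AlgebraicClosure ℚ, KernelChart A (JZero N) R.J1 g z ∧
      ∀ x : JZero N, ∃ b : JZero N, (∀ σ ∈ A.inertiaSubgroupIn ℚ, σ • b = b) ∧ x - b ∈ R.J1 := by
  obtain ⟨S, hS⟩ := hTeich p hp A hA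
  have hSsurj : ∀ c : IsLocalRing.ResidueField A, ∃ s ∈ S, R.res s = c := by
    rw [hM.res_eq]; exact hS.surj
  have hSinj : ∀ s ∈ S, ∀ s' ∈ S, R.res s = R.res s' → s = s' := by
    rw [hM.res_eq]; exact hS.inj
  have ht : t ∈ R.O := hM.good.1
  obtain ⟨C, hC, hRep, hCt, hcS⟩ := kc_exists_chart hDisc hM.isPR hM.nice hM.nice_k t ht hM.good
    (hM.ram ht) S hSsurj hSinj
  subst hCt
  have hspec : ∀ x : JZero N, x ∈ R.J1 → C.IsCoord x (kcCoord C x) := fun x hx =>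
    kcCoord_spec (isCoord_exists hDisc hC1 hM.isPR hM.nice hM.nice_k hM.orth hC hx)
  have hdecomp : ∀ σ ∈ A.decompositionSubgroup ℚ, ∀ x ∈ R.J1, σ • x ∈ R.J1 := by
    intro σ hσ x hx
    obtain ⟨σb, h1, h2⟩ := hM.decomp σ hσ
    exact kc_smul_mem_J1 (arithmeticGalois (modularFunctionFieldFull N) σ) σb h1 h2 hx
  have hliftAll : ∀ x : JZero N, ∃ b : JZero N,
      (∀ σ ∈ A.inertiaSubgroupIn ℚ, σ • b = b) ∧ x - b ∈ R.J1 := by
    intro x
    obtain ⟨b, hb1, hb2⟩ := kc_lift hDisc hLift hM.isPR hM.nice hM.nice_k ht hM.good (hM.ram ht)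
      hSsurj x
    exact ⟨b, fun σ hσ => hb2 _ (kc_inertiaLike hM hS hσ), hb1⟩
  refine ⟨kcCoord C, ⟨hdecomp, ?_, ?_, ?_, ?_, fun x _ => hliftAll x⟩, hliftAll⟩
  · intro x hx i
    obtain ⟨P, -, hPd⟩ := hspec x hx
    exact (hPd i).2.1
  · intro x hx y hy hxy
    have h1 := hspec x hx
    have h2 := hspec y hy
    rw [← hxy] at h2
    exact isCoord_inj hDisc hM.isPR hM.nice hM.nice_k hC h1 h2
  · intro σ hσ x hx i
    have hσx : σ • x ∈ R.J1 :=
      hdecomp σ (Fermat.Agent.S05.mem_decomposition_of_mem_inertiaIn hσ) x hx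
    have h1 := isCoord_smul hDisc hM.isPR hM.nice hM.nice_k hC hcS (kc_inertiaLike hM hS hσ)
      (hspec x hx)
    have h2 := kcCoord_eq hC1 hM.isPR hM.nice hM.nice_k hM.orth hC hσx h1
    exact congrFun h2 i
  · intro ϖ hϖ hϖ0 n
    obtain ⟨Φ, hΦ, h⟩ := kc_add_approx hAdd hM.isPR hM.nice hM.nice_k hM.orth hC hRep n
    refine ⟨Φ, hΦ, fun x hx y hy hzx hzy => ?_⟩
    exact h ϖ hϖ hϖ0 x y _ _ _ (hspec x hx) (hspec y hy)
      (hspec (x + y) (R.J1.add_mem hx hy)) hzx hzy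

/-- **the kernel chart with FULL lift, unconditional** -/
theorem seljj_kcFull (N : ℕ) [NeZero N] (p : ℕ) (hp : p.Prime)
    (A : ValuationSubring (AlgebraicClosure ℚ)) (hA : A.LiesOverPrime p) (g : ℕ)
    (R : PRData (AlgebraicClosure ℚ) ↥(modularFunctionFieldBar N) (IsLocalRing.ResidueField A)
      ↥(modularFunctionFieldFullC (IsLocalRing.ResidueField A) N) A)
    (t : ↥(modularFunctionFieldBar N)) (hM : ModPR N A g R t) :
    ∃ z : JZero N → Fin g → AlgebraicClosure ℚ, KernelChart A (JZero N) R.J1 g z ∧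
      ∀ x : JZero N, ∃ b : JZero N, (∀ σ ∈ A.inertiaSubgroupIn ℚ, σ • b = b) ∧ x - b ∈ R.J1 :=
  seljj_kcFull_of stmtDisc stmtC1 stmtLift stmtAddApprox stmtTeich N p hp A hA g R t hM

/-- **SEL-JJ for `J₀(N)`** (still with ALG-A, ALG-B as hypotheses, to keep the closure small):
a reduction package at `A ∣ p` gives a Hopf lattice over `ℤ_(p)` on `𝕁_y[n]`. -/
theorem seljj_hopfLattice_JZero (hA : LocalToGlobalStatement) (hB : ChartToLocalStatement)
    (N : ℕ) [NeZero N] (p : ℕ) (hp : p.Prime)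
    (A : ValuationSubring (AlgebraicClosure ℚ)) (hAp : A.LiesOverPrime p) (hPR : HasModPR N A)
    (y : JZero N) [hy : Fact (∀ σ : AlgebraicClosure ℚ ≃ₐ[ℚ] AlgebraicClosure ℚ, σ • y = y)]
    (n : ℕ) (hn : 0 < n)
    (hfin : Finite (Submodule.torsionBy ℤ (JZero N) (n : ℤ)))
    (hcont : ∀ R : JZero N, (∃ m : ℤ, (n : ℤ) • R + m • y = 0) →
      ∃ E : IntermediateField ℚ (AlgebraicClosure ℚ), FiniteDimensional ℚ E ∧
        ∀ σ : AlgebraicClosure ℚ ≃ₐ[ℚ] AlgebraicClosure ℚ, (∀ a ∈ E, σ a = a) → σ • R = R) :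
    ∃ H : Subalgebra (GaloisRep.ratLocalizedAt p)
        (Submodule.torsionBy ℤ (SeljjJ (JZero N) y n) (n : ℤ) → AlgebraicClosure ℚ),
      IsHopfLattice (GaloisRep.ratLocalizedAt p) (torsAct (SeljjJ (JZero N) y n) (n : ℤ)) H := by
  obtain ⟨g, R, t, hM⟩ := hPR
  obtain ⟨z, hKC, hlift⟩ := seljj_kcFull N p hp A hAp g R t hM
  exact seljj_hopfLattice hA hB p hp A hAp (JZero N) R.J1 g z hKC hlift y n hn hfin hcont

/-- **SEL-JJ for `J₀(N)`, reduction-continuous form**: for a reduction package `ModPR N A g R t`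
at `A ∣ p`, the Hopf lattice over `ℤ_(p)` on `𝕁_y[n]` with `h t - h t' ∈ 𝔪_A` whenever `t - t'`
lies in (the image of) the kernel of reduction `R.J1`. -/
theorem seljj_hopfLattice_rc_JZero (hRC : SeljjRCStatement)
    (N : ℕ) [NeZero N] (p : ℕ) (hp : p.Prime)
    (A : ValuationSubring (AlgebraicClosure ℚ)) (hAp : A.LiesOverPrime p) (g : ℕ)
    (R : PRData (AlgebraicClosure ℚ) ↥(modularFunctionFieldBar N) (IsLocalRing.ResidueField A)
      ↥(modularFunctionFieldFullC (IsLocalRing.ResidueField A) N) A)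
    (t : ↥(modularFunctionFieldBar N)) (hM : ModPR N A g R t)
    (y : JZero N) [hy : Fact (∀ σ : AlgebraicClosure ℚ ≃ₐ[ℚ] AlgebraicClosure ℚ, σ • y = y)]
    (n : ℕ) (hn : 0 < n)
    (hfin : Finite (Submodule.torsionBy ℤ (JZero N) (n : ℤ)))
    (hcont : ∀ x : JZero N, (∃ m : ℤ, (n : ℤ) • x + m • y = 0) →
      ∃ E : IntermediateField ℚ (AlgebraicClosure ℚ), FiniteDimensional ℚ E ∧
        ∀ σ : AlgebraicClosure ℚ ≃ₐ[ℚ] AlgebraicClosure ℚ, (∀ a ∈ E, σ a = a) → σ • x = x) :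
    ∃ H : Subalgebra (GaloisRep.ratLocalizedAt p)
        (Submodule.torsionBy ℤ (SeljjJ (JZero N) y n) (n : ℤ) → AlgebraicClosure ℚ),
      IsHopfLattice (GaloisRep.ratLocalizedAt p) (torsAct (SeljjJ (JZero N) y n) (n : ℤ)) H ∧
      ∀ h ∈ H, ∀ u u' : Submodule.torsionBy ℤ (SeljjJ (JZero N) y n) (n : ℤ),
        (u : SeljjJ (JZero N) y n) - (u' : SeljjJ (JZero N) y n) ∈
            R.J1.map (seljjIota (JZero N) y n) →
          h u - h u' ∈ A.nonunits := by
  obtain ⟨z, hKC, hlift⟩ := seljj_kcFull N p hp A hAp g R t hM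
  exact seljj_hopfLattice_rc hRC p hp A hAp (JZero N) R.J1 g z hKC hlift y n hn hfin hcont

end Fermat.Agent.S15
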