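import Fermat.Agent.S15.SelJJKC

/-!
# S15 / SELMER, piece SEL-LQ: the local fact (L-q) — division points are unramified at `q ∤ rN`

`NOTES/S15-FIN.md` §2, (L-q).  `J = J₀(N)`, `q` a prime with `q ∤ N`, `A` a valuation ring of `ℚ̄`
over `q`, `σ` in the inertia group of `A`, `j ∈ J`:

  if `σ j − j` is killed by `r ^ k` for a prime `r ≠ q`, then `σ j = j`.

Proof.  By the FULL lift (`seljj_kcFull`) `j = b + u` with `b` fixed by inertia and `u` in the
kernel of reduction `J¹`; so `σ j − j = σ u − u ∈ J¹` (`J¹` is stable under the decomposition group)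
and `J¹` has no torsion prime to `q` (S18-J1, here the hypothesis `SellqJ1Statement`).
For `q ∈ {2, 3}` the reduction package exists only at the levels divisible by `5 − q`; if
`5 − q ∤ N` we go through the level-up `J₀(N) → J₀(N (5 − q))` (`W1.stmtLevelUp`), which is Galois
equivariant and injective on `r`-power torsion.

* `sellq_abstract`     : the abstract lemma (any group `G`, subgroup `I`, module `J`, subgroup `J1`);
* `sellq_sub_mem_J1`   : `σ j − j ∈ R.J1` for `σ` in inertia, any `j` (this is also (L-r, ét));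
* `SellqJ1Statement`   : the shape of S18-J1 used here;
* `SellqPRStatement`, `SellqLvlStatement` : the two landed inputs (GEO-PR, GEO-LVL), as
  hypotheses to keep the closure of this file small (proved in `SelLQFinal.lean`);
* `sellq_of_modPR`     : (L-q) at a level with a reduction package;
* `sellq_levelUp`      : (L-q) comes down along a level-up map;
* `sellq_main_of`      : (L-q) for every `N`, every prime `q ∤ N`, every prime `r ≠ q`.
-/

set_option autoImplicit false
set_option linter.style.haveILetI false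
set_option synthInstance.maxHeartbeats 400000
set_option maxHeartbeats 1600000

open AlgebraicCurve Module ModularCurve

namespace Fermat.Agent.S15

open Fermat.Agent.W1

/-- the difference `σ j − j` lies in `J1`, for `σ ∈ I` (abstract form): if every point is
congruent modulo the `I`-stable subgroup `J1` to a point fixed by `I`. -/
theorem sellq_sub_mem_abstract {G J : Type*} [Group G] [AddCommGroup J] [DistribMulAction G J]
    (I : Subgroup G) (J1 : AddSubgroup J)
    (hstab : ∀ σ ∈ I, ∀ x ∈ J1, σ • x ∈ J1)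
    (hlift : ∀ x : J, ∃ b : J, (∀ σ ∈ I, σ • b = b) ∧ x - b ∈ J1)
    {σ : G} (hσ : σ ∈ I) (j : J) : σ • j - j ∈ J1 := by
  obtain ⟨b, hb, hu⟩ := hlift j
  have h1 : σ • j - j = σ • (j - b) - (j - b) := by
    rw [smul_sub, hb σ hσ]; abel
  rw [h1]; exact J1.sub_mem (hstab σ hσ _ hu) hu

/-- **(L-q), abstract form.**  If every point is congruent modulo `J1` to a point fixed by `I`,
`J1` is `I`-stable and has no `m`-torsion, then an element of `I` which moves `j` by an
`m`-torsion point fixes `j`. -/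
theorem sellq_abstract {G J : Type*} [Group G] [AddCommGroup J] [DistribMulAction G J]
    (I : Subgroup G) (J1 : AddSubgroup J)
    (hstab : ∀ σ ∈ I, ∀ x ∈ J1, σ • x ∈ J1)
    (hlift : ∀ x : J, ∃ b : J, (∀ σ ∈ I, σ • b = b) ∧ x - b ∈ J1)
    (m : ℕ) (htf : ∀ x ∈ J1, m • x = 0 → x = 0)
    {σ : G} (hσ : σ ∈ I) {j : J} (hj : m • (σ • j - j) = 0) : σ • j = j :=
  sub_eq_zero.1 (htf _ (sellq_sub_mem_abstract I J1 hstab hlift hσ j) hj)

/-- for a reduction package at `A`, inertia moves every point of `J₀(N)` inside the kernel of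
reduction: `σ j − j ∈ R.J1` (this is also the local fact (L-r, ét)). -/
theorem sellq_sub_mem_J1 (N : ℕ) [NeZero N] (p : ℕ) (hp : p.Prime)
    (A : ValuationSubring (AlgebraicClosure ℚ)) (hA : A.LiesOverPrime p) (g : ℕ)
    (R : PRData (AlgebraicClosure ℚ) ↥(modularFunctionFieldBar N) (IsLocalRing.ResidueField A)
      ↥(modularFunctionFieldFullC (IsLocalRing.ResidueField A) N) A)
    (t : ↥(modularFunctionFieldBar N)) (hM : ModPR N A g R t)
    {σ : AlgebraicClosure ℚ ≃ₐ[ℚ] AlgebraicClosure ℚ} (hσ : σ ∈ A.inertiaSubgroupIn ℚ)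
    (j : JZero N) : σ • j - j ∈ R.J1 := by
  obtain ⟨z, hKC, hlift⟩ := seljj_kcFull N p hp A hA g R t hM
  exact sellq_sub_mem_abstract (A.inertiaSubgroupIn ℚ) R.J1
    (fun τ hτ x hx => hKC.decomp_stable τ
      (Fermat.Agent.S05.mem_decomposition_of_mem_inertiaIn hτ) x hx) hlift hσ j

/-- the kernel of reduction of a reduction package is stable under the decomposition group -/
theorem sellq_decomp_stable (N : ℕ) [NeZero N] (p : ℕ) (hp : p.Prime)
    (A : ValuationSubring (AlgebraicClosure ℚ)) (hA : A.LiesOverPrime p) (g : ℕ)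
    (R : PRData (AlgebraicClosure ℚ) ↥(modularFunctionFieldBar N) (IsLocalRing.ResidueField A)
      ↥(modularFunctionFieldFullC (IsLocalRing.ResidueField A) N) A)
    (t : ↥(modularFunctionFieldBar N)) (hM : ModPR N A g R t)
    {σ : AlgebraicClosure ℚ ≃ₐ[ℚ] AlgebraicClosure ℚ} (hσ : σ ∈ A.decompositionSubgroup ℚ)
    {x : JZero N} (hx : x ∈ R.J1) : σ • x ∈ R.J1 := by
  obtain ⟨z, hKC, -⟩ := seljj_kcFull N p hp A hA g R t hM
  exact hKC.decomp_stable σ hσ x hx

/-- **S18-J1** (the shape used here): the kernel of reduction of a reduction package at `A ∣ q`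
has no torsion of order prime to `q`. -/
def SellqJ1Statement : Prop :=
  ∀ (N : ℕ) [NeZero N] (q : ℕ), q.Prime →
    ∀ A : ValuationSubring (AlgebraicClosure ℚ), A.LiesOverPrime q →
    ∀ (g : ℕ) (R : PRData (AlgebraicClosure ℚ) ↥(modularFunctionFieldBar N)
        (IsLocalRing.ResidueField A) ↥(modularFunctionFieldFullC (IsLocalRing.ResidueField A) N) A)
      (t : ↥(modularFunctionFieldBar N)), ModPR N A g R t →
    ∀ m : ℕ, ¬ q ∣ m → ∀ x ∈ R.J1, m • x = 0 → x = 0

/-- **GEO-PR** (landed: `DEU/ModPRFinal.lean`): the reduction package exists at `A ∣ ℓ`, `ℓ ∤ N`,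
if `5 ≤ ℓ` or `5 − ℓ ∣ N`. -/
def SellqPRStatement : Prop :=
  ∀ (N : ℕ) [NeZero N] (ℓ : ℕ), ℓ.Prime → ¬ ℓ ∣ N → (5 ≤ ℓ ∨ (5 - ℓ) ∣ N) →
    ∀ A : ValuationSubring (AlgebraicClosure ℚ), A.LiesOverPrime ℓ → HasModPR N A

/-- **GEO-LVL** (landed: `W1/LevelUp.lean`): the level-up `J₀(N) → J₀(N s)`, `s ∤ N` prime,
injective on `r`-power torsion for every prime `r`. -/
def SellqLvlStatement : Prop :=
  ∀ (N s r : ℕ) [NeZero N] [NeZero (N * s)], s.Prime → ¬ s ∣ N → r.Prime →
    StmtLevelUp N (N * s) r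

/-- **(L-q) at a level with a reduction package.** -/
theorem sellq_of_modPR (hJ1 : SellqJ1Statement) (N : ℕ) [NeZero N] (q : ℕ) (hq : q.Prime)
    (A : ValuationSubring (AlgebraicClosure ℚ)) (hA : A.LiesOverPrime q) (hPR : HasModPR N A)
    (m : ℕ) (hm : ¬ q ∣ m)
    {σ : AlgebraicClosure ℚ ≃ₐ[ℚ] AlgebraicClosure ℚ} (hσ : σ ∈ A.inertiaSubgroupIn ℚ)
    {j : JZero N} (hj : m • (σ • j - j) = 0) : σ • j = j := by
  obtain ⟨g, R, t, hM⟩ := hPR
  have h1 := sellq_sub_mem_J1 N q hq A hA g R t hM hσ j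
  exact sub_eq_zero.1 (hJ1 N q hq A hA g R t hM m hm _ h1 hj)

/-- **(L-q) comes down along a level-up map.** -/
theorem sellq_levelUp (N N' r : ℕ) [NeZero N] [NeZero N'] (hLvl : StmtLevelUp N N' r) (k : ℕ)
    {σ : AlgebraicClosure ℚ ≃ₐ[ℚ] AlgebraicClosure ℚ}
    (h : ∀ j' : JZero N', (r ^ k) • (σ • j' - j') = 0 → σ • j' = j')
    {j : JZero N} (hj : (r ^ k) • (σ • j - j) = 0) : σ • j = j := by
  obtain ⟨φ, hφ, hinj⟩ := hLvl
  have h1 : (r ^ k) • (σ • φ j - φ j) = 0 := by
    rw [← hφ, ← map_sub, ← map_nsmul, hj, map_zero]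
  have h2 : φ (σ • j - j) = 0 := by
    rw [map_sub, hφ, h (φ j) h1, sub_self]
  exact sub_eq_zero.1 (hinj _ ⟨k, hj⟩ h2)

/-- a prime `q ≠ r` does not divide `r ^ k` -/
theorem sellq_not_dvd_pow {q r : ℕ} (hq : q.Prime) (hr : r.Prime) (hrq : r ≠ q) (k : ℕ) :
    ¬ q ∣ r ^ k := fun h =>
  hrq ((Nat.prime_dvd_prime_iff_eq hq hr).1 (hq.dvd_of_dvd_pow h)).symm

/-- **(L-q)**, from the three inputs: for every level `N`, every prime `q ∤ N`, every valuation
ring `A` over `q` and every prime `r ≠ q`: an element of the inertia group of `A` which moves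
`j ∈ J₀(N)` by an `r ^ k`-torsion point fixes `j`. -/
theorem sellq_main_of (hPR : SellqPRStatement) (hLvl : SellqLvlStatement)
    (hJ1 : SellqJ1Statement) (N : ℕ) [NeZero N] (q : ℕ) (hq : q.Prime) (hqN : ¬ q ∣ N)
    (r : ℕ) (hr : r.Prime) (hrq : r ≠ q) (k : ℕ)
    (A : ValuationSubring (AlgebraicClosure ℚ)) (hA : A.LiesOverPrime q)
    {σ : AlgebraicClosure ℚ ≃ₐ[ℚ] AlgebraicClosure ℚ} (hσ : σ ∈ A.inertiaSubgroupIn ℚ)
    {j : JZero N} (hj : (r ^ k) • (σ • j - j) = 0) : σ • j = j := by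
  have hm : ¬ q ∣ r ^ k := sellq_not_dvd_pow hq hr hrq k
  by_cases h5 : 5 ≤ q ∨ (5 - q) ∣ N
  · exact sellq_of_modPR hJ1 N q hq A hA (hPR N q hq hqN h5 A hA) (r ^ k) hm hσ hj
  · -- `q ∈ {2, 3}` and `s := 5 - q ∤ N`
    rw [not_or, not_le] at h5
    obtain ⟨hlt, hsN⟩ := h5
    have hq2 := hq.two_le
    have hs : (5 - q).Prime := by
      have : q = 2 ∨ q = 3 := by
        have h4 : q ≠ 4 := fun h => by rw [h] at hq; exact absurd hq (by decide)
        omega
      rcases this with h | h <;> rw [h] <;> decide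
    have hqs : q ≠ 5 - q := by omega
    have hN : N ≠ 0 := NeZero.ne N
    haveI : NeZero (N * (5 - q)) := ⟨mul_ne_zero hN hs.ne_zero⟩
    have hqNs : ¬ q ∣ N * (5 - q) := by
      intro h
      rcases (Nat.Prime.dvd_mul hq).1 h with h | h
      · exact hqN h
      · exact hqs ((Nat.prime_dvd_prime_iff_eq hq hs).1 h)
    have hPR' : HasModPR (N * (5 - q)) A :=
      hPR (N * (5 - q)) q hq hqNs (Or.inr (Dvd.intro_left N rfl)) A hA
    exact sellq_levelUp N (N * (5 - q)) r (hLvl N (5 - q) r hs hsN hr) k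
      (fun j' hj' => sellq_of_modPR hJ1 (N * (5 - q)) q hq A hA hPR' (r ^ k) hm hσ hj') hj

/-- **(L-q), cocycle form** (the shape of the hypothesis `hunr` of `selmk_trivial`, SEL-MK):
if all `σ j − j` are killed by `r ^ k`, then at every prime `q ∤ N`, `q ≠ r`, and EVERY valuation
ring `A` over `q` the cocycle `σ ↦ σ j − j` vanishes on the inertia group of `A`. -/
theorem sellq_unramified_of (hPR : SellqPRStatement) (hLvl : SellqLvlStatement)
    (hJ1 : SellqJ1Statement) (N : ℕ) [NeZero N] (r : ℕ) (hr : r.Prime) (k : ℕ)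
    (j : JZero N)
    (hj : ∀ σ : AlgebraicClosure ℚ ≃ₐ[ℚ] AlgebraicClosure ℚ, (r ^ k) • (σ • j - j) = 0)
    (q : ℕ) (hq : q.Prime) (hqN : ¬ q ∣ N) (hrq : r ≠ q)
    (A : ValuationSubring (AlgebraicClosure ℚ)) (hA : A.LiesOverPrime q) :
    ∀ σ ∈ A.inertiaSubgroupIn ℚ, σ • j - j = 0 := fun σ hσ =>
  sub_eq_zero.2 (sellq_main_of hPR hLvl hJ1 N q hq hqN r hr hrq k A hA hσ (hj σ))

end Fermat.Agent.S15
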