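import Fermat.Agent.S15.SelPlan
import Fermat.Agent.S15.SelDefect
import Fermat.Agent.S15.ESk
import Fermat.Agent.Common.FrobProfinite

/-!
# S15 / SELMER block: the top of the descent (SEL-TOP)

`stmtFinCore_of` : the goal `StmtFinCore` of the SELMER block from the pieces of
`S15/SelPlan.lean` and `StmtFinRed`.
-/

set_option autoImplicit false

noncomputable section

namespace Fermat.Agent.S15

open ModularCurve AlgebraicCurve
open Fermat.Agent.S24 Fermat.Agent.W1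

/-! ## Generalities on steps -/

/-- a step of index `2` has trivial action -/
theorem selstep_triv_of_two {N k : ℕ} [NeZero N] {W W' : AddSubgroup (JZero N)}
    (h : SelStep N 2 k W W') : SelStepTriv W W' := by
  intro σ w hw
  obtain ⟨a, ha, hab⟩ := AddSubgroup.relIndex_eq_two_iff.1 h.idx
  by_cases hwW : w ∈ W
  · exact W.sub_mem (h.stab σ w hwW) hwW
  · have hσw : σ • w ∉ W := by
      intro hσ
      have := h.stab σ⁻¹ _ hσ
      rw [inv_smul_smul] at this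
      exact hwW this
    have h1 : w + a ∈ W := by
      rcases hab w hw with ⟨h1, _⟩ | ⟨h1, _⟩
      · exact h1
      · exact absurd h1 hwW
    have h2 : σ • w + a ∈ W := by
      rcases hab (σ • w) (h.stab' σ w hw) with ⟨h1, _⟩ | ⟨h1, _⟩
      · exact h1
      · exact absurd h1 hσw
    have : σ • w - w = (σ • w + a) - (w + a) := by abel
    rw [this]
    exact W.sub_mem h2 h1

/-- the groups of the chain are `G`-stable -/
theorem seltop_stable {N r k : ℕ} [NeZero N] (W : ℕ → AddSubgroup (JZero N)) (L : ℕ)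
    (hW0 : W 0 = ⊥) (hstep : ∀ i < L, SelStep N r k (W i) (W (i + 1))) :
    ∀ i ≤ L, ∀ σ : GalQ, ∀ w ∈ W i, σ • w ∈ W i := by
  intro i hi σ w hw
  cases i with
  | zero =>
    rw [hW0, AddSubgroup.mem_bot] at hw ⊢
    subst hw
    exact smul_zero (A := JZero N) σ
  | succ j => exact (hstep j (Nat.lt_of_succ_le hi)).stab' σ w hw

/-- the chain is increasing -/
theorem seltop_mono {N r k : ℕ} [NeZero N] (W : ℕ → AddSubgroup (JZero N)) (L : ℕ)
    (hstep : ∀ i < L, SelStep N r k (W i) (W (i + 1))) :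
    ∀ i ≤ L, W i ≤ W L := by
  intro i hi
  obtain ⟨d, rfl⟩ := Nat.exists_eq_add_of_le hi
  clear hi
  induction d with
  | zero => exact le_rfl
  | succ d ih =>
    have h1 := ih (fun j hj => hstep j (by omega))
    exact h1.trans (hstep (i + d) (by omega)).le

/-- the torsion is finite -/
theorem seltop_finite {N : ℕ} [NeZero N] (m : ℕ) (hm : m ≠ 0) (W : AddSubgroup (JZero N))
    (hW : ∀ w ∈ W, m • w = 0) : Finite ↥W :=
  Set.Finite.to_subtype ((esk_finite N m hm).subset (fun w hw => hW w hw))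

/-- the bound for the rational torsion from `StmtFinRed` -/
theorem seltop_tors_bound (hFR : StmtFinRed) (N : ℕ) [NeZero N] (hN : IsMazurLevel N)
    (r : ℕ) (hr : r.Prime) (𝒥 : AddSubgroup (JZero N)) :
    ∃ t : ℕ, ∀ (k : ℕ) (Gk : AddSubgroup (JZero N)), (∀ x ∈ Gk, r ^ k • x = 0) →
      Nat.card ↥(selY GalQ 𝒥 ⊥ ⊓ Gk) ≤ r ^ t := by
  classical
  -- a prime `v ≠ N, r`
  obtain ⟨v, hv, hvN, hvr⟩ : ∃ v : ℕ, v.Prime ∧ v ≠ N ∧ r ≠ v := by
    by_cases h2 : 2 ≠ N ∧ r ≠ 2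
    · exact ⟨2, Nat.prime_two, h2.1, h2.2⟩
    · by_cases h3 : 3 ≠ N ∧ r ≠ 3
      · exact ⟨3, Nat.prime_three, h3.1, h3.2⟩
      · refine ⟨5, by norm_num, ?_, ?_⟩
        · intro h5
          have := hN.2
          rw [← h5] at this
          simp at this
        · intro h5
          have hN2 := hN.2
          simp only [Finset.mem_insert, Finset.mem_singleton, not_or] at hN2
          have : ¬ (2 ≠ N) ∨ ¬ (r ≠ 2) := by tauto
          have : ¬ (3 ≠ N) ∨ ¬ (r ≠ 3) := by tauto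
          omega
  obtain ⟨A, hA⟩ := Fermat.Agent.Common.exists_liesOverPrime v hv
  obtain ⟨k₀, hk₀⟩ := hFR N hN v hv hvN r hr hvr A hA
  have hfin : {x : JZero N | r ^ k₀ • x = 0}.Finite :=
    esk_finite N (r ^ k₀) (pow_ne_zero _ hr.ne_zero)
  refine ⟨hfin.toFinset.card, fun k Gk hGk => ?_⟩
  have hsub : ∀ x ∈ selY GalQ 𝒥 ⊥ ⊓ Gk, x ∈ hfin.toFinset := by
    intro x hx
    rw [Set.Finite.mem_toFinset]
    obtain ⟨hx1, hx2⟩ := hx
    have hfix := (mem_selY_bot.1 hx1).2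
    exact hk₀ x (fun σ _ => hfix σ) ⟨k, hGk x hx2⟩
  have h1 : Nat.card ↥(selY GalQ 𝒥 ⊥ ⊓ Gk) ≤ hfin.toFinset.card := by
    have hinj : Function.Injective
        (fun x : ↥(selY GalQ 𝒥 ⊥ ⊓ Gk) => (⟨x.1, hsub x.1 x.2⟩ : ↥hfin.toFinset)) :=
      fun a b h => Subtype.ext (congrArg (fun y : ↥hfin.toFinset => (y : JZero N)) h)
    have := Nat.card_le_card_of_injective _ hinj
    have e : Nat.card ↥hfin.toFinset = hfin.toFinset.card := by
      rw [Nat.card_eq_fintype_card, Fintype.card_coe]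
    rwa [e] at this
  exact h1.trans (Nat.lt_pow_self hr.one_lt).le

/-- an index inside a finite group is positive -/
theorem seltop_relIndex_pos {N : ℕ} [NeZero N] {P0 P1 : AddSubgroup (JZero N)} (h : P0 ≤ P1) (hfin : Finite ↥P1) :
    0 < P0.relIndex P1 := by
  have h1 := selch_card_mul_relIndex h
  have h2 : 0 < Nat.card ↥P1 := Nat.card_pos
  rw [← h1] at h2
  exact Nat.pos_of_ne_zero (fun h0 => by rw [h0, mul_zero] at h2; exact lt_irrefl 0 h2)

/-- **the step bounds**: the four hypotheses of `sel_main_defect` for one step. -/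
theorem seltop_step (hEt : StmtSelArEt) (hCn : StmtSelArConnOdd)
    (h3 : StmtSelArTrivEt) (h4 : StmtSelArCycConn)
    (N : ℕ) [NeZero N] (r k : ℕ) (hN : N.Prime) (hr : r.Prime) (hrN : r ≠ N)
    (AN Ar : ValuationSubring Kb) (hAN : AN.LiesOverPrime N) (hAr : Ar.LiesOverPrime r)
    (V1 : AddSubgroup (JZero N)) (hV1 : SelLocR N r Ar V1)
    (W W' : AddSubgroup (JZero N)) (hs : SelStep N r k W W')
    (hty : SelStepTriv W W' ∨ SelStepCyc W W')
    (hC2 : r = 2 → ∃ a₀ : JZero N, ∀ a ∈ selIF N AN, (∀ σ : GalQ, σ • a - a ∈ W') →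
      (∀ σ : GalQ, σ • a - a ∈ W) ∨ (∀ σ : GalQ, σ • (a - a₀) - (a - a₀) ∈ W)) :
    (W' ⊓ V1 ≤ W → (selY GalQ (selIF N AN) W ⊔ W').relIndex (selY GalQ (selIF N AN) W') = 1) ∧
    (W' ⊓ V1 ≤ W → ¬ (W' ⊓ selIF N AN ≤ W) →
      W.relIndex (selY GalQ (selIF N AN) W ⊓ W') = r) ∧
    (¬ (W' ⊓ V1 ≤ W) → ¬ (W' ⊓ selIF N AN ≤ W) →
      (selY GalQ (selIF N AN) W ⊔ W').relIndex (selY GalQ (selIF N AN) W') ≠ 0 ∧
      (selY GalQ (selIF N AN) W ⊔ W').relIndex (selY GalQ (selIF N AN) W')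
        ≤ W.relIndex (selY GalQ (selIF N AN) W ⊓ W')) ∧
    (¬ (W' ⊓ V1 ≤ W) → W' ⊓ selIF N AN ≤ W →
      (selY GalQ (selIF N AN) W ⊔ W').relIndex (selY GalQ (selIF N AN) W') ≠ 0 ∧
      (selY GalQ (selIF N AN) W ⊔ W').relIndex (selY GalQ (selIF N AN) W') ≤ r) := by
  have hfinW' : Finite ↥W' := seltop_finite (r ^ k) (pow_ne_zero _ hr.ne_zero) W' hs.tors
  have hfinYW : Finite ↥(selY GalQ (selIF N AN) W ⊓ W') :=
    Finite.of_injective
      (fun x : ↥(selY GalQ (selIF N AN) W ⊓ W') => (⟨x.1, x.2.2⟩ : ↥W'))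
      (fun a b h => Subtype.ext (congrArg (fun y : ↥W' => (y : JZero N)) h))
  have hkpos : 0 < W.relIndex (selY GalQ (selIF N AN) W ⊓ W') :=
    seltop_relIndex_pos (le_inf (le_selY hs.stab) hs.le) hfinYW
  -- consequences of the two types
  have hTriv1 : SelStepTriv W W' → W' ⊓ V1 ≤ W →
      (selY GalQ (selIF N AN) W ⊔ W').relIndex (selY GalQ (selIF N AN) W') = 1 := by
    intro ht het
    exact selst_c_eq_one_of_vanish (selIF N AN) W W' hs.stab'
      (hEt N r k hN hr hrN AN Ar hAN hAr V1 hV1.inertia W W' hs ht het)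
  have hTriv2 : SelStepTriv W W' → ¬ (W' ⊓ selIF N AN ≤ W) →
      W.relIndex (selY GalQ (selIF N AN) W ⊓ W') = r := by
    intro ht hfin
    rw [selst_k_eq (selIF N AN) W W' ((selst_fin_iff hr (selIF N AN) W W' hs.le hs.idx).1 hfin)
      ht, hs.idx]
  by_cases hr2 : r = 2
  · obtain ⟨a₀, ha₀⟩ := hC2 hr2
    subst hr2
    have ht : SelStepTriv W W' := selstep_triv_of_two hs
    have hc2 := selst_c_le_two (selIF N AN) W W' hs.stab' a₀ ha₀
    refine ⟨hTriv1 ht, fun _ => hTriv2 ht, fun _ hfin => ⟨hc2.1, ?_⟩, fun _ _ => hc2⟩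
    rw [hTriv2 ht hfin]
    exact hc2.2
  · rcases hty with ht | hcy
    · have het : W' ⊓ V1 ≤ W := h3 N r k hN hr hrN hr2 Ar hAr V1 hV1 W W' hs ht
      exact ⟨hTriv1 ht, fun _ => hTriv2 ht, fun hc _ => absurd het hc, fun hc _ => absurd het hc⟩
    · have hconn : ¬ (W' ⊓ V1 ≤ W) := h4 N r k hr hr2 Ar hAr V1 hV1.inertia W W' hs hcy
      have hcob := hCn N r k hN hr hrN hr2 AN Ar hAN hAr V1 hV1 W W' hs hcy
      refine ⟨fun het => absurd het hconn, fun het _ => absurd het hconn, fun _ hfin => ?_,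
        fun _ _ => ?_⟩
      · have h1 := selst_c_eq_one_of_fin (selIF N AN) W W' hs.stab'
          ((selst_fin_iff hr (selIF N AN) W W' hs.le hs.idx).1 hfin) hcob
        rw [h1]
        exact ⟨one_ne_zero, hkpos⟩
      · have h1 := selst_c_le_index (selIF N AN) W W' hs.stab hs.stab' hfinW' hcob
        rw [hs.idx] at h1
        exact h1

/-- **SEL-TOP, core**: the descent at one pair `(N, r)`. -/
theorem seltop_core (hLocR : StmtSelLocR) (hEis : StmtSelEis)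
    (hFR : StmtFinRed) (hEt : StmtSelArEt) (hCn : StmtSelArConnOdd)
    (h3 : StmtSelArTrivEt) (h4 : StmtSelArCycConn)
    (N : ℕ) [NeZero N] (hNM : IsMazurLevel N) (r : ℕ) (hr : r.Prime) (hrN : r ≠ N)
    (hCnt : ∀ AN Ar : ValuationSubring Kb, AN.LiesOverPrime N → Ar.LiesOverPrime r →
      ∀ V1 : AddSubgroup (JZero N), SelLocR N r Ar V1 →
      ∃ a : ℕ, ∀ k : ℕ, Nat.card ↥(selEisPart N r k ⊓ V1)
        ≤ r ^ a * Nat.card ↥(selEisPart N r k ⊓ selIF N AN))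
    (hC2 : r = 2 → ∀ (k : ℕ) (AN Ar : ValuationSubring Kb), AN.LiesOverPrime N →
      Ar.LiesOverPrime r → ∀ V1 : AddSubgroup (JZero N), SelLocR N r Ar V1 →
      ∀ W W' : AddSubgroup (JZero N), SelStep N r k W W' →
      ∃ a₀ : JZero N, ∀ a ∈ selIF N AN, (∀ σ : GalQ, σ • a - a ∈ W') →
        (∀ σ : GalQ, σ • a - a ∈ W) ∨ (∀ σ : GalQ, σ • (a - a₀) - (a - a₀) ∈ W))
    (cr : JZero N) (hcr0 : cr ≠ 0) (hrcr : r • cr = 0) (hcrc : ∃ n : ℕ, cr = n • cuspClass N)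
    (AN : ValuationSubring Kb) (hAN : AN.LiesOverPrime N)
    (w : JZero N) (hw : ∀ σ : GalQ, σ • w = w)
    (hdiv : ∀ k : ℕ, ∃ R ∈ selIF N AN, r ^ k • R = w) : FinAbs GalQ r cr w := by
  have hN : N.Prime := hNM.1
  obtain ⟨Ar, hAr⟩ := Fermat.Agent.Common.exists_liesOverPrime r hr
  obtain ⟨V1, hV1⟩ := hLocR N r hN hr hrN Ar hAr
  obtain ⟨a, ha⟩ := hCnt AN Ar hAN hAr V1 hV1
  obtain ⟨t, ht⟩ := seltop_tors_bound hFR N hNM r hr (selIF N AN)
  refine ⟨t + a, fun k' => ?_⟩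
  set k := k' + (t + a) with hk
  obtain ⟨D, hD⟩ := hEis N r hN hr hrN cr hcr0 hrcr hcrc k
  have hGk : ∀ x ∈ selEisPart N r k, r ^ k • x = 0 := fun x hx => (mem_selEisPart.1 hx).1
  have hstep : ∀ i < D.L, SelStep N r k (D.W i) (D.W (i + 1)) := fun i hi => (hD.step i hi).1
  have hmono := seltop_mono D.W D.L hstep
  have hstab := seltop_stable D.W D.L hD.W_zero hstep
  have hfin : ∀ i ≤ D.L, Finite ↥(D.W i) := fun i hi =>
    seltop_finite (r ^ k) (pow_ne_zero _ hr.ne_zero) (D.W i)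
      (fun x hx => hGk x (hD.W_top ▸ hmono i hi hx))
  have hst : ∀ i < D.L, _ := fun i hi =>
    seltop_step hEt hCn h3 h4 N r k hN hr hrN AN Ar hAN hAr V1 hV1 _ _
      (hstep i hi) (hD.step i hi).2
      (fun h2 => hC2 h2 k AN Ar hAN hAr V1 hV1 _ _ (hstep i hi))
  have hbound : ∀ j ∈ selY GalQ (selIF N AN) (selEisPart N r k),
      r ^ (t + a) • j ∈ selY GalQ (selIF N AN) ⊥ ⊔ selEisPart N r k := by
    intro j hj
    rw [← hD.W_top] at hj ⊢
    refine sel_main_defect hr (selIF N AN) V1 D.W D.L t a hD.W_zero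
      (fun i hi => (hstep i hi).le) hstab hfin (fun i hi => (hstep i hi).idx) ?_
      (fun i hi => (hst i hi).1) (fun i hi => (hst i hi).2.1) (fun i hi => (hst i hi).2.2.1)
      (fun i hi => (hst i hi).2.2.2) ?_ hj
    · rw [hD.W_top]; exact ha k
    · rw [hD.W_top]; exact ht k _ hGk
  obtain ⟨R, hR, hRw⟩ := hdiv k
  have hE𝒥 : ∀ x ∈ selIF N AN, D.E x ∈ selIF N AN := by
    intro x hx σ hσ
    rw [← hD.E_equiv, hx σ hσ]
  obtain ⟨m, hm, -, hmE⟩ := sel_glue (G := GalQ) (selIF N AN) (selEisPart N r k) D.E hD.E_equiv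
    hE𝒥 hD.E_mem hGk hbound w hw R hR hRw
  refine ⟨D.E, hD.E_equiv, hD.E_cr, m, hm, ?_⟩
  have e2 : r ^ k • m = r ^ (t + a) • (r ^ k' • m) := by
    rw [hk, pow_add, mul_comm, mul_smul]
  rw [nsmul_sub, hmE, e2, sub_self]

/-- **SEL-TOP**: the goal of the SELMER block from its pieces (all `r`; for `r = 2` the inputs
`StmtSelCnt`, `StmtSelArConnTwo` are not expected to be available: use `stmtFinCoreOdd_of` and
`stmtFinCore_of_cases`). -/
theorem stmtFinCore_of (hLocR : StmtSelLocR) (hEis : StmtSelEis) (hCnt : StmtSelCnt)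
    (hFR : StmtFinRed) (hEt : StmtSelArEt) (hCn : StmtSelArConnOdd) (hC2 : StmtSelArConnTwo)
    (h3 : StmtSelArTrivEt) (h4 : StmtSelArCycConn) : StmtFinCore := by
  intro N _ hNM r hr hrN cr hcr0 hrcr hcrc AN hAN w hw hdiv
  refine seltop_core hLocR hEis hFR hEt hCn h3 h4 N hNM r hr hrN
    (fun AN Ar hAN hAr V1 hV1 => hCnt N r hNM.1 hr hrN AN Ar hAN hAr V1 hV1) ?_
    cr hcr0 hrcr hcrc AN hAN w hw hdiv
  intro h2 k AN Ar hAN hAr V1 hV1 W W' hs
  subst h2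
  exact hC2 N k hNM.1 hrN AN Ar hAN hAr V1 hV1 W W' hs

/-- **SEL-TOP, `r` odd**. -/
theorem stmtFinCoreOdd_of (hLocR : StmtSelLocR) (hEis : StmtSelEis) (hCnt : StmtSelCntOdd)
    (hFR : StmtFinRed) (hEt : StmtSelArEt) (hCn : StmtSelArConnOdd)
    (h3 : StmtSelArTrivEt) (h4 : StmtSelArCycConn) : StmtFinCoreOdd := by
  intro N _ hNM r hr hrN hr2 cr hcr0 hrcr hcrc AN hAN w hw hdiv
  exact seltop_core hLocR hEis hFR hEt hCn h3 h4 N hNM r hr hrN
    (fun AN Ar hAN hAr V1 hV1 => hCnt N r hNM.1 hr hrN hr2 AN Ar hAN hAr V1 hV1)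
    (fun h2 => absurd h2 hr2) cr hcr0 hrcr hcrc AN hAN w hw hdiv

/-- **SEL-TOP, `r` odd**, from the count with the hypotheses on `cr`. -/
theorem stmtFinCoreOdd_of_cr (hLocR : StmtSelLocR) (hEis : StmtSelEis)
    (hCnt : StmtSelCntOddCr) (hFR : StmtFinRed) (hEt : StmtSelArEt) (hCn : StmtSelArConnOdd)
    (h3 : StmtSelArTrivEt) (h4 : StmtSelArCycConn) : StmtFinCoreOdd := by
  intro N _ hNM r hr hrN hr2 cr hcr0 hrcr hcrc AN hAN w hw hdiv
  exact seltop_core hLocR hEis hFR hEt hCn h3 h4 N hNM r hr hrN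
    (fun AN Ar hAN hAr V1 hV1 =>
      hCnt N r hNM.1 hr hrN hr2 cr hcr0 hrcr hcrc AN Ar hAN hAr V1 hV1)
    (fun h2 => absurd h2 hr2) cr hcr0 hrcr hcrc AN hAN w hw hdiv

end Fermat.Agent.S15
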