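import Fermat.Agent.S15.SelTop
import Fermat.Agent.S15.SelArTwoInf
import Fermat.Prelude.Def_GaloisRep_ComplexConjugation

/-!
# S15 / SELMER block: the top of the descent at `r = 2` (SEL-TOP-2, "G-two")

The descent at the prime `2` is run with two local conditions (helper6, `S15/SelTwo.lean`):
`P = selIF N AN` (the points fixed by the inertia at the level) and `Q` = the points fixed by a
complex conjugation `c`.

* `seltoptwo_core` : `FinAbs GalQ 2 cr w` from `StmtSelEis`, `StmtFinRed` and the count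
  `(CNT*)  ∃ a ∀ k, #G_k ≤ 2 ^ a · #(G_k ∩ P) · #(G_k ∩ Q)`, for any involution `c` with
  `c i ≠ i`, `i ^ 2 = -1`;
* `seltoptwo_exists_i` : `complexConjugation` moves a square root of `-1`;
* `seltoptwo_core_cc` : the same for `c = complexConjugation`.

Inputs which are used unconditionally: `selarc2_inf`, `selarc2_triv` (helper14),
`seltwo_main`, `seltwo_glue`, `seltwo_conj_div` (helper6).
-/

set_option autoImplicit false

noncomputable section

namespace Fermat.Agent.S15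

open ModularCurve AlgebraicCurve
open Fermat.Agent.S24 Fermat.Agent.W1

/-- **SEL-TOP at `2`, core**: the descent with the two local conditions. -/
theorem seltoptwo_core (hEis : StmtSelEis) (hFR : StmtFinRed)
    (N : ℕ) [NeZero N] (hNM : IsMazurLevel N) (h2N : 2 ≠ N)
    (i : Kb) (hi : i ^ 2 = -1) (c : GalQ) (hcc : c * c = 1) (hci : c i ≠ i)
    (Q : AddSubgroup (JZero N)) (hQ : ∀ x : JZero N, x ∈ Q ↔ c • x = x)
    (AN : ValuationSubring Kb) (hAN : AN.LiesOverPrime N)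
    (hCnt : ∃ a : ℕ, ∀ k : ℕ, Nat.card ↥(selEisPart N 2 k)
      ≤ 2 ^ a * (Nat.card ↥(selEisPart N 2 k ⊓ selIF N AN) * Nat.card ↥(selEisPart N 2 k ⊓ Q)))
    (cr : JZero N) (hcr0 : cr ≠ 0) (hrcr : 2 • cr = 0) (hcrc : ∃ n : ℕ, cr = n • cuspClass N)
    (w : JZero N) (hw : ∀ σ : GalQ, σ • w = w)
    (hdiv : ∀ k : ℕ, ∃ R ∈ selIF N AN, 2 ^ k • R = w) : FinAbs GalQ 2 cr w := by
  have hN : N.Prime := hNM.1
  have hr : (2 : ℕ).Prime := Nat.prime_two
  obtain ⟨a, ha⟩ := hCnt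
  obtain ⟨t, ht⟩ := seltop_tors_bound hFR N hNM 2 hr (selIF N AN)
  refine ⟨t + a + 1, fun k' => ?_⟩
  set k := k' + (t + a + 1) with hk
  obtain ⟨D, hD⟩ := hEis N 2 hN hr h2N cr hcr0 hrcr hcrc k
  have hGk : ∀ x ∈ selEisPart N 2 k, 2 ^ k • x = 0 := fun x hx => (mem_selEisPart.1 hx).1
  have hstep : ∀ i < D.L, SelStep N 2 k (D.W i) (D.W (i + 1)) := fun i hi => (hD.step i hi).1
  have hmono := seltop_mono D.W D.L hstep
  have hstab := seltop_stable D.W D.L hD.W_zero hstep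
  have hfin : ∀ i ≤ D.L, Finite ↥(D.W i) := fun i hi =>
    seltop_finite (2 ^ k) (pow_ne_zero _ hr.ne_zero) (D.W i)
      (fun x hx => hGk x (hD.W_top ▸ hmono i hi hx))
  have hfinG : Finite ↥(selEisPart N 2 k) :=
    seltop_finite (2 ^ k) (pow_ne_zero _ hr.ne_zero) _ hGk
  have hbound : ∀ j ∈ selY2 GalQ (selIF N AN) Q (selEisPart N 2 k),
      2 ^ (t + a) • j ∈ selY2 GalQ (selIF N AN) Q ⊥ ⊔ selEisPart N 2 k := by
    intro j hj
    rw [← hD.W_top] at hj ⊢
    refine seltwo_main hr (selIF N AN) Q D.W D.L t a hD.W_zero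
      (fun i hi => (hstep i hi).le) hstab hfin (fun i hi => (hstep i hi).idx)
      (fun n hn σ w hw => selarc2_triv (hstep n hn) σ hw)
      (fun n hn j hj => selarc2_inf N k hN h2N AN hAN i hi c hci Q
        (fun x hx => (hQ x).1 hx) _ _ (hstep n hn) j hj) ?_ ?_ hj
    · rw [hD.W_top]; exact ha k
    · rw [hD.W_top]
      refine le_trans ?_ (ht k _ hGk)
      have : Finite ↥(selY GalQ (selIF N AN) ⊥ ⊓ selEisPart N 2 k) :=
        Finite.of_injective
          (fun x : ↥(selY GalQ (selIF N AN) ⊥ ⊓ selEisPart N 2 k) =>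
            (⟨x.1, x.2.2⟩ : ↥(selEisPart N 2 k)))
          (fun a b h => Subtype.ext (congrArg (fun y : ↥(selEisPart N 2 k) => (y : JZero N)) h))
      exact AddSubgroup.card_le_of_le (inf_le_inf_right _ inf_le_left)
  obtain ⟨R, hR, hRw⟩ := hdiv k
  obtain ⟨hR2fix, hR2w⟩ := seltwo_conj_div c hcc (hw c) hRw
  have hE𝒥 : ∀ x ∈ selIF N AN, D.E x ∈ selIF N AN := by
    intro x hx σ hσ
    rw [← hD.E_equiv, hx σ hσ]
  have hEQ : ∀ x ∈ Q, D.E x ∈ Q := by
    intro x hx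
    rw [hQ, ← hD.E_equiv, (hQ x).1 hx]
  obtain ⟨m, hm, hmE⟩ := seltwo_glue (G := GalQ) (selIF N AN) Q (selEisPart N 2 k) D.E
    hD.E_equiv hE𝒥 hEQ hD.E_mem hGk hbound w hw R hR hRw _ ((hQ _).2 hR2fix) hR2w
  refine ⟨D.E, hD.E_equiv, hD.E_cr, m, hm, ?_⟩
  have e1 : 2 ^ (t + a + 1) • D.E w = 2 ^ (t + a) • (2 • D.E w) := by
    rw [pow_succ, mul_smul]
  have e2 : 2 ^ k • m = 2 ^ (t + a + 1) • (2 ^ k' • m) := by
    rw [hk, pow_add, mul_comm, mul_smul]
  rw [nsmul_sub, e1, hmE, e2, sub_self]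

/-- the complex conjugation moves a square root of `-1` -/
theorem seltoptwo_exists_i : ∃ i : Kb, i ^ 2 = -1 ∧ complexConjugation i ≠ i := by
  obtain ⟨i, hi⟩ := IsAlgClosed.exists_pow_nat_eq (-1 : Kb) (n := 2) (by norm_num)
  refine ⟨i, hi, fun h => ?_⟩
  have h1 := complexEmbedding_complexConjugation i
  rw [h] at h1
  have h2 : (complexEmbedding i) ^ 2 = -1 := by
    rw [← map_pow, hi, map_neg, map_one]
  -- `z := complexEmbedding i` is real and `z ^ 2 = -1`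
  obtain ⟨x, hx⟩ : ∃ x : ℝ, complexEmbedding i = (x : ℂ) := Complex.conj_eq_iff_real.1 h1.symm
  rw [hx] at h2
  have h3 : ((x ^ 2 : ℝ) : ℂ) = ((-1 : ℝ) : ℂ) := by
    push_cast
    exact h2
  have h4 : x ^ 2 = -1 := Complex.ofReal_injective h3
  nlinarith [sq_nonneg x]

/-- **SEL-TOP at `2`** for the complex conjugation of the prelude. -/
theorem seltoptwo_core_cc (hEis : StmtSelEis) (hFR : StmtFinRed)
    (N : ℕ) [NeZero N] (hNM : IsMazurLevel N)
    (Q : AddSubgroup (JZero N)) (hQ : ∀ x : JZero N, x ∈ Q ↔ (complexConjugation : GalQ) • x = x)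
    (AN : ValuationSubring Kb) (hAN : AN.LiesOverPrime N)
    (hCnt : ∃ a : ℕ, ∀ k : ℕ, Nat.card ↥(selEisPart N 2 k)
      ≤ 2 ^ a * (Nat.card ↥(selEisPart N 2 k ⊓ selIF N AN) * Nat.card ↥(selEisPart N 2 k ⊓ Q)))
    (cr : JZero N) (hcr0 : cr ≠ 0) (hrcr : 2 • cr = 0) (hcrc : ∃ n : ℕ, cr = n • cuspClass N)
    (w : JZero N) (hw : ∀ σ : GalQ, σ • w = w)
    (hdiv : ∀ k : ℕ, ∃ R ∈ selIF N AN, 2 ^ k • R = w) : FinAbs GalQ 2 cr w := by
  obtain ⟨i, hi, hci⟩ := seltoptwo_exists_i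
  have h2N : 2 ≠ N := by
    intro h
    have := hNM.2
    rw [← h] at this
    simp at this
  exact seltoptwo_core hEis hFR N hNM h2N i hi complexConjugation complexConjugation_mul_self hci
    Q hQ AN hAN hCnt cr hcr0 hrcr hcrc w hw hdiv

end Fermat.Agent.S15
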