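import Fermat.Agent.S15.SelGR
import Fermat.Agent.W1.RatLocPID
import Fermat.Agent.W1.DescentBasic

/-!
# S15 / SEL-U: Fontaine's lemma for one fixed point of a Hopf lattice over `ℤ_(r)`, `r` odd

`R = ℤ_(r) = GaloisRep.ratLocalizedAt r`, `M` a finite abelian group with a Hopf lattice `H`
(`W1.IsHopfLattice`), `x ∈ M` a point fixed by the Galois action with `r • x = 0`, `x ≠ 0`.

* `selu_fontaine` : if `r` is odd, there is `h ∈ H` such that `h x - h 0` is a unit of `ℤ_(r)`.

(Only `x` is assumed to be fixed.)  So a Hopf lattice over `ℤ_(r)`, `r` odd, is "étale at every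
rational point of order `r`".

Proof (Fontaine's binomial argument, with finite differences).  `T f = f (· + x) - f`.  By the
comultiplication `T h = ∑ ρ_ab (h_b x - h_b 0) h_a`, so if `r ^ j` divides all `h x - h 0` then
`T ^ i` maps `H` into `r ^ (i j) H`.  Newton's formula `h (r • x) = ∑ C(r, i) (T ^ i h) 0` and
`r • x = 0` give `r (h x - h 0) ∈ r ^ (j + 2) ℤ_(r)` for `j ≥ 1` and `r ≥ 3`.  By induction
`h x - h 0` is divisible by all powers of `r`, so `h x = h 0` for all `h`, and `x = 0`.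
-/

set_option autoImplicit false
set_option linter.unusedSectionVars false
set_option linter.unusedSimpArgs false
set_option linter.style.haveILetI false

namespace Fermat.Agent.S15

open Fermat.Agent.W1

section Newton

variable {M : Type} [AddCommGroup M]

/-- The finite difference operator `T f = f (· + x) - f`. -/
noncomputable def seluT (x : M) :
    Module.End (AlgebraicClosure ℚ) (M → AlgebraicClosure ℚ) where
  toFun f := fun P => f (P + x) - f P
  map_add' f g := by funext P; simp only [Pi.add_apply]; ring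
  map_smul' c f := by
    funext P
    simp only [Pi.smul_apply, smul_eq_mul, RingHom.id_apply]
    ring

theorem seluT_apply (x : M) (f : M → AlgebraicClosure ℚ) (P : M) :
    seluT x f P = f (P + x) - f P := rfl

theorem selu_shift_apply (x : M) (f : M → AlgebraicClosure ℚ) (P : M) :
    (seluT x + 1) f P = f (P + x) := by
  rw [LinearMap.add_apply, Pi.add_apply, seluT_apply, Module.End.one_apply]
  ring

theorem selu_shift_pow (x : M) (m : ℕ) :
    ∀ (f : M → AlgebraicClosure ℚ) (P : M), ((seluT x + 1) ^ m) f P = f (P + m • x) := by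
  induction m with
  | zero => intro f P; simp
  | succ m ih =>
    intro f P
    rw [pow_succ, Module.End.mul_apply, ih, selu_shift_apply, add_smul, one_smul, add_assoc]

/-- Newton's forward difference formula. -/
theorem selu_newton (x : M) (m : ℕ) (f : M → AlgebraicClosure ℚ) :
    f (m • x) = ∑ i ∈ Finset.range (m + 1),
      (m.choose i : AlgebraicClosure ℚ) * ((seluT x ^ i) f) 0 := by
  have h1 := selu_shift_pow x m f 0
  rw [zero_add] at h1
  rw [← h1, (Commute.one_right (seluT x)).add_pow, LinearMap.sum_apply, Finset.sum_apply]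
  refine Finset.sum_congr rfl fun i _ => ?_
  rw [one_pow, mul_one, Module.End.mul_apply, Module.End.natCast_apply, map_nsmul,
    Pi.smul_apply, nsmul_eq_mul]

end Newton

section Lattice

variable {R : Subring ℚ} {M : Type} [AddCommGroup M]
  {act : (AlgebraicClosure ℚ ≃ₐ[ℚ] AlgebraicClosure ℚ) → M → M}
  {H : Subalgebra R (M → AlgebraicClosure ℚ)}
  [IsPrincipalIdealRing R] [IsFractionRing R ℚ]

/-- If `π ^ j` divides all differences `h x - h 0`, then `T` maps `H` into `π ^ j H`. -/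
theorem selu_T_mem (hH : IsHopfLattice R act H) (x : M) (π : R) (j : ℕ)
    (hP : ∀ h ∈ H, ∃ ρ : R, h x - h 0 = algebraMap R (AlgebraicClosure ℚ) (π ^ j * ρ)) :
    ∀ h ∈ H, ∃ h' ∈ H, seluT x h = (π ^ j) • h' := by
  intro h hh
  obtain ⟨n, b, -⟩ := sq_exists_basis hH.fg hH.equivariant
  obtain ⟨ρ, hρ⟩ := selgl_expand b _ (hH.comul_mem h hh)
  choose ρ' hρ' using fun k => hP _ (b k).2
  refine ⟨∑ ab : Fin n × Fin n, (ρ ab * ρ' ab.2) • ((b ab.1 : H) : M → AlgebraicClosure ℚ),
    H.sum_mem fun ab _ => H.smul_mem (b ab.1).2 _, ?_⟩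
  funext P
  have h1 : h (P + x) = _ := hρ P x
  have h2 : h (P + 0) = _ := hρ P 0
  rw [add_zero] at h2
  rw [seluT_apply, h1, h2, ← Finset.sum_sub_distrib, Pi.smul_apply, Finset.sum_apply,
    Finset.smul_sum]
  refine Finset.sum_congr rfl fun ab _ => ?_
  rw [Pi.smul_apply, Algebra.smul_def, Algebra.smul_def, ← mul_sub, ← mul_sub, hρ' ab.2]
  simp only [map_mul, map_pow]
  ring

/-- If `π ^ j` divides all differences `h x - h 0`, then `T ^ i` maps `H` into `π ^ (i j) H`. -/
theorem selu_Tpow_mem (hH : IsHopfLattice R act H) (x : M) (π : R) (j : ℕ)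
    (hP : ∀ h ∈ H, ∃ ρ : R, h x - h 0 = algebraMap R (AlgebraicClosure ℚ) (π ^ j * ρ))
    (i : ℕ) : ∀ h ∈ H, ∃ h' ∈ H, (seluT x ^ i) h = (π ^ (i * j)) • h' := by
  induction i with
  | zero =>
    intro h hh
    exact ⟨h, hh, by simp⟩
  | succ i ih =>
    intro h hh
    obtain ⟨h₁, hh₁, e₁⟩ := selu_T_mem hH x π j hP h hh
    obtain ⟨h₂, hh₂, e₂⟩ := ih h₁ hh₁
    refine ⟨h₂, hh₂, ?_⟩
    rw [pow_succ, Module.End.mul_apply, e₁]
    have h3 : (seluT x ^ i) ((π ^ j) • h₁) = (π ^ j) • (seluT x ^ i) h₁ := by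
      funext P
      have h4 : ((π ^ j) • h₁ : M → AlgebraicClosure ℚ) =
          (algebraMap R (AlgebraicClosure ℚ) (π ^ j)) • h₁ := by
        funext Q
        rw [Pi.smul_apply, Pi.smul_apply, Algebra.smul_def, smul_eq_mul]
      rw [h4, map_smul]
      simp only [Pi.smul_apply, smul_eq_mul]
      rw [Algebra.smul_def]
    rw [h3, e₂, smul_smul, ← pow_add]
    congr 2
    ring

/-- Values of the elements of `H` at a fixed point are in `R`. -/
theorem selu_fixed_value (hH : IsHopfLattice R act H) (P : M)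
    (hP : ∀ σ, act σ P = P) {h : M → AlgebraicClosure ℚ} (hh : h ∈ H) :
    ∃ ρ : R, h P = algebraMap R (AlgebraicClosure ℚ) ρ := by
  obtain ⟨q, hq⟩ := w1_exists_rat_of_fixed (h P) fun σ => by
    rw [← hH.equivariant h hh σ P, hP]
  have hint : IsIntegral R (h P) := selgr_isIntegral_apply hH.fg hh P
  rw [← hq] at hint
  have hintq : IsIntegral R q :=
    (isIntegral_algHom_iff (IsScalarTower.toAlgHom R ℚ (AlgebraicClosure ℚ))
      (algebraMap ℚ (AlgebraicClosure ℚ)).injective).1 hint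
  obtain ⟨ρ, hρ⟩ := selgl_mem_of_isIntegral hintq
  exact ⟨ρ, by rw [selgl_algebraMap, hρ, hq]⟩

/-- The induction step of Fontaine's argument. -/
theorem selu_step (hH : IsHopfLattice R act H) (x : M) (r : ℕ) (hr : r.Prime) (hr3 : 3 ≤ r)
    (hrx : r • x = 0) (j : ℕ) (hj : 1 ≤ j)
    (hP : ∀ h ∈ H, ∃ ρ : R, h x - h 0 = algebraMap R (AlgebraicClosure ℚ) ((r : R) ^ j * ρ)) :
    ∀ h ∈ H, ∃ ρ : R,
      h x - h 0 = algebraMap R (AlgebraicClosure ℚ) ((r : R) ^ (j + 1) * ρ) := by
  intro h hh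
  have hinj : Function.Injective (algebraMap R (AlgebraicClosure ℚ)) := algebraMap_R_injective
  have hr0 : (r : R) ≠ 0 := by
    intro h0
    have h1 := congrArg (fun t : R => (t : ℚ)) h0
    simp only [Subring.coe_natCast, ZeroMemClass.coe_zero, Nat.cast_eq_zero] at h1
    exact hr.ne_zero h1
  -- the elements `h'_i` and their values at `0`
  choose h' hh' e' using fun i => selu_Tpow_mem hH x (r : R) j hP i h hh
  choose ε hε using fun i => hH.counit_mem _ (hh' i)
  have hval : ∀ i, ((seluT x ^ i) h) 0 =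
      algebraMap R (AlgebraicClosure ℚ) ((r : R) ^ (i * j) * ε i) := by
    intro i
    rw [e' i, Pi.smul_apply, Algebra.smul_def, hε i, map_mul]
  -- Newton's formula in `R`
  have hN : ε 0 = ∑ i ∈ Finset.range (r + 1), (r.choose i : R) * ((r : R) ^ (i * j) * ε i) := by
    apply hinj
    have h1 := selu_newton x r h
    rw [hrx] at h1
    have h2 := hval 0
    simp only [pow_zero, Module.End.one_apply, zero_mul, one_mul] at h2
    rw [← h2, h1, map_sum]
    refine Finset.sum_congr rfl fun i _ => ?_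
    rw [hval i]
    simp only [map_mul, map_natCast]
  set f : ℕ → R := fun i => (r.choose i : R) * ((r : R) ^ (i * j) * ε i) with hf
  have hf0 : f 0 = ε 0 := by
    simp only [hf, Nat.choose_zero_right, Nat.cast_one, zero_mul, pow_zero, one_mul]
  have hf1 : f 1 = (r : R) ^ (j + 1) * ε 1 := by
    simp only [hf, Nat.choose_one_right, one_mul]
    ring
  have hsplit : ∑ i ∈ Finset.range (r + 1), f i =
      f 0 + (f 1 + ∑ i ∈ Finset.Ico 2 (r + 1), f i) := by
    rw [Finset.range_eq_Ico, Finset.sum_eq_sum_Ico_succ_bot (by omega),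
      Finset.sum_eq_sum_Ico_succ_bot (by omega)]
  -- every higher term is divisible by `r ^ (j + 2)`
  have hdvd : ∀ i ∈ Finset.Ico 2 (r + 1), (r : R) ^ (j + 2) ∣ f i := by
    intro i hi
    obtain ⟨hi2, hir⟩ := Finset.mem_Ico.1 hi
    have h2j : 2 * j ≤ i * j := Nat.mul_le_mul_right j hi2
    by_cases hlast : i = r
    · -- the last term
      have h1 : j + 2 ≤ i * j := by
        have h3 : 3 * j ≤ i * j := Nat.mul_le_mul_right j (by omega)
        omega
      exact Dvd.dvd.mul_left (Dvd.dvd.mul_right (pow_dvd_pow _ h1) _) _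
    · -- the middle terms
      obtain ⟨c, hc⟩ : r ∣ r.choose i := hr.dvd_choose_self (by omega) (by omega)
      have e : f i = (r : R) ^ (i * j + 1) * ((c : R) * ε i) := by
        simp only [hf, hc, Nat.cast_mul]
        ring
      rw [e]
      exact Dvd.dvd.mul_right (pow_dvd_pow _ (by omega)) _
  have hsum : (r : R) ^ (j + 2) ∣ ∑ i ∈ Finset.Ico 2 (r + 1), f i :=
    Finset.dvd_sum hdvd
  obtain ⟨T, hT⟩ := hsum
  have hrel : (r : R) ^ (j + 1) * ε 1 = (r : R) ^ (j + 1) * ((r : R) * (-T)) := by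
    have h1 : ε 0 = f 0 + (f 1 + ∑ i ∈ Finset.Ico 2 (r + 1), f i) := by
      rw [← hsplit]; exact hN
    rw [hf0, hf1, hT] at h1
    have h2 : (r : R) ^ (j + 1) * ε 1 + (r : R) ^ (j + 2) * T = 0 := by
      have h3 := sub_eq_zero.2 h1.symm
      rw [← h3]
      ring
    have h4 : (r : R) ^ (j + 1) * ε 1 = -((r : R) ^ (j + 2) * T) := eq_neg_of_add_eq_zero_left h2
    rw [h4]
    ring
  have hε1 : ε 1 = (r : R) * (-T) := mul_left_cancel₀ (pow_ne_zero _ hr0) hrel
  refine ⟨-T, ?_⟩
  have h5 := hval 1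
  rw [pow_one, seluT_apply, zero_add, one_mul, hε1] at h5
  rw [h5]
  congr 1
  ring

end Lattice

section Main

open GaloisRep

variable (r : ℕ) [Fact r.Prime]

theorem selu_natCast_ne_zero : ((r : ℕ) : ratLocalizedAt r) ≠ 0 := by
  intro h0
  have h1 := congrArg (fun t : ratLocalizedAt r => (t : ℚ)) h0
  simp only [Subring.coe_natCast, ZeroMemClass.coe_zero, Nat.cast_eq_zero] at h1
  exact (Fact.out : r.Prime).ne_zero h1

/-- In `ℤ_(r)` an element is a unit or divisible by `r`. -/
theorem selu_isUnit_or_dvd (x : ratLocalizedAt r) :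
    IsUnit x ∨ ((r : ℕ) : ratLocalizedAt r) ∣ x := by
  by_cases hx : x = 0
  · right; rw [hx]; exact dvd_zero _
  have hnn := ratLoc_padicValRat_nonneg r x
  rcases hnn.eq_or_lt with h0 | hpos
  · left
    refine isUnit_of_dvd_one (ratLoc_dvd_of_padicValRat_le r hx ?_)
    rw [← h0]
    simp
  · right
    refine ratLoc_dvd_of_padicValRat_le r (selu_natCast_ne_zero r) ?_
    have h1 : padicValRat r (((r : ℕ) : ratLocalizedAt r) : ℚ) = 1 := by
      rw [Subring.coe_natCast]
      exact padicValRat.self (Fact.out : r.Prime).one_lt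
    rw [h1]
    omega

/-- In `ℤ_(r)` an element divisible by all powers of `r` is zero. -/
theorem selu_eq_zero_of_forall_pow_dvd (x : ratLocalizedAt r)
    (h : ∀ j : ℕ, ((r : ℕ) : ratLocalizedAt r) ^ j ∣ x) : x = 0 := by
  by_contra hx
  have hx' : (x : ℚ) ≠ 0 := fun h0 => hx (Subtype.ext h0)
  obtain ⟨y, hy⟩ := h ((padicValRat r (x : ℚ)).toNat + 1)
  have hy0 : (y : ℚ) ≠ 0 := by
    intro h0
    apply hx
    rw [hy, show y = 0 from Subtype.ext h0, mul_zero]
  have hr0 : ((r : ℕ) : ℚ) ≠ 0 := Nat.cast_ne_zero.2 (Fact.out : r.Prime).ne_zero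
  have h1 : padicValRat r (x : ℚ) =
      (((padicValRat r (x : ℚ)).toNat + 1 : ℕ) : ℤ) + padicValRat r (y : ℚ) := by
    have h2 := congrArg (fun t : ratLocalizedAt r => (t : ℚ)) hy
    simp only [Subring.coe_mul, Subring.coe_pow, Subring.coe_natCast] at h2
    conv_lhs => rw [h2]
    rw [padicValRat.mul (pow_ne_zero _ hr0) hy0, padicValRat.pow,
      padicValRat.self (Fact.out : r.Prime).one_lt, mul_one]
  have h3 := ratLoc_padicValRat_nonneg r y
  have h4 := ratLoc_padicValRat_nonneg r x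
  have h5 : ((padicValRat r (x : ℚ)).toNat : ℤ) = padicValRat r (x : ℚ) :=
    Int.toNat_of_nonneg h4
  push_cast at h1
  omega

variable {M : Type} [AddCommGroup M]
  {act : (AlgebraicClosure ℚ ≃ₐ[ℚ] AlgebraicClosure ℚ) → M → M}
  {H : Subalgebra (ratLocalizedAt r) (M → AlgebraicClosure ℚ)}

/-- **(U)** Fontaine's lemma: a Hopf lattice over `ℤ_(r)`, `r` odd, separates every fixed point
of order `r` from `0` modulo `r`. -/
theorem selu_fontaine (hr3 : 3 ≤ r) (hH : IsHopfLattice (ratLocalizedAt r) act H) (x : M)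
    (hx : ∀ σ, act σ x = x) (hx0 : x ≠ 0) (hrx : r • x = 0) :
    ∃ h ∈ H, ∃ u : ratLocalizedAt r, IsUnit u ∧
      h x - h 0 = algebraMap (ratLocalizedAt r) (AlgebraicClosure ℚ) u := by
  by_contra hcon
  push Not at hcon
  have hδ : ∀ h ∈ H, ∃ ρ : ratLocalizedAt r,
      h x - h 0 = algebraMap (ratLocalizedAt r) (AlgebraicClosure ℚ) ρ := by
    intro h hh
    obtain ⟨a, ha⟩ := selu_fixed_value hH x hx hh
    obtain ⟨b, hb⟩ := hH.counit_mem h hh
    exact ⟨a - b, by rw [ha, hb, map_sub]⟩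
  have hP1 : ∀ h ∈ H, ∃ ρ : ratLocalizedAt r, h x - h 0 =
      algebraMap (ratLocalizedAt r) (AlgebraicClosure ℚ) (((r : ℕ) : ratLocalizedAt r) ^ 1 * ρ) := by
    intro h hh
    obtain ⟨ρ, hρ⟩ := hδ h hh
    rcases selu_isUnit_or_dvd r ρ with hu | ⟨c, hc⟩
    · exact absurd hρ (hcon h hh ρ hu)
    · exact ⟨c, by rw [hρ, hc, pow_one]⟩
  have hPj : ∀ j, 1 ≤ j → ∀ h ∈ H, ∃ ρ : ratLocalizedAt r, h x - h 0 =
      algebraMap (ratLocalizedAt r) (AlgebraicClosure ℚ) (((r : ℕ) : ratLocalizedAt r) ^ j * ρ) := by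
    intro j hj
    induction j, hj using Nat.le_induction with
    | base => exact hP1
    | succ j hj ih => exact selu_step hH x r Fact.out hr3 hrx j hj ih
  have hzero : ∀ h ∈ H, h x = h 0 := by
    intro h hh
    obtain ⟨ρ, hρ⟩ := hδ h hh
    have h0 : ρ = 0 := selu_eq_zero_of_forall_pow_dvd r ρ fun j => by
      rcases Nat.eq_zero_or_pos j with rfl | hj
      · simp
      · obtain ⟨ρ', hρ'⟩ := hPj j hj h hh
        exact ⟨ρ', algebraMap_R_injective (hρ.symm.trans hρ')⟩
    rw [h0, map_zero] at hρ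
    exact sub_eq_zero.1 hρ
  exact hx0 (hH.separates _ _ hzero)

/-- The image of a unit of `ℤ_(r)` is not in the maximal ideal of a valuation ring over `r`. -/
theorem selu_unit_not_mem_nonunits (A : ValuationSubring (AlgebraicClosure ℚ))
    (hA : A.LiesOverPrime r) {u : ratLocalizedAt r} (hu : IsUnit u) :
    algebraMap (ratLocalizedAt r) (AlgebraicClosure ℚ) u ∉ A.nonunits := by
  obtain ⟨v, hv⟩ := hu.exists_right_inv
  have hmem : ∀ ρ : ratLocalizedAt r,
      algebraMap (ratLocalizedAt r) (AlgebraicClosure ℚ) ρ ∈ A := fun ρ => by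
    rw [selgl_algebraMap]
    exact (desc_rat_mem_iff (Fact.out : r.Prime) A hA _).2 ρ.2
  have h1 : algebraMap (ratLocalizedAt r) (AlgebraicClosure ℚ) u *
      algebraMap (ratLocalizedAt r) (AlgebraicClosure ℚ) v = 1 := by
    rw [← map_mul, hv, map_one]
  rw [ValuationSubring.mem_nonunits_iff_or]
  push Not
  refine ⟨left_ne_zero_of_mul_eq_one h1, ?_⟩
  rw [inv_eq_of_mul_eq_one_right h1]
  exact hmem v

end Main

end Fermat.Agent.S15
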