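import Fermat.Agent.S15.Plan
import Fermat.Agent.S15.ECLoc
import Fermat.Agent.Common.FrobProfinite
import Fermat.Agent.ES.HModular

/-!
# S15 (Mazur's key step) from the six interface Props of `Plan.lean` and EC-loc

`s15_of_inputs : StmtCusp → StmtMod → StmtLocDiv → StmtLocDivN → StmtFinRed → StmtFin →
  S15Statement`,   `stmtFin_of_all : StmtFinAll → StmtFin`.
-/

set_option autoImplicit false

noncomputable section

namespace Fermat.Agent.S15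

open ModularCurve AlgebraicCurve WeierstrassCurve WeierstrassCurve.Affine
open Fermat.Agent.S24 Fermat.Agent.ES.M Fermat.Agent.W1

/-- the frozen statement `S15` -/
def S15Statement : Prop :=
  ∀ {p : ℕ} (_ : p.Prime) (_ : p ∉ ({2, 3, 5, 7, 13} : Finset ℕ))
    (W : WeierstrassCurve ℤ) (_ : W.Δ ≠ 0)
    (Q : ((W.map (Int.castRingHom ℚ))⁄(AlgebraicClosure ℚ)).Point)
    (_ : ∀ σ : AlgebraicClosure ℚ ≃ₐ[ℚ] AlgebraicClosure ℚ, σ • Q = Q)
    (_ : addOrderOf Q = p)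
    (_ : (2 : ℤ) ∣ W.Δ) (_ : ¬ (2 : ℤ) ∣ W.c₄)
    (_ : ∀ A : ValuationSubring (AlgebraicClosure ℚ), A.LiesOverPrime 2 →
      ¬ W.InZeroComponentAt A Q)
    (_ : (3 : ℤ) ∣ W.Δ) (_ : ¬ (3 : ℤ) ∣ W.c₄)
    (_ : ∀ A : ValuationSubring (AlgebraicClosure ℚ), A.LiesOverPrime 3 →
      ¬ W.InZeroComponentAt A Q)
    {ℓ : ℕ} (_ : ℓ.Prime) (_ : ℓ ≠ p) (_ : (ℓ : ℤ) ∣ W.Δ) (_ : ¬ (ℓ : ℤ) ∣ W.c₄)
    (A : ValuationSubring (AlgebraicClosure ℚ)) (_ : A.LiesOverPrime ℓ),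
    ¬ W.InZeroComponentAt A Q

/-- a nonzero torsion element has a nonzero multiple of prime order `r`, `r` dividing any
exponent -/
theorem exists_prime_multiple {J : Type*} [AddCommGroup J] {c : J} (hc : c ≠ 0) {n : ℕ}
    (hn : n ≠ 0) (hnc : n • c = 0) :
    ∃ (r a : ℕ), r.Prime ∧ r ∣ n ∧ a • c ≠ 0 ∧ r • (a • c) = 0 := by
  set d := addOrderOf c with hd
  have hdn : d ∣ n := addOrderOf_dvd_of_nsmul_eq_zero hnc
  have hd0 : d ≠ 0 := fun h => hn (by rw [h] at hdn; exact zero_dvd_iff.1 hdn)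
  have hd1 : d ≠ 1 := fun h => hc (AddMonoid.addOrderOf_eq_one_iff.1 h)
  refine ⟨d.minFac, d / d.minFac, Nat.minFac_prime hd1, (Nat.minFac_dvd d).trans hdn, ?_, ?_⟩
  · intro h
    have h1 : d ∣ d / d.minFac := addOrderOf_dvd_of_nsmul_eq_zero h
    have h2 : d / d.minFac < d :=
      Nat.div_lt_self (Nat.pos_of_ne_zero hd0) (Nat.minFac_prime hd1).one_lt
    have h3 : 0 < d / d.minFac :=
      Nat.div_pos (Nat.minFac_le (Nat.pos_of_ne_zero hd0)) (Nat.minFac_pos d)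
    exact absurd (Nat.le_of_dvd h3 h1) (not_le.2 h2)
  · rw [smul_smul, Nat.mul_div_cancel' (Nat.minFac_dvd d)]
    exact addOrderOf_nsmul_eq_zero c

theorem isDiffClass_sub {N : ℕ} [NeZero N] {x : Place Kb (FF N)} {u z : JZero N}
    (hu : IsDiffClass N x (cuspZero N) u) (hz : IsDiffClass N x (cuspInf N) z) :
    z - u = cuspClass N := by
  obtain ⟨D, hD, rfl⟩ := hu
  obtain ⟨E, hE, rfl⟩ := hz
  have h : E - D = cuspDiv N := by
    apply Subtype.ext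
    rw [AddSubgroup.coe_sub, hD, hE, coe_cuspDiv]
    abel
  show Pic0.mk E - Pic0.mk D = Pic0.mk (cuspDiv N)
  rw [← h]
  rfl

/-- existence of the two classes of a place of degree one -/
theorem exists_isDiffClass {N : ℕ} [NeZero N] (x y : Place Kb (FF N)) (h : x.deg = y.deg) :
    ∃ w : JZero N, IsDiffClass N x y w := by
  refine ⟨Pic0.mk ⟨Finsupp.single x 1 - Finsupp.single y 1, ?_⟩, ⟨_, rfl, rfl⟩⟩
  rw [Divisor.mem_degZero, map_sub, Divisor.degree_single, Divisor.degree_single, h]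
  simp

/-- the class `[(x) − (y)]` of two `G_ℚ`-fixed places is `G_ℚ`-fixed -/
theorem isDiffClass_fixed {N : ℕ} [NeZero N] {x y : Place Kb (FF N)} {w : JZero N}
    (hw : IsDiffClass N x y w) (hx : ∀ σ : GalQ, galAct N σ • x = x)
    (hy : ∀ σ : GalQ, galAct N σ • y = y) (σ : GalQ) : σ • w = w := by
  obtain ⟨D, hD, rfl⟩ := hw
  rw [galois_smul_pic0_def, SemilinearAut.pic0_smul_mk]
  congr 1
  apply Subtype.ext
  rw [SemilinearAut.coe_degZeroSMulHom, hD, smul_sub, SemilinearAut.smul_single,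
    SemilinearAut.smul_single]
  change Finsupp.single (galAct N σ • x) 1 - Finsupp.single (galAct N σ • y) 1 = _
  rw [hx σ, hy σ]

/-- the descent for all rational points gives the descent in the form of `Plan.lean` -/
theorem stmtFin_of_all (h : StmtFinAll) : StmtFin := by
  intro p _ hML r hr _ cr hcr0 hrcr hcr A _ w hw _
  exact h p hML r hr cr hcr0 hrcr hcr w hw

/-- the arithmetic of the case `r = ℓ`: `ℓ ∣ p - 1`, `ℓ` odd, `p ∣ ℓ ± 1` is impossible -/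
theorem not_dvd_of_dvd_pred {p ℓ : ℕ} (hp : p.Prime) (hℓ : ℓ.Prime) (hℓ2 : ℓ ≠ 2)
    (h : ℓ ∣ p - 1) : ¬ (p ∣ ℓ - 1 ∨ p ∣ ℓ + 1) := by
  have hp1 : 0 < p - 1 := Nat.sub_pos_of_lt hp.one_lt
  have hle : ℓ ≤ p - 1 := Nat.le_of_dvd hp1 h
  have hℓ1 : 0 < ℓ - 1 := Nat.sub_pos_of_lt hℓ.one_lt
  rintro (h1 | h1)
  · have := Nat.le_of_dvd hℓ1 h1
    omega
  · have h2 : p ≤ ℓ + 1 := Nat.le_of_dvd (Nat.succ_pos _) h1
    have h3 : ℓ + 1 = p := by omega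
    -- `ℓ` odd, so `p = ℓ + 1` is even, hence `p = 2`, `ℓ = 1`
    rcases hℓ.eq_two_or_odd with h4 | h4
    · exact hℓ2 h4
    · have h5 : 2 ∣ p := by omega
      have h6 := (Nat.prime_dvd_prime_iff_eq Nat.prime_two hp).1 h5
      have := hℓ.one_lt
      omega

/-- **S15 from the interface.** -/
theorem s15_of_inputs (hCusp : StmtCusp) (hMod : StmtMod) (hLoc : StmtLocDiv)
    (hLocN : StmtLocDivN) (hFR : StmtFinRed) (hFin : StmtFin) : S15Statement := by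
  intro p hp hp' W hΔ Q hQfix hQord h2Δ h2c₄ h2 h3Δ h3c₄ h3 ℓ hℓ hℓp hℓΔ hℓc₄ A hA hQ0
  have : NeZero p := ⟨hp.ne_zero⟩
  have hML : IsMazurLevel p := ⟨hp, hp'⟩
  -- `ℓ ∉ {2, 3}`
  have hℓ2 : ℓ ≠ 2 := by
    rintro rfl
    exact h2 A hA hQ0
  have hℓ3 : ℓ ≠ 3 := by
    rintro rfl
    exact h3 A hA hQ0
  have hp2 : p ≠ 2 := fun h => hp' (by rw [h]; decide)
  have hp3 : p ≠ 3 := fun h => hp' (by rw [h]; decide)
  -- the descent prime
  obtain ⟨hc0, hc1⟩ := hCusp p hML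
  have hp1 : p - 1 ≠ 0 := Nat.sub_ne_zero_of_lt hp.one_lt
  obtain ⟨r, n, hr, hrdvd, hcr0, hrcr⟩ := exists_prime_multiple hc0 hp1 hc1
  -- `r ≠ ℓ` by EC-loc
  have hrℓ : r ≠ ℓ := by
    rintro rfl
    exact not_dvd_of_dvd_pred hp hℓ hℓ2 hrdvd
      (ecloc_dvd W hp hℓ hℓ2 hℓp hℓΔ hℓc₄ Q hQfix hQord A hA hQ0)
  -- the rational place
  obtain ⟨x, a, b, hx, hx2, hval⟩ := hMod p hML W hΔ
    ⟨2, Nat.prime_two, by exact_mod_cast h2Δ, by exact_mod_cast h2c₄⟩ Q hQfix hQord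
  have hxdeg : x.deg = 1 :=
    Fermat.Agent.ES.R.place_deg_eq_one x (Fermat.Agent.ES.H.residue_bijective_FF p x)
  obtain ⟨u, hu⟩ := exists_isDiffClass x (cuspZero p) (by rw [cuspZero_deg, hxdeg])
  obtain ⟨z, hz⟩ := exists_isDiffClass x (cuspInf p) (by rw [cuspInf_deg, hxdeg])
  have hzu : z - u = cuspClass p := isDiffClass_sub hu hz
  -- the auxiliary prime `v ∈ {2, 3}`, `v ≠ r`, at which `Q` is not in the identity component
  obtain ⟨v, hv, hvp, hrv, hvΔ, hvc₄, hvQ⟩ : ∃ v : ℕ, v.Prime ∧ v ≠ p ∧ r ≠ v ∧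
      (v : ℤ) ∣ W.Δ ∧ ¬ (v : ℤ) ∣ W.c₄ ∧
      ∀ A : ValuationSubring (AlgebraicClosure ℚ), A.LiesOverPrime v →
        ¬ W.InZeroComponentAt A Q := by
    by_cases hr2 : r = 2
    · exact ⟨3, Nat.prime_three, fun h => hp3 h.symm, by omega, by exact_mod_cast h3Δ,
        by exact_mod_cast h3c₄, h3⟩
    · exact ⟨2, Nat.prime_two, fun h => hp2 h.symm, hr2, by exact_mod_cast h2Δ,
        by exact_mod_cast h2c₄, h2⟩
  obtain ⟨Av, hAv⟩ := Fermat.Agent.Common.exists_liesOverPrime v hv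
  -- local divisibility
  obtain ⟨hva, hvc, hvb⟩ := hval v hv hvp hvΔ hvc₄ Av hAv
  have huLoc : LocDivAbs (Av.decompositionSubgroup ℚ) r u :=
    (hLoc p hML v hv hvp r hr hrv Av hAv x a b hx hva hvc).1
      (by_contra fun h => hvQ Av hAv (hvb.2 h)) u hu
  obtain ⟨hℓa, hℓc, hℓb⟩ := hval ℓ hℓ hℓp hℓΔ hℓc₄ A hA
  have hzLoc : LocDivAbs (A.decompositionSubgroup ℚ) r z :=
    (hLoc p hML ℓ hℓ hℓp r hr hrℓ A hA x a b hx hℓa hℓc).2 (hℓb.1 hQ0) z hz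
  -- the descent at the level prime
  have hrp : r ≠ p := by
    intro h
    have := Nat.le_of_dvd (Nat.pos_of_ne_zero hp1) hrdvd
    omega
  obtain ⟨Ap, hAp⟩ := Fermat.Agent.Common.exists_liesOverPrime p hp
  have huN : LocDivAbs (Ap.inertiaSubgroupIn ℚ) r u :=
    hLocN p hML r hr hrp Ap hAp x a b hx hx2 u hu
  have hufix : ∀ σ : GalQ, σ • u = u :=
    isDiffClass_fixed hu hx.fixed (fun σ => galAct_smul_cuspZero σ)
  -- the glue
  exact glue_abstract (Av.decompositionSubgroup ℚ) (A.decompositionSubgroup ℚ) r u z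
    (cuspClass p) (n • cuspClass p) n hzu rfl hcr0 hrcr huLoc hzLoc
    (hFR p hML v hv hvp r hr hrv Av hAv) (hFR p hML ℓ hℓ hℓp r hr hrℓ A hA)
    (Or.inl (hFin p hML r hr hrp (n • cuspClass p) hcr0 hrcr ⟨n, rfl⟩ Ap hAp u hufix huN))

end Fermat.Agent.S15
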