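import Fermat.Agent.S15.Top
import Fermat.Agent.S15.ModAsmPlan

/-!
# `StmtModC` versus `Plan.StmtMod` (v2)

Since `Plan.lean` v2 (helper17, 21:40Z) the interface Prop `StmtMod` carries the hypothesis
"`W` has a prime of multiplicative reduction" (as `StmtModC`, helper51) AND the output
`IsTypeTwo p x` (the certificate at the level prime, block N3, `NOTES/S15-N3.md`).
So `StmtMod → StmtModC`, and `Top.s15_of_inputs` is the only top-level wiring.
-/

set_option autoImplicit false

noncomputable section

namespace Fermat.Agent.S15

/-- `StmtMod` (v2) is `StmtModC` plus the certificate `IsTypeTwo` at the level prime. -/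
theorem stmtModC_of_stmtMod (h : StmtMod) : StmtModC := by
  intro p _ hp W hΔ hmult Q hfix hord
  obtain ⟨x, a, c, hx, _, hval⟩ := h p hp W hΔ hmult Q hfix hord
  exact ⟨x, a, c, hx, hval⟩

/-- **S15 from the interface** (the name of helper51's wiring, now an alias of
`s15_of_inputs`). -/
theorem s15_of_inputsC (hCusp : StmtCusp) (hMod : StmtMod) (hLoc : StmtLocDiv)
    (hLocN : StmtLocDivN) (hFR : StmtFinRed) (hFin : StmtFin) : S15Statement :=
  s15_of_inputs hCusp hMod hLoc hLocN hFR hFin

end Fermat.Agent.S15
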