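import Mathlib
import Fermat.Agent.S05.Inertia
import Fermat.Agent.S15.ToricTameV
import Fermat.Agent.S15.ToricTameA

/-!
# S15 / CNT / TORIC, piece T-tame (main): the tame inertia is cyclic

`A` a valuation subring of `L ⊇ ℚ` (algebraic) over the prime `N`, `I` its inertia group.

* `tameTheta A y : I →* k_Aˣ`, `σ ↦ σ y / y mod 𝔪_A`;  `tameTheta_eq_one_iff`.
* `tameTheta_finite_range`, `tameTheta_exists_gen` : the image is finite cyclic.
* `toric_tame` : for a finite normal `E / ℚ` there is `σ₀ ∈ I` such that for every `σ ∈ I` there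
  are `n`, `e` with `(σ σ₀⁻ⁿ)^(N^e) = 1` on `E`.
-/

set_option autoImplicit false
set_option linter.unusedSectionVars false
set_option linter.unusedVariables false
set_option linter.style.haveILetI false

noncomputable section

namespace Fermat.Agent.S15

open Fermat.Agent.S05

section Theta

variable {L : Type*} [Field L] [Algebra ℚ L] [Algebra.IsAlgebraic ℚ L]

theorem tame_residue_eq_iff (A : ValuationSubring L) {a b : L} (ha : a ∈ A) (hb : b ∈ A) :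
    IsLocalRing.residue A ⟨a, ha⟩ = IsLocalRing.residue A ⟨b, hb⟩ ↔ a - b ∈ A.nonunits := by
  rw [← sub_eq_zero, ← map_sub, IsLocalRing.residue_eq_zero_iff,
    ValuationSubring.mem_nonunits_iff_exists_mem_maximalIdeal]
  constructor
  · intro h
    exact ⟨A.sub_mem ha hb, h⟩
  · rintro ⟨_, h⟩
    exact h

theorem tame_div_val (A : ValuationSubring L) {σ : L ≃ₐ[ℚ] L}
    (hσ : σ ∈ A.inertiaSubgroupIn ℚ) (y : Lˣ) : A.valuation (σ (y : L) / y) = 1 :=
  valuation_apply_div_self (mem_decomposition_of_mem_inertiaIn hσ) y.ne_zero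

theorem tame_div_mem (A : ValuationSubring L) {σ : L ≃ₐ[ℚ] L}
    (hσ : σ ∈ A.inertiaSubgroupIn ℚ) (y : Lˣ) : σ (y : L) / y ∈ A :=
  (A.valuation_le_one_iff _).1 (tame_div_val A hσ y).le

theorem tame_residue_ne_zero (A : ValuationSubring L) {a : L} (ha : a ∈ A)
    (hv : A.valuation a = 1) : IsLocalRing.residue A ⟨a, ha⟩ ≠ 0 := by
  intro h
  have h0 : (0 : L) ∈ A := A.zero_mem
  have h1 : IsLocalRing.residue A ⟨a, ha⟩ = IsLocalRing.residue A ⟨0, h0⟩ := by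
    rw [h]
    exact (map_zero (IsLocalRing.residue A)).symm
  have h2 := (tame_residue_eq_iff A ha h0).1 h1
  rw [sub_zero, ValuationSubring.mem_nonunits_iff, hv] at h2
  exact lt_irrefl _ h2

/-- the tame character `θ_y` -/
def tameTheta (A : ValuationSubring L) (y : Lˣ) :
    ↥(A.inertiaSubgroupIn ℚ) →* (IsLocalRing.ResidueField A)ˣ :=
  MonoidHom.mk'
    (fun σ => Units.mk0 (IsLocalRing.residue A ⟨(σ : L ≃ₐ[ℚ] L) (y : L) / y, tame_div_mem A σ.2 y⟩)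
      (tame_residue_ne_zero A _ (tame_div_val A σ.2 y)))
    (by
      intro σ τ
      apply Units.ext
      rw [Units.val_mul, Units.val_mk0, Units.val_mk0, Units.val_mk0]
      have hb : (τ : L ≃ₐ[ℚ] L) (y : L) / y ∈ A := tame_div_mem A τ.2 y
      have hσb : (σ : L ≃ₐ[ℚ] L) ((τ : L ≃ₐ[ℚ] L) (y : L) / y) ∈ A :=
        (inertia_apply_mem_iff σ.2 _).2 hb
      have h1 : (⟨((σ * τ : ↥(A.inertiaSubgroupIn ℚ)) : L ≃ₐ[ℚ] L) (y : L) / y,
          tame_div_mem A (σ * τ).2 y⟩ : A) =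
          ⟨(σ : L ≃ₐ[ℚ] L) (y : L) / y, tame_div_mem A σ.2 y⟩ *
            ⟨(σ : L ≃ₐ[ℚ] L) ((τ : L ≃ₐ[ℚ] L) (y : L) / y), hσb⟩ := by
        apply Subtype.ext
        show ((σ : L ≃ₐ[ℚ] L) * (τ : L ≃ₐ[ℚ] L)) (y : L) / y = _
        rw [AlgEquiv.mul_apply]
        show _ = (σ : L ≃ₐ[ℚ] L) (y : L) / y * (σ : L ≃ₐ[ℚ] L) ((τ : L ≃ₐ[ℚ] L) (y : L) / y)
        rw [map_div₀]
        have hy : (σ : L ≃ₐ[ℚ] L) (y : L) ≠ 0 := by
          rw [Ne, map_eq_zero]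
          exact y.ne_zero
        have hy' : (y : L) ≠ 0 := y.ne_zero
        field_simp
      rw [h1, map_mul]
      congr 1
      exact (tame_residue_eq_iff A hσb hb).2 (inertia_apply_sub_mem_nonunits σ.2 hb))

theorem tameTheta_val (A : ValuationSubring L) (y : Lˣ) (σ : ↥(A.inertiaSubgroupIn ℚ)) :
    ((tameTheta A y σ : (IsLocalRing.ResidueField A)ˣ) : IsLocalRing.ResidueField A) =
      IsLocalRing.residue A ⟨(σ : L ≃ₐ[ℚ] L) (y : L) / y, tame_div_mem A σ.2 y⟩ := rfl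

theorem tameTheta_eq_one_iff (A : ValuationSubring L) (y : Lˣ)
    (σ : ↥(A.inertiaSubgroupIn ℚ)) :
    tameTheta A y σ = 1 ↔ tameTr A (σ : L ≃ₐ[ℚ] L) (y : L) := by
  have h1 : (1 : L) ∈ A := A.one_mem
  rw [tameTr, ← tame_residue_eq_iff A (tame_div_mem A σ.2 y) h1, ← tameTheta_val,
    Units.ext_iff, Units.val_one]
  have : IsLocalRing.residue A ⟨1, h1⟩ = 1 := map_one _
  rw [this]

/-- `θ_y(σ)` depends only on `σ y` -/
theorem tameTheta_congr (A : ValuationSubring L) (y : Lˣ) (σ τ : ↥(A.inertiaSubgroupIn ℚ))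
    (h : (σ : L ≃ₐ[ℚ] L) (y : L) = (τ : L ≃ₐ[ℚ] L) (y : L)) :
    tameTheta A y σ = tameTheta A y τ := by
  apply Units.ext
  rw [tameTheta_val, tameTheta_val]
  congr 1
  apply Subtype.ext
  show (σ : L ≃ₐ[ℚ] L) (y : L) / y = (τ : L ≃ₐ[ℚ] L) (y : L) / y
  rw [h]

theorem tameTheta_finite_range (A : ValuationSubring L) (y : Lˣ) :
    (Set.range (tameTheta A y)).Finite := by
  classical
  have hroots : ((minpoly ℚ (y : L)).rootSet L).Finite := Polynomial.rootSet_finite _ _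
  have hmem : ∀ σ : ↥(A.inertiaSubgroupIn ℚ),
      (σ : L ≃ₐ[ℚ] L) (y : L) ∈ (minpoly ℚ (y : L)).rootSet L := by
    intro σ
    rw [Polynomial.mem_rootSet]
    refine ⟨minpoly.ne_zero (Algebra.IsIntegral.isIntegral _), ?_⟩
    have h := minpoly.aeval ℚ (y : L)
    have h2 := congrArg (σ : L ≃ₐ[ℚ] L) h
    rw [map_zero] at h2
    rw [← h2]
    exact (Polynomial.aeval_algHom_apply ((σ : L ≃ₐ[ℚ] L) : L →ₐ[ℚ] L) (y : L) _)
  -- a choice of `σ` for each value of `σ y`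
  let g : L → (IsLocalRing.ResidueField A)ˣ := fun z =>
    if h : ∃ σ : ↥(A.inertiaSubgroupIn ℚ), (σ : L ≃ₐ[ℚ] L) (y : L) = z then
      tameTheta A y h.choose else 1
  refine (hroots.image g).subset ?_
  rintro _ ⟨σ, rfl⟩
  refine ⟨(σ : L ≃ₐ[ℚ] L) (y : L), hmem σ, ?_⟩
  have hex : ∃ τ : ↥(A.inertiaSubgroupIn ℚ), (τ : L ≃ₐ[ℚ] L) (y : L) = (σ : L ≃ₐ[ℚ] L) (y : L) :=
    ⟨σ, rfl⟩
  show (if h : ∃ τ : ↥(A.inertiaSubgroupIn ℚ),
      (τ : L ≃ₐ[ℚ] L) (y : L) = (σ : L ≃ₐ[ℚ] L) (y : L) then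
      tameTheta A y h.choose else 1) = _
  rw [dif_pos hex]
  exact tameTheta_congr A y _ _ hex.choose_spec

/-- the image of `θ_y` is cyclic: there is a generator `σ₀` -/
theorem tameTheta_exists_gen (A : ValuationSubring L) (y : Lˣ) :
    ∃ σ₀ : ↥(A.inertiaSubgroupIn ℚ), ∀ σ : ↥(A.inertiaSubgroupIn ℚ),
      ∃ n : ℤ, tameTheta A y (σ * σ₀ ^ (-n)) = 1 := by
  haveI : Finite ↥(tameTheta A y).range := by
    have h := tameTheta_finite_range A y
    rw [← MonoidHom.coe_range] at h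
    exact h.to_subtype
  obtain ⟨g, hg⟩ := IsCyclic.exists_generator (α := ↥(tameTheta A y).range)
  obtain ⟨σ₀, hσ₀⟩ := g.2
  refine ⟨σ₀, fun σ => ?_⟩
  obtain ⟨n, hn⟩ := Subgroup.mem_zpowers_iff.1 (hg ⟨tameTheta A y σ, ⟨σ, rfl⟩⟩)
  refine ⟨n, ?_⟩
  have h1 : (tameTheta A y σ₀) ^ n = tameTheta A y σ := by
    have := congrArg (fun t : ↥(tameTheta A y).range => (t : (IsLocalRing.ResidueField A)ˣ)) hn
    simp only [Subgroup.coe_zpow] at this
    rw [hσ₀]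
    exact this
  rw [map_mul, map_zpow, zpow_neg, h1, mul_inv_cancel]

end Theta

end Fermat.Agent.S15

namespace Fermat.Agent.S15

open Fermat.Agent.S05

section Main

variable {L : Type*} [Field L] [Algebra ℚ L] [Algebra.IsAlgebraic ℚ L]

/-- restriction to a normal subfield -/
theorem tame_res_apply (E : IntermediateField ℚ L) [Normal ℚ E] (σ : L ≃ₐ[ℚ] L) (a : E) :
    ((AlgEquiv.restrictNormalHom (F := ℚ) (K₁ := L) E σ a : E) : L) = σ (a : L) :=
  AlgEquiv.restrictNormal_commutes σ E a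

/-- for every `q ≠ 1` in `Gal(E/ℚ)` there is `x ∈ Lˣ` whose symbol is nontrivial at every tame
inertia element restricting to `q` -/
theorem tame_exists_witness (A : ValuationSubring L) {N : ℕ} (hN : N.Prime)
    (hA : A.LiesOverPrime N) (E : IntermediateField ℚ L) [FiniteDimensional ℚ E] [Normal ℚ E]
    (q : E ≃ₐ[ℚ] E) (hq : q ≠ 1) :
    ∃ x : Lˣ, ∀ π ∈ A.inertiaSubgroupIn ℚ,
      AlgEquiv.restrictNormalHom (F := ℚ) (K₁ := L) E π = q → ¬ N ∣ orderOf q →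
        ¬ tameTr A π (x : L) := by
  obtain ⟨a, ha⟩ : ∃ a : E, q a ≠ a := by
    by_contra h
    push Not at h
    exact hq (AlgEquiv.ext h)
  have hne : ((q a : E) : L) - (a : L) ≠ 0 := by
    rw [sub_ne_zero]
    exact fun h => ha (Subtype.ext h)
  refine ⟨Units.mk0 _ hne, fun π hπ hres hord => ?_⟩
  rw [Units.val_mk0]
  have h1 : ((q a : E) : L) = π (a : L) := by
    rw [← hres]
    exact tame_res_apply E π a
  rw [h1]
  refine tame_N A hN hA hπ (a : L) (orderOf q) hord ?_ ?_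
  · have h2 : ((AlgEquiv.restrictNormalHom (F := ℚ) (K₁ := L) E (π ^ orderOf q) a : E) : L) =
        (π ^ orderOf q) (a : L) := tame_res_apply E _ a
    rw [← h2, map_pow, hres, pow_orderOf_eq_one]
    rfl
  · rw [← h1]
    exact fun h => ha (Subtype.ext h)

/-- **T-tame**: the tame inertia is cyclic. -/
theorem toric_tame (A : ValuationSubring L) {N : ℕ} (hN : N.Prime) (hA : A.LiesOverPrime N)
    (E : IntermediateField ℚ L) [FiniteDimensional ℚ E] [Normal ℚ E] :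
    ∃ σ₀ ∈ A.inertiaSubgroupIn ℚ, ∀ σ ∈ A.inertiaSubgroupIn ℚ, ∃ (n : ℤ) (e : ℕ),
      ∀ a ∈ E, ((σ * σ₀ ^ (-n)) ^ (N ^ e)) a = a := by
  classical
  haveI : CharZero L := algebraRat.charZero L
  have hN0 : ((N : ℕ) : L) ≠ 0 := Nat.cast_ne_zero.2 hN.ne_zero
  -- the witnesses
  have hW : ∀ q : E ≃ₐ[ℚ] E, ∃ x : Lˣ, q ≠ 1 → ∀ π ∈ A.inertiaSubgroupIn ℚ,
      AlgEquiv.restrictNormalHom (F := ℚ) (K₁ := L) E π = q → ¬ N ∣ orderOf q →
        ¬ tameTr A π (x : L) := by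
    intro q
    by_cases hq : q = 1
    · exact ⟨1, fun h => absurd hq h⟩
    · obtain ⟨x, hx⟩ := tame_exists_witness A hN hA E q hq
      exact ⟨x, fun _ => hx⟩
  choose X hX using hW
  have hfd : @FiniteDimensional ℚ E _ _ (Algebra.toModule) := by
    convert (inferInstance : FiniteDimensional ℚ E)
    exact Subsingleton.elim _ _
  haveI : Finite (E ≃ₐ[ℚ] E) := by
    haveI := hfd
    exact Finite.of_fintype _
  haveI : Fintype (E ≃ₐ[ℚ] E) := Fintype.ofFinite _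
  -- the common generator of the valuations
  obtain ⟨y, hy⟩ := tame_V (K := ℚ) A (Units.mk0 ((N : ℕ) : L) hN0)
    (fun c hc => tame_val_rat A hN hA hN0 c hc) (Finset.univ.image X)
  obtain ⟨σ₀, hσ₀⟩ := tameTheta_exists_gen A y
  refine ⟨σ₀, σ₀.2, fun σ hσ => ?_⟩
  obtain ⟨n, hn⟩ := hσ₀ ⟨σ, hσ⟩
  set π : L ≃ₐ[ℚ] L := σ * (σ₀ : L ≃ₐ[ℚ] L) ^ (-n) with hπdef
  have hπ : π ∈ A.inertiaSubgroupIn ℚ :=
    Subgroup.mul_mem _ hσ (Subgroup.zpow_mem _ σ₀.2 _)
  have hπy : tameTr A π (y : L) := by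
    have := (tameTheta_eq_one_iff A y (⟨σ, hσ⟩ * σ₀ ^ (-n))).1 hn
    simpa [hπdef] using this
  set q : E ≃ₐ[ℚ] E := AlgEquiv.restrictNormalHom (F := ℚ) (K₁ := L) E π with hqdef
  have ho : orderOf q ≠ 0 := (orderOf_pos q).ne'
  obtain ⟨e, o', ho', hoe⟩ := Nat.exists_eq_pow_mul_and_not_dvd ho N hN.one_lt.ne'
  refine ⟨n, e, ?_⟩
  have hpow0 : N ^ e ≠ 0 := pow_ne_zero e hN.ne_zero
  have hq' : q ^ (N ^ e) = 1 := by
    by_contra hne
    have hord : orderOf (q ^ (N ^ e)) = o' := by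
      rw [orderOf_pow_of_dvd hpow0 (Dvd.intro _ hoe.symm), hoe,
        Nat.mul_div_cancel_left _ (Nat.pos_of_ne_zero hpow0)]
    have hπ' : π ^ (N ^ e) ∈ A.inertiaSubgroupIn ℚ := Subgroup.pow_mem _ hπ _
    have hres : AlgEquiv.restrictNormalHom (F := ℚ) (K₁ := L) E (π ^ (N ^ e)) = q ^ (N ^ e) := by
      rw [map_pow]
    have h1 := hX (q ^ (N ^ e)) hne (π ^ (N ^ e)) hπ' hres (by rw [hord]; exact ho')
    obtain ⟨m, hm⟩ := hy (X (q ^ (N ^ e))) (Finset.mem_image_of_mem X (Finset.mem_univ _))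
    exact h1 (tameTr_of_val_zpow A hπ' _ y m hm (tameTr_pow A hπ y.ne_zero hπy _))
  intro a ha
  have h2 := tame_res_apply E (π ^ (N ^ e)) ⟨a, ha⟩
  rw [map_pow, ← hqdef, hq'] at h2
  exact h2.symm

end Main

end Fermat.Agent.S15
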