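import Fermat.Agent.S15.ToricPlan
import Fermat.Agent.S15.ToricTame

/-!
# S15 / CNT / TORIC, piece T-tame: `stmtToricTame : StmtToricTame`
-/

set_option autoImplicit false
set_option linter.style.haveILetI false

namespace Fermat.Agent.S15

open Fermat.Agent.S24

/-- **T-tame**: the tame inertia at `N` is cyclic (unconditional). -/
theorem stmtToricTame : StmtToricTame := by
  intro N hN A hA E hfd hnorm
  haveI : Algebra.IsAlgebraic ℚ Kb := Fermat.Agent.S05.isAlgebraic_rat_qbar_of _
  haveI := hfd
  haveI := hnorm
  exact toric_tame A hN hA E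

end Fermat.Agent.S15
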