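import Fermat.Agent.S15.ToricGlue
import Fermat.Agent.S15.ToricTameMain

/-!
# S15 / CNT / TORIC: `StmtSelToric` from the unipotency of the inertia at `N` (UNIP) alone

`stmtSelToric_of_unip : StmtToricUnip → StmtSelToric`, and the form for the Eisenstein part
`toric_eis_card_le`.
-/

set_option autoImplicit false

namespace Fermat.Agent.S15

open ModularCurve AlgebraicCurve
open Fermat.Agent.S24 Fermat.Agent.W1

/-- **TORIC** from UNIP: T-tame + T-glue + T-cnt. -/
theorem stmtSelToric_of_unip (hU : StmtToricUnip) : StmtSelToric :=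
  stmtSelToric_of stmtToricTame hU

/-- **TORIC for the Eisenstein part**: `#G_k ≤ #(G_k ∩ J^{I_N})²`. -/
theorem toric_eis_card_le (hU : StmtToricUnip) (N : ℕ) [NeZero N] (r : ℕ) (hN : N.Prime)
    (hr : r.Prime) (hrN : r ≠ N) (AN : ValuationSubring Kb) (hAN : AN.LiesOverPrime N) (k : ℕ) :
    Nat.card ↥(selEisPart N r k) ≤ Nat.card ↥(selEisPart N r k ⊓ selIF N AN) ^ 2 :=
  stmtSelToric_of_unip hU N r hN hr hrN AN hAN (selEisPart N r k) (toricpre_finite N r k hr)
    (fun x hx => ⟨k, (mem_selEisPart.1 hx).1⟩)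
    (fun σ _ x hx => toricpre_stable N r k σ hx)

end Fermat.Agent.S15
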