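import Fermat.Agent.S15.ToricKummer
import Fermat.Agent.UNIP.MGChartsBeta0All

/-!
# S15 / CNT / TORIC, unconditional

`stmtSelToric : StmtSelToric`: for every prime `N ≥ 5`, prime `r ≠ N`, valuation subring `AN` of
`ℚ̄` over `N` and every finite `I_N`-stable `r`-power-torsion subgroup `G ≤ J₀(N)(ℚ̄)`,
`#G ≤ #(G ⊓ selIF N AN)²` (`ToricPlan.lean`).

Inputs: `stmtSelToric_of_kummer` (`ToricKummer.lean`: tame inertia is cyclic `toric_tame`, the
square bound `toric_card_le_sq`, `ESUnip` from the Kummer form of UNIP) and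
`UNIP.mgcb_stmtUnipKummer` (`UNIP/MGChartsBeta0All.lean`).
-/

set_option autoImplicit false

namespace Fermat.Agent.S15

/-- **TORIC**, unconditional. -/
theorem stmtSelToric : StmtSelToric :=
  stmtSelToric_of_kummer Fermat.Agent.UNIP.mgcb_stmtUnipKummer

/-- `StmtToricUnip`, unconditional. -/
theorem stmtToricUnip : StmtToricUnip :=
  stmtToricUnip_of_kummer Fermat.Agent.UNIP.mgcb_stmtUnipKummer

end Fermat.Agent.S15
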