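import Fermat.Agent.S15.ToricPlan
import Fermat.Agent.S15.ToricPre

/-!
# S15 / SEL-CNT / TORIC, piece T-glue

`stmtSelToric_of : StmtToricTame → StmtToricUnip → StmtSelToric`.

For a finite `I_N`-stable group `G` of `r`-power torsion points (`r ≠ N`): `G` is fixed pointwise by
`Gal(ℚ̄/E)` for a finite normal `E` (`toricpre_field`); T-tame gives `σ₀ ∈ I` with every `σ ∈ I`
of the form `π σ₀ⁿ`, `π ^ (N ^ e) = 1` on `E`, hence on `G`; by UNIP `π ^ m = 1 + m (π - 1)` on `G`,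
so `N ^ e (π - 1) = 0` on `G`, and `r ^ k (π - 1) x = 0`: `π = 1` on `G`.  Hence `G^{σ₀} = G^{I}`
and T-cnt (`toric_card_le_fixed_sq`) applies with `g = σ₀ - 1`.

* `toricglue_unip_pow` : `π ^ m • x = x + m • (π • x - x)` for a unipotent `π`;
* `toricglue_abstract` : the count for an abstract action;
* `stmtSelToric_of`.
-/

set_option autoImplicit false
set_option linter.style.haveILetI false
set_option synthInstance.maxHeartbeats 400000
set_option maxHeartbeats 1600000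

noncomputable section

namespace Fermat.Agent.S15

open ModularCurve AlgebraicCurve
open Fermat.Agent.S24 Fermat.Agent.W1

/-- powers of a unipotent operator: `π ^ m = 1 + m (π - 1)` where `(π - 1)² = 0` -/
theorem toricglue_unip_pow {M J : Type*} [Group M] [AddCommGroup J] [DistribMulAction M J]
    (π : M) (G : AddSubgroup J) (hG : ∀ x ∈ G, π • x ∈ G)
    (hunip : ∀ x ∈ G, π • π • x - 2 • (π • x) + x = 0) (m : ℕ) :
    ∀ x ∈ G, π ^ m • x = x + m • (π • x - x) := by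
  induction m with
  | zero => intro x _; simp
  | succ m ih =>
    intro x hx
    have h1 : π ^ (m + 1) • x = π ^ m • (π • x) := by rw [pow_succ, mul_smul]
    have h2 : π • π • x - π • x = π • x - x := by
      have := hunip x hx
      rw [two_smul] at this
      rw [sub_eq_sub_iff_add_eq_add]
      rw [← sub_eq_zero]
      rw [← this]
      abel
    rw [h1, ih (π • x) (hG x hx), h2, succ_nsmul]
    abel

/-- an element killed by two coprime integers is zero -/
theorem toricglue_coprime_zero {J : Type*} [AddCommGroup J] {a b : ℕ} (hab : Nat.Coprime a b)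
    {z : J} (ha : a • z = 0) (hb : b • z = 0) : z = 0 := by
  have h1 : addOrderOf z ∣ a := addOrderOf_dvd_of_nsmul_eq_zero ha
  have h2 : addOrderOf z ∣ b := addOrderOf_dvd_of_nsmul_eq_zero hb
  have h3 : addOrderOf z ∣ 1 := by
    have := Nat.dvd_gcd h1 h2
    rwa [Nat.Coprime.gcd_eq_one hab] at this
  have h4 : addOrderOf z = 1 := Nat.dvd_one.1 h3
  exact AddMonoid.addOrderOf_eq_one_iff.1 h4

/-- **T-glue**, abstract form -/
theorem toricglue_abstract {M J : Type*} [Group M] [AddCommGroup J] [DistribMulAction M J]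
    (I : Subgroup M) (G F : AddSubgroup J) [Finite G] (r Np : ℕ) (hcop : Nat.Coprime r Np)
    (htors : ∀ x ∈ G, ∃ k : ℕ, r ^ k • x = 0)
    (hstab : ∀ σ ∈ I, ∀ x ∈ G, σ • x ∈ G)
    (hunip : ∀ σ ∈ I, ∀ x ∈ G, σ • σ • x - 2 • (σ • x) + x = 0)
    (σ₀ : M) (hσ₀ : σ₀ ∈ I)
    (htame : ∀ σ ∈ I, ∃ (n : ℤ) (e : ℕ), ∀ x ∈ G, ((σ * σ₀ ^ (-n)) ^ (Np ^ e)) • x = x)
    (hF : ∀ x ∈ G, (∀ σ ∈ I, σ • x = x) → x ∈ F) :
    Nat.card G ≤ Nat.card ↥(G ⊓ F) ^ 2 := by
  refine toric_card_le_fixed_sq G F σ₀ (hstab σ₀ hσ₀) (hunip σ₀ hσ₀) (fun x hx hfix => ?_)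
  refine hF x hx (fun σ hσ => ?_)
  obtain ⟨n, e, hne⟩ := htame σ hσ
  have hπ : σ * σ₀ ^ (-n) ∈ I := I.mul_mem hσ (I.zpow_mem hσ₀ _)
  -- `π = 1` on `G`
  have hπx : (σ * σ₀ ^ (-n)) • x = x := by
    have h1 := toricglue_unip_pow (σ * σ₀ ^ (-n)) G (hstab _ hπ) (hunip _ hπ) (Np ^ e) x hx
    rw [hne x hx] at h1
    have h2 : (Np ^ e) • ((σ * σ₀ ^ (-n)) • x - x) = 0 := by
      have := h1.symm
      rwa [add_eq_left] at this
    obtain ⟨k, hk⟩ := htors _ (G.sub_mem (hstab _ hπ x hx) hx)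
    have h3 := toricglue_coprime_zero (Nat.Coprime.pow k e hcop) hk h2
    exact sub_eq_zero.1 h3
  -- `σ₀ ^ (-n)` fixes `x`
  have hz : σ₀ ^ (-n) • x = x := by
    have hmem : σ₀ ∈ MulAction.stabilizer M x := MulAction.mem_stabilizer_iff.2 hfix
    exact MulAction.mem_stabilizer_iff.1 ((MulAction.stabilizer M x).zpow_mem hmem _)
  calc σ • x = σ • (σ₀ ^ (-n) • x) := by rw [hz]
    _ = (σ * σ₀ ^ (-n)) • x := (mul_smul _ _ _).symm
    _ = x := hπx

/-- **T-glue**: TORIC from the tameness of inertia and UNIP. -/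
theorem stmtSelToric_of (htame : StmtToricTame) (hunip : StmtToricUnip) : StmtSelToric := by
  intro N _ r hN hr hrN AN hAN G hGfin htors hstab
  haveI : Finite G := hGfin
  obtain ⟨E, hE1, hE2, hE3⟩ := toricpre_field N G (fun x hx => by
    obtain ⟨k, hk⟩ := htors x hx
    exact ⟨r ^ k, pow_ne_zero k hr.ne_zero, hk⟩)
  obtain ⟨σ₀, hσ₀, hσ⟩ := htame N hN AN hAN E hE1 hE2
  have hU := hunip N r hN hr hrN N hN (Ne.symm hrN) dvd_rfl (by
    intro h
    have h1 : N ^ 2 ≤ N := Nat.le_of_dvd hN.pos h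
    have h2 : 2 ≤ N := hN.two_le
    nlinarith) AN hAN
  refine toricglue_abstract (M := GalQ) (J := JZero N) (AN.inertiaSubgroupIn ℚ) G (selIF N AN)
    r N ((Nat.coprime_primes hr hN).2 hrN) htors hstab
    (fun σ hσ' x hx => hU σ hσ' x (htors x hx)) σ₀ hσ₀ (fun σ hσ' => ?_)
    (fun x _ hfix => mem_selIF.2 hfix)
  obtain ⟨n, e, hne⟩ := hσ σ hσ'
  exact ⟨n, e, fun x hx => hE3 _ hne x hx⟩

end Fermat.Agent.S15
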